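import Fermat.Agent.S45.NUE.Defs
import Fermat.Agent.S36.NU.H44_NormUpNU

/-!
# S45 / NU_e (helper68): the torsion form at every level from the target of the geometric side

`torsNUE_final : Stmt_NUCoreETame → ∀ M q p, Stmt_TorsNUE M q p`
(tame descent with helper44's base change of the norms + Hilbert 90 descent of helper61).
-/

set_option autoImplicit false

namespace Fermat.Agent.S45.NUE

/-- **(NU) at `q ^ e`, `e ≥ 3`, at every level**, from the Kummer form at the tame levels. -/
theorem torsNUE_final (h : Stmt_NUCoreETame) (M q p : ℕ) [NeZero M] [NeZero q] :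
    Stmt_TorsNUE M q p :=
  torsNUE_of_nuCoreE M q p (nuCoreE_all Fermat.Agent.S36.NU.H44.stmt_NormUpNU h p M q)

end Fermat.Agent.S45.NUE
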