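import Fermat.Agent.S36.NU.H81_NUCore

/-!
# S45 / NU_e (helper68, owner of the geometric side): interfaces for "Carayol at `q^e`, `e ≥ 3`"

Level `M * q` with `q ^ 2 ∣ M` (so `q ^ 3 ∣ M q`); `α, β : X₀(M q) → X₀(M)` the two degeneracy maps
(`heckeAlphaBar ℚ̄ M q`, `heckeBetaBar ℚ̄ M q`).  The test prime `p` is FREE in S45, so we only ask
for the primes `p > q + 1` (then `p ≥ 5` and `p ∤ 6 q (q - 1) (q + 1)`).

* `GoodExp q n` : `n` is prime to `6 q (q - 1) (q + 1)`;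
* `Stmt_NUCoreE M q p` : the Kummer form of (NU) at `(M, q, p)`, `q ^ 2 ∣ M`, `q + 1 < p`
  (`= S36.NU.H81.Stmt_NUCore` with `q ^ 2 ∣ M` instead of `q ∥ M`);
* `Stmt_NUCoreEK M q` : the same with a fixed exponent `K ≠ 0` and every `n` with `GoodExp q n`;
* `Stmt_NUCoreETame` : `Stmt_NUCoreEK M q` at the tame levels (`4 ∣ M` for `q` odd, `9 ∣ M` for
  `q = 2`): THE TARGET of the geometric side;
* `Stmt_TorsNUE M q p` : the torsion form (input of the chain of helper43).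

Theorems: `nuCoreE_of_K`, `torsNUE_of_nuCoreE`, `nuCoreE_descend_gen`, `nuCoreE_all`,
`torsNUE_final : Stmt_NUCoreETame → ∀ M q p, Stmt_TorsNUE M q p`.
-/

set_option autoImplicit false
set_option linter.style.haveILetI false
set_option linter.unusedSectionVars false
set_option maxHeartbeats 1000000

noncomputable section

namespace Fermat.Agent.S45.NUE

open AlgebraicCurve ModularCurve Fermat.Agent.S24 Fermat.Agent.Lib.HeckeComm
  Fermat.Agent.S36.H44 Fermat.Agent.BAD Fermat.Agent.S35.H89 Fermat.Agent.S35.H44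
  Fermat.Agent.S36.NU.H81

local notation "Kb" => AlgebraicClosure ℚ

/-- `n` is prime to `6 q (q - 1) (q + 1)`. -/
def GoodExp (q n : ℕ) : Prop := Nat.Coprime n (6 * q * (q - 1) * (q + 1))

/-- **Kummer form of (NU) at `q ^ e`, `e ≥ 3`**, at `(M, q, p)`. -/
def Stmt_NUCoreE (M q p : ℕ) [NeZero M] [NeZero q] : Prop :=
  q.Prime → q ^ 2 ∣ M → p.Prime → q + 1 < p →
  ∃ A : ValuationSubring Kb, A.LiesOverPrime q ∧ ∃ c : ℕ,
    ∀ (m : ℕ) (f : ↥(FNbar (M * q))), f ≠ 0 →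
      (∀ P : Place Kb ↥(FNbar (M * q)), ((p ^ m : ℕ) : ℤ) ∣ P.ord f) →
      (∀ σ ∈ A.inertiaSubgroupIn ℚ, galF (M * q) σ • f = f) →
      (f : LaurentSeries Kb).leadingCoeff = 1 →
    ∀ (hα : HeckeAlphaBarIntegral Kb M q) (hβ : HeckeBetaBarIntegral Kb M q)
      (D : Divisor Kb ↥(FNbar (M * q))), (∀ P, D P = P.ord f) →
      (∃ g : ↥(FNbar M), g ≠ 0 ∧ ∀ Q : Place Kb ↥(FNbar M),
        Divisor.pushforwardAlong (heckeAlphaBar Kb M q) hα D Q = (p ^ m : ℕ) * Q.ord g) →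
      (∃ g : ↥(FNbar M), g ≠ 0 ∧ ∀ Q : Place Kb ↥(FNbar M),
        Divisor.pushforwardAlong (heckeBetaBar Kb M q) hβ D Q = (p ^ m : ℕ) * Q.ord g) →
      ∃ t : ↥(FNbar (M * q)), t ^ (p ^ m) = f ^ (p ^ c)

/-- **Kummer form of (NU) at `q ^ e`, `e ≥ 3`, with a fixed exponent** `K ≠ 0`, for every `n`
prime to `6 q (q - 1) (q + 1)`. -/
def Stmt_NUCoreEK (M q : ℕ) [NeZero M] [NeZero q] : Prop :=
  q.Prime → q ^ 2 ∣ M →
  ∃ A : ValuationSubring Kb, A.LiesOverPrime q ∧ ∃ K : ℕ, K ≠ 0 ∧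
    ∀ (n : ℕ), GoodExp q n → ∀ (f : ↥(FNbar (M * q))), f ≠ 0 →
      (∀ P : Place Kb ↥(FNbar (M * q)), (n : ℤ) ∣ P.ord f) →
      (∀ σ ∈ A.inertiaSubgroupIn ℚ, galF (M * q) σ • f = f) →
      (f : LaurentSeries Kb).leadingCoeff = 1 →
    ∀ (hα : HeckeAlphaBarIntegral Kb M q) (hβ : HeckeBetaBarIntegral Kb M q)
      (D : Divisor Kb ↥(FNbar (M * q))), (∀ P, D P = P.ord f) →
      (∃ g : ↥(FNbar M), g ≠ 0 ∧ ∀ Q : Place Kb ↥(FNbar M),
        Divisor.pushforwardAlong (heckeAlphaBar Kb M q) hα D Q = n * Q.ord g) →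
      (∃ g : ↥(FNbar M), g ≠ 0 ∧ ∀ Q : Place Kb ↥(FNbar M),
        Divisor.pushforwardAlong (heckeBetaBar Kb M q) hβ D Q = n * Q.ord g) →
      ∃ t : ↥(FNbar (M * q)), t ^ n = f ^ K

/-- **THE TARGET of the geometric side of S45**: the Kummer form with a fixed exponent at all
tame levels. -/
def Stmt_NUCoreETame : Prop :=
  ∀ (M q : ℕ) [NeZero M] [NeZero q], TameNU M q → Stmt_NUCoreEK M q

/-- **(NU) at `q ^ e`, `e ≥ 3`**: up to a bounded power of `p`, no `q`-new `p`-power torsion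
point of `J₀(M q)` is fixed by inertia at `q` (`q ^ 2 ∣ M`, `p > q + 1`). -/
def Stmt_TorsNUE (M q p : ℕ) [NeZero M] [NeZero q] : Prop :=
  q.Prime → q ^ 2 ∣ M → p.Prime → q + 1 < p →
    ∃ A : ValuationSubring (AlgebraicClosure ℚ), A.LiesOverPrime q ∧
      ∃ c : ℕ, ∀ x : JZero (M * q), (∃ n : ℕ, p ^ n • x = 0) → IsQNew M q x →
        (∀ σ ∈ A.inertiaSubgroupIn ℚ, σ • x = x) → p ^ c • x = 0

/-- A prime `p > q + 1` is prime to `6 q (q - 1) (q + 1)`. -/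
theorem goodExp_pow {q p : ℕ} (hq : q.Prime) (hp : p.Prime) (hqp : q + 1 < p) (m : ℕ) :
    GoodExp q (p ^ m) := by
  unfold GoodExp
  apply Nat.Coprime.pow_left
  rw [Nat.Prime.coprime_iff_not_dvd hp]
  have hq2 := hq.two_le
  intro hd
  rcases (Nat.Prime.dvd_mul hp).mp hd with h | h
  · rcases (Nat.Prime.dvd_mul hp).mp h with h | h
    · rcases (Nat.Prime.dvd_mul hp).mp h with h | h
      · have h6 : p ∣ 2 * 3 := h
        rcases (Nat.Prime.dvd_mul hp).mp h6 with h' | h'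
        · have := Nat.le_of_dvd (by norm_num) h'
          omega
        · have := Nat.le_of_dvd (by norm_num) h'
          omega
      · have := Nat.le_of_dvd hq.pos h
        omega
    · have := Nat.le_of_dvd (by omega) h
      omega
  · have := Nat.le_of_dvd (by omega) h
    omega

/-- **The Kummer form with a fixed exponent implies the `p`-primary Kummer form.** -/
theorem nuCoreE_of_K (M q p : ℕ) [NeZero M] [NeZero q] (h : Stmt_NUCoreEK M q) :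
    Stmt_NUCoreE M q p := by
  intro hq hqM hp hqp
  obtain ⟨A, hA, K, hK0, hK⟩ := h hq hqM
  obtain ⟨c, K', hK', hKeq⟩ := Nat.exists_eq_pow_mul_and_not_dvd hK0 p hp.ne_one
  refine ⟨A, hA, c, ?_⟩
  intro m f hf0 hdiv hI hlc hα hβ D hD hDα hDβ
  obtain ⟨t, ht⟩ := hK (p ^ m) (goodExp_pow hq hp hqp m) f hf0 hdiv hI hlc hα hβ D hD hDα hDβ
  rw [hKeq] at ht
  refine exists_pow_eq_of_coprime f t hf0 (p ^ m) (p ^ c) K' ?_ ht
  exact Nat.Coprime.pow_right m ((Nat.Prime.coprime_iff_not_dvd hp).mpr hK').symm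

end Fermat.Agent.S45.NUE

namespace Fermat.Agent.S45.NUE

open AlgebraicCurve ModularCurve Fermat.Agent.S24 Fermat.Agent.Lib.HeckeComm
  Fermat.Agent.S36.H44 Fermat.Agent.BAD Fermat.Agent.S35.H89 Fermat.Agent.S35.H44
  Fermat.Agent.S36.NU.H81

local notation "Kb" => AlgebraicClosure ℚ

/-- **`Stmt_TorsNUE` from the Kummer form** (Hilbert 90 descent B0 of helper61). -/
theorem torsNUE_of_nuCoreE (M q p : ℕ) [NeZero M] [NeZero q] (hS : Stmt_NUCoreE M q p) :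
    Stmt_TorsNUE M q p := by
  intro hq hqM hp hqp
  obtain ⟨A, hA, c, hc⟩ := hS hq hqM hp hqp
  refine ⟨A, hA, c, ?_⟩
  intro x hx hnew hI
  obtain ⟨m, hm⟩ := hx
  obtain ⟨D, h, hh0, rfl, hDh, -, hhI, hlc, -⟩ :=
    Fermat.Agent.S36.H61.stmt_NUB0 (M * q) (A.inertiaSubgroupIn ℚ) (p ^ m) x hm hI
  obtain ⟨hpa, hpb⟩ := (isQNew_iff M q _).mp hnew
  have hDα := (pic0Push_mk_eq_zero_iff _ _ _ _ D).mp hpa
  have hDβ := (pic0Push_mk_eq_zero_iff _ _ _ _ D).mp hpb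
  set n : ℕ := p ^ m with hn
  have hn0 : n ≠ 0 := pow_ne_zero _ hp.ne_zero
  have hnZ : (n : ℤ) ≠ 0 := by exact_mod_cast hn0
  set Df : Divisor Kb ↥(FNbar (M * q)) := (n : ℤ) • (D : Divisor Kb ↥(FNbar (M * q))) with hDf
  have hDf' : ∀ P, Df P = P.ord h := by
    intro P
    rw [← hDh P, hDf]
    simp
  have hdiv : ∀ P : Place Kb ↥(FNbar (M * q)), (n : ℤ) ∣ P.ord h :=
    fun P => ⟨_, (hDh P).symm⟩
  have hpush : ∀ (φ : ↥(FNbar M) →ₐ[Kb] ↥(FNbar (M * q))) (hφ : φ.toRingHom.IsIntegral),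
      (Divisor.pushforwardAlong φ hφ (D : Divisor Kb ↥(FNbar (M * q)))).IsPrincipal →
      ∃ g : ↥(FNbar M), g ≠ 0 ∧ ∀ Q : Place Kb ↥(FNbar M),
        Divisor.pushforwardAlong φ hφ Df Q = n * Q.ord g := by
    rintro φ hφ ⟨g, hg0, hg⟩
    refine ⟨g, hg0, fun Q => ?_⟩
    rw [hDf, map_zsmul, Finsupp.smul_apply, smul_eq_mul, hg Q]
  obtain ⟨t, ht⟩ := hc m h hh0 hdiv hhI hlc (alpha_integral M q) (beta_integral M q) Df hDf'
    (hpush _ _ hDα) (hpush _ _ hDβ)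
  have ht0 : t ≠ 0 := by
    rintro rfl
    rw [zero_pow hn0] at ht
    exact pow_ne_zero _ hh0 ht.symm
  rw [← pic0_mk_nsmul, Fermat.Agent.S36.H44.pic0_mk_eq_zero_iff]
  refine ⟨t, ht0, fun P => ?_⟩
  have h1 : (n : ℤ) * P.ord t = (p ^ c : ℕ) * P.ord h := by
    rw [← Fermat.Agent.RED.H17.ord_pow, ← Fermat.Agent.RED.H17.ord_pow, ht]
  rw [← hDh P] at h1
  apply mul_left_cancel₀ hnZ
  rw [h1]
  simp only [AddSubgroup.coe_nsmul, Finsupp.smul_apply, nsmul_eq_mul]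
  push_cast
  ring

/-- **KD-NUE**: the Kummer form descends from level `r M q` to level `M q`
(`r ∣ 36`, `q ∤ r`). -/
theorem nuCoreE_descend_gen (hBC : Stmt_NormUpNU) (M q p r : ℕ) [NeZero M] [NeZero q] [NeZero r]
    (hr36 : r ∣ 36) (hqr : ¬ q ∣ r) (h : Stmt_NUCoreE (r * M) q p) : Stmt_NUCoreE M q p := by
  intro hq hqM hp hqp
  have hq1M : q ∣ M := Dvd.dvd.trans (dvd_pow_self q (by norm_num)) hqM
  have hqrM : q ^ 2 ∣ r * M := Dvd.dvd.mul_left hqM r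
  obtain ⟨A, hA, c, hc⟩ := h hq hqrM hp hqp
  obtain ⟨hbα, hbβ⟩ := hBC M q r hq hq1M hqr
  refine ⟨A, hA, c, ?_⟩
  intro m f hf0 hdiv hI hlc hαI hβI D hD hDα hDβ
  obtain ⟨g, hg0, hg⟩ := hDα
  obtain ⟨g', hg'0, hg'⟩ := hDβ
  set n : ℕ := p ^ m with hn
  have hn0 : 0 < n := pow_pos hp.pos m
  have hf'0 : inclUp M q r f ≠ 0 := fun h0 =>
    hf0 ((inclUp M q r).toRingHom.injective (by simpa using h0))
  set f' : FN (r * M * q) := inclUp M q r f with hf'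
  have hdiv' : ∀ P' : Place Kb (FN (r * M * q)), (n : ℤ) ∣ P'.ord f' := by
    intro P'
    rw [hf', Place.ord_restrictAlong (inclUp M q r) (inclUp_integral M q r)]
    exact Dvd.dvd.mul_left (hdiv _) _
  have hI' : ∀ σ ∈ A.inertiaSubgroupIn ℚ, galF (r * M * q) σ • f' = f' := by
    intro σ hσ
    rw [hf', ← inclUp_galF, hI σ hσ]
  have hlc' : (f' : LaurentSeries Kb).leadingCoeff = 1 := by
    rw [hf', coe_inclUp]
    exact hlc
  haveI := hasPrincipalDivisors_FN (r * M * q)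
  obtain ⟨D', hD', -⟩ := HasPrincipalDivisors.exists_divisor (K := Kb) f' hf'0
  have hinj : ∀ x : FN M, x ≠ 0 → inclLo M r x ≠ 0 := fun x hx h0 =>
    hx ((inclLo M r).toRingHom.injective (by simpa using h0))
  obtain ⟨t', ht'⟩ := hc m f' hf'0 hdiv' hI' hlc' (alpha_integral (r * M) q)
    (beta_integral (r * M) q) D' hD'
    ⟨inclLo M r g, hinj g hg0, fun Q' =>
      push_up M q r (heckeAlphaBar Kb M q) (heckeAlphaBar Kb (r * M) q) hαI
        (alpha_integral (r * M) q) hbα n f hf0 D hD g hg D' hD' Q'⟩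
    ⟨inclLo M r g', hinj g' hg'0, fun Q' =>
      push_up M q r (heckeBetaBar Kb M q) (heckeBetaBar Kb (r * M) q) hβI
        (beta_integral (r * M) q) hbβ n f hf0 D hD g' hg' D' hD' Q'⟩
  have hdivR : ∀ P : Place Kb (FN (M * q)), (n : ℤ) ∣ P.ord (f ^ (p ^ c)) := by
    intro P
    rw [Fermat.Agent.RED.H17.ord_pow]
    exact Dvd.dvd.mul_left (hdiv P) _
  have hM36 : r * M * q ∣ 36 * (M * q) := by
    obtain ⟨c, hc⟩ := hr36
    exact ⟨c, by rw [hc]; ring⟩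
  refine Fermat.Agent.RED.KD.H22.stmt_KD (M * q) (r * M * q) n (dvd_up M q r) hM36 hn0
    (f ^ (p ^ c)) hdivR ⟨(t' : LaurentSeries Kb), t'.2, ?_⟩
  have h3 := congrArg (Subtype.val : FN (r * M * q) → LaurentSeries Kb) ht'
  have h4 : ((t' : FN (r * M * q)) : LaurentSeries Kb) ^ n
      = ((f' ^ (p ^ c) : FN (r * M * q)) : LaurentSeries Kb) := h3
  rw [h4, hf', ← map_pow, coe_inclUp]

/-- **The Kummer form at every `(M, q, p)` from the tame levels.** -/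
theorem nuCoreE_all (hBC : Stmt_NormUpNU) (h : Stmt_NUCoreETame) (p : ℕ)
    (M q : ℕ) [NeZero M] [NeZero q] : Stmt_NUCoreE M q p := by
  intro hq hqM hp hqp
  by_cases h2 : q = 2
  · haveI : NeZero 9 := ⟨by norm_num⟩
    refine nuCoreE_descend_gen hBC M q p 9 (by norm_num) ?_
      (nuCoreE_of_K (9 * M) q p (h (9 * M) q (Or.inr ⟨h2, dvd_mul_right 9 M⟩))) hq hqM hp hqp
    subst h2
    norm_num
  · haveI : NeZero 4 := ⟨by norm_num⟩
    refine nuCoreE_descend_gen hBC M q p 4 (by norm_num) ?_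
      (nuCoreE_of_K (4 * M) q p (h (4 * M) q (Or.inl ⟨h2, dvd_mul_right 4 M⟩))) hq hqM hp hqp
    intro hd
    have h22 : q ∣ 2 ^ 2 := by simpa using hd
    exact h2 ((Nat.prime_dvd_prime_iff_eq hq Nat.prime_two).mp (hq.dvd_of_dvd_pow h22))

end Fermat.Agent.S45.NUE
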