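import Fermat.Agent.S36.NU.H91_HssAsm23
attribute [local instance 10000] SubalgebraClass.toAlgebra
attribute [local instance 10000] HahnSeries.powerSeriesAlgebra

/-!
# S45 / NU_e, package E-FIN, leaf E-PT-SS, SS-ASM: COORD + POLE at level `M`, `q = 2, 3` (helper12)

The pole data at the supersingular points of the tame level `M`, in the shape used by helper16's
`H16.hssE_mod` (`κ i₀ = FM A M`, `emb = Subtype.val`): a constant `c ∈ 𝔽_{q²}`, the reductions
`u`, `δ` of the coordinate and of `kdel q u₀`, `ord_z (u - c) = 1`, `ord_z δ = -1`.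

* `pole_ssM_three` : `q = 3`, `4 ∣ M`, `u₀ = q23hZ4` (coordinate `q23uF3`);
* `pole_ssM_two` : `q = 2`, `9 ∣ M`, `u₀ = q23hZ9` (coordinate `q23uF2`);
* `ord_pow_of_pole` : `ord_z (δ ^ m) = - m`.
-/

set_option autoImplicit false
set_option linter.style.haveILetI false
set_option linter.unusedSectionVars false
set_option synthInstance.maxHeartbeats 400000
set_option maxHeartbeats 1000000

noncomputable section

open Polynomial AlgebraicCurve IntermediateField ModularCurve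

namespace Fermat.Agent.S45.NUE.H12

open Fermat.Agent.S24 Fermat.Agent.BAD.H88 Fermat.Agent.BAD.H30 Fermat.Agent.BAD.H21
open Fermat.Agent.S28 Fermat.Agent.S28.H73 Fermat.Agent.RED.H73 Fermat.Agent.RED.H17
open Fermat.Agent.S36.NU.H88 Fermat.Agent.S36.NU.H23 Fermat.Agent.S36.NU.H16
open Fermat.Agent.S36.NU.H41 Fermat.Agent.S36.NU.H73 Fermat.Agent.S36.NU.H65
open Fermat.Agent.S36.NU.H5 Fermat.Agent.S36.NU.H74 Fermat.Agent.S36.NU.H24
open Fermat.Agent.RED Fermat.Agent.BAD Fermat.Agent.S36.NU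

section Abs

variable {k κ : Type*} [Field k] [Field κ] [Algebra k κ]

/-- A simple pole: `ord_z (δ ^ m) = - m`. -/
theorem ord_pow_of_pole (z : Place k κ) (δ : κ) (h : z.ord δ = -1) (m : ℕ) :
    z.ord (δ ^ m) = -((m : ℕ) : ℤ) := by
  rw [Fermat.Agent.RED.H17.ord_pow, h]
  ring

end Abs

section Three

variable (A : ValuationSubring Kbar) (M : ℕ) [NeZero M] [NeZero (M * 3)]
  (hqM : ¬ 3 ∣ M) (hA : A.LiesOverPrime 3) (h4 : 4 ∣ M)

attribute [local instance] algkM

include hqM hA h4 in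
/-- **COORD + POLE at the supersingular points, `q = 3`, `4 ∣ M`.** -/
theorem pole_ssM_three (z : Place (kV A) (FM A M)) (hz : z ∈ ssM A 3 M) :
    ∃ (c : kV A) (u δ : FM A M),
      (u : LaurentSeries (kV A)) = coeffMap (Int.castRingHom (kV A)) q23hZ4 ∧
      (δ : LaurentSeries (kV A)) = coeffMap (Int.castRingHom (kV A)) (kdel 3 q23hZ4) ∧
      z.ord (u - algebraMap (kV A) (FM A M) c) = 1 ∧ c ^ 3 ^ 2 = c ∧ z.ord δ = -1 := by
  haveI : Fact (Nat.Prime 3) := ⟨Nat.prime_three⟩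
  haveI : CharP (kV A) 3 := BAD.H82.charP_kV A Nat.prime_three hA
  have hE := stmt_GA M 3 Nat.prime_three hqM A hA
  have hum : coeffMap (Int.castRingHom (kV A)) q23hZ4
      ∈ redField A (modularFunctionFieldBar M) (hScM A M) := by
    rw [hE]
    exact H44.ubar_mem_gen A 3 M hA hqM (q23uF3 M h4) q23hZ4 (q23uF3_coe M h4)
  have hdm : coeffMap (Int.castRingHom (kV A)) (kdel 3 q23hZ4)
      ∈ redField A (modularFunctionFieldBar M) (hScM A M) := by
    rw [hE]
    exact H44.dbar_mem_three A M hA h4 hqM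
  have hpos := H91.ord_jRed_pos_of_ssM A 3 M Nat.prime_three hA (Or.inr rfl) z hz
  set u : FM A M := ⟨_, hum⟩ with hu
  set δ : FM A M := ⟨_, hdm⟩ with hδ
  obtain ⟨h1, h2, h3, -⟩ := H44.pole_full_three A M hA h4 hqM
    (redField A (modularFunctionFieldBar M) (hScM A M)) hE z
    (Fermat.Agent.BAD.H91.jRed A M) u δ (-δ ^ 3) (red_jF A M)
    (coeffMap_q23hZ4 (kV A)) rfl rfl hpos
  exact ⟨1, u, δ, rfl, rfl, h1, h2, h3⟩

end Three

section Two

variable (A : ValuationSubring Kbar) (M : ℕ) [NeZero M] [NeZero (M * 2)]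
  (hqM : ¬ 2 ∣ M) (hA : A.LiesOverPrime 2) (h9 : 9 ∣ M)

attribute [local instance] algkM

include hqM hA h9 in
/-- **COORD + POLE at the supersingular points, `q = 2`, `9 ∣ M`.** -/
theorem pole_ssM_two (z : Place (kV A) (FM A M)) (hz : z ∈ ssM A 2 M) :
    ∃ (c : kV A) (u δ : FM A M),
      (u : LaurentSeries (kV A)) = coeffMap (Int.castRingHom (kV A)) q23hZ9 ∧
      (δ : LaurentSeries (kV A)) = coeffMap (Int.castRingHom (kV A)) (kdel 2 q23hZ9) ∧
      z.ord (u - algebraMap (kV A) (FM A M) c) = 1 ∧ c ^ 2 ^ 2 = c ∧ z.ord δ = -1 := by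
  haveI : Fact (Nat.Prime 2) := ⟨Nat.prime_two⟩
  haveI : CharP (kV A) 2 := BAD.H82.charP_kV A Nat.prime_two hA
  have hE := stmt_GA M 2 Nat.prime_two hqM A hA
  have hum : coeffMap (Int.castRingHom (kV A)) q23hZ9
      ∈ redField A (modularFunctionFieldBar M) (hScM A M) := by
    rw [hE]
    exact H44.ubar_mem_gen A 2 M hA hqM (q23uF2 M h9) q23hZ9 (q23uF2_coe M h9)
  have hdm : coeffMap (Int.castRingHom (kV A)) (kdel 2 q23hZ9)
      ∈ redField A (modularFunctionFieldBar M) (hScM A M) := by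
    rw [hE]
    exact H44.dbar_mem_two A M hA h9 hqM
  have hpos := H91.ord_jRed_pos_of_ssM A 2 M Nat.prime_two hA (Or.inl rfl) z hz
  set u : FM A M := ⟨_, hum⟩ with hu
  set δ : FM A M := ⟨_, hdm⟩ with hδ
  obtain ⟨h1, h2, h3, -⟩ := H44.pole_full_two A M hA h9 hqM
    (redField A (modularFunctionFieldBar M) (hScM A M)) hE z
    (Fermat.Agent.BAD.H91.jRed A M) u δ (-δ ^ 2) (red_jF A M)
    (coeffMap_q23hZ9 (kV A)) rfl rfl hpos
  exact ⟨1, u, δ, rfl, rfl, h1, h2, h3⟩

end Two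

end Fermat.Agent.S45.NUE.H12
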