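import Fermat.Agent.S45.NUE.H23_Val
import Fermat.Agent.S36.NU.H88_Ram11

/-!
# S45 / NU_e, package E-VAL-3 (helper57): RAM at a cusp with a normalised expansion, GENERIC form

Generalises `S36/NU/H88_Ram11` (`ζ_q`, the middle cusp of level `M q²`) to a root of unity `z` of
order `q^m` and any cusp with a normalised expansion `cG h` (helper23's `IsCuspExp`).

* `val_sub_one_pow_totient` : `|ζ - 1|^φ(q^m) = |q|` for a primitive `q^m`-th root of unity;
* `rootUnit`, `resV_rootUnit` : roots of unity of `q`-power order are units of `A` with residue `1`;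
* `twist_sub_self`, `qExpand_twist_sub_self`, `redV_rqA` : `J(z s^Q) - J(s^Q) = (z - 1) Y`,
  `Y` integral with reduction `(θ J̄)(s^Q)`, for every `J = u₀ ∈ ℤ((s))`;
* for `x ∈ F_N` with `cG h x = J(z s^Q) - J(s^Q)`: `thG_mem`, `redG_thG`, `val_thG`,
  `val_eq_val_sub_one : v(x) = v(z - 1)`, **`ramG`** `: v(x)^φ(q^m) = v(q)` (if `θ J̄ ≠ 0`, `z`
  primitive of order `q^m`, `m ≥ 1`), **`ramGo`** (the same on the inertia-fixed functions);
* `ramG_j`, `ramGo_j`, `redG_thG_j` : the case `J = j`, `x - y` with `cG h x = j(z s^Q)`,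
  `cG h y = j(s^Q)`.
-/

set_option autoImplicit false
set_option synthInstance.maxHeartbeats 400000
set_option maxHeartbeats 1000000
set_option linter.unusedSectionVars false
set_option linter.style.haveILetI false

noncomputable section

namespace Fermat.Agent.S45.NUE.H57

open Fermat.Agent.S24 Fermat.Agent.BAD.H88 ModularCurve
open Fermat.Agent.S28 Fermat.Agent.S28.H73 Fermat.Agent.RED.H73 Fermat.Agent.RED.H17
open Fermat.Agent.RED.H95 Fermat.Agent.RED.H10
open Fermat.Agent.S36.NU Fermat.Agent.S36.NU.H88 Fermat.Agent.S36.NU.H23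
open Fermat.Agent.S45.NUE.H23

/-! ## The valuation of `ζ - 1`, `ζ` a primitive `q^m`-th root of unity -/

section ValZeta

variable {C : Type} [Field C] (O : ValuationSubring C)

/-- Two primitive roots of unity of the same order: `|1 - μ| = |1 - ζ|`. -/
theorem val_one_sub_primitive {n : ℕ} (hn : n ≠ 0) {ζ μ : C} (hζ : IsPrimitiveRoot ζ n)
    (hμ : IsPrimitiveRoot μ n) : O.valuation (1 - μ) = O.valuation (1 - ζ) := by
  haveI : NeZero n := ⟨hn⟩
  have hζ1 : O.valuation ζ ≤ 1 := (val_root_one O hn hζ.pow_eq_one).le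
  have hμ1 : O.valuation μ ≤ 1 := (val_root_one O hn hμ.pow_eq_one).le
  obtain ⟨i, -, hi⟩ := hζ.eq_pow_of_pow_eq_one hμ.pow_eq_one
  obtain ⟨j, -, hj⟩ := hμ.eq_pow_of_pow_eq_one hζ.pow_eq_one
  apply le_antisymm
  · rw [← hi]
    exact val_one_sub_pow_le' O hζ1 i
  · rw [← hj]
    exact val_one_sub_pow_le' O hμ1 j

/-- `|ζ - 1|^φ(q^m) = |q|` for a primitive `q^m`-th root of unity `ζ`, `q` prime, `m ≥ 1`. -/
theorem val_sub_one_pow_totient {q : ℕ} (hq : q.Prime) {m : ℕ} (hm : m ≠ 0) {ζ : C}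
    (hζ : IsPrimitiveRoot ζ (q ^ m)) :
    O.valuation (ζ - 1) ^ (Nat.totient (q ^ m)) = O.valuation (q : C) := by
  haveI : Fact q.Prime := ⟨hq⟩
  obtain ⟨k, rfl⟩ : ∃ k, m = k + 1 := ⟨m - 1, by omega⟩
  have hn : q ^ (k + 1) ≠ 0 := pow_ne_zero _ hq.ne_zero
  have h1 : Polynomial.eval 1 (Polynomial.cyclotomic (q ^ (k + 1)) C) = (q : C) :=
    Polynomial.eval_one_cyclotomic_prime_pow k
  rw [Polynomial.cyclotomic_eq_prod_X_sub_primitiveRoots hζ, Polynomial.eval_prod] at h1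
  rw [← h1, map_prod, Valuation.map_sub_swap]
  have h2 : ∀ μ ∈ primitiveRoots (q ^ (k + 1)) C,
      O.valuation (Polynomial.eval 1 (Polynomial.X - Polynomial.C μ)) = O.valuation (1 - ζ) := by
    intro μ hμ
    rw [Polynomial.eval_sub, Polynomial.eval_X, Polynomial.eval_C]
    exact val_one_sub_primitive O hn hζ ((mem_primitiveRoots (Nat.pos_of_ne_zero hn)).mp hμ)
  rw [Finset.prod_congr rfl h2, Finset.prod_const, hζ.card_primitiveRoots]

end ValZeta

/-! ## Roots of unity as units of a valuation ring -/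

section RootUnit

variable {C : Type} [Field C] (O : ValuationSubring C)

theorem root_mem {z : C} {r : ℕ} (hr : r ≠ 0) (hz : z ^ r = 1) : z ∈ O :=
  (ValuationSubring.valuation_le_one_iff O z).mp (val_root_one O hr hz).le

theorem root_ne_zero {z : C} {r : ℕ} (hr : r ≠ 0) (hz : z ^ r = 1) : z ≠ 0 := by
  rintro rfl
  rw [zero_pow hr] at hz
  exact zero_ne_one hz

/-- A root of unity as a unit of `O`. -/
def rootUnit (z : C) (r : ℕ) (hr : r ≠ 0) (hz : z ^ r = 1) : (↥O)ˣ where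
  val := ⟨z, root_mem O hr hz⟩
  inv := ⟨z⁻¹, root_mem O hr (by rw [inv_pow, hz, inv_one])⟩
  val_inv := Subtype.ext (mul_inv_cancel₀ (root_ne_zero hr hz))
  inv_val := Subtype.ext (inv_mul_cancel₀ (root_ne_zero hr hz))

theorem coe_rootUnit (z : C) (r : ℕ) (hr : r ≠ 0) (hz : z ^ r = 1) :
    (((rootUnit O z r hr hz : (↥O)ˣ) : ↥O) : C) = z := rfl

/-- In residue characteristic `q`, a root of unity of order a power of `q` reduces to `1`. -/
theorem resV_rootUnit (q : ℕ) (hq : q.Prime) [CharP (kV O) q] (m : ℕ) (z : C)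
    (hz : z ^ (q ^ m) = 1) :
    resV O ((rootUnit O z (q ^ m) (pow_ne_zero m hq.ne_zero) hz : (↥O)ˣ) : ↥O) = 1 := by
  haveI : Fact q.Prime := ⟨hq⟩
  have h1 : ((rootUnit O z (q ^ m) (pow_ne_zero m hq.ne_zero) hz : (↥O)ˣ) : ↥O) ^ (q ^ m) = 1 :=
    Subtype.ext hz
  have h2 : (resV O ((rootUnit O z (q ^ m) (pow_ne_zero m hq.ne_zero) hz : (↥O)ˣ) : ↥O) - 1)
      ^ (q ^ m) = 0 := by
    rw [sub_pow_char_pow, ← map_pow, h1, map_one, one_pow, sub_self]
  exact sub_eq_zero.mp ((pow_eq_zero_iff (pow_ne_zero m hq.ne_zero)).mp h2)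

end RootUnit

/-! ## Series: `x(z s) - x(s) = (z - 1) · Y`, `Y` integral with reduction `θ x̄` -/

section Series

variable (A : ValuationSubring Kbar)

/-- The series `(J(z s^Q) - J(s^Q)) / (z - 1)` over `A`, `J = u₀ ∈ ℤ((s))`. -/
def rqA (z : Kbar) (r : ℕ) (hr : r ≠ 0) (hz : z ^ r = 1) (Q : ℕ) [NeZero Q]
    (u₀ : LaurentSeries ℤ) : LaurentSeries ↥A :=
  qExpand ↥A Q (H65.rotQuot (rootUnit A z r hr hz) (coeffMap (Int.castRingHom ↥A) u₀))

/-- `J(z s) - J(s) = (z - 1) · rotQuot`, over `ℚ̄`. -/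
theorem twist_sub_self (z : Kbar) (r : ℕ) (hr : r ≠ 0) (hz : z ^ r = 1)
    (u₀ : LaurentSeries ℤ) :
    twist z (H65.intSer Kbar u₀) - H65.intSer Kbar u₀
      = algebraMap Kbar (LaurentSeries Kbar) (z - 1)
        * iotaV A (H65.rotQuot (rootUnit A z r hr hz) (coeffMap (Int.castRingHom ↥A) u₀)) := by
  have h2 : twist z (iotaV A (coeffMap (Int.castRingHom ↥A) u₀))
      = iotaV A (rot (rootUnit A z r hr hz) (coeffMap (Int.castRingHom ↥A) u₀)) :=
    (iotaV_rot A (rootUnit A z r hr hz) _).symm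
  have h3 : iotaV A (HahnSeries.C (((rootUnit A z r hr hz : (↥A)ˣ) : ↥A) - 1))
      = algebraMap Kbar (LaurentSeries Kbar) (z - 1) := by
    rw [algebraMap_laurentSeries_eq_single]
    exact coeffMap_single A.subtype 0 _
  rw [H65.intSer_eq_iotaV A, h2, ← map_sub, H65.rot_sub_self, map_mul, h3]

/-- The same after `s ↦ s^Q`. -/
theorem qExpand_twist_sub_self (z : Kbar) (r : ℕ) (hr : r ≠ 0) (hz : z ^ r = 1) (Q : ℕ)
    [NeZero Q] (u₀ : LaurentSeries ℤ) :
    qExpand Kbar Q (twist z (H65.intSer Kbar u₀) - H65.intSer Kbar u₀)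
      = algebraMap Kbar (LaurentSeries Kbar) (z - 1) * iotaV A (rqA A z r hr hz Q u₀) := by
  rw [twist_sub_self A z r hr hz u₀, map_mul, algebraMap_laurentSeries_eq_single]
  have h1 : qExpand Kbar Q (HahnSeries.single 0 (z - 1)) = HahnSeries.single 0 (z - 1) :=
    qExpand_C (R := Kbar) (N := Q) (z - 1)
  have h2 : qExpand Kbar Q (iotaV A
        (H65.rotQuot (rootUnit A z r hr hz) (coeffMap (Int.castRingHom ↥A) u₀)))
      = iotaV A (rqA A z r hr hz Q u₀) :=
    (coeffMap_qExpand A.subtype Q _).symm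
  rw [h1, h2]

/-- The reduction of `rqA` is `(θ ū₀)(s^Q)` if `z ≡ 1`. -/
theorem redV_rqA (q : ℕ) (hq : q.Prime) (hA : (q : Kbar) ∈ A.nonunits) (m : ℕ) (z : Kbar)
    (hz : z ^ (q ^ m) = 1) (Q : ℕ) [NeZero Q] (u₀ : LaurentSeries ℤ) :
    redV A (rqA A z (q ^ m) (pow_ne_zero m hq.ne_zero) hz Q u₀)
      = qExpand (kV A) Q (H73.thetaL (coeffMap (Int.castRingHom (kV A)) u₀)) := by
  haveI : CharP (kV A) q := Fermat.Agent.BAD.H82.charP_kV A hq hA
  rw [rqA, redV, coeffMap_qExpand]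
  congr 1
  ext n
  rw [H65.coeffMap_rotQuot (resV A) _ (resV_rootUnit A q hq m z hz),
    H73.thetaL_coeff, coeffMap_coeff, coeffMap_coeff, coeffMap_coeff]
  congr 1

/-- `(θ ū₀)(s^Q) ≠ 0` if `θ ū₀ ≠ 0`. -/
theorem qExpand_thetaL_ne_zero (q : ℕ) (hq : q.Prime) (hA : (q : Kbar) ∈ A.nonunits)
    (Q : ℕ) [NeZero Q] (u₀ : LaurentSeries ℤ)
    (hθ : H65.ThetaNZ q (coeffMap (Int.castRingHom (kV A)) u₀)) :
    qExpand (kV A) Q (H73.thetaL (coeffMap (Int.castRingHom (kV A)) u₀)) ≠ 0 := by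
  intro h0
  have h1 : H73.thetaL (coeffMap (Int.castRingHom (kV A)) u₀) = 0 := by
    apply qExpand_injective (R := kV A) Q
    rw [h0, map_zero]
  obtain ⟨n, hn, hc⟩ := hθ
  haveI : CharP (kV A) q := Fermat.Agent.BAD.H82.charP_kV A hq hA
  haveI : Fact q.Prime := ⟨hq⟩
  have h2 := congrArg (fun s : LaurentSeries (kV A) => s.coeff n) h1
  simp only [H73.thetaL_coeff, HahnSeries.coeff_zero] at h2
  rcases mul_eq_zero.mp h2 with h3 | h3
  · exact hn ((CharP.intCast_eq_zero_iff (kV A) q n).mp h3)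
  · exact hc h3

end Series

/-! ## RAM at a cusp with a normalised expansion -/

section RamG

variable {N : ℕ} [NeZero N] {γ : Matrix.SpecialLinearGroup (Fin 2) ℤ} {n : ℕ} [NeZero n]
  (h : IsCuspExp N γ n) (A : ValuationSubring Kbar)
variable (q : ℕ) (hq : q.Prime) (hA : (q : Kbar) ∈ A.nonunits)
variable (m : ℕ) (z : Kbar) (hz : z ^ (q ^ m) = 1) (hz1 : z ≠ 1)
variable (Q : ℕ) [NeZero Q] (u₀ : LaurentSeries ℤ)

/-- `θ = x / (z - 1)`. -/
def thG (z : Kbar) (x : FN N) : FN N := algebraMap Kbar (FN N) (z - 1)⁻¹ * x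

include hz1 in
theorem eq_mul_thG (x : FN N) : x = algebraMap Kbar (FN N) (z - 1) * thG z x := by
  rw [thG, ← mul_assoc, ← map_mul, mul_inv_cancel₀ (sub_ne_zero.mpr hz1), map_one, one_mul]

include hq hz hz1 in
/-- The normalised expansion of `x / (z - 1)`. -/
theorem cG_thG (x : FN N)
    (hx : cG h x = qExpand Kbar Q (twist z (H65.intSer Kbar u₀) - H65.intSer Kbar u₀)) :
    cG h (thG z x) = iotaV A (rqA A z (q ^ m) (pow_ne_zero m hq.ne_zero) hz Q u₀) := by
  rw [thG, map_mul, AlgHom.commutes, hx,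
    qExpand_twist_sub_self A z (q ^ m) (pow_ne_zero m hq.ne_zero) hz Q u₀, ← mul_assoc,
    ← map_mul, inv_mul_cancel₀ (sub_ne_zero.mpr hz1), map_one, one_mul]

include hq hz hz1 in
/-- `x / (z - 1)` is integral at the cusp. -/
theorem thG_mem (x : FN N)
    (hx : cG h x = qExpand Kbar Q (twist z (H65.intSer Kbar u₀) - H65.intSer Kbar u₀)) :
    thG z x ∈ VG h A := by
  rw [mem_VG_iff, cG_thG h A q hq m z hz hz1 Q u₀ x hx]
  exact iotaV_mem_gaussRingV A _

include hq hA hz hz1 in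
/-- **The reduction of `x / (z - 1)` is `(θ ū₀)(s^Q)`.** -/
theorem redG_thG (x : FN N)
    (hx : cG h x = qExpand Kbar Q (twist z (H65.intSer Kbar u₀) - H65.intSer Kbar u₀))
    (hm : thG z x ∈ VG h A) :
    ((redG h A ⟨thG z x, hm⟩ : RG h A) : LaurentSeries (kV A))
      = qExpand (kV A) Q (H73.thetaL (coeffMap (Int.castRingHom (kV A)) u₀)) := by
  rw [coe_redG]
  have e : (⟨cG h (thG z x), hm⟩ : gaussRingV A)
      = ⟨iotaV A (rqA A z (q ^ m) (pow_ne_zero m hq.ne_zero) hz Q u₀),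
          iotaV_mem_gaussRingV A _⟩ :=
    Subtype.ext (cG_thG h A q hq m z hz hz1 Q u₀ x hx)
  rw [e, gaussRedV_iotaV, redV_rqA A q hq hA m z hz Q u₀]

include hq hA hz hz1 in
theorem redG_thG_ne_zero (x : FN N)
    (hx : cG h x = qExpand Kbar Q (twist z (H65.intSer Kbar u₀) - H65.intSer Kbar u₀))
    (hθ : H65.ThetaNZ q (coeffMap (Int.castRingHom (kV A)) u₀))
    (hm : thG z x ∈ VG h A) : redG h A ⟨thG z x, hm⟩ ≠ 0 := by
  intro h0
  have h1 : ((redG h A ⟨thG z x, hm⟩ : RG h A) : LaurentSeries (kV A)) = 0 := by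
    rw [h0]; rfl
  rw [redG_thG h A q hq hA m z hz hz1 Q u₀ x hx hm] at h1
  exact qExpand_thetaL_ne_zero A q hq hA Q u₀ hθ h1

include hq hA hz hz1 in
/-- `x / (z - 1)` is a unit at the cusp. -/
theorem val_thG (x : FN N)
    (hx : cG h x = qExpand Kbar Q (twist z (H65.intSer Kbar u₀) - H65.intSer Kbar u₀))
    (hθ : H65.ThetaNZ q (coeffMap (Int.castRingHom (kV A)) u₀)) :
    (VG h A).valuation (thG z x) = 1 := by
  have hm := thG_mem h A q hq m z hz hz1 Q u₀ x hx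
  have hne := redG_thG_ne_zero h A q hq hA m z hz hz1 Q u₀ x hx hθ hm
  have hu : IsUnit (⟨thG z x, hm⟩ : ↥(VG h A)) := by
    by_contra hnu
    apply hne
    rw [redG_eq_zero_iff]
    exact (IsLocalRing.mem_maximalIdeal _).mpr hnu
  exact (ValuationSubring.valuation_eq_one_iff _ _).mp hu

include hq hA hz hz1 in
/-- `v(x) = v(z - 1)`. -/
theorem val_eq_val_sub_one (x : FN N)
    (hx : cG h x = qExpand Kbar Q (twist z (H65.intSer Kbar u₀) - H65.intSer Kbar u₀))
    (hθ : H65.ThetaNZ q (coeffMap (Int.castRingHom (kV A)) u₀)) :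
    (VG h A).valuation x = (VG h A).valuation (algebraMap Kbar (FN N) (z - 1)) := by
  conv_lhs => rw [eq_mul_thG z hz1 x]
  rw [map_mul, val_thG h A q hq hA m z hz hz1 Q u₀ x hx hθ, mul_one]

include hq hA in
/-- **RAM at the cusp**: `v(x)^φ(q^m) = v(q)` if the normalised expansion of `x` is
`J(z s^Q) - J(s^Q)`, `z` a primitive `q^m`-th root of unity, `θ J̄ ≠ 0`. -/
theorem ramG (hm0 : m ≠ 0) (hzp : IsPrimitiveRoot z (q ^ m)) (x : FN N)
    (hx : cG h x = qExpand Kbar Q (twist z (H65.intSer Kbar u₀) - H65.intSer Kbar u₀))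
    (hθ : H65.ThetaNZ q (coeffMap (Int.castRingHom (kV A)) u₀)) :
    (VG h A).valuation x ^ (Nat.totient (q ^ m))
      = (VG h A).valuation (algebraMap Kbar (FN N) (q : Kbar)) := by
  have hz1 : z ≠ 1 := by
    intro h1
    have h2 := hzp.unique (h1 ▸ IsPrimitiveRoot.one)
    have h3 : 1 < q ^ m := Nat.one_lt_pow hm0 hq.one_lt
    omega
  rw [val_eq_val_sub_one h A q hq hA m z hzp.pow_eq_one hz1 Q u₀ x hx hθ, ← map_pow, ← map_pow]
  apply val_algebraMap_congr A _ (const_memG h A)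
  rw [map_pow]
  exact val_sub_one_pow_totient A hq hm0 hzp

include hq hA in
/-- Form with `ℕ`-cast. -/
theorem ramG' (hm0 : m ≠ 0) (hzp : IsPrimitiveRoot z (q ^ m)) (x : FN N)
    (hx : cG h x = qExpand Kbar Q (twist z (H65.intSer Kbar u₀) - H65.intSer Kbar u₀))
    (hθ : H65.ThetaNZ q (coeffMap (Int.castRingHom (kV A)) u₀)) :
    (VG h A).valuation x ^ (Nat.totient (q ^ m))
      = (VG h A).valuation ((q : ℕ) : FN N) := by
  rw [ramG h A q hq hA m z Q u₀ hm0 hzp x hx hθ, map_natCast]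

include hq hA in
/-- **RAM on the inertia-fixed functions.** -/
theorem ramGo (hm0 : m ≠ 0) (hzp : IsPrimitiveRoot z (q ^ m)) (x : ↥(L0 A N))
    (hx : cG h (x : FN N)
      = qExpand Kbar Q (twist z (H65.intSer Kbar u₀) - H65.intSer Kbar u₀))
    (hθ : H65.ThetaNZ q (coeffMap (Int.castRingHom (kV A)) u₀)) :
    (VGo h A).valuation x ^ (Nat.totient (q ^ m))
      = (VGo h A).valuation ((q : ℕ) : ↥(L0 A N)) := by
  rw [← map_pow, VGo, valuation_resV0_eq_iff]
  have h1 := ramG' h A q hq hA m z Q u₀ hm0 hzp (x : FN N) hx hθ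
  rw [← map_pow] at h1
  have e1 : (((x ^ (Nat.totient (q ^ m)) : ↥(L0 A N)) : ↥(L0 A N)) : FN N)
      = (x : FN N) ^ (Nat.totient (q ^ m)) := rfl
  have e2 : ((((q : ℕ) : ↥(L0 A N)) : ↥(L0 A N)) : FN N) = ((q : ℕ) : FN N) :=
    map_natCast (L0 A N).subtype q
  rw [e1, e2]
  exact h1

end RamG

/-! ## The case `J = j` -/

section RamJ

theorem jBar_eq_intSer : jBar = H65.intSer Kbar jInt := by
  have h1 := coe_jdF_one 1
  rw [coe_jdF, qExpand_one_apply] at h1
  exact h1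

variable {N : ℕ} [NeZero N] {γ : Matrix.SpecialLinearGroup (Fin 2) ℤ} {n : ℕ} [NeZero n]
  (h : IsCuspExp N γ n) (A : ValuationSubring Kbar)
variable (q : ℕ) (hq : q.Prime) (hA : (q : Kbar) ∈ A.nonunits)
variable (m : ℕ) (z : Kbar) (Q : ℕ) [NeZero Q]

/-- The hypothesis of `ramG` for a difference `x - y` of two functions with normalised
expansions `j (z s^Q)` and `j (s^Q)`. -/
theorem cG_sub_j (x y : FN N) (hx : cG h x = qExpand Kbar Q (twist z jBar))
    (hy : cG h y = qExpand Kbar Q jBar) :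
    cG h (x - y)
      = qExpand Kbar Q (twist z (H65.intSer Kbar jInt) - H65.intSer Kbar jInt) := by
  rw [map_sub, hx, hy, ← jBar_eq_intSer, map_sub]

include hq hA in
/-- **RAM for `j`**: if `x`, `y` have normalised expansions `j (z s^Q)` and `j (s^Q)` with `z` a
primitive `q^m`-th root of unity, then `v(x - y)^φ(q^m) = v(q)`. -/
theorem ramG_j (hm0 : m ≠ 0) (hzp : IsPrimitiveRoot z (q ^ m)) (x y : FN N)
    (hx : cG h x = qExpand Kbar Q (twist z jBar)) (hy : cG h y = qExpand Kbar Q jBar) :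
    (VG h A).valuation (x - y) ^ (Nat.totient (q ^ m))
      = (VG h A).valuation ((q : ℕ) : FN N) := by
  haveI : NeZero q := ⟨hq.ne_zero⟩
  exact ramG' h A q hq hA m z Q jInt hm0 hzp (x - y) (cG_sub_j h z Q x y hx hy)
    (thetaNZ_jInt q (kV A) hq)

include hq hA in
/-- **RAM for `j`** on the inertia-fixed functions. -/
theorem ramGo_j (hm0 : m ≠ 0) (hzp : IsPrimitiveRoot z (q ^ m)) (x y : ↥(L0 A N))
    (hx : cG h (x : FN N) = qExpand Kbar Q (twist z jBar))
    (hy : cG h (y : FN N) = qExpand Kbar Q jBar) :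
    (VGo h A).valuation (x - y) ^ (Nat.totient (q ^ m))
      = (VGo h A).valuation ((q : ℕ) : ↥(L0 A N)) := by
  haveI : NeZero q := ⟨hq.ne_zero⟩
  exact ramGo h A q hq hA m z Q jInt hm0 hzp (x - y)
    (cG_sub_j h z Q (x : FN N) (y : FN N) hx hy) (thetaNZ_jInt q (kV A) hq)

include hq hA in
/-- The reduction of `(x - y) / (z - 1)` is `(θ j̄)(s^Q)`. -/
theorem redG_thG_j (hz : z ^ (q ^ m) = 1) (hz1 : z ≠ 1) (x y : FN N)
    (hx : cG h x = qExpand Kbar Q (twist z jBar)) (hy : cG h y = qExpand Kbar Q jBar)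
    (hm : thG z (x - y) ∈ VG h A) :
    ((redG h A ⟨thG z (x - y), hm⟩ : RG h A) : LaurentSeries (kV A))
      = qExpand (kV A) Q (H73.thetaL (coeffMap (Int.castRingHom (kV A)) jInt)) :=
  redG_thG h A q hq hA m z hz hz1 Q jInt (x - y) (cG_sub_j h z Q x y hx hy) hm

end RamJ

end Fermat.Agent.S45.NUE.H57
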