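/-
S45 (row 41), E-PT-SS, leaf SS-POLE-SER (helper60): Kronecker's congruence at level `q ^ E` for a
general `u ∈ ℤ((t))` (generalisation of `S36.NU.H65.sq_sub_eq`, `E = 2`).

* `dvd_powE_sub`   : `q ∣ u ^ (q ^ E) - u (t ^ (q ^ E))`;
* `powE_sub_eq`    : `u ^ (q ^ E) - u (t ^ (q ^ E)) = q (δ (t ^ (q ^ (E - 1))) + q h)`,
  `δ = H65.kdel q u = (u ^ q - u (t ^ q)) / q`, for `E ≥ 1`;
* `coeffMap_qExpand_pow` : in characteristic `q` the reduction of `x (t ^ (q ^ n))` is the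
  `q ^ n`-th power of the reduction of `x` (`x ∈ ℤ((t))`).
-/
import Fermat.Agent.S36.NU.H65_Series

set_option autoImplicit false
set_option linter.unusedSectionVars false

noncomputable section

open ModularCurve HahnSeries

namespace Fermat.Agent.S45.NUE.H60

open Fermat.Agent.S36.NU

section Kron

variable (q : ℕ) [NeZero q] [Fact q.Prime]

/-- The step: from `q ∣ u ^ (q ^ E) - u (t ^ (q ^ E))` to the congruence modulo `q²` at
`E + 1`. -/
theorem powE_step (u : LaurentSeries ℤ) (E : ℕ)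
    (hdiv : ((q : ℕ) : LaurentSeries ℤ) ∣ u ^ (q ^ E) - qExpand ℤ (q ^ E) u) :
    ∃ h : LaurentSeries ℤ, u ^ (q ^ (E + 1)) - qExpand ℤ (q ^ (E + 1)) u
      = ((q : ℕ) : LaurentSeries ℤ) *
          (qExpand ℤ (q ^ E) (H65.kdel q u) + ((q : ℕ) : LaurentSeries ℤ) * h) := by
  obtain ⟨h, hh⟩ := dvd_sub_pow_of_dvd_sub hdiv 1
  refine ⟨h, ?_⟩
  rw [pow_one] at hh
  -- `(φ^E u)^q = φ^(E+1) u + q φ^E δ`
  have h3 : qExpand ℤ (q ^ E) u ^ q = qExpand ℤ (q ^ (E + 1)) u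
      + ((q : ℕ) : LaurentSeries ℤ) * qExpand ℤ (q ^ E) (H65.kdel q u) := by
    rw [← map_pow, H65.pow_eq q u, map_add, map_mul, map_natCast, qExpand_qExpand]
    rfl
  have h4 : u ^ (q ^ (E + 1)) = (u ^ (q ^ E)) ^ q := by rw [← pow_mul, pow_succ]
  rw [h4]
  linear_combination hh + h3

/-- `q ∣ u ^ (q ^ E) - u (t ^ (q ^ E))`. -/
theorem dvd_powE_sub (u : LaurentSeries ℤ) (E : ℕ) :
    ((q : ℕ) : LaurentSeries ℤ) ∣ u ^ (q ^ E) - qExpand ℤ (q ^ E) u := by
  induction E with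
  | zero =>
    have e1 : u ^ (q ^ 0) = u := by rw [pow_zero, pow_one]
    have e2 : qExpand ℤ (q ^ 0) u = u :=
      (qExpand_congr (pow_zero q) u).trans (qExpand_one_apply u)
    rw [e1, e2, sub_self]
    exact dvd_zero _
  | succ E ih =>
    obtain ⟨h, hh⟩ := powE_step q u E ih
    exact ⟨_, hh⟩

/-- **SS-POLE-SER**: `u ^ (q ^ E) - u (t ^ (q ^ E)) = q (δ (t ^ (q ^ (E - 1))) + q h)`. -/
theorem powE_sub_eq (u : LaurentSeries ℤ) (E : ℕ) (hE : 1 ≤ E) :
    ∃ h : LaurentSeries ℤ, u ^ (q ^ E) - qExpand ℤ (q ^ E) u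
      = ((q : ℕ) : LaurentSeries ℤ) *
          (qExpand ℤ (q ^ (E - 1)) (H65.kdel q u) + ((q : ℕ) : LaurentSeries ℤ) * h) := by
  obtain ⟨E', rfl⟩ : ∃ E', E = E' + 1 := ⟨E - 1, by omega⟩
  exact powE_step q u E' (dvd_powE_sub q u E')

end Kron

section Red

variable {k : Type*} [CommRing k] (q : ℕ) [NeZero q] [Fact q.Prime] [CharP k q]

/-- In characteristic `q`: the reduction of `x (t ^ (q ^ n))` is the `q ^ n`-th power of the
reduction of `x`. -/
theorem coeffMap_qExpand_pow (x : LaurentSeries ℤ) (n : ℕ) :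
    coeffMap (Int.castRingHom k) (qExpand ℤ (q ^ n) x)
      = coeffMap (Int.castRingHom k) x ^ (q ^ n) := by
  induction n with
  | zero =>
    have e2 : qExpand ℤ (q ^ 0) x = x :=
      (qExpand_congr (pow_zero q) x).trans (qExpand_one_apply x)
    rw [e2, pow_zero, pow_one]
  | succ n ih =>
    have h1 : qExpand ℤ (q ^ (n + 1)) x = qExpand ℤ q (qExpand ℤ (q ^ n) x) := by
      rw [qExpand_qExpand]
      exact qExpand_congr (by rw [pow_succ, mul_comm]) x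
    rw [h1, coeffMap_qExpand, ih, map_pow, ← H65.intRed_pow q x, ← pow_mul, pow_succ, mul_comm]

end Red

end Fermat.Agent.S45.NUE.H60
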