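import Fermat.Agent.S36.NU.H16_LocEqSS
import Fermat.Agent.RED.H17_Local

/-!
# S45 / NU_e, package E-FIN, leaf E-PT-SS, abstract part (helper68)

The local equation at a supersingular point of a chart with ANY finite set `ι` of components
(level `M' q^E`: `ι = Fin (E + 1)`, multiplicities `e a = φ(q^min(a, E - a))`).

* `locEq_ss_ordE` : `t : ι → B` with `t i ^ e i ∈ q V i`, a distinguished component `i₀` of
  multiplicity one with `t i₀ = q d`, `d ∈ V i₀`, a place `z` of the residue field of `i₀` with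
  `ord_z (rd (t i)) > 0` for `i ≠ i₀` and
  `ord_z (rd d) + ∑_{i ≠ i₀} e i * ord_z (rd (t i)) = 0`
  ⟹ all components pass through the point `𝔪_z` of the chart and there is a local equation
  datum `q W = ∏ t i ^ e i`, `W ∉ 𝔪_z`.  (S36 `H16.locEq_ss_coord` is the case of three
  components.)
-/

set_option autoImplicit false

noncomputable section

namespace Fermat.Agent.S45.NUE.H68

open Fermat.Agent.S36.NU Fermat.Agent.S36.NU.H16 AlgebraicCurve Fermat.Agent.RED.H17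

/-- **The local equations at a supersingular point of level `M' q^E`**, in terms of
`x = f(τ)` and `y = f(q^E τ)` only: on the component `n` (`n` = number of `F`-steps,
pattern `F^n V^(E-n)`) `t_n = x ^ q^(2n-E) - y` if `E ≤ 2n` and `t_n = x - y ^ q^(E-2n)`
otherwise.  (`E = 2`: `t₂ = x^{q²} - y`, `t₁ = x - y`, `t₀ = x - y^{q²}`.) -/
def tE {S : Type*} [CommRing S] (q E n : ℕ) (x y : S) : S :=
  if E ≤ 2 * n then x ^ q ^ (2 * n - E) - y else x - y ^ q ^ (E - 2 * n)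

theorem tE_of_le {S : Type*} [CommRing S] (q E n : ℕ) (x y : S) (h : E ≤ 2 * n) :
    tE q E n x y = x ^ q ^ (2 * n - E) - y := if_pos h

theorem tE_of_lt {S : Type*} [CommRing S] (q E n : ℕ) (x y : S) (h : 2 * n < E) :
    tE q E n x y = x - y ^ q ^ (E - 2 * n) := if_neg (by omega)

theorem tE_top {S : Type*} [CommRing S] (q E : ℕ) (x y : S) :
    tE q E E x y = x ^ q ^ E - y := by
  rw [tE_of_le q E E x y (by omega)]
  congr 3
  omega

theorem map_tE {S S' : Type*} [CommRing S] [CommRing S'] (φ : S →+* S') (q E n : ℕ) (x y : S) :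
    φ (tE q E n x y) = tE q E n (φ x) (φ y) := by
  unfold tE
  split_ifs <;> simp

variable {R F k ι : Type*} {κ : ι → Type*} [CommRing R] [Field F] [Algebra R F]
  [Field k] [∀ i, Field (κ i)] [∀ i, Algebra k (κ i)]

/-- **LOCEQ-SS, abstract, any number of components.** -/
theorem locEq_ss_ordE [Fintype ι] [DecidableEq ι] (C : Chart R F k ι κ) (qR : R)
    (hq0 : algebraMap R F qR ≠ 0)
    (hqV : ∀ i, algebraMap R F qR ∈ (C.V i).nonunits)
    (H : Subring F) (hBH : ∀ x ∈ C.B, x ∈ H) (hqH : (algebraMap R F qR)⁻¹ ∈ H)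
    (crit : ∀ f ∈ H, (∀ i, f ∈ C.V i) → f ∈ C.B)
    (e : ι → ℕ) (hE : H99.ValE C qR e) (he : ∀ i, 0 < e i)
    (i₀ : ι) (he₀ : e i₀ = 1) (t : ι → C.B)
    (d : F) (hdV : d ∈ C.V i₀) (hd : (t i₀ : F) = algebraMap R F qR * d)
    (hpow : ∀ i, i ≠ i₀ → ∃ f' ∈ C.V i, ((t i : F)) ^ e i = algebraMap R F qR * f')
    (z : Place k (κ i₀))
    (hpos : ∀ i, i ≠ i₀ → 0 < z.ord (C.rdB i₀ (t i)))
    (hd0 : C.rd i₀ d ≠ 0)
    (hsum : z.ord (C.rd i₀ d)
      + ∑ i ∈ Finset.univ.erase i₀, (e i : ℤ) * z.ord (C.rdB i₀ (t i)) = 0)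
    (𝔪 : Ideal C.B) [h𝔪p : 𝔪.IsPrime] (h𝔪 : ∀ β : C.B, β ∈ 𝔪 ↔ VanAt z (C.rdB i₀ β)) :
    (∀ i, C.Icomp i ≤ 𝔪) ∧ Nonempty (LocEq C qR 𝔪) := by
  classical
  have hpow' : ∀ i, ∃ f' ∈ C.V i, ((t i : F)) ^ e i = algebraMap R F qR * f' := by
    intro i
    by_cases hi : i = i₀
    · subst hi
      exact ⟨d, hdV, by rw [he₀, pow_one, hd]⟩
    · exact hpow i hi
  obtain ⟨W, hWeq⟩ := exists_W_of_crit C qR hq0 H hBH hqH crit t e hpow'
  -- the residue of `t i₀` on the component `i₀`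
  have hrdT₀ : C.rdB i₀ (t i₀) = 0 := by
    rw [← C.mem_Icomp, H99.mem_Icomp_iff_nonunits, hd]
    exact H99.mem_nonunits_of_mul (C.V i₀) (hqV i₀) hdV
  have hne : ∀ i, i ≠ i₀ → C.rdB i₀ (t i) ≠ 0 := by
    intro i hi h0
    have := hpos i hi
    rw [h0, Place.ord_zero] at this
    exact lt_irrefl _ this
  -- the `t i` vanish at the point
  have htm : ∀ i, t i ∈ 𝔪 := by
    intro i
    rw [h𝔪]
    by_cases hi : i = i₀
    · subst hi
      rw [hrdT₀]
      exact vanAt_zero z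
    · exact vanAt_of_ord_pos (hpos i hi)
  -- `W = d ∏_{i ≠ i₀} t i ^ e i`
  set P : C.B := ∏ i ∈ Finset.univ.erase i₀, t i ^ e i with hP
  have hprod : ∏ i, t i ^ e i = t i₀ * P := by
    rw [← Finset.mul_prod_erase Finset.univ _ (Finset.mem_univ i₀), he₀, pow_one]
  have hWF : (W : F) = d * (P : F) := by
    apply mul_left_cancel₀ hq0
    have h1 : ((algebraMap R C.B qR * W : C.B) : F) = ((t i₀ * P : C.B) : F) := by
      rw [hWeq, hprod]
    have h2 : ((algebraMap R C.B qR * W : C.B) : F) = algebraMap R F qR * (W : F) := rfl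
    have h3 : ((t i₀ * P : C.B) : F) = (t i₀ : F) * (P : F) := rfl
    rw [← h2, h1, h3, hd]
    ring
  have hrdP : C.rdB i₀ P = ∏ i ∈ Finset.univ.erase i₀, C.rdB i₀ (t i) ^ e i := by
    rw [hP, map_prod]
    exact Finset.prod_congr rfl fun i _ => map_pow _ _ _
  have hrdW : C.rdB i₀ W = C.rd i₀ d * ∏ i ∈ Finset.univ.erase i₀, C.rdB i₀ (t i) ^ e i := by
    rw [← C.rd_coe, hWF, C.rd_mul i₀ hdV (C.B_le _ _ P.2), C.rd_coe, hrdP]
  have hP0 : ∏ i ∈ Finset.univ.erase i₀, C.rdB i₀ (t i) ^ e i ≠ 0 :=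
    Finset.prod_ne_zero_iff.mpr fun i hi => pow_ne_zero _ (hne i (Finset.ne_of_mem_erase hi))
  have hordW : z.ord (C.rdB i₀ W) = 0 := by
    rw [hrdW, Place.ord_mul z hd0 hP0,
      ord_prod z _ _ (fun i hi => pow_ne_zero _ (hne i (Finset.ne_of_mem_erase hi)))]
    rw [← hsum]
    congr 1
    exact Finset.sum_congr rfl fun i _ => ord_pow z _ _
  have hWm : W ∉ 𝔪 := by
    rw [h𝔪, vanAt_iff_ord]
    rintro (h | h)
    · rw [hrdW] at h
      exact mul_ne_zero hd0 hP0 h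
    · rw [hordW] at h
      exact lt_irrefl _ h
  exact H99.locEq_ss C qR e hE hq0 hqV (valq_of_crit C qR hq0 H hBH hqH crit) 𝔪 he t W hWm htm
    hWeq hpow'

end Fermat.Agent.S45.NUE.H68
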