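import Fermat.Agent.S45.NUE.H12_SSFun
import Fermat.Agent.S45.NUE.H57_RamG
import Fermat.Agent.S45.NUE.H60_PoleSer
import Fermat.Agent.S45.NUE.H68_LocEqSSE

/-!
# S45 / NU_e, package E-FIN, leaf E-PT-SS, sub-leaf SS-RAM (helper12)

Level `N = M q^e`, `f ∈ F_M` with integral expansion `u₀`, `x = f(τ)`, `y = f(q^e τ)`
(`H12.xE`, `H12.yE`).  On the component `a < e` the local equation
`t_a = H68.tE q e a x y` satisfies `t_a ^ φ(q^min(a, e-a)) ∈ q · VE a`.

* `rot_qExpand_pow` : `rot u (x(t^Q)) = (rot (u^Q) x)(t^Q)`;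
* `pow_mem_of_sub_mem` : `a ≡ b`, `b^n ∈ I` ⟹ `a^n ∈ I`;
* `ram_coreA`, `ram_coreB` : the two series computations modulo `q` in `R((t))`:
  `g^Q - g(u^Q t^Q) ≡ g(t^Q) - g(u t)^Q ≡ - (u^Q - 1) W`;
* `sub_one_pow_totient_div_mem` : `(z - 1)^φ(q^μ) / q` is integral if `z^(q^μ) = 1`;
* `cE_xE`, `cE_yE_lt` : the expansions of `x`, `y` at the cusp `a`;
* `ss_ram_xyE`, `ss_ram` : **SS-RAM**.
-/

set_option autoImplicit false
set_option synthInstance.maxHeartbeats 400000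
set_option maxHeartbeats 1000000
set_option linter.unusedSectionVars false
set_option linter.unusedVariables false
set_option linter.style.haveILetI false

noncomputable section

namespace Fermat.Agent.S45.NUE.H12

open Fermat.Agent.S24 Fermat.Agent.BAD.H88 ModularCurve AlgebraicCurve
open Fermat.Agent.S28 Fermat.Agent.S28.H73 Fermat.Agent.RED.H73 Fermat.Agent.RED.H17
open Fermat.Agent.RED.H10
open Fermat.Agent.S36.NU.H88 Fermat.Agent.S36.NU
open Fermat.Agent.S45.NUE.H23 Fermat.Agent.S45.NUE.H17 Fermat.Agent.S45.NUE.H68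
open Fermat.Agent.S45.NUE.H73 (zE zE_pow)

local notation "L0" => Fermat.Agent.S36.NU.H23.L0

/-! ## Abstract part: series over a commutative ring -/

section Abs

variable {R : Type*} [CommRing R]

/-- `rot u (x (t^Q)) = (rot (u^Q) x)(t^Q)`. -/
theorem rot_qExpand_pow (Q : ℕ) [NeZero Q] (u : Rˣ) (x : LaurentSeries R) :
    rot u (qExpand R Q x) = qExpand R Q (rot (u ^ Q) x) := by
  ext n
  rw [rot_coeff]
  by_cases hn : (Q : ℤ) ∣ n
  · obtain ⟨m, rfl⟩ := hn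
    rw [qExpand_coeff_mul, qExpand_coeff_mul, rot_coeff, zpow_mul, zpow_natCast]
  · rw [qExpand_coeff_of_not_dvd Q x hn, qExpand_coeff_of_not_dvd Q _ hn, mul_zero]

/-- `a ≡ b` modulo `I` and `b ^ n ∈ I` ⟹ `a ^ n ∈ I`. -/
theorem pow_mem_of_sub_mem {S : Type*} [CommRing S] (I : Ideal S) {a b : S} (n : ℕ)
    (h : a - b ∈ I) (hb : b ^ n ∈ I) : a ^ n ∈ I := by
  have h1 : a ^ n - b ^ n ∈ I := by
    obtain ⟨c, hc⟩ := sub_dvd_pow_sub_pow a b n
    rw [hc]
    exact I.mul_mem_right _ h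
  have h2 := I.add_mem h1 hb
  rwa [sub_add_cancel] at h2

variable (q : ℕ) [NeZero q] [hqF : Fact q.Prime]

/-- Kronecker's congruence over `R`. -/
theorem dvd_pow_sub_qExpand (u₀ : LaurentSeries ℤ) (j : ℕ) :
    haveI : NeZero (q ^ j) := ⟨pow_ne_zero _ (NeZero.ne q)⟩
    ((q : ℕ) : LaurentSeries R) ∣
      coeffMap (Int.castRingHom R) u₀ ^ (q ^ j)
        - qExpand R (q ^ j) (coeffMap (Int.castRingHom R) u₀) := by
  haveI : NeZero (q ^ j) := ⟨pow_ne_zero _ (NeZero.ne q)⟩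
  have h := map_dvd (coeffMap (Int.castRingHom R)) (H60.dvd_powE_sub q u₀ j)
  rwa [map_natCast, map_sub, map_pow, coeffMap_qExpand] at h

/-- `rot u (g (t^Q)) - g (t^Q) = (u^Q - 1) · W`. -/
theorem rot_qExpand_sub (Q : ℕ) [NeZero Q] (u : Rˣ) (g : LaurentSeries R) :
    rot u (qExpand R Q g) - qExpand R Q g
      = HahnSeries.C ((((u ^ Q : Rˣ) : Rˣ) : R) - 1) * qExpand R Q (H65.rotQuot (u ^ Q) g) := by
  rw [rot_qExpand_pow, ← map_sub, H65.rot_sub_self, map_mul, qExpand_C]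

/-- The power `φ` of `C (v - 1) * W` is divisible by `q` if `(v - 1)^φ` is. -/
theorem neg_C_mul_pow_mem (v : R) (W : LaurentSeries R) (φ : ℕ) (w : R)
    (hw : (v - 1) ^ φ = (q : R) * w) :
    (-(HahnSeries.C (v - 1) * W)) ^ φ
      ∈ Ideal.span ({((q : ℕ) : LaurentSeries R)} : Set (LaurentSeries R)) := by
  rw [Ideal.mem_span_singleton]
  refine ⟨HahnSeries.C w * (-W) ^ φ, ?_⟩
  have e : (HahnSeries.C (v - 1) : LaurentSeries R) ^ φ
      = ((q : ℕ) : LaurentSeries R) * HahnSeries.C w := by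
    rw [← map_pow, hw, map_mul, map_natCast]
  have e2 : (-(HahnSeries.C (v - 1) * W)) ^ φ
      = (HahnSeries.C (v - 1) : LaurentSeries R) ^ φ * (-W) ^ φ := by
    rw [← mul_pow]
    congr 1
    ring
  rw [e2, e]
  ring

/-- **Series core, case `e ≤ 2a`**: `(g^Q - g(u t)(t^Q))^φ ∈ (q)`. -/
theorem ram_coreA (u₀ : LaurentSeries ℤ) (u : Rˣ) (j : ℕ) (φ : ℕ) (w : R)
    (hw : ((((u ^ (q ^ j) : Rˣ) : Rˣ) : R) - 1) ^ φ = (q : R) * w) :
    haveI : NeZero (q ^ j) := ⟨pow_ne_zero _ (NeZero.ne q)⟩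
    ((q : ℕ) : LaurentSeries R) ∣
      (coeffMap (Int.castRingHom R) u₀ ^ (q ^ j)
        - rot u (qExpand R (q ^ j) (coeffMap (Int.castRingHom R) u₀))) ^ φ := by
  haveI : NeZero (q ^ j) := ⟨pow_ne_zero _ (NeZero.ne q)⟩
  rw [← Ideal.mem_span_singleton]
  set g := coeffMap (Int.castRingHom R) u₀ with hg
  refine pow_mem_of_sub_mem _ φ (b := -(HahnSeries.C ((((u ^ (q ^ j) : Rˣ) : Rˣ) : R) - 1)
    * qExpand R (q ^ j) (H65.rotQuot (u ^ (q ^ j)) g))) ?_
    (neg_C_mul_pow_mem q _ _ φ w hw)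
  rw [Ideal.mem_span_singleton]
  have h1 := dvd_pow_sub_qExpand (R := R) q u₀ j
  have h2 := rot_qExpand_sub (q ^ j) u g
  have e : g ^ (q ^ j) - rot u (qExpand R (q ^ j) g)
      - -(HahnSeries.C ((((u ^ (q ^ j) : Rˣ) : Rˣ) : R) - 1)
          * qExpand R (q ^ j) (H65.rotQuot (u ^ (q ^ j)) g))
      = g ^ (q ^ j) - qExpand R (q ^ j) g := by
    rw [← h2]
    ring
  rw [e]
  exact h1

/-- **Series core, case `2a < e`**: `(g(t^Q) - g(u t)^Q)^φ ∈ (q)`. -/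
theorem ram_coreB (u₀ : LaurentSeries ℤ) (u : Rˣ) (j : ℕ) (φ : ℕ) (w : R)
    (hw : ((((u ^ (q ^ j) : Rˣ) : Rˣ) : R) - 1) ^ φ = (q : R) * w) :
    haveI : NeZero (q ^ j) := ⟨pow_ne_zero _ (NeZero.ne q)⟩
    ((q : ℕ) : LaurentSeries R) ∣
      (qExpand R (q ^ j) (coeffMap (Int.castRingHom R) u₀)
        - rot u (coeffMap (Int.castRingHom R) u₀) ^ (q ^ j)) ^ φ := by
  haveI : NeZero (q ^ j) := ⟨pow_ne_zero _ (NeZero.ne q)⟩
  rw [← Ideal.mem_span_singleton]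
  set g := coeffMap (Int.castRingHom R) u₀ with hg
  refine pow_mem_of_sub_mem _ φ (b := -(HahnSeries.C ((((u ^ (q ^ j) : Rˣ) : Rˣ) : R) - 1)
    * qExpand R (q ^ j) (H65.rotQuot (u ^ (q ^ j)) g))) ?_
    (neg_C_mul_pow_mem q _ _ φ w hw)
  rw [Ideal.mem_span_singleton]
  obtain ⟨h, hh⟩ := dvd_pow_sub_qExpand (R := R) q u₀ j
  have h2 := rot_qExpand_sub (q ^ j) u g
  refine ⟨-rot u h, ?_⟩
  have e1 : rot u g ^ (q ^ j) = rot u (qExpand R (q ^ j) g)
      + ((q : ℕ) : LaurentSeries R) * rot u h := by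
    rw [← map_pow, ← map_natCast (rot u) q, ← map_mul, ← map_add, ← hh]
    congr 1
    ring
  rw [e1, ← sub_eq_zero]
  linear_combination -h2

end Abs

/-! ## The valuation of `z - 1` -/

section Val

variable {C : Type} [Field C] (O : ValuationSubring C)

/-- `(z - 1)^φ(q^μ) / q` is integral if `z^(q^μ) = 1`. -/
theorem sub_one_pow_totient_div_mem (q : ℕ) (hq : q.Prime) (hq0 : (q : C) ≠ 0) (μ : ℕ) (z : C)
    (hz : z ^ (q ^ μ) = 1) :
    (z - 1) ^ Nat.totient (q ^ μ) / (q : C) ∈ O := by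
  have hpos : 0 < Nat.totient (q ^ μ) := Nat.totient_pos.2 (pow_pos hq.pos _)
  by_cases h1 : z = 1
  · rw [h1, sub_self, zero_pow hpos.ne', zero_div]
    exact zero_mem O
  · have hdvd : orderOf z ∣ q ^ μ := orderOf_dvd_of_pow_eq_one hz
    obtain ⟨j, hjμ, hj⟩ := (Nat.dvd_prime_pow hq).1 hdvd
    have hj0 : j ≠ 0 := by
      rintro rfl
      rw [pow_zero, orderOf_eq_one_iff] at hj
      exact h1 hj
    have hprim : IsPrimitiveRoot z (q ^ j) := hj ▸ IsPrimitiveRoot.orderOf z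
    have hval := H57.val_sub_one_pow_totient O hq hj0 hprim
    have hzO : z ∈ O := H57.root_mem O (pow_ne_zero μ hq.ne_zero) hz
    have hz1 : z - 1 ∈ O := sub_mem hzO (one_mem O)
    have hle : Nat.totient (q ^ j) ≤ Nat.totient (q ^ μ) :=
      Nat.le_of_dvd hpos (Nat.totient_dvd_of_dvd (pow_dvd_pow q hjμ))
    have e : (z - 1) ^ Nat.totient (q ^ μ) / (q : C)
        = ((z - 1) ^ Nat.totient (q ^ j) / (q : C))
          * (z - 1) ^ (Nat.totient (q ^ μ) - Nat.totient (q ^ j)) := by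
      rw [div_mul_eq_mul_div, ← pow_add, Nat.add_sub_cancel' hle]
    rw [e]
    refine mul_mem ?_ (pow_mem hz1 _)
    rw [← ValuationSubring.valuation_le_one_iff, map_div₀, map_pow, hval]
    have hv0 : O.valuation (q : C) ≠ 0 := (Valuation.ne_zero_iff _).2 hq0
    rw [div_self hv0]

end Val

/-! ## The expansions of `x`, `y` at the cusp `a` -/

section Mod

variable (A : ValuationSubring Kbar)
variable (N q M e : ℕ) (B k : ℤ) (hN : N = M * q ^ e) (hB : B * M + k * (q : ℤ) ^ e = 1)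
  (hq : q.Prime) [NeZero N] [NeZero q] [NeZero M]
variable (f : FN M) (u₀ : LaurentSeries ℤ) (hf : (f : LaurentSeries Kbar) = H65.intSer Kbar u₀)

include hB hq in
/-- The expansion of `x = f(τ)` at the cusp `a`. -/
theorem cE_xE (a : ℕ) :
    haveI : NeZero (q ^ (e - 2 * a)) := ⟨pow_ne_zero _ (NeZero.ne q)⟩
    cE N q M e B k hN hB hq a ((xE A N q M e hN f u₀ hf : ↥(L0 A N)) : FN N)
      = qExpand Kbar (q ^ (e - 2 * a)) (H65.intSer Kbar u₀) := by
  haveI : NeZero (q ^ (e - 2 * a)) := ⟨pow_ne_zero _ (NeZero.ne q)⟩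
  rw [xE, Fermat.Agent.S36.NU.H23.coe_inclL0, cE_inclusion N q M e B k hN hB hq _ a, coe_fL0, hf]

include hB hq in
/-- The expansion of `y = f(q^e τ)` at the cusp `a < e`. -/
theorem cE_yE_lt (a : ℕ) (hae : a < e) :
    haveI : NeZero (q ^ (max e (2 * a) - e)) := ⟨pow_ne_zero _ (NeZero.ne q)⟩
    cE N q M e B k hN hB hq a ((yE A N q M e hN f u₀ hf : ↥(L0 A N)) : FN N)
      = twist (zE q e a B)
          (qExpand Kbar (q ^ (max e (2 * a) - e)) (H65.intSer Kbar u₀)) := by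
  haveI : NeZero (q ^ (max e (2 * a) - e)) := ⟨pow_ne_zero _ (NeZero.ne q)⟩
  rw [yE, coe_betaL0, cE_betaE_lt N q M e B k hN hB hq a hae, coe_fL0, hf]

/-- The root of unity `zE` as a unit of `A`. -/
def zEu (a : ℕ) : (↥A)ˣ :=
  H57.rootUnit A (zE q e a B) (q ^ max a (e - a)) (pow_ne_zero _ (NeZero.ne q)) (zE_pow q e a B)

theorem coe_zEu (a : ℕ) : (((zEu A q e B a : (↥A)ˣ) : ↥A) : Kbar) = zE q e a B := rfl

include hq in
/-- `(zE^(q^j) - 1)^φ(q^μ) ∈ q A` if `j + μ = max a (e - a)`. -/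
theorem exists_zEu_pow (a j μ : ℕ) (hjμ : j + μ = max a (e - a)) :
    ∃ w : ↥A, ((((zEu A q e B a ^ (q ^ j) : (↥A)ˣ) : (↥A)ˣ) : ↥A) - 1) ^ Nat.totient (q ^ μ)
      = ((q : ℕ) : ↥A) * w := by
  have hq0 : ((q : ℕ) : Kbar) ≠ 0 := Nat.cast_ne_zero.2 hq.ne_zero
  have hz : (zE q e a B ^ (q ^ j)) ^ (q ^ μ) = 1 := by
    rw [← pow_mul, ← pow_add, hjμ]
    exact zE_pow q e a B
  refine ⟨⟨_, sub_one_pow_totient_div_mem A q hq hq0 μ (zE q e a B ^ (q ^ j)) hz⟩, ?_⟩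
  apply Subtype.ext
  show ((zE q e a B) ^ (q ^ j) - 1) ^ Nat.totient (q ^ μ)
    = ((q : ℕ) : Kbar) * ((zE q e a B ^ (q ^ j) - 1) ^ Nat.totient (q ^ μ) / ((q : ℕ) : Kbar))
  rw [mul_div_cancel₀ _ hq0]

/-- The ring homomorphism `x ↦ cE a x` on the inertia-fixed functions. -/
def psiC (a : ℕ) : ↥(L0 A N) →+* LaurentSeries Kbar :=
  (cE N q M e B k hN hB hq a).toRingHom.comp (L0 A N).subtype

theorem psiC_apply (a : ℕ) (x : ↥(L0 A N)) :
    psiC A N q M e B k hN hB hq a x = cE N q M e B k hN hB hq a (x : FN N) := rfl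

theorem mem_VE_iff_psiC (a : ℕ) (x : ↥(L0 A N)) :
    x ∈ VE A N q M e B k hN hB hq a ↔ psiC A N q M e B k hN hB hq a x ∈ gaussRingV A :=
  Iff.rfl

/-- The expansion of `x` at the cusp `a`, over `A`. -/
theorem psiC_xE (a : ℕ) :
    haveI : NeZero (q ^ (e - 2 * a)) := ⟨pow_ne_zero _ (NeZero.ne q)⟩
    psiC A N q M e B k hN hB hq a (xE A N q M e hN f u₀ hf)
      = iotaV A (qExpand ↥A (q ^ (e - 2 * a)) (coeffMap (Int.castRingHom ↥A) u₀)) := by
  haveI : NeZero (q ^ (e - 2 * a)) := ⟨pow_ne_zero _ (NeZero.ne q)⟩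
  rw [psiC_apply, cE_xE A N q M e B k hN hB hq f u₀ hf a, H65.intSer_eq_iotaV A]
  exact (coeffMap_qExpand A.subtype _ _).symm

/-- The expansion of `y` at the cusp `a < e`, over `A`. -/
theorem psiC_yE (a : ℕ) (hae : a < e) :
    haveI : NeZero (q ^ (max e (2 * a) - e)) := ⟨pow_ne_zero _ (NeZero.ne q)⟩
    psiC A N q M e B k hN hB hq a (yE A N q M e hN f u₀ hf)
      = iotaV A (rot (zEu A q e B a)
          (qExpand ↥A (q ^ (max e (2 * a) - e)) (coeffMap (Int.castRingHom ↥A) u₀))) := by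
  haveI : NeZero (q ^ (max e (2 * a) - e)) := ⟨pow_ne_zero _ (NeZero.ne q)⟩
  rw [psiC_apply, cE_yE_lt A N q M e B k hN hB hq f u₀ hf a hae, H65.intSer_eq_iotaV A,
    Fermat.Agent.S36.NU.H88.iotaV_rot, coe_zEu]
  congr 1
  exact (coeffMap_qExpand A.subtype _ _).symm

include hq in
/-- **The series form of SS-RAM**: the power `φ(q^min(a, e-a))` of the expansion of `t_a` at the
cusp `a` is `q` times an integral series. -/
theorem exists_psiC_tE_pow (a : ℕ) (hae : a < e) :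
    ∃ H : LaurentSeries ↥A,
      psiC A N q M e B k hN hB hq a
          (tE q e a (xE A N q M e hN f u₀ hf) (yE A N q M e hN f u₀ hf))
            ^ Nat.totient (q ^ min a (e - a))
        = ((q : ℕ) : LaurentSeries Kbar) * iotaV A H := by
  haveI : Fact q.Prime := ⟨hq⟩
  haveI : NeZero (q ^ (e - 2 * a)) := ⟨pow_ne_zero _ (NeZero.ne q)⟩
  haveI : NeZero (q ^ (max e (2 * a) - e)) := ⟨pow_ne_zero _ (NeZero.ne q)⟩
  haveI : NeZero (q ^ (2 * a - e)) := ⟨pow_ne_zero _ (NeZero.ne q)⟩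
  rw [map_tE, psiC_xE A N q M e B k hN hB hq f u₀ hf a,
    psiC_yE A N q M e B k hN hB hq f u₀ hf a hae]
  set g := coeffMap (Int.castRingHom ↥A) u₀ with hg
  by_cases h : e ≤ 2 * a
  · -- `t = x ^ Q - y`
    have h0 : e - 2 * a = 0 := by omega
    have h1 : max e (2 * a) - e = 2 * a - e := by
      rw [max_eq_right h]
    have hμ : (2 * a - e) + min a (e - a) = max a (e - a) := by
      rw [min_eq_right (by omega), max_eq_left (by omega)]
      omega
    obtain ⟨w, hw⟩ := exists_zEu_pow A q e B hq a (2 * a - e) (min a (e - a)) hμ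
    obtain ⟨H, hH⟩ := ram_coreA (R := ↥A) q u₀ (zEu A q e B a) (2 * a - e)
      (Nat.totient (q ^ min a (e - a))) w hw
    refine ⟨H, ?_⟩
    have ex : qExpand ↥A (q ^ (e - 2 * a)) g = g := by
      rw [qExpand_congr (show q ^ (e - 2 * a) = 1 by rw [h0, pow_zero]) g, qExpand_one_apply]
    have ey : qExpand ↥A (q ^ (max e (2 * a) - e)) g = qExpand ↥A (q ^ (2 * a - e)) g :=
      qExpand_congr (by rw [h1]) g
    rw [tE_of_le _ _ _ _ _ h, ex, ey, ← map_pow, ← map_sub, ← map_pow, hH, map_mul, map_natCast]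
  · -- `t = x - y ^ Q`
    have h' : 2 * a < e := by omega
    have h1 : max e (2 * a) - e = 0 := by
      rw [max_eq_left h'.le, Nat.sub_self]
    have hμ : (e - 2 * a) + min a (e - a) = max a (e - a) := by
      rw [min_eq_left (by omega), max_eq_right (by omega)]
      omega
    obtain ⟨w, hw⟩ := exists_zEu_pow A q e B hq a (e - 2 * a) (min a (e - a)) hμ
    obtain ⟨H, hH⟩ := ram_coreB (R := ↥A) q u₀ (zEu A q e B a) (e - 2 * a)
      (Nat.totient (q ^ min a (e - a))) w hw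
    refine ⟨H, ?_⟩
    have ey : qExpand ↥A (q ^ (max e (2 * a) - e)) g = g := by
      rw [qExpand_congr (show q ^ (max e (2 * a) - e) = 1 by rw [h1, pow_zero]) g,
        qExpand_one_apply]
    rw [tE_of_lt _ _ _ _ _ h', ey, ← map_pow, ← map_sub, ← map_pow, hH, map_mul, map_natCast]

include hq in
/-- **SS-RAM** for `x = xE`, `y = yE`. -/
theorem ss_ram_xyE (a : ℕ) (hae : a < e) :
    ∃ f' ∈ VE A N q M e B k hN hB hq a,
      (tE q e a (xE A N q M e hN f u₀ hf) (yE A N q M e hN f u₀ hf))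
          ^ Nat.totient (q ^ min a (e - a))
        = ((q : ℕ) : ↥(L0 A N)) * f' := by
  obtain ⟨H, hH⟩ := exists_psiC_tE_pow A N q M e B k hN hB hq f u₀ hf a hae
  have hq0 : ((q : ℕ) : ↥(L0 A N)) ≠ 0 := Nat.cast_ne_zero.2 hq.ne_zero
  have hq0' : ((q : ℕ) : LaurentSeries Kbar) ≠ 0 := by
    rw [← map_natCast (psiC A N q M e B k hN hB hq a)]
    exact (map_ne_zero _).2 hq0
  refine ⟨(((q : ℕ) : ↥(L0 A N)))⁻¹
      * (tE q e a (xE A N q M e hN f u₀ hf) (yE A N q M e hN f u₀ hf))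
          ^ Nat.totient (q ^ min a (e - a)), ?_, ?_⟩
  · rw [mem_VE_iff_psiC, map_mul, map_inv₀, map_pow, map_natCast, hH, ← mul_assoc,
      inv_mul_cancel₀ hq0', one_mul]
    exact iotaV_mem_gaussRingV A H
  · rw [← mul_assoc, mul_inv_cancel₀ hq0, one_mul]

include hq hf in
/-- **SS-RAM** in the shape of `NOTES/plan/S45_EPTSS.md` (input `hram` of `H16.hssE_mod`):
for any `x`, `y` with the expansions `u₀`, `u₀(t^(q^e))`. -/
theorem ss_ram (x y : ↥(L0 A N))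
    (hx : ((x : FN N) : LaurentSeries Kbar) = H65.intSer Kbar u₀)
    (hy : haveI : NeZero (q ^ e) := ⟨pow_ne_zero _ (NeZero.ne q)⟩
      ((y : FN N) : LaurentSeries Kbar) = H65.intSer Kbar (qExpand ℤ (q ^ e) u₀)) :
    ∀ n, n < e → ∃ f' ∈ VE A N q M e B k hN hB hq n,
      (tE q e n x y) ^ Nat.totient (q ^ min n (e - n)) = ((q : ℕ) : ↥(L0 A N)) * f' := by
  obtain ⟨ex, ey, -⟩ := ss_fun_of A N q M e B k hN hB hq f u₀ hf x y hx hy
  intro n hn
  rw [ex, ey]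
  exact ss_ram_xyE A N q M e B k hN hB hq f u₀ hf n hn

end Mod

end Fermat.Agent.S45.NUE.H12
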