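import Fermat.Agent.S45.NUE.H16_HssETot
import Fermat.Agent.S45.NUE.H12_SSRam
import Fermat.Agent.S45.NUE.H12_Pole23

/-!
# S45 / NU_e, package E-FIN, leaf E-PT-SS: `hss` on `totEM` for ALL `q` (helper12)

The hypothesis `hss` of `H88.pointDataE_of_dichotomy` on helper23's `totEM` (level `N = M q^e`,
`i₀ = Fin.last e`, `SS = ssM A q M`), with the leaf SS-RAM discharged (`H12.ss_ram`):

* `ramE` : `H16.RamE` for every coordinate with integral expansion;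
* `hssE_five_full` : `q ≥ 5`, `4 ∣ M` (`H16.hssE_five` without `hram`);
* `hssE_three`, `hssE_two` : `q = 3` (`4 ∣ M`, `f = q23uF3`), `q = 2` (`9 ∣ M`, `f = q23uF2`);
* `hssE_all` : all `q`, tame level `(q ≠ 2 ∧ 4 ∣ M) ∨ (q = 2 ∧ 9 ∣ M)`;
* `hssE_all_chart0E` : the same on helper74's `chart0E`.
-/

set_option autoImplicit false
set_option synthInstance.maxHeartbeats 400000
set_option maxHeartbeats 1000000
set_option linter.unusedSectionVars false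
set_option linter.unusedVariables false
set_option linter.style.haveILetI false

noncomputable section

namespace Fermat.Agent.S45.NUE.H12

open Fermat.Agent.S24 Fermat.Agent.BAD.H88 ModularCurve AlgebraicCurve Polynomial
open Fermat.Agent.S28 Fermat.Agent.S28.H73 Fermat.Agent.RED.H73 Fermat.Agent.RED.H17
open Fermat.Agent.S36.NU.H88 Fermat.Agent.S36.NU.H23 Fermat.Agent.S36.NU.H41
open Fermat.Agent.S36.NU.H65 Fermat.Agent.S36.NU.H16 Fermat.Agent.S36.NU.H24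
open Fermat.Agent.S36.NU.H79 Fermat.Agent.S36.NU.H74 Fermat.Agent.S36.NU Fermat.Agent.BAD
open Fermat.Agent.S36.NU.H5
open Fermat.Agent.S45.NUE.H23 Fermat.Agent.S45.NUE.H68 Fermat.Agent.S45.NUE.H16

section Ram

variable (A : ValuationSubring Kbar)
variable (N q M e : ℕ) (B k : ℤ) (hN : N = M * q ^ e) (hB : B * M + k * (q : ℤ) ^ e = 1)
  (hq : q.Prime) [NeZero N] [NeZero q] [NeZero M]

include hq in
/-- **SS-RAM** as the `Prop` `H16.RamE`, for every coordinate with integral expansion. -/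
theorem ramE (f : FN M) (u₀ : LaurentSeries ℤ)
    (hf : (f : LaurentSeries Kbar) = intSer Kbar u₀) : RamE A N q M e B k hN hB hq u₀ :=
  fun x y hx hy => ss_ram A N q M e B k hN hB hq f u₀ hf x y hx hy

end Ram

section Tot

variable (A : ValuationSubring Kbar)
variable (N q M e : ℕ) (B k : ℤ) (hN : N = M * q ^ e) (hB : B * M + k * (q : ℤ) ^ e = 1)
  (hq : q.Prime) [NeZero N] [NeZero q] [NeZero M] [NeZero (M * q)] (hqM : ¬ q ∣ M)
  (hA : A.LiesOverPrime q) (ht : H91.TameAt M q)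

attribute [local instance] algkE

/-- **`hss` on `totEM`, `q ≥ 5`, `4 ∣ M`**, unconditional in SS-RAM. -/
theorem hssE_five_full (he : 0 < e) (h5 : 5 ≤ q) (h4 : 4 ∣ M)
    (C : Chart ↥(Rur A) ↥(L0 A N) (kV A) (Fin (e + 1)) (kapE A M e))
    (hc : Compat C (totEM A N q M e B k hN hB hq hqM hA ht he))
    (hB0 : C.B = intSub ↥(Rur A) (j0 A N))
    (hVal : H99.ValE C ((q : ℕ) : ↥(Rur A)) (fun i => mE q e (i : ℕ)))
    (hqV : ∀ i, ((q : ℕ) : ↥(L0 A N)) ∈ (C.V i).nonunits)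
    (crit : ∀ f : ↥(L0 A N), IsIntegral ↥(Algebra.adjoin ↥(Kur A) {j0 A N}) f →
      (∀ i, f ∈ C.V i) → f ∈ C.B) :
    ∀ z ∈ ssM A q M, ∀ 𝔪 : Ideal C.B, 𝔪.IsMaximal →
      (∀ β : C.B, β ∈ 𝔪 ↔
        VanAt ((totEM A N q M e B k hN hB hq hqM hA ht he).pt (Fin.last e) z)
          (C.rdB (Fin.last e) β)) →
      Nonempty (LocEq C ((q : ℕ) : ↥(Rur A)) 𝔪) :=
  hssE_five A N q M e B k hN hB hq hqM hA ht he h5 h4 C hc hB0 hVal hqV crit
    (ramE A N q M e B k hN hB hq (Fermat.Agent.BAD.H30.unitF M 4 h4)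
      Fermat.Agent.S36.NU.H73.uZ4 (coe_unitF4 M h4))

/-- **`hss` on `totEM`, `q = 3`, `4 ∣ M`** (`f = q23uF3`, `u₀ = q23hZ4`). -/
theorem hssE_three (h3 : q = 3) (he : 0 < e) (h4 : 4 ∣ M)
    (C : Chart ↥(Rur A) ↥(L0 A N) (kV A) (Fin (e + 1)) (kapE A M e))
    (hc : Compat C (totEM A N q M e B k hN hB hq hqM hA ht he))
    (hB0 : C.B = intSub ↥(Rur A) (j0 A N))
    (hVal : H99.ValE C ((q : ℕ) : ↥(Rur A)) (fun i => mE q e (i : ℕ)))
    (hqV : ∀ i, ((q : ℕ) : ↥(L0 A N)) ∈ (C.V i).nonunits)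
    (crit : ∀ f : ↥(L0 A N), IsIntegral ↥(Algebra.adjoin ↥(Kur A) {j0 A N}) f →
      (∀ i, f ∈ C.V i) → f ∈ C.B) :
    ∀ z ∈ ssM A q M, ∀ 𝔪 : Ideal C.B, 𝔪.IsMaximal →
      (∀ β : C.B, β ∈ 𝔪 ↔
        VanAt ((totEM A N q M e B k hN hB hq hqM hA ht he).pt (Fin.last e) z)
          (C.rdB (Fin.last e) β)) →
      Nonempty (LocEq C ((q : ℕ) : ↥(Rur A)) 𝔪) := by
  subst h3
  exact hssE_tot A N 3 M e B k hN hB hq hqM hA ht he C hc hB0 hVal hqV crit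
    (q23uF3 M h4) q23hZ4 (q23uF3_coe M h4) 4 h4 3 (by norm_num) (q23uF3_cube M h4)
    (ramE A N 3 M e B k hN hB hq (q23uF3 M h4) q23hZ4 (q23uF3_coe M h4)) (ssM A 3 M)
    (fun z hz => pole_ssM_three A M hqM hA h4 z hz)

/-- **`hss` on `totEM`, `q = 2`, `9 ∣ M`** (`f = q23uF2`, `u₀ = q23hZ9`). -/
theorem hssE_two (h2 : q = 2) (he : 0 < e) (h9 : 9 ∣ M)
    (C : Chart ↥(Rur A) ↥(L0 A N) (kV A) (Fin (e + 1)) (kapE A M e))
    (hc : Compat C (totEM A N q M e B k hN hB hq hqM hA ht he))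
    (hB0 : C.B = intSub ↥(Rur A) (j0 A N))
    (hVal : H99.ValE C ((q : ℕ) : ↥(Rur A)) (fun i => mE q e (i : ℕ)))
    (hqV : ∀ i, ((q : ℕ) : ↥(L0 A N)) ∈ (C.V i).nonunits)
    (crit : ∀ f : ↥(L0 A N), IsIntegral ↥(Algebra.adjoin ↥(Kur A) {j0 A N}) f →
      (∀ i, f ∈ C.V i) → f ∈ C.B) :
    ∀ z ∈ ssM A q M, ∀ 𝔪 : Ideal C.B, 𝔪.IsMaximal →
      (∀ β : C.B, β ∈ 𝔪 ↔
        VanAt ((totEM A N q M e B k hN hB hq hqM hA ht he).pt (Fin.last e) z)
          (C.rdB (Fin.last e) β)) →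
      Nonempty (LocEq C ((q : ℕ) : ↥(Rur A)) 𝔪) := by
  subst h2
  exact hssE_tot A N 2 M e B k hN hB hq hqM hA ht he C hc hB0 hVal hqV crit
    (q23uF2 M h9) q23hZ9 (q23uF2_coe M h9) 9 h9 8 (by norm_num) (q23uF2_pow M h9)
    (ramE A N 2 M e B k hN hB hq (q23uF2 M h9) q23hZ9 (q23uF2_coe M h9)) (ssM A 2 M)
    (fun z hz => pole_ssM_two A M hqM hA h9 z hz)

/-- **`hss` on `totEM`, all `q`**, at the tame levels (`4 ∣ M` if `q` is odd, `9 ∣ M` if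
`q = 2`). -/
theorem hssE_all (hT : (q ≠ 2 ∧ 4 ∣ M) ∨ (q = 2 ∧ 9 ∣ M)) (he : 0 < e)
    (C : Chart ↥(Rur A) ↥(L0 A N) (kV A) (Fin (e + 1)) (kapE A M e))
    (hc : Compat C (totEM A N q M e B k hN hB hq hqM hA ht he))
    (hB0 : C.B = intSub ↥(Rur A) (j0 A N))
    (hVal : H99.ValE C ((q : ℕ) : ↥(Rur A)) (fun i => mE q e (i : ℕ)))
    (hqV : ∀ i, ((q : ℕ) : ↥(L0 A N)) ∈ (C.V i).nonunits)
    (crit : ∀ f : ↥(L0 A N), IsIntegral ↥(Algebra.adjoin ↥(Kur A) {j0 A N}) f →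
      (∀ i, f ∈ C.V i) → f ∈ C.B) :
    ∀ z ∈ ssM A q M, ∀ 𝔪 : Ideal C.B, 𝔪.IsMaximal →
      (∀ β : C.B, β ∈ 𝔪 ↔
        VanAt ((totEM A N q M e B k hN hB hq hqM hA ht he).pt (Fin.last e) z)
          (C.rdB (Fin.last e) β)) →
      Nonempty (LocEq C ((q : ℕ) : ↥(Rur A)) 𝔪) := by
  rcases hT with ⟨h2, h4⟩ | ⟨h2, h9⟩
  · by_cases h3 : q = 3
    · exact hssE_three A N q M e B k hN hB hq hqM hA ht h3 he h4 C hc hB0 hVal hqV crit
    · have h5 : 5 ≤ q := by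
        have h2' := hq.two_le
        by_contra hlt
        have h4' : q = 4 := by omega
        rw [h4'] at hq
        exact absurd hq (by decide)
      exact hssE_five_full A N q M e B k hN hB hq hqM hA ht he h5 h4 C hc hB0 hVal hqV crit
  · exact hssE_two A N q M e B k hN hB hq hqM hA ht h2 he h9 C hc hB0 hVal hqV crit

/-- **`hss` on helper74's `chart0E` of `totEM`, all `q`.** -/
theorem hssE_all_chart0E (hT : (q ≠ 2 ∧ 4 ∣ M) ∨ (q = 2 ∧ 9 ∣ M)) (he : 0 < e)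
    (h : H74.ChartInE A N (totEM A N q M e B k hN hB hq hqM hA ht he))
    (hVal : H99.ValE (H74.chart0E A N (totEM A N q M e B k hN hB hq hqM hA ht he) h)
      ((q : ℕ) : ↥(Rur A)) (fun i => mE q e (i : ℕ)))
    (hqV : ∀ i, ((q : ℕ) : ↥(L0 A N))
      ∈ ((H74.chart0E A N (totEM A N q M e B k hN hB hq hqM hA ht he) h).V i).nonunits)
    (crit : ∀ f : ↥(L0 A N), IsIntegral ↥(Algebra.adjoin ↥(Kur A) {j0 A N}) f →
      (∀ i, f ∈ (H74.chart0E A N (totEM A N q M e B k hN hB hq hqM hA ht he) h).V i) →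
      f ∈ (H74.chart0E A N (totEM A N q M e B k hN hB hq hqM hA ht he) h).B) :
    ∀ z ∈ ssM A q M,
      ∀ 𝔪 : Ideal (H74.chart0E A N (totEM A N q M e B k hN hB hq hqM hA ht he) h).B,
      𝔪.IsMaximal →
      (∀ β : (H74.chart0E A N (totEM A N q M e B k hN hB hq hqM hA ht he) h).B, β ∈ 𝔪 ↔
        VanAt ((totEM A N q M e B k hN hB hq hqM hA ht he).pt (Fin.last e) z)
          ((H74.chart0E A N (totEM A N q M e B k hN hB hq hqM hA ht he) h).rdB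
            (Fin.last e) β)) →
      Nonempty (LocEq (H74.chart0E A N (totEM A N q M e B k hN hB hq hqM hA ht he) h)
        ((q : ℕ) : ↥(Rur A)) 𝔪) :=
  hssE_all A N q M e B k hN hB hq hqM hA ht hT he _
    (H74.compat_chart0E A N _ h) (H74.chart0E_B A N _ h) hVal hqV crit

end Tot

end Fermat.Agent.S45.NUE.H12
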