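import Fermat.Agent.S45.NUE.H73_CuspExp3

/-!
# S45 / NU_e, package E-VAL (helper23): the `e + 1` Gauss valuations of level `N = M q^e`

`N = M q^e`, `q ∤ M` (`B M + k q^e = 1`), `A` a valuation ring of `ℚ̄`.  For `a = 0..e`
(`a` = number of `F`-steps, component `F^a V^(e-a)`):

* `hE a : IsCuspExp N (gE q M a) (M q^min(e, 2a))` (helper73), `cE a = cG (hE a)` the normalised
  expansion at the cusp `1/(q^a M)`;
* `VF a : ValuationSubring (F_N)`, `redF a` (on `F_N · ℚ̄`);
* **`VE a : ValuationSubring (L0 A N)`**, **`sE a : VE a →+* k((s))`** (on the inertia-fixed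
  functions), `mem_VE_iff`, `sE_mk`, kernel.

`a = e` is the Gauss valuation at `∞` (`mem_VE_top_iff`).
-/

set_option autoImplicit false
set_option synthInstance.maxHeartbeats 400000
set_option maxHeartbeats 1000000
set_option linter.style.haveILetI false
set_option linter.unusedSectionVars false

noncomputable section

open ModularCurve AlgebraicCurve
open Fermat.Agent.S24 Fermat.Agent.BAD.H88 Fermat.Agent.S28 Fermat.Agent.S28.H73
open Fermat.Agent.RED.H73 Fermat.Agent.RED.H17 Fermat.Agent.S36.NU.H88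
open Fermat.Agent.S36.NU.H23 Fermat.Agent.S45.NUE.H73
open scoped MatrixGroups

namespace Fermat.Agent.S45.NUE.H23

section Level

variable (A : ValuationSubring Kbar)
variable (N q M e : ℕ) (B k : ℤ) (hN : N = M * q ^ e) (hB : B * M + k * (q : ℤ) ^ e = 1)
  (hq : q.Prime) [NeZero N] [NeZero q]

include hN hB hq in
theorem neZero_nE (a : ℕ) : NeZero (M * q ^ min e (2 * a)) :=
  ⟨(Nat.mul_pos (posE N q M e B k hN hB hq) (pow_pos hq.pos _)).ne'⟩

/-- The cusp `1/(q^a M)` has a normalised expansion. -/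
theorem hE (a : ℕ) :
    haveI := neZero_nE N q M e B k hN hB hq a
    IsCuspExp N (gE q M a) (M * q ^ min e (2 * a)) :=
  haveI := neZero_nE N q M e B k hN hB hq a
  isCuspExp_gE N q M e B k hN hB hq a

/-- **The normalised expansion at the cusp `1/(q^a M)`** of `X₀(M q^e)`. -/
def cE (a : ℕ) : FN N →ₐ[Kbar] LaurentSeries Kbar :=
  haveI := neZero_nE N q M e B k hN hB hq a
  cG (hE N q M e B k hN hB hq a)

/-- The Gauss valuation at the cusp `1/(q^a M)`, on `F_N · ℚ̄`. -/
def VF (a : ℕ) : ValuationSubring (FN N) :=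
  haveI := neZero_nE N q M e B k hN hB hq a
  VG (hE N q M e B k hN hB hq a) A

theorem mem_VF_iff (a : ℕ) (x : FN N) :
    x ∈ VF A N q M e B k hN hB hq a ↔ cE N q M e B k hN hB hq a x ∈ gaussRingV A := Iff.rfl

/-- **The valuation `V_a`** of the inertia-fixed functions of level `M q^e`. -/
def VE (a : ℕ) : ValuationSubring ↥(L0 A N) :=
  haveI := neZero_nE N q M e B k hN hB hq a
  VGo (hE N q M e B k hN hB hq a) A

theorem mem_VE_iff (a : ℕ) (x : ↥(L0 A N)) :
    x ∈ VE A N q M e B k hN hB hq a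
      ↔ cE N q M e B k hN hB hq a (x : FN N) ∈ gaussRingV A := Iff.rfl

theorem VE_eq_resV0 (a : ℕ) :
    VE A N q M e B k hN hB hq a = resV0 (L0 A N) (VF A N q M e B k hN hB hq a) := rfl

/-- **The residue map of `V_a`**, with values in `k((s))`. -/
def sE (a : ℕ) : ↥(VE A N q M e B k hN hB hq a) →+* LaurentSeries (kV A) :=
  haveI := neZero_nE N q M e B k hN hB hq a
  sG (hE N q M e B k hN hB hq a) A

theorem sE_mk (a : ℕ) (x : ↥(L0 A N)) (hx : x ∈ VE A N q M e B k hN hB hq a) :
    sE A N q M e B k hN hB hq a ⟨x, hx⟩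
      = gaussRedV A ⟨cE N q M e B k hN hB hq a (x : FN N), hx⟩ := rfl

theorem sE_eq_zero_of_not_isUnit (a : ℕ) (x : ↥(VE A N q M e B k hN hB hq a))
    (hx : ¬ IsUnit x) : sE A N q M e B k hN hB hq a x = 0 :=
  haveI := neZero_nE N q M e B k hN hB hq a
  sG_eq_zero_of_not_isUnit (hE N q M e B k hN hB hq a) A x hx

theorem cE_injective (a : ℕ) : Function.Injective (cE N q M e B k hN hB hq a) :=
  (cE N q M e B k hN hB hq a).toRingHom.injective

/-- `a = e` is the cusp `∞`. -/
theorem cE_top (x : FN N) : cE N q M e B k hN hB hq e x = (x : LaurentSeries Kbar) :=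
  haveI := neZero_nE N q M e B k hN hB hq e
  cG_top N q M e B k hN hB hq x

theorem mem_VE_top_iff (x : ↥(L0 A N)) :
    x ∈ VE A N q M e B k hN hB hq e ↔ ((x : FN N) : LaurentSeries Kbar) ∈ gaussRingV A := by
  rw [mem_VE_iff, cE_top]

/-- The values of `cE a` on the generators, `i ≤ a`. -/
theorem cE_jdF_le (d d' i a : ℕ) (hM : M = d * d') (hia : i ≤ a) [NeZero (d * q ^ i)]
    [NeZero (d * q ^ (e - 2 * a + i))] (hD : d * q ^ i ∣ N) :
    cE N q M e B k hN hB hq a (jdF N (d * q ^ i) hD)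
      = qExpand Kbar (d * q ^ (e - 2 * a + i)) jBar :=
  haveI := neZero_nE N q M e B k hN hB hq a
  cG_jdF_le N q M e B k hN hB hq d d' i a hM hia hD

/-- The values of `cE a` on the generators, `a < i ≤ e`. -/
theorem cE_jdF_gt (d d' i a : ℕ) (hM : M = d * d') (hai : a < i) (hie : i ≤ e)
    [NeZero (d * q ^ i)] [NeZero (d * q ^ (max e (2 * a) - i))] (hD : d * q ^ i ∣ N) :
    cE N q M e B k hN hB hq a (jdF N (d * q ^ i) hD)
      = twist (zE q e a B) (qExpand Kbar (d * q ^ (max e (2 * a) - i)) jBar) :=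
  haveI := neZero_nE N q M e B k hN hB hq a
  cG_jdF_gt N q M e B k hN hB hq d d' i a hM hai hie hD

end Level

end Fermat.Agent.S45.NUE.H23
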