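import Fermat.Agent.S45.NUE.H82_EpsDefs
import Fermat.Agent.S45.NUE.H23_ValE

/-!
# S45 / NU_e, package E-CUSP / E-EPS (helper82): the witnesses `EwE a` and the targets

Level `N = M q^e`, `1 ≤ e`, components `a = 0..e`, `V_a = H23.VE .. a`, `s_a = H23.sE .. a`.
With `eps_i = Δ(q^(i-1) τ)/Δ(q^i τ) = epsN N q (i - 1)`:

  `EwE e = eps_e`,   `EwE 0 = q¹² / eps_1`,   `EwE a = q¹² eps_a / eps_(a+1)`  (`0 < a < e`)

(for `e = 2`: helper99's `E20o`, `E02o`, `E11o`).  Targets (proved in `H82_EpsVal.lean`):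

* `Stmt_EwE_mem` : `EwE a ∈ V_b` for all `a, b ≤ e`;
* `Stmt_EwE_inv` : `(EwE a)⁻¹ ∈ V_a`;
* `Stmt_EwE_div` : `a ≠ b → ∃ f' ∈ V_b, EwE a = q * f'`;
* `Stmt_EwE_red` : `s_a (EwE a) = (HU (s^(q^(max a (e - a) - 1)))) ^ c_a`, `HU = (Δ~^(q - 1))⁻¹`,
  `c_a = 1` for `a = 0, e` and `c_a = 2` for `0 < a < e`.
-/

set_option autoImplicit false
set_option synthInstance.maxHeartbeats 400000
set_option maxHeartbeats 1000000
set_option linter.unusedSectionVars false
set_option linter.style.haveILetI false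

noncomputable section

open ModularCurve
open Fermat.Agent.S24 Fermat.Agent.BAD.H88 Fermat.Agent.BAD.H30 Fermat.Agent.BAD.H21
open Fermat.Agent.S28 Fermat.Agent.S28.H73 Fermat.Agent.RED.H73 Fermat.Agent.RED.H17
open Fermat.Agent.S36.NU.H88 Fermat.Agent.S36.NU.H23 Fermat.Agent.S36.NU.H82
open Fermat.Agent.S45.NUE.H73

namespace Fermat.Agent.S45.NUE.H82

section Defs

variable (A : ValuationSubring Kbar) (N q : ℕ) [NeZero N] [NeZero q]

open Classical in
/-- `eps_(i+1) = Δ(q^i τ)/Δ(q^(i+1) τ)` if `q^(i+1) ∣ N`, and `1` otherwise. -/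
def epsT (i : ℕ) : FN N := if h : q ^ (i + 1) ∣ N then epsN N q i h else 1

theorem epsT_eq (i : ℕ) (h : q ^ (i + 1) ∣ N) : epsT N q i = epsN N q i h := by
  rw [epsT, dif_pos h]

theorem epsT_ne_zero (i : ℕ) : epsT N q i ≠ 0 := by
  rw [epsT]
  split_ifs with h
  · exact epsN_ne_zero N q i h
  · exact one_ne_zero

theorem epsT_mem_L0 (i : ℕ) : epsT N q i ∈ L0 A N := by
  rw [epsT]
  split_ifs with h
  · exact epsN_mem_L0 N q A i h
  · exact one_mem _

/-- The constant `q` of level `N`. -/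
abbrev cqN : FN N := algebraMap Kbar (FN N) (q : Kbar)

theorem cqN_ne_zero : cqN N q ≠ 0 := by
  rw [cqN, Ne, map_eq_zero]
  exact_mod_cast (NeZero.ne q)

theorem cqN_mem_L0 : cqN N q ∈ L0 A N := by
  rw [const_mem_L0_iff]
  intro σ _
  exact map_natCast σ q

theorem cqN_eq_natCast : cqN N q = ((q : ℕ) : FN N) := by
  rw [cqN, map_natCast]

/-- **The witness of the component `a`** (level `N = M q^e`), as an element of `F_N`. -/
def EwF (e a : ℕ) : FN N :=
  if a = 0 then cqN N q ^ 12 * (epsT N q 0)⁻¹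
  else if a = e then epsT N q (e - 1)
  else cqN N q ^ 12 * epsT N q (a - 1) * (epsT N q a)⁻¹

theorem EwF_zero (e : ℕ) : EwF N q e 0 = cqN N q ^ 12 * (epsT N q 0)⁻¹ := by
  rw [EwF, if_pos rfl]

theorem EwF_top (e : ℕ) (he : e ≠ 0) : EwF N q e e = epsT N q (e - 1) := by
  rw [EwF, if_neg he, if_pos rfl]

theorem EwF_mid (e a : ℕ) (ha0 : a ≠ 0) (hae : a ≠ e) :
    EwF N q e a = cqN N q ^ 12 * epsT N q (a - 1) * (epsT N q a)⁻¹ := by
  rw [EwF, if_neg ha0, if_neg hae]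

theorem EwF_ne_zero (e a : ℕ) : EwF N q e a ≠ 0 := by
  have h0 := cqN_ne_zero N q
  rw [EwF]
  split_ifs
  · exact mul_ne_zero (pow_ne_zero _ h0) (inv_ne_zero (epsT_ne_zero N q 0))
  · exact epsT_ne_zero N q _
  · exact mul_ne_zero (mul_ne_zero (pow_ne_zero _ h0) (epsT_ne_zero N q _))
      (inv_ne_zero (epsT_ne_zero N q a))

theorem EwF_mem_L0 (e a : ℕ) : EwF N q e a ∈ L0 A N := by
  have h0 := cqN_mem_L0 A N q
  rw [EwF]
  split_ifs
  · exact mul_mem (pow_mem h0 12) (inv_mem (epsT_mem_L0 A N q 0))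
  · exact epsT_mem_L0 A N q _
  · exact mul_mem (mul_mem (pow_mem h0 12) (epsT_mem_L0 A N q _))
      (inv_mem (epsT_mem_L0 A N q a))

/-- **The witness of the component `a`**, as an inertia-fixed function. -/
def EwE (e a : ℕ) : ↥(L0 A N) := ⟨EwF N q e a, EwF_mem_L0 A N q e a⟩

theorem coe_EwE (e a : ℕ) : ((EwE A N q e a : ↥(L0 A N)) : FN N) = EwF N q e a := rfl

theorem EwE_ne_zero (e a : ℕ) : EwE A N q e a ≠ 0 := fun h =>
  EwF_ne_zero N q e a (congrArg Subtype.val h)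

/-- The exponent `c_a`: `1` at the two ends, `2` in the middle. -/
def cEw (e a : ℕ) : ℕ := if a = 0 ∨ a = e then 1 else 2

/-- `HU = (Δ~ ^ (q - 1))⁻¹`, the reduction of `Δ(t)/Δ(t^q)` over `q`. -/
def HUk : LaurentSeries (kV A) := (deltaR (kV A) ^ (q - 1))⁻¹

end Defs

section Targets

variable (A : ValuationSubring Kbar)
variable (N q M e : ℕ) (B k : ℤ) (hN : N = M * q ^ e) (hB : B * M + k * (q : ℤ) ^ e = 1)
  (hq : q.Prime) [NeZero N] [NeZero q]

open Fermat.Agent.S45.NUE.H23 (VE sE)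

/-- **(E-EPS i)** the witnesses lie in all the valuation rings. -/
def Stmt_EwE_mem : Prop :=
  ∀ a b : ℕ, a ≤ e → b ≤ e → EwE A N q e a ∈ VE A N q M e B k hN hB hq b

/-- **(E-EPS i')** the witness of `a` is a unit at `V_a`. -/
def Stmt_EwE_inv : Prop :=
  ∀ a : ℕ, a ≤ e → (EwE A N q e a)⁻¹ ∈ VE A N q M e B k hN hB hq a

/-- **(E-EPS ii)** the witness of `a` is divisible by `q` at the other components. -/
def Stmt_EwE_div : Prop :=
  ∀ a b : ℕ, a ≤ e → b ≤ e → a ≠ b →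
    ∃ f' ∈ VE A N q M e B k hN hB hq b, EwE A N q e a = ((q : ℕ) : ↥(L0 A N)) * f'

/-- **(E-EPS iii)** the reduction of the witness of `a` at `V_a`. -/
def Stmt_EwE_red : Prop :=
  ∀ (a : ℕ) (_ : a ≤ e) (h : EwE A N q e a ∈ VE A N q M e B k hN hB hq a),
    sE A N q M e B k hN hB hq a ⟨EwE A N q e a, h⟩
      = (qExpand (kV A) (q ^ (max a (e - a) - 1)) (HUk A q)) ^ cEw e a

end Targets

end Fermat.Agent.S45.NUE.H82
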