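import Fermat.Agent.S45.NUE.H99_UnifU
import Fermat.Agent.S45.NUE.H82_EwE
import Fermat.Agent.S36.NU.H99_OrdMod3

/-!
# S45 / NU_e, leaf E-PT-ORD (helper99): the local equation data at the ordinary points

`N = M q^e`, `C` a chart of the inertia-fixed functions of level `N` whose valuation rings are
helper23's `VE (idx i)` (`ChartE`: the chart criterion for the integral closure of `K^ur[j]`,
the ramification indices `φ(q^min(a, e - a))`), witnesses `EwE a` (helper82).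

* `rd_eq_of_sRed`, `locEq_ord_of_red` : the abstract certificate through a reduction map;
* `ChartE`, `ChartE.witE` : the hypotheses on the chart, the witnesses in `B`;
* `MidCertE a` : **the certificate of the component `0 < a < e`** (a statement on the level
  `N` only, no chart): a coordinate `f` of level `M` with integral expansion, horizontal
  integrality of `π_a(f)`, a unit `U` and the identity
  `(s_a(EwE a) · ε̄ (θ ū₀ (s^(q^δ)))^φ)^m = c · s_a(EwE a)^n · s_a(U)` in `k((s))`;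
* `ordEndE` (components `a = 0, e`), `ordMidE` (components `0 < a < e`);
* **`hordE`** : the hypothesis `hord` of `H88.pointDataE_of_dichotomy`.
-/

set_option autoImplicit false
set_option synthInstance.maxHeartbeats 400000
set_option maxHeartbeats 1000000
set_option linter.unusedSectionVars false
set_option linter.unusedVariables false
set_option linter.style.haveILetI false

noncomputable section

open ModularCurve AlgebraicCurve IntermediateField
open Fermat.Agent.S24 Fermat.Agent.BAD.H88 Fermat.Agent.BAD.H30 Fermat.Agent.BAD.H21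
open Fermat.Agent.S28 Fermat.Agent.S28.H73 Fermat.Agent.RED.H73 Fermat.Agent.RED.H17
open Fermat.Agent.S36.NU Fermat.Agent.S36.NU.H88 Fermat.Agent.S36.NU.H23
open Fermat.Agent.S36.NU.H41 Fermat.Agent.RED

namespace Fermat.Agent.S45.NUE.H99

open Fermat.Agent.S36.NU.H16 (Chart LocEq)
open Fermat.Agent.S36.NU.H99 (ValE locEq_ord_crit_mid locEq_ord_crit_one not_mem_of_rdB_eq
  not_mem_of_mul_eq_one pow_not_mem mul_not_mem mem_nonunits_of_map_eq_zero
  isIntegral_Kur_of_bar isIntegral_bar_of_unitOff IsUnitOff isUnitOff_const isUnitOff_unitF)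
open Fermat.Agent.S45.NUE.H23 (VE sE)
open Fermat.Agent.S45.NUE.H73 (dE)
open Fermat.Agent.S45.NUE.H82 (EwE EwF cEw HUk Stmt_EwE_mem Stmt_EwE_div Stmt_EwE_red)

/-! ## The abstract certificate -/

section Abs

variable {R F k ι : Type*} {κ : ι → Type*} [CommRing R] [Field F] [Algebra R F]
  [Field k] [∀ i, Field (κ i)] [∀ i, Algebra k (κ i)]

variable (C : Chart R F k ι κ)

/-- Equality of the residues at `V i` from a reduction map `s` of `V i`. -/
theorem rd_eq_of_sRed (i : ι) {S : Type*} [CommRing S] [Nontrivial S]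
    (s : ↥(C.V i) →+* S) {x y : F} (hx : x ∈ C.V i) (hy : y ∈ C.V i)
    (h : s ⟨x, hx⟩ = s ⟨y, hy⟩) : C.rd i x = C.rd i y := by
  have hsub : x - y ∈ (C.V i).nonunits := by
    refine mem_nonunits_of_map_eq_zero (C.V i) s ⟨x - y, sub_mem hx hy⟩ ?_
    have e : (⟨x - y, sub_mem hx hy⟩ : ↥(C.V i)) = ⟨x, hx⟩ - ⟨y, hy⟩ := rfl
    rw [e, map_sub, h, sub_self]
  have h0 := (C.rd_eq_zero_iff i (sub_mem hx hy)).2 hsub
  rw [C.rd_sub i hx hy] at h0
  exact sub_eq_zero.1 h0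

variable [Fintype ι] [DecidableEq ι] (q : R)

/-- **Ordinary point of a component of multiplicity `e i`**, the certificate
`(s W' · s f')^m = c · s Y` (`c ≠ 0` a constant, `Y ∉ 𝔪`) being read through a reduction map
`s` of `V i`. -/
theorem locEq_ord_of_red (hq0 : algebraMap R F q ≠ 0)
    (hqV : ∀ i, algebraMap R F q ∈ (C.V i).nonunits)
    (H : Subring F) (hBH : ∀ x ∈ C.B, x ∈ H) (hqH : (algebraMap R F q)⁻¹ ∈ H)
    (crit : ∀ f ∈ H, (∀ i, f ∈ C.V i) → f ∈ C.B)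
    (e : ι → ℕ) (hE : ValE C q e)
    (𝔪 : Ideal C.B) [h𝔪 : 𝔪.IsPrime] (i : ι) (hi : C.Icomp i ≤ 𝔪) (he : 0 < e i)
    {S : Type*} [CommRing S] [Nontrivial S] [Algebra k S] (s : ↥(C.V i) →+* S)
    (hconst : ∀ (r : R) (h : algebraMap R F r ∈ C.V i),
      s ⟨algebraMap R F r, h⟩ = algebraMap k S (C.res r))
    (x W' : C.B) (hW' : W' ∉ 𝔪)
    (hW'v : ∀ i', i' ≠ i → ∃ f' ∈ C.V i', (W' : F) = algebraMap R F q * f')
    (f' : F) (hf' : f' ∈ C.V i) (hxf : (x : F) ^ e i = algebraMap R F q * f')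
    (m : ℕ) (hm : 0 < m) (c : k) (hc : c ≠ 0) (Y : C.B) (hY : Y ∉ 𝔪)
    (hs : (s ⟨(W' : F), C.B_le i _ W'.2⟩ * s ⟨f', hf'⟩) ^ m
      = algebraMap k S c * s ⟨(Y : F), C.B_le i _ Y.2⟩) :
    Nonempty (LocEq C q 𝔪) ∧ ∀ i', C.Icomp i' ≤ 𝔪 → i' = i := by
  obtain ⟨r, hr⟩ := C.res_surj c⁻¹
  have hrV : algebraMap R F r ∈ C.V i := C.B_le i _ (C.B.algebraMap_mem r)
  have hWV : (W' : F) ∈ C.V i := C.B_le i _ W'.2
  refine locEq_ord_crit_mid C q hq0 hqV H hBH hqH crit e hE 𝔪 i hi he x W' hW' hW'v f' hf' hxf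
    m hm (algebraMap R C.B r) Y hY ?_
  have h1 : ((W' : F) * f') ^ m * algebraMap R F r ∈ C.V i :=
    mul_mem (pow_mem (mul_mem hWV hf') m) hrV
  rw [← C.rd_coe i Y]
  refine rd_eq_of_sRed C i s h1 (C.B_le i _ Y.2) ?_
  change s ⟨((W' : F) * f') ^ m * algebraMap R F r, h1⟩ = _
  have e1 : (⟨((W' : F) * f') ^ m * algebraMap R F r, h1⟩ : ↥(C.V i))
      = (⟨(W' : F), hWV⟩ * ⟨f', hf'⟩) ^ m * ⟨algebraMap R F r, hrV⟩ := rfl
  rw [e1, map_mul, map_pow, map_mul, hs, hconst r hrV, hr, mul_comm (algebraMap k S c) _,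
    mul_assoc, ← map_mul, mul_inv_cancel₀ hc, map_one, mul_one]

end Abs

/-! ## The chart of level `M q^e` -/

section Mod

variable (A : ValuationSubring Kbar)
variable (N q M e : ℕ) (B k : ℤ) (hN : N = M * q ^ e) (hB : B * M + k * (q : ℤ) ^ e = 1)
  (hq : q.Prime) [NeZero N] [NeZero q] [NeZero M]

variable {R ι : Type*} {κ : ι → Type*} [CommRing R] [Algebra R ↥(L0 A N)]
  [∀ i, Field (κ i)] [∀ i, Algebra (kV A) (κ i)]

/-- **The hypotheses on a chart of the inertia-fixed functions of level `N = M q^e`**: its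
valuation rings are helper23's `VE (idx i)` with ramification indices
`φ(q^min(idx i, e - idx i))`, `B` is cut out of the integral closure of `K^ur[j]` by the
valuations, and the residue maps `sE` are compatible with the residue map of the constants. -/
structure ChartE (C : Chart R ↥(L0 A N) (kV A) ι κ) (qR : R) (mult : ι → ℕ) (idx : ι → ℕ) :
    Prop where
  hqR : algebraMap R ↥(L0 A N) qR = ((q : ℕ) : ↥(L0 A N))
  hqV : ∀ i, algebraMap R ↥(L0 A N) qR ∈ (C.V i).nonunits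
  crit : ∀ f : ↥(L0 A N),
    IsIntegral ↥(Algebra.adjoin ↥(Kur A) ({j0 A N} : Set ↥(L0 A N))) f →
      (∀ i, f ∈ C.V i) → f ∈ C.B
  hint : ∀ x ∈ C.B, IsIntegral ↥(Algebra.adjoin ↥(Kur A) ({j0 A N} : Set ↥(L0 A N))) x
  hE : ValE C qR mult
  hidx : ∀ i, idx i ≤ e
  hinj : Function.Injective idx
  hmult : ∀ i, mult i = Nat.totient (q ^ min (idx i) (e - idx i))
  hV : ∀ i, C.V i = VE A N q M e B k hN hB hq (idx i)
  hconst : ∀ (i : ι) (r : R)
    (h : algebraMap R ↥(L0 A N) r ∈ VE A N q M e B k hN hB hq (idx i)),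
    sE A N q M e B k hN hB hq (idx i) ⟨_, h⟩
      = algebraMap (kV A) (LaurentSeries (kV A)) (C.res r)

/-- The integral closure of `K^ur[j]` in the inertia-fixed functions of level `N`. -/
def HintE (A : ValuationSubring Kbar) (N : ℕ) [NeZero N] : Subring ↥(L0 A N) :=
  (integralClosure ↥(Algebra.adjoin ↥(Kur A) ({j0 A N} : Set ↥(L0 A N))) ↥(L0 A N)).toSubring

theorem mem_HintE {x : ↥(L0 A N)} : x ∈ HintE A N ↔
    IsIntegral ↥(Algebra.adjoin ↥(Kur A) ({j0 A N} : Set ↥(L0 A N))) x := Iff.rfl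

/-- Horizontal integrality of the witnesses. -/
theorem isUnitOff_EwF (a : ℕ) : IsUnitOff N (EwF N q e a) := by
  have hc : IsUnitOff N (H82.cqN N q) :=
    isUnitOff_const (Nat.cast_ne_zero.2 (NeZero.ne q))
  have hE : ∀ i, IsUnitOff N (H82.epsT N q i) := by
    intro i
    rw [H82.epsT]
    split_ifs with h
    · exact (isUnitOff_unitF _ _).mul (isUnitOff_unitF _ _).inv
    · exact ⟨one_ne_zero, fun P _ => P.ord_one⟩
  rw [EwF]
  split_ifs
  · exact (hc.pow 12).mul (hE 0).inv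
  · exact hE _
  · exact ((hc.pow 12).mul (hE _)).mul (hE a).inv

theorem isIntegral_EwE (a : ℕ) :
    IsIntegral ↥(Algebra.adjoin ↥(Kur A) ({j0 A N} : Set ↥(L0 A N))) (EwE A N q e a) :=
  isIntegral_Kur_of_bar A _ _ (isIntegral_bar_of_unitOff (isUnitOff_EwF N q e a))

/-- **The certificate of the component `0 < a < e`** (a statement on the level `N = M q^e`
only): a coordinate `f` of level `M` with integral expansion `u₀`, the horizontal integrality of
the local equation `π_a(f)`, a unit `U` (integral with its inverse, in every `VE b`) and the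
identity `(s_a(EwE a) · ε̄ (θ ū₀ (s^(q^δ)))^φ)^m = c · s_a(EwE a)^n · s_a(U)`, `c ≠ 0`, `0 < m`,
in which `s_a(EwE a) = H₁²`, `H₁ = HU (s^(q^(max(a, e - a) - 1)))`. -/
def MidCertE (a : ℕ) (ha1 : 1 ≤ a) (hae : a < e) : Prop :=
  ∃ (f : FN M) (u₀ : LaurentSeries ℤ) (hf : (f : LaurentSeries Kbar) = H65.intSer Kbar u₀)
    (m n : ℕ) (c : kV A) (U U' : ↥(L0 A N)),
    IsIntegral ↥(Algebra.adjoin ↥(Kur A) ({j0 A N} : Set ↥(L0 A N)))
        (piUo A N q M e hN f u₀ hf a hae.le) ∧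
      0 < m ∧ c ≠ 0 ∧ U * U' = 1 ∧
      IsIntegral ↥(Algebra.adjoin ↥(Kur A) ({j0 A N} : Set ↥(L0 A N))) U ∧
      IsIntegral ↥(Algebra.adjoin ↥(Kur A) ({j0 A N} : Set ↥(L0 A N))) U' ∧
      (∀ b, b ≤ e → U ∈ VE A N q M e B k hN hB hq b ∧ U' ∈ VE A N q M e B k hN hB hq b) ∧
      ∀ hU : U ∈ VE A N q M e B k hN hB hq a,
        haveI : NeZero (q ^ (max a (e - a) - 1)) := ⟨pow_ne_zero _ (NeZero.ne q)⟩
        haveI : NeZero (q ^ dE e a) := ⟨pow_ne_zero _ (NeZero.ne q)⟩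
        (qExpand (kV A) (q ^ (max a (e - a) - 1)) (HUk A q) ^ 2
            * (algebraMap (kV A) (LaurentSeries (kV A))
                (resV A ⟨epsU q e a B, epsU_mem A q M e B k hB hq a ha1 hae⟩)
              * qExpand (kV A) (q ^ dE e a)
                  (Fermat.Agent.S36.NU.H73.thetaL (coeffMap (Int.castRingHom (kV A)) u₀))
                  ^ Nat.totient (q ^ min a (e - a)))) ^ m
          = algebraMap (kV A) (LaurentSeries (kV A)) c
            * (qExpand (kV A) (q ^ (max a (e - a) - 1)) (HUk A q) ^ 2) ^ n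
            * sE A N q M e B k hN hB hq a ⟨U, hU⟩

namespace ChartE

variable {A N q M e B k hN hB hq}
variable {C : Chart R ↥(L0 A N) (kV A) ι κ} {qR : R} {mult : ι → ℕ} {idx : ι → ℕ}
  (S : ChartE A N q M e B k hN hB hq C qR mult idx)

include S

theorem hq0 (hq' : q.Prime) : algebraMap R ↥(L0 A N) qR ≠ 0 := by
  rw [S.hqR]
  exact Nat.cast_ne_zero.2 hq'.ne_zero

theorem hBH : ∀ x ∈ C.B, x ∈ HintE A N := S.hint

theorem hqH (hq' : q.Prime) : (algebraMap R ↥(L0 A N) qR)⁻¹ ∈ HintE A N := by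
  rw [S.hqR, mem_HintE]
  have e1 : (((q : ℕ) : ↥(L0 A N)))⁻¹
      = algebraMap ↥(Algebra.adjoin ↥(Kur A) ({j0 A N} : Set ↥(L0 A N))) ↥(L0 A N)
        (algebraMap ↥(Kur A) _ (((q : ℕ) : ↥(Kur A)))⁻¹) := by
    rw [← IsScalarTower.algebraMap_apply, map_inv₀, map_natCast]
  rw [e1]
  exact isIntegral_algebraMap

theorem critH : ∀ f ∈ HintE A N, (∀ i, f ∈ C.V i) → f ∈ C.B := fun f hf h => S.crit f hf h

/-- Membership in `B` from horizontal integrality and the valuations `VE b`, `b ≤ e`. -/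
theorem mem_B {x : ↥(L0 A N)}
    (hx : IsIntegral ↥(Algebra.adjoin ↥(Kur A) ({j0 A N} : Set ↥(L0 A N))) x)
    (hV : ∀ b, b ≤ e → x ∈ VE A N q M e B k hN hB hq b) : x ∈ C.B :=
  S.crit x hx fun i => by
    rw [S.hV i]
    exact hV _ (S.hidx i)

/-- The witnesses lie in `B`. -/
theorem EwE_mem_B (hmem : Stmt_EwE_mem A N q M e B k hN hB hq) (a : ℕ) (ha : a ≤ e) :
    EwE A N q e a ∈ C.B :=
  S.mem_B (isIntegral_EwE A N q e a) fun b hb => hmem a b ha hb

/-- **The ordinary witnesses** of the chart. -/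
def witE (hmem : Stmt_EwE_mem A N q M e B k hN hB hq) (i : ι) : C.B :=
  ⟨EwE A N q e (idx i), S.EwE_mem_B hmem (idx i) (S.hidx i)⟩

theorem coe_witE (hmem : Stmt_EwE_mem A N q M e B k hN hB hq) (i : ι) :
    ((S.witE hmem i : C.B) : ↥(L0 A N)) = EwE A N q e (idx i) := rfl

/-- The witness of `i` is divisible by `q` at the other components. -/
theorem witE_div (hmem : Stmt_EwE_mem A N q M e B k hN hB hq)
    (hdiv : Stmt_EwE_div A N q M e B k hN hB hq) (i i' : ι) (hi : i' ≠ i) :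
    ∃ f' ∈ C.V i', ((S.witE hmem i : C.B) : ↥(L0 A N)) = algebraMap R ↥(L0 A N) qR * f' := by
  obtain ⟨f', hf', hE⟩ := hdiv (idx i) (idx i') (S.hidx i) (S.hidx i')
    (fun h => hi (S.hinj h).symm)
  refine ⟨f', ?_, ?_⟩
  · rw [S.hV i']
    exact hf'
  · rw [S.hqR, coe_witE]
    exact hE

/-- The reduction map of the component `i`, through `sE`. -/
def sC (i : ι) : ↥(C.V i) →+* LaurentSeries (kV A) :=
  (sE A N q M e B k hN hB hq (idx i)).comp
    (ValuationSubring.inclusion _ _ (le_of_eq (S.hV i)))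

theorem sC_mk (i : ι) (x : ↥(L0 A N)) (hx : x ∈ C.V i)
    (hx' : x ∈ VE A N q M e B k hN hB hq (idx i)) :
    S.sC i ⟨x, hx⟩ = sE A N q M e B k hN hB hq (idx i) ⟨x, hx'⟩ := rfl

theorem sC_const (i : ι) (r : R) (h : algebraMap R ↥(L0 A N) r ∈ C.V i) :
    S.sC i ⟨algebraMap R ↥(L0 A N) r, h⟩
      = algebraMap (kV A) (LaurentSeries (kV A)) (C.res r) := by
  have h' : algebraMap R ↥(L0 A N) r ∈ VE A N q M e B k hN hB hq (idx i) := by
    rw [← S.hV i]
    exact h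
  rw [S.sC_mk i _ h h']
  exact S.hconst i r h'

end ChartE

section Ord

variable [Fintype ι] [DecidableEq ι]
variable {A N q M e B k hN hB hq}
variable {C : Chart R ↥(L0 A N) (kV A) ι κ} {qR : R} {mult : ι → ℕ} {idx : ι → ℕ}
  (S : ChartE A N q M e B k hN hB hq C qR mult idx)

include hq in
/-- **Ordinary points of the components `a = 0` and `a = e`** (multiplicity one). -/
theorem ordEndE (hmem : Stmt_EwE_mem A N q M e B k hN hB hq)
    (hdiv : Stmt_EwE_div A N q M e B k hN hB hq)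
    (𝔪 : Ideal C.B) [h𝔪 : 𝔪.IsPrime] (i : ι) (hi : C.Icomp i ≤ 𝔪)
    (hend : idx i = 0 ∨ idx i = e) (hw : S.witE hmem i ∉ 𝔪) :
    Nonempty (LocEq C qR 𝔪) ∧ ∀ i', C.Icomp i' ≤ 𝔪 → i' = i := by
  have he : mult i = 1 := by
    rw [S.hmult i]
    have h0 : min (idx i) (e - idx i) = 0 := by
      rcases hend with h | h
      · rw [h]; exact Nat.zero_min _
      · rw [h, Nat.sub_self]; exact Nat.min_zero _
    rw [h0, pow_zero, Nat.totient_one]
  exact locEq_ord_crit_one C qR (S.hq0 hq) S.hqV (HintE A N) S.hBH (S.hqH hq) S.critH mult S.hE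
    𝔪 i hi he (S.witE hmem i) hw (fun i' hi' => S.witE_div hmem hdiv i i' hi')

include hq in
/-- **Ordinary points of the components `0 < a < e`**, from the certificate. -/
theorem ordMidE (hA : (q : Kbar) ∈ A.nonunits)
    (hmem : Stmt_EwE_mem A N q M e B k hN hB hq)
    (hdiv : Stmt_EwE_div A N q M e B k hN hB hq)
    (hred : Stmt_EwE_red A N q M e B k hN hB hq)
    (𝔪 : Ideal C.B) [h𝔪 : 𝔪.IsPrime] (i : ι) (hi : C.Icomp i ≤ 𝔪)
    (ha1 : 1 ≤ idx i) (hae : idx i < e)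
    (hcert : MidCertE A N q M e B k hN hB hq (idx i) ha1 hae)
    (hw : S.witE hmem i ∉ 𝔪) :
    Nonempty (LocEq C qR 𝔪) ∧ ∀ i', C.Icomp i' ≤ 𝔪 → i' = i := by
  haveI : NeZero (q ^ (max (idx i) (e - idx i) - 1)) := ⟨pow_ne_zero _ (NeZero.ne q)⟩
  haveI : NeZero (q ^ dE e (idx i)) := ⟨pow_ne_zero _ (NeZero.ne q)⟩
  obtain ⟨f, u₀, hf, m, n, c, U, U', hπI, hm, hc, hUU', hUI, hU'I, hUV, hid⟩ := hcert
  have htop : 𝔪 ≠ ⊤ := h𝔪.ne_top
  -- the elements of `B`
  have hπB : piUo A N q M e hN f u₀ hf (idx i) hae.le ∈ C.B :=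
    S.mem_B hπI fun b _ => piUo_mem_VE A N q M e B k hN hB hq f u₀ hf (idx i) hae.le b
  have hUB : U ∈ C.B := S.mem_B hUI fun b hb => (hUV b hb).1
  have hU'B : U' ∈ C.B := S.mem_B hU'I fun b hb => (hUV b hb).2
  have hUm : (⟨U, hUB⟩ : C.B) ∉ 𝔪 :=
    not_mem_of_mul_eq_one C 𝔪 htop (b := ⟨U', hU'B⟩) (Subtype.ext hUU')
  have he : 0 < mult i := by
    rw [S.hmult i]
    exact Nat.totient_pos.mpr (pow_pos hq.pos _)
  -- the memberships at `V i`
  have hfV' := fUo_mem_VE A N q M e B k hN hB hq f u₀ hf (idx i) ha1 hae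
  have hfV : fUo A N q M e hN f u₀ hf (idx i) hae.le ∈ C.V i := by
    rw [S.hV i]
    exact hfV'
  have hWV' : EwE A N q e (idx i) ∈ VE A N q M e B k hN hB hq (idx i) :=
    hmem _ _ (S.hidx i) (S.hidx i)
  have hUV' : U ∈ VE A N q M e B k hN hB hq (idx i) := (hUV _ (S.hidx i)).1
  have hxf : ((⟨_, hπB⟩ : C.B) : ↥(L0 A N)) ^ mult i
      = algebraMap R ↥(L0 A N) qR * fUo A N q M e hN f u₀ hf (idx i) hae.le := by
    rw [S.hqR, S.hmult i]
    exact piUo_pow_eq A N q M e hN hq f u₀ hf (idx i) hae.le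
  have hcE : cEw e (idx i) = 2 := by
    rw [cEw, if_neg]
    omega
  refine locEq_ord_of_red C qR (S.hq0 hq) S.hqV (HintE A N) S.hBH (S.hqH hq) S.critH mult S.hE
    𝔪 i hi he (S.sC i) (S.sC_const i) ⟨_, hπB⟩ (S.witE hmem i) hw
    (fun i' hi' => S.witE_div hmem hdiv i i' hi') _ hfV hxf m hm c hc
    (S.witE hmem i ^ n * ⟨U, hUB⟩) (mul_not_mem C 𝔪 (pow_not_mem C 𝔪 hw n) hUm) ?_
  -- the certificate
  have hYV' : EwE A N q e (idx i) ^ n * U ∈ VE A N q M e B k hN hB hq (idx i) :=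
    mul_mem (pow_mem hWV' n) hUV'
  have e2 : (⟨EwE A N q e (idx i) ^ n * U, hYV'⟩ : ↥(VE A N q M e B k hN hB hq (idx i)))
      = ⟨EwE A N q e (idx i), hWV'⟩ ^ n * ⟨U, hUV'⟩ := rfl
  change (sE A N q M e B k hN hB hq (idx i) ⟨EwE A N q e (idx i), hWV'⟩
      * sE A N q M e B k hN hB hq (idx i) ⟨fUo A N q M e hN f u₀ hf (idx i) hae.le, hfV'⟩) ^ m
    = algebraMap (kV A) (LaurentSeries (kV A)) c
      * sE A N q M e B k hN hB hq (idx i) ⟨EwE A N q e (idx i) ^ n * U, hYV'⟩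
  rw [e2, map_mul, map_pow, hred (idx i) (S.hidx i) hWV', hcE,
    sE_fUo A N q M e B k hN hB hq f u₀ hf hA (idx i) ha1 hae hfV', hid hUV', mul_assoc]

include hq in
/-- **The local equation data at the ordinary points** (hypothesis `hord` of
`H88.pointDataE_of_dichotomy`), from helper82's statements on the witnesses and the certificates
of the components `0 < a < e`. -/
theorem hordE (hA : (q : Kbar) ∈ A.nonunits)
    (hmem : Stmt_EwE_mem A N q M e B k hN hB hq)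
    (hdiv : Stmt_EwE_div A N q M e B k hN hB hq)
    (hred : Stmt_EwE_red A N q M e B k hN hB hq)
    (hcert : ∀ (a : ℕ) (ha1 : 1 ≤ a) (hae : a < e), MidCertE A N q M e B k hN hB hq a ha1 hae) :
    ∀ 𝔪 : Ideal C.B, 𝔪.IsMaximal → ∀ i, C.Icomp i ≤ 𝔪 → S.witE hmem i ∉ 𝔪 →
      Nonempty (LocEq C qR 𝔪) ∧ ∀ i', C.Icomp i' ≤ 𝔪 → i' = i := by
  intro 𝔪 hmax i hi hw
  haveI : 𝔪.IsPrime := hmax.isPrime
  by_cases hend : idx i = 0 ∨ idx i = e
  · exact ordEndE (hq := hq) S hmem hdiv 𝔪 i hi hend hw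
  · have ha1 : 1 ≤ idx i := by
      rcases Nat.eq_zero_or_pos (idx i) with h | h
      · exact absurd (Or.inl h) hend
      · exact h
    have hae : idx i < e := lt_of_le_of_ne (S.hidx i) fun h => hend (Or.inr h)
    exact ordMidE (hq := hq) S hA hmem hdiv hred 𝔪 i hi ha1 hae (hcert _ ha1 hae) hw

end Ord

end Mod

end Fermat.Agent.S45.NUE.H99
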