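import Fermat.Agent.S45.NUE.H16_HssETot
import Fermat.Agent.S45.NUE.H12_SSRam
import Fermat.Agent.S45.NUE.H99_OrdE

/-!
# S45 / NU_e, package E-FIN, leaf E-PT-SS (helper16): `hss` on `totEM`, final forms

`H16.hssE_tot` with the leaf SS-RAM plugged (helper12's `H12.ss_ram`) and the chart hypotheses
packed in helper99's `H99.ChartE` (`idx i = (i : ℕ)`, `mult i = mE q e i`,
`qR = (q : Rur A)`).

* `ramE_of` : `H16.RamE` for every integral expansion `u₀` of a function of level `M`;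
* `hssE_tot_unc` : `hssE_tot` without `hram`;
* `hssE_tot_chartE` : `hssE_tot` for a chart with `H99.ChartE`;
* `hssE_five_unc`, `hssE_five_chartE` : the case `q ≥ 5`, `4 ∣ M`.
-/

set_option autoImplicit false
set_option synthInstance.maxHeartbeats 400000
set_option maxHeartbeats 1000000
set_option linter.unusedSectionVars false
set_option linter.unusedVariables false
set_option linter.style.haveILetI false

noncomputable section

namespace Fermat.Agent.S45.NUE.H16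

open Fermat.Agent.S24 Fermat.Agent.BAD.H88 ModularCurve AlgebraicCurve Polynomial
open Fermat.Agent.S28 Fermat.Agent.S28.H73 Fermat.Agent.RED.H73 Fermat.Agent.RED.H17
open Fermat.Agent.S36.NU.H88 Fermat.Agent.S36.NU.H23 Fermat.Agent.S36.NU.H41
open Fermat.Agent.S36.NU.H65 Fermat.Agent.S36.NU.H16 Fermat.Agent.S36.NU.H24
open Fermat.Agent.S36.NU.H79 Fermat.Agent.S36.NU.H74 Fermat.Agent.S36.NU Fermat.Agent.BAD
open Fermat.Agent.S45.NUE.H23 Fermat.Agent.S45.NUE.H68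

section Final

variable (A : ValuationSubring Kbar)
variable (N q M e : ℕ) (B k : ℤ) (hN : N = M * q ^ e) (hB : B * M + k * (q : ℤ) ^ e = 1)
  (hq : q.Prime) [NeZero N] [NeZero q] [NeZero M] (hqM : ¬ q ∣ M) (hA : A.LiesOverPrime q)
  (ht : H91.TameAt M q)

attribute [local instance] algkE

include hq in
/-- **SS-RAM** (helper12) in the shape `RamE`. -/
theorem ramE_of (f : FN M) (u₀ : LaurentSeries ℤ)
    (hf : (f : LaurentSeries Kbar) = intSer Kbar u₀) : RamE A N q M e B k hN hB hq u₀ :=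
  fun x y hx hy => H12.ss_ram A N q M e B k hN hB hq f u₀ hf x y hx hy

/-- **`hss` on `totEM`**, generic in the coordinate pack, SS-RAM plugged. -/
theorem hssE_tot_unc (he : 0 < e)
    (C : Chart ↥(Rur A) ↥(L0 A N) (kV A) (Fin (e + 1)) (kapE A M e))
    (hc : Compat C (totEM A N q M e B k hN hB hq hqM hA ht he))
    (hB0 : C.B = intSub ↥(Rur A) (j0 A N))
    (hVal : H99.ValE C ((q : ℕ) : ↥(Rur A)) (fun i => mE q e (i : ℕ)))
    (hqV : ∀ i, ((q : ℕ) : ↥(L0 A N)) ∈ (C.V i).nonunits)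
    (crit : ∀ f : ↥(L0 A N), IsIntegral ↥(Algebra.adjoin ↥(Kur A) {j0 A N}) f →
      (∀ i, f ∈ C.V i) → f ∈ C.B)
    (f : FN M) (u₀ : LaurentSeries ℤ) (hf : (f : LaurentSeries Kbar) = intSer Kbar u₀)
    (d : ℕ) [NeZero d] (hd : d ∣ M) (n : ℕ) (hn : n ≠ 0)
    (hfn : f ^ n = Fermat.Agent.BAD.H30.unitF M d hd)
    (SS : Set (Place (kV A) (FM A M)))
    (hpole : ∀ z ∈ SS, ∃ (c : kV A) (u δ : FM A M),
      (u : LaurentSeries (kV A)) = coeffMap (Int.castRingHom (kV A)) u₀ ∧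
      (δ : LaurentSeries (kV A)) = coeffMap (Int.castRingHom (kV A)) (kdel q u₀) ∧
      z.ord (u - algebraMap (kV A) (FM A M) c) = 1 ∧ c ^ q ^ 2 = c ∧ z.ord δ = -1) :
    ∀ z ∈ SS, ∀ 𝔪 : Ideal C.B, 𝔪.IsMaximal →
      (∀ β : C.B, β ∈ 𝔪 ↔
        VanAt ((totEM A N q M e B k hN hB hq hqM hA ht he).pt (Fin.last e) z)
          (C.rdB (Fin.last e) β)) →
      Nonempty (LocEq C ((q : ℕ) : ↥(Rur A)) 𝔪) :=
  hssE_tot A N q M e B k hN hB hq hqM hA ht he C hc hB0 hVal hqV crit f u₀ hf d hd n hn hfn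
    (ramE_of A N q M e B k hN hB hq f u₀ hf) SS hpole

/-- **`hss` on `totEM`** for a chart with helper99's `ChartE`, generic in the coordinate pack. -/
theorem hssE_tot_chartE (he : 0 < e)
    (C : Chart ↥(Rur A) ↥(L0 A N) (kV A) (Fin (e + 1)) (kapE A M e))
    (hc : Compat C (totEM A N q M e B k hN hB hq hqM hA ht he))
    (hB0 : C.B = intSub ↥(Rur A) (j0 A N))
    (S : H99.ChartE A N q M e B k hN hB hq C ((q : ℕ) : ↥(Rur A))
      (fun i => mE q e (i : ℕ)) (fun i => (i : ℕ)))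
    (f : FN M) (u₀ : LaurentSeries ℤ) (hf : (f : LaurentSeries Kbar) = intSer Kbar u₀)
    (d : ℕ) [NeZero d] (hd : d ∣ M) (n : ℕ) (hn : n ≠ 0)
    (hfn : f ^ n = Fermat.Agent.BAD.H30.unitF M d hd)
    (SS : Set (Place (kV A) (FM A M)))
    (hpole : ∀ z ∈ SS, ∃ (c : kV A) (u δ : FM A M),
      (u : LaurentSeries (kV A)) = coeffMap (Int.castRingHom (kV A)) u₀ ∧
      (δ : LaurentSeries (kV A)) = coeffMap (Int.castRingHom (kV A)) (kdel q u₀) ∧
      z.ord (u - algebraMap (kV A) (FM A M) c) = 1 ∧ c ^ q ^ 2 = c ∧ z.ord δ = -1) :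
    ∀ z ∈ SS, ∀ 𝔪 : Ideal C.B, 𝔪.IsMaximal →
      (∀ β : C.B, β ∈ 𝔪 ↔
        VanAt ((totEM A N q M e B k hN hB hq hqM hA ht he).pt (Fin.last e) z)
          (C.rdB (Fin.last e) β)) →
      Nonempty (LocEq C ((q : ℕ) : ↥(Rur A)) 𝔪) :=
  hssE_tot_unc A N q M e B k hN hB hq hqM hA ht he C hc hB0 S.hE
    (fun i => by
      have h := S.hqV i
      rwa [S.hqR] at h)
    S.crit f u₀ hf d hd n hn hfn SS hpole

/-- **`hss` on `totEM`, `q ≥ 5`, `4 ∣ M`**, SS-RAM plugged. -/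
theorem hssE_five_unc [NeZero (M * q)] (he : 0 < e) (h5 : 5 ≤ q) (h4 : 4 ∣ M)
    (C : Chart ↥(Rur A) ↥(L0 A N) (kV A) (Fin (e + 1)) (kapE A M e))
    (hc : Compat C (totEM A N q M e B k hN hB hq hqM hA ht he))
    (hB0 : C.B = intSub ↥(Rur A) (j0 A N))
    (hVal : H99.ValE C ((q : ℕ) : ↥(Rur A)) (fun i => mE q e (i : ℕ)))
    (hqV : ∀ i, ((q : ℕ) : ↥(L0 A N)) ∈ (C.V i).nonunits)
    (crit : ∀ f : ↥(L0 A N), IsIntegral ↥(Algebra.adjoin ↥(Kur A) {j0 A N}) f →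
      (∀ i, f ∈ C.V i) → f ∈ C.B) :
    ∀ z ∈ ssM A q M, ∀ 𝔪 : Ideal C.B, 𝔪.IsMaximal →
      (∀ β : C.B, β ∈ 𝔪 ↔
        VanAt ((totEM A N q M e B k hN hB hq hqM hA ht he).pt (Fin.last e) z)
          (C.rdB (Fin.last e) β)) →
      Nonempty (LocEq C ((q : ℕ) : ↥(Rur A)) 𝔪) :=
  hssE_five A N q M e B k hN hB hq hqM hA ht he h5 h4 C hc hB0 hVal hqV crit
    (ramE_of A N q M e B k hN hB hq (Fermat.Agent.BAD.H30.unitF M 4 h4)
      Fermat.Agent.S36.NU.H73.uZ4 (coe_unitF4 M h4))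

/-- **`hss` on `totEM`, `q ≥ 5`, `4 ∣ M`**, for a chart with helper99's `ChartE`. -/
theorem hssE_five_chartE [NeZero (M * q)] (he : 0 < e) (h5 : 5 ≤ q) (h4 : 4 ∣ M)
    (C : Chart ↥(Rur A) ↥(L0 A N) (kV A) (Fin (e + 1)) (kapE A M e))
    (hc : Compat C (totEM A N q M e B k hN hB hq hqM hA ht he))
    (hB0 : C.B = intSub ↥(Rur A) (j0 A N))
    (S : H99.ChartE A N q M e B k hN hB hq C ((q : ℕ) : ↥(Rur A))
      (fun i => mE q e (i : ℕ)) (fun i => (i : ℕ))) :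
    ∀ z ∈ ssM A q M, ∀ 𝔪 : Ideal C.B, 𝔪.IsMaximal →
      (∀ β : C.B, β ∈ 𝔪 ↔
        VanAt ((totEM A N q M e B k hN hB hq hqM hA ht he).pt (Fin.last e) z)
          (C.rdB (Fin.last e) β)) →
      Nonempty (LocEq C ((q : ℕ) : ↥(Rur A)) 𝔪) :=
  hssE_five_unc A N q M e B k hN hB hq hqM hA ht he h5 h4 C hc hB0 S.hE
    (fun i => by
      have h := S.hqV i
      rwa [S.hqR] at h)
    S.crit

end Final

end Fermat.Agent.S45.NUE.H16
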