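import Fermat.Agent.S45.NUE.H12_HssEAll
import Fermat.Agent.S45.NUE.H16_HssEFinal

/-!
# S45 / NU_e, package E-FIN, leaf E-PT-SS: `hss` on `totEM` for ALL `q`, `ChartE` form (helper12)

`hssE_all_chartE` : the hypothesis `hss` of `H88.pointDataE_of_dichotomy` on helper23's `totEM`
(`i₀ = Fin.last e`, `SS = ssM A q M`) for a chart with helper99's `H99.ChartE`
(`idx i = (i : ℕ)`, `mult i = mE q e i`, `qR = (q : Rur A)`), at all tame levels
(`4 ∣ M` if `q` is odd, `9 ∣ M` if `q = 2`).  (`q ≥ 5`: helper16's `H16.hssE_five_chartE`.)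
-/

set_option autoImplicit false
set_option synthInstance.maxHeartbeats 400000
set_option maxHeartbeats 1000000
set_option linter.unusedSectionVars false
set_option linter.unusedVariables false
set_option linter.style.haveILetI false

noncomputable section

namespace Fermat.Agent.S45.NUE.H12

open Fermat.Agent.S24 Fermat.Agent.BAD.H88 ModularCurve AlgebraicCurve Polynomial
open Fermat.Agent.S28 Fermat.Agent.S28.H73 Fermat.Agent.RED.H73 Fermat.Agent.RED.H17
open Fermat.Agent.S36.NU.H88 Fermat.Agent.S36.NU.H23 Fermat.Agent.S36.NU.H41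
open Fermat.Agent.S36.NU.H65 Fermat.Agent.S36.NU.H16 Fermat.Agent.S36.NU.H24
open Fermat.Agent.S36.NU.H79 Fermat.Agent.S36.NU.H74 Fermat.Agent.S36.NU Fermat.Agent.BAD
open Fermat.Agent.S45.NUE.H23 Fermat.Agent.S45.NUE.H68 Fermat.Agent.S45.NUE.H16

section Final

variable (A : ValuationSubring Kbar)
variable (N q M e : ℕ) (B k : ℤ) (hN : N = M * q ^ e) (hB : B * M + k * (q : ℤ) ^ e = 1)
  (hq : q.Prime) [NeZero N] [NeZero q] [NeZero M] [NeZero (M * q)] (hqM : ¬ q ∣ M)
  (hA : A.LiesOverPrime q) (ht : H91.TameAt M q)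

attribute [local instance] algkE

/-- **`hss` on `totEM`, all `q`**, for a chart with helper99's `ChartE`. -/
theorem hssE_all_chartE (hT : (q ≠ 2 ∧ 4 ∣ M) ∨ (q = 2 ∧ 9 ∣ M)) (he : 0 < e)
    (C : Chart ↥(Rur A) ↥(L0 A N) (kV A) (Fin (e + 1)) (kapE A M e))
    (hc : Compat C (totEM A N q M e B k hN hB hq hqM hA ht he))
    (hB0 : C.B = intSub ↥(Rur A) (j0 A N))
    (S : H99.ChartE A N q M e B k hN hB hq C ((q : ℕ) : ↥(Rur A))
      (fun i => mE q e (i : ℕ)) (fun i => (i : ℕ))) :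
    ∀ z ∈ ssM A q M, ∀ 𝔪 : Ideal C.B, 𝔪.IsMaximal →
      (∀ β : C.B, β ∈ 𝔪 ↔
        VanAt ((totEM A N q M e B k hN hB hq hqM hA ht he).pt (Fin.last e) z)
          (C.rdB (Fin.last e) β)) →
      Nonempty (LocEq C ((q : ℕ) : ↥(Rur A)) 𝔪) :=
  hssE_all A N q M e B k hN hB hq hqM hA ht hT he C hc hB0 S.hE
    (fun i => by
      have h := S.hqV i
      rwa [S.hqR] at h)
    S.crit

end Final

end Fermat.Agent.S45.NUE.H12
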