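import Fermat.Agent.S45.NUE.H17_RedGen
import Fermat.Agent.S36.NU.H16_Unif3

/-!
# S45 / NU_e, package E-FIN, leaf E-PT-SS, sub-leaf SS-FUN (helper12)

Level `N = M q^e`, `f ∈ F_M` with integral expansion `u₀`.  The two coordinates
`x = f(τ)`, `y = f(q^e τ)` as inertia-fixed functions of level `N`:

* `fL0` : `f` as an element of `L0 A M`, `fL0_mem_VE0`;
* `xE`, `yE : ↥(L0 A N)`, `coe_xE`, `coe_yE` (the expansions `u₀`, `u₀(t^(q^e))`);
* `xE_mem_VE`, `yE_mem_VE` : they lie in all the valuation rings `VE a`, `a ≤ e`;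
* `sE_xE`, `sE_yE` : their reductions
  `sE a x = ū₀(s^(q^(e - 2a)))`, `sE a y = ū₀(s^(q^(max(e, 2a) - e)))`;
* `ss_fun` : **SS-FUN** in the shape of `NOTES/plan/S45_EPTSS.md`.
-/

set_option autoImplicit false
set_option synthInstance.maxHeartbeats 400000
set_option maxHeartbeats 1000000
set_option linter.unusedSectionVars false
set_option linter.unusedVariables false
set_option linter.style.haveILetI false

noncomputable section

namespace Fermat.Agent.S45.NUE.H12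

open Fermat.Agent.S24 Fermat.Agent.BAD.H88 ModularCurve AlgebraicCurve
open Fermat.Agent.S28 Fermat.Agent.S28.H73 Fermat.Agent.RED.H73 Fermat.Agent.RED.H17
open Fermat.Agent.S36.NU.H88 Fermat.Agent.S36.NU
open Fermat.Agent.S45.NUE.H23 Fermat.Agent.S45.NUE.H17

local notation "L0" => Fermat.Agent.S36.NU.H23.L0
local notation "VE0" => Fermat.Agent.S36.NU.H23.VE0
local notation "sE0" => Fermat.Agent.S36.NU.H23.sE
local notation "inclL0" => Fermat.Agent.S36.NU.H23.inclL0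

section Fun

variable (A : ValuationSubring Kbar)
variable (N q M e : ℕ) (B k : ℤ) (hN : N = M * q ^ e) (hB : B * M + k * (q : ℤ) ^ e = 1)
  (hq : q.Prime) [NeZero N] [NeZero q] [NeZero M]
variable (f : FN M) (u₀ : LaurentSeries ℤ) (hf : (f : LaurentSeries Kbar) = H65.intSer Kbar u₀)

/-- `f` as an inertia-fixed function of level `M`. -/
def fL0 : ↥(L0 A M) := ⟨f, Fermat.Agent.S36.NU.H16.mem_L0_of_int A f u₀ hf⟩

theorem coe_fL0 : ((fL0 A M f u₀ hf : ↥(L0 A M)) : FN M) = f := rfl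

theorem fL0_mem_VE0 : fL0 A M f u₀ hf ∈ VE0 A M := by
  rw [Fermat.Agent.S36.NU.H23.mem_VE0_iff, coe_fL0, hf]
  exact H65.intSer_mem A u₀

/-- **`x = f(τ)`** as an inertia-fixed function of level `N = M q^e`. -/
def xE : ↥(L0 A N) := inclL0 A (hleE N q M e hN) (fL0 A M f u₀ hf)

/-- **`y = f(q^e τ)`** as an inertia-fixed function of level `N = M q^e`. -/
def yE : ↥(L0 A N) := betaL0 A N q M e hN (fL0 A M f u₀ hf)

theorem coe_xE :
    (((xE A N q M e hN f u₀ hf : ↥(L0 A N)) : FN N) : LaurentSeries Kbar)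
      = H65.intSer Kbar u₀ := by
  rw [xE, Fermat.Agent.S36.NU.H23.coe_inclL0, IntermediateField.coe_inclusion, coe_fL0, hf]

theorem coe_yE :
    haveI : NeZero (q ^ e) := ⟨pow_ne_zero _ (NeZero.ne q)⟩
    (((yE A N q M e hN f u₀ hf : ↥(L0 A N)) : FN N) : LaurentSeries Kbar)
      = H65.intSer Kbar (qExpand ℤ (q ^ e) u₀) := by
  haveI : NeZero (q ^ e) := ⟨pow_ne_zero _ (NeZero.ne q)⟩
  rw [yE, coe_betaL0, coe_betaE, coe_fL0, hf, H65.intSer_qExpand]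

include hB hq in
theorem xE_mem_VE (a : ℕ) :
    xE A N q M e hN f u₀ hf ∈ VE A N q M e B k hN hB hq a :=
  inclL0_mem_VE A N q M e B k hN hB hq (hleE N q M e hN) a _ (fL0_mem_VE0 A M f u₀ hf)

include hB hq in
theorem yE_mem_VE (a : ℕ) (ha : a ≤ e) :
    yE A N q M e hN f u₀ hf ∈ VE A N q M e B k hN hB hq a :=
  betaL0_mem_VE A N q M e B k hN hB hq a ha _ (fL0_mem_VE0 A M f u₀ hf)

theorem sE0_fL0 :
    sE0 A M ⟨fL0 A M f u₀ hf, fL0_mem_VE0 A M f u₀ hf⟩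
      = coeffMap (Int.castRingHom (kV A)) u₀ := by
  have h : (((fL0 A M f u₀ hf : ↥(L0 A M)) : FN M) : LaurentSeries Kbar) ∈ gaussRingV A :=
    fL0_mem_VE0 A M f u₀ hf
  have e1 : sE0 A M ⟨fL0 A M f u₀ hf, fL0_mem_VE0 A M f u₀ hf⟩
      = gaussRedV A ⟨(((fL0 A M f u₀ hf : ↥(L0 A M)) : FN M) : LaurentSeries Kbar), h⟩ := rfl
  have e2 : (⟨(((fL0 A M f u₀ hf : ↥(L0 A M)) : FN M) : LaurentSeries Kbar), h⟩ :
      gaussRingV A) = ⟨H65.intSer Kbar u₀, H65.intSer_mem A u₀⟩ := Subtype.ext hf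
  rw [e1, e2, H65.gaussRedV_intSer]

include hB hq in
/-- **`sE a x = ū₀(s^(q^(e - 2a)))`.** -/
theorem sE_xE (a : ℕ) :
    haveI : NeZero (q ^ (e - 2 * a)) := ⟨pow_ne_zero _ (NeZero.ne q)⟩
    sE A N q M e B k hN hB hq a ⟨xE A N q M e hN f u₀ hf, xE_mem_VE A N q M e B k hN hB hq f u₀ hf a⟩
      = qExpand (kV A) (q ^ (e - 2 * a)) (coeffMap (Int.castRingHom (kV A)) u₀) := by
  haveI : NeZero (q ^ (e - 2 * a)) := ⟨pow_ne_zero _ (NeZero.ne q)⟩
  have h := sE_inclL0 A N q M e B k hN hB hq (hleE N q M e hN) a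
    ⟨fL0 A M f u₀ hf, fL0_mem_VE0 A M f u₀ hf⟩ (xE_mem_VE A N q M e B k hN hB hq f u₀ hf a)
  rw [sE0_fL0] at h
  exact h

include hB hq in
/-- **`sE a y = ū₀(s^(q^(max(e, 2a) - e)))`.** -/
theorem sE_yE (hA : (q : Kbar) ∈ A.nonunits) (a : ℕ) (ha : a ≤ e) :
    haveI : NeZero (q ^ (max e (2 * a) - e)) := ⟨pow_ne_zero _ (NeZero.ne q)⟩
    sE A N q M e B k hN hB hq a
        ⟨yE A N q M e hN f u₀ hf, yE_mem_VE A N q M e B k hN hB hq f u₀ hf a ha⟩
      = qExpand (kV A) (q ^ (max e (2 * a) - e)) (coeffMap (Int.castRingHom (kV A)) u₀) := by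
  haveI : NeZero (q ^ (max e (2 * a) - e)) := ⟨pow_ne_zero _ (NeZero.ne q)⟩
  have h := sE_betaL0 A N q M e B k hN hB hq hA a ha
    ⟨fL0 A M f u₀ hf, fL0_mem_VE0 A M f u₀ hf⟩ (yE_mem_VE A N q M e B k hN hB hq f u₀ hf a ha)
  rw [sE0_fL0] at h
  exact h

include hB hq f hf in
/-- **SS-FUN**: the two coordinates `x = f(τ)`, `y = f(q^e τ)` exist in `L0 A N`, with the
expansions `u₀`, `u₀(t^(q^e))`, and lie in all `VE a`, `a ≤ e`. -/
theorem ss_fun :
    haveI : NeZero (q ^ e) := ⟨pow_ne_zero _ (NeZero.ne q)⟩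
    ∃ x y : ↥(L0 A N),
      ((x : FN N) : LaurentSeries Kbar) = H65.intSer Kbar u₀ ∧
      ((y : FN N) : LaurentSeries Kbar) = H65.intSer Kbar (qExpand ℤ (q ^ e) u₀) ∧
      ∀ a, a ≤ e → x ∈ VE A N q M e B k hN hB hq a ∧ y ∈ VE A N q M e B k hN hB hq a :=
  ⟨xE A N q M e hN f u₀ hf, yE A N q M e hN f u₀ hf, coe_xE A N q M e hN f u₀ hf,
    coe_yE A N q M e hN f u₀ hf, fun a ha =>
      ⟨xE_mem_VE A N q M e B k hN hB hq f u₀ hf a, yE_mem_VE A N q M e B k hN hB hq f u₀ hf a ha⟩⟩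

include hB hq in
/-- **SS-FUN for given `x`, `y`** (characterised by their expansions). -/
theorem ss_fun_of (x y : ↥(L0 A N))
    (hx : ((x : FN N) : LaurentSeries Kbar) = H65.intSer Kbar u₀)
    (hy : haveI : NeZero (q ^ e) := ⟨pow_ne_zero _ (NeZero.ne q)⟩
      ((y : FN N) : LaurentSeries Kbar) = H65.intSer Kbar (qExpand ℤ (q ^ e) u₀)) :
    x = xE A N q M e hN f u₀ hf ∧ y = yE A N q M e hN f u₀ hf ∧
      ∀ a, a ≤ e → x ∈ VE A N q M e B k hN hB hq a ∧ y ∈ VE A N q M e B k hN hB hq a := by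
  have ex : x = xE A N q M e hN f u₀ hf :=
    Subtype.ext (Subtype.ext (hx.trans (coe_xE A N q M e hN f u₀ hf).symm))
  have ey : y = yE A N q M e hN f u₀ hf :=
    Subtype.ext (Subtype.ext (hy.trans (coe_yE A N q M e hN f u₀ hf).symm))
  refine ⟨ex, ey, fun a ha => ?_⟩
  rw [ex, ey]
  exact ⟨xE_mem_VE A N q M e B k hN hB hq f u₀ hf a, yE_mem_VE A N q M e B k hN hB hq f u₀ hf a ha⟩

end Fun

end Fermat.Agent.S45.NUE.H12
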