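import Fermat.Agent.S36.NU.H74_HssInt

/-!
# S45 / NU_e, package E-FIN, leaf E-PT-SS, sub-leaf SS-INT (helper12)

Horizontal integrality of the two coordinates at a level `N` (in the application
`N = M * q ^ e`):  `f ∈ F_M` a root of a modular unit `Δ(t)/Δ(t^d)`, `d ∣ M`, with integral
expansion `u₀`; `x, y ∈ L0 A N` with expansions `u₀(t)` and `u₀(t^c)` (`c = q ^ e`).

* `isUnitOff_x_of_pow`, `isUnitOff_y_of_pow` : `x`, `y` have neither zero nor pole off the cusps;
* `isIntegral_x_of_pow`, `isIntegral_y_of_pow` : `x`, `y` are integral over `K^ur[j]`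
  (any level `N`, any `c` with `d * c ∣ N`);
* `ss_int` : both statements at the level `N = M * q ^ e`, `c = q ^ e`.
-/

set_option autoImplicit false
set_option synthInstance.maxHeartbeats 400000
set_option maxHeartbeats 1000000
set_option linter.style.haveILetI false
set_option linter.unusedSectionVars false

noncomputable section

open ModularCurve AlgebraicCurve IntermediateField

namespace Fermat.Agent.S45.NUE.H12

open Fermat.Agent.S24 Fermat.Agent.BAD.H88 Fermat.Agent.BAD.H30 Fermat.Agent.BAD.H21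
open Fermat.Agent.S28 Fermat.Agent.S28.H73 Fermat.Agent.RED.H73 Fermat.Agent.RED.H17
open Fermat.Agent.S36.NU.H88 Fermat.Agent.S36.NU.H23 Fermat.Agent.S36.NU.H16
open Fermat.Agent.S36.NU.H41 Fermat.Agent.RED Fermat.Agent.S36.NU.H99
open Fermat.Agent.S36.NU

section UnitOff

variable {N M : ℕ} [NeZero N] [NeZero M] (d : ℕ) [NeZero d] (hd : d ∣ M)

/-- `x = f(τ)` at level `N` is a unit off the cusps if `f` is a root of `Δ(t)/Δ(t^d)`. -/
theorem isUnitOff_x_of_pow (hdN : d ∣ N) (f : FN M) (n : ℕ) (hn : n ≠ 0)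
    (hfn : f ^ n = unitF M d hd) (x : FN N)
    (hx : (x : LaurentSeries Kbar) = (f : LaurentSeries Kbar)) :
    IsUnitOff N x := by
  refine H74.isUnitOff_of_pow hn ?_
  have e : x ^ n = unitF N d hdN := by
    apply Subtype.ext
    have h1 : ((f ^ n : FN M) : LaurentSeries Kbar)
        = ((unitF M d hd : FN M) : LaurentSeries Kbar) := by rw [hfn]
    show ((x ^ n : FN N) : LaurentSeries Kbar) = ((unitF N d hdN : FN N) : LaurentSeries Kbar)
    rw [unitF_coe] at h1 ⊢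
    rw [← h1]
    show (x : LaurentSeries Kbar) ^ n = (f : LaurentSeries Kbar) ^ n
    rw [hx]
  rw [e]
  exact isUnitOff_unitF d hdN

/-- `y = f(c τ)` at level `N` is a unit off the cusps if `f` is a root of `Δ(t)/Δ(t^d)`. -/
theorem isUnitOff_y_of_pow (c : ℕ) [NeZero c] (hcN : d * c ∣ N) (f : FN M) (n : ℕ) (hn : n ≠ 0)
    (hfn : f ^ n = unitF M d hd) (y : FN N)
    (hy : (y : LaurentSeries Kbar) = qExpand Kbar c (f : LaurentSeries Kbar)) :
    IsUnitOff N y := by
  haveI : NeZero (d * c) := ⟨Nat.mul_ne_zero (NeZero.ne d) (NeZero.ne c)⟩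
  have hc : c ∣ N := Dvd.dvd.trans (Dvd.intro_left d rfl) hcN
  refine H74.isUnitOff_of_pow hn ?_
  have h0 : unitF N c hc ≠ 0 := unitF_ne_zero _ _ _
  have e0 : y ^ n * unitF N c hc = unitF N (d * c) hcN := by
    apply Subtype.ext
    have h1 : ((f ^ n : FN M) : LaurentSeries Kbar)
        = ((unitF M d hd : FN M) : LaurentSeries Kbar) := by rw [hfn]
    have h2 : (f : LaurentSeries Kbar) ^ n = coeffEmb Kbar (modularUnitSeries d) := by
      rw [← unitF_coe M d hd, ← h1]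
      rfl
    show (y : LaurentSeries Kbar) ^ n * ((unitF N c hc : FN N) : LaurentSeries Kbar)
      = ((unitF N (d * c) hcN : FN N) : LaurentSeries Kbar)
    rw [hy, ← map_pow, h2, unitF_coe, unitF_coe, coeffEmb_modularUnitSeries,
      coeffEmb_modularUnitSeries, coeffEmb_modularUnitSeries, map_mul, map_inv₀,
      qExpand_qExpand, qExpand_congr (mul_comm c d)]
    have h3 : qExpand Kbar c (deltaR Kbar) ≠ 0 := qExpand_deltaR_ne_zero (R := Kbar) c
    have h4 : qExpand Kbar (d * c) (deltaR Kbar) ≠ 0 :=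
      qExpand_deltaR_ne_zero (R := Kbar) (d * c)
    field_simp
  have e : y ^ n = unitF N (d * c) hcN * (unitF N c hc)⁻¹ :=
    (eq_mul_inv_iff_mul_eq₀ h0).2 e0
  rw [e]
  exact (isUnitOff_unitF (d * c) _).mul (isUnitOff_unitF c _).inv

end UnitOff

section Int

variable (A : ValuationSubring Kbar)
variable {N M : ℕ} [NeZero N] [NeZero M] (d : ℕ) [NeZero d] (hd : d ∣ M)

/-- **SS-INT, `x`** (any level `N` with `d ∣ N`). -/
theorem isIntegral_x_of_pow (hdN : d ∣ N) (f : FN M) (u₀ : LaurentSeries ℤ)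
    (hf : (f : LaurentSeries Kbar) = H65.intSer Kbar u₀)
    (n : ℕ) (hn : n ≠ 0) (hfn : f ^ n = unitF M d hd)
    (x : ↥(L0 A N)) (hx : ((x : FN N) : LaurentSeries Kbar) = H65.intSer Kbar u₀) :
    IsIntegral ↥(Algebra.adjoin ↥(Kur A) ({j0 A N} : Set ↥(L0 A N))) x :=
  isIntegral_Kur_of_bar A _ _
    (isIntegral_bar_of_unitOff (isUnitOff_x_of_pow d hd hdN f n hn hfn (x : FN N)
      (hx.trans hf.symm)))

/-- **SS-INT, `y`** (any level `N`, any `c` with `d * c ∣ N`). -/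
theorem isIntegral_y_of_pow (c : ℕ) [NeZero c] (hcN : d * c ∣ N) (f : FN M)
    (u₀ : LaurentSeries ℤ) (hf : (f : LaurentSeries Kbar) = H65.intSer Kbar u₀)
    (n : ℕ) (hn : n ≠ 0) (hfn : f ^ n = unitF M d hd)
    (y : ↥(L0 A N))
    (hy : ((y : FN N) : LaurentSeries Kbar) = H65.intSer Kbar (qExpand ℤ c u₀)) :
    IsIntegral ↥(Algebra.adjoin ↥(Kur A) ({j0 A N} : Set ↥(L0 A N))) y :=
  isIntegral_Kur_of_bar A _ _
    (isIntegral_bar_of_unitOff (isUnitOff_y_of_pow d hd c hcN f n hn hfn (y : FN N)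
      (by rw [hy, H65.intSer_qExpand, hf])))

end Int

section Level

variable (A : ValuationSubring Kbar)
variable (N q M e : ℕ) (hN : N = M * q ^ e) [NeZero N] [NeZero M] [NeZero q]
variable (d : ℕ) [NeZero d] (hd : d ∣ M)

include hN in
/-- **SS-INT** at the level `N = M * q ^ e`: `x = f(τ)` and `y = f(q^e τ)` are integral over
`K^ur[j]` when `f` is a root of the modular unit `Δ(t)/Δ(t^d)`, `d ∣ M`. -/
theorem ss_int (f : FN M) (u₀ : LaurentSeries ℤ)
    (hf : (f : LaurentSeries Kbar) = H65.intSer Kbar u₀)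
    (n : ℕ) (hn : n ≠ 0) (hfn : f ^ n = unitF M d hd)
    (x y : ↥(L0 A N))
    (hx : ((x : FN N) : LaurentSeries Kbar) = H65.intSer Kbar u₀)
    (hy : ((y : FN N) : LaurentSeries Kbar) = H65.intSer Kbar (qExpand ℤ (q ^ e) u₀)) :
    IsIntegral ↥(Algebra.adjoin ↥(Kur A) ({j0 A N} : Set ↥(L0 A N))) x
      ∧ IsIntegral ↥(Algebra.adjoin ↥(Kur A) ({j0 A N} : Set ↥(L0 A N))) y := by
  have hdN : d ∣ N := hN ▸ Dvd.dvd.mul_right hd (q ^ e)
  have hcN : d * q ^ e ∣ N := hN ▸ Nat.mul_dvd_mul hd (dvd_refl _)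
  exact ⟨isIntegral_x_of_pow A d hd hdN f u₀ hf n hn hfn x hx,
    isIntegral_y_of_pow A d hd (q ^ e) hcN f u₀ hf n hn hfn y hy⟩

/-- **SS-INT** for `f = Δ(t)/Δ(t^d)` itself. -/
theorem ss_int_unitF (hN : N = M * q ^ e) (u₀ : LaurentSeries ℤ)
    (hf : ((unitF M d hd : FN M) : LaurentSeries Kbar) = H65.intSer Kbar u₀)
    (x y : ↥(L0 A N))
    (hx : ((x : FN N) : LaurentSeries Kbar) = H65.intSer Kbar u₀)
    (hy : ((y : FN N) : LaurentSeries Kbar) = H65.intSer Kbar (qExpand ℤ (q ^ e) u₀)) :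
    IsIntegral ↥(Algebra.adjoin ↥(Kur A) ({j0 A N} : Set ↥(L0 A N))) x
      ∧ IsIntegral ↥(Algebra.adjoin ↥(Kur A) ({j0 A N} : Set ↥(L0 A N))) y :=
  ss_int A N q M e hN d hd (unitF M d hd) u₀ hf 1 one_ne_zero (pow_one _) x y hx hy

end Level

end Fermat.Agent.S45.NUE.H12
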