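import Fermat.Agent.S36.NU.H74_HssFive

/-!
# S45 / NU_e, leaf E-PT-SS, SS-ASM (helper16): COORD + POLE at level `M`, `q ≥ 5`

`coord_pole_five` : at every supersingular point `z` of the reduced curve of level `M` (`4 ∣ M`,
`q ≥ 5`, `q ∤ M`), for the coordinate `f = Δ(t)/Δ(t⁴)` (`u₀ = uZ4`): the reduction `ū` of `f` is
a local coordinate at `z` (`ord_z (ū - c) = 1`, `c ∈ 𝔽_{q²}`) and the reduction `δ̄` of
`(u₀^q - u₀(t^q)) / q` has a SIMPLE pole at `z`.  (S36 `H74.pole_ssM_five`, restated for `δ̄`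
instead of `y₂ = - δ̄^q`: the input `hu hδ hord hc hδord` of `H16.hssE_mod`.)
-/

set_option autoImplicit false
set_option synthInstance.maxHeartbeats 400000
set_option maxHeartbeats 1000000
set_option linter.unusedSectionVars false
set_option linter.style.haveILetI false

noncomputable section

namespace Fermat.Agent.S45.NUE.H16

open Fermat.Agent.S24 Fermat.Agent.BAD.H88 ModularCurve AlgebraicCurve
open Fermat.Agent.S28 Fermat.Agent.S28.H73 Fermat.Agent.RED.H73 Fermat.Agent.RED.H17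
open Fermat.Agent.S36.NU.H88 Fermat.Agent.S36.NU.H23 Fermat.Agent.S36.NU.H73
open Fermat.Agent.S36.NU.H41 Fermat.Agent.S36.NU.H65 Fermat.Agent.BAD
open Fermat.Agent.S36.NU.H74 Fermat.Agent.S36.NU

section Five

variable (A : ValuationSubring Kbar) (q M : ℕ) (hq : q.Prime)
  [NeZero M] [NeZero q] [NeZero (M * q)] (hqM : ¬ q ∣ M) (hA : A.LiesOverPrime q)

/-- A function `δ` with `ord_z (- δ ^ q) = - q` has a simple pole at `z`. -/
theorem ord_eq_neg_one_of_pow {k E : Type*} [Field k] [Field E] [Algebra k E] (z : Place k E)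
    (q : ℕ) (hq : 0 < q) (δ : E) (h : z.ord (-δ ^ q) = -(q : ℤ)) : z.ord δ = -1 := by
  rw [Fermat.Agent.RED.H51.ord_neg, Fermat.Agent.RED.H17.ord_pow] at h
  have hq' : (0 : ℤ) < (q : ℤ) := by exact_mod_cast hq
  nlinarith

include hq hqM hA in
/-- **COORD + POLE at the supersingular points of level `M`**, `q ≥ 5`, `4 ∣ M`, for `δ̄`. -/
theorem coord_pole_five (h5 : 5 ≤ q) (h4 : 4 ∣ M) {z : Place (kV A) (FM A M)}
    (hz : z ∈ ssM A q M) :
    ∃ (c : kV A) (u δ : FM A M),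
      (u : LaurentSeries (kV A)) = coeffMap (Int.castRingHom (kV A)) uZ4 ∧
      (δ : LaurentSeries (kV A)) = coeffMap (Int.castRingHom (kV A)) (H65.kdel q uZ4) ∧
      z.ord (u - algebraMap (kV A) (FM A M) c) = 1 ∧ c ^ q ^ 2 = c ∧ z.ord δ = -1 := by
  haveI : Fact q.Prime := ⟨hq⟩
  obtain ⟨c, u, y₂, hu, hy₂, hord, hc, hd⟩ := pole_ssM_five A q M hq hqM hA h5 h4 hz
  set δ : FM A M := ⟨coeffMap (Int.castRingHom (kV A)) (H65.kdel q uZ4),
    H44.dbar_mem_FM A q M hA hqM h4⟩ with hδ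
  have e : y₂ = -δ ^ q := Subtype.ext hy₂
  refine ⟨c, u, δ, hu, rfl, hord, hc, ?_⟩
  rw [e] at hd
  exact ord_eq_neg_one_of_pow z q hq.pos δ hd

end Five

end Fermat.Agent.S45.NUE.H16
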