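import Fermat.Agent.S45.NUE.H68_LocEqSSE2
import Fermat.Agent.S45.NUE.H23_ValE
import Fermat.Agent.S36.NU.H17_TIVal
import Fermat.Agent.S36.NU.H65_TIMain
import Fermat.Agent.S36.NU.H88_ChartAlg

/-!
# S45 / NU_e, package E-FIN, leaf E-PT-SS, SS-ASM (helper16): generic form

Level `N = M q^e`, `A` over `q`, `R = Rur A`, `F = L0 A N`, `C` a chart over `R` with
`B = ` the integral closure of `R[j]`, components indexed by `a : ι → ℕ` (bijective onto `0..e`),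
`i₀` the component of the cusp `∞` (`a i₀ = e`).

* `HKE`, `inv_q_mem_HKE`, `B_le_HKE` : the ring of the functions integral over `K^ur[j]`;
* `hssE_gen` : **SS-ASM, generic in the chart and in the coordinate** (`x = f(τ)`, `y = f(q^e τ)`
  integral over `K^ur[j]` and in all `V i`; `x^(q^e) - y = q d`, SS-RAM as `hpow`; COORD + POLE
  for the reductions on the component `i₀`): all components pass through `𝔪_z` and there is a
  local equation datum at `𝔪_z`.  (= helper68's `H68.locEq_ss_coordE` + `crit`.)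
* `sE_top_of_intSer` : the reduction at `∞` of a function with integral expansion;
* `hssE_mod` : **SS-ASM for the valuations `VE`** of helper23: the same with the leaves
  SS-FUN (`hfun`), SS-RAM (`hram`), SS-POLE (`hpoleV`, `hpole`) in the shapes of
  `NOTES/plan/S45_EPTSS.md`, the residue map of `i₀` given by `sE e` through an embedding
  `emb : κ i₀ →+* k((t))`, and COORD + POLE at level `M`
  (`ord_z (ū - c) = 1`, `c^(q²) = c`, `ord_z δ̄ = -1`).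
-/

set_option autoImplicit false
set_option synthInstance.maxHeartbeats 400000
set_option maxHeartbeats 1000000
set_option linter.unusedSectionVars false
set_option linter.unusedVariables false
set_option linter.style.haveILetI false

noncomputable section

namespace Fermat.Agent.S45.NUE.H16

open Fermat.Agent.S24 Fermat.Agent.BAD.H88 ModularCurve AlgebraicCurve Polynomial
open Fermat.Agent.S28 Fermat.Agent.S28.H73 Fermat.Agent.RED.H73 Fermat.Agent.RED.H17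
open Fermat.Agent.S36.NU.H88 Fermat.Agent.S36.NU.H23 Fermat.Agent.S36.NU.H41
open Fermat.Agent.S36.NU.H65 Fermat.Agent.S36.NU.H16 Fermat.Agent.S36.NU
open Fermat.Agent.S45.NUE.H23 Fermat.Agent.S45.NUE.H68

section Gen

variable (A : ValuationSubring Kbar) (N : ℕ) [NeZero N]

/-- The functions of level `N` which are integral over `K^ur[j]`. -/
def HKE : Subring ↥(L0 A N) :=
  (integralClosure ↥(Algebra.adjoin ↥(Kur A) {j0 A N}) ↥(L0 A N)).toSubring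

theorem mem_HKE (x : ↥(L0 A N)) :
    x ∈ HKE A N ↔ IsIntegral ↥(Algebra.adjoin ↥(Kur A) {j0 A N}) x := Iff.rfl

/-- `1 / q` is integral over `K^ur[j]`. -/
theorem inv_q_mem_HKE (q : ℕ) :
    (algebraMap ↥(Rur A) ↥(L0 A N) ((q : ℕ) : ↥(Rur A)))⁻¹ ∈ HKE A N := by
  rw [mem_HKE, map_natCast]
  have e : (((q : ℕ) : ↥(L0 A N)))⁻¹
      = algebraMap ↥(Algebra.adjoin ↥(Kur A) {j0 A N}) ↥(L0 A N)
          (algebraMap ↥(Kur A) _ (((q : ℕ) : ↥(Kur A)))⁻¹) := by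
    rw [← IsScalarTower.algebraMap_apply, map_inv₀, map_natCast]
  rw [e]
  exact isIntegral_algebraMap

variable {ι : Type*} {κ : ι → Type*} [∀ i, Field (κ i)] [∀ i, Algebra (kV A) (κ i)]

/-- The elements of the chart of `j` are integral over `K^ur[j]`. -/
theorem B_le_HKE (C : Chart ↥(Rur A) ↥(L0 A N) (kV A) ι κ)
    (hB0 : C.B = intSub ↥(Rur A) (j0 A N)) : ∀ x ∈ C.B, x ∈ HKE A N := by
  intro x hx
  rw [hB0] at hx
  exact H17.isIntegral_adjoin_field ↥(Rur A) ↥(Kur A) (j0 A N) hx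

/-- **SS-ASM, generic in the chart and in the coordinate.** -/
theorem hssE_gen [Fintype ι] [DecidableEq ι] (C : Chart ↥(Rur A) ↥(L0 A N) (kV A) ι κ)
    (hB0 : C.B = intSub ↥(Rur A) (j0 A N)) (q : ℕ) [hqp : Fact q.Prime]
    (hqV : ∀ i, ((q : ℕ) : ↥(L0 A N)) ∈ (C.V i).nonunits)
    (crit : ∀ f : ↥(L0 A N), IsIntegral ↥(Algebra.adjoin ↥(Kur A) {j0 A N}) f →
      (∀ i, f ∈ C.V i) → f ∈ C.B)
    (E : ℕ) (hE1 : 1 ≤ E) (a : ι → ℕ) (ha : Function.Injective a) (haE : ∀ i, a i ≤ E)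
    (hsur : ∀ n, n ≤ E → ∃ i, a i = n)
    (e : ι → ℕ) (he : ∀ i, e i = Nat.totient (q ^ min (a i) (E - a i)))
    (hVal : H99.ValE C ((q : ℕ) : ↥(Rur A)) e)
    (i₀ : ι) (hi₀ : a i₀ = E) [CharP (κ i₀) q]
    (x y : ↥(L0 A N))
    (hxI : IsIntegral ↥(Algebra.adjoin ↥(Kur A) {j0 A N}) x)
    (hyI : IsIntegral ↥(Algebra.adjoin ↥(Kur A) {j0 A N}) y)
    (hxV : ∀ i, x ∈ C.V i) (hyV : ∀ i, y ∈ C.V i)
    (d : ↥(L0 A N)) (hdV : d ∈ C.V i₀) (hd : x ^ q ^ E - y = ((q : ℕ) : ↥(L0 A N)) * d)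
    (hpow : ∀ i, i ≠ i₀ → ∃ f' ∈ C.V i,
      (tE q E (a i) x y) ^ e i = ((q : ℕ) : ↥(L0 A N)) * f')
    (z : Place (kV A) (κ i₀)) (c : kV A)
    (hu : z.ord (C.rd i₀ x - algebraMap (kV A) (κ i₀) c) = 1) (hc : c ^ q ^ 2 = c)
    (hdord : z.ord (C.rd i₀ d) = -((q ^ (E - 1) : ℕ) : ℤ))
    (𝔪 : Ideal C.B) [h𝔪p : 𝔪.IsPrime] (h𝔪 : ∀ β : C.B, β ∈ 𝔪 ↔ VanAt z (C.rdB i₀ β)) :
    (∀ i, C.Icomp i ≤ 𝔪) ∧ Nonempty (LocEq C ((q : ℕ) : ↥(Rur A)) 𝔪) := by
  have hqR : algebraMap ↥(Rur A) ↥(L0 A N) ((q : ℕ) : ↥(Rur A)) = ((q : ℕ) : ↥(L0 A N)) :=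
    map_natCast _ _
  have hq0 : algebraMap ↥(Rur A) ↥(L0 A N) ((q : ℕ) : ↥(Rur A)) ≠ 0 := by
    rw [hqR]
    exact Nat.cast_ne_zero.2 hqp.out.ne_zero
  have hxB : x ∈ C.B := crit x hxI hxV
  have hyB : y ∈ C.B := crit y hyI hyV
  have htE : ∀ n, ((tE q E n (⟨x, hxB⟩ : C.B) (⟨y, hyB⟩ : C.B) : C.B) : ↥(L0 A N))
      = tE q E n x y := fun n => map_tE (C.B.val : C.B →+* ↥(L0 A N)) q E n _ _
  refine locEq_ss_coordE C ((q : ℕ) : ↥(Rur A)) q hq0 (fun i => by rw [hqR]; exact hqV i)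
    (HKE A N) (B_le_HKE A N C hB0) (inv_q_mem_HKE A N q)
    (fun f hf hfV => crit f hf hfV) E hE1 a ha haE hsur e he hVal i₀ hi₀
    ⟨x, hxB⟩ ⟨y, hyB⟩ d hdV (by rw [hqR]; exact hd) ?_ z c ?_ hc hdord 𝔪 h𝔪
  · intro i hi
    obtain ⟨f', hf', h⟩ := hpow i hi
    exact ⟨f', hf', by rw [htE, hqR]; exact h⟩
  · rw [← C.rd_coe]
    exact hu

end Gen

section Mod

variable (A : ValuationSubring Kbar)
variable (N q M e : ℕ) (B k : ℤ) (hN : N = M * q ^ e) (hB : B * M + k * (q : ℤ) ^ e = 1)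
  (hq : q.Prime) [NeZero N] [NeZero q]

/-- The reduction at the cusp `∞` of a function with integral expansion. -/
theorem sE_top_of_intSer (x : ↥(L0 A N)) (u : LaurentSeries ℤ)
    (hx : ((x : FN N) : LaurentSeries Kbar) = intSer Kbar u) :
    ∃ h : x ∈ VE A N q M e B k hN hB hq e,
      sE A N q M e B k hN hB hq e ⟨x, h⟩ = coeffMap (Int.castRingHom (kV A)) u := by
  have h : x ∈ VE A N q M e B k hN hB hq e := by
    rw [mem_VE_top_iff, hx]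
    exact intSer_mem A u
  refine ⟨h, ?_⟩
  rw [Fermat.Agent.S45.NUE.H23.sE_mk]
  have e' : (⟨cE N q M e B k hN hB hq e (x : FN N), h⟩ : gaussRingV A)
      = ⟨intSer Kbar u, intSer_mem A u⟩ := Subtype.ext ((cE_top N q M e B k hN hB hq _).trans hx)
  rw [e', gaussRedV_intSer]

variable {ι : Type*} {κ : ι → Type*} [∀ i, Field (κ i)] [∀ i, Algebra (kV A) (κ i)]

/-- **SS-ASM for the valuations `VE`**, generic in the coordinate: the hypothesis `hss` of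
`H88.pointDataE_of_dichotomy` at ONE point `z`, from the leaves SS-FUN, SS-RAM, SS-POLE, SS-INT,
`crit`, `ValE` and COORD + POLE at level `M`. -/
theorem hssE_mod [Fintype ι] [DecidableEq ι] (C : Chart ↥(Rur A) ↥(L0 A N) (kV A) ι κ)
    (hB0 : C.B = intSub ↥(Rur A) (j0 A N))
    (a : ι → ℕ) (ha : Function.Injective a) (haE : ∀ i, a i ≤ e)
    (hsur : ∀ n, n ≤ e → ∃ i, a i = n)
    (hV : ∀ i, C.V i = VE A N q M e B k hN hB hq (a i)) (he1 : 1 ≤ e)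
    (mult : ι → ℕ) (hmult : ∀ i, mult i = Nat.totient (q ^ min (a i) (e - a i)))
    (hVal : H99.ValE C ((q : ℕ) : ↥(Rur A)) mult)
    (hqV : ∀ i, ((q : ℕ) : ↥(L0 A N)) ∈ (C.V i).nonunits)
    (crit : ∀ f : ↥(L0 A N), IsIntegral ↥(Algebra.adjoin ↥(Kur A) {j0 A N}) f →
      (∀ i, f ∈ C.V i) → f ∈ C.B)
    (i₀ : ι) (hi₀ : a i₀ = e) [CharP (κ i₀) q]
    (emb : κ i₀ →+* LaurentSeries (kV A))
    (hemb : ∀ (f : ↥(L0 A N)) (hf : f ∈ C.V i₀) (hf' : f ∈ VE A N q M e B k hN hB hq e),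
      emb (C.red i₀ ⟨f, hf⟩) = sE A N q M e B k hN hB hq e ⟨f, hf'⟩)
    (u₀ : LaurentSeries ℤ) (x y : ↥(L0 A N))
    (hx : ((x : FN N) : LaurentSeries Kbar) = intSer Kbar u₀)
    (hxI : IsIntegral ↥(Algebra.adjoin ↥(Kur A) {j0 A N}) x)
    (hyI : IsIntegral ↥(Algebra.adjoin ↥(Kur A) {j0 A N}) y)
    (hfun : ∀ n, n ≤ e → x ∈ VE A N q M e B k hN hB hq n ∧ y ∈ VE A N q M e B k hN hB hq n)
    (hram : ∀ n, n < e → ∃ f' ∈ VE A N q M e B k hN hB hq n,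
      (tE q e n x y) ^ Nat.totient (q ^ min n (e - n)) = ((q : ℕ) : ↥(L0 A N)) * f')
    (hpoleV : (((q : ℕ) : ↥(L0 A N)))⁻¹ * (x ^ q ^ e - y) ∈ VE A N q M e B k hN hB hq e)
    (hpole : sE A N q M e B k hN hB hq e ⟨_, hpoleV⟩
      = coeffMap (Int.castRingHom (kV A)) (kdel q u₀) ^ q ^ (e - 1))
    (z : Place (kV A) (κ i₀)) (c : kV A) (u δ : κ i₀)
    (hu : emb u = coeffMap (Int.castRingHom (kV A)) u₀)
    (hδ : emb δ = coeffMap (Int.castRingHom (kV A)) (kdel q u₀))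
    (hord : z.ord (u - algebraMap (kV A) (κ i₀) c) = 1) (hc : c ^ q ^ 2 = c)
    (hδord : z.ord δ = -1)
    (𝔪 : Ideal C.B) [h𝔪p : 𝔪.IsPrime] (h𝔪 : ∀ β : C.B, β ∈ 𝔪 ↔ VanAt z (C.rdB i₀ β)) :
    (∀ i, C.Icomp i ≤ 𝔪) ∧ Nonempty (LocEq C ((q : ℕ) : ↥(Rur A)) 𝔪) := by
  haveI : Fact q.Prime := ⟨hq⟩
  have hq0 : ((q : ℕ) : ↥(L0 A N)) ≠ 0 := Nat.cast_ne_zero.2 hq.ne_zero
  have hVi₀ : C.V i₀ = VE A N q M e B k hN hB hq e := by rw [hV i₀, hi₀]
  have hxV : ∀ i, x ∈ C.V i := fun i => by rw [hV i]; exact (hfun (a i) (haE i)).1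
  have hyV : ∀ i, y ∈ C.V i := fun i => by rw [hV i]; exact (hfun (a i) (haE i)).2
  set d : ↥(L0 A N) := (((q : ℕ) : ↥(L0 A N)))⁻¹ * (x ^ q ^ e - y) with hd
  have hdV : d ∈ C.V i₀ := by rw [hVi₀]; exact hpoleV
  have hd' : x ^ q ^ e - y = ((q : ℕ) : ↥(L0 A N)) * d := by
    rw [hd, ← mul_assoc, mul_inv_cancel₀ hq0, one_mul]
  -- the reductions on the component `i₀`
  have hrx : C.rd i₀ x = u := by
    apply emb.injective
    obtain ⟨h', hs⟩ := sE_top_of_intSer A N q M e B k hN hB hq x u₀ hx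
    rw [C.rd_of_mem i₀ (hxV i₀), hemb x (hxV i₀) h', hs, hu]
  have hrd : C.rd i₀ d = δ ^ q ^ (e - 1) := by
    apply emb.injective
    rw [C.rd_of_mem i₀ hdV, hemb d hdV hpoleV, hpole, map_pow, hδ]
  have hδ0 : δ ≠ 0 := by
    rintro rfl
    rw [Place.ord_zero] at hδord
    exact absurd hδord (by norm_num)
  refine hssE_gen A N C hB0 q hqV crit e he1 a ha haE hsur mult hmult hVal i₀ hi₀ x y hxI hyI
    hxV hyV d hdV hd' ?_ z c (by rw [hrx]; exact hord) hc ?_ 𝔪 h𝔪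
  · intro i hi
    have hlt : a i < e := by
      refine lt_of_le_of_ne (haE i) fun h => hi (ha (h.trans hi₀.symm))
    obtain ⟨f', hf', h⟩ := hram (a i) hlt
    exact ⟨f', by rw [hV i]; exact hf', by rw [hmult i]; exact h⟩
  · rw [hrd, Fermat.Agent.RED.H17.ord_pow, hδord]
    push_cast
    ring

end Mod

end Fermat.Agent.S45.NUE.H16
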