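import Fermat.Agent.S45.NUE.H73_CuspExp3
import Fermat.Agent.S36.NU.H88_Ram11
import Mathlib.RingTheory.Polynomial.Cyclotomic.Eval

/-!
# S45 / NU_e, package E-VAL §5 (helper73): the uniformiser at the cusp `1/(q^a M)`

Generic part:
* `val_sub_one_ppow` : `|ζ - 1|^φ(r^(m+1)) = |r|` for a primitive `r^(m+1)`-th root of unity;
* `rootUnit`, `resV_rootUnit` : a root of unity of `q`-power order is a unit of `A` with residue
  `1` when `A` lies over `q`.
-/

set_option autoImplicit false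
set_option synthInstance.maxHeartbeats 400000
set_option maxHeartbeats 1000000
set_option linter.unusedSectionVars false
set_option linter.unusedVariables false
set_option linter.style.haveILetI false

noncomputable section

namespace Fermat.Agent.S45.NUE.H73

open Fermat.Agent.S24 Fermat.Agent.BAD.H88 ModularCurve UpperHalfPlane
open Fermat.Agent.S28 Fermat.Agent.S28.H73 Fermat.Agent.RED.H73
open Fermat.Agent.S36.NU.H88
open scoped MatrixGroups Manifold

/-! ## The valuation of `ζ - 1`, `ζ` of prime power order -/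

section ValZeta

variable {C : Type} [Field C] (O : ValuationSubring C)

/-- All `1 - μ`, `μ` a primitive `n`-th root of unity, have the same absolute value. -/
theorem val_one_sub_primitive {n : ℕ} [NeZero n] {ζ μ : C} (hζ : IsPrimitiveRoot ζ n)
    (hμ : IsPrimitiveRoot μ n) : O.valuation (1 - μ) = O.valuation (1 - ζ) := by
  have hn : n ≠ 0 := NeZero.ne n
  have hζ1 : O.valuation ζ ≤ 1 := (val_root_one O hn hζ.pow_eq_one).le
  have hμ1 : O.valuation μ ≤ 1 := (val_root_one O hn hμ.pow_eq_one).le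
  obtain ⟨i, -, hi⟩ := hζ.eq_pow_of_pow_eq_one hμ.pow_eq_one
  obtain ⟨j, -, hj⟩ := hμ.eq_pow_of_pow_eq_one hζ.pow_eq_one
  apply le_antisymm
  · rw [← hi]
    exact val_one_sub_pow_le' O hζ1 i
  · rw [← hj]
    exact val_one_sub_pow_le' O hμ1 j

/-- `|ζ - 1|^φ(r^(m+1)) = |r|` for a primitive `r^(m+1)`-th root of unity, `r` prime. -/
theorem val_sub_one_ppow {r : ℕ} (hr : r.Prime) (m : ℕ) {ζ : C}
    (hζ : IsPrimitiveRoot ζ (r ^ (m + 1))) :
    O.valuation (ζ - 1) ^ (Nat.totient (r ^ (m + 1))) = O.valuation (r : C) := by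
  haveI : Fact r.Prime := ⟨hr⟩
  haveI : NeZero (r ^ (m + 1)) := ⟨pow_ne_zero _ hr.ne_zero⟩
  rw [Valuation.map_sub_swap]
  have h1 : Polynomial.eval 1 (Polynomial.cyclotomic (r ^ (m + 1)) C) = (r : C) :=
    Polynomial.eval_one_cyclotomic_prime_pow m
  rw [Polynomial.cyclotomic_eq_prod_X_sub_primitiveRoots hζ, Polynomial.eval_prod] at h1
  simp only [Polynomial.eval_sub, Polynomial.eval_X, Polynomial.eval_C] at h1
  rw [← h1, map_prod, ← hζ.card_primitiveRoots]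
  rw [Finset.prod_congr rfl fun μ hμ => val_one_sub_primitive O hζ
    ((mem_primitiveRoots (Nat.pos_of_ne_zero (NeZero.ne _))).mp hμ), Finset.prod_const]

end ValZeta

/-! ## Roots of unity of `q`-power order in `A` -/

section RootUnit

variable (A : ValuationSubring Kbar)

/-- A root of unity lies in `A`. -/
theorem mem_of_root {z : Kbar} {n : ℕ} (hn : n ≠ 0) (hz : z ^ n = 1) : z ∈ A :=
  (ValuationSubring.valuation_le_one_iff A z).mp (val_root_one A hn hz).le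

/-- A root of unity as a unit of `A`. -/
def rootUnit (z : Kbar) (n : ℕ) (hn : n ≠ 0) (hz : z ^ n = 1) : (↥A)ˣ where
  val := ⟨z, mem_of_root A hn hz⟩
  inv := ⟨z⁻¹, mem_of_root A hn (by rw [inv_pow, hz, inv_one])⟩
  val_inv := Subtype.ext (mul_inv_cancel₀ (by
    rintro rfl
    rw [zero_pow hn] at hz
    exact zero_ne_one hz))
  inv_val := Subtype.ext (inv_mul_cancel₀ (by
    rintro rfl
    rw [zero_pow hn] at hz
    exact zero_ne_one hz))

theorem coe_rootUnit (z : Kbar) (n : ℕ) (hn : n ≠ 0) (hz : z ^ n = 1) :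
    (((rootUnit A z n hn hz : (↥A)ˣ) : ↥A) : Kbar) = z := rfl

/-- Over `q` the residue of a root of unity of `q`-power order is `1`. -/
theorem resV_rootUnit {q : ℕ} (hq : q.Prime) (hA : (q : Kbar) ∈ A.nonunits) (z : Kbar) (m : ℕ)
    (hz : z ^ (q ^ m) = 1) :
    resV A ((rootUnit A z (q ^ m) (pow_ne_zero _ hq.ne_zero) hz : (↥A)ˣ) : ↥A) = 1 := by
  haveI : CharP (kV A) q := Fermat.Agent.BAD.H82.charP_kV A hq hA
  haveI : Fact q.Prime := ⟨hq⟩
  have h1 : ((rootUnit A z (q ^ m) (pow_ne_zero _ hq.ne_zero) hz : (↥A)ˣ) : ↥A) ^ (q ^ m) = 1 :=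
    Subtype.ext hz
  have h2 : (resV A ((rootUnit A z (q ^ m) (pow_ne_zero _ hq.ne_zero) hz : (↥A)ˣ) : ↥A) - 1)
      ^ (q ^ m) = 0 := by
    rw [sub_pow_char_pow, ← map_pow, h1, map_one, one_pow, sub_self]
  exact sub_eq_zero.mp (pow_eq_zero_iff (pow_ne_zero _ hq.ne_zero) |>.mp h2)

end RootUnit

/-! ## The expansions of `j (q^(q^i))` -/

open Fermat.Agent.S45.NUE.H23 (IsCuspExp cG cG_eq_of qExpand_cG VG redG coe_redG mem_VG_iff
  redG_eq_zero_iff const_memG)

theorem jdF_congr (N : ℕ) [NeZero N] {D D' : ℕ} [NeZero D] [NeZero D'] (h : D = D')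
    (hD : D ∣ N) (hD' : D' ∣ N) : jdF N D hD = jdF N D' hD' := by
  subst h
  rfl

theorem jBar_eq_intSer : jBar = Fermat.Agent.S36.NU.H65.intSer Kbar jInt := by
  rw [← coe_jdF_one 1, coe_jdF, qExpand_one_apply]

section Level

variable (N q M e : ℕ) (B k : ℤ) (hN : N = M * q ^ e) (hB : B * M + k * (q : ℤ) ^ e = 1)
  (hq : q.Prime) [NeZero N] [NeZero q]

include hN hB hq

/-- `i ≤ a`: `cG (j (q^(q^i))) = j (s^(q^(e - 2 a + i)))`. -/
theorem cG_jq_le (i a : ℕ) (hia : i ≤ a) [NeZero (M * q ^ min e (2 * a))] (hD : q ^ i ∣ N) :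
    cG (isCuspExp_gE N q M e B k hN hB hq a) (jdF N (q ^ i) hD)
      = qExpand Kbar (q ^ (e - 2 * a + i)) jBar := by
  have hD' : 1 * q ^ i ∣ N := by rw [one_mul]; exact hD
  rw [jdF_congr N (one_mul (q ^ i)).symm hD hD',
    cG_jdF_le N q M e B k hN hB hq 1 M i a (one_mul M).symm hia hD']
  exact qExpand_congr (one_mul _) _

/-- `a < i ≤ e`: `cG (j (q^(q^i))) = j ((z_a s)^(q^(max(e, 2 a) - i)))`. -/
theorem cG_jq_gt (i a : ℕ) (hai : a < i) (hie : i ≤ e) [NeZero (M * q ^ min e (2 * a))]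
    (hD : q ^ i ∣ N) :
    cG (isCuspExp_gE N q M e B k hN hB hq a) (jdF N (q ^ i) hD)
      = twist (zE q e a B) (qExpand Kbar (q ^ (max e (2 * a) - i)) jBar) := by
  have hD' : 1 * q ^ i ∣ N := by rw [one_mul]; exact hD
  rw [jdF_congr N (one_mul (q ^ i)).symm hD hD',
    cG_jdF_gt N q M e B k hN hB hq 1 M i a (one_mul M).symm hai hie hD']
  congr 1
  exact qExpand_congr (one_mul _) _

end Level

/-! ## The uniformiser -/

/-- `δ_a = |e - 2 a|`. -/
def dE (e a : ℕ) : ℕ := max e (2 * a) - min e (2 * a)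

/-- `ζ' = ζ_{q^m}^B`, `m = min(a, e - a)`. -/
def zU (q e a : ℕ) [NeZero q] (B : ℤ) : Kbar :=
  haveI : NeZero (q ^ min a (e - a)) := ⟨pow_ne_zero _ (NeZero.ne q)⟩
  zetaK (q ^ min a (e - a)) ^ B

theorem zU_pow (q e a : ℕ) [NeZero q] (B : ℤ) : zU q e a B ^ (q ^ min a (e - a)) = 1 := by
  haveI : NeZero (q ^ min a (e - a)) := ⟨pow_ne_zero _ (NeZero.ne q)⟩
  show (zetaK (q ^ min a (e - a)) ^ B) ^ (q ^ min a (e - a)) = 1
  rw [← zpow_natCast, ← zpow_mul, mul_comm, zpow_mul, zpow_natCast,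
    (isPrimitiveRoot_zetaK _).pow_eq_one, one_zpow]

/-- `z_a^(q^δ) = ζ'`. -/
theorem zE_pow_dE (q e a : ℕ) [NeZero q] (B : ℤ) (ha : a ≤ e) :
    zE q e a B ^ (q ^ dE e a) = zU q e a B := by
  have hq0 : 0 < q := Nat.pos_of_ne_zero (NeZero.ne q)
  haveI : NeZero (q ^ min a (e - a)) := ⟨(pow_pos hq0 _).ne'⟩
  haveI : NeZero (q ^ max a (e - a)) := ⟨(pow_pos hq0 _).ne'⟩
  haveI : NeZero (q ^ dE e a) := ⟨(pow_pos hq0 _).ne'⟩
  haveI : NeZero (q ^ dE e a * q ^ min a (e - a)) :=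
    ⟨(Nat.mul_pos (pow_pos hq0 _) (pow_pos hq0 _)).ne'⟩
  have h1 : q ^ max a (e - a) = q ^ dE e a * q ^ min a (e - a) := by
    rw [← pow_add, dE]; congr 1; omega
  show (zetaK (q ^ max a (e - a)) ^ B) ^ (q ^ dE e a) = zetaK (q ^ min a (e - a)) ^ B
  rw [← zpow_natCast, ← zpow_mul, mul_comm, zpow_mul, zpow_natCast, zetaK_congr h1,
    zetaK_mul_pow]

section Unif

variable (A : ValuationSubring Kbar)
variable (N q M e : ℕ) (B k : ℤ) (hN : N = M * q ^ e) (hB : B * M + k * (q : ℤ) ^ e = 1)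
  (hq : q.Prime) [NeZero N] [NeZero q]

include hB hq in
theorem isPrimitiveRoot_zU (a : ℕ) (hae : a < e) :
    IsPrimitiveRoot (zU q e a B) (q ^ min a (e - a)) := by
  haveI : NeZero (q ^ min a (e - a)) := ⟨pow_ne_zero _ (NeZero.ne q)⟩
  apply (isPrimitiveRoot_zetaK _).zpow_of_gcd_eq_one
  rw [← Int.isCoprime_iff_gcd_eq_one]
  have h1 : IsCoprime B ((q : ℤ) ^ e) := ⟨M, k, by rw [mul_comm (M : ℤ) B]; exact hB⟩
  have h2 : IsCoprime B (q : ℤ) := (IsCoprime.pow_right_iff (by omega)).mp h1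
  push_cast
  exact h2.pow_right

include hB hq in
theorem zU_ne_one (a : ℕ) (ha1 : 1 ≤ a) (hae : a < e) : zU q e a B ≠ 1 := by
  intro h
  have h1 := isPrimitiveRoot_zU q M e B k hB hq a hae
  rw [h] at h1
  have h2 : q ^ min a (e - a) = 1 := h1.unique IsPrimitiveRoot.one
  have h3 : 1 < q ^ min a (e - a) := Nat.one_lt_pow (by omega) hq.one_lt
  omega

/-- **The uniformiser** `π_a = j (q^(a + m) τ) - j (q^(a - m) τ)`, `m = min(a, e - a)`. -/
def piE (a : ℕ) (h1 : q ^ (a + min a (e - a)) ∣ N) (h2 : q ^ (a - min a (e - a)) ∣ N) : FN N :=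
  jdF N (q ^ (a + min a (e - a))) h1 - jdF N (q ^ (a - min a (e - a))) h2

/-- `θ_a = π_a / (ζ' - 1)`. -/
def thE (a : ℕ) (h1 : q ^ (a + min a (e - a)) ∣ N) (h2 : q ^ (a - min a (e - a)) ∣ N) : FN N :=
  algebraMap Kbar (FN N) (zU q e a B - 1)⁻¹ * piE N q e a h1 h2

include hB hq in
theorem piE_eq (a : ℕ) (ha1 : 1 ≤ a) (hae : a < e) (h1 : q ^ (a + min a (e - a)) ∣ N)
    (h2 : q ^ (a - min a (e - a)) ∣ N) :
    piE N q e a h1 h2 = algebraMap Kbar (FN N) (zU q e a B - 1) * thE N q e B a h1 h2 := by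
  rw [thE, ← mul_assoc, ← map_mul,
    mul_inv_cancel₀ (sub_ne_zero.mpr (zU_ne_one q M e B k hB hq a ha1 hae)), map_one, one_mul]

include hN hB hq

/-- The expansion of `π_a` at the cusp `1/(q^a M)`. -/
theorem cG_piE (a : ℕ) (ha1 : 1 ≤ a) (hae : a < e) [NeZero (M * q ^ min e (2 * a))]
    (h1 : q ^ (a + min a (e - a)) ∣ N) (h2 : q ^ (a - min a (e - a)) ∣ N) :
    cG (isCuspExp_gE N q M e B k hN hB hq a) (piE N q e a h1 h2)
      = qExpand Kbar (q ^ dE e a) (twist (zU q e a B) jBar - jBar) := by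
  have e1 : max e (2 * a) - (a + min a (e - a)) = dE e a := by rw [dE]; omega
  have e2 : e - 2 * a + (a - min a (e - a)) = dE e a := by rw [dE]; omega
  rw [piE, map_sub, cG_jq_gt N q M e B k hN hB hq _ a (by omega) (by omega) h1,
    cG_jq_le N q M e B k hN hB hq _ a (by omega) h2, map_sub,
    qExpand_congr (congrArg (q ^ ·) e1), qExpand_congr (congrArg (q ^ ·) e2), twist_qExpand,
    zpow_natCast, zE_pow_dE q e a B hae.le]

omit hN hB hq [NeZero N] in
/-- `(u (ζ t) - u (t)) / (ζ - 1)` for `u = j` and a root of unity `ζ ∈ A`. -/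
theorem twist_jBar_sub (z : Kbar) (n : ℕ) (hn : n ≠ 0) (hz : z ^ n = 1) :
    twist z jBar - jBar
      = algebraMap Kbar (LaurentSeries Kbar) (z - 1)
        * iotaV A (Fermat.Agent.S36.NU.H65.rotQuot (rootUnit A z n hn hz)
            (coeffMap (Int.castRingHom ↥A) jInt)) := by
  have h2 : twist z (iotaV A (coeffMap (Int.castRingHom ↥A) jInt))
      = iotaV A (Fermat.Agent.RED.H10.rot (rootUnit A z n hn hz)
          (coeffMap (Int.castRingHom ↥A) jInt)) :=
    (iotaV_rot A (rootUnit A z n hn hz) _).symm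
  have h3 : iotaV A (HahnSeries.C (((rootUnit A z n hn hz : (↥A)ˣ) : ↥A) - 1))
      = algebraMap Kbar (LaurentSeries Kbar) (z - 1) := by
    rw [algebraMap_laurentSeries_eq_single]
    exact coeffMap_single A.subtype 0 _
  rw [jBar_eq_intSer, Fermat.Agent.S36.NU.H65.intSer_eq_iotaV A, h2, ← map_sub,
    Fermat.Agent.S36.NU.H65.rot_sub_self, map_mul, h3]

omit hN hB hq [NeZero N] in
/-- The reduction of `(j (ζ t) - j (t)) / (ζ - 1)` is `θ j̄` when `ζ ≡ 1`. -/
theorem redV_rotQuot_jInt (hq : q.Prime) (hA : (q : Kbar) ∈ A.nonunits) (z : Kbar) (m : ℕ)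
    (hz : z ^ (q ^ m) = 1) :
    redV A (Fermat.Agent.S36.NU.H65.rotQuot (rootUnit A z (q ^ m) (pow_ne_zero _ hq.ne_zero) hz)
        (coeffMap (Int.castRingHom ↥A) jInt))
      = Fermat.Agent.S36.NU.H73.thetaL (coeffMap (Int.castRingHom (kV A)) jInt) := by
  ext n
  rw [redV, Fermat.Agent.S36.NU.H65.coeffMap_rotQuot (resV A) _ (resV_rootUnit A hq hA z m hz),
    Fermat.Agent.S36.NU.H73.thetaL_coeff, coeffMap_coeff, coeffMap_coeff, coeffMap_coeff]
  congr 1

/-- The expansion of `θ_a` at the cusp `1/(q^a M)`. -/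
theorem cG_thE (a : ℕ) (ha1 : 1 ≤ a) (hae : a < e) [NeZero (M * q ^ min e (2 * a))]
    (h1 : q ^ (a + min a (e - a)) ∣ N) (h2 : q ^ (a - min a (e - a)) ∣ N) :
    cG (isCuspExp_gE N q M e B k hN hB hq a) (thE N q e B a h1 h2)
      = iotaV A (qExpand ↥A (q ^ dE e a)
          (Fermat.Agent.S36.NU.H65.rotQuot
            (rootUnit A (zU q e a B) (q ^ min a (e - a)) (pow_ne_zero _ hq.ne_zero)
              (zU_pow q e a B))
            (coeffMap (Int.castRingHom ↥A) jInt))) := by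
  have hc : qExpand Kbar (q ^ dE e a) (algebraMap Kbar (LaurentSeries Kbar) (zU q e a B - 1))
      = algebraMap Kbar (LaurentSeries Kbar) (zU q e a B - 1) := by
    rw [algebraMap_laurentSeries_eq_single, qExpand_single, mul_zero]
  rw [thE, map_mul, AlgHom.commutes, cG_piE N q M e B k hN hB hq a ha1 hae h1 h2,
    twist_jBar_sub A (zU q e a B) (q ^ min a (e - a)) (pow_ne_zero _ hq.ne_zero) (zU_pow q e a B),
    map_mul, hc, ← mul_assoc, ← map_mul,
    inv_mul_cancel₀ (sub_ne_zero.mpr (zU_ne_one q M e B k hB hq a ha1 hae)), map_one, one_mul]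
  exact (ModularCurve.coeffMap_qExpand A.subtype (q ^ dE e a) _).symm

theorem thE_mem_VG (a : ℕ) (ha1 : 1 ≤ a) (hae : a < e) [NeZero (M * q ^ min e (2 * a))]
    (h1 : q ^ (a + min a (e - a)) ∣ N) (h2 : q ^ (a - min a (e - a)) ∣ N) :
    thE N q e B a h1 h2 ∈ VG (isCuspExp_gE N q M e B k hN hB hq a) A := by
  rw [mem_VG_iff, cG_thE A N q M e B k hN hB hq a ha1 hae h1 h2]
  exact iotaV_mem_gaussRingV A _

/-- **The reduction of `θ_a = π_a / (ζ' - 1)` is `(θ j̄)(s^(q^δ))`.** -/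
theorem redG_thE (hA : (q : Kbar) ∈ A.nonunits) (a : ℕ) (ha1 : 1 ≤ a) (hae : a < e)
    [NeZero (M * q ^ min e (2 * a))]
    (h1 : q ^ (a + min a (e - a)) ∣ N) (h2 : q ^ (a - min a (e - a)) ∣ N)
    (h : thE N q e B a h1 h2 ∈ VG (isCuspExp_gE N q M e B k hN hB hq a) A) :
    ((redG (isCuspExp_gE N q M e B k hN hB hq a) A ⟨_, h⟩ :
        Fermat.Agent.S45.NUE.H23.RG (isCuspExp_gE N q M e B k hN hB hq a) A) :
          LaurentSeries (kV A))
      = qExpand (kV A) (q ^ dE e a)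
          (Fermat.Agent.S36.NU.H73.thetaL (coeffMap (Int.castRingHom (kV A)) jInt)) := by
  rw [coe_redG]
  have e0 : (⟨cG (isCuspExp_gE N q M e B k hN hB hq a) (thE N q e B a h1 h2), h⟩ : gaussRingV A)
      = ⟨iotaV A (qExpand ↥A (q ^ dE e a)
          (Fermat.Agent.S36.NU.H65.rotQuot
            (rootUnit A (zU q e a B) (q ^ min a (e - a)) (pow_ne_zero _ hq.ne_zero)
              (zU_pow q e a B))
            (coeffMap (Int.castRingHom ↥A) jInt))), iotaV_mem_gaussRingV A _⟩ :=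
    Subtype.ext (cG_thE A N q M e B k hN hB hq a ha1 hae h1 h2)
  rw [e0, gaussRedV_iotaV, redV, ModularCurve.coeffMap_qExpand]
  congr 1
  exact redV_rotQuot_jInt A q hq hA (zU q e a B) (min a (e - a)) (zU_pow q e a B)

theorem redG_thE_ne_zero (hA : (q : Kbar) ∈ A.nonunits) (a : ℕ) (ha1 : 1 ≤ a) (hae : a < e)
    [NeZero (M * q ^ min e (2 * a))]
    (h1 : q ^ (a + min a (e - a)) ∣ N) (h2 : q ^ (a - min a (e - a)) ∣ N)
    (h : thE N q e B a h1 h2 ∈ VG (isCuspExp_gE N q M e B k hN hB hq a) A) :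
    redG (isCuspExp_gE N q M e B k hN hB hq a) A ⟨_, h⟩ ≠ 0 := by
  intro h0
  have h3 : ((redG (isCuspExp_gE N q M e B k hN hB hq a) A ⟨_, h⟩ :
        Fermat.Agent.S45.NUE.H23.RG (isCuspExp_gE N q M e B k hN hB hq a) A) :
          LaurentSeries (kV A)) = 0 := by
    rw [h0]; rfl
  rw [redG_thE A N q M e B k hN hB hq hA a ha1 hae h1 h2 h] at h3
  have h4 : Fermat.Agent.S36.NU.H73.thetaL (coeffMap (Int.castRingHom (kV A)) jInt) = 0 :=
    qExpand_injective (q ^ dE e a) (by rw [h3, map_zero])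
  have h5 := congrArg (fun s : LaurentSeries (kV A) => s.coeff (-1)) h4
  simp only [Fermat.Agent.S36.NU.H73.thetaL_coeff, HahnSeries.coeff_zero, coeffMap_coeff,
    jInt_coeff_neg_one, map_one, mul_one] at h5
  have h6 : ((-1 : ℤ) : kV A) = -1 := by push_cast; rfl
  rw [h6, neg_eq_zero] at h5
  exact one_ne_zero h5

/-- `v_a(θ_a) = 1`. -/
theorem val_thE (hA : (q : Kbar) ∈ A.nonunits) (a : ℕ) (ha1 : 1 ≤ a) (hae : a < e)
    [NeZero (M * q ^ min e (2 * a))]
    (h1 : q ^ (a + min a (e - a)) ∣ N) (h2 : q ^ (a - min a (e - a)) ∣ N) :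
    (VG (isCuspExp_gE N q M e B k hN hB hq a) A).valuation (thE N q e B a h1 h2) = 1 := by
  have h := thE_mem_VG A N q M e B k hN hB hq a ha1 hae h1 h2
  have hne := redG_thE_ne_zero A N q M e B k hN hB hq hA a ha1 hae h1 h2 h
  have hu : IsUnit (⟨thE N q e B a h1 h2, h⟩ :
      ↥(VG (isCuspExp_gE N q M e B k hN hB hq a) A)) := by
    by_contra hnu
    apply hne
    rw [redG_eq_zero_iff]
    exact (IsLocalRing.mem_maximalIdeal _).mpr hnu
  exact (ValuationSubring.valuation_eq_one_iff _ _).mp hu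

/-- **The ramification of `v_a` over `q`**: `v_a(π_a)^φ(q^m) = v_a(q)`, `m = min(a, e - a)`. -/
theorem ramE (hA : (q : Kbar) ∈ A.nonunits) (a : ℕ) (ha1 : 1 ≤ a) (hae : a < e)
    [NeZero (M * q ^ min e (2 * a))]
    (h1 : q ^ (a + min a (e - a)) ∣ N) (h2 : q ^ (a - min a (e - a)) ∣ N) :
    (VG (isCuspExp_gE N q M e B k hN hB hq a) A).valuation (piE N q e a h1 h2)
        ^ Nat.totient (q ^ min a (e - a))
      = (VG (isCuspExp_gE N q M e B k hN hB hq a) A).valuation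
          (algebraMap Kbar (FN N) (q : Kbar)) := by
  rw [piE_eq N q M e B k hB hq a ha1 hae h1 h2, map_mul,
    val_thE A N q M e B k hN hB hq hA a ha1 hae h1 h2, mul_one, ← map_pow, ← map_pow]
  apply val_algebraMap_congr A _ (const_memG (isCuspExp_gE N q M e B k hN hB hq a) A)
  rw [map_pow]
  obtain ⟨m', hm'⟩ : ∃ m', min a (e - a) = m' + 1 := ⟨min a (e - a) - 1, by omega⟩
  have hp := isPrimitiveRoot_zU q M e B k hB hq a hae
  rw [hm'] at hp ⊢
  exact val_sub_one_ppow A hq m' hp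

omit hB hq in
/-- `π_a` is fixed by inertia. -/
theorem piE_mem_L0 (a : ℕ) (h1 : q ^ (a + min a (e - a)) ∣ N)
    (h2 : q ^ (a - min a (e - a)) ∣ N) :
    piE N q e a h1 h2 ∈ Fermat.Agent.S36.NU.H23.L0 A N :=
  sub_mem (Fermat.Agent.S36.NU.H23.jdF_mem_L0 A N _ h1)
    (Fermat.Agent.S36.NU.H23.jdF_mem_L0 A N _ h2)

end Unif

end Fermat.Agent.S45.NUE.H73
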