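import Fermat.Agent.S45.NUE.H23_ValE
import Fermat.Agent.S45.NUE.H73_Unif
import Fermat.Agent.S36.NU.H23_Mod2
import Fermat.Agent.S36.NU.H86_CuspRed

/-!
# S45 / NU_e, leaf E-VAL-4 (helper17): reductions of the generators and of the lifts from the
good level, at the cusp `1/(q^a M)` of `X₀(M q^e)`

`N = M q^e`, `B M + k q^e = 1`, `VE a`, `sE a`, `cE a` the valuation, residue map and normalised
expansion at the cusp `1/(q^a M)` (helper23 `H23_ValE`, helper73).

* `jdF_mem_VE_le/gt`, `sE_jdF_le/gt` : the reductions of the generators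
  `sE a (j (q^(d q^i))) = j~ (s^(d q^(ν_a i)))`;
* `cE_inclusion` : `cE a x = x (s^(q^(e - 2 a)))` for `x` of level `M`;
* `betaE : F_M →ₐ F_N`, `x ↦ x (q^e τ)`, `betaL0` on the inertia-fixed functions,
  `cE_betaE_lt`, `cE_betaE_top` : `cE a (β x) = (twist z_a) (x (s^(q^(2 a - e))))`;
* `inclL0_mem_VE`, `sE_inclL0`     : `sE a (incl x) = (sE₀ x)(s^(q^(e - 2 a)))`;
* `betaL0_mem_VE`, `sE_betaL0`     : `sE a (β x) = (sE₀ x)(s^(q^(2 a - e)))`;
* `exists_sE_eq` : every element of `fullC k M` is a value of `sE a` (`a ≤ e`, `q ∤ M`).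
-/

set_option autoImplicit false
set_option synthInstance.maxHeartbeats 400000
set_option maxHeartbeats 1000000
set_option linter.unusedSectionVars false
set_option linter.unusedVariables false
set_option linter.style.haveILetI false

noncomputable section

namespace Fermat.Agent.S45.NUE.H17

open Fermat.Agent.S24 Fermat.Agent.BAD.H88 ModularCurve AlgebraicCurve
open Fermat.Agent.S28 Fermat.Agent.S28.H73 Fermat.Agent.RED.H73 Fermat.Agent.RED.H17
open Fermat.Agent.S36.NU.H88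
open Fermat.Agent.S45.NUE.H23
open Fermat.Agent.S45.NUE.H73 (zE zE_pow rootUnit coe_rootUnit resV_rootUnit jdF_congr posE
  dvdE_cases)
open scoped MatrixGroups

local notation "L0" => Fermat.Agent.S36.NU.H23.L0
local notation "VE0" => Fermat.Agent.S36.NU.H23.VE0
local notation "sE0" => Fermat.Agent.S36.NU.H23.sE
local notation "inclL0" => Fermat.Agent.S36.NU.H23.inclL0

/-! ## Generalities -/

section Gen

variable (A : ValuationSubring Kbar)

theorem qExpand_jBar_mem (m : ℕ) [NeZero m] : qExpand Kbar m jBar ∈ gaussRingV A := by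
  rw [Fermat.Agent.S36.NU.H86.jBar_eq_jqModC]
  exact qExpand_jqModC_mem_gaussRingV A m

theorem gaussRedV_qExpand_jBar (m : ℕ) [NeZero m] (h : qExpand Kbar m jBar ∈ gaussRingV A) :
    gaussRedV A ⟨qExpand Kbar m jBar, h⟩ = qExpand (kV A) m (jqModC (kV A)) := by
  have h' : qExpand Kbar m (jqModC Kbar) ∈ gaussRingV A := qExpand_jqModC_mem_gaussRingV A m
  have e : (⟨qExpand Kbar m jBar, h⟩ : gaussRingV A) = ⟨qExpand Kbar m (jqModC Kbar), h'⟩ :=
    Subtype.ext (by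
      show qExpand Kbar m jBar = qExpand Kbar m (jqModC Kbar)
      rw [Fermat.Agent.S36.NU.H86.jBar_eq_jqModC])
  rw [e, gaussRedV_qExpand_jqModC]

/-- The twist by a nonzero scalar as a `ℚ̄`-algebra homomorphism. -/
def twA (z : Kbar) (hz : z ≠ 0) : LaurentSeries Kbar →ₐ[Kbar] LaurentSeries Kbar :=
  { Fermat.Agent.RED.H95.twistHom z hz with
    commutes' := fun c => by
      show twist z (algebraMap Kbar (LaurentSeries Kbar) c) = algebraMap Kbar (LaurentSeries Kbar) c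
      rw [algebraMap_laurentSeries_eq_single, Fermat.Agent.RED.H95.twist_single, zpow_zero,
        one_mul] }

theorem twA_apply (z : Kbar) (hz : z ≠ 0) (x : LaurentSeries Kbar) :
    twA z hz x = twist z x := rfl

theorem zE_ne_zero (q e a : ℕ) [NeZero q] (B : ℤ) : zE q e a B ≠ 0 := by
  intro h
  have h1 := zE_pow q e a B
  rw [h, zero_pow (pow_ne_zero _ (NeZero.ne q))] at h1
  exact zero_ne_one h1

/-- The twist by `z_a` preserves the Gauss ring. -/
theorem twist_zE_mem (q e a : ℕ) [NeZero q] (B : ℤ) {x : LaurentSeries Kbar}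
    (hx : x ∈ gaussRingV A) : twist (zE q e a B) x ∈ gaussRingV A :=
  twist_mem_gaussRingV A
    (rootUnit A (zE q e a B) (q ^ max a (e - a)) (pow_ne_zero _ (NeZero.ne q)) (zE_pow q e a B)) hx

/-- Over `q` the twist by `z_a` does not change the reduction. -/
theorem gaussRedV_twist_zE (q e a : ℕ) [NeZero q] (B : ℤ) (hq : q.Prime)
    (hA : (q : Kbar) ∈ A.nonunits) (x : gaussRingV A)
    (h' : twist (zE q e a B) (x : LaurentSeries Kbar) ∈ gaussRingV A) :
    gaussRedV A ⟨_, h'⟩ = gaussRedV A x :=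
  gaussRedV_twist_of_res_eq_one A
    (rootUnit A (zE q e a B) (q ^ max a (e - a)) (pow_ne_zero _ hq.ne_zero) (zE_pow q e a B))
    (resV_rootUnit A hq hA (zE q e a B) (max a (e - a)) (zE_pow q e a B)) x h'

end Gen

section Level

variable (A : ValuationSubring Kbar)
variable (N q M e : ℕ) (B k : ℤ) (hN : N = M * q ^ e) (hB : B * M + k * (q : ℤ) ^ e = 1)
  (hq : q.Prime) [NeZero N] [NeZero q] [NeZero M]

/-! ## Reductions of the generators -/

include hN hB hq in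
theorem jdF_mem_VE_le (d d' i a : ℕ) (hM : M = d * d') (hia : i ≤ a) [NeZero (d * q ^ i)]
    [NeZero (d * q ^ (e - 2 * a + i))] (hD : d * q ^ i ∣ N) :
    (⟨jdF N (d * q ^ i) hD, Fermat.Agent.S36.NU.H23.jdF_mem_L0 A N _ hD⟩ : ↥(L0 A N))
      ∈ VE A N q M e B k hN hB hq a := by
  rw [mem_VE_iff]
  show cE N q M e B k hN hB hq a (jdF N (d * q ^ i) hD) ∈ gaussRingV A
  rw [cE_jdF_le N q M e B k hN hB hq d d' i a hM hia hD]
  exact qExpand_jBar_mem A _

include hN hB hq in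
theorem jdF_mem_VE_gt (d d' i a : ℕ) (hM : M = d * d') (hai : a < i) (hie : i ≤ e)
    [NeZero (d * q ^ i)] [NeZero (d * q ^ (max e (2 * a) - i))] (hD : d * q ^ i ∣ N) :
    (⟨jdF N (d * q ^ i) hD, Fermat.Agent.S36.NU.H23.jdF_mem_L0 A N _ hD⟩ : ↥(L0 A N))
      ∈ VE A N q M e B k hN hB hq a := by
  rw [mem_VE_iff]
  show cE N q M e B k hN hB hq a (jdF N (d * q ^ i) hD) ∈ gaussRingV A
  rw [cE_jdF_gt N q M e B k hN hB hq d d' i a hM hai hie hD]
  exact twist_zE_mem A q e a B (qExpand_jBar_mem A _)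

include hN hB hq in
/-- `i ≤ a`: `sE a (j (q^(d q^i))) = j~ (s^(d q^(e - 2 a + i)))`. -/
theorem sE_jdF_le (d d' i a : ℕ) (hM : M = d * d') (hia : i ≤ a) [NeZero (d * q ^ i)]
    [NeZero (d * q ^ (e - 2 * a + i))] (hD : d * q ^ i ∣ N)
    (hmem : (⟨jdF N (d * q ^ i) hD, Fermat.Agent.S36.NU.H23.jdF_mem_L0 A N _ hD⟩ : ↥(L0 A N))
      ∈ VE A N q M e B k hN hB hq a) :
    sE A N q M e B k hN hB hq a ⟨_, hmem⟩
      = qExpand (kV A) (d * q ^ (e - 2 * a + i)) (jqModC (kV A)) := by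
  rw [sE_mk]
  have e1 : cE N q M e B k hN hB hq a (jdF N (d * q ^ i) hD)
      = qExpand Kbar (d * q ^ (e - 2 * a + i)) jBar :=
    cE_jdF_le N q M e B k hN hB hq d d' i a hM hia hD
  have e2 : (⟨cE N q M e B k hN hB hq a
      (((⟨jdF N (d * q ^ i) hD, Fermat.Agent.S36.NU.H23.jdF_mem_L0 A N _ hD⟩ : ↥(L0 A N)) :
        FN N)), hmem⟩ : gaussRingV A)
      = ⟨qExpand Kbar (d * q ^ (e - 2 * a + i)) jBar, qExpand_jBar_mem A _⟩ := Subtype.ext e1
  rw [e2, gaussRedV_qExpand_jBar]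

include hN hB hq in
/-- `a < i ≤ e`: `sE a (j (q^(d q^i))) = j~ (s^(d q^(max(e, 2 a) - i)))`. -/
theorem sE_jdF_gt (hA : (q : Kbar) ∈ A.nonunits) (d d' i a : ℕ) (hM : M = d * d') (hai : a < i)
    (hie : i ≤ e) [NeZero (d * q ^ i)] [NeZero (d * q ^ (max e (2 * a) - i))]
    (hD : d * q ^ i ∣ N)
    (hmem : (⟨jdF N (d * q ^ i) hD, Fermat.Agent.S36.NU.H23.jdF_mem_L0 A N _ hD⟩ : ↥(L0 A N))
      ∈ VE A N q M e B k hN hB hq a) :
    sE A N q M e B k hN hB hq a ⟨_, hmem⟩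
      = qExpand (kV A) (d * q ^ (max e (2 * a) - i)) (jqModC (kV A)) := by
  rw [sE_mk]
  have e1 : cE N q M e B k hN hB hq a (jdF N (d * q ^ i) hD)
      = twist (zE q e a B) (qExpand Kbar (d * q ^ (max e (2 * a) - i)) jBar) :=
    cE_jdF_gt N q M e B k hN hB hq d d' i a hM hai hie hD
  have h0 : qExpand Kbar (d * q ^ (max e (2 * a) - i)) jBar ∈ gaussRingV A :=
    qExpand_jBar_mem A _
  have e2 : (⟨cE N q M e B k hN hB hq a
      (((⟨jdF N (d * q ^ i) hD, Fermat.Agent.S36.NU.H23.jdF_mem_L0 A N _ hD⟩ : ↥(L0 A N)) :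
        FN N)), hmem⟩ : gaussRingV A)
      = ⟨twist (zE q e a B) (qExpand Kbar (d * q ^ (max e (2 * a) - i)) jBar),
          twist_zE_mem A q e a B h0⟩ := Subtype.ext e1
  rw [e2, gaussRedV_twist_zE A q e a B hq hA ⟨_, h0⟩, gaussRedV_qExpand_jBar]

/-! ## The inclusion of the good level -/

include hN hB hq in
/-- `cE a x = x (s^(q^(e - 2 a)))` for `x` of level `M`. -/
theorem cE_inclusion (hle : modularFunctionFieldBar M ≤ modularFunctionFieldBar N) (a : ℕ)
    (x : FN M) :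
    cE N q M e B k hN hB hq a (IntermediateField.inclusion hle x)
      = qExpand Kbar (q ^ (e - 2 * a)) (x : LaurentSeries Kbar) := by
  have hq0 : 0 < q := hq.pos
  haveI : NeZero (q ^ (e - 2 * a)) := ⟨(pow_pos hq0 _).ne'⟩
  have key : (cE N q M e B k hN hB hq a).comp (IntermediateField.inclusion hle)
      = (qExpandAlgHomC Kbar (q ^ (e - 2 * a))).comp (modularFunctionFieldBar M).val := by
    apply algHom_ext_of_adjoin _ (adjoin_jdF M)
    rintro y ⟨D, hD0, hD, rfl⟩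
    obtain ⟨d', hM⟩ := hD
    have hD' : D ∣ M := ⟨d', hM⟩
    have hDN : D ∣ N := hD'.trans ⟨q ^ e, hN⟩
    have hD0' : 0 < D := Nat.pos_of_ne_zero (NeZero.ne D)
    haveI : NeZero (D * q ^ 0) := ⟨by rw [pow_zero, mul_one]; exact NeZero.ne D⟩
    haveI : NeZero (D * q ^ (e - 2 * a + 0)) := ⟨(Nat.mul_pos hD0' (pow_pos hq0 _)).ne'⟩
    have hDN0 : D * q ^ 0 ∣ N := by rw [pow_zero, mul_one]; exact hDN
    have e1 : IntermediateField.inclusion hle (jdF M D hD') = jdF N (D * q ^ 0) hDN0 := by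
      apply Subtype.ext
      rw [IntermediateField.coe_inclusion, coe_jdF, coe_jdF]
      exact qExpand_congr (by rw [pow_zero, mul_one]) _
    show cE N q M e B k hN hB hq a (IntermediateField.inclusion hle (jdF M D hD'))
      = qExpand Kbar (q ^ (e - 2 * a)) ((jdF M D hD' : FN M) : LaurentSeries Kbar)
    rw [e1, cE_jdF_le N q M e B k hN hB hq D d' 0 a hM (Nat.zero_le a) hDN0, coe_jdF,
      qExpand_qExpand]
    exact qExpand_congr (by rw [add_zero, mul_comm]) _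
  exact DFunLike.congr_fun key x

/-! ## The map `x ↦ x (q^e τ)` -/

/-- `β^e : F_M → F_N`, `x ↦ x (q^e τ)`. -/
def betaE : FN M →ₐ[Kbar] FN N where
  toFun x := ⟨qExpand Kbar (q ^ e) (x : LaurentSeries Kbar), by
    haveI : NeZero (q ^ e) := ⟨pow_ne_zero _ (NeZero.ne q)⟩
    subst hN
    exact (heckeBetaBar Kbar M (q ^ e) x).2⟩
  map_one' := Subtype.ext (map_one (qExpand Kbar (q ^ e)))
  map_mul' _ _ := Subtype.ext (map_mul (qExpand Kbar (q ^ e)) _ _)
  map_zero' := Subtype.ext (map_zero (qExpand Kbar (q ^ e)))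
  map_add' _ _ := Subtype.ext (map_add (qExpand Kbar (q ^ e)) _ _)
  commutes' c := Subtype.ext (by
    haveI : NeZero (q ^ e) := ⟨pow_ne_zero _ (NeZero.ne q)⟩
    show qExpand Kbar (q ^ e) (algebraMap Kbar (LaurentSeries Kbar) c)
      = algebraMap Kbar (LaurentSeries Kbar) c
    rw [algebraMap_laurentSeries_eq_single, qExpand_single, mul_zero])

theorem coe_betaE (x : FN M) :
    ((betaE N q M e hN x : FN N) : LaurentSeries Kbar)
      = qExpand Kbar (q ^ e) (x : LaurentSeries Kbar) := rfl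

theorem betaE_jdF (d : ℕ) [NeZero d] (hd : d ∣ M) [NeZero (d * q ^ e)] (hD : d * q ^ e ∣ N) :
    betaE N q M e hN (jdF M d hd) = jdF N (d * q ^ e) hD := by
  haveI : NeZero (q ^ e) := ⟨pow_ne_zero _ (NeZero.ne q)⟩
  apply Subtype.ext
  rw [coe_betaE, coe_jdF, coe_jdF, qExpand_qExpand]
  exact qExpand_congr (mul_comm _ _) _

theorem betaE_mem_L0 (x : FN M) (hx : x ∈ L0 A M) : betaE N q M e hN x ∈ L0 A N := by
  haveI : NeZero (q ^ e) := ⟨pow_ne_zero _ (NeZero.ne q)⟩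
  rw [Fermat.Agent.S36.NU.H23.mem_L0_iff_coeffMap] at hx ⊢
  intro σ hσ
  rw [coe_betaE, Fermat.Agent.S36.NU.H82.coeffMap_qExp82, hx σ hσ]

/-- `β^e` on the inertia-fixed functions. -/
def betaL0 : ↥(L0 A M) →+* ↥(L0 A N) :=
  ((betaE N q M e hN).toRingHom.comp (L0 A M).subtype).codRestrict (L0 A N)
    (fun x => betaE_mem_L0 A N q M e hN x.1 x.2)

theorem coe_betaL0 (x : ↥(L0 A M)) :
    ((betaL0 A N q M e hN x : ↥(L0 A N)) : FN N) = betaE N q M e hN (x : FN M) := rfl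

include hB hq in
/-- `a = e` (the cusp `∞`): `cE e (β x) = x (s^(q^e))`. -/
theorem cE_betaE_top (x : FN M) :
    cE N q M e B k hN hB hq e (betaE N q M e hN x)
      = qExpand Kbar (q ^ e) (x : LaurentSeries Kbar) := by
  rw [cE_top, coe_betaE]

include hB hq in
/-- `a < e`: `cE a (β x) = (twist z_a) (x (s^(q^(max(e, 2 a) - e))))`. -/
theorem cE_betaE_lt (a : ℕ) (hae : a < e) (x : FN M) :
    cE N q M e B k hN hB hq a (betaE N q M e hN x)
      = twist (zE q e a B) (qExpand Kbar (q ^ (max e (2 * a) - e)) (x : LaurentSeries Kbar)) := by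
  have hq0 : 0 < q := hq.pos
  haveI : NeZero (q ^ (max e (2 * a) - e)) := ⟨(pow_pos hq0 _).ne'⟩
  have key : (cE N q M e B k hN hB hq a).comp (betaE N q M e hN)
      = ((twA (zE q e a B) (zE_ne_zero q e a B)).comp
          (qExpandAlgHomC Kbar (q ^ (max e (2 * a) - e)))).comp
          (modularFunctionFieldBar M).val := by
    apply algHom_ext_of_adjoin _ (adjoin_jdF M)
    rintro y ⟨D, hD0, hD, rfl⟩
    obtain ⟨d', hM⟩ := hD
    have hD' : D ∣ M := ⟨d', hM⟩
    have hD0' : 0 < D := Nat.pos_of_ne_zero (NeZero.ne D)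
    haveI : NeZero (D * q ^ e) := ⟨(Nat.mul_pos hD0' (pow_pos hq0 _)).ne'⟩
    haveI : NeZero (D * q ^ (max e (2 * a) - e)) := ⟨(Nat.mul_pos hD0' (pow_pos hq0 _)).ne'⟩
    have hDN : D * q ^ e ∣ N := by rw [hN]; exact Nat.mul_dvd_mul_right hD' _
    show cE N q M e B k hN hB hq a (betaE N q M e hN (jdF M D hD'))
      = twist (zE q e a B)
          (qExpand Kbar (q ^ (max e (2 * a) - e)) ((jdF M D hD' : FN M) : LaurentSeries Kbar))
    rw [betaE_jdF N q M e hN D hD' hDN,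
      cE_jdF_gt N q M e B k hN hB hq D d' e a hM hae le_rfl hDN, coe_jdF, qExpand_qExpand]
    congr 1
    exact qExpand_congr (mul_comm _ _) _
  exact DFunLike.congr_fun key x

/-! ## Reductions of the lifts -/

include hN hB hq in
theorem inclL0_mem_VE (hle : modularFunctionFieldBar M ≤ modularFunctionFieldBar N) (a : ℕ)
    (x : ↥(L0 A M)) (hx : x ∈ VE0 A M) :
    inclL0 A hle x ∈ VE A N q M e B k hN hB hq a := by
  haveI : NeZero (q ^ (e - 2 * a)) := ⟨pow_ne_zero _ (NeZero.ne q)⟩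
  rw [mem_VE_iff, Fermat.Agent.S36.NU.H23.coe_inclL0, cE_inclusion N q M e B k hN hB hq hle a]
  exact Fermat.Agent.BAD.H73.qExpand_mem_gaussRingV A _ hx

include hN hB hq in
/-- **`sE a (incl x) = (sE₀ x)(s^(q^(e - 2 a)))`.** -/
theorem sE_inclL0 (hle : modularFunctionFieldBar M ≤ modularFunctionFieldBar N) (a : ℕ)
    (x : ↥(VE0 A M)) (h : inclL0 A hle (x : ↥(L0 A M)) ∈ VE A N q M e B k hN hB hq a) :
    haveI : NeZero (q ^ (e - 2 * a)) := ⟨pow_ne_zero _ (NeZero.ne q)⟩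
    sE A N q M e B k hN hB hq a ⟨_, h⟩ = qExpand (kV A) (q ^ (e - 2 * a)) (sE0 A M x) := by
  haveI : NeZero (q ^ (e - 2 * a)) := ⟨pow_ne_zero _ (NeZero.ne q)⟩
  rw [sE_mk]
  have hx : (((x : ↥(L0 A M)) : FN M) : LaurentSeries Kbar) ∈ gaussRingV A := x.2
  have h1 : qExpand Kbar (q ^ (e - 2 * a)) (((x : ↥(L0 A M)) : FN M) : LaurentSeries Kbar)
      ∈ gaussRingV A := Fermat.Agent.BAD.H73.qExpand_mem_gaussRingV A _ hx
  have e2 : (⟨cE N q M e B k hN hB hq a
      ((inclL0 A hle (x : ↥(L0 A M)) : ↥(L0 A N)) : FN N), h⟩ : gaussRingV A)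
      = ⟨qExpand Kbar (q ^ (e - 2 * a)) (((x : ↥(L0 A M)) : FN M) : LaurentSeries Kbar), h1⟩ :=
    Subtype.ext (by
      show cE N q M e B k hN hB hq a ((inclL0 A hle (x : ↥(L0 A M)) : ↥(L0 A N)) : FN N)
        = qExpand Kbar (q ^ (e - 2 * a)) (((x : ↥(L0 A M)) : FN M) : LaurentSeries Kbar)
      rw [Fermat.Agent.S36.NU.H23.coe_inclL0, cE_inclusion N q M e B k hN hB hq hle a])
  rw [e2, Fermat.Agent.BAD.H73.gaussRedV_qExpand A _ hx h1]
  rfl

include hB hq in
theorem betaL0_mem_VE (a : ℕ) (hae : a ≤ e) (x : ↥(L0 A M)) (hx : x ∈ VE0 A M) :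
    betaL0 A N q M e hN x ∈ VE A N q M e B k hN hB hq a := by
  haveI : NeZero (q ^ e) := ⟨pow_ne_zero _ (NeZero.ne q)⟩
  haveI : NeZero (q ^ (max e (2 * a) - e)) := ⟨pow_ne_zero _ (NeZero.ne q)⟩
  rw [mem_VE_iff, coe_betaL0]
  rcases Nat.lt_or_ge a e with h | h
  · rw [cE_betaE_lt N q M e B k hN hB hq a h]
    exact twist_zE_mem A q e a B (Fermat.Agent.BAD.H73.qExpand_mem_gaussRingV A _ hx)
  · obtain rfl : a = e := le_antisymm hae h
    rw [cE_betaE_top N q M a B k hN hB hq]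
    exact Fermat.Agent.BAD.H73.qExpand_mem_gaussRingV A _ hx

include hB hq in
/-- **`sE a (β x) = (sE₀ x)(s^(q^(max(e, 2 a) - e)))`.** -/
theorem sE_betaL0 (hA : (q : Kbar) ∈ A.nonunits) (a : ℕ) (hae : a ≤ e) (x : ↥(VE0 A M))
    (h : betaL0 A N q M e hN (x : ↥(L0 A M)) ∈ VE A N q M e B k hN hB hq a) :
    haveI : NeZero (q ^ (max e (2 * a) - e)) := ⟨pow_ne_zero _ (NeZero.ne q)⟩
    sE A N q M e B k hN hB hq a ⟨_, h⟩
      = qExpand (kV A) (q ^ (max e (2 * a) - e)) (sE0 A M x) := by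
  haveI : NeZero (q ^ e) := ⟨pow_ne_zero _ (NeZero.ne q)⟩
  haveI : NeZero (q ^ (max e (2 * a) - e)) := ⟨pow_ne_zero _ (NeZero.ne q)⟩
  rw [sE_mk]
  have hx : (((x : ↥(L0 A M)) : FN M) : LaurentSeries Kbar) ∈ gaussRingV A := x.2
  have h1 : qExpand Kbar (q ^ (max e (2 * a) - e))
      (((x : ↥(L0 A M)) : FN M) : LaurentSeries Kbar) ∈ gaussRingV A :=
    Fermat.Agent.BAD.H73.qExpand_mem_gaussRingV A _ hx
  rcases Nat.lt_or_ge a e with hlt | hge
  · have e2 : (⟨cE N q M e B k hN hB hq a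
        ((betaL0 A N q M e hN (x : ↥(L0 A M)) : ↥(L0 A N)) : FN N), h⟩ : gaussRingV A)
        = ⟨twist (zE q e a B) (qExpand Kbar (q ^ (max e (2 * a) - e))
            (((x : ↥(L0 A M)) : FN M) : LaurentSeries Kbar)), twist_zE_mem A q e a B h1⟩ :=
      Subtype.ext (by
        show cE N q M e B k hN hB hq a
            ((betaL0 A N q M e hN (x : ↥(L0 A M)) : ↥(L0 A N)) : FN N)
          = twist (zE q e a B) (qExpand Kbar (q ^ (max e (2 * a) - e))
            (((x : ↥(L0 A M)) : FN M) : LaurentSeries Kbar))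
        rw [coe_betaL0, cE_betaE_lt N q M e B k hN hB hq a hlt])
    rw [e2, gaussRedV_twist_zE A q e a B hq hA ⟨_, h1⟩,
      Fermat.Agent.BAD.H73.gaussRedV_qExpand A _ hx h1]
    rfl
  · obtain rfl : a = e := le_antisymm hae hge
    have hee : max a (2 * a) - a = a := by omega
    have h1' : qExpand Kbar (q ^ a) (((x : ↥(L0 A M)) : FN M) : LaurentSeries Kbar)
        ∈ gaussRingV A := Fermat.Agent.BAD.H73.qExpand_mem_gaussRingV A _ hx
    have e2 : (⟨cE N q M a B k hN hB hq a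
        ((betaL0 A N q M a hN (x : ↥(L0 A M)) : ↥(L0 A N)) : FN N), h⟩ : gaussRingV A)
        = ⟨qExpand Kbar (q ^ a) (((x : ↥(L0 A M)) : FN M) : LaurentSeries Kbar), h1'⟩ :=
      Subtype.ext (by
        show cE N q M a B k hN hB hq a
            ((betaL0 A N q M a hN (x : ↥(L0 A M)) : ↥(L0 A N)) : FN N)
          = qExpand Kbar (q ^ a) (((x : ↥(L0 A M)) : FN M) : LaurentSeries Kbar)
        rw [coe_betaL0, cE_betaE_top N q M a B k hN hB hq])
    rw [e2, Fermat.Agent.BAD.H73.gaussRedV_qExpand A _ hx h1']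
    exact qExpand_congr (by rw [hee]) _

/-! ## Every element of `fullC k M` is a value of `sE a` -/

include hN hB hq in
/-- **The residue field of `V_a` contains `fullC k M`** (`a ≤ e`, `q ∤ M`): every element of
the function field of the good level in characteristic `q` is the reduction of `incl x`
(if `e ≤ 2 a`) or of `β^e x` (if `2 a < e`), `x` of level `M`. -/
theorem exists_sE_eq (hqM : ¬ q ∣ M) (hA : A.LiesOverPrime q)
    (hle : modularFunctionFieldBar M ≤ modularFunctionFieldBar N) (a : ℕ) (hae : a ≤ e)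
    (y : LaurentSeries (kV A)) (hy : y ∈ modularFunctionFieldFullC (kV A) M) :
    ∃ x : ↥(VE A N q M e B k hN hB hq a), sE A N q M e B k hN hB hq a x = y := by
  haveI : NeZero (M * q * q) :=
    ⟨Nat.mul_ne_zero (Nat.mul_ne_zero (NeZero.ne M) (NeZero.ne q)) (NeZero.ne q)⟩
  have hy' : y ∈ redField A (modularFunctionFieldBar M) (hScM A M) := by
    rw [Fermat.Agent.S36.NU.H23.FM_eq A q M hq hqM hA]
    exact hy
  obtain ⟨x0, hx0⟩ := Fermat.Agent.S36.NU.H23.rE_surjective A q M hq hqM hA ⟨y, hy'⟩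
  have hs : sE0 A M x0 = y := by
    rw [← Fermat.Agent.S36.NU.H23.coe_rE, hx0]
  rcases Nat.lt_or_ge (2 * a) e with h | h
  · refine ⟨⟨_, betaL0_mem_VE A N q M e B k hN hB hq a hae x0 x0.2⟩, ?_⟩
    rw [sE_betaL0 A N q M e B k hN hB hq hA a hae x0, hs]
    have h0 : max e (2 * a) - e = 0 := by omega
    haveI : NeZero (q ^ (max e (2 * a) - e)) := ⟨pow_ne_zero _ (NeZero.ne q)⟩
    rw [qExpand_congr (show q ^ (max e (2 * a) - e) = 1 by rw [h0, pow_zero]),
      qExpand_one_apply]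
  · refine ⟨⟨_, inclL0_mem_VE A N q M e B k hN hB hq hle a x0 x0.2⟩, ?_⟩
    rw [sE_inclL0 A N q M e B k hN hB hq hle a x0, hs]
    have h0 : e - 2 * a = 0 := by omega
    haveI : NeZero (q ^ (e - 2 * a)) := ⟨pow_ne_zero _ (NeZero.ne q)⟩
    rw [qExpand_congr (show q ^ (e - 2 * a) = 1 by rw [h0, pow_zero]), qExpand_one_apply]

include hN in
/-- `F_M ⊆ F_N`. -/
theorem hleE : modularFunctionFieldBar M ≤ modularFunctionFieldBar N :=
  Fermat.Agent.S36.NU.H82.FM_le_of_dvd N M ⟨q ^ e, hN⟩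

end Level

end Fermat.Agent.S45.NUE.H17
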