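/-
S45 (row 41), E-TOT, leaf T9 ARCH + HLIFT (helper60), for the `e + 1` Gauss valuations `VE a` of
the inertia-fixed functions of level `N = M q^e` (`H23_ValE.lean`, helper23):

* `isArch_VF`, `isArch_VE` : the valuations `VF a`, `VE a` are of rank one;
* `hliftE` : Teichmüller lifts: every constant of the residue field is the reduction, at all
  valuations `VE a` simultaneously, of an inertia-fixed constant.

S36 analogues: `S36.NU.H82.isArch_V11`, `S36.NU.H23.hlift_mod`.
-/
import Fermat.Agent.S45.NUE.H23_ValE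
import Fermat.Agent.S36.NU.H82_Val0
import Fermat.Agent.S36.NU.H42_Surj
import Fermat.Agent.S36.NU.H23_L0
import Fermat.Agent.S36.NU.H23_Res

set_option autoImplicit false
set_option synthInstance.maxHeartbeats 400000
set_option maxHeartbeats 1000000
set_option linter.style.haveILetI false
set_option linter.unusedSectionVars false

noncomputable section

open ModularCurve AlgebraicCurve
open Fermat.Agent.S24 Fermat.Agent.BAD.H88 Fermat.Agent.S28 Fermat.Agent.S28.H73
open Fermat.Agent.RED.H73 Fermat.Agent.RED.H17 Fermat.Agent.S36.NU.H88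
open Fermat.Agent.S36.NU.H23 Fermat.Agent.S45.NUE.H73 Fermat.Agent.S45.NUE.H23
open scoped MatrixGroups

namespace Fermat.Agent.S45.NUE.H60

section Level

variable (A : ValuationSubring Kbar)
variable (N q M e : ℕ) (B k : ℤ) (hN : N = M * q ^ e) (hB : B * M + k * (q : ℤ) ^ e = 1)
  (hq : q.Prime) [NeZero N] [NeZero q] (hA : A.LiesOverPrime q)

include hA in
/-- `VF a` is of rank one. -/
theorem isArch_VF (a : ℕ) : Fermat.Agent.BAD.H42.IsArch (VF A N q M e B k hN hB hq a) := by
  haveI := neZero_nE N q M e B k hN hB hq a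
  refine Fermat.Agent.S36.NU.H82.isArch_of_const A hq hA (VF A N q M e B k hN hB hq a)
    (const_memG (hE N q M e B k hN hB hq a) A) ?_
  intro f hf
  obtain ⟨c, hc0, h, hr⟩ := exists_scaleG (hE N q M e B k hN hB hq a) A f hf
  exact ⟨c, hc0, Fermat.Agent.S36.NU.H82.val_eq_one_of_red_ne_zero _
    (redG (hE N q M e B k hN hB hq a) A) (redG_eq_zero_iff (hE N q M e B k hN hB hq a) A)
    ⟨_, h⟩ hr⟩

include hA in
/-- **T9 ARCH**: `VE a` is of rank one. -/
theorem isArch_VE (a : ℕ) : Fermat.Agent.BAD.H42.IsArch (VE A N q M e B k hN hB hq a) := by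
  rw [VE_eq_resV0]
  exact isArch_resV0 (L0 A N) (VF A N q M e B k hN hB hq a)
    (isArch_VF A N q M e B k hN hB hq hA a)

include hA in
/-- **T9 HLIFT**: Teichmüller lifts of the constants of the residue field, at all valuations
`VE a`. -/
theorem hliftE (c : kV A) :
    ∃ x : ↥(L0 A N), (∃ c' : Kbar, (x : FN N) = algebraMap Kbar (FN N) c') ∧
      ∀ a, ∃ h : x ∈ VE A N q M e B k hN hB hq a,
        sE A N q M e B k hN hB hq a ⟨x, h⟩ = algebraMap (kV A) (LaurentSeries (kV A)) c := by
  obtain ⟨c', hc', hfix, hres⟩ := Fermat.Agent.S36.NU.H42.exists_fixed_lift A hq hA c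
  refine ⟨⟨algebraMap Kbar (FN N) c', (const_mem_L0_iff A c').mpr hfix⟩, ⟨c', rfl⟩, fun a => ?_⟩
  haveI := neZero_nE N q M e B k hN hB hq a
  have h : algebraMap Kbar (FN N) c' ∈ VG (hE N q M e B k hN hB hq a) A :=
    (const_memG (hE N q M e B k hN hB hq a) A c').mpr hc'
  refine ⟨h, ?_⟩
  show ((redG (hE N q M e B k hN hB hq a) A ⟨_, h⟩ : RG (hE N q M e B k hN hB hq a) A) :
    LaurentSeries (kV A)) = _
  rw [redG_const (hE N q M e B k hN hB hq a) A ⟨c', hc'⟩ h, hres]
  rfl

end Level

end Fermat.Agent.S45.NUE.H60
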