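import Fermat.Agent.BAD.H73_NormFr

/-!
# S45 / NU_e, package E-TOT, leaf T1 FRW (helper62): the `Fr^w`-twisted structure

`E ⊂ k((t))` a `φ`-stable field over the perfect field `k` of characteristic `q`, `E''` a field
with an isomorphism `e : E'' ≃+* E`, and `E` an `E''`-algebra through `Fr^w ∘ e`
(`Fr : t ↦ t ^ q`).  This generalises `BAD.H73` (`w = 1`) and `S36.NU.H23` (`w = 2`).
(Modular: the residue field of `V_a` at level `q^e M'` over the residue field of level `M'`,
`w = max (e - 2 a) 0`.)

* `coe_iterate_FrE : ((Fr^w x : E) : k((t))) = qExpand (q ^ w) x`;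
* `iterate_FrE_iterate_frobE : Fr^w (φ^w x) = x ^ (q ^ w)`;
* `isPurelyInseparable_of_FrW`;
* `finrank_of_FrW : [E : E''] = q ^ w`;
* `norm_of_FrW : N_{E/E''} g = e⁻¹ (φ^w g)`;
* `ord_norm_of_FrW : ord_z (e (N g)) = ord_{β^w z} g`.
-/

set_option autoImplicit false
set_option synthInstance.maxHeartbeats 400000
set_option maxHeartbeats 1000000
set_option linter.style.haveILetI false
set_option linter.unusedSectionVars false

noncomputable section

open ModularCurve AlgebraicCurve Polynomial IntermediateField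

namespace Fermat.Agent.S45.NUE.H62

open Fermat.Agent.BAD.H73

universe u v

section TwistW

variable {k : Type v} [Field k] {q : ℕ} [Fact q.Prime] [CharP k q] [PerfectRing k q]
variable {E : IntermediateField k (LaurentSeries k)} (h : FrobStable q E)

/-! ## Iterates of `Fr`, `φ`, `β` -/

/-- `Fr^w` as a ring endomorphism of `E`. -/
def FrWHom : ℕ → (↥E →+* ↥E)
  | 0 => RingHom.id _
  | (w + 1) => (FrE h).toRingHom.comp (FrWHom w)

theorem FrWHom_apply (w : ℕ) (x : ↥E) : FrWHom h w x = (FrE h)^[w] x := by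
  induction w with
  | zero => rfl
  | succ w ih =>
    have e1 : (FrE h)^[w + 1] x = FrE h ((FrE h)^[w] x) := Function.iterate_succ_apply' _ _ _
    rw [e1, ← ih]
    rfl

/-- `Fr^w x = x (t ^ (q ^ w))`. -/
theorem coe_iterate_FrE (w : ℕ) (x : ↥E) :
    ((((FrE h)^[w] x : ↥E)) : LaurentSeries k) = qExpand k (q ^ w) (x : LaurentSeries k) := by
  induction w with
  | zero =>
    rw [Function.iterate_zero_apply]
    exact (qExpand_one_apply (x : LaurentSeries k)).symm.trans
      (qExpand_congr (pow_zero q).symm _)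
  | succ w ih =>
    have e1 : (FrE h)^[w + 1] x = FrE h ((FrE h)^[w] x) := Function.iterate_succ_apply' _ _ _
    rw [e1, coe_FrE, ih, qExpand_qExpand]
    exact qExpand_congr (pow_succ' q w).symm _

/-- `Fr^w (y ^ m) = (Fr^w y) ^ m`. -/
theorem iterate_FrE_pow (w : ℕ) (y : ↥E) (m : ℕ) :
    (FrE h)^[w] (y ^ m) = ((FrE h)^[w] y) ^ m := by
  rw [← FrWHom_apply, ← FrWHom_apply, map_pow]

/-- `Fr^w (φ^w x) = x ^ (q ^ w)`. -/
theorem iterate_FrE_iterate_frobE (w : ℕ) (x : ↥E) :
    (FrE h)^[w] ((frobE h)^[w] x) = x ^ (q ^ w) := by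
  induction w with
  | zero => rw [Function.iterate_zero_apply, Function.iterate_zero_apply, pow_zero, pow_one]
  | succ w ih =>
    have e1 : (frobE h)^[w + 1] x = frobE h ((frobE h)^[w] x) :=
      Function.iterate_succ_apply' _ _ _
    have e2 : (FrE h)^[w + 1] (frobE h ((frobE h)^[w] x))
        = (FrE h)^[w] (FrE h (frobE h ((frobE h)^[w] x))) :=
      Function.iterate_succ_apply _ _ _
    rw [e1, e2, FrE_frobE, iterate_FrE_pow, ih, ← pow_mul, pow_succ]

/-- `ord_{β^w z} y = ord_z (φ^w y)`. -/
theorem iterate_beta_ord (w : ℕ) (z : Place k ↥E) (y : ↥E) :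
    ((beta h)^[w] z).ord y = z.ord ((frobE h)^[w] y) := by
  induction w generalizing y with
  | zero => rfl
  | succ w ih =>
    have e1 : (beta h)^[w + 1] z = beta h ((beta h)^[w] z) :=
      Function.iterate_succ_apply' _ _ _
    have e2 : (frobE h)^[w + 1] y = (frobE h)^[w] (frobE h y) :=
      Function.iterate_succ_apply _ _ _
    rw [e1, beta_ord, ih, e2]

/-! ## The twisted structure -/

/-- A copy of `E`, the middle of the tower `E'' → E → E`. -/
def MidW (_h : FrobStable q E) : Type v := ↥E

instance : Field (MidW h) := inferInstanceAs (Field ↥E)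

/-- the identification -/
def midWEquiv : MidW h ≃+* ↥E := RingEquiv.refl ↥E

/-- `E` over the middle copy, through `Fr`. -/
@[reducible] def algMidWTop : Algebra (MidW h) ↥E :=
  ((FrE h).toRingHom.comp (midWEquiv h).toRingHom).toAlgebra

variable {E'' : Type u} [Field E''] (e : E'' ≃+* ↥E)

/-- The structure map `Fr^w ∘ e`. -/
@[reducible] def algW (w : ℕ) : Algebra E'' ↥E := ((FrWHom h w).comp e.toRingHom).toAlgebra

theorem algW_algebraMap (w : ℕ) (a : E'') :
    @algebraMap E'' ↥E _ _ (algW h e w) a = (FrE h)^[w] (e a) := by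
  rw [← FrWHom_apply]
  rfl

/-- The middle copy over `E''`, through `Fr^w ∘ e`. -/
@[reducible] def algBotMidW (w : ℕ) : Algebra E'' (MidW h) :=
  ((midWEquiv h).symm.toRingHom.comp ((FrWHom h w).comp e.toRingHom)).toAlgebra

/-- A bijective structure map has degree one. -/
theorem finrank_eq_one_of_bijective {K L : Type*} [Field K] [Field L] [Algebra K L]
    (hb : Function.Bijective (algebraMap K L)) : Module.finrank K L = 1 := by
  have e1 : K ≃ₗ[K] L := LinearEquiv.ofBijective (Algebra.linearMap K L) hb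
  rw [← e1.finrank_eq, Module.finrank_self]

/-- **`[E : E''] = q ^ w`**, for every algebra structure with structure map `Fr^w ∘ e`. -/
theorem finrank_of_FrW_aux (x : ↥E) {n : ℤ} (hn : ¬ (q : ℤ) ∣ n)
    (hx : (x : LaurentSeries k).coeff n ≠ 0)
    (hsep : ∀ y ∈ E, IsSeparable ↥(IntermediateField.adjoin k {(x : LaurentSeries k)}) y)
    (w : ℕ) : ∀ (alg : Algebra E'' ↥E),
      (∀ a : E'', @algebraMap E'' ↥E _ _ alg a = (FrE h)^[w] (e a)) →
      @Module.finrank E'' ↥E _ _ alg.toModule = q ^ w := by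
  induction w with
  | zero =>
    intro alg he
    letI := alg
    rw [pow_zero]
    apply finrank_eq_one_of_bijective
    have hfun : ⇑(algebraMap E'' ↥E) = ⇑e := funext fun a => he a
    rw [hfun]
    exact e.bijective
  | succ w ih =>
    intro alg he
    letI := alg
    letI := algBotMidW h e w
    letI := algMidWTop h
    haveI : IsScalarTower E'' (MidW h) ↥E := by
      refine IsScalarTower.of_algebraMap_eq fun a => ?_
      have e1 : (FrE h)^[w + 1] (e a) = FrE h ((FrE h)^[w] (e a)) :=
        Function.iterate_succ_apply' _ _ _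
      refine (he a).trans ?_
      rw [e1, ← FrWHom_apply]
      rfl
    -- the upper step
    have h2 : Module.finrank (MidW h) ↥E = q :=
      finrank_of_Fr h (midWEquiv h) (fun _ => rfl) x hn hx hsep
    -- the lower step
    have h1 : Module.finrank E'' (MidW h) = q ^ w := by
      have h3 : @Module.finrank E'' ↥E _ _ (algW h e w).toModule = q ^ w :=
        ih (algW h e w) (algW_algebraMap h e w)
      exact h3
    haveI : Module.Free (MidW h) ↥E := Module.Free.of_divisionRing _ _
    haveI : Module.Free E'' (MidW h) := Module.Free.of_divisionRing _ _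
    rw [← Module.finrank_mul_finrank E'' (MidW h) ↥E, h1, h2, pow_succ]

variable [Algebra E'' ↥E] (w : ℕ)
variable (he : ∀ a : E'', algebraMap E'' ↥E a = (FrE h)^[w] (e a))

include he in
/-- `x ^ (q ^ w)` is in the image of `E''`. -/
theorem pow_qw_eq_algebraMap (x : ↥E) :
    x ^ (q ^ w) = algebraMap E'' ↥E (e.symm ((frobE h)^[w] x)) := by
  rw [he, e.apply_symm_apply, iterate_FrE_iterate_frobE]

include e he in
/-- `E` is purely inseparable over `E''` (structure map `Fr^w ∘ e`). -/
theorem isPurelyInseparable_of_FrW : IsPurelyInseparable E'' ↥E := by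
  have : CharP E'' q := charP_of_equiv e
  rw [isPurelyInseparable_iff_pow_mem E'' q]
  intro x
  exact ⟨w, e.symm ((frobE h)^[w] x), (pow_qw_eq_algebraMap h e w he x).symm⟩

include e he in
/-- **`[E : E''] = q ^ w`** for the structure map `Fr^w ∘ e`, if `E` is separable over `k(x)`
for one `x ∈ E` which is not a series in `t ^ q`. -/
theorem finrank_of_FrW (x : ↥E) {n : ℤ} (hn : ¬ (q : ℤ) ∣ n)
    (hx : (x : LaurentSeries k).coeff n ≠ 0)
    (hsep : ∀ y ∈ E, IsSeparable ↥(IntermediateField.adjoin k {(x : LaurentSeries k)}) y) :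
    Module.finrank E'' ↥E = q ^ w :=
  finrank_of_FrW_aux h e x hn hx hsep w _ he

include e he in
/-- **`N_{E/E''} g = e⁻¹ (φ^w g)`** for the structure map `Fr^w ∘ e`. -/
theorem norm_of_FrW (x : ↥E) {n : ℤ} (hn : ¬ (q : ℤ) ∣ n)
    (hx : (x : LaurentSeries k).coeff n ≠ 0)
    (hsep : ∀ y ∈ E, IsSeparable ↥(IntermediateField.adjoin k {(x : LaurentSeries k)}) y)
    (g : ↥E) : Algebra.norm E'' g = e.symm ((frobE h)^[w] g) := by
  have : CharP E'' q := charP_of_equiv e
  have : IsPurelyInseparable E'' ↥E := isPurelyInseparable_of_FrW h e w he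
  apply (algebraMap E'' ↥E).injective
  rw [algebraMap_norm_of_isPurelyInseparable q g, finrank_of_FrW h e w he x hn hx hsep,
    pow_qw_eq_algebraMap h e w he]

include e he in
/-- **`ord_z (e (N_{E/E''} g)) = ord_{β^w z} g`**. -/
theorem ord_norm_of_FrW (x : ↥E) {n : ℤ} (hn : ¬ (q : ℤ) ∣ n)
    (hx : (x : LaurentSeries k).coeff n ≠ 0)
    (hsep : ∀ y ∈ E, IsSeparable ↥(IntermediateField.adjoin k {(x : LaurentSeries k)}) y)
    (z : Place k ↥E) (g : ↥E) :
    z.ord (e (Algebra.norm E'' g)) = ((beta h)^[w] z).ord g := by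
  rw [norm_of_FrW h e w he x hn hx hsep, e.apply_symm_apply, iterate_beta_ord]

include he in
/-- The structure map in terms of series: `a ↦ (e a)(t ^ (q ^ w))`. -/
theorem coe_algebraMap_of_FrW (a : E'') :
    ((algebraMap E'' ↥E a : ↥E) : LaurentSeries k)
      = qExpand k (q ^ w) ((e a : ↥E) : LaurentSeries k) := by
  rw [he, coe_iterate_FrE]

end TwistW

end Fermat.Agent.S45.NUE.H62
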