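import Fermat.Agent.S45.NUE.H23_TotE3
import Fermat.Agent.S45.NUE.H17_RedGen
import Fermat.Agent.S45.NUE.H57_IncompE
import Fermat.Agent.S45.NUE.H60_ArchE
import Fermat.Agent.S45.NUE.H62_FrW
attribute [local instance 10000] SubalgebraClass.toAlgebra
attribute [local instance 10000] HahnSeries.powerSeriesAlgebra

/-!
# S45 / NU_e, package E-TOT (helper23), part 4: the inputs and the UNCONDITIONAL datum

Level `N = M q^e`, `q ∤ M`, `M` tame at `q`, `e ≥ 1`.

* `inE_mod : InE …` from helper17 (`inclL0_mem_VE`, `sE_inclL0`, `exists_sE_eq`), helper57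
  (`not_le_VE`), helper60 (`isArch_VE`, `hliftE`);
* `sE_mem`, `rEM a`, **`nrEM`** (the modular `NRData`), **`totEM`** (the modular `TotN`),
  with the `rfl`-lemmas `totEM_V`, `totEM_red`, `totEM_m`, `totEM_rho`, `totEM_pt`.
-/

set_option autoImplicit false
set_option synthInstance.maxHeartbeats 400000
set_option maxHeartbeats 1000000
set_option linter.style.haveILetI false
set_option linter.unusedSectionVars false

noncomputable section

open ModularCurve AlgebraicCurve
open Fermat.Agent.S24 Fermat.Agent.BAD.H88 Fermat.Agent.S28 Fermat.Agent.S28.H73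
open Fermat.Agent.RED.H73 Fermat.Agent.RED.H17 Fermat.Agent.S36.NU.H88
open Fermat.Agent.S36.NU.H23

namespace Fermat.Agent.S45.NUE.H23

open Fermat.Agent.BAD Fermat.Agent.RED Fermat.Agent.S36.NU.H79

section TotE4

variable (A : ValuationSubring Kbar)
variable (N q M e : ℕ) (B k : ℤ) (hN : N = M * q ^ e) (hB : B * M + k * (q : ℤ) ^ e = 1)
  (hq : q.Prime) [NeZero N] [NeZero q] [NeZero M] (hqM : ¬ q ∣ M) (hA : A.LiesOverPrime q)
  (ht : H91.TameAt M q)

/-- `Fr^w y = y (t^(q^w))`. -/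
theorem coe_FrWM (w : ℕ) (y : FM A M) :
    haveI : NeZero (q ^ w) := ⟨pow_ne_zero _ (NeZero.ne q)⟩
    ((FrWM A q M hq hqM hA w y : FM A M) : LaurentSeries (kV A))
      = qExpand (kV A) (q ^ w) (y : LaurentSeries (kV A)) := by
  haveI : NeZero (q ^ w) := ⟨pow_ne_zero _ (NeZero.ne q)⟩
  unfold FrWM
  rw [@Fermat.Agent.S45.NUE.H42.FrW_apply (kV A) _ q ⟨hq⟩
    (Fermat.Agent.BAD.H82.charP_kV A hq hA)
    (@Fermat.Agent.BAD.H73.perfectRing_kV _ _ _ A q ⟨hq⟩
      (Fermat.Agent.BAD.H82.charP_kV A hq hA)) _ (frobStableE A q M hq hqM hA) w y]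
  exact @Fermat.Agent.S45.NUE.H62.coe_iterate_FrE (kV A) _ q ⟨hq⟩
    (Fermat.Agent.BAD.H82.charP_kV A hq hA)
    (@Fermat.Agent.BAD.H73.perfectRing_kV _ _ _ A q ⟨hq⟩
      (Fermat.Agent.BAD.H82.charP_kV A hq hA)) _ (frobStableE A q M hq hqM hA) w y

/-- **The modular inputs of E-TOT hold.** -/
theorem inE_mod : InE A N q M e B k hN hB hq hqM hA where
  hVE := fun a _ x hx =>
    Fermat.Agent.S45.NUE.H17.inclL0_mem_VE A N q M e B k hN hB hq (hleE N q M e hN) a x hx
  hcomp := fun a _ x h => by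
    rw [Fermat.Agent.S45.NUE.H17.sE_inclL0 A N q M e B k hN hB hq (hleE N q M e hN) a x h,
      coe_FrWM A q M hq hqM hA (wE e a) (rE A M x)]
    rfl
  hrange := fun a ha c => by
    haveI := neZero_Mqq q M
    refine Fermat.Agent.S45.NUE.H17.exists_sE_eq A N q M e B k hN hB hq hqM hA
      (hleE N q M e hN) a ha (c : LaurentSeries (kV A)) ?_
    rw [← FM_eq A q M hq hqM hA]
    exact c.2
  hincomp := fun a a' ha ha' h =>
    Fermat.Agent.S45.NUE.H57.not_le_VE A N q M e B k hN hB hq hA a a' ha ha' h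
  harch := fun a _ => Fermat.Agent.S45.NUE.H60.isArch_VE A N q M e B k hN hB hq hA a
  hlift := fun c => by
    obtain ⟨x, hx, hall⟩ := Fermat.Agent.S45.NUE.H60.hliftE A N q M e B k hN hB hq hA c
    exact ⟨x, hx, fun a _ => hall a⟩

include hqM hA in
/-- **RES_a**: the reductions at `V_a` of the inertia-fixed functions of level `M q^e` lie in
the function field of `X₀(M)` in characteristic `q`. -/
theorem sE_mem (he : 0 < e) (a : ℕ) (ha : a ≤ e) (x : ↥(VE A N q M e B k hN hB hq a)) :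
    sE A N q M e B k hN hB hq a x ∈ modularFunctionFieldFullC (kV A) M := by
  haveI := neZero_Mqq q M
  rw [← FM_eq A q M hq hqM hA]
  exact sE_memM A N q M e B k hN hB hq hqM hA (inE_mod A N q M e B k hN hB hq hqM hA) he a ha x

/-- The residue map of `VE a`, into the residue field of level `M`. -/
def rEM (he : 0 < e) (a : ℕ) (ha : a ≤ e) : ↥(VE A N q M e B k hN hB hq a) →+* FM A M :=
  rEa A N q M e B k hN hB hq hqM hA (inE_mod A N q M e B k hN hB hq hqM hA) he a ha

theorem coe_rEM (he : 0 < e) (a : ℕ) (ha : a ≤ e) (x : ↥(VE A N q M e B k hN hB hq a)) :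
    ((rEM A N q M e B k hN hB hq hqM hA he a ha x : FM A M) : LaurentSeries (kV A))
      = sE A N q M e B k hN hB hq a x := rfl

theorem rEM_surjective (he : 0 < e) (a : ℕ) (ha : a ≤ e) :
    Function.Surjective (rEM A N q M e B k hN hB hq hqM hA he a ha) :=
  rEa_surjective A N q M e B k hN hB hq hqM hA _ he a ha

theorem rEM_eq_zero_of_not_isUnit (he : 0 < e) (a : ℕ) (ha : a ≤ e)
    (x : ↥(VE A N q M e B k hN hB hq a)) (hx : ¬ IsUnit x) :
    rEM A N q M e B k hN hB hq hqM hA he a ha x = 0 :=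
  rEa_eq_zero_of_not_isUnit A N q M e B k hN hB hq hqM hA _ he a ha x hx

/-- **The modular `NRData`** of the `e + 1` valuations of level `M q^e`. -/
def nrEM (he : 0 < e) : @H42.NRData ↥(L0 A M) ↥(L0 A N) (FM A M) _ _ _
    (algL0 A (hleE N q M e hN)) (Fin (e + 1)) (kapE A M e) _ (algE A q M e hq hqM hA) :=
  nrE A N q M e B k hN hB hq hqM hA (inE_mod A N q M e B k hN hB hq hqM hA) he

/-- **E-TOT (unconditional)**: the conservation datum of the `e + 1` valuations `V_a` of the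
inertia-fixed functions of level `M q^e`. -/
def totEM (he : 0 < e) : @TotN Kbar ↥(L0 A N) (FN N) (kV A) (Fin (e + 1))
    (Place (kV A) (FM A M)) (kapE A M e) _ _ _ _ _ _ _ _ (algkE A M e) :=
  totE A N q M e B k hN hB hq hqM hA ht (inE_mod A N q M e B k hN hB hq hqM hA) he

theorem totEM_V (he : 0 < e) (i : Fin (e + 1)) :
    @TotN.V Kbar ↥(L0 A N) (FN N) (kV A) (Fin (e + 1))
      (Place (kV A) (FM A M)) (kapE A M e) _ _ _ _ _ _ _ _ (algkE A M e)
      (totEM A N q M e B k hN hB hq hqM hA ht he) i = VE A N q M e B k hN hB hq (i : ℕ) := rfl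

theorem totEM_red (he : 0 < e) (i : Fin (e + 1)) :
    @TotN.red Kbar ↥(L0 A N) (FN N) (kV A) (Fin (e + 1))
      (Place (kV A) (FM A M)) (kapE A M e) _ _ _ _ _ _ _ _ (algkE A M e)
      (totEM A N q M e B k hN hB hq hqM hA ht he) i
      = rEM A N q M e B k hN hB hq hqM hA he (i : ℕ) (Nat.lt_succ_iff.mp i.2) := rfl

theorem totEM_m (he : 0 < e) (i : Fin (e + 1)) :
    @TotN.m Kbar ↥(L0 A N) (FN N) (kV A) (Fin (e + 1))
      (Place (kV A) (FM A M)) (kapE A M e) _ _ _ _ _ _ _ _ (algkE A M e)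
      (totEM A N q M e B k hN hB hq hqM hA ht he) i = mE q e (i : ℕ) := rfl

theorem totEM_rho (he : 0 < e) :
    @TotN.ρ Kbar ↥(L0 A N) (FN N) (kV A) (Fin (e + 1))
      (Place (kV A) (FM A M)) (kapE A M e) _ _ _ _ _ _ _ _ (algkE A M e)
      (totEM A N q M e B k hN hB hq hqM hA ht he) = rhoE A N q M e hN hq hqM hA ht := rfl

theorem totEM_pt (he : 0 < e) :
    @TotN.pt Kbar ↥(L0 A N) (FN N) (kV A) (Fin (e + 1))
      (Place (kV A) (FM A M)) (kapE A M e) _ _ _ _ _ _ _ _ (algkE A M e)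
      (totEM A N q M e B k hN hB hq hqM hA ht he) = ptE A q M e hq hqM hA := rfl

end TotE4

end Fermat.Agent.S45.NUE.H23
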