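import Fermat.Agent.S45.NUE.H23_ValE
import Fermat.Agent.S36.NU.H65_Series

/-!
# S45 / NU_e, package E-FIN, leaf E-PT-SS / SS-POLE (helper66)

Level `N = M q^e`, `e ≥ 1`.  `x, y ∈ L0 A N` with expansions at `∞`
`x = u₀`, `y = u₀ (t ^ (q ^ e))`, `u₀ ∈ ℤ((t))`.  Then

  `d = q⁻¹ (x ^ (q ^ e) - y) ∈ V_e` (the Gauss valuation at `∞`)  and
  `s_e (d) = δ̄ ^ (q ^ (e - 1))`,  `δ = (u₀ ^ q - u₀ (t ^ q)) / q` (helper65's `kdel`).

SERIES level (Kronecker at level `q ^ e`):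

* `powE_sub_eq` : `u ^ (q ^ (e + 1)) - u (t ^ (q ^ (e + 1))) = q (δ (t ^ (q ^ e)) + q h)`;
* `kdelE q e u = (u ^ (q ^ e) - u (t ^ (q ^ e))) / q`, `kdelE_spec`,
  `coeffMap_kdelE : kdelE ≡ δ̄ ^ (q ^ (e - 1))` modulo `q`.

FUNCTION level:

* `dE A N q e x y`, `coe_dE`, `dE_mem_VE`, `sE_dE`, `mul_dE`.
-/

set_option autoImplicit false
set_option synthInstance.maxHeartbeats 400000
set_option maxHeartbeats 1000000
set_option linter.unusedSectionVars false
set_option linter.style.haveILetI false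

noncomputable section

namespace Fermat.Agent.S45.NUE.H66

open ModularCurve HahnSeries
open Fermat.Agent.S24 Fermat.Agent.BAD.H88
open Fermat.Agent.S28 Fermat.Agent.S28.H73 Fermat.Agent.RED.H73 Fermat.Agent.RED.H17
open Fermat.Agent.S36.NU Fermat.Agent.S36.NU.H88 Fermat.Agent.S36.NU.H23
open Fermat.Agent.S45.NUE.H23

/-! ## Series level -/

section Series

variable (q : ℕ) [NeZero q] [Fact q.Prime]

/-- `u (t ^ q) (t ^ (q ^ (e + 1))) = u (t ^ (q ^ (e + 2)))`. -/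
theorem qExpand_pow_succ {R : Type*} [CommRing R] (e : ℕ) (u : LaurentSeries R) :
    qExpand R (q ^ (e + 1)) (qExpand R q u) = qExpand R (q ^ (e + 2)) u := by
  rw [qExpand_qExpand]
  exact qExpand_congr (by ring) u

/-- **Kronecker at level `q ^ (e + 1)`**:
`u ^ (q ^ (e + 1)) - u (t ^ (q ^ (e + 1))) = q (δ (t ^ (q ^ e)) + q h)`. -/
theorem powE_sub_eq (u : LaurentSeries ℤ) (e : ℕ) :
    ∃ h : LaurentSeries ℤ, u ^ (q ^ (e + 1)) - qExpand ℤ (q ^ (e + 1)) u
      = ((q : ℕ) : LaurentSeries ℤ) *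
          (qExpand ℤ (q ^ e) (H65.kdel q u) + ((q : ℕ) : LaurentSeries ℤ) * h) := by
  induction e with
  | zero =>
    refine ⟨0, ?_⟩
    have h1 : qExpand ℤ (q ^ (0 + 1)) u = qExpand ℤ q u := qExpand_congr (by ring) u
    have h2 : qExpand ℤ (q ^ 0) (H65.kdel q u) = H65.kdel q u := by
      rw [qExpand_congr (pow_zero q) (H65.kdel q u), qExpand_one_apply]
    rw [h1, h2, mul_zero, add_zero, zero_add, pow_one, H65.kdel_spec]
  | succ e ih =>
    obtain ⟨h, hh⟩ := ih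
    have h1 : ((q : ℕ) : LaurentSeries ℤ) ∣ u ^ (q ^ (e + 1)) - qExpand ℤ (q ^ (e + 1)) u :=
      ⟨_, hh⟩
    obtain ⟨h', hh'⟩ := dvd_sub_pow_of_dvd_sub h1 1
    have h3 : qExpand ℤ (q ^ (e + 1)) u ^ q = qExpand ℤ (q ^ (e + 2)) u
        + ((q : ℕ) : LaurentSeries ℤ) * qExpand ℤ (q ^ (e + 1)) (H65.kdel q u) := by
      rw [← map_pow, H65.pow_eq q u, map_add, map_mul, map_natCast, qExpand_pow_succ]
    have h4 : u ^ (q ^ (e + 1 + 1)) = (u ^ (q ^ (e + 1))) ^ q ^ 1 := by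
      rw [pow_one, ← pow_mul, ← pow_succ]
    rw [pow_one] at hh'
    refine ⟨h', ?_⟩
    rw [h4, pow_one]
    linear_combination hh' + h3

/-- `(u ^ (q ^ e) - u (t ^ (q ^ e))) / q`. -/
def kdelE (e : ℕ) (u : LaurentSeries ℤ) : LaurentSeries ℤ :=
  H65.divQ q (u ^ (q ^ e) - qExpand ℤ (q ^ e) u)

theorem kdelE_spec (e : ℕ) (u : LaurentSeries ℤ) :
    ((q : ℕ) : LaurentSeries ℤ) * kdelE q e u = u ^ (q ^ e) - qExpand ℤ (q ^ e) u := by
  cases e with
  | zero =>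
    have h2 : qExpand ℤ (q ^ 0) u = u := by
      rw [qExpand_congr (pow_zero q) u, qExpand_one_apply]
    have h0 : kdelE q 0 u = 0 := by
      ext n
      rw [kdelE, H65.divQ_coeff, h2, pow_zero, pow_one, sub_self, HahnSeries.coeff_zero,
        Int.zero_ediv]
    rw [h0, mul_zero, h2, pow_zero, pow_one, sub_self]
  | succ e =>
    obtain ⟨h, hh⟩ := powE_sub_eq q u e
    refine H65.natCast_mul_divQ q _ fun n => ?_
    rw [hh, H65.natCast_mul_coeff]
    exact dvd_mul_right _ _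

/-- In characteristic `q`, for a series with coefficients in the prime field:
`x ^ (q ^ m) = x (t ^ (q ^ m))`. -/
theorem pow_pow_eq_qExpand_zmod (m : ℕ) (x : LaurentSeries (ZMod q)) :
    x ^ (q ^ m) = qExpand (ZMod q) (q ^ m) x := by
  induction m with
  | zero =>
    rw [qExpand_congr (pow_zero q) x, qExpand_one_apply, pow_zero, pow_one]
  | succ m ih =>
    calc x ^ q ^ (m + 1) = (x ^ q ^ m) ^ q := by rw [← pow_mul, pow_succ]
      _ = qExpand (ZMod q) q (x ^ q ^ m) := H65.pow_eq_qExpand_zmod q _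
      _ = qExpand (ZMod q) q (qExpand (ZMod q) (q ^ m) x) := by rw [ih]
      _ = qExpand (ZMod q) (q * q ^ m) x := qExpand_qExpand _ _ _
      _ = qExpand (ZMod q) (q ^ (m + 1)) x := qExpand_congr (by ring) x

/-- `(u ^ (q ^ (e + 1)) - u (t ^ (q ^ (e + 1)))) / q ≡ δ ^ (q ^ e)` modulo `q`. -/
theorem coeffMap_kdelE_succ (e : ℕ) (u : LaurentSeries ℤ) :
    coeffMap (Int.castRingHom (ZMod q)) (kdelE q (e + 1) u)
      = coeffMap (Int.castRingHom (ZMod q)) (H65.kdel q u) ^ (q ^ e) := by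
  obtain ⟨h, hh⟩ := powE_sub_eq q u e
  have e1 : kdelE q (e + 1) u
      = qExpand ℤ (q ^ e) (H65.kdel q u) + ((q : ℕ) : LaurentSeries ℤ) * h :=
    H65.natCast_mul_left_cancel_int q (by rw [kdelE_spec, hh])
  rw [e1, map_add, H65.coeffMap_natCast_mul, coeffMap_qExpand]
  have : ((q : ℕ) : LaurentSeries (ZMod q)) = 0 := by
    rw [← map_natCast (HahnSeries.C : ZMod q →+* LaurentSeries (ZMod q)) q, ZMod.natCast_self,
      map_zero]
  rw [this, zero_mul, add_zero, pow_pow_eq_qExpand_zmod]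

/-- `(u ^ (q ^ e) - u (t ^ (q ^ e))) / q ≡ δ ^ (q ^ (e - 1))` modulo `q`, `e ≥ 1`. -/
theorem coeffMap_kdelE (e : ℕ) (he : 1 ≤ e) (u : LaurentSeries ℤ) :
    coeffMap (Int.castRingHom (ZMod q)) (kdelE q e u)
      = coeffMap (Int.castRingHom (ZMod q)) (H65.kdel q u) ^ (q ^ (e - 1)) := by
  obtain ⟨e', rfl⟩ : ∃ e', e = e' + 1 := ⟨e - 1, by omega⟩
  rw [coeffMap_kdelE_succ, Nat.add_sub_cancel]

/-- The same over any residue ring of characteristic `q`. -/
theorem coeffMap_kdelE_kV {C : Type} [Field C] (O : ValuationSubring C) [CharP (kV O) q]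
    (e : ℕ) (he : 1 ≤ e) (u : LaurentSeries ℤ) :
    coeffMap (Int.castRingHom (kV O)) (kdelE q e u)
      = coeffMap (Int.castRingHom (kV O)) (H65.kdel q u) ^ (q ^ (e - 1)) := by
  rw [H65.coeffMap_kV_eq O q (kdelE q e u), coeffMap_kdelE q e he, map_pow,
    ← H65.coeffMap_kV_eq O q]

/-- The image in `C((t))`: `q · kdelE = u ^ (q ^ e) - u (t ^ (q ^ e))`. -/
theorem intSer_kdelE (C : Type) [Field C] (e : ℕ) (u : LaurentSeries ℤ) :
    ((q : ℕ) : LaurentSeries C) * H65.intSer C (kdelE q e u)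
      = H65.intSer C u ^ (q ^ e) - qExpand C (q ^ e) (H65.intSer C u) := by
  have h := congrArg (coeffMap (Int.castRingHom C)) (kdelE_spec q e u)
  rw [H65.coeffMap_natCast_mul, map_sub, map_pow, coeffMap_qExpand] at h
  exact h

end Series

/-! ## Function level -/

section Fun

variable (A : ValuationSubring Kbar)
variable (N q M e : ℕ) (B k : ℤ) (hN : N = M * q ^ e) (hB : B * M + k * (q : ℤ) ^ e = 1)
  (hq : q.Prime) [NeZero N] [NeZero q]

/-- `d = q⁻¹ (x ^ (q ^ e) - y)`. -/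
def dE (x y : ↥(L0 A N)) : ↥(L0 A N) :=
  (((q : ℕ) : ↥(L0 A N)))⁻¹ * (x ^ (q ^ e) - y)

/-- The expansion at `∞`, as a ring homomorphism on `L0 A N`. -/
def expL0 : ↥(L0 A N) →+* LaurentSeries Kbar :=
  ((modularFunctionFieldBar N).val : FN N →+* LaurentSeries Kbar).comp (L0 A N).subtype

theorem expL0_apply (x : ↥(L0 A N)) :
    expL0 A N x = ((x : FN N) : LaurentSeries Kbar) := rfl

include hq in
theorem natCast_ne_zero_ser : ((q : ℕ) : LaurentSeries Kbar) ≠ 0 := by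
  have h : ((q : ℕ) : LaurentSeries Kbar) = HahnSeries.C ((q : ℕ) : Kbar) :=
    (map_natCast (HahnSeries.C : Kbar →+* LaurentSeries Kbar) q).symm
  rw [h]
  intro h0
  have h1 : ((q : ℕ) : Kbar) = 0 :=
    HahnSeries.C_injective (h0.trans (map_zero _).symm)
  exact hq.ne_zero (by exact_mod_cast h1)

include hq in
/-- `q d = x ^ (q ^ e) - y`. -/
theorem mul_dE (x y : ↥(L0 A N)) :
    ((q : ℕ) : ↥(L0 A N)) * dE A N q e x y = x ^ (q ^ e) - y := by
  have hq0 : ((q : ℕ) : ↥(L0 A N)) ≠ 0 := by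
    intro h0
    apply natCast_ne_zero_ser q hq
    have := congrArg (expL0 A N) h0
    rwa [map_natCast, map_zero] at this
  rw [dE, ← mul_assoc, mul_inv_cancel₀ hq0, one_mul]

include hq in
/-- The expansion of `d` at `∞` is `kdelE q e u₀`. -/
theorem coe_dE (u₀ : LaurentSeries ℤ) (x y : ↥(L0 A N))
    (hx : ((x : FN N) : LaurentSeries Kbar) = H65.intSer Kbar u₀)
    (hy : ((y : FN N) : LaurentSeries Kbar)
      = H65.intSer Kbar (qExpand ℤ (q ^ e) u₀)) :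
    (((dE A N q e x y : ↥(L0 A N)) : FN N) : LaurentSeries Kbar)
      = H65.intSer Kbar (kdelE q e u₀) := by
  haveI : Fact q.Prime := ⟨hq⟩
  have h1 := congrArg (expL0 A N) (mul_dE A N q e hq x y)
  rw [map_mul, map_natCast, map_sub, map_pow, expL0_apply, expL0_apply, expL0_apply, hx, hy,
    H65.intSer_qExpand, ← intSer_kdelE q Kbar e u₀] at h1
  exact mul_left_cancel₀ (natCast_ne_zero_ser q hq) h1

include hq in
/-- **SS-POLE, integrality**: `d ∈ V_e`. -/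
theorem dE_mem_VE (u₀ : LaurentSeries ℤ) (x y : ↥(L0 A N))
    (hx : ((x : FN N) : LaurentSeries Kbar) = H65.intSer Kbar u₀)
    (hy : ((y : FN N) : LaurentSeries Kbar)
      = H65.intSer Kbar (qExpand ℤ (q ^ e) u₀)) :
    dE A N q e x y ∈ VE A N q M e B k hN hB hq e := by
  rw [mem_VE_top_iff, coe_dE A N q e hq u₀ x y hx hy]
  exact H65.intSer_mem A _

include hq in
/-- **SS-POLE, the reduction**: `s_e (d) = δ̄ ^ (q ^ (e - 1))`. -/
theorem sE_dE (hA : (q : Kbar) ∈ A.nonunits) (he : 1 ≤ e) (u₀ : LaurentSeries ℤ)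
    (x y : ↥(L0 A N))
    (hx : ((x : FN N) : LaurentSeries Kbar) = H65.intSer Kbar u₀)
    (hy : ((y : FN N) : LaurentSeries Kbar)
      = H65.intSer Kbar (qExpand ℤ (q ^ e) u₀)) :
    sE A N q M e B k hN hB hq e
        ⟨dE A N q e x y, dE_mem_VE A N q M e B k hN hB hq u₀ x y hx hy⟩
      = coeffMap (Int.castRingHom (kV A)) (H65.kdel q u₀) ^ (q ^ (e - 1)) := by
  haveI : Fact q.Prime := ⟨hq⟩
  haveI : CharP (kV A) q := Fermat.Agent.BAD.H82.charP_kV A hq hA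
  rw [Fermat.Agent.S45.NUE.H23.sE_mk]
  have h1 : cE N q M e B k hN hB hq e ((dE A N q e x y : ↥(L0 A N)) : FN N)
      = H65.intSer Kbar (kdelE q e u₀) := by
    rw [cE_top, coe_dE A N q e hq u₀ x y hx hy]
  have h2 : (⟨cE N q M e B k hN hB hq e ((dE A N q e x y : ↥(L0 A N)) : FN N),
        dE_mem_VE A N q M e B k hN hB hq u₀ x y hx hy⟩ : gaussRingV A)
      = ⟨H65.intSer Kbar (kdelE q e u₀), H65.intSer_mem A _⟩ := Subtype.ext h1
  rw [h2, H65.gaussRedV_intSer A _ (H65.intSer_mem A _), coeffMap_kdelE_kV q A e he]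

end Fun

end Fermat.Agent.S45.NUE.H66
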