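import Fermat.Agent.S36.NU.H88_ChartMod
import Fermat.Agent.S36.NU.H74_InstA
import Fermat.Agent.S36.NU.H74_FinHyps
import Fermat.Agent.S36.NU.H15_InstB

/-!
# S45 / NU_e, package E-CHART (helper74): the two charts over ANY conservation datum

Setting: `N` ANY level, `A` a valuation ring of `ℚ̄`, `R = Rur A`, `F = L0 A N` (the
inertia-fixed functions), `k = kV A`, `j = j0 A N`, and `T : TotN ℚ̄ (L0 A N) (F_N) k ι Z κ` ANY
conservation datum on `L0 A N` (modular: the `e + 2` valuations `VE a` of level `M' q^(e+1)`,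
E-TOT of helper23).  Everything below is generic in `T`, so that E-PT, E-RADQ, branches can be
written against `chart0E` / `chartInfE` before the modular `T` exists.

* `ChartInE A N T` : THE INPUT (a `Prop`): `resRur` surjective, constants of `R` lie in every
  `T.V i` with reduction `resRur`, and `j` is a unit for every valuation (`T.rdN i j ≠ 0`);
* `chart0E A N T h`, `chartInfE A N T h` : the charts `B = intSub R j`, `B = intSub R j⁻¹`
  (`chart0E_B`, `chartInfE_B`, `chart0E_V`, `chart0E_rd`, ... all by `rfl` / `chartOf_rd`);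
* `compat_chart0E`, `compat_chartInfE` : `H24.Compat` with `T`;
* `isNoetherianRing_chart0E`, `isFractionRing_chart0E`, `..._chartInfE`;
* `SepPattern T q x y m` : the reductions of `x`, `y` on the component `i` are
  `(g, g ^ q ^ m i)` (`0 ≤ m i`) resp. `(g ^ q ^ (-m i), g)` (`m i < 0`), `m` injective, and `g` is
  not fixed by a positive power of Frobenius (modular: `x = j(τ)`, `y = j(q^(e+1) τ)`,
  `m a = 2 a - (e + 1)`);
* `hinc_of_sepPattern` : the separating elements of the chart of `j`;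
* `chartHyp_chart0E`, `chartHyp_chartInfE` : `H24.ChartHyp` from separating elements;
  `chartHyp_chart0E_of_sep`, `chartHyp_chartInfE_of_sep` : from a `SepPattern`;
* `inChart0E_of_regAt` : `H24.InChart` at a point over which `j` is regular;
* `IsUnitT`, `rdN_ne_zero_of_isUnitT` : the bridge `hunit`.
-/

set_option autoImplicit false
set_option synthInstance.maxHeartbeats 400000
set_option maxHeartbeats 1000000
set_option linter.style.haveILetI false
set_option linter.unusedSectionVars false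

noncomputable section

open ModularCurve AlgebraicCurve IntermediateField

namespace Fermat.Agent.S45.NUE.H74

open Fermat.Agent.S24 Fermat.Agent.BAD.H88 Fermat.Agent.S28 Fermat.Agent.S28.H73
  Fermat.Agent.S36.NU.H88 Fermat.Agent.S36.NU.H23
  Fermat.Agent.S36.NU.H16 Fermat.Agent.S36.NU.H24 Fermat.Agent.S36.NU.H65
  Fermat.Agent.S36.NU.H41 Fermat.Agent.S36.NU.H17 Fermat.Agent.S36.NU.H79
  Fermat.Agent.RED.H73 Fermat.Agent.RED.H17

/-! ## Separating elements from a Frobenius pattern (abstract) -/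

section Sep

variable {R K F L k ι Z : Type*} {κ : ι → Type*} [CommRing R] [Field K] [Field F] [Field L]
  [Algebra K L] [Algebra F L] [Algebra R F] [Field k] [Fintype ι] [∀ i, Field (κ i)]
  [∀ i, Algebra k (κ i)]

/-- **Frobenius pattern** of two functions `x`, `y` on the components of a conservation datum:
on the component `i` the reductions are `(g, g ^ q ^ m i)` if `0 ≤ m i` and
`(g ^ q ^ (-m i), g)` if `m i < 0`, with `g` not fixed by any positive power of Frobenius. -/
structure SepPattern (T : TotN K F L k ι Z κ) (q : ℕ) (x y : F) (m : ι → ℤ) : Prop where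
  inj : Function.Injective m
  x_mem : ∀ i, x ∈ T.V i
  y_mem : ∀ i, y ∈ T.V i
  pos : ∀ i, 0 ≤ m i → T.rdN i y = T.rdN i x ^ q ^ (m i).toNat
  neg : ∀ i, m i < 0 → T.rdN i x = T.rdN i y ^ q ^ (-m i).toNat
  gen_pos : ∀ i, 0 ≤ m i → ∀ s : ℕ, 0 < s → T.rdN i x ^ q ^ s ≠ T.rdN i x
  gen_neg : ∀ i, m i < 0 → ∀ s : ℕ, 0 < s → T.rdN i y ^ q ^ s ≠ T.rdN i y

/-- In characteristic `q`: `g ^ q ^ s ≠ g ^ q ^ t` for `s ≠ t` if `g` is not fixed by a positive
power of Frobenius. -/
theorem pow_ne_pow_of_gen {E : Type*} [Field E] (q : ℕ) [hq : Fact q.Prime] [CharP E q] (g : E)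
    (hg : ∀ s : ℕ, 0 < s → g ^ q ^ s ≠ g) {s t : ℕ} (hst : s ≠ t) :
    g ^ q ^ s ≠ g ^ q ^ t := by
  have key : ∀ a b : ℕ, 0 < b → g ^ q ^ a ≠ g ^ q ^ (a + b) := by
    intro a b hb h
    apply hg b hb
    have h1 : (g ^ q ^ b) ^ q ^ a = g ^ q ^ a := by
      rw [← pow_mul, ← pow_add, add_comm b a]
      exact h.symm
    have h2 : (iterateFrobenius E q a) (g ^ q ^ b) = (iterateFrobenius E q a) g := by
      rw [iterateFrobenius_def, iterateFrobenius_def]
      exact h1
    exact (iterateFrobenius E q a).injective h2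
  rcases Nat.lt_or_gt_of_ne hst with h | h
  · obtain ⟨b, rfl⟩ := Nat.exists_eq_add_of_lt h
    exact key s (b + 1) (Nat.succ_pos b)
  · obtain ⟨b, rfl⟩ := Nat.exists_eq_add_of_lt h
    exact (key t (b + 1) (Nat.succ_pos b)).symm

/-- **The separating elements** of the chart of `j` from a Frobenius pattern of two functions
integral over `R[j]`. -/
theorem hinc_of_sepPattern (T : TotN K F L k ι Z κ) (q : ℕ) (hq : q.Prime)
    (hchar : ∀ i, CharP (κ i) q) (j x y : F) (m : ι → ℤ) (hS : SepPattern T q x y m)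
    (hx : x ∈ intSub R j) (hy : y ∈ intSub R j) :
    ∀ i i' : ι, i ≠ i' → ∃ τ : F, τ ∈ intSub R j ∧ T.rdN i' τ = 0 ∧ T.rdN i τ ≠ 0 := by
  haveI : Fact q.Prime := ⟨hq⟩
  intro i i' hii
  haveI := hchar i
  have hm : m i ≠ m i' := fun h => hii (hS.inj h)
  have hsub1 : ∀ (i₁ : ι) (e : ℕ), T.rdN i₁ (y - x ^ q ^ e) = T.rdN i₁ y - T.rdN i₁ x ^ q ^ e := by
    intro i₁ e
    rw [T.rdN_sub (hS.y_mem i₁) ((T.V i₁).pow_mem (hS.x_mem i₁) _), T.rdN_pow (hS.x_mem i₁)]
  have hsub2 : ∀ (i₁ : ι) (e : ℕ), T.rdN i₁ (x - y ^ q ^ e) = T.rdN i₁ x - T.rdN i₁ y ^ q ^ e := by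
    intro i₁ e
    rw [T.rdN_sub (hS.x_mem i₁) ((T.V i₁).pow_mem (hS.y_mem i₁) _), T.rdN_pow (hS.y_mem i₁)]
  rcases le_or_gt 0 (m i') with h' | h'
  · -- `τ = y - x ^ q ^ m i'`
    refine ⟨y - x ^ q ^ (m i').toNat, sub_mem hy (pow_mem hx _), ?_, ?_⟩
    · rw [hsub1, hS.pos i' h', sub_self]
    · rw [hsub1]
      rcases le_or_gt 0 (m i) with h | h
      · rw [hS.pos i h]
        refine sub_ne_zero.2 (pow_ne_pow_of_gen q _ (hS.gen_pos i h) ?_)
        intro e
        apply hm
        rw [← Int.toNat_of_nonneg h, ← Int.toNat_of_nonneg h', e]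
      · rw [hS.neg i h, ← pow_mul, ← pow_add]
        refine sub_ne_zero.2 (Ne.symm (hS.gen_neg i h _ ?_))
        have : 0 < (-m i).toNat := by
          rw [Int.lt_toNat]
          simpa using h
        omega
  · -- `τ = x - y ^ q ^ (-m i')`
    refine ⟨x - y ^ q ^ (-m i').toNat, sub_mem hx (pow_mem hy _), ?_, ?_⟩
    · rw [hsub2, ← hS.neg i' h', sub_self]
    · rw [hsub2]
      have hpos' : 0 < (-m i').toNat := by
        rw [Int.lt_toNat]
        simpa using h'
      rcases le_or_gt 0 (m i) with h | h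
      · rw [hS.pos i h, ← pow_mul, ← pow_add]
        refine sub_ne_zero.2 (Ne.symm (hS.gen_pos i h _ ?_))
        omega
      · rw [hS.neg i h]
        refine sub_ne_zero.2 (pow_ne_pow_of_gen q _ (hS.gen_neg i h) ?_)
        intro e
        apply hm
        have h1 : ((-m i).toNat : ℤ) = -m i := Int.toNat_of_nonneg (by omega)
        have h2 : ((-m i').toNat : ℤ) = -m i' := Int.toNat_of_nonneg (by omega)
        have h3 : ((-m i).toNat : ℤ) = ((-m i').toNat : ℤ) := by rw [e]
        omega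

end Sep

/-! ## The two charts over a conservation datum on `L0 A N` -/

section Charts

variable (A : ValuationSubring Kbar) (N : ℕ) [NeZero N]
  {ι Z : Type*} {κ : ι → Type*} [Fintype ι] [∀ i, Field (κ i)] [∀ i, Algebra (kV A) (κ i)]
  (T : TotN Kbar ↥(L0 A N) (FN N) (kV A) ι Z κ)

/-- **The input of the two charts**: constants of `Rur A` are integral for all valuations of `T`
with reduction `resRur`, and `j` is a unit for all valuations. -/
structure ChartInE : Prop where
  res_surj : Function.Surjective (resRur A)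
  const_mem : ∀ (i : ι) (r : ↥(Rur A)), algebraMap ↥(Rur A) ↥(L0 A N) r ∈ T.V i
  red_const : ∀ (i : ι) (r : ↥(Rur A)) (hr : algebraMap ↥(Rur A) ↥(L0 A N) r ∈ T.V i),
    T.red i ⟨algebraMap ↥(Rur A) ↥(L0 A N) r, hr⟩ = algebraMap (kV A) (κ i) (resRur A r)
  j_unit : ∀ i : ι, T.rdN i (j0 A N) ≠ 0

variable {A N T}

theorem ChartInE.j_mem (h : ChartInE A N T) (i : ι) : j0 A N ∈ T.V i :=
  T.mem_of_rdN_ne_zero (h.j_unit i)

theorem ChartInE.inv_mem (h : ChartInE A N T) (i : ι) : (j0 A N)⁻¹ ∈ T.V i :=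
  T.inv_mem_of_rdN_ne_zero (h.j_unit i)

/-- The input of `chartOf` for `j`. -/
theorem ChartInE.input0 (h : ChartInE A N T) : ChartInput T (j0 A N) (resRur A) where
  res_surj := h.res_surj
  const_mem := h.const_mem
  j_mem := h.j_mem
  red_const := h.red_const

/-- The input of `chartOf` for `j⁻¹`. -/
theorem ChartInE.inputInf (h : ChartInE A N T) : ChartInput T (j0 A N)⁻¹ (resRur A) :=
  ChartInput.inv T (j0 A N) (resRur A) h.input0 h.j_unit

variable (A N T)

/-- **The chart of `j`**: `B = ` the integral closure of `R[j]` in `L0 A N`. -/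
def chart0E (h : ChartInE A N T) : Chart ↥(Rur A) ↥(L0 A N) (kV A) ι κ :=
  chartOf T (j0 A N) (resRur A) h.input0

/-- **The chart of `j⁻¹`**: `B = ` the integral closure of `R[j⁻¹]` in `L0 A N`. -/
def chartInfE (h : ChartInE A N T) : Chart ↥(Rur A) ↥(L0 A N) (kV A) ι κ :=
  chartOf T (j0 A N)⁻¹ (resRur A) h.inputInf

variable (h : ChartInE A N T)

theorem chart0E_B : (chart0E A N T h).B = intSub ↥(Rur A) (j0 A N) := rfl

theorem chartInfE_B : (chartInfE A N T h).B = intSub ↥(Rur A) (j0 A N)⁻¹ := rfl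

theorem chart0E_V (i : ι) : (chart0E A N T h).V i = T.V i := rfl

theorem chartInfE_V (i : ι) : (chartInfE A N T h).V i = T.V i := rfl

theorem chart0E_red (i : ι) : (chart0E A N T h).red i = T.red i := rfl

theorem chartInfE_red (i : ι) : (chartInfE A N T h).red i = T.red i := rfl

theorem chart0E_res : (chart0E A N T h).res = resRur A := rfl

theorem chartInfE_res : (chartInfE A N T h).res = resRur A := rfl

theorem chart0E_rd (i : ι) (x : ↥(L0 A N)) : (chart0E A N T h).rd i x = T.rdN i x :=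
  chartOf_rd T (j0 A N) (resRur A) h.input0 i x

theorem chartInfE_rd (i : ι) (x : ↥(L0 A N)) : (chartInfE A N T h).rd i x = T.rdN i x :=
  chartOf_rd T (j0 A N)⁻¹ (resRur A) h.inputInf i x

/-- The two charts have the same components. -/
theorem chart0E_V_eq (i : ι) : (chart0E A N T h).V i = (chartInfE A N T h).V i := rfl

theorem chart0E_rd_eq (i : ι) (x : ↥(L0 A N)) :
    (chart0E A N T h).rd i x = (chartInfE A N T h).rd i x := by
  rw [chart0E_rd, chartInfE_rd]

theorem j0_mem_chart0E : j0 A N ∈ (chart0E A N T h).B := self_mem_intSub _ _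

theorem inv_j0_mem_chartInfE : (j0 A N)⁻¹ ∈ (chartInfE A N T h).B := self_mem_intSub _ _

/-- **`Compat`** of the chart of `j` with `T`. -/
theorem compat_chart0E : Compat (chart0E A N T h) T :=
  compat_chartOf T (j0 A N) (resRur A) h.input0

/-- **`Compat`** of the chart of `j⁻¹` with `T`. -/
theorem compat_chartInfE : Compat (chartInfE A N T h) T :=
  compat_chartOf T (j0 A N)⁻¹ (resRur A) h.inputInf

/-! ### Noetherianity and fraction fields -/

theorem isNoetherianRing_chart0E (q : ℕ) (hq : q.Prime) (hA : A.LiesOverPrime q) :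
    IsNoetherianRing ↥(chart0E A N T h).B :=
  Fermat.Agent.S36.NU.H74.isNoetherianRing_B0 A q hq hA N

theorem isFractionRing_chart0E : IsFractionRing ↥(chart0E A N T h).B ↥(L0 A N) :=
  Fermat.Agent.S36.NU.H74.isFractionRing_B0 A N

theorem isNoetherianRing_chartInfE (q : ℕ) (hq : q.Prime) (hA : A.LiesOverPrime q) :
    IsNoetherianRing ↥(chartInfE A N T h).B :=
  Fermat.Agent.S36.NU.H74.isNoetherianRing_Boo A q hq hA N

theorem isFractionRing_chartInfE : IsFractionRing ↥(chartInfE A N T h).B ↥(L0 A N) :=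
  Fermat.Agent.S36.NU.H74.isFractionRing_Boo A N

/-! ### `ChartHyp` -/

/-- **`ChartHyp` for the chart of `j`** from separating elements. -/
theorem chartHyp_chart0E (q n : ℕ) (hq : q.Prime) (hchar : ∀ i, CharP (κ i) q) (hn : 0 < n)
    (hcop : Nat.Coprime n q)
    (hinc : ∀ i i' : ι, i ≠ i' → ∃ τ : ↥(L0 A N), τ ∈ intSub ↥(Rur A) (j0 A N) ∧
      T.rdN i' τ = 0 ∧ T.rdN i τ ≠ 0) :
    ChartHyp (chart0E A N T h) q n :=
  chartHyp_chartOf T (j0 A N) (resRur A) h.input0 q n hq hchar hn hcop hinc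

/-- **`ChartHyp` for the chart of `j⁻¹`** from separating elements of the chart of `j`. -/
theorem chartHyp_chartInfE (q n : ℕ) (hq : q.Prime) (hchar : ∀ i, CharP (κ i) q) (hn : 0 < n)
    (hcop : Nat.Coprime n q)
    (hinc : ∀ i i' : ι, i ≠ i' → ∃ τ : ↥(L0 A N), τ ∈ intSub ↥(Rur A) (j0 A N) ∧
      T.rdN i' τ = 0 ∧ T.rdN i τ ≠ 0) :
    ChartHyp (chartInfE A N T h) q n :=
  chartHyp_chartOf T (j0 A N)⁻¹ (resRur A) h.inputInf q n hq hchar hn hcop
    (hinc_inv T (j0 A N) (resRur A) h.input0 h.j_unit hinc)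

/-- **`ChartHyp` for the chart of `j`** from a Frobenius pattern of `j` and `y` (modular:
`y = j(q^(e+1) τ)`), `y` integral over `R[j]`. -/
theorem chartHyp_chart0E_of_sep (q n : ℕ) (hq : q.Prime) (hchar : ∀ i, CharP (κ i) q)
    (hn : 0 < n) (hcop : Nat.Coprime n q) (y : ↥(L0 A N)) (m : ι → ℤ)
    (hS : SepPattern T q (j0 A N) y m) (hy : y ∈ intSub ↥(Rur A) (j0 A N)) :
    ChartHyp (chart0E A N T h) q n :=
  chartHyp_chart0E A N T h q n hq hchar hn hcop
    (hinc_of_sepPattern T q hq hchar (j0 A N) (j0 A N) y m hS (self_mem_intSub _ _) hy)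

/-- **`ChartHyp` for the chart of `j⁻¹`** from a Frobenius pattern of `j` and `y`. -/
theorem chartHyp_chartInfE_of_sep (q n : ℕ) (hq : q.Prime) (hchar : ∀ i, CharP (κ i) q)
    (hn : 0 < n) (hcop : Nat.Coprime n q) (y : ↥(L0 A N)) (m : ι → ℤ)
    (hS : SepPattern T q (j0 A N) y m) (hy : y ∈ intSub ↥(Rur A) (j0 A N)) :
    ChartHyp (chartInfE A N T h) q n :=
  chartHyp_chartInfE A N T h q n hq hchar hn hcop
    (hinc_of_sepPattern T q hq hchar (j0 A N) (j0 A N) y m hS (self_mem_intSub _ _) hy)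

/-! ### Points of the chart of `j` -/

/-- **`InChart`**: a point `z` over which `j` is regular is a point of the chart of `j`. -/
theorem inChart0E_of_regAt (z : Z)
    (hj : ∀ P : Place Kbar (FN N), T.ρ P = z →
      RegAt P (algebraMap ↥(L0 A N) (FN N) (j0 A N))) :
    InChart (chart0E A N T h) T z := by
  refine Fermat.Agent.S36.NU.H74.inChart_of_regAt (chart0E A N T h) T (j0 A N)
    (chart0E_B A N T h) z ?_ hj
  intro r P _
  rw [regAt_iff_mem]
  exact P.algebraMap_mem' _

/-! ### Units -/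

/-- `f` is a unit for all valuations of `T`. -/
def IsUnitT (f : ↥(L0 A N)) : Prop := ∀ i, f ∈ T.V i ∧ f⁻¹ ∈ T.V i

/-- **The bridge `hunit`**: a unit for all valuations has non-zero reductions. -/
theorem rdN_ne_zero_of_isUnitT (f : ↥(L0 A N)) (hf0 : f ≠ 0) (hf : IsUnitT A N T f) (i : ι) :
    T.rdN i f ≠ 0 :=
  Fermat.Agent.S36.NU.H15.rdN_ne_zero_of_mem T hf0 (hf i).1 (hf i).2

theorem isUnitT_of_rdN_ne_zero (f : ↥(L0 A N)) (hf : ∀ i, T.rdN i f ≠ 0) : IsUnitT A N T f :=
  fun i => ⟨T.mem_of_rdN_ne_zero (hf i), T.inv_mem_of_rdN_ne_zero (hf i)⟩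

end Charts

end Fermat.Agent.S45.NUE.H74
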