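import Fermat.Agent.S45.NUE.H16_HssE
import Fermat.Agent.S45.NUE.H16_CoordFive
import Fermat.Agent.S45.NUE.H23_TotE4
import Fermat.Agent.S45.NUE.H66_SSPole
import Fermat.Agent.S45.NUE.H12_SSInt
import Fermat.Agent.S45.NUE.H12_SSFun
import Fermat.Agent.S45.NUE.H74_ChartDefs

/-!
# S45 / NU_e, package E-FIN, leaf E-PT-SS, SS-ASM (helper16): the instance on `totEM`

Level `N = M q^e`, `q ∤ M`, `e ≥ 1`, `T = H23.totEM` (helper23), `C` ANY chart compatible with `T`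
with `B = ` the integral closure of `R[j]` (helper74's `chart0E`), `i₀ = Fin.last e` the component
of the cusp `∞`.

* `RamE` : the leaf SS-RAM (a `Prop`, in the shape of `NOTES/plan/S45_EPTSS.md`);
* `embE`, `totEM_pt_last` : the residue field and the point of the component `∞`;
* `hssE_tot_at_xy` : **SS-ASM at one point**, generic in the coordinates `x`, `y`;
* `hssE_tot_at` : **SS-ASM at one point**, generic in the coordinate pack
  `(f, u₀, hf, d, hd, n, hn, hfn)` and in the pole data `(c, u, δ)` at `z`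
  (SS-FUN = helper12's `ss_fun`, SS-INT = helper12's `ss_int`, SS-POLE = helper66's `sE_dE`);
* `hssE_tot` : **the hypothesis `hss` of `H88.pointDataE_of_dichotomy`** (`SS = ssM A q M`),
  generic in the coordinate pack, from `hpole : ∀ z ∈ ssM A q M, ∃ c u δ, …`;
* `hssE_five` : the case `q ≥ 5`, `4 ∣ M` (`f = Δ(t)/Δ(t⁴)`);
* `hssE_five_chart0E` : the same on helper74's `chart0E`.
-/

set_option autoImplicit false
set_option synthInstance.maxHeartbeats 400000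
set_option maxHeartbeats 1000000
set_option linter.unusedSectionVars false
set_option linter.unusedVariables false
set_option linter.style.haveILetI false

noncomputable section

namespace Fermat.Agent.S45.NUE.H16

open Fermat.Agent.S24 Fermat.Agent.BAD.H88 ModularCurve AlgebraicCurve Polynomial
open Fermat.Agent.S28 Fermat.Agent.S28.H73 Fermat.Agent.RED.H73 Fermat.Agent.RED.H17
open Fermat.Agent.S36.NU.H88 Fermat.Agent.S36.NU.H23 Fermat.Agent.S36.NU.H41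
open Fermat.Agent.S36.NU.H65 Fermat.Agent.S36.NU.H16 Fermat.Agent.S36.NU.H24
open Fermat.Agent.S36.NU.H79 Fermat.Agent.S36.NU.H74 Fermat.Agent.S36.NU Fermat.Agent.BAD
open Fermat.Agent.S45.NUE.H23 Fermat.Agent.S45.NUE.H68

section Fun

variable (A : ValuationSubring Kbar)
variable (N q M e : ℕ) (B k : ℤ) (hN : N = M * q ^ e) (hB : B * M + k * (q : ℤ) ^ e = 1)
  (hq : q.Prime) [NeZero N] [NeZero q] [NeZero M]
variable (u₀ : LaurentSeries ℤ)

/-- **The leaf SS-RAM** for the expansion `u₀`: on the component `n < e` the local equation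
`tE n` is, up to a unit, a uniformiser of multiplicity `φ(q^min(n, e - n))`. -/
def RamE : Prop :=
  ∀ x y : ↥(L0 A N), ((x : FN N) : LaurentSeries Kbar) = intSer Kbar u₀ →
    ((y : FN N) : LaurentSeries Kbar) = intSer Kbar (qExpand ℤ (q ^ e) u₀) →
    ∀ n, n < e → ∃ f' ∈ VE A N q M e B k hN hB hq n,
      (tE q e n x y) ^ Nat.totient (q ^ min n (e - n)) = ((q : ℕ) : ↥(L0 A N)) * f'

end Fun

section Tot

variable (A : ValuationSubring Kbar)
variable (N q M e : ℕ) (B k : ℤ) (hN : N = M * q ^ e) (hB : B * M + k * (q : ℤ) ^ e = 1)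
  (hq : q.Prime) [NeZero N] [NeZero q] [NeZero M] (hqM : ¬ q ∣ M) (hA : A.LiesOverPrime q)
  (ht : H91.TameAt M q)

attribute [local instance] algkE

/-- The residue fields of `totEM` as subfields of `k((t))`. -/
def embE (i : Fin (e + 1)) : kapE A M e i →+* LaurentSeries (kV A) :=
  (redField A (modularFunctionFieldBar M) (hScM A M)).val.toRingHom

theorem embE_apply (i : Fin (e + 1)) (w : FM A M) :
    embE A M e i w = (w : LaurentSeries (kV A)) := rfl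

/-- The point of the component of the cusp `∞` over `z` is `z`. -/
theorem totEM_pt_last (he : 0 < e) (z : Place (kV A) (FM A M)) :
    (totEM A N q M e B k hN hB hq hqM hA ht he).pt (Fin.last e) z = z := by
  show ptE A q M e hq hqM hA (Fin.last e) z = z
  rw [ptE_apply]
  have h0 : wE e ((Fin.last e : Fin (e + 1)) : ℕ) = 0 := by
    rw [Fin.val_last, wE]
    omega
  rw [h0]
  rfl

/-- **SS-ASM at one point on `totEM`**, generic in the coordinates `x`, `y` and in the pole data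
at `z`. -/
theorem hssE_tot_at_xy (he : 0 < e)
    (C : Chart ↥(Rur A) ↥(L0 A N) (kV A) (Fin (e + 1)) (kapE A M e))
    (hc : Compat C (totEM A N q M e B k hN hB hq hqM hA ht he))
    (hB0 : C.B = intSub ↥(Rur A) (j0 A N))
    (hVal : H99.ValE C ((q : ℕ) : ↥(Rur A)) (fun i => mE q e (i : ℕ)))
    (hqV : ∀ i, ((q : ℕ) : ↥(L0 A N)) ∈ (C.V i).nonunits)
    (crit : ∀ f : ↥(L0 A N), IsIntegral ↥(Algebra.adjoin ↥(Kur A) {j0 A N}) f →
      (∀ i, f ∈ C.V i) → f ∈ C.B)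
    (u₀ : LaurentSeries ℤ) (x y : ↥(L0 A N))
    (hx : ((x : FN N) : LaurentSeries Kbar) = intSer Kbar u₀)
    (hy : ((y : FN N) : LaurentSeries Kbar) = intSer Kbar (qExpand ℤ (q ^ e) u₀))
    (hxI : IsIntegral ↥(Algebra.adjoin ↥(Kur A) {j0 A N}) x)
    (hyI : IsIntegral ↥(Algebra.adjoin ↥(Kur A) {j0 A N}) y)
    (hfun : ∀ n, n ≤ e → x ∈ VE A N q M e B k hN hB hq n ∧ y ∈ VE A N q M e B k hN hB hq n)
    (hram : ∀ n, n < e → ∃ f' ∈ VE A N q M e B k hN hB hq n,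
      (tE q e n x y) ^ Nat.totient (q ^ min n (e - n)) = ((q : ℕ) : ↥(L0 A N)) * f')
    (z : Place (kV A) (FM A M)) (c : kV A) (u δ : FM A M)
    (hu : (u : LaurentSeries (kV A)) = coeffMap (Int.castRingHom (kV A)) u₀)
    (hδ : (δ : LaurentSeries (kV A)) = coeffMap (Int.castRingHom (kV A)) (kdel q u₀))
    (hord : z.ord (u - algebraMap (kV A) (FM A M) c) = 1) (hcc : c ^ q ^ 2 = c)
    (hδord : z.ord δ = -1)
    (𝔪 : Ideal C.B) (hmax : 𝔪.IsMaximal)
    (h𝔪 : ∀ β : C.B, β ∈ 𝔪 ↔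
      VanAt ((totEM A N q M e B k hN hB hq hqM hA ht he).pt (Fin.last e) z)
        (C.rdB (Fin.last e) β)) :
    (∀ i, C.Icomp i ≤ 𝔪) ∧ Nonempty (LocEq C ((q : ℕ) : ↥(Rur A)) 𝔪) := by
  haveI : 𝔪.IsPrime := hmax.isPrime
  haveI : CharP (kV A) q := Fermat.Agent.BAD.H82.charP_kV A hq hA
  haveI : CharP (kapE A M e (Fin.last e)) q :=
    charP_of_injective_algebraMap (algebraMap (kV A) (FM A M)).injective q
  rw [totEM_pt_last A N q M e B k hN hB hq hqM hA ht he z] at h𝔪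
  have hV : ∀ i : Fin (e + 1), C.V i = VE A N q M e B k hN hB hq (i : ℕ) := fun i => hc.hV i
  have hemb : ∀ (f : ↥(L0 A N)) (hf : f ∈ C.V (Fin.last e))
      (hf' : f ∈ VE A N q M e B k hN hB hq e),
      embE A M e (Fin.last e) (C.red (Fin.last e) ⟨f, hf⟩)
        = sE A N q M e B k hN hB hq e ⟨f, hf'⟩ := by
    intro f hf hf'
    have h1 : C.red (Fin.last e) ⟨f, hf⟩
        = (totEM A N q M e B k hN hB hq hqM hA ht he).red (Fin.last e) ⟨f, hf'⟩ := by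
      rw [← C.rd_of_mem (Fin.last e) hf, hc.hrd,
        (totEM A N q M e B k hN hB hq hqM hA ht he).rdN_of_mem
          (i := Fin.last e) (f := f) hf']
    rw [h1]
    rfl
  exact hssE_mod A N q M e B k hN hB hq C hB0 (fun i => (i : ℕ)) Fin.val_injective
    (fun i => Nat.lt_succ_iff.mp i.2) (fun n hn => ⟨⟨n, Nat.lt_succ_of_le hn⟩, rfl⟩)
    hV he (fun i => mE q e (i : ℕ)) (fun i => rfl) hVal hqV crit (Fin.last e) rfl
    (embE A M e (Fin.last e)) hemb u₀ x y hx hxI hyI hfun hram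
    (H66.dE_mem_VE A N q M e B k hN hB hq u₀ x y hx hy)
    (H66.sE_dE A N q M e B k hN hB hq hA he u₀ x y hx hy)
    z c u δ hu hδ hord hcc hδord 𝔪 h𝔪

/-- **SS-ASM at one point on `totEM`**, generic in the coordinate pack: `f` of level `M` with
integral expansion `u₀`, a root of the modular unit `Δ(t)/Δ(t^d)`, `d ∣ M`. -/
theorem hssE_tot_at (he : 0 < e)
    (C : Chart ↥(Rur A) ↥(L0 A N) (kV A) (Fin (e + 1)) (kapE A M e))
    (hc : Compat C (totEM A N q M e B k hN hB hq hqM hA ht he))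
    (hB0 : C.B = intSub ↥(Rur A) (j0 A N))
    (hVal : H99.ValE C ((q : ℕ) : ↥(Rur A)) (fun i => mE q e (i : ℕ)))
    (hqV : ∀ i, ((q : ℕ) : ↥(L0 A N)) ∈ (C.V i).nonunits)
    (crit : ∀ f : ↥(L0 A N), IsIntegral ↥(Algebra.adjoin ↥(Kur A) {j0 A N}) f →
      (∀ i, f ∈ C.V i) → f ∈ C.B)
    (f : FN M) (u₀ : LaurentSeries ℤ) (hf : (f : LaurentSeries Kbar) = intSer Kbar u₀)
    (d : ℕ) [NeZero d] (hd : d ∣ M) (n : ℕ) (hn : n ≠ 0)
    (hfn : f ^ n = Fermat.Agent.BAD.H30.unitF M d hd)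
    (hram : RamE A N q M e B k hN hB hq u₀)
    (z : Place (kV A) (FM A M)) (c : kV A) (u δ : FM A M)
    (hu : (u : LaurentSeries (kV A)) = coeffMap (Int.castRingHom (kV A)) u₀)
    (hδ : (δ : LaurentSeries (kV A)) = coeffMap (Int.castRingHom (kV A)) (kdel q u₀))
    (hord : z.ord (u - algebraMap (kV A) (FM A M) c) = 1) (hcc : c ^ q ^ 2 = c)
    (hδord : z.ord δ = -1)
    (𝔪 : Ideal C.B) (hmax : 𝔪.IsMaximal)
    (h𝔪 : ∀ β : C.B, β ∈ 𝔪 ↔
      VanAt ((totEM A N q M e B k hN hB hq hqM hA ht he).pt (Fin.last e) z)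
        (C.rdB (Fin.last e) β)) :
    (∀ i, C.Icomp i ≤ 𝔪) ∧ Nonempty (LocEq C ((q : ℕ) : ↥(Rur A)) 𝔪) := by
  obtain ⟨x, y, hx, hy, hfun⟩ := H12.ss_fun A N q M e B k hN hB hq f u₀ hf
  obtain ⟨hxI, hyI⟩ := H12.ss_int A N q M e hN d hd f u₀ hf n hn hfn x y hx hy
  exact hssE_tot_at_xy A N q M e B k hN hB hq hqM hA ht he C hc hB0 hVal hqV crit u₀ x y hx hy
    hxI hyI hfun (hram x y hx hy) z c u δ hu hδ hord hcc hδord 𝔪 hmax h𝔪

/-- **The hypothesis `hss` of `H88.pointDataE_of_dichotomy` on `totEM`** (`i₀ = Fin.last e`,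
`SS` any set of points with pole data), generic in the coordinate pack. -/
theorem hssE_tot (he : 0 < e)
    (C : Chart ↥(Rur A) ↥(L0 A N) (kV A) (Fin (e + 1)) (kapE A M e))
    (hc : Compat C (totEM A N q M e B k hN hB hq hqM hA ht he))
    (hB0 : C.B = intSub ↥(Rur A) (j0 A N))
    (hVal : H99.ValE C ((q : ℕ) : ↥(Rur A)) (fun i => mE q e (i : ℕ)))
    (hqV : ∀ i, ((q : ℕ) : ↥(L0 A N)) ∈ (C.V i).nonunits)
    (crit : ∀ f : ↥(L0 A N), IsIntegral ↥(Algebra.adjoin ↥(Kur A) {j0 A N}) f →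
      (∀ i, f ∈ C.V i) → f ∈ C.B)
    (f : FN M) (u₀ : LaurentSeries ℤ) (hf : (f : LaurentSeries Kbar) = intSer Kbar u₀)
    (d : ℕ) [NeZero d] (hd : d ∣ M) (n : ℕ) (hn : n ≠ 0)
    (hfn : f ^ n = Fermat.Agent.BAD.H30.unitF M d hd)
    (hram : RamE A N q M e B k hN hB hq u₀)
    (SS : Set (Place (kV A) (FM A M)))
    (hpole : ∀ z ∈ SS, ∃ (c : kV A) (u δ : FM A M),
      (u : LaurentSeries (kV A)) = coeffMap (Int.castRingHom (kV A)) u₀ ∧
      (δ : LaurentSeries (kV A)) = coeffMap (Int.castRingHom (kV A)) (kdel q u₀) ∧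
      z.ord (u - algebraMap (kV A) (FM A M) c) = 1 ∧ c ^ q ^ 2 = c ∧ z.ord δ = -1) :
    ∀ z ∈ SS, ∀ 𝔪 : Ideal C.B, 𝔪.IsMaximal →
      (∀ β : C.B, β ∈ 𝔪 ↔
        VanAt ((totEM A N q M e B k hN hB hq hqM hA ht he).pt (Fin.last e) z)
          (C.rdB (Fin.last e) β)) →
      Nonempty (LocEq C ((q : ℕ) : ↥(Rur A)) 𝔪) := by
  intro z hz 𝔪 hmax h𝔪
  obtain ⟨c, u, δ, hu, hδ, hord, hcc, hδord⟩ := hpole z hz
  exact (hssE_tot_at A N q M e B k hN hB hq hqM hA ht he C hc hB0 hVal hqV crit f u₀ hf d hd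
    n hn hfn hram z c u δ hu hδ hord hcc hδord 𝔪 hmax h𝔪).2

/-- **`hss` on `totEM`, `q ≥ 5`, `4 ∣ M`** (`f = Δ(t)/Δ(t⁴)`, `u₀ = uZ4`, `SS = ssM A q M`). -/
theorem hssE_five [NeZero (M * q)] (he : 0 < e) (h5 : 5 ≤ q) (h4 : 4 ∣ M)
    (C : Chart ↥(Rur A) ↥(L0 A N) (kV A) (Fin (e + 1)) (kapE A M e))
    (hc : Compat C (totEM A N q M e B k hN hB hq hqM hA ht he))
    (hB0 : C.B = intSub ↥(Rur A) (j0 A N))
    (hVal : H99.ValE C ((q : ℕ) : ↥(Rur A)) (fun i => mE q e (i : ℕ)))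
    (hqV : ∀ i, ((q : ℕ) : ↥(L0 A N)) ∈ (C.V i).nonunits)
    (crit : ∀ f : ↥(L0 A N), IsIntegral ↥(Algebra.adjoin ↥(Kur A) {j0 A N}) f →
      (∀ i, f ∈ C.V i) → f ∈ C.B)
    (hram : RamE A N q M e B k hN hB hq Fermat.Agent.S36.NU.H73.uZ4) :
    ∀ z ∈ ssM A q M, ∀ 𝔪 : Ideal C.B, 𝔪.IsMaximal →
      (∀ β : C.B, β ∈ 𝔪 ↔
        VanAt ((totEM A N q M e B k hN hB hq hqM hA ht he).pt (Fin.last e) z)
          (C.rdB (Fin.last e) β)) →
      Nonempty (LocEq C ((q : ℕ) : ↥(Rur A)) 𝔪) :=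
  hssE_tot A N q M e B k hN hB hq hqM hA ht he C hc hB0 hVal hqV crit
    (Fermat.Agent.BAD.H30.unitF M 4 h4) Fermat.Agent.S36.NU.H73.uZ4 (coe_unitF4 M h4) 4 h4 1
    one_ne_zero (pow_one _) hram (ssM A q M)
    (fun z hz => coord_pole_five A q M hq hqM hA h5 h4 hz)

/-- **`hss` on helper74's `chart0E` of `totEM`, `q ≥ 5`, `4 ∣ M`.** -/
theorem hssE_five_chart0E [NeZero (M * q)] (he : 0 < e) (h5 : 5 ≤ q) (h4 : 4 ∣ M)
    (h : H74.ChartInE A N (totEM A N q M e B k hN hB hq hqM hA ht he))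
    (hVal : H99.ValE (H74.chart0E A N (totEM A N q M e B k hN hB hq hqM hA ht he) h)
      ((q : ℕ) : ↥(Rur A)) (fun i => mE q e (i : ℕ)))
    (hqV : ∀ i, ((q : ℕ) : ↥(L0 A N))
      ∈ ((H74.chart0E A N (totEM A N q M e B k hN hB hq hqM hA ht he) h).V i).nonunits)
    (crit : ∀ f : ↥(L0 A N), IsIntegral ↥(Algebra.adjoin ↥(Kur A) {j0 A N}) f →
      (∀ i, f ∈ (H74.chart0E A N (totEM A N q M e B k hN hB hq hqM hA ht he) h).V i) →
      f ∈ (H74.chart0E A N (totEM A N q M e B k hN hB hq hqM hA ht he) h).B)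
    (hram : RamE A N q M e B k hN hB hq Fermat.Agent.S36.NU.H73.uZ4) :
    ∀ z ∈ ssM A q M,
      ∀ 𝔪 : Ideal (H74.chart0E A N (totEM A N q M e B k hN hB hq hqM hA ht he) h).B,
      𝔪.IsMaximal →
      (∀ β : (H74.chart0E A N (totEM A N q M e B k hN hB hq hqM hA ht he) h).B, β ∈ 𝔪 ↔
        VanAt ((totEM A N q M e B k hN hB hq hqM hA ht he).pt (Fin.last e) z)
          ((H74.chart0E A N (totEM A N q M e B k hN hB hq hqM hA ht he) h).rdB
            (Fin.last e) β)) →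
      Nonempty (LocEq (H74.chart0E A N (totEM A N q M e B k hN hB hq hqM hA ht he) h)
        ((q : ℕ) : ↥(Rur A)) 𝔪) :=
  hssE_five A N q M e B k hN hB hq hqM hA ht he h5 h4 _
    (H74.compat_chart0E A N _ h) (H74.chart0E_B A N _ h) hVal hqV crit hram

end Tot

end Fermat.Agent.S45.NUE.H16
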