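import Fermat.Agent.S45.NUE.H17_RedGen
import Fermat.Agent.S36.NU.H17_BranchInf

/-!
# S45 / NU_e, leaf E-PT-BR, part 1 (helper17): the lifts of the normal chart of the good level

`N = M q^e`, `q ∤ M` tame, `A` over `q`, `VE a`, `sE a` (`a ≤ e`) the valuations of `L0 A N`.

* `intRed_pow_pow`, `jqModC_pow` : `j~ ^ (q^m) = j~ (s^(q^m))`;
* `jE` : `j (q^e τ)` as an inertia-fixed function; `isIntegral_jE`;
* `isIntegral_inclE(_inv)`, `isIntegral_betaE`, `isIntegral_betaE_inv` : integrality of the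
  lifts `incl f`, `f (q^e τ)` over `K^ur[j]`, `K^ur[1/j]`, `K^ur[1/j (q^e τ)]`;
* `wE` : the Atkin–Lehner involution `W_{q^e}` on `L0 A N`, `wE_j0`, `wE_jE`;
  `j0_isIntegral_jE` : `j` is integral over `R^ur[j (q^e τ)]` if `j (q^e τ)` is over `R^ur[j]`;
* `sE_j0` : `sE a j = j~ (s^(q^(e - 2 a)))`;
* `exists_lift0` : every `y` of the residue field of the good level integral over `k[j~]` is
  `sE a x` with `x` integral over `K^ur[j]` and in all `VE a'`;
* `exists_liftInf` : the same for `1 / j` on the components with `e ≤ 2 a`.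
-/

set_option autoImplicit false
set_option synthInstance.maxHeartbeats 400000
set_option maxHeartbeats 1000000
set_option linter.unusedSectionVars false
set_option linter.unusedVariables false
set_option linter.style.haveILetI false

noncomputable section

namespace Fermat.Agent.S45.NUE.H17

open ModularCurve AlgebraicCurve Polynomial IntermediateField
open Fermat.Agent.S24 Fermat.Agent.BAD.H88 Fermat.Agent.S28 Fermat.Agent.S28.H73
open Fermat.Agent.RED.H73 Fermat.Agent.RED.H17 Fermat.Agent.S36.NU.H88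
open Fermat.Agent.S36.NU.H41 Fermat.Agent.BAD
open Fermat.Agent.S36.NU.H17 (iotaUr)
open Fermat.Agent.S45.NUE.H23
open Fermat.Agent.S45.NUE.H73 (zE zE_pow rootUnit coe_rootUnit resV_rootUnit jdF_congr posE
  dvdE_cases)

local notation "L0" => Fermat.Agent.S36.NU.H23.L0
local notation "VE0" => Fermat.Agent.S36.NU.H23.VE0
local notation "sE0" => Fermat.Agent.S36.NU.H23.sE
local notation "inclL0" => Fermat.Agent.S36.NU.H23.inclL0

/-! ## Frobenius on `j~` -/

section Frob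

variable {k : Type*} [Field k] (q : ℕ) [NeZero q] [Fact q.Prime] [CharP k q]

theorem intRed_pow_pow (u : LaurentSeries ℤ) (m : ℕ) :
    haveI : NeZero (q ^ m) := ⟨pow_ne_zero _ (NeZero.ne q)⟩
    coeffMap (Int.castRingHom k) u ^ (q ^ m)
      = qExpand k (q ^ m) (coeffMap (Int.castRingHom k) u) := by
  induction m with
  | zero =>
    haveI : NeZero (q ^ 0) := ⟨pow_ne_zero _ (NeZero.ne q)⟩
    have h1 : coeffMap (Int.castRingHom k) u ^ (q ^ 0) = coeffMap (Int.castRingHom k) u := by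
      rw [pow_zero, pow_one]
    rw [h1]
    exact ((qExpand_congr (pow_zero q) _).trans (qExpand_one_apply _)).symm
  | succ m ih =>
    haveI : NeZero (q ^ m) := ⟨pow_ne_zero _ (NeZero.ne q)⟩
    haveI : NeZero (q ^ (m + 1)) := ⟨pow_ne_zero _ (NeZero.ne q)⟩
    haveI : NeZero (q ^ m * q) := ⟨mul_ne_zero (pow_ne_zero _ (NeZero.ne q)) (NeZero.ne q)⟩
    have h1 : coeffMap (Int.castRingHom k) u ^ (q ^ (m + 1))
        = (coeffMap (Int.castRingHom k) u ^ (q ^ m)) ^ q := by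
      rw [pow_succ, pow_mul]
    rw [h1, ih, ← map_pow, Fermat.Agent.S36.NU.H65.intRed_pow, qExpand_qExpand]
    exact qExpand_congr (pow_succ q m).symm _

theorem jqModC_pow (m : ℕ) :
    haveI : NeZero (q ^ m) := ⟨pow_ne_zero _ (NeZero.ne q)⟩
    jqModC k ^ (q ^ m) = qExpand k (q ^ m) (jqModC k) := by
  haveI : NeZero (q ^ m) := ⟨pow_ne_zero _ (NeZero.ne q)⟩
  have h := intRed_pow_pow (k := k) q (jqModC ℤ) m
  rwa [coeffMap_jqModC] at h

end Frob

section Level

variable (A : ValuationSubring Kbar)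
variable (N q M e : ℕ) (B k : ℤ) (hN : N = M * q ^ e) (hB : B * M + k * (q : ℤ) ^ e = 1)
  (hq : q.Prime) [NeZero N] [NeZero q] [NeZero M]

/-! ## `j (q^e τ)` -/

include hN in
theorem qe_dvd : q ^ e ∣ N := ⟨M, by rw [hN, mul_comm]⟩

/-- `j (q^e τ)` as an inertia-fixed function of level `N`. -/
def jE : ↥(L0 A N) :=
  haveI : NeZero (q ^ e) := ⟨pow_ne_zero _ (NeZero.ne q)⟩
  ⟨jdF N (q ^ e) (qe_dvd N q M e hN), Fermat.Agent.S36.NU.H23.jdF_mem_L0 A N _ _⟩

theorem coe_jE :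
    haveI : NeZero (q ^ e) := ⟨pow_ne_zero _ (NeZero.ne q)⟩
    ((jE A N q M e hN : ↥(L0 A N)) : FN N) = jdF N (q ^ e) (qe_dvd N q M e hN) := rfl

/-- `j (q^e τ)` is integral over `K^ur[j]`. -/
theorem isIntegral_jE :
    IsIntegral ↥(Algebra.adjoin ↥(Kur A) {j0 A N}) (jE A N q M e hN) :=
  haveI : NeZero (q ^ e) := ⟨pow_ne_zero _ (NeZero.ne q)⟩
  isIntegral_jdF_L0 A N (q ^ e) (qe_dvd N q M e hN)

/-! ## Integrality of the lifts -/

theorem inclusion_jF (hle : modularFunctionFieldBar M ≤ modularFunctionFieldBar N) :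
    IntermediateField.inclusion hle (Fermat.Agent.RED.H73.jF (L := Kbar) M)
      = ((j0 A N : ↥(L0 A N)) : FN N) := by
  rw [← Fermat.Agent.RED.H76.jF_eq, ← jdF_one_eq_jF M, coe_j0']
  apply Subtype.ext
  rw [IntermediateField.coe_inclusion, coe_jdF, coe_jdF]

theorem betaE_jF :
    betaE N q M e hN (Fermat.Agent.RED.H73.jF (L := Kbar) M)
      = ((jE A N q M e hN : ↥(L0 A N)) : FN N) := by
  haveI : NeZero (q ^ e) := ⟨pow_ne_zero _ (NeZero.ne q)⟩
  haveI : NeZero (1 * q ^ e) := ⟨by rw [one_mul]; exact pow_ne_zero _ (NeZero.ne q)⟩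
  rw [← Fermat.Agent.RED.H76.jF_eq, ← jdF_one_eq_jF M, coe_jE,
    betaE_jdF N q M e hN 1 (one_dvd M) (by rw [one_mul]; exact qe_dvd N q M e hN)]
  exact jdF_congr N (one_mul _) _ _

/-- `incl f` is integral over `K^ur[j]`. -/
theorem isIntegral_inclE (hle : modularFunctionFieldBar M ≤ modularFunctionFieldBar N)
    (f : FN M) (hf : f ∈ L0 A M)
    (hint : ((aeval (Fermat.Agent.RED.H73.jF (L := Kbar) M) : Kbar[X] →ₐ[Kbar] FN M).toRingHom.comp
        (mapRingHom (iotaUr A))).IsIntegralElem f) :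
    IsIntegral ↥(Algebra.adjoin ↥(Kur A) {j0 A N}) (inclL0 A hle ⟨f, hf⟩) := by
  refine isIntegral_adjoin_of_isIntegralElem A N (j0 A N) (inclL0 A hle ⟨f, hf⟩) ?_
  have h := Fermat.Agent.S36.NU.H22.isIntegralElem_map_algHom A M
    (IntermediateField.inclusion hle) _ f hint
  rw [inclusion_jF A N M hle] at h
  exact h

/-- `incl f` is integral over `K^ur[1/j]`. -/
theorem isIntegral_inclE_inv (hle : modularFunctionFieldBar M ≤ modularFunctionFieldBar N)
    (f : FN M) (hf : f ∈ L0 A M)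
    (hint : ((aeval (Fermat.Agent.RED.H73.jF (L := Kbar) M)⁻¹ :
        Kbar[X] →ₐ[Kbar] FN M).toRingHom.comp (mapRingHom (iotaUr A))).IsIntegralElem f) :
    IsIntegral ↥(Algebra.adjoin ↥(Kur A) {(j0 A N)⁻¹}) (inclL0 A hle ⟨f, hf⟩) := by
  refine isIntegral_adjoin_of_isIntegralElem A N (j0 A N)⁻¹ (inclL0 A hle ⟨f, hf⟩) ?_
  have h := Fermat.Agent.S36.NU.H22.isIntegralElem_map_algHom A M
    (IntermediateField.inclusion hle) _ f hint
  rw [map_inv₀, inclusion_jF A N M hle] at h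
  exact h

/-- `f (q^e τ)` is integral over `K^ur[j (q^e τ)]`. -/
theorem isIntegral_betaE_jE (f : FN M) (hf : f ∈ L0 A M)
    (hint : ((aeval (Fermat.Agent.RED.H73.jF (L := Kbar) M) : Kbar[X] →ₐ[Kbar] FN M).toRingHom.comp
        (mapRingHom (iotaUr A))).IsIntegralElem f) :
    IsIntegral ↥(Algebra.adjoin ↥(Kur A) {jE A N q M e hN}) (betaL0 A N q M e hN ⟨f, hf⟩) := by
  refine isIntegral_adjoin_of_isIntegralElem A N (jE A N q M e hN)
    (betaL0 A N q M e hN ⟨f, hf⟩) ?_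
  have h := Fermat.Agent.S36.NU.H22.isIntegralElem_map_algHom A M (betaE N q M e hN) _ f hint
  rw [betaE_jF A N q M e hN] at h
  exact h

/-- `f (q^e τ)` is integral over `K^ur[j]`. -/
theorem isIntegral_betaE (f : FN M) (hf : f ∈ L0 A M)
    (hint : ((aeval (Fermat.Agent.RED.H73.jF (L := Kbar) M) : Kbar[X] →ₐ[Kbar] FN M).toRingHom.comp
        (mapRingHom (iotaUr A))).IsIntegralElem f) :
    IsIntegral ↥(Algebra.adjoin ↥(Kur A) {j0 A N}) (betaL0 A N q M e hN ⟨f, hf⟩) :=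
  Fermat.Agent.S36.NU.H17.isIntegral_adjoin_trans (E := ↥(Kur A)) (F := ↥(L0 A N))
    (jE A N q M e hN) (j0 A N) (isIntegral_jE A N q M e hN)
    (isIntegral_betaE_jE A N q M e hN f hf hint)

/-- `f (q^e τ)` is integral over `K^ur[1 / j (q^e τ)]`. -/
theorem isIntegral_betaE_inv (f : FN M) (hf : f ∈ L0 A M)
    (hint : ((aeval (Fermat.Agent.RED.H73.jF (L := Kbar) M)⁻¹ :
        Kbar[X] →ₐ[Kbar] FN M).toRingHom.comp (mapRingHom (iotaUr A))).IsIntegralElem f) :
    IsIntegral ↥(Algebra.adjoin ↥(Kur A) {(jE A N q M e hN)⁻¹})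
      (betaL0 A N q M e hN ⟨f, hf⟩) := by
  refine isIntegral_adjoin_of_isIntegralElem A N (jE A N q M e hN)⁻¹
    (betaL0 A N q M e hN ⟨f, hf⟩) ?_
  have h := Fermat.Agent.S36.NU.H22.isIntegralElem_map_algHom A M (betaE N q M e hN) _ f hint
  rw [map_inv₀, betaE_jF A N q M e hN] at h
  exact h

end Level

end Fermat.Agent.S45.NUE.H17
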