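import Fermat.Agent.S36.NU.H17_BranchLoc
import Fermat.Agent.S36.NU.H82_J0Jdd

/-!
# S45 / NU_e, leaf E-PT-BR, abstract part (helper17): branches from a model of the component

`C` a chart, `i` a component, `emb : κ i → E` an isomorphism of the residue field of the
component onto a field `E` (for `NU_e`: the function field of the good level in characteristic
`q`), `t ∈ E` with `E / k(t)` finite separable.  If the reduction of the chart function `j` is
integral over `k[t]` and every `y ∈ E` integral over `k[t]` is, locally at the closed point `𝔪`,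
the reduction of an element of `B`, then the component `i` has a branch through `𝔪`.

* `emb_rdB_isIntegral` : the reductions of the elements of `B` are integral over `k[t]`;
* `branch_of_model_local` : local form (lifts `rdB b = rdB g * y`, `g ∉ 𝔪`);
* `branch_of_model` : global form (lifts `rdB b = y`).
-/

set_option autoImplicit false
set_option linter.style.haveILetI false
set_option linter.unusedSectionVars false

noncomputable section

namespace Fermat.Agent.S45.NUE.H17

open Fermat.Agent.S36.NU.H16 Fermat.Agent.S36.NU.H61 Fermat.Agent.S36.NU.H24 IsDedekindDomain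
  IntermediateField Polynomial

section Model

variable {R F k ι : Type*} {κ : ι → Type*} [CommRing R] [Field F] [Algebra R F]
  [Field k] [∀ i, Field (κ i)] [∀ i, Algebra k (κ i)]

/-- The reductions of the elements of `B` are integral over `k[t]`, seen in a model `E` of the
residue field. -/
theorem emb_rdB_isIntegral (C : Chart R F k ι κ) (i : ι) (j : F)
    (hjB : j ∈ C.B) (hB : ∀ β : C.B, IsIntegral ↥(Algebra.adjoin R {j}) (β : F))
    {E : Type*} [Field E] [Algebra k E] (emb : κ i →ₐ[k] E) (hemb : Function.Surjective emb)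
    (t : E) (hj : IsIntegral ↥(Algebra.adjoin k ({t} : Set E)) (emb (C.rdB i ⟨j, hjB⟩)))
    (β : C.B) : IsIntegral ↥(Algebra.adjoin k ({t} : Set E)) (emb (C.rdB i β)) := by
  set ψ : κ i ≃ₐ[k] E := AlgEquiv.ofBijective emb ⟨emb.toRingHom.injective, hemb⟩ with hψ
  have hψe : ∀ x, ψ x = emb x := fun x => rfl
  have h1 : IsIntegral ↥(Algebra.adjoin k ({ψ.symm t} : Set (κ i))) (C.rdB i ⟨j, hjB⟩) := by
    have h := Fermat.Agent.S36.NU.H82.isIntegral_adjoin_map (ψ.symm : E →ₐ[k] κ i) t _ hj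
    have e2 : (ψ.symm : E →ₐ[k] κ i) (emb (C.rdB i ⟨j, hjB⟩)) = C.rdB i ⟨j, hjB⟩ :=
      ψ.symm_apply_apply _
    rw [e2] at h
    exact h
  have h2 : C.rdB i β ∈ integralClosure ↥(Algebra.adjoin k ({ψ.symm t} : Set (κ i))) (κ i) :=
    rdB_mem_intClosure C i j hjB hB (ψ.symm t) h1 β
  have h3 := Fermat.Agent.S36.NU.H82.isIntegral_adjoin_map emb (ψ.symm t) _ h2
  rw [← hψe (ψ.symm t), AlgEquiv.apply_symm_apply] at h3
  exact h3

/-- **Branches from local lifts in a model of the residue field.** -/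
theorem branch_of_model_local [IsAlgClosed k] (C : Chart R F k ι κ) (i : ι) (j : F)
    (hjB : j ∈ C.B) (hB : ∀ β : C.B, IsIntegral ↥(Algebra.adjoin R {j}) (β : F))
    {E : Type*} [Field E] [Algebra k E] (emb : κ i →ₐ[k] E) (hemb : Function.Surjective emb)
    (t : E) [FiniteDimensional ↥k⟮t⟯ E] [Algebra.IsSeparable ↥k⟮t⟯ E]
    (hj : IsIntegral ↥(Algebra.adjoin k ({t} : Set E)) (emb (C.rdB i ⟨j, hjB⟩)))
    (𝔪 : Ideal C.B) (hmax : 𝔪.IsMaximal) (h𝔪 : C.Icomp i ≤ 𝔪)
    (hlift : ∀ y : E, IsIntegral ↥(Algebra.adjoin k ({t} : Set E)) y →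
      ∃ g b : C.B, g ∉ 𝔪 ∧ emb (C.rdB i b) = emb (C.rdB i g) * y) :
    Nonempty (Branch C 𝔪 i) := by
  haveI := isDedekindDomain_intClosure k t
  haveI := isFractionRing_intClosure k t
  haveI := finiteType_intClosure k t
  set ψ : κ i ≃ₐ[k] E := AlgEquiv.ofBijective emb ⟨emb.toRingHom.injective, hemb⟩ with hψ
  have hψe : ∀ x, ψ x = emb x := fun x => rfl
  letI algA : Algebra ↥(integralClosure ↥(Algebra.adjoin k ({t} : Set E)) E) (κ i) :=
    ((ψ.symm : E →+* κ i).comp
      (algebraMap ↥(integralClosure ↥(Algebra.adjoin k ({t} : Set E)) E) E)).toAlgebra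
  have halg : ∀ a : ↥(integralClosure ↥(Algebra.adjoin k ({t} : Set E)) E),
      algebraMap ↥(integralClosure ↥(Algebra.adjoin k ({t} : Set E)) E) (κ i) a
        = ψ.symm (a : E) := fun a => rfl
  haveI : IsScalarTower k ↥(integralClosure ↥(Algebra.adjoin k ({t} : Set E)) E) (κ i) :=
    IsScalarTower.of_algebraMap_eq (fun c => by
      rw [halg]
      exact (ψ.symm.commutes c).symm)
  haveI : IsFractionRing ↥(integralClosure ↥(Algebra.adjoin k ({t} : Set E)) E) (κ i) :=
    IsLocalization.isLocalization_of_algEquiv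
      (nonZeroDivisors ↥(integralClosure ↥(Algebra.adjoin k ({t} : Set E)) E))
      (AlgEquiv.ofRingEquiv (f := ψ.symm.toRingEquiv) (fun _ => rfl) :
        E ≃ₐ[↥(integralClosure ↥(Algebra.adjoin k ({t} : Set E)) E)] κ i)
  let φ : C.B →+* ↥(integralClosure ↥(Algebra.adjoin k ({t} : Set E)) E) :=
    ((emb : κ i →+* E).comp (C.rdB i)).codRestrict
      (integralClosure ↥(Algebra.adjoin k ({t} : Set E)) E).toSubring
      (fun β => emb_rdB_isIntegral C i j hjB hB emb hemb t hj β)
  have hφ : ∀ β, ((φ β : ↥(integralClosure ↥(Algebra.adjoin k ({t} : Set E)) E)) : E)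
      = emb (C.rdB i β) := fun β => rfl
  refine Fermat.Agent.S36.NU.H17.branch_of_dedekind_local C i φ (fun β => ?_) 𝔪 hmax h𝔪 ?_
  · rw [halg, hφ, ← hψe, AlgEquiv.symm_apply_apply]
  · rintro ⟨y, hy⟩
    obtain ⟨g, b, hg, e⟩ := hlift y hy
    exact ⟨g, b, hg, Subtype.ext e⟩

/-- **Branches from global lifts in a model of the residue field.** -/
theorem branch_of_model [IsAlgClosed k] (C : Chart R F k ι κ) (i : ι) (j : F)
    (hjB : j ∈ C.B) (hB : ∀ β : C.B, IsIntegral ↥(Algebra.adjoin R {j}) (β : F))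
    {E : Type*} [Field E] [Algebra k E] (emb : κ i →ₐ[k] E) (hemb : Function.Surjective emb)
    (t : E) [FiniteDimensional ↥k⟮t⟯ E] [Algebra.IsSeparable ↥k⟮t⟯ E]
    (hj : IsIntegral ↥(Algebra.adjoin k ({t} : Set E)) (emb (C.rdB i ⟨j, hjB⟩)))
    (hlift : ∀ y : E, IsIntegral ↥(Algebra.adjoin k ({t} : Set E)) y →
      ∃ b : C.B, emb (C.rdB i b) = y)
    (𝔪 : Ideal C.B) (hmax : 𝔪.IsMaximal) (h𝔪 : C.Icomp i ≤ 𝔪) :
    Nonempty (Branch C 𝔪 i) := by
  refine branch_of_model_local C i j hjB hB emb hemb t hj 𝔪 hmax h𝔪 (fun y hy => ?_)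
  obtain ⟨b, hb⟩ := hlift y hy
  refine ⟨1, b, fun h => hmax.ne_top ((Ideal.eq_top_iff_one 𝔪).2 h), ?_⟩
  rw [hb, map_one, map_one, one_mul]

end Model

end Fermat.Agent.S45.NUE.H17
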