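import Fermat.Agent.S45.NUE.H28_RadQE
import Fermat.Agent.S45.NUE.H17_RedGen

/-!
# S45 / NU_e, package E-FIN, leaf E-RADQ (helper28): the reduction of `j` at the valuations
`VE a` of the level `N = M q^e`

* `jdF_eq_jF_of_eq_one` : `j (t^D) = j` for `D = 1`;
* `j0_mem_VE` : `j ∈ VE a`;
* `sE_j0` : `sE a j = j~ (s^(q^(e - 2 a)))`;
* `transcendental_sE_j0` : it is transcendental over `k` (the hypothesis `htr` of
  `H28.isRadQ_chartE`, for every `a`).
-/

set_option autoImplicit false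
set_option synthInstance.maxHeartbeats 400000
set_option maxHeartbeats 1000000
set_option linter.style.haveILetI false
set_option linter.unusedSectionVars false
set_option linter.unusedVariables false

noncomputable section

open ModularCurve AlgebraicCurve Polynomial IntermediateField
open Fermat.Agent.S24 Fermat.Agent.BAD.H88 Fermat.Agent.S28 Fermat.Agent.S28.H73
open Fermat.Agent.RED.H73 Fermat.Agent.RED.H17 Fermat.Agent.S36.NU.H88
open Fermat.Agent.S36.NU.H23 Fermat.Agent.S36.NU.H41 Fermat.Agent.S36.NU.H17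
open Fermat.Agent.S36.NU.H16 Fermat.Agent.S36.NU.H65 Fermat.Agent.BAD
open Fermat.Agent.S45.NUE.H23 Fermat.Agent.S45.NUE.H17

namespace Fermat.Agent.S45.NUE.H28

section Trans2

variable (A : ValuationSubring Kbar)

/-- `j~(s^m)` is transcendental over `k`. -/
theorem transcendental_qExpand_jqModC (m : ℕ) [NeZero m] :
    Transcendental (kV A) (qExpand (kV A) m (jqModC (kV A))) := by
  have e : Fermat.Agent.S36.NU.H88.Jred A = jqModC (kV A) := by
    unfold Fermat.Agent.S36.NU.H88.Jred Fermat.Agent.S36.NU.H88.jInt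
    rw [qExpand_one_apply, coeffMap_jqModC]
  rw [← e]
  exact transcendental_qExpand_Jred A m

end Trans2

section Level

variable (A : ValuationSubring Kbar)
variable (N q M e : ℕ) (B k : ℤ) (hN : N = M * q ^ e) (hB : B * M + k * (q : ℤ) ^ e = 1)
  (hq : q.Prime) [NeZero N] [NeZero q] [NeZero M]

theorem jdF_eq_jF_of_eq_one (D : ℕ) [NeZero D] (hD1 : D = 1) (hD : D ∣ N) :
    jdF N D hD = Fermat.Agent.S24.jF N := by
  subst hD1
  exact jdF_one_eq_jF N

theorem neZero_one_mul_pow (c : ℕ) : NeZero (1 * q ^ c) :=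
  ⟨by rw [one_mul]; exact pow_ne_zero c (NeZero.ne q)⟩

theorem j0_eq_jdF (hD : 1 * q ^ 0 ∣ N) :
    haveI := neZero_one_mul_pow q 0
    (⟨jdF N (1 * q ^ 0) hD, Fermat.Agent.S36.NU.H23.jdF_mem_L0 A N _ hD⟩ : ↥(L0 A N))
      = j0 A N := by
  haveI := neZero_one_mul_pow q 0
  apply Subtype.ext
  exact jdF_eq_jF_of_eq_one N (1 * q ^ 0) (by simp) hD

include hN hB hq in
/-- `j ∈ VE a`. -/
theorem j0_mem_VE (a : ℕ) : j0 A N ∈ VE A N q M e B k hN hB hq a := by
  haveI := neZero_one_mul_pow q 0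
  haveI := neZero_one_mul_pow q (e - 2 * a + 0)
  have hD : 1 * q ^ 0 ∣ N := by simp
  rw [← j0_eq_jdF A N q hD]
  exact jdF_mem_VE_le A N q M e B k hN hB hq 1 M 0 a (one_mul M).symm (Nat.zero_le a) hD

include hN hB hq in
/-- `sE a j = j~ (s^(q^(e - 2 a)))`. -/
theorem sE_j0 (a : ℕ) (hj : j0 A N ∈ VE A N q M e B k hN hB hq a) :
    haveI := neZero_one_mul_pow q (e - 2 * a + 0)
    sE A N q M e B k hN hB hq a ⟨j0 A N, hj⟩
      = qExpand (kV A) (1 * q ^ (e - 2 * a + 0)) (jqModC (kV A)) := by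
  haveI := neZero_one_mul_pow q 0
  haveI := neZero_one_mul_pow q (e - 2 * a + 0)
  have hD : 1 * q ^ 0 ∣ N := by simp
  have hmem := jdF_mem_VE_le A N q M e B k hN hB hq 1 M 0 a (one_mul M).symm (Nat.zero_le a) hD
  have h1 := sE_jdF_le A N q M e B k hN hB hq 1 M 0 a (one_mul M).symm (Nat.zero_le a) hD hmem
  have h2 : (⟨j0 A N, hj⟩ : ↥(VE A N q M e B k hN hB hq a)) = ⟨_, hmem⟩ :=
    Subtype.ext (j0_eq_jdF A N q hD).symm
  rw [h2, h1]

include hN hB hq in
/-- **The reduction of `j` at `VE a` is transcendental over `k`.** -/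
theorem transcendental_sE_j0 (a : ℕ) (hj : j0 A N ∈ VE A N q M e B k hN hB hq a) :
    Transcendental (kV A) (sE A N q M e B k hN hB hq a ⟨j0 A N, hj⟩) := by
  haveI := neZero_one_mul_pow q (e - 2 * a + 0)
  rw [sE_j0 A N q M e B k hN hB hq a hj]
  exact transcendental_qExpand_jqModC A _

end Level

end Fermat.Agent.S45.NUE.H28
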