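import Fermat.Agent.S45.NUE.H51_ValVecEAbs

/-!
# S45 / NU_e, package E-VV (helper51): the cover, abstract part

`UniqAlong φ (V i)` (`V i` is the only valuation ring of `L` above its restriction along
`φ : E → L`) from

* THREE: every valuation ring `≠ ⊤` of `L` above `V₀` (along `ψ : E₀ → L`) is one of the `V j`;
* the restriction table: `φ y ∈ V j ↔ y ∈ V' (r j)`, the `V' a` pairwise incomparable, and the
  index `i` is alone in its fibre of `r`.

For `φ = α` the base field `E₀` lies in `α E` (`ψ = α ∘ ψ'`): `uniqAlong_of_three`.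
For `φ = β` it does not, and one passes through the first level `E₁` (`ψ = ι₁ ∘ α₁`,
`β ∘ ψ' = ι₁ ∘ β₁`) where "above `V₀` along `β₁`" implies "above `V₀` along `α₁`"
(`BaseSwap`, from the Atkin–Lehner involution of the first level: `baseSwap_of_invol`):
`uniqAlong_of_three_swap`.

* `cover_abs` : the cover `∀ i, UniqAlong α (V i) ∨ UniqAlong β (V i)`.
-/

set_option autoImplicit false
set_option linter.style.haveILetI false
set_option linter.unusedSectionVars false

noncomputable section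

namespace Fermat.Agent.S45.NUE.H51

section Cover

variable {E₀ E₁ E L : Type} [Field E₀] [Field E₁] [Field E] [Field L]
  {ι ι' : Type}

/-- **THREE** along `ψ`: every valuation ring `≠ ⊤` of `L` above `V₀` is one of the `V j`. -/
def ThreeAlong (ψ : E₀ →+* L) (V₀ : ValuationSubring E₀) (V : ι → ValuationSubring L) : Prop :=
  ∀ W' : ValuationSubring L, W' ≠ ⊤ → (∀ a ∈ V₀, ψ a ∈ W') → ∃ j, W' = V j

/-- Separating elements: for `j ≠ i` some `φ y` lies in `V i` and not in `V j`. -/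
def SepAlong (φ : E →+* L) (V : ι → ValuationSubring L) (i : ι) : Prop :=
  ∀ j, j ≠ i → ∃ y : E, φ y ∈ V i ∧ φ y ∉ V j

/-- Separating elements from the restriction table. -/
theorem sepAlong_of_table (φ : E →+* L) (V : ι → ValuationSubring L)
    (V' : ι' → ValuationSubring E) (r : ι → ι')
    (htab : ∀ (j : ι) (y : E), φ y ∈ V j ↔ y ∈ V' (r j))
    (hinc' : ∀ a b, a ≠ b → ¬ V' a ≤ V' b) (i : ι) (hinj : ∀ j, r j = r i → j = i) :
    SepAlong φ V i := by
  intro j hj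
  have hne : r i ≠ r j := fun h => hj (hinj j h.symm)
  obtain ⟨y, hy1, hy2⟩ := SetLike.not_le_iff_exists.1 (hinc' (r i) (r j) hne)
  exact ⟨y, (htab i y).2 hy1, fun h => hy2 ((htab j y).1 h)⟩

/-- **Uniqueness along `φ` from THREE**, if the base field lies in `φ E`. -/
theorem uniqAlong_of_three (φ : E →+* L) (ψ' : E₀ →+* E) (V₀ : ValuationSubring E₀)
    (V : ι → ValuationSubring L) (i : ι)
    (hthree : ThreeAlong (φ.comp ψ') V₀ V) (hbase : ∀ a ∈ V₀, φ (ψ' a) ∈ V i)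
    (hsep : SepAlong φ V i) : UniqAlong φ (V i) := by
  intro W' hW' htop
  obtain ⟨j, hj⟩ := hthree W' htop (fun a ha => hW' _ (hbase a ha))
  by_cases hji : j = i
  · rw [hj, hji]
  · exfalso
    obtain ⟨y, hy1, hy2⟩ := hsep j hji
    exact hy2 (hj ▸ hW' y hy1)

/-- "Above `V₀` along `β₁`" implies "above `V₀` along `α₁`". -/
def BaseSwap (α₁ β₁ : E₀ →+* E₁) (V₀ : ValuationSubring E₀) : Prop :=
  ∀ X : ValuationSubring E₁, (∀ a ∈ V₀, β₁ a ∈ X) → ∀ a ∈ V₀, α₁ a ∈ X

/-- `BaseSwap` from an involution `w` with `w ∘ α₁ = β₁`, THREE along `α₁` and the fact that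
all the valuations lie above `V₀` along `β₁`. -/
theorem baseSwap_of_invol {ι₁ : Type} (α₁ β₁ : E₀ →+* E₁) (V₀ : ValuationSubring E₀)
    (w : E₁ →+* E₁) (hww : ∀ x, w (w x) = x) (hwα : ∀ a, w (α₁ a) = β₁ a)
    (V₁ : ι₁ → ValuationSubring E₁) (htwo : ThreeAlong α₁ V₀ V₁)
    (hbaseβ : ∀ j, ∀ a ∈ V₀, β₁ a ∈ V₁ j) : BaseSwap α₁ β₁ V₀ := by
  intro X hX a ha
  by_cases htop : X = ⊤
  · rw [htop]; trivial
  set Y : ValuationSubring E₁ := X.comap w with hY
  have hmem : ∀ x, x ∈ Y ↔ w x ∈ X := fun x => Iff.rfl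
  have hYtop : Y ≠ ⊤ := by
    intro h
    apply htop
    rw [eq_top_iff]
    intro x _
    have : w x ∈ Y := by rw [h]; trivial
    rw [hmem, hww] at this
    exact this
  obtain ⟨j, hj⟩ := htwo Y hYtop (fun b hb => by rw [hmem, hwα]; exact hX b hb)
  have h1 : w (α₁ a) ∈ Y := by rw [hj, hwα]; exact hbaseβ j a ha
  rw [hmem, hww] at h1
  exact h1

/-- **Uniqueness along `β` from THREE along `α ^ (e+1)`**, through the first level. -/
theorem uniqAlong_of_three_swap (β : E →+* L) (ψ : E₀ →+* L) (ψ' : E₀ →+* E)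
    (ι₁ : E₁ →+* L) (α₁ β₁ : E₀ →+* E₁) (hψ : ∀ a, ψ a = ι₁ (α₁ a))
    (hβ : ∀ a, β (ψ' a) = ι₁ (β₁ a)) (V₀ : ValuationSubring E₀)
    (hswap : BaseSwap α₁ β₁ V₀) (V : ι → ValuationSubring L) (i : ι)
    (hthree : ThreeAlong ψ V₀ V) (hbase : ∀ a ∈ V₀, β (ψ' a) ∈ V i)
    (hsep : SepAlong β V i) : UniqAlong β (V i) := by
  intro W' hW' htop
  have h1 : ∀ a ∈ V₀, β₁ a ∈ W'.comap ι₁ := fun a ha => by
    rw [ValuationSubring.mem_comap, ← hβ]
    exact hW' _ (hbase a ha)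
  have h2 := hswap (W'.comap ι₁) h1
  obtain ⟨j, hj⟩ := hthree W' htop (fun a ha => by
    rw [hψ]
    exact ValuationSubring.mem_comap.1 (h2 a ha))
  by_cases hji : j = i
  · rw [hj, hji]
  · exfalso
    obtain ⟨y, hy1, hy2⟩ := hsep j hji
    exact hy2 (hj ▸ hW' y hy1)

/-- **The cover**: every `V i` is the only valuation ring above its restriction along `α`, or
along `β`. -/
theorem cover_abs (α β : E →+* L) (ψ' : E₀ →+* E) (ι₁ : E₁ →+* L) (α₁ β₁ : E₀ →+* E₁)
    (hψ : ∀ a, α (ψ' a) = ι₁ (α₁ a)) (hβ : ∀ a, β (ψ' a) = ι₁ (β₁ a))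
    (V₀ : ValuationSubring E₀) (hswap : BaseSwap α₁ β₁ V₀)
    (V : ι → ValuationSubring L) (hthree : ThreeAlong (α.comp ψ') V₀ V)
    (V' : ι' → ValuationSubring E) (hinc' : ∀ a b, a ≠ b → ¬ V' a ≤ V' b)
    (hbase' : ∀ a', ∀ a ∈ V₀, ψ' a ∈ V' a')
    (rα rβ : ι → ι') (htabα : ∀ (j : ι) (y : E), α y ∈ V j ↔ y ∈ V' (rα j))
    (htabβ : ∀ (j : ι) (y : E), β y ∈ V j ↔ y ∈ V' (rβ j))
    (hfib : ∀ i, (∀ j, rα j = rα i → j = i) ∨ (∀ j, rβ j = rβ i → j = i)) :
    ∀ i, UniqAlong α (V i) ∨ UniqAlong β (V i) := by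
  intro i
  rcases hfib i with h | h
  · left
    exact uniqAlong_of_three α ψ' V₀ V i hthree
      (fun a ha => (htabα i _).2 (hbase' _ a ha))
      (sepAlong_of_table α V V' rα htabα hinc' i h)
  · right
    exact uniqAlong_of_three_swap β (α.comp ψ') ψ' ι₁ α₁ β₁ hψ hβ V₀ hswap V i hthree
      (fun a ha => (htabβ i _).2 (hbase' _ a ha))
      (sepAlong_of_table β V V' rβ htabβ hinc' i h)

/-- The fibres of `a ↦ min a e` and `a ↦ max (a - 1) 0` on `{0, …, e + 1}`, `e ≥ 2`: every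
index is alone in its fibre for one of the two maps. -/
theorem fib_min_pred (e : ℕ) (he : 2 ≤ e) (i : ℕ) (hi : i ≤ e + 1) :
    (∀ j, j ≤ e + 1 → min j e = min i e → j = i) ∨
      (∀ j, j ≤ e + 1 → j - 1 = i - 1 → j = i) := by
  by_cases h : i ≤ e - 1
  · left
    intro j hj hji
    rcases Nat.lt_or_ge j e with h1 | h1
    · rw [min_eq_left h1.le, min_eq_left (by omega)] at hji
      exact hji
    · rw [min_eq_right h1, min_eq_left (by omega)] at hji
      omega
  · right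
    intro j hj hji
    omega

end Cover

end Fermat.Agent.S45.NUE.H51
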