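import Fermat.Agent.S45.NUE.H17_RedGen
import Fermat.Agent.S45.NUE.H51_CoverAbs
import Fermat.Agent.S36.NU.H88_WQ

/-!
# S45 / NU_e, package E-VV / N4 FIBRES (helper51): the Atkin–Lehner involution `W_{q^e}` and
THREE along `β^e`

`N = M q^e`, `B M + k q^e = 1`.

* `threeAlong_of_invol` (abstract): THREE along `ψ_β = w ∘ ψ_α` from THREE along `ψ_α`, if all
  the valuations lie above `V₀` along `ψ_β`;
* `wE : F_N ≃ₐ F_N` the involution `W_{q^e}` (helper88's `wQ`), `wE_inclusion : wE x = x (q^e τ)`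
  for `x` of level `M`; `wEo` on the inertia-fixed functions, `wEo_inclL0 = betaL0`;
* `threeAlong_beta` : THREE along `β^e` (`betaL0`) from THREE along the inclusion.
-/

set_option autoImplicit false
set_option synthInstance.maxHeartbeats 400000
set_option maxHeartbeats 1000000
set_option linter.unusedSectionVars false
set_option linter.unusedVariables false
set_option linter.style.haveILetI false

noncomputable section

namespace Fermat.Agent.S45.NUE.H51

open Fermat.Agent.S24 Fermat.Agent.BAD.H88 ModularCurve AlgebraicCurve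
open Fermat.Agent.S36.NU.H88 Fermat.Agent.S45.NUE.H23 Fermat.Agent.S45.NUE.H17

local notation "L0" => Fermat.Agent.S36.NU.H23.L0
local notation "VE0" => Fermat.Agent.S36.NU.H23.VE0
local notation "inclL0" => Fermat.Agent.S36.NU.H23.inclL0

/-! ## Abstract part -/

section Abs

variable {E₀ L : Type} [Field E₀] [Field L] {ι : Type}

/-- **THREE along `ψ_β = w ∘ ψ_α`** from THREE along `ψ_α`. -/
theorem threeAlong_of_invol (ψα ψβ : E₀ →+* L) (V₀ : ValuationSubring E₀)
    (V : ι → ValuationSubring L) (w : L →+* L) (hww : ∀ x, w (w x) = x)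
    (hw : ∀ a, w (ψα a) = ψβ a) (hthree : ThreeAlong ψα V₀ V)
    (hbaseβ : ∀ j, ∀ a ∈ V₀, ψβ a ∈ V j) : ThreeAlong ψβ V₀ V := by
  intro W' htop hW'
  set Y : ValuationSubring L := W'.comap w with hY
  have hmem : ∀ x, x ∈ Y ↔ w x ∈ W' := fun x => Iff.rfl
  have hYtop : Y ≠ ⊤ := by
    intro h
    apply htop
    rw [eq_top_iff]
    intro x _
    have : w x ∈ Y := by rw [h]; trivial
    rw [hmem, hww] at this
    exact this
  obtain ⟨j, hj⟩ := hthree Y hYtop (fun a ha => by rw [hmem, hw]; exact hW' a ha)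
  refine hthree W' htop (fun a ha => ?_)
  have h1 : w (ψα a) ∈ Y := by rw [hj, hw]; exact hbaseβ j a ha
  rw [hmem, hww] at h1
  exact h1

end Abs

/-! ## The involution `W_{q^e}` -/

section AL

variable (A : ValuationSubring Kbar)
variable (N q M e : ℕ) (B k : ℤ) (hN : N = M * q ^ e) (hB : B * M + k * (q : ℤ) ^ e = 1)
  (hq : q.Prime) [NeZero N] [NeZero q] [NeZero M]

include hB in
theorem habE : k * ((q ^ e : ℕ) : ℤ) + B * (M : ℤ) = 1 := by
  push_cast
  linarith

/-- **The Atkin–Lehner involution `W_{q^e}`** of `F_N`, `N = M q^e`. -/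
def wE : FN N ≃ₐ[Kbar] FN N := wQ N (q ^ e) M k B hN (habE q M e B k hB)

theorem wE_wE (x : FN N) : wE N q M e B k hN hB (wE N q M e B k hN hB x) = x :=
  wQ_wQ N (q ^ e) M k B hN (habE q M e B k hB) x

theorem wE_arith (σ : Kbar ≃ₐ[ℚ] Kbar) (x : FN N) :
    wE N q M e B k hN hB (arithmeticRingAut (modularFunctionFieldFull N) σ x)
      = arithmeticRingAut (modularFunctionFieldFull N) σ (wE N q M e B k hN hB x) :=
  wQ_arith N (q ^ e) M k B hN (habE q M e B k hB) σ x

/-- **`W_{q^e} x = x (q^e τ)`** for `x` of level `M`. -/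
theorem wE_inclusion (hle : modularFunctionFieldBar M ≤ modularFunctionFieldBar N) (x : FN M) :
    wE N q M e B k hN hB (IntermediateField.inclusion hle x) = betaE N q M e hN x := by
  have hq0 : 0 < q := Nat.pos_of_ne_zero (NeZero.ne q)
  have key : ((wE N q M e B k hN hB : FN N ≃ₐ[Kbar] FN N) : FN N →ₐ[Kbar] FN N).comp
      (IntermediateField.inclusion hle) = betaE N q M e hN := by
    apply algHom_ext_of_adjoin _ (adjoin_jdF M)
    rintro y ⟨D, hD0, hD, rfl⟩
    obtain ⟨d', hM⟩ := hD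
    have hD' : D ∣ M := ⟨d', hM⟩
    have hDN : D ∣ N := hD'.trans ⟨q ^ e, hN⟩
    have hD0' : 0 < D := Nat.pos_of_ne_zero (NeZero.ne D)
    haveI : NeZero (D * q ^ e) := ⟨(Nat.mul_pos hD0' (pow_pos hq0 _)).ne'⟩
    have hDN' : D * q ^ e ∣ N := by rw [hN]; exact Nat.mul_dvd_mul_right hD' _
    have e1 : IntermediateField.inclusion hle (jdF M D hD') = jdF N D hDN := by
      apply Subtype.ext
      rw [IntermediateField.coe_inclusion, coe_jdF, coe_jdF]
    show wE N q M e B k hN hB (IntermediateField.inclusion hle (jdF M D hD'))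
      = betaE N q M e hN (jdF M D hD')
    rw [e1, betaE_jdF N q M e hN D hD' hDN']
    exact wQ_jdF' N (q ^ e) M k B hN (habE q M e B k hB) D (D * q ^ e) D d' 1 (q ^ e)
      (mul_one D).symm rfl hM (one_mul _).symm hDN hDN'
  exact DFunLike.congr_fun key x

theorem wE_mem_L0 (x : FN N) (hx : x ∈ L0 A N) : wE N q M e B k hN hB x ∈ L0 A N := by
  intro σ hσ
  rw [← wE_arith, hx σ hσ]

/-- `W_{q^e}` on the inertia-fixed functions. -/
def wEo : ↥(L0 A N) →+* ↥(L0 A N) :=
  (((wE N q M e B k hN hB : FN N ≃ₐ[Kbar] FN N) : FN N →+* FN N).comp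
    (L0 A N).subtype).codRestrict (L0 A N)
    (fun x => wE_mem_L0 A N q M e B k hN hB (x : FN N) x.2)

theorem coe_wEo (x : ↥(L0 A N)) :
    ((wEo A N q M e B k hN hB x : ↥(L0 A N)) : FN N) = wE N q M e B k hN hB (x : FN N) := rfl

theorem wEo_wEo (x : ↥(L0 A N)) : wEo A N q M e B k hN hB (wEo A N q M e B k hN hB x) = x :=
  Subtype.ext (wE_wE N q M e B k hN hB (x : FN N))

theorem wEo_inclL0 (hle : modularFunctionFieldBar M ≤ modularFunctionFieldBar N)
    (x : ↥(L0 A M)) :
    wEo A N q M e B k hN hB (inclL0 A hle x) = betaL0 A N q M e hN x := by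
  apply Subtype.ext
  rw [coe_wEo, Fermat.Agent.S36.NU.H23.coe_inclL0, wE_inclusion N q M e B k hN hB hle, coe_betaL0]

/-- **THREE along `β^e`** from THREE along the inclusion of the level `M`, for the valuations
`VE a`, `a ≤ e`. -/
theorem threeAlong_beta (hle : modularFunctionFieldBar M ≤ modularFunctionFieldBar N)
    (hthree : ThreeAlong (inclL0 A hle) (VE0 A M)
      (fun a : Fin (e + 1) => VE A N q M e B k hN hB hq (a : ℕ))) :
    ThreeAlong (betaL0 A N q M e hN) (VE0 A M)
      (fun a : Fin (e + 1) => VE A N q M e B k hN hB hq (a : ℕ)) :=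
  threeAlong_of_invol (inclL0 A hle) (betaL0 A N q M e hN) (VE0 A M) _
    (wEo A N q M e B k hN hB) (wEo_wEo A N q M e B k hN hB)
    (wEo_inclL0 A N q M e B k hN hB hle) hthree
    (fun a x hx => betaL0_mem_VE A N q M e B k hN hB hq (a : ℕ) (Nat.lt_succ_iff.1 a.2) x hx)

end AL

end Fermat.Agent.S45.NUE.H51
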