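import Fermat.Agent.S45.NUE.H17_BranchE
import Fermat.Agent.S45.NUE.H28_RadQEMod
import Fermat.Agent.S45.NUE.H51_ALE
import Fermat.Agent.S36.NU.H82_J0Jdd
import Fermat.Agent.S45.NUE.H17_BranchModel

/-!
# S45 / NU_e, leaf E-PT-BR, part 2 (helper17): the branches of the charts of `j` and `1 / j`

`N = M q^e`, `q ∤ M` tame, `A` over `q`; `VE a`, `sE a` (`a ≤ e`) the valuations of `L0 A N`.
`C` is ANY chart over `R^ur` on `L0 A N` whose valuation rings are `VE (idx i)` and whose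
residue maps are `sE (idx i)` up to embeddings `emb i : κ i → FM A M` (for the charts
`chartOf T j res h` of the E-TOT datum: `emb i = id`).

* `wEo_j0`, `wEo_jE`, `wEo_const`, `j0_isIntegral_jE` : Atkin–Lehner exchanges `j` and
  `j (q^e τ)`;
* `jE_mem_VE` : `j (q^e τ) ∈ VE a`, `a ≤ e`;
* `branch_chart0E` : **`hbr` for the chart of `j`** (hypothesis of
  `H88.pointDataE_of_dichotomy`);
* `branch_chartInfE` : **`hbr` for the chart of `1 / j`** at the cusps (hypothesis of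
  `H88.cusp_pointDataAtE`).
-/

set_option autoImplicit false
set_option synthInstance.maxHeartbeats 400000
set_option maxHeartbeats 1000000
set_option linter.unusedSectionVars false
set_option linter.unusedVariables false
set_option linter.style.haveILetI false

noncomputable section

namespace Fermat.Agent.S45.NUE.H17

open ModularCurve AlgebraicCurve Polynomial IntermediateField
open Fermat.Agent.S24 Fermat.Agent.BAD.H88 Fermat.Agent.S28 Fermat.Agent.S28.H73
open Fermat.Agent.RED.H73 Fermat.Agent.RED.H17 Fermat.Agent.S36.NU.H88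
open Fermat.Agent.S36.NU.H41 Fermat.Agent.BAD
open Fermat.Agent.S36.NU.H16 Fermat.Agent.S36.NU.H65
open Fermat.Agent.S36.NU.H17 (iotaUr jbar coe_jbar ubar ubar_eq finiteDimensional_jbar
  isSeparable_jbar finiteDimensional_ubar isSeparable_ubar isIntegral_self_adjoin jFM_ne_zero)
open Fermat.Agent.S45.NUE.H23
open Fermat.Agent.S45.NUE.H51 (wEo coe_wEo wEo_wEo wEo_inclL0 wE)

local notation "L0" => Fermat.Agent.S36.NU.H23.L0
local notation "VE0" => Fermat.Agent.S36.NU.H23.VE0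
local notation "sE0" => Fermat.Agent.S36.NU.H23.sE
local notation "inclL0" => Fermat.Agent.S36.NU.H23.inclL0

section Level

variable (A : ValuationSubring Kbar)
variable (N q M e : ℕ) (B k : ℤ) (hN : N = M * q ^ e) (hB : B * M + k * (q : ℤ) ^ e = 1)
  (hq : q.Prime) [NeZero N] [NeZero q] [NeZero M]

/-! ## Atkin–Lehner -/

/-- `j` of the level `M`, as an inertia-fixed function. -/
theorem jF_mem_L0' : Fermat.Agent.RED.H73.jF (L := Kbar) M ∈ L0 A M :=
  Fermat.Agent.S36.NU.H17.jF_mem_L0 A M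

theorem inclL0_jF (hle : modularFunctionFieldBar M ≤ modularFunctionFieldBar N) :
    inclL0 A hle ⟨Fermat.Agent.RED.H73.jF (L := Kbar) M, jF_mem_L0' A M⟩ = j0 A N := by
  apply Subtype.ext
  rw [Fermat.Agent.S36.NU.H23.coe_inclL0]
  exact inclusion_jF A N M hle

theorem betaL0_jF :
    betaL0 A N q M e hN ⟨Fermat.Agent.RED.H73.jF (L := Kbar) M, jF_mem_L0' A M⟩
      = jE A N q M e hN := by
  apply Subtype.ext
  rw [coe_betaL0]
  exact betaE_jF A N q M e hN

theorem wEo_j0 : wEo A N q M e B k hN hB (j0 A N) = jE A N q M e hN := by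
  rw [← inclL0_jF A N M (hleE N q M e hN), wEo_inclL0, betaL0_jF]

theorem wEo_jE : wEo A N q M e B k hN hB (jE A N q M e hN) = j0 A N := by
  rw [← wEo_j0 A N q M e B k hN hB, wEo_wEo]

theorem coe_algebraMap_RurE (r : ↥(Rur A)) :
    ((algebraMap ↥(Rur A) ↥(L0 A N) r : ↥(L0 A N)) : FN N)
      = algebraMap Kbar (FN N) (((r : ↥(Kur A)) : Kbar)) := rfl

theorem wEo_const (r : ↥(Rur A)) :
    wEo A N q M e B k hN hB (algebraMap ↥(Rur A) ↥(L0 A N) r)
      = algebraMap ↥(Rur A) ↥(L0 A N) r := by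
  apply Subtype.ext
  rw [coe_wEo, coe_algebraMap_RurE]
  exact (wE N q M e B k hN hB).commutes _

include hB in
theorem jE_ne_zero : jE A N q M e hN ≠ 0 := by
  rw [← wEo_j0 A N q M e B k hN hB]
  exact (map_ne_zero (wEo A N q M e B k hN hB)).2 (j0_ne_zero A N)

include hB in
/-- **`j` is integral over `R^ur[j (q^e τ)]`** if `j (q^e τ)` is integral over `R^ur[j]`. -/
theorem j0_isIntegral_jE
    (hjE : IsIntegral ↥(Algebra.adjoin ↥(Rur A) {j0 A N}) (jE A N q M e hN)) :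
    IsIntegral ↥(Algebra.adjoin ↥(Rur A) {jE A N q M e hN}) (j0 A N) := by
  have hmap : ∀ x ∈ Algebra.adjoin ↥(Rur A) {j0 A N},
      wEo A N q M e B k hN hB x ∈ Algebra.adjoin ↥(Rur A) {jE A N q M e hN} := by
    intro x hx
    induction hx using Algebra.adjoin_induction with
    | mem y hy =>
      rw [Set.mem_singleton_iff] at hy
      subst hy
      rw [wEo_j0 A N q M e B k hN hB]
      exact Algebra.subset_adjoin rfl
    | algebraMap r =>
      rw [wEo_const]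
      exact Subalgebra.algebraMap_mem _ r
    | add _ _ _ _ h1 h2 =>
      rw [map_add]
      exact add_mem h1 h2
    | mul _ _ _ _ h1 h2 =>
      rw [map_mul]
      exact mul_mem h1 h2
  let φ : ↥(Algebra.adjoin ↥(Rur A) {j0 A N})
      →+* ↥(Algebra.adjoin ↥(Rur A) {jE A N q M e hN}) :=
    ((wEo A N q M e B k hN hB).comp
      (Algebra.adjoin ↥(Rur A) {j0 A N}).val.toRingHom).codRestrict
      (Algebra.adjoin ↥(Rur A) {jE A N q M e hN}).toSubring (fun x => hmap x.1 x.2)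
  have h1 : IsIntegral ↥(Algebra.adjoin ↥(Rur A) {jE A N q M e hN})
      (wEo A N q M e B k hN hB (jE A N q M e hN)) :=
    IsIntegral.map_of_comp_eq φ (wEo A N q M e B k hN hB) (by ext x; rfl) hjE
  rwa [wEo_jE A N q M e B k hN hB] at h1

include hB hq in
/-- `j (q^e τ) ∈ VE a`, `a ≤ e`. -/
theorem jE_mem_VE (a : ℕ) (hae : a ≤ e) : jE A N q M e hN ∈ VE A N q M e B k hN hB hq a := by
  rw [← betaL0_jF A N q M e hN]
  exact betaL0_mem_VE A N q M e B k hN hB hq a hae _ (jF_mem A M)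

end Level

/-! ## The lifts of the functions of the good level -/

section Lift

variable (A : ValuationSubring Kbar)
variable (N q M e : ℕ) (B k : ℤ) (hN : N = M * q ^ e) (hB : B * M + k * (q : ℤ) ^ e = 1)
  (hq : q.Prime) [NeZero N] [NeZero q] [NeZero M]

/-- The lift of a function of the good level to the component `a`: `incl f` if `e ≤ 2 a`,
`f (q^e τ)` if `2 a < e`. -/
def liftE (a : ℕ) : ↥(L0 A M) →+* ↥(L0 A N) :=
  if e ≤ 2 * a then inclL0 A (hleE N q M e hN) else betaL0 A N q M e hN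

theorem liftE_of_le (a : ℕ) (h : e ≤ 2 * a) :
    liftE A N q M e hN a = inclL0 A (hleE N q M e hN) := if_pos h

theorem liftE_of_lt (a : ℕ) (h : 2 * a < e) :
    liftE A N q M e hN a = betaL0 A N q M e hN := if_neg (not_le.2 h)

include hB hq in
theorem liftE_mem_VE (a : ℕ) (x : ↥(L0 A M)) (hx : x ∈ VE0 A M) (a' : ℕ) (ha' : a' ≤ e) :
    liftE A N q M e hN a x ∈ VE A N q M e B k hN hB hq a' := by
  rcases Nat.lt_or_ge (2 * a) e with h | h
  · rw [liftE_of_lt A N q M e hN a h]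
    exact betaL0_mem_VE A N q M e B k hN hB hq a' ha' x hx
  · rw [liftE_of_le A N q M e hN a h]
    exact inclL0_mem_VE A N q M e B k hN hB hq _ a' x hx

include hB hq in
/-- **The reduction of the lift on the component `a` is the reduction at the good level.** -/
theorem sE_liftE (hA : (q : Kbar) ∈ A.nonunits) (a : ℕ) (hae : a ≤ e) (x : ↥(VE0 A M))
    (h : liftE A N q M e hN a (x : ↥(L0 A M)) ∈ VE A N q M e B k hN hB hq a) :
    sE A N q M e B k hN hB hq a ⟨_, h⟩ = sE0 A M x := by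
  rcases Nat.lt_or_ge (2 * a) e with h2 | h2
  · have hm : betaL0 A N q M e hN (x : ↥(L0 A M)) ∈ VE A N q M e B k hN hB hq a :=
      betaL0_mem_VE A N q M e B k hN hB hq a hae x x.2
    have e1 : (⟨liftE A N q M e hN a (x : ↥(L0 A M)), h⟩ : ↥(VE A N q M e B k hN hB hq a))
        = ⟨_, hm⟩ := Subtype.ext (by
      show liftE A N q M e hN a (x : ↥(L0 A M)) = betaL0 A N q M e hN (x : ↥(L0 A M))
      rw [liftE_of_lt A N q M e hN a h2])
    rw [e1, sE_betaL0 A N q M e B k hN hB hq hA a hae x hm]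
    have h0 : max e (2 * a) - e = 0 := by omega
    haveI : NeZero (q ^ (max e (2 * a) - e)) := ⟨pow_ne_zero _ (NeZero.ne q)⟩
    rw [qExpand_congr (show q ^ (max e (2 * a) - e) = 1 by rw [h0, pow_zero]),
      qExpand_one_apply]
  · have hm : inclL0 A (hleE N q M e hN) (x : ↥(L0 A M)) ∈ VE A N q M e B k hN hB hq a :=
      inclL0_mem_VE A N q M e B k hN hB hq _ a x x.2
    have e1 : (⟨liftE A N q M e hN a (x : ↥(L0 A M)), h⟩ : ↥(VE A N q M e B k hN hB hq a))
        = ⟨_, hm⟩ := Subtype.ext (by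
      show liftE A N q M e hN a (x : ↥(L0 A M))
        = inclL0 A (hleE N q M e hN) (x : ↥(L0 A M))
      rw [liftE_of_le A N q M e hN a h2])
    rw [e1, sE_inclL0 A N q M e B k hN hB hq _ a x hm]
    have h0 : e - 2 * a = 0 := by omega
    haveI : NeZero (q ^ (e - 2 * a)) := ⟨pow_ne_zero _ (NeZero.ne q)⟩
    rw [qExpand_congr (show q ^ (e - 2 * a) = 1 by rw [h0, pow_zero]), qExpand_one_apply]

/-- The lift is integral over `K^ur[j]`. -/
theorem isIntegral_liftE (a : ℕ) (f : FN M) (hf : f ∈ L0 A M)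
    (hint : ((aeval (Fermat.Agent.RED.H73.jF (L := Kbar) M) : Kbar[X] →ₐ[Kbar] FN M).toRingHom.comp
        (mapRingHom (iotaUr A))).IsIntegralElem f) :
    IsIntegral ↥(Algebra.adjoin ↥(Kur A) {j0 A N}) (liftE A N q M e hN a ⟨f, hf⟩) := by
  rcases Nat.lt_or_ge (2 * a) e with h | h
  · rw [liftE_of_lt A N q M e hN a h]
    exact isIntegral_betaE A N q M e hN f hf hint
  · rw [liftE_of_le A N q M e hN a h]
    exact isIntegral_inclE A N M _ f hf hint

end Lift

/-! ## The branches of a chart with the valuations `VE a` -/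

section Chart

variable (A : ValuationSubring Kbar)
variable (N q M e : ℕ) (B k : ℤ) (hN : N = M * q ^ e) (hB : B * M + k * (q : ℤ) ^ e = 1)
  (hq : q.Prime) [NeZero N] [NeZero q] [NeZero M]
variable {ι : Type*} {κ : ι → Type*} [∀ i, Field (κ i)] [∀ i, Algebra (kV A) (κ i)]
  (C : Chart ↥(Rur A) ↥(L0 A N) (kV A) ι κ) (idx : ι → ℕ)
  (emb : ∀ i, κ i →ₐ[kV A] FM A M)
  (hidx : ∀ i, idx i ≤ e)
  (hV : ∀ i, C.V i = VE A N q M e B k hN hB hq (idx i))
  (hred : ∀ i (x : ↥(L0 A N)) (hx : x ∈ C.V i) (hx' : x ∈ VE A N q M e B k hN hB hq (idx i)),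
    ((emb i (C.red i ⟨x, hx⟩) : FM A M) : LaurentSeries (kV A))
      = sE A N q M e B k hN hB hq (idx i) ⟨x, hx'⟩)
  (hqM : ¬ q ∣ M) (hA : A.LiesOverPrime q)

include hidx hV hred hqM hA in
/-- The residue field of every component is the function field of the good level. -/
theorem emb_surjective (i : ι) : Function.Surjective (emb i) := by
  intro y
  haveI : NeZero (M * q * q) :=
    ⟨Nat.mul_ne_zero (Nat.mul_ne_zero (NeZero.ne M) (NeZero.ne q)) (NeZero.ne q)⟩
  have hy : ((y : FM A M) : LaurentSeries (kV A)) ∈ modularFunctionFieldFullC (kV A) M := by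
    rw [← Fermat.Agent.S36.NU.H23.FM_eq A q M hq hqM hA]
    exact y.2
  obtain ⟨x, hx⟩ := exists_sE_eq A N q M e B k hN hB hq hqM hA (hleE N q M e hN) (idx i)
    (hidx i) _ hy
  have hxV : (x : ↥(L0 A N)) ∈ C.V i := by
    rw [hV i]
    exact x.2
  refine ⟨C.red i ⟨x, hxV⟩, Subtype.ext ?_⟩
  rw [hred i x hxV x.2]
  exact hx

include hidx hV hred hA in
/-- The reduction of the lift. -/
theorem emb_red_liftE (i : ι) (f : FN M) (hf : f ∈ L0 A M) (hfV : f ∈ VM A M)
    (h : liftE A N q M e hN (idx i) ⟨f, hf⟩ ∈ C.V i) :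
    emb i (C.red i ⟨_, h⟩) = redM A M ⟨f, hfV⟩ := by
  apply Subtype.ext
  have h' : liftE A N q M e hN (idx i) ⟨f, hf⟩ ∈ VE A N q M e B k hN hB hq (idx i) := by
    rw [← hV i]
    exact h
  rw [hred i _ h h']
  exact sE_liftE A N q M e B k hN hB hq hA (idx i) (hidx i) ⟨⟨f, hf⟩, hfV⟩ h'

include hV hred hA in
/-- The reduction of `j` on the component `i` is `j~ ^ (q ^ (e - 2 a))`. -/
theorem emb_red_j0 (i : ι) (h : j0 A N ∈ C.V i) :
    emb i (C.red i ⟨j0 A N, h⟩) = jbar A M ^ q ^ (e - 2 * idx i) := by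
  haveI : Fact q.Prime := ⟨hq⟩
  haveI : CharP (kV A) q := Fermat.Agent.BAD.H82.charP_kV A hq hA
  haveI := Fermat.Agent.S45.NUE.H28.neZero_one_mul_pow q (e - 2 * idx i + 0)
  haveI : NeZero (q ^ (e - 2 * idx i)) := ⟨pow_ne_zero _ (NeZero.ne q)⟩
  apply Subtype.ext
  have h' : j0 A N ∈ VE A N q M e B k hN hB hq (idx i) := by
    rw [← hV i]
    exact h
  rw [hred i _ h h', Fermat.Agent.S45.NUE.H28.sE_j0 A N q M e B k hN hB hq (idx i) h']
  have h1 : ((jbar A M ^ q ^ (e - 2 * idx i) : FM A M) : LaurentSeries (kV A))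
      = ((jbar A M : FM A M) : LaurentSeries (kV A)) ^ q ^ (e - 2 * idx i) := rfl
  rw [h1, coe_jbar, jqModC_pow q (e - 2 * idx i)]
  exact qExpand_congr (by rw [Nat.add_zero, one_mul]) _

include hB hq hV in
theorem j0_mem_chartV (i : ι) : j0 A N ∈ C.V i := by
  rw [hV i]
  exact Fermat.Agent.S45.NUE.H28.j0_mem_VE A N q M e B k hN hB hq (idx i)

include hidx hV hred hqM hA in
/-- **`hbr` for the chart of `j`**: every closed point of the special fibre of a chart of `j`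
with the valuation rings `VE a` has a branch on every component through it. -/
theorem branch_chart0E (ht : Fermat.Agent.BAD.H91.TameAt M q) (hj0 : j0 A N ∈ C.B)
    (hBint : ∀ β : C.B, IsIntegral ↥(Algebra.adjoin ↥(Rur A) {j0 A N}) (β : ↥(L0 A N)))
    (hcrit : ∀ f : ↥(L0 A N), IsIntegral ↥(Algebra.adjoin ↥(Kur A) {j0 A N}) f →
      (∀ i, f ∈ C.V i) → f ∈ C.B) :
    ∀ 𝔪 : Ideal C.B, 𝔪.IsMaximal → ∀ i, C.Icomp i ≤ 𝔪 → Nonempty (Branch C 𝔪 i) := by
  intro 𝔪 hmax i hi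
  haveI : IsAlgClosed (kV A) := isAlgClosed_kV A
  haveI := finiteDimensional_jbar A M hq hqM hA
  haveI := isSeparable_jbar A M hq hqM hA
  refine branch_of_model C i (j0 A N) hj0 hBint (emb i)
    (emb_surjective A N q M e B k hN hB hq C idx emb hidx hV hred hqM hA i) (jbar A M) ?_ ?_
    𝔪 hmax hi
  · have e1 : emb i (C.rdB i ⟨j0 A N, hj0⟩) = jbar A M ^ q ^ (e - 2 * idx i) :=
      emb_red_j0 A N q M e B k hN hB hq C idx emb hV hred hA i _
    rw [e1]
    exact (isIntegral_self_adjoin _).pow _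
  · intro y hy
    obtain ⟨f, hf, -, hint, hfV, hredf⟩ :=
      Fermat.Agent.S36.NU.H17.normalImg_tame A M hq hA hqM ht _ rfl (jF_mem A M) y hy
    have hmem : liftE A N q M e hN (idx i) ⟨f, hf⟩ ∈ C.B := by
      refine hcrit _ (isIntegral_liftE A N q M e hN (idx i) f hf hint) (fun i' => ?_)
      rw [hV i']
      exact liftE_mem_VE A N q M e B k hN hB hq (idx i) ⟨f, hf⟩ hfV (idx i') (hidx i')
    refine ⟨⟨_, hmem⟩, ?_⟩
    have e1 : emb i (C.rdB i ⟨_, hmem⟩) = redM A M ⟨f, hfV⟩ :=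
      emb_red_liftE A N q M e B k hN hB hq C idx emb hidx hV hred hA i f hf hfV _
    rw [e1, hredf]

/-! ### The chart of `1 / j` -/

include hB hq hV hred hA in
/-- The reduction of `1 / j` on the component `i` is `u~ ^ (q ^ (e - 2 a))`. -/
theorem emb_red_u0 (i : ι) (h : (j0 A N)⁻¹ ∈ C.V i) :
    emb i (C.red i ⟨(j0 A N)⁻¹, h⟩) = ubar A M ^ q ^ (e - 2 * idx i) := by
  rw [Fermat.Agent.S36.NU.H28.red_inv_eq (C.V i) (C.red i)
    (j0_mem_chartV A N q M e B k hN hB hq C idx hV i) h (j0_ne_zero A N), map_inv₀,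
    emb_red_j0 A N q M e B k hN hB hq C idx emb hV hred hA i _, ubar_eq, inv_pow]

theorem emb_red_congr (i : ι) {x x' : ↥(L0 A N)} (hxx' : x = x') (hx : x ∈ C.V i)
    (hx' : x' ∈ C.V i) : emb i (C.red i ⟨x, hx⟩) = emb i (C.red i ⟨x', hx'⟩) := by
  subst hxx'
  rfl

include hidx hV hred hqM hA in
/-- **The local lifts at a cusp.** -/
theorem exists_liftInfE (hu0 : (j0 A N)⁻¹ ∈ C.B)
    (hcrit : ∀ f : ↥(L0 A N), IsIntegral ↥(Algebra.adjoin ↥(Kur A) {(j0 A N)⁻¹}) f →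
      (∀ i, f ∈ C.V i) → f ∈ C.B)
    (hjE : IsIntegral ↥(Algebra.adjoin ↥(Rur A) {j0 A N}) (jE A N q M e hN))
    (𝔪 : Ideal C.B) (hmax : 𝔪.IsMaximal)
    (hu : ∀ β : C.B, (β : ↥(L0 A N)) = (j0 A N)⁻¹ → β ∈ 𝔪) (i : ι)
    (y : FM A M) (hy : IsIntegral ↥(Algebra.adjoin (kV A) ({ubar A M} : Set (FM A M))) y) :
    ∃ g b : C.B, g ∉ 𝔪 ∧ emb i (C.rdB i b) = emb i (C.rdB i g) * y := by
  obtain ⟨f, hf, -, hint, -, hfV, hredf⟩ :=
    Fermat.Agent.S36.NU.H17.normalImg_good_inv A M hq hA hqM _ rfl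
      (Fermat.Agent.RED.H73.jF_inv_mem A M) y hy
  have hlV : ∀ i', liftE A N q M e hN (idx i) ⟨f, hf⟩ ∈ C.V i' := by
    intro i'
    rw [hV i']
    exact liftE_mem_VE A N q M e B k hN hB hq (idx i) ⟨f, hf⟩ hfV (idx i') (hidx i')
  have hlred : emb i (C.red i ⟨_, hlV i⟩) = y := by
    rw [emb_red_liftE A N q M e B k hN hB hq C idx emb hidx hV hred hA i f hf hfV (hlV i), hredf]
  rcases Nat.lt_or_ge (2 * idx i) e with h2 | h2
  · -- the wild components: `G(u)^m · f (q^e τ)`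
    have hl : liftE A N q M e hN (idx i) ⟨f, hf⟩ = betaL0 A N q M e hN ⟨f, hf⟩ := by
      rw [liftE_of_lt A N q M e hN (idx i) h2]
    have hF'int : IsIntegral ↥(Algebra.adjoin ↥(Kur A) {(jE A N q M e hN)⁻¹})
        (liftE A N q M e hN (idx i) ⟨f, hf⟩) := by
      rw [hl]
      exact isIntegral_betaE_inv A N q M e hN f hf hint
    obtain ⟨G, hG0, -, hG⟩ := Fermat.Agent.S36.NU.H17.exists_unit_pow_mul_isIntegral
      (R := ↥(Rur A)) (K := ↥(Kur A)) (j0_ne_zero A N) (jE_ne_zero A N q M e B k hN hB)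
      (j0_isIntegral_jE A N q M e B k hN hB hjE)
    obtain ⟨m, hm⟩ := hG _ hF'int
    set u : C.B := ⟨(j0 A N)⁻¹, hu0⟩ with hu'
    set g : C.B := aeval u G ^ m with hg
    have hgc : ((g : C.B) : ↥(L0 A N)) = aeval (j0 A N)⁻¹ G ^ m := by
      rw [hg, SubmonoidClass.coe_pow, aeval_subalgebra_coe]
    have hgV : ∀ i', ((g : C.B) : ↥(L0 A N)) ∈ C.V i' := fun i' => C.B_le i' _ g.2
    have hb : ((g : C.B) : ↥(L0 A N)) * liftE A N q M e hN (idx i) ⟨f, hf⟩ ∈ C.B := by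
      refine hcrit _ ?_ (fun i' => mul_mem (hgV i') (hlV i'))
      rw [hgc]
      exact hm m le_rfl
    refine ⟨g, ⟨_, hb⟩, ?_, ?_⟩
    · intro h
      have h1 : aeval u G ∈ 𝔪 := hmax.isPrime.mem_of_pow_mem m h
      exact Fermat.Agent.S36.NU.H17.aeval_not_mem_of_coeff_zero 𝔪 hmax.ne_top (hu u rfl) G hG0 h1
    · have e1 : C.rdB i ⟨_, hb⟩ = C.red i (⟨_, hgV i⟩ * ⟨_, hlV i⟩) := rfl
      have e2 : C.rdB i g = C.red i ⟨_, hgV i⟩ := rfl
      rw [e1, e2, map_mul, map_mul, hlred]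
  · -- the other components: `incl f`
    have hl : liftE A N q M e hN (idx i) ⟨f, hf⟩ = inclL0 A (hleE N q M e hN) ⟨f, hf⟩ := by
      rw [liftE_of_le A N q M e hN (idx i) h2]
    have hb : liftE A N q M e hN (idx i) ⟨f, hf⟩ ∈ C.B := by
      refine hcrit _ ?_ hlV
      rw [hl]
      exact isIntegral_inclE_inv A N M _ f hf hint
    refine ⟨1, ⟨_, hb⟩, fun h => hmax.ne_top ((Ideal.eq_top_iff_one 𝔪).2 h), ?_⟩
    have e1 : C.rdB i ⟨_, hb⟩ = C.red i ⟨_, hlV i⟩ := rfl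
    rw [e1, hlred, map_one, map_one, one_mul]

include hidx hV hred hqM hA in
/-- **`hbr` for the chart of `1 / j`**: every closed point of the special fibre of a chart of
`1 / j` with the valuation rings `VE a` where `1 / j` vanishes has a branch on every component
through it. -/
theorem branch_chartInfE (hu0 : (j0 A N)⁻¹ ∈ C.B)
    (hBint : ∀ β : C.B, IsIntegral ↥(Algebra.adjoin ↥(Rur A) {(j0 A N)⁻¹}) (β : ↥(L0 A N)))
    (hcrit : ∀ f : ↥(L0 A N), IsIntegral ↥(Algebra.adjoin ↥(Kur A) {(j0 A N)⁻¹}) f →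
      (∀ i, f ∈ C.V i) → f ∈ C.B)
    (hjE : IsIntegral ↥(Algebra.adjoin ↥(Rur A) {j0 A N}) (jE A N q M e hN)) :
    ∀ 𝔪 : Ideal C.B, 𝔪.IsMaximal →
      (∀ β : C.B, (β : ↥(L0 A N)) = (j0 A N)⁻¹ → β ∈ 𝔪) →
      ∀ i, C.Icomp i ≤ 𝔪 → Nonempty (Branch C 𝔪 i) := by
  intro 𝔪 hmax hu i hi
  haveI : IsAlgClosed (kV A) := isAlgClosed_kV A
  haveI := finiteDimensional_ubar A M hq hqM hA
  haveI := isSeparable_ubar A M hq hqM hA
  refine branch_of_model_local C i (j0 A N)⁻¹ hu0 hBint (emb i)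
    (emb_surjective A N q M e B k hN hB hq C idx emb hidx hV hred hqM hA i) (ubar A M) ?_
    𝔪 hmax hi
    (exists_liftInfE A N q M e B k hN hB hq C idx emb hidx hV hred hqM hA hu0 hcrit hjE
      𝔪 hmax hu i)
  have e1 : emb i (C.rdB i ⟨(j0 A N)⁻¹, hu0⟩) = ubar A M ^ q ^ (e - 2 * idx i) :=
    emb_red_u0 A N q M e B k hN hB hq C idx emb hV hred hA i _
  rw [e1]
  exact (isIntegral_self_adjoin _).pow _

include hB hq in
/-- `j (q^e τ)` is integral over `R^ur[j]`, from the criterion TI3-VAL for the chart of `j`. -/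
theorem isIntegral_jE_Rur
    (hcrit0 : ∀ f : ↥(L0 A N), IsIntegral ↥(Algebra.adjoin ↥(Kur A) {j0 A N}) f →
      (∀ a, a ≤ e → f ∈ VE A N q M e B k hN hB hq a) →
      IsIntegral ↥(Algebra.adjoin ↥(Rur A) {j0 A N}) f) :
    IsIntegral ↥(Algebra.adjoin ↥(Rur A) {j0 A N}) (jE A N q M e hN) :=
  hcrit0 _ (isIntegral_jE A N q M e hN)
    (fun a ha => jE_mem_VE A N q M e B k hN hB hq a ha)

end Chart

end Fermat.Agent.S45.NUE.H17
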