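import Fermat.Agent.S36.NU.H23_Mod2

/-!
# S45 / NU_e, E-TOT leaf T3 (DEG_e) (helper41): the degree of `L0 (M' q^e)` over `L0 M'`

For a prime `q ∤ M'`, `e ≥ 1` and `N = M' q ^ e`:
* `finite_FN_of_le` : `F_N / F_M` is finite for any `M ∣ N`;
* `finrank_FN_pow` : `[F_N : F_M'] = q ^ e + q ^ (e - 1)`;
* `finite_L0_of_le` : `L0 N / L0 M` is finite;
* `finrank_L0_pow` : **`[L0 A N : L0 A M'] = q ^ e + q ^ (e - 1)`**;
* `finrank_L0_step` : `[L0 A (M q) : L0 A M] = q` when `q ∣ M`.
-/

set_option autoImplicit false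
set_option synthInstance.maxHeartbeats 400000
set_option maxHeartbeats 1000000
set_option linter.unusedSectionVars false
set_option linter.style.haveILetI false

noncomputable section

open ModularCurve AlgebraicCurve
open Fermat.Agent.S24 Fermat.Agent.BAD.H88 Fermat.Agent.S36.NU.H23 Fermat.Agent.RED

namespace Fermat.Agent.S45.NUE.H41

section Deg

variable (A : ValuationSubring Kbar) (q e M N : ℕ) [NeZero M] [NeZero N]

/-- `F_N / F_M` is finite. -/
theorem finite_FN_of_le (hle : modularFunctionFieldBar M ≤ modularFunctionFieldBar N) :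
    @Module.Finite (FN M) (FN N) _ _ (algF hle).toModule :=
  (Fermat.Agent.RED.H51.stmt_FFB_finite _ _ _ (Fermat.Agent.RED.H95.stmt_HKA_isFF M)
    (Fermat.Agent.RED.H95.stmt_HKA_isFF N) (IntermediateField.inclusion hle)).2

/-- `L0 N / L0 M` is finite. -/
theorem finite_L0_of_le (hle : modularFunctionFieldBar M ≤ modularFunctionFieldBar N) :
    @Module.Finite ↥(L0 A M) ↥(L0 A N) _ _ (algL0 A hle).toModule :=
  finite_L0 A hle (finite_FN_of_le M N hle)

/-- `[L0 N : L0 M] = [F_N : F_M]` as a relative degree. -/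
theorem finrank_L0_eq_relfinrank (hMN : M ∣ N)
    (hle : modularFunctionFieldBar M ≤ modularFunctionFieldBar N) :
    @Module.finrank ↥(L0 A M) ↥(L0 A N) _ _ (algL0 A hle).toModule
      = (modularFunctionFieldBar M).relfinrank (modularFunctionFieldBar N) :=
  (finrank_L0 A hle (finite_FN_of_le M N hle)).trans
    (Fermat.Agent.Lib.HeckeComm.relfinrank_FN M N hMN).symm

/-- `[F_N : F_M'] = q ^ e + q ^ (e - 1)` for `N = M' q ^ e`, `q ∤ M'`, `e ≥ 1`. -/
theorem finrank_FN_pow (hq : q.Prime) (hqM : ¬ q ∣ M) (he : 0 < e) (hN : N = M * q ^ e)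
    (hle : modularFunctionFieldBar M ≤ modularFunctionFieldBar N) :
    @Module.finrank (FN M) (FN N) _ _ (algF hle).toModule = q ^ e + q ^ (e - 1) :=
  (Fermat.Agent.Lib.HeckeComm.relfinrank_FN M N ⟨q ^ e, hN⟩).symm.trans
    (Fermat.Agent.S36.NU.H82.relfinrank_level_pow q e M N hq hqM he hN)

/-- **DEG_e**: `[L0 A N : L0 A M'] = q ^ e + q ^ (e - 1)` for `N = M' q ^ e`, `q ∤ M'`,
`e ≥ 1`. -/
theorem finrank_L0_pow (hq : q.Prime) (hqM : ¬ q ∣ M) (he : 0 < e) (hN : N = M * q ^ e)
    (hle : modularFunctionFieldBar M ≤ modularFunctionFieldBar N) :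
    @Module.finrank ↥(L0 A M) ↥(L0 A N) _ _ (algL0 A hle).toModule = q ^ e + q ^ (e - 1) :=
  (finrank_L0 A hle (finite_FN_of_le M N hle)).trans (finrank_FN_pow q e M N hq hqM he hN hle)

end Deg

section Step

variable (A : ValuationSubring Kbar) (q M : ℕ) [NeZero M] [NeZero (M * q)]

/-- `[F_{M q} : F_M] = q` when `q ∣ M`. -/
theorem finrank_FN_step (hq : q.Prime) (hqM : q ∣ M)
    (hle : modularFunctionFieldBar M ≤ modularFunctionFieldBar (M * q)) :
    @Module.finrank (FN M) (FN (M * q)) _ _ (algF hle).toModule = q :=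
  (Fermat.Agent.Lib.HeckeComm.relfinrank_FN M (M * q) ⟨q, rfl⟩).symm.trans
    (Fermat.Agent.S36.NU.H82.relfinrank_FM_FN_of_dvd q M hq hqM)

/-- `[L0 A (M q) : L0 A M] = q` when `q ∣ M`: the degree of the steps of the tower. -/
theorem finrank_L0_step (hq : q.Prime) (hqM : q ∣ M)
    (hle : modularFunctionFieldBar M ≤ modularFunctionFieldBar (M * q)) :
    @Module.finrank ↥(L0 A M) ↥(L0 A (M * q)) _ _ (algL0 A hle).toModule = q :=
  (finrank_L0 A hle (finite_FN_of_le M (M * q) hle)).trans (finrank_FN_step q M hq hqM hle)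

/-- `[F_{M q} : F_M] = q + 1` when `q ∤ M`. -/
theorem finrank_FN_first (hq : q.Prime) (hqM : ¬ q ∣ M)
    (hle : modularFunctionFieldBar M ≤ modularFunctionFieldBar (M * q)) :
    @Module.finrank (FN M) (FN (M * q)) _ _ (algF hle).toModule = q + 1 := by
  have h := finrank_FN_pow q 1 M (M * q) hq hqM one_pos (by rw [pow_one]) hle
  simpa using h

/-- `[L0 A (M q) : L0 A M] = q + 1` when `q ∤ M`. -/
theorem finrank_L0_first (hq : q.Prime) (hqM : ¬ q ∣ M)
    (hle : modularFunctionFieldBar M ≤ modularFunctionFieldBar (M * q)) :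
    @Module.finrank ↥(L0 A M) ↥(L0 A (M * q)) _ _ (algL0 A hle).toModule = q + 1 :=
  (finrank_L0 A hle (finite_FN_of_le M (M * q) hle)).trans (finrank_FN_first q M hq hqM hle)

end Step

end Fermat.Agent.S45.NUE.H41
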