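import Fermat.Agent.S36.NU.H28_RadQMod
import Fermat.Agent.S45.NUE.H41_DegE

/-!
# S45 / NU_e, package E-FIN, leaf E-RADQ (helper28): (INT), (G), (THREE), TI3-VAL and (RADQ)
for the charts of an arbitrary level

Level `N`, `M' ∣ N`, `q ∤ M'`, `A` a valuation ring of `ℚ̄` over `q`, `F = L0 A N`, `K = Kur A`,
`R = Rur A`, `j = j0 A N`.  `D` an `NRData` of `L0 A N` over `L0 A M'` with `D.VE = VE0 A M'`
and the degree equality `∑ e i [κ i : FM A M'] = [L0 A N : L0 A M']` (the E-TOT datum), `C` a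
chart over `R` with the valuation rings of `D`.

* `const_of_mem_chart` : the constants of `K^ur` which are integral for a valuation of a chart
  lie in `R^ur`;
* `int_modE` : **(INT)** every element of `⋂ D.V i` is a root of a monic polynomial whose
  coefficients are (images of) inertia-fixed Gauss-integral functions of level `1`;
* `incl_mem_adjoin_j0E` : **DESC-ONE** these coefficients lie in `K^ur(j)`;
* `hG_chartE`, `hG_chartE_inv` : **(G)** for `j` and `1 / j`;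
* `hthreeE`, `hthreeE_inv` : **(THREE)** in the shape of helper17's TI3-VAL;
* `critE`, `critE_inv` : **TI3-VAL**;
* `isRadQ_chartE`, `isRadQ_chartE_inv` : **(RADQ)** for the two charts;
* `transcendental_qExpand_Jred` : `j~(s^m)` is transcendental (for the hypothesis `htr`).
-/

set_option autoImplicit false
set_option synthInstance.maxHeartbeats 400000
set_option maxHeartbeats 1000000
set_option linter.style.haveILetI false
set_option linter.unusedSectionVars false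
set_option linter.unusedVariables false

noncomputable section

open ModularCurve AlgebraicCurve Polynomial IntermediateField
open Fermat.Agent.S24 Fermat.Agent.BAD.H88 Fermat.Agent.S28 Fermat.Agent.S28.H73
open Fermat.Agent.RED.H73 Fermat.Agent.RED.H17 Fermat.Agent.S36.NU.H88
open Fermat.Agent.S36.NU.H23 Fermat.Agent.S36.NU.H41 Fermat.Agent.S36.NU.H17
open Fermat.Agent.S36.NU.H16 Fermat.Agent.S36.NU.H65 Fermat.Agent.BAD

namespace Fermat.Agent.S45.NUE.H28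

/-! ### Constants of a chart -/

section Const

variable (A : ValuationSubring Kbar) (N : ℕ) [NeZero N]
  {kk : Type*} {ι : Type*} {κ : ι → Type*} [Field kk] [∀ i, Field (κ i)] [∀ i, Algebra kk (κ i)]
  (C : Chart ↥(Rur A) ↥(L0 A N) kk ι κ)

/-- The residue map of a chart kills the non-units of `R^ur`. -/
theorem res_eq_zero_of_not_isUnit (r : ↥(Rur A)) (hr : ¬ IsUnit r) : C.res r = 0 := by
  have h1 : (RingHom.ker C.res).IsMaximal := RingHom.ker_isMaximal_of_surjective C.res C.res_surj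
  have h2 := IsLocalRing.eq_maximalIdeal h1
  have h3 : r ∈ IsLocalRing.maximalIdeal ↥(Rur A) := (IsLocalRing.mem_maximalIdeal r).2 hr
  rw [← h2] at h3
  exact h3

theorem const_mem_chart (i : ι) (r : ↥(Rur A)) : algebraMap ↥(Rur A) ↥(L0 A N) r ∈ C.V i :=
  C.B_le i _ (Subalgebra.algebraMap_mem C.B r)

/-- The constants of `K^ur` which are integral for a valuation of a chart lie in `R^ur`. -/
theorem const_of_mem_chart (i : ι) (c : ↥(Kur A))
    (h : algebraMap ↥(Kur A) ↥(L0 A N) c ∈ C.V i) :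
    c ∈ (algebraMap ↥(Rur A) ↥(Kur A)).range := by
  by_contra hc
  have hcR : c ∉ Rur A := fun hmem => hc ⟨⟨c, hmem⟩, rfl⟩
  have hc0 : c ≠ 0 := fun h0 => hcR (h0 ▸ zero_mem _)
  have hinv : c⁻¹ ∈ Rur A := ((Rur A).mem_or_inv_mem c).resolve_left hcR
  have hnu : ¬ IsUnit (⟨c⁻¹, hinv⟩ : ↥(Rur A)) := by
    intro hu
    obtain ⟨u, hu'⟩ := hu
    have h1 : (u : ↥(Rur A)) * ((u⁻¹ : (↥(Rur A))ˣ) : ↥(Rur A)) = 1 := u.mul_inv
    rw [hu'] at h1
    have h2 : c⁻¹ * ((((u⁻¹ : (↥(Rur A))ˣ) : ↥(Rur A))) : ↥(Kur A)) = 1 :=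
      congrArg (fun z : ↥(Rur A) => (z : ↥(Kur A))) h1
    have h3 : ((((u⁻¹ : (↥(Rur A))ˣ) : ↥(Rur A))) : ↥(Kur A)) = c := by
      have := eq_inv_of_mul_eq_one_right h2
      rw [inv_inv] at this
      exact this
    exact hcR (h3 ▸ ((u⁻¹ : (↥(Rur A))ˣ) : ↥(Rur A)).2)
  have hres := res_eq_zero_of_not_isUnit A N C _ hnu
  have hmem := const_mem_chart A N C i ⟨c⁻¹, hinv⟩
  have hred : C.red i ⟨_, hmem⟩ = 0 := by rw [C.red_const, hres, map_zero]
  have hmax := (C.red_eq_zero_iff i _).1 hred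
  have hnu' : ¬ IsUnit (⟨_, hmem⟩ : ↥(C.V i)) := (IsLocalRing.mem_maximalIdeal _).1 hmax
  apply hnu'
  have e : algebraMap ↥(Rur A) ↥(L0 A N) ⟨c⁻¹, hinv⟩ * algebraMap ↥(Kur A) ↥(L0 A N) c = 1 := by
    rw [IsScalarTower.algebraMap_apply ↥(Rur A) ↥(Kur A) ↥(L0 A N), ← map_mul]
    have : algebraMap ↥(Rur A) ↥(Kur A) ⟨c⁻¹, hinv⟩ * c = 1 := inv_mul_cancel₀ hc0
    rw [this, map_one]
  exact IsUnit.of_mul_eq_one (⟨_, h⟩ : ↥(C.V i)) (Subtype.ext e)

/-- **(G)** for a chart and an element `x ∈ V i₀` with transcendental reduction. -/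
theorem hG_chartE (i₀ : ι) (x : ↥(L0 A N)) (hx : x ∈ C.V i₀)
    (htr : Transcendental kk (C.red i₀ ⟨x, hx⟩))
    (p : (↥(Kur A))[X]) (hp : aeval x p ∈ C.V i₀) (i : ℕ) :
    p.coeff i ∈ (algebraMap ↥(Rur A) ↥(Kur A)).range :=
  gauss_of_transcendental_red (C.V i₀) (C.red i₀)
    (fun u hu => (C.red_eq_zero_iff i₀ u).2 hu) C.res
    (const_mem_chart A N C i₀) (fun r => C.red_const i₀ r _)
    (const_of_mem_chart A N C i₀) x hx htr p hp i

/-- The inverse of an element with transcendental reduction is integral, with transcendental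
reduction. -/
theorem inv_mem_chartE (i₀ : ι) (x : ↥(L0 A N)) (hx : x ∈ C.V i₀)
    (htr : Transcendental kk (C.red i₀ ⟨x, hx⟩)) : x⁻¹ ∈ C.V i₀ :=
  Fermat.Agent.S36.NU.H28.inv_mem_of_red_ne_zero (C.V i₀) (C.red i₀)
    (fun u hu => (C.red_eq_zero_iff i₀ u).2 ((IsLocalRing.mem_maximalIdeal u).2 hu)) hx
    (fun h0 => htr (h0 ▸ isAlgebraic_zero))

theorem transcendental_red_inv (i₀ : ι) (x : ↥(L0 A N)) (hx : x ∈ C.V i₀)
    (htr : Transcendental kk (C.red i₀ ⟨x, hx⟩)) (hxi : x⁻¹ ∈ C.V i₀) :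
    Transcendental kk (C.red i₀ ⟨x⁻¹, hxi⟩) := by
  have hx0 : x ≠ 0 := by
    rintro rfl
    apply htr
    have : (⟨0, hx⟩ : ↥(C.V i₀)) = 0 := rfl
    rw [this, map_zero]
    exact isAlgebraic_zero
  rw [Fermat.Agent.S36.NU.H28.red_inv_eq (C.V i₀) (C.red i₀) hx hxi hx0]
  intro halg
  apply htr
  have := halg.inv
  rwa [inv_inv] at this

/-- **(G)** for the inverse. -/
theorem hG_chartE_inv (i₀ : ι) (x : ↥(L0 A N)) (hx : x ∈ C.V i₀)
    (htr : Transcendental kk (C.red i₀ ⟨x, hx⟩))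
    (p : (↥(Kur A))[X]) (hp : aeval x⁻¹ p ∈ C.V i₀) (i : ℕ) :
    p.coeff i ∈ (algebraMap ↥(Rur A) ↥(Kur A)).range :=
  hG_chartE A N C i₀ x⁻¹ (inv_mem_chartE A N C i₀ x hx htr)
    (transcendental_red_inv A N C i₀ x hx htr _) p hp i

end Const

/-! ### Transcendence of the reductions of `j` -/

section Trans

variable (A : ValuationSubring Kbar)

/-- `j~(s^m)` is transcendental over `k` (the reduction of `j` at any of the valuations is of
this form). -/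
theorem transcendental_qExpand_Jred (m : ℕ) [NeZero m] :
    Transcendental (kV A) (qExpand (kV A) m (Jred A)) := by
  apply transcendental_of_order_neg
  have h1 : (qExpand (kV A) m (Jred A)).coeff ((m : ℤ) * (-1)) ≠ 0 := by
    rw [qExpand_coeff_mul, show Jred A = coeffMap (Int.castRingHom (kV A)) jInt from rfl,
      coeffMap_coeff, jInt_coeff_neg_one, map_one]
    exact one_ne_zero
  have h2 : (qExpand (kV A) m (Jred A)).order ≤ (m : ℤ) * (-1) :=
    HahnSeries.order_le_of_coeff_ne_zero h1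
  have hm : (0 : ℤ) < (m : ℤ) := by exact_mod_cast Nat.pos_of_ne_zero (NeZero.ne m)
  omega

/-- Transcendence is detected after an embedding of the residue field. -/
theorem transcendental_of_algHom {k κ E : Type*} [Field k] [Field κ] [Field E] [Algebra k κ]
    [Algebra k E] (φ : κ →ₐ[k] E) (x : κ) (h : Transcendental k (φ x)) : Transcendental k x :=
  fun halg => h (halg.algHom φ)

end Trans

/-! ### (INT) and DESC-ONE -/

section Int

variable (A : ValuationSubring Kbar) (q M' N : ℕ) [NeZero M'] [NeZero N] [NeZero q]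
  (hq : q.Prime) (hqM : ¬ q ∣ M') (hA : A.LiesOverPrime q)
  (hle : modularFunctionFieldBar M' ≤ modularFunctionFieldBar N)

/-- The inclusion `L0 A 1 → L0 A N` through the level `M'`. -/
def incl1E : ↥(L0 A 1) →+* ↥(L0 A N) :=
  (inclL0 A hle).comp (inclL0 A (Fermat.Agent.S36.NU.H42.hle1 M'))

theorem coe_incl1E (a : ↥(L0 A 1)) :
    (((incl1E A M' N hle a : ↥(L0 A N)) : FN N) : LaurentSeries Kbar)
      = ((a : FN 1) : LaurentSeries Kbar) := by
  show (((inclL0 A hle (inclL0 A (Fermat.Agent.S36.NU.H42.hle1 M') a) : ↥(L0 A N)) : FN N) :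
    LaurentSeries Kbar) = _
  rw [coe_inclL0, IntermediateField.coe_inclusion, Fermat.Agent.S36.NU.H42.coe_inclL0_one]

/-- **DESC-ONE**: the inertia-fixed functions of level `1` are rational functions of `j` over
`K^ur`. -/
theorem incl_mem_adjoin_j0E (a : ↥(L0 A 1)) :
    incl1E A M' N hle a ∈ (↥(Kur A))⟮j0 A N⟯ := by
  apply fixed_mem_adjoin_j0
  apply Fermat.Agent.S36.NU.H28.mem_adjoin_jF_of_series
  rw [coe_incl1E, ← Fermat.Agent.S36.NU.H42.bar_one_eq]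
  exact (a : FN 1).2

variable {ι : Type} [Fintype ι] [DecidableEq ι] {κ : ι → Type} [∀ i, Field (κ i)]
  (alg : ∀ i, Algebra (FM A M') (κ i))
  (D : @H42.NRData ↥(L0 A M') ↥(L0 A N) (FM A M') _ _ _ (algL0 A hle) ι κ _ alg)

include hq hqM hA in
/-- **(INT)**: an inertia-fixed function of level `N` which lies in all the valuation rings of
`D` is a root of a monic polynomial whose coefficients are (images of) inertia-fixed
Gauss-integral functions of level `1`. -/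
theorem int_modE
    (hVE : @H42.NRData.VE ↥(L0 A M') ↥(L0 A N) (FM A M') _ _ _ (algL0 A hle) ι κ _ alg D
      = VE0 A M')
    (hdeg : ∑ i, @H42.NRData.e ↥(L0 A M') ↥(L0 A N) (FM A M') _ _ _ (algL0 A hle) ι κ _ alg D i
          * @Module.finrank (FM A M') (κ i) _ _ (alg i).toModule
        = @Module.finrank ↥(L0 A M') ↥(L0 A N) _ _ (algL0 A hle).toModule)
    (g : ↥(L0 A N))
    (hg : ∀ i, g ∈ @H42.NRData.V ↥(L0 A M') ↥(L0 A N) (FM A M') _ _ _ (algL0 A hle) ι κ _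
      alg D i) :
    ∃ P : Polynomial ↥(L0 A N), P.Monic ∧
      (∀ n, ∃ a : ↥(L0 A 1), a ∈ VE0 A 1 ∧ P.coeff n = incl1E A M' N hle a) ∧
      (∀ n i, P.coeff n ∈ @H42.NRData.V ↥(L0 A M') ↥(L0 A N) (FM A M') _ _ _ (algL0 A hle)
        ι κ _ alg D i) ∧ P.eval g = 0 := by
  have hfin1 : @Module.Finite ↥(L0 A M') ↥(L0 A N) _ _ (algL0 A hle).toModule :=
    Fermat.Agent.S45.NUE.H41.finite_L0_of_le A M' N hle
  have hfinK : ∀ i, @Module.Finite (FM A M') (κ i) _ _ (alg i).toModule := fun i =>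
    @H42.NRData.finite_res ↥(L0 A M') ↥(L0 A N) (FM A M') _ _ _
      (algL0 A hle) ι κ _ alg D _ _ hfin1 i
  obtain ⟨P, hP, hc, hV, hroot⟩ :=
    @H42.exists_monic_tower ↥(L0 A 1) ↥(L0 A M') ↥(L0 A N) (FM A 1) (FM A M')
      _ _ _ _ _ (algL0 A (Fermat.Agent.S36.NU.H42.hle1 M')) (algL0 A hle)
      Unit (fun _ => FM A M') _ (fun _ => Fermat.Agent.S36.NU.H42.fmAlg A M')
      (fun _ => Fermat.Agent.S36.NU.H42.finite_FM A M' q hq hqM hA)
      ι κ _ alg hfinK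
      (Fermat.Agent.S36.NU.H42.oneData A M' q hq hqM hA) D
      _ _ (Fermat.Agent.S36.NU.H42.finite_L0_one A M') _ _ hfin1
      (Fermat.Agent.S36.NU.H42.oneData_hdeg A M' q hq hqM hA) hdeg
      (fun a ha _ => by rw [hVE] at ha; exact ha)
      (fun a ha => by rw [hVE]; exact Fermat.Agent.S36.NU.H42.hV_one A M' a ha) g hg
  refine ⟨P, hP, fun n => ?_, hV, hroot⟩
  obtain ⟨a, ha, e⟩ := hc n
  exact ⟨a, ha, e⟩

end Int

/-! ### (THREE), TI3-VAL and (RADQ) for a chart -/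

section ChartE

variable (A : ValuationSubring Kbar) (q M' N : ℕ) [NeZero M'] [NeZero N] [NeZero q]
  (hq : q.Prime) (hqM : ¬ q ∣ M') (hA : A.LiesOverPrime q)
  (hle : modularFunctionFieldBar M' ≤ modularFunctionFieldBar N)
  {ι : Type} [Fintype ι] [DecidableEq ι] {κ : ι → Type} [∀ i, Field (κ i)]
  (alg : ∀ i, Algebra (FM A M') (κ i))
  (D : @H42.NRData ↥(L0 A M') ↥(L0 A N) (FM A M') _ _ _ (algL0 A hle) ι κ _ alg)
  (hVE : @H42.NRData.VE ↥(L0 A M') ↥(L0 A N) (FM A M') _ _ _ (algL0 A hle) ι κ _ alg D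
    = VE0 A M')
  (hdeg : ∑ i, @H42.NRData.e ↥(L0 A M') ↥(L0 A N) (FM A M') _ _ _ (algL0 A hle) ι κ _ alg D i
        * @Module.finrank (FM A M') (κ i) _ _ (alg i).toModule
      = @Module.finrank ↥(L0 A M') ↥(L0 A N) _ _ (algL0 A hle).toModule)
  {kk : Type*} {κC : ι → Type*} [Field kk] [∀ i, Field (κC i)] [∀ i, Algebra kk (κC i)]
  (C : Chart ↥(Rur A) ↥(L0 A N) kk ι κC)
  (hV : ∀ i, C.V i = @H42.NRData.V ↥(L0 A M') ↥(L0 A N) (FM A M') _ _ _ (algL0 A hle) ι κ _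
    alg D i)
  (i₀ : ι)

include hq hqM hA hVE hdeg hV in
/-- **(THREE)** for `j`, in the shape of helper17's TI3-VAL. -/
theorem hthreeE (f : ↥(L0 A N)) (hf : ∀ i, f ∈ C.V i) :
    ∃ P : (↥(L0 A N))[X], P.Monic ∧
      (∀ m, P.coeff m ∈ C.V i₀ ∧ P.coeff m ∈ (↥(Kur A))⟮j0 A N⟯) ∧ P.eval f = 0 := by
  obtain ⟨P, hP, hc, hPV, hroot⟩ := int_modE A q M' N hq hqM hA hle alg D hVE hdeg f
    (fun i => hV i ▸ hf i)
  refine ⟨P, hP, fun m => ⟨(hV i₀).symm ▸ hPV m i₀, ?_⟩, hroot⟩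
  obtain ⟨a, -, e⟩ := hc m
  rw [e]
  exact incl_mem_adjoin_j0E A M' N hle a

include hq hqM hA hVE hdeg hV in
/-- **(THREE)** for `1 / j`. -/
theorem hthreeE_inv (f : ↥(L0 A N)) (hf : ∀ i, f ∈ C.V i) :
    ∃ P : (↥(L0 A N))[X], P.Monic ∧
      (∀ m, P.coeff m ∈ C.V i₀ ∧ P.coeff m ∈ (↥(Kur A))⟮(j0 A N)⁻¹⟯) ∧ P.eval f = 0 := by
  rw [Fermat.Agent.S36.NU.H88.adjoin_inv_eq ↥(Kur A) (j0 A N)]
  exact hthreeE A q M' N hq hqM hA hle alg D hVE hdeg C hV i₀ f hf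

include hV in
/-- The valuations of the chart are of rank one. -/
theorem harchE (i : ι) (x y : ↥(L0 A N)) (hx : (C.V i).valuation x < 1) (hy : y ≠ 0) :
    ∃ n : ℕ, (C.V i).valuation (x ^ n) < (C.V i).valuation y := by
  rw [hV i] at hx ⊢
  exact @H42.NRData.hA ↥(L0 A M') ↥(L0 A N) (FM A M') _ _ _ (algL0 A hle) ι κ _ alg D i x y hx hy

variable (hj : j0 A N ∈ C.V i₀) (htr : Transcendental kk (C.red i₀ ⟨j0 A N, hj⟩))

include hq hqM hA hVE hdeg hV htr in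
/-- **TI3-VAL** for the chart of `j`. -/
theorem critE {f : ↥(L0 A N)}
    (hf₁ : IsIntegral ↥(Algebra.adjoin ↥(Kur A) {j0 A N}) f) (hf₂ : ∀ i, f ∈ C.V i) :
    f ∈ intSub ↥(Rur A) (j0 A N) :=
  isIntegral_adjoin_of_forall_mem ↥(Rur A) ↥(Kur A) (j0 A N)
    (transcendental_j0 A N) C.V i₀
    (hG_chartE A N C i₀ (j0 A N) hj htr)
    (hthreeE A q M' N hq hqM hA hle alg D hVE hdeg C hV i₀) hf₁ hf₂

include hq hqM hA hVE hdeg hV htr in
/-- **TI3-VAL** for the chart of `1 / j`. -/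
theorem critE_inv {f : ↥(L0 A N)}
    (hf₁ : IsIntegral ↥(Algebra.adjoin ↥(Kur A) {(j0 A N)⁻¹}) f) (hf₂ : ∀ i, f ∈ C.V i) :
    f ∈ intSub ↥(Rur A) (j0 A N)⁻¹ :=
  isIntegral_adjoin_of_forall_mem ↥(Rur A) ↥(Kur A) (j0 A N)⁻¹
    (transcendental_inv ↥(Kur A) _ (transcendental_j0 A N)) C.V i₀
    (hG_chartE_inv A N C i₀ (j0 A N) hj htr)
    (hthreeE_inv A q M' N hq hqM hA hle alg D hVE hdeg C hV i₀) hf₁ hf₂

theorem algebraMap_Rur_ne_zeroE (ϖ : ↥(Rur A)) (hϖ : ϖ ≠ 0) :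
    algebraMap ↥(Rur A) ↥(L0 A N) ϖ ≠ 0 := by
  rw [IsScalarTower.algebraMap_apply ↥(Rur A) ↥(Kur A) ↥(L0 A N)]
  intro h
  apply hϖ
  have h1 := (algebraMap ↥(Kur A) ↥(L0 A N)).injective (h.trans (map_zero _).symm)
  exact Subtype.ext h1

include hq hqM hA hVE hdeg hV htr in
/-- **(RADQ)** for a chart of `j` with the valuation rings of `D`. -/
theorem isRadQ_chartE (hB0 : C.B = intSub ↥(Rur A) (j0 A N)) (ϖ : ↥(Rur A)) (hϖ : ϖ ≠ 0) :
    ∀ β ∈ C.B, (∀ i, C.rd i β = 0) → IsRadQ C.B ϖ β := fun _ hβ hrd =>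
  isRadQ_of_rd_eq_zero_adjoin ↥(Rur A) ↥(Kur A) C (j0 A N) (transcendental_j0 A N)
    (fun _ => by rw [hB0]; exact Iff.rfl) i₀
    (hG_chartE A N C i₀ (j0 A N) hj htr)
    (hthreeE A q M' N hq hqM hA hle alg D hVE hdeg C hV i₀)
    (harchE A M' N hle alg D C hV)
    ϖ (algebraMap_Rur_ne_zeroE A N ϖ hϖ) hβ hrd

include hq hqM hA hVE hdeg hV htr in
/-- **(RADQ)** for a chart of `1 / j` with the valuation rings of `D`. -/
theorem isRadQ_chartE_inv (hBoo : C.B = intSub ↥(Rur A) (j0 A N)⁻¹) (ϖ : ↥(Rur A))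
    (hϖ : ϖ ≠ 0) :
    ∀ β ∈ C.B, (∀ i, C.rd i β = 0) → IsRadQ C.B ϖ β := fun _ hβ hrd =>
  isRadQ_of_rd_eq_zero_adjoin ↥(Rur A) ↥(Kur A) C (j0 A N)⁻¹
    (transcendental_inv ↥(Kur A) _ (transcendental_j0 A N))
    (fun _ => by rw [hBoo]; exact Iff.rfl) i₀
    (hG_chartE_inv A N C i₀ (j0 A N) hj htr)
    (hthreeE_inv A q M' N hq hqM hA hle alg D hVE hdeg C hV i₀)
    (harchE A M' N hle alg D C hV)
    ϖ (algebraMap_Rur_ne_zeroE A N ϖ hϖ) hβ hrd

end ChartE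

end Fermat.Agent.S45.NUE.H28
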