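import Fermat.Agent.S36.NU.H22_ValE
import Fermat.Agent.S36.NU.H79_NormVal

/-!
# S45 / NU_e, package E-FIN, leaf VALE_e (helper65): the ramification indices, from `NRData`

ABSTRACT and index-generic: for ANY norm-reduction datum `D : H42.NRData E L Et ι κ` with the
degree formula `hdeg : ∑ i, D.e i * [κ i : Et] = [L : E]` (E-TOT), and ANY chart `C` on `L` with
`C.V i = D.V (idx i)` and `algebraMap qR = ϖ`:

* `valE_of_nrData : H99.ValE C qR (fun i => D.e (idx i))`, i.e. `f ∈ 𝔪_{V i} ⟹ f ^ e i ∈ q V i`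
  (input `hE` of `H16.locEq_ss_*`, `H99.locEq_ord_crit_*`, `H88.ChartOoE`);
* `q_mem_nonunits_of_nrData` : `q` is a nonunit of all `C.V i` (input `hqV`);
* `exact_of_nrData`, `val_ϖ_lt_one_of_nrData` : the two ingredients.

Modular use: `D` = the `NRData` of `L0 A N` over `L0 A M'` of E-TOT (`ϖ = piE`, image `q`),
`D.e a = φ(q ^ min a (e - a))`.
-/

set_option autoImplicit false
set_option linter.unusedSectionVars false
set_option linter.style.haveILetI false

noncomputable section

namespace Fermat.Agent.S45.NUE.H65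

open Fermat.Agent.BAD Fermat.Agent.S36.NU Fermat.Agent.S36.NU.H16

section Abs

variable {E L Et : Type} [Field E] [Field L] [Field Et] [Algebra E L]
  {ι : Type} {κ : ι → Type} [∀ i, Field (κ i)] [∀ i, Algebra Et (κ i)]
  [Fintype ι] [DecidableEq ι] [Module.Finite E L]

/-- **EXACT** (restated): the value group of `D.V i` is generated by the value of `D.π i`. -/
theorem exact_of_nrData (D : H42.NRData E L Et ι κ)
    (hdeg : ∑ i, D.e i * Module.finrank Et (κ i) = Module.finrank E L) (i : ι) (x : L)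
    (hx : x ≠ 0) : ∃ m : ℤ, (D.V i).valuation x = (D.V i).valuation (D.π i) ^ m :=
  H79.nv_exists_val_eq_zpow D hdeg i x hx

/-- **VALe on one valuation ring of an `NRData`.** -/
theorem pow_eq_mul_of_nrData (D : H42.NRData E L Et ι κ)
    (hdeg : ∑ i, D.e i * Module.finrank Et (κ i) = Module.finrank E L) (i : ι) (f : L)
    (hf : f ∈ (D.V i).nonunits) : ∃ f' ∈ D.V i, f ^ D.e i = algebraMap E L D.ϖ * f' :=
  H22.pow_eq_mul_of_exact (D.V i) (algebraMap E L D.ϖ) (D.π i) (D.e i) (D.he i)
    (D.val_ϖ_lt_one i) D.ϖL_ne_zero (D.hram i) (exact_of_nrData D hdeg i) f hf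

variable {R k' ι' : Type*} {κ' : ι' → Type*} [CommRing R] [Algebra R L] [Field k']
  [∀ i, Field (κ' i)] [∀ i, Algebra k' (κ' i)]

/-- **VALE_e**: `H99.ValE` for any chart whose valuation rings are those of an `NRData` with the
degree formula. -/
theorem valE_of_nrData (D : H42.NRData E L Et ι κ)
    (hdeg : ∑ i, D.e i * Module.finrank Et (κ i) = Module.finrank E L)
    (C : Chart R L k' ι' κ') (idx : ι' → ι) (hV : ∀ i, C.V i = D.V (idx i)) (qR : R)
    (hqR : algebraMap R L qR = algebraMap E L D.ϖ) :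
    H99.ValE C qR (fun i => D.e (idx i)) := by
  intro i f hf
  rw [hqR]
  rw [hV i] at hf ⊢
  exact pow_eq_mul_of_nrData D hdeg (idx i) f hf

/-- `ValE` with a prescribed family of exponents. -/
theorem valE_of_nrData' (D : H42.NRData E L Et ι κ)
    (hdeg : ∑ i, D.e i * Module.finrank Et (κ i) = Module.finrank E L)
    (C : Chart R L k' ι' κ') (idx : ι' → ι) (hV : ∀ i, C.V i = D.V (idx i)) (qR : R)
    (hqR : algebraMap R L qR = algebraMap E L D.ϖ) (e : ι' → ℕ)
    (he : ∀ i, e i = D.e (idx i)) : H99.ValE C qR e := by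
  have h : e = fun i => D.e (idx i) := funext he
  rw [h]
  exact valE_of_nrData D hdeg C idx hV qR hqR

omit [Fintype ι] [DecidableEq ι] [Module.Finite E L] in
/-- `q` is a nonunit of all the valuation rings of the chart (input `hqV`). -/
theorem q_mem_nonunits_of_nrData (D : H42.NRData E L Et ι κ)
    (C : Chart R L k' ι' κ') (idx : ι' → ι) (hV : ∀ i, C.V i = D.V (idx i)) (qR : R)
    (hqR : algebraMap R L qR = algebraMap E L D.ϖ) (i : ι') :
    algebraMap R L qR ∈ (C.V i).nonunits := by
  rw [hqR, hV i, ValuationSubring.mem_nonunits_iff]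
  exact D.val_ϖ_lt_one (idx i)

omit [Fintype ι] [DecidableEq ι] [Module.Finite E L] in
/-- `q ≠ 0` in `L` (input `hq0`). -/
theorem q_ne_zero_of_nrData (D : H42.NRData E L Et ι κ) (qR : R)
    (hqR : algebraMap R L qR = algebraMap E L D.ϖ) : algebraMap R L qR ≠ 0 := by
  rw [hqR]
  exact D.ϖL_ne_zero

end Abs

end Fermat.Agent.S45.NUE.H65
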