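import Fermat.Agent.S45.NUE.H88_CuspAsmE
import Fermat.Agent.S45.NUE.H28_RadQE
import Fermat.Agent.S45.NUE.H65_ValE

/-!
# S45 / NU_e, package E-FIN, leaf E-CUSP: `ChartOoE` for the chart of `1 / j` (helper88)

Level `N`, `M' ∣ N`, `q ∤ M'`, `A` over `q`, `D` an `NRData` of `L0 A N` over `L0 A M'` with
`D.VE = VE0 A M'` and the degree formula (E-TOT), `C` a chart over `R^ur` with the valuation rings
of `D` and `C.B = intSub R^ur (1 / j)`, `1 / j` with transcendental reduction on a component `i₀`.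

* `HintOoE A N` : the integral closure of `K^ur[1 / j]` in `L0 A N`;
* `chartOoE_of_nrData` : **`H88.ChartOoE C q D.e (HintOoE A N)`** (unconditional for such a
  chart): `hq0`, `hqV`, `hE` from helper65's VALE_e, `crit` from helper28's `critE_inv`;
* `uoo_mem_chart` : `1 / j ∈ C.B`;
* `mem_chart_of_isIntegral` : membership in `C.B` = integral over `K^ur[1 / j]` + in all `V i`;
* `hptooE_of_wit` : **the hypothesis `hptoo` of `H65.finModE_of`** from the cusp witnesses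
  (`H88.CuspWit`) of all components and the branches at the cusps.
-/

set_option autoImplicit false
set_option synthInstance.maxHeartbeats 400000
set_option maxHeartbeats 1000000
set_option linter.style.haveILetI false
set_option linter.unusedSectionVars false
set_option linter.unusedVariables false

noncomputable section

open ModularCurve AlgebraicCurve Polynomial IntermediateField
open Fermat.Agent.S24 Fermat.Agent.BAD.H88 Fermat.Agent.S28 Fermat.Agent.S28.H73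
open Fermat.Agent.RED.H73 Fermat.Agent.RED.H17 Fermat.Agent.S36.NU.H88
open Fermat.Agent.S36.NU.H23 Fermat.Agent.S36.NU.H41 Fermat.Agent.S36.NU.H17
open Fermat.Agent.S36.NU.H16 Fermat.Agent.S36.NU.H65 Fermat.Agent.BAD

namespace Fermat.Agent.S45.NUE.H88

section Hint

variable (A : ValuationSubring Kbar) (N : ℕ) [NeZero N]

/-- The integral closure of `K^ur[1 / j]` in the inertia-fixed functions of level `N`. -/
def HintOoE : Subring ↥(L0 A N) :=
  (integralClosure ↥(Algebra.adjoin ↥(Kur A)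
    ({(j0 A N)⁻¹} : Set ↥(L0 A N))) ↥(L0 A N)).toSubring

theorem mem_HintOoE {x : ↥(L0 A N)} : x ∈ HintOoE A N ↔
    IsIntegral ↥(Algebra.adjoin ↥(Kur A) ({(j0 A N)⁻¹} : Set ↥(L0 A N))) x := Iff.rfl

theorem isIntegral_uooE :
    IsIntegral ↥(Algebra.adjoin ↥(Kur A) ({(j0 A N)⁻¹} : Set ↥(L0 A N))) (j0 A N)⁻¹ := by
  have e : (j0 A N)⁻¹
      = algebraMap ↥(Algebra.adjoin ↥(Kur A) ({(j0 A N)⁻¹} : Set ↥(L0 A N)))
          ↥(L0 A N) ⟨(j0 A N)⁻¹, Algebra.subset_adjoin (Set.mem_singleton _)⟩ := rfl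
  rw [e]
  exact isIntegral_algebraMap

theorem isIntegral_const_ooE (c : ↥(Kur A)) :
    IsIntegral ↥(Algebra.adjoin ↥(Kur A) ({(j0 A N)⁻¹} : Set ↥(L0 A N)))
      (algebraMap ↥(Kur A) ↥(L0 A N) c) := by
  rw [IsScalarTower.algebraMap_apply ↥(Kur A)
    ↥(Algebra.adjoin ↥(Kur A) ({(j0 A N)⁻¹} : Set ↥(L0 A N))) ↥(L0 A N)]
  exact isIntegral_algebraMap

theorem hqR_ooE (q : ℕ) : algebraMap ↥(Rur A) ↥(L0 A N) ((q : ℕ) : ↥(Rur A))
    = ((q : ℕ) : ↥(L0 A N)) := map_natCast _ q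

theorem hqH_ooE (q : ℕ) :
    (algebraMap ↥(Rur A) ↥(L0 A N) ((q : ℕ) : ↥(Rur A)))⁻¹ ∈ HintOoE A N := by
  rw [hqR_ooE, mem_HintOoE]
  have e1 : (((q : ℕ) : ↥(L0 A N)))⁻¹
      = algebraMap ↥(Kur A) ↥(L0 A N) (((q : ℕ) : ↥(Kur A)))⁻¹ := by
    rw [map_inv₀, map_natCast]
  rw [e1]
  exact isIntegral_const_ooE A N _

end Hint

section ChartE

variable (A : ValuationSubring Kbar) (q M' N : ℕ) [NeZero M'] [NeZero N] [NeZero q]
  (hq : q.Prime) (hqM : ¬ q ∣ M') (hA : A.LiesOverPrime q)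
  (hle : modularFunctionFieldBar M' ≤ modularFunctionFieldBar N)
  {ι : Type} [Fintype ι] [DecidableEq ι] {κ : ι → Type} [∀ i, Field (κ i)]
  (alg : ∀ i, Algebra (FM A M') (κ i))
  (D : @H42.NRData ↥(L0 A M') ↥(L0 A N) (FM A M') _ _ _ (algL0 A hle) ι κ _ alg)
  (hVE : @H42.NRData.VE ↥(L0 A M') ↥(L0 A N) (FM A M') _ _ _ (algL0 A hle) ι κ _ alg D
    = VE0 A M')
  (hdeg : ∑ i, @H42.NRData.e ↥(L0 A M') ↥(L0 A N) (FM A M') _ _ _ (algL0 A hle) ι κ _ alg D i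
        * @Module.finrank (FM A M') (κ i) _ _ (alg i).toModule
      = @Module.finrank ↥(L0 A M') ↥(L0 A N) _ _ (algL0 A hle).toModule)
  {kk : Type*} {κC : ι → Type*} [Field kk] [∀ i, Field (κC i)] [∀ i, Algebra kk (κC i)]
  (C : Chart ↥(Rur A) ↥(L0 A N) kk ι κC)
  (hV : ∀ i, C.V i = @H42.NRData.V ↥(L0 A M') ↥(L0 A N) (FM A M') _ _ _ (algL0 A hle) ι κ _
    alg D i)
  (i₀ : ι)
  (hj : j0 A N ∈ C.V i₀) (htr : Transcendental kk (C.red i₀ ⟨j0 A N, hj⟩))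
  (hBoo : C.B = intSub ↥(Rur A) (j0 A N)⁻¹)
  (hϖ : algebraMap ↥(Rur A) ↥(L0 A N) ((q : ℕ) : ↥(Rur A))
    = @algebraMap ↥(L0 A M') ↥(L0 A N) _ _ (algL0 A hle)
        (@H42.NRData.ϖ ↥(L0 A M') ↥(L0 A N) (FM A M') _ _ _ (algL0 A hle) ι κ _ alg D))

include hq hqM hA hVE hdeg hV htr hBoo in
/-- Membership in the chart of `1 / j`: integral over `K^ur[1 / j]` and in all `V i`. -/
theorem mem_chart_of_isIntegral {f : ↥(L0 A N)}
    (hf₁ : IsIntegral ↥(Algebra.adjoin ↥(Kur A) ({(j0 A N)⁻¹} : Set ↥(L0 A N))) f)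
    (hf₂ : ∀ i, f ∈ C.V i) : f ∈ C.B := by
  rw [hBoo]
  exact Fermat.Agent.S45.NUE.H28.critE_inv A q M' N hq hqM hA hle alg D hVE hdeg C hV i₀ hj htr
    hf₁ hf₂

include hBoo in
/-- `1 / j` lies in the chart of `1 / j`. -/
theorem uoo_mem_chart : (j0 A N)⁻¹ ∈ C.B := by
  rw [hBoo, mem_intSub]
  have e : (j0 A N)⁻¹
      = algebraMap ↥(Algebra.adjoin ↥(Rur A) ({(j0 A N)⁻¹} : Set ↥(L0 A N)))
          ↥(L0 A N) ⟨(j0 A N)⁻¹, Algebra.subset_adjoin (Set.mem_singleton _)⟩ := rfl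
  rw [e]
  exact isIntegral_algebraMap

include hq hqM hA hVE hdeg hV htr hBoo hϖ in
/-- **`ChartOoE` for the chart of `1 / j`** with the valuation rings of an `NRData`. -/
theorem chartOoE_of_nrData :
    ChartOoE C ((q : ℕ) : ↥(Rur A))
      (fun i => @H42.NRData.e ↥(L0 A M') ↥(L0 A N) (FM A M') _ _ _ (algL0 A hle) ι κ _ alg D i)
      (HintOoE A N) := by
  letI := algL0 A hle
  haveI : Module.Finite ↥(L0 A M') ↥(L0 A N) :=
    Fermat.Agent.S45.NUE.H41.finite_L0_of_le A M' N hle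
  refine
    { hq0 := Fermat.Agent.S45.NUE.H65.q_ne_zero_of_nrData D _ hϖ
      hqV := fun i => Fermat.Agent.S45.NUE.H65.q_mem_nonunits_of_nrData D C id hV _ hϖ i
      hBH := ?_
      hqH := hqH_ooE A N q
      crit := ?_
      hE := Fermat.Agent.S45.NUE.H65.valE_of_nrData D hdeg C id hV _ hϖ }
  · intro x hx
    rw [hBoo] at hx
    exact isIntegral_adjoin_field ↥(Rur A) ↥(Kur A) (j0 A N)⁻¹ hx
  · intro f hf hfV
    exact mem_chart_of_isIntegral A q M' N hq hqM hA hle alg D hVE hdeg C hV i₀ hj htr hBoo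
      hf hfV

variable {Z K L : Type*} [Field K] [Field L] [Algebra K L] [Algebra ↥(L0 A N) L]

include hq hqM hA hVE hdeg hV htr hBoo hϖ in
/-- **E-CUSP: the hypothesis `hptoo` of `H65.finModE_of`** for a chart of `1 / j` with the
valuation rings of an `NRData`, from the cusp witnesses of all components and the branches at
the cusps. -/
theorem hptooE_of_wit (G : H96.GlueCore K ↥(L0 A N) L kk ι Z κC)
    (hw : ∀ i, CuspWit C ((q : ℕ) : ↥(Rur A))
      (fun i => @H42.NRData.e ↥(L0 A M') ↥(L0 A N) (FM A M') _ _ _ (algL0 A hle) ι κ _ alg D i)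
      ⟨(j0 A N)⁻¹, uoo_mem_chart A N C hBoo⟩ i)
    (hbr : ∀ 𝔪 : Ideal C.B, 𝔪.IsMaximal →
      (∀ β : C.B, (β : ↥(L0 A N)) = (j0 A N)⁻¹ → β ∈ 𝔪) →
      ∀ i, C.Icomp i ≤ 𝔪 → Nonempty (Branch C 𝔪 i)) :
    ∀ 𝔪 : Ideal C.B, 𝔪.IsMaximal → (∃ i, C.Icomp i ≤ 𝔪) →
      (∀ β : C.B, (β : ↥(L0 A N)) = (j0 A N)⁻¹ → β ∈ 𝔪) →
      H96.PointDataAt C G ((q : ℕ) : ↥(Rur A)) 𝔪 :=
  cusp_pointDataAtE
    (chartOoE_of_nrData A q M' N hq hqM hA hle alg D hVE hdeg C hV i₀ hj htr hBoo hϖ) G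
    (j0 A N)⁻¹ (uoo_mem_chart A N C hBoo) hw hbr

end ChartE

end Fermat.Agent.S45.NUE.H88
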