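import Fermat.Agent.S45.NUE.H54_ChartPack
import Fermat.Agent.S45.NUE.H99_OrdE
import Fermat.Agent.S45.NUE.H88_ChartOoE

/-!
# S45 / NU_e, package E-CHART (helper74): `H99.ChartE` and `H88.ChartOoE` over E-TOT

Level `N = M q^e`, `q ∤ M`, `e ≥ 1`, `T = totEM …` (helper23, unconditional),
`h : ChartInE A N T` (helper81).

* `hqR_totEM` : `q ∈ R^ur` maps to the uniformiser `ϖ` of the `NRData` `nrEM`;
* `critE_totEM` : **TI3-VAL** at `totEM` (helper28's `critE`);
* `chartE_chart0E` : **helper99's `ChartE`** for `chart0E A N totEM h`, with `qR = q`,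
  `mult a = φ(q^min(a, e - a))`, `idx = Fin.val`  (input of `H99.hordE`);
* `chartOoE_chartInfE` : **helper88's `ChartOoE`** for `chartInfE A N totEM h`
  (input of `H88.cusp_pointDataAtE` / `hptooE_of_wit`).
-/

set_option autoImplicit false
set_option synthInstance.maxHeartbeats 400000
set_option maxHeartbeats 1000000
set_option linter.style.haveILetI false
set_option linter.unusedSectionVars false
set_option linter.unusedVariables false

noncomputable section

open ModularCurve AlgebraicCurve IntermediateField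

namespace Fermat.Agent.S45.NUE.H74

open Fermat.Agent.S24 Fermat.Agent.BAD.H88 Fermat.Agent.S28 Fermat.Agent.S28.H73
  Fermat.Agent.S36.NU.H88 Fermat.Agent.S36.NU.H23
  Fermat.Agent.S36.NU.H16 Fermat.Agent.S36.NU.H24 Fermat.Agent.S36.NU.H65
  Fermat.Agent.S36.NU.H41 Fermat.Agent.S36.NU.H17 Fermat.Agent.S36.NU.H79
  Fermat.Agent.RED.H73 Fermat.Agent.RED.H17 Fermat.Agent.BAD
open Fermat.Agent.S45.NUE.H23

section Inst

variable (A : ValuationSubring Kbar)
variable (N q M e : ℕ) (B k : ℤ) (hN : N = M * q ^ e) (hB : B * M + k * (q : ℤ) ^ e = 1)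
  (hq : q.Prime) [NeZero N] [NeZero q] [NeZero M] (hqM : ¬ q ∣ M) (hA : A.LiesOverPrime q)
  (ht : H91.TameAt M q) (he : 0 < e)

attribute [local instance] algkE

/-- `q ∈ R^ur` maps to the image of the uniformiser of the `NRData`. -/
theorem hqR_totEM :
    algebraMap ↥(Rur A) ↥(L0 A N) ((q : ℕ) : ↥(Rur A))
      = @algebraMap ↥(L0 A M) ↥(L0 A N) _ _ (algL0 A (hleE N q M e hN))
          (@H42.NRData.ϖ ↥(L0 A M) ↥(L0 A N) (FM A M) _ _ _ (algL0 A (hleE N q M e hN))
            (Fin (e + 1)) (kapE A M e) _ (algE A q M e hq hqM hA)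
            (nrEM A N q M e B k hN hB hq hqM hA he)) := by
  rw [map_natCast]
  exact (algebraMap_piE A N q M e hN).symm

/-- **TI3-VAL** at the modular conservation datum. -/
theorem critE_totEM (h : ChartInE A N (totEM A N q M e B k hN hB hq hqM hA ht he))
    (f : ↥(L0 A N))
    (hf₁ : IsIntegral ↥(Algebra.adjoin ↥(Kur A) ({j0 A N} : Set ↥(L0 A N))) f)
    (hf₂ : ∀ i, f ∈ (totEM A N q M e B k hN hB hq hqM hA ht he).V i) :
    f ∈ intSub ↥(Rur A) (j0 A N) :=
  Fermat.Agent.S45.NUE.H28.critE A q M N hq hqM hA (hleE N q M e hN)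
    (algE A q M e hq hqM hA) (nrEM A N q M e B k hN hB hq hqM hA he) rfl
    (nrE_hdeg A N q M e B k hN hB hq hqM hA (inE_mod A N q M e B k hN hB hq hqM hA) he)
    (chart0E A N (totEM A N q M e B k hN hB hq hqM hA ht he) h) (fun _ => rfl) 0
    (h.j_mem 0)
    (H54.transcendental_red_j0 A N q M e B k hN hB hq hqM hA ht he 0 (h.j_mem 0)) hf₁ hf₂

/-- **helper99's `ChartE`** for the chart of `j` over the modular conservation datum. -/
theorem chartE_chart0E (h : ChartInE A N (totEM A N q M e B k hN hB hq hqM hA ht he)) :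
    H99.ChartE A N q M e B k hN hB hq
      (chart0E A N (totEM A N q M e B k hN hB hq hqM hA ht he) h)
      ((q : ℕ) : ↥(Rur A)) (fun i : Fin (e + 1) => mE q e (i : ℕ))
      (fun i : Fin (e + 1) => (i : ℕ)) := by
  letI := algL0 A (hleE N q M e hN)
  haveI : Module.Finite ↥(L0 A M) ↥(L0 A N) :=
    Fermat.Agent.S45.NUE.H41.finite_L0_of_le A M N (hleE N q M e hN)
  letI := algE A q M e hq hqM hA
  refine
    { hqR := map_natCast _ q
      hqV := fun i => Fermat.Agent.S45.NUE.H65.q_mem_nonunits_of_nrData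
        (nrEM A N q M e B k hN hB hq hqM hA he)
        (chart0E A N (totEM A N q M e B k hN hB hq hqM hA ht he) h) id (fun _ => rfl) _
        (hqR_totEM A N q M e B k hN hB hq hqM hA he) i
      crit := fun f hf₁ hf₂ => critE_totEM A N q M e B k hN hB hq hqM hA ht he h f hf₁ hf₂
      hint := fun x hx => isIntegral_adjoin_field ↥(Rur A) ↥(Kur A) (j0 A N) hx
      hE := Fermat.Agent.S45.NUE.H65.valE_of_nrData
        (nrEM A N q M e B k hN hB hq hqM hA he)
        (nrE_hdeg A N q M e B k hN hB hq hqM hA (inE_mod A N q M e B k hN hB hq hqM hA) he)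
        (chart0E A N (totEM A N q M e B k hN hB hq hqM hA ht he) h) id (fun _ => rfl) _
        (hqR_totEM A N q M e B k hN hB hq hqM hA he)
      hidx := fun i => Nat.lt_succ_iff.mp i.2
      hinj := Fin.val_injective
      hmult := fun _ => rfl
      hV := fun _ => rfl
      hconst := fun i r hr => H54.sE_const A N q M e B k hN hB hq (i : ℕ) r hr }

/-- **helper88's `ChartOoE`** for the chart of `1 / j` over the modular conservation datum. -/
theorem chartOoE_chartInfE (h : ChartInE A N (totEM A N q M e B k hN hB hq hqM hA ht he)) :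
    Fermat.Agent.S45.NUE.H88.ChartOoE
      (chartInfE A N (totEM A N q M e B k hN hB hq hqM hA ht he) h)
      ((q : ℕ) : ↥(Rur A)) (fun i : Fin (e + 1) => mE q e (i : ℕ))
      (Fermat.Agent.S45.NUE.H88.HintOoE A N) :=
  Fermat.Agent.S45.NUE.H88.chartOoE_of_nrData A q M N hq hqM hA (hleE N q M e hN)
    (algE A q M e hq hqM hA) (nrEM A N q M e B k hN hB hq hqM hA he) rfl
    (nrE_hdeg A N q M e B k hN hB hq hqM hA (inE_mod A N q M e B k hN hB hq hqM hA) he)
    (chartInfE A N (totEM A N q M e B k hN hB hq hqM hA ht he) h) (fun _ => rfl) 0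
    (h.j_mem 0)
    (H54.transcendental_red_j0 A N q M e B k hN hB hq hqM hA ht he 0 (h.j_mem 0)) rfl
    (hqR_totEM A N q M e B k hN hB hq hqM hA he)

end Inst

end Fermat.Agent.S45.NUE.H74
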