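import Fermat.Agent.S45.NUE.H17_BranchE2
import Fermat.Agent.S45.NUE.H74_ChartEInst

/-!
# S45 / NU_e, leaf E-PT-BR, instance (helper17): the branches of the two charts over `totEM`

`N = M q^e`, `q ∤ M` tame, `e ≥ 1`, `T = totEM …` (helper23), `h : ChartInE A N T` (helper81).

* `branch_chart0E_totEM` : **`hbr` of `H88.pointDataE_of_dichotomy`** for `chart0E A N T h`;
* `branch_chartInfE_totEM` : **`hbr` of `H88.hptooE_totEM` / `H88.cusp_pointDataAtE`** for
  `chartInfE A N T h`;
* `isIntegral_jE_totEM` : `j (q^e τ)` is integral over `R^ur[j]`.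
-/

set_option autoImplicit false
set_option synthInstance.maxHeartbeats 400000
set_option maxHeartbeats 1000000
set_option linter.style.haveILetI false
set_option linter.unusedSectionVars false
set_option linter.unusedVariables false

noncomputable section

open ModularCurve AlgebraicCurve IntermediateField

namespace Fermat.Agent.S45.NUE.H17

open Fermat.Agent.S24 Fermat.Agent.BAD.H88 Fermat.Agent.S28 Fermat.Agent.S28.H73
  Fermat.Agent.S36.NU.H88 Fermat.Agent.S36.NU.H16 Fermat.Agent.S36.NU.H65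
  Fermat.Agent.S36.NU.H41 Fermat.Agent.BAD
open Fermat.Agent.S45.NUE.H23 Fermat.Agent.S45.NUE.H74

local notation "L0" => Fermat.Agent.S36.NU.H23.L0

section Inst

variable (A : ValuationSubring Kbar)
variable (N q M e : ℕ) (B k : ℤ) (hN : N = M * q ^ e) (hB : B * M + k * (q : ℤ) ^ e = 1)
  (hq : q.Prime) [NeZero N] [NeZero q] [NeZero M] (hqM : ¬ q ∣ M) (hA : A.LiesOverPrime q)
  (ht : H91.TameAt M q) (he : 0 < e)

attribute [local instance] algkE

/-- `j (q^e τ)` is integral over `R^ur[j]`. -/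
theorem isIntegral_jE_totEM (h : ChartInE A N (totEM A N q M e B k hN hB hq hqM hA ht he)) :
    IsIntegral ↥(Algebra.adjoin ↥(Rur A) {j0 A N}) (jE A N q M e hN) :=
  isIntegral_jE_Rur A N q M e B k hN hB hq (fun f hf₁ hf₂ =>
    critE_totEM A N q M e B k hN hB hq hqM hA ht he h f hf₁
      (fun i => hf₂ (i : ℕ) (Nat.lt_succ_iff.mp i.2)))

/-- **`hbr` for the chart of `j` over `totEM`.** -/
theorem branch_chart0E_totEM (h : ChartInE A N (totEM A N q M e B k hN hB hq hqM hA ht he)) :
    ∀ 𝔪 : Ideal (chart0E A N (totEM A N q M e B k hN hB hq hqM hA ht he) h).B, 𝔪.IsMaximal →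
      ∀ i, (chart0E A N (totEM A N q M e B k hN hB hq hqM hA ht he) h).Icomp i ≤ 𝔪 →
        Nonempty (Branch (chart0E A N (totEM A N q M e B k hN hB hq hqM hA ht he) h) 𝔪 i) :=
  branch_chart0E A N q M e B k hN hB hq
    (chart0E A N (totEM A N q M e B k hN hB hq hqM hA ht he) h)
    (fun i : Fin (e + 1) => (i : ℕ)) (fun _ => AlgHom.id (kV A) (FM A M))
    (fun i => Nat.lt_succ_iff.mp i.2) (fun _ => rfl) (fun _ _ _ _ => rfl) hqM hA ht
    (self_mem_intSub _ _) (fun β => β.2)
    (fun f hf₁ hf₂ => critE_totEM A N q M e B k hN hB hq hqM hA ht he h f hf₁ hf₂)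

/-- **`hbr` for the chart of `1 / j` over `totEM`**, at the cusps. -/
theorem branch_chartInfE_totEM
    (h : ChartInE A N (totEM A N q M e B k hN hB hq hqM hA ht he)) :
    ∀ 𝔪 : Ideal (chartInfE A N (totEM A N q M e B k hN hB hq hqM hA ht he) h).B,
      𝔪.IsMaximal →
      (∀ β : (chartInfE A N (totEM A N q M e B k hN hB hq hqM hA ht he) h).B,
        (β : ↥(L0 A N)) = (j0 A N)⁻¹ → β ∈ 𝔪) →
      ∀ i, (chartInfE A N (totEM A N q M e B k hN hB hq hqM hA ht he) h).Icomp i ≤ 𝔪 →
        Nonempty (Branch (chartInfE A N (totEM A N q M e B k hN hB hq hqM hA ht he) h) 𝔪 i) :=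
  branch_chartInfE A N q M e B k hN hB hq
    (chartInfE A N (totEM A N q M e B k hN hB hq hqM hA ht he) h)
    (fun i : Fin (e + 1) => (i : ℕ)) (fun _ => AlgHom.id (kV A) (FM A M))
    (fun i => Nat.lt_succ_iff.mp i.2) (fun _ => rfl) (fun _ _ _ _ => rfl) hqM hA
    (self_mem_intSub _ _) (fun β => β.2)
    (fun f hf₁ hf₂ =>
      Fermat.Agent.S45.NUE.H88.mem_chart_of_isIntegral A q M N hq hqM hA (hleE N q M e hN)
        (algE A q M e hq hqM hA) (nrEM A N q M e B k hN hB hq hqM hA he) rfl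
        (nrE_hdeg A N q M e B k hN hB hq hqM hA (inE_mod A N q M e B k hN hB hq hqM hA) he)
        (chartInfE A N (totEM A N q M e B k hN hB hq hqM hA ht he) h) (fun _ => rfl) 0
        (h.j_mem 0)
        (Fermat.Agent.S45.NUE.H54.transcendental_red_j0 A N q M e B k hN hB hq hqM hA ht he 0
          (h.j_mem 0)) rfl hf₁ hf₂)
    (isIntegral_jE_totEM A N q M e B k hN hB hq hqM hA ht he h)

end Inst

end Fermat.Agent.S45.NUE.H17
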