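import Fermat.Agent.S45.NUE.H23_TotE4
import Fermat.Agent.S45.NUE.H54_SepMod

/-!
# S45 / NU_e, package E-TOT (helper23), part 5: the bridge to the charts

The conservation datum `totEM` satisfies helper54's interface `H54.BridgeE`, with
`idx i = i` and `σ i` the inclusion of the residue field of level `M` in `k((s))`.
-/

set_option autoImplicit false
set_option synthInstance.maxHeartbeats 400000
set_option maxHeartbeats 1000000
set_option linter.style.haveILetI false
set_option linter.unusedSectionVars false

noncomputable section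

open ModularCurve AlgebraicCurve
open Fermat.Agent.S24 Fermat.Agent.BAD.H88 Fermat.Agent.S28 Fermat.Agent.S28.H73
open Fermat.Agent.RED.H73 Fermat.Agent.RED.H17 Fermat.Agent.S36.NU.H88
open Fermat.Agent.S36.NU.H23

namespace Fermat.Agent.S45.NUE.H23

open Fermat.Agent.BAD Fermat.Agent.RED Fermat.Agent.S36.NU.H79

section BridgeEM

variable (A : ValuationSubring Kbar)
variable (N q M e : ℕ) (B k : ℤ) (hN : N = M * q ^ e) (hB : B * M + k * (q : ℤ) ^ e = 1)
  (hq : q.Prime) [NeZero N] [NeZero q] [NeZero M] (hqM : ¬ q ∣ M) (hA : A.LiesOverPrime q)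
  (ht : H91.TameAt M q)

/-- The inclusion of the residue fields of `totEM` in `k((s))`. -/
def sigE (i : Fin (e + 1)) : kapE A M e i →+* LaurentSeries (kV A) :=
  (algebraMap (FM A M) (LaurentSeries (kV A)) : FM A M →+* LaurentSeries (kV A))

theorem sigE_apply (i : Fin (e + 1)) (c : FM A M) :
    sigE A M e i c = (c : LaurentSeries (kV A)) := rfl

theorem sigE_injective (i : Fin (e + 1)) : Function.Injective (sigE A M e i) :=
  fun _ _ h => Subtype.ext h

/-- `σ` is compatible with the constants. -/
theorem sigE_algebraMap (i : Fin (e + 1)) (c : kV A) :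
    sigE A M e i (@algebraMap (kV A) (kapE A M e i) _ _ (algkE A M e i) c)
      = algebraMap (kV A) (LaurentSeries (kV A)) c := rfl

/-- **The bridge**: `totEM` has the valuation rings `VE a` and the residue maps `sE a`. -/
theorem bridgeEM (he : 0 < e) :
    @Fermat.Agent.S45.NUE.H54.BridgeE A N q M e B k hN hB hq _ _ Kbar (FN N) (kV A)
      (Fin (e + 1)) (Place (kV A) (FM A M)) (kapE A M e) _ _ _ _ _ _ _ (algkE A M e)
      (totEM A N q M e B k hN hB hq hqM hA ht he) (fun i => (i : ℕ)) (sigE A M e) := by
  letI := algkE A M e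
  exact ⟨Fin.val_injective, fun i => Nat.lt_succ_iff.mp i.2, fun _ => rfl,
    fun _ _ _ _ => rfl⟩

end BridgeEM

end Fermat.Agent.S45.NUE.H23
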