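import Fermat.Agent.S36.NU.H74_FinHyps
import Fermat.Agent.S45.NUE.H41_DegE

/-!
# S45 / NU_e, package E-FIN, leaf E-PT-HYPS (helper41): `hSS0` for any level

`M` a level prime to `q` (tame), `N` any level with `F_M ⊆ F_N` (modular: `N = M q ^ e`).

* `rhoLvl` : the reduction map `Place ℚ̄ F_N → Place k (F_M mod q)`, `P ↦ r_M (P|F_M)`
  (for `N = M q q` this is helper23's `rhoM`, by `rfl`);
* `regAt_jF_of_rhoLvl` : `j` is regular at `P` when `j~` is regular at `rhoLvl P`;
* `inChart_of_rhoLvl` : **`hSS0`**: for a chart with coordinate ring `B = intSub (Rur A) j` over a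
  conservation datum `T` with `T.ρ = rhoLvl`, every `z` at which `j~` is regular is a point of the
  chart.
-/

set_option autoImplicit false
set_option synthInstance.maxHeartbeats 400000
set_option maxHeartbeats 1000000
set_option linter.unusedSectionVars false
set_option linter.style.haveILetI false

noncomputable section

open ModularCurve AlgebraicCurve
open Fermat.Agent.S24 Fermat.Agent.BAD Fermat.Agent.BAD.H88 Fermat.Agent.S28
  Fermat.Agent.S28.H73 Fermat.Agent.RED.H73 Fermat.Agent.RED.H17 Fermat.Agent.RED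
  Fermat.Agent.S36.NU.H88 Fermat.Agent.S36.NU.H23 Fermat.Agent.S36.NU.H41
  Fermat.Agent.S36.NU.H16 Fermat.Agent.S36.NU.H24 Fermat.Agent.S36.NU.H79
  Fermat.Agent.S36.NU.H65 Fermat.Agent.S36.NU.H74

namespace Fermat.Agent.S45.NUE.H41P

section SS0

variable (A : ValuationSubring Kbar) (q M N : ℕ) (hq : q.Prime) [NeZero M] [NeZero N]
  (hqM : ¬ q ∣ M) (hA : A.LiesOverPrime q) (ht : H91.TameAt M q)
  (hle : modularFunctionFieldBar M ≤ modularFunctionFieldBar N)

theorem tower_FN_of_le :
    letI := algF hle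
    IsScalarTower Kbar (FN M) (FN N) :=
  isScalarTower_along (IntermediateField.inclusion hle)

theorem finite_FN_of_le' :
    letI := algF hle
    Module.Finite (FN M) (FN N) := Fermat.Agent.S45.NUE.H41.finite_FN_of_le M N hle

/-- The reduction map of `F_N` to the curve of level `M` mod `q`. -/
def rhoLvl (P : Place Kbar (FN N)) : Place (kV A) (FM A M) :=
  letI := algF hle
  haveI := tower_FN_of_le M N hle
  haveI := finite_FN_of_le' M N hle
  (H91.seM hq hqM ht hA).r (P.restrict (FN M))

/-- The two versions of `j` in `F_N` agree. -/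
theorem algebraMap_jF_lvl :
    letI := algF hle
    algebraMap (FN M) (FN N) (RED.H73.jF (L := Kbar) M) = Fermat.Agent.S24.jF N := by
  apply Subtype.ext
  show jqModC Kbar = coeffEmb Kbar jq
  have h := RED.H73.coeffEmb_qExpand_jq (L := Kbar) 1
  rw [qExpand_one_apply, qExpand_one_apply] at h
  exact h.symm

/-- `j` is regular at the places over a point at which `j~` is regular. -/
theorem regAt_jF_of_rhoLvl {z : Place (kV A) (FM A M)}
    (hz : 0 ≤ z.ord (Fermat.Agent.BAD.H91.jRed A M))
    (P : Place Kbar (FN N)) (hP : rhoLvl A q M N hq hqM hA ht hle P = z) :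
    RegAt P (Fermat.Agent.S24.jF N) := by
  letI := algF hle
  haveI := tower_FN_of_le M N hle
  haveI := finite_FN_of_le' M N hle
  have h0 : 0 ≤ ((H91.seM hq hqM ht hA).r (P.restrict (FN M))).ord
      (Fermat.Agent.BAD.H91.jRed A M) := by
    have e : (H91.seM hq hqM ht hA).r (P.restrict (FN M)) = z := hP
    rw [e]
    exact hz
  have h1 : 0 ≤ (P.restrict (FN M)).ord (RED.H73.jF (L := Kbar) M) :=
    H91.ord_jF_nonneg_of_rM hq hqM ht hA _ h0
  have h2 : 0 ≤ P.ord (algebraMap (FN M) (FN N) (RED.H73.jF (L := Kbar) M)) := by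
    rw [P.ord_restrict]
    exact mul_nonneg (Int.natCast_nonneg _) h1
  rw [algebraMap_jF_lvl] at h2
  exact regAt_of_ord_nonneg h2

variable {ι : Type*} {κ : ι → Type*} [Fintype ι] [∀ i, Field (κ i)]
  [∀ i, Algebra (kV A) (κ i)]

/-- **`hSS0`** for any level: the points at which `j~` is regular are points of every chart with
coordinate ring `B = intSub (Rur A) j` over a conservation datum with `ρ = rhoLvl`. -/
theorem inChart_of_rhoLvl
    (C : Chart ↥(Rur A) ↥(L0 A N) (kV A) ι κ)
    (T : TotN Kbar ↥(L0 A N) (FN N) (kV A) ι (Place (kV A) (FM A M)) κ)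
    (hC : C.B = intSub ↥(Rur A) (j0 A N))
    (hρ : ∀ P, T.ρ P = rhoLvl A q M N hq hqM hA ht hle P)
    (z : Place (kV A) (FM A M)) (hz : 0 ≤ z.ord (Fermat.Agent.BAD.H91.jRed A M)) :
    InChart C T z := by
  refine inChart_of_regAt C T (j0 A N) hC z ?_ ?_
  · intro r P _
    rw [regAt_iff_mem]
    exact P.algebraMap_mem' _
  · intro P hP
    rw [hρ] at hP
    exact regAt_jF_of_rhoLvl A q M N hq hqM hA ht hle hz P hP

/-- The supersingular points of level `M` are points of the chart. -/
theorem inChart_ssM_lvl [NeZero q] [NeZero (M * q)]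
    (C : Chart ↥(Rur A) ↥(L0 A N) (kV A) ι κ)
    (T : TotN Kbar ↥(L0 A N) (FN N) (kV A) ι (Place (kV A) (FM A M)) κ)
    (hC : C.B = intSub ↥(Rur A) (j0 A N))
    (hρ : ∀ P, T.ρ P = rhoLvl A q M N hq hqM hA ht hle P) :
    ∀ z ∈ ssM A q M, InChart C T z :=
  fun z hz => inChart_of_rhoLvl A q M N hq hqM hA ht hle C T hC hρ z hz.1

end SS0

end Fermat.Agent.S45.NUE.H41P
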