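import Fermat.Agent.S45.NUE.H82_EpsVal

/-!
# S45 / NU_e, package E-CUSP / E-EPS (helper82): the witnesses `EwE a` at the `e + 1` valuations

Level `N = M q^e`, `1 ≤ e`.  The four targets of `H82_EwE.lean`:

* `stmt_EwE_mem : Stmt_EwE_mem ..` : `EwE a ∈ V_b` for all `a, b ≤ e`;
* `stmt_EwE_inv : Stmt_EwE_inv ..` : `(EwE a)⁻¹ ∈ V_a`;
* `stmt_EwE_div : Stmt_EwE_div ..` : `a ≠ b → ∃ f' ∈ V_b, EwE a = q * f'`;
* `stmt_EwE_red : Stmt_EwE_red ..` (over `q`): `s_a (EwE a) = (HU (s^(q^(max a (e - a) - 1)))) ^ c_a`.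

The expansions behind them: `cE_EwF_self`, `cE_EwF_off`.
-/

set_option autoImplicit false
set_option synthInstance.maxHeartbeats 400000
set_option maxHeartbeats 1000000
set_option linter.unusedSectionVars false
set_option linter.unusedVariables false
set_option linter.style.haveILetI false

noncomputable section

open ModularCurve
open Fermat.Agent.S24 Fermat.Agent.BAD.H88 Fermat.Agent.BAD.H30
open Fermat.Agent.S28 Fermat.Agent.S28.H73
open Fermat.Agent.S36.NU.H88 Fermat.Agent.S36.NU.H23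
open Fermat.Agent.S45.NUE.H73
open Fermat.Agent.RED.H73 (GaussUnit)
open scoped MatrixGroups

namespace Fermat.Agent.S45.NUE.H82

section Red

variable (A : ValuationSubring Kbar)

theorem gaussRedV_congr82 {x y : LaurentSeries Kbar} (hxy : x = y) (hx : x ∈ gaussRingV A)
    (hy : y ∈ gaussRingV A) : gaussRedV A ⟨x, hx⟩ = gaussRedV A ⟨y, hy⟩ := by
  subst hxy
  rfl

theorem gaussRedV_mul82 {x y : LaurentSeries Kbar} (hx : x ∈ gaussRingV A)
    (hy : y ∈ gaussRingV A) (hxy : x * y ∈ gaussRingV A) :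
    gaussRedV A ⟨x * y, hxy⟩ = gaussRedV A ⟨x, hx⟩ * gaussRedV A ⟨y, hy⟩ := by
  have e : (⟨x * y, hxy⟩ : ↥(gaussRingV A)) = ⟨x, hx⟩ * ⟨y, hy⟩ := Subtype.ext rfl
  rw [e, map_mul]

end Red

section Main

variable (A : ValuationSubring Kbar)
variable (N q M e : ℕ) (B k : ℤ) (hN : N = M * q ^ e) (hB : B * M + k * (q : ℤ) ^ e = 1)
  (hq : q.Prime) [NeZero N] [NeZero q]

open Fermat.Agent.S45.NUE.H23 (cE VE sE)

theorem cE_cqN_pow (b : ℕ) :
    cE N q M e B k hN hB hq b (cqN N q ^ 12) = HahnSeries.C ((q : Kbar) ^ 12) := by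
  rw [map_pow, cqN, AlgHom.commutes, ← map_pow, algebraMap_laurentSeries_eq_single]
  rfl

include hq in
theorem C_q_pow_ne_zero : (HahnSeries.C ((q : Kbar) ^ 12) : LaurentSeries Kbar) ≠ 0 := by
  rw [Ne, map_eq_zero]
  exact pow_ne_zero _ (Nat.cast_ne_zero.mpr hq.ne_zero)

theorem cE_of_inv_form (b : ℕ) (x : FN N) (W : LaurentSeries Kbar)
    (h : cE N q M e B k hN hB hq b (cqN N q ^ 12 * x⁻¹) = W) :
    cE N q M e B k hN hB hq b x = HahnSeries.C ((q : Kbar) ^ 12) * W⁻¹ := by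
  have hC0 := C_q_pow_ne_zero q hq
  rw [← h, map_mul, map_inv₀, cE_cqN_pow, mul_inv, inv_inv, ← mul_assoc, mul_inv_cancel₀ hC0,
    one_mul]

/-- **The expansion of the witness of `a` at its own cusp.** -/
theorem cE_EwF_self (he : 1 ≤ e) (a : ℕ) (ha : a ≤ e) :
    ∃ z₁ z₂ : Kbar, z₁ ^ (q ^ e) = 1 ∧ z₂ ^ (q ^ e) = 1 ∧
      cE N q M e B k hN hB hq a (EwF N q e a)
        = WU q z₁ (max a (e - a) - 1)
          * (if a = 0 ∨ a = e then 1 else WU q z₂ (max a (e - a) - 1)) := by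
  by_cases ha0 : a = 0
  · subst ha0
    have h0 : q ^ (0 + 1) ∣ N := pow_succ_dvd_lvl N q M e hN 0 (by omega)
    obtain ⟨z, hz, hexp⟩ := uexp_gt N q M e B k hN hB hq 0 0 le_rfl (by omega) h0
    refine ⟨z, 1, hz, one_pow _, ?_⟩
    rw [if_pos (Or.inl rfl), mul_one, EwF_zero, epsT_eq N q 0 h0, hexp]
    exact congrArg (WU q z) (by omega)
  · by_cases hae : a = e
    · subst hae
      have h1 : q ^ (a - 1 + 1) ∣ N := pow_succ_dvd_lvl N q M a hN (a - 1) (by omega)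
      refine ⟨1, 1, one_pow _, one_pow _, ?_⟩
      rw [if_pos (Or.inr rfl), mul_one, EwF_top N q a ha0, epsT_eq N q (a - 1) h1,
        uexp_le N q M a B k hN hB hq (a - 1) a (by omega) le_rfl h1]
      exact congrArg (WU q 1) (by omega)
    · have h1 : q ^ (a - 1 + 1) ∣ N := pow_succ_dvd_lvl N q M e hN (a - 1) (by omega)
      have h2 : q ^ (a + 1) ∣ N := pow_succ_dvd_lvl N q M e hN a (by omega)
      have e1 := uexp_le N q M e B k hN hB hq (a - 1) a (by omega) ha h1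
      obtain ⟨z, hz, e2⟩ := uexp_gt N q M e B k hN hB hq a a le_rfl (by omega) h2
      refine ⟨1, z, one_pow _, hz, ?_⟩
      have e3 : EwF N q e a = epsN N q (a - 1) h1 * (cqN N q ^ 12 * (epsN N q a h2)⁻¹) := by
        rw [EwF_mid N q e a ha0 hae, epsT_eq N q (a - 1) h1, epsT_eq N q a h2]
        ring
      rw [if_neg (not_or.2 ⟨ha0, hae⟩), e3, map_mul, e1, e2,
        show e - 2 * a + (a - 1) = max a (e - a) - 1 by omega,
        show max e (2 * a) - a - 1 = max a (e - a) - 1 by omega]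

/-- **The expansion of the witness of `a` at the other cusps**: `q¹²` times a unit. -/
theorem cE_EwF_off (he : 1 ≤ e) (a b : ℕ) (ha : a ≤ e) (hb : b ≤ e) (hab : a ≠ b) :
    ∃ u : LaurentSeries Kbar, GaussUnit A u ∧
      cE N q M e B k hN hB hq b (EwF N q e a) = HahnSeries.C ((q : Kbar) ^ 12) * u := by
  have hn : q ^ e ≠ 0 := pow_ne_zero _ hq.ne_zero
  have hW1 : ∀ m, GaussUnit A (WU q 1 m) := fun m => gaussUnit_WU A q 1 1 one_ne_zero (one_pow 1) m
  by_cases ha0 : a = 0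
  · subst ha0
    have h0 : q ^ (0 + 1) ∣ N := pow_succ_dvd_lvl N q M e hN 0 (by omega)
    have e1 := uexp_le N q M e B k hN hB hq 0 b (by omega) hb h0
    refine ⟨(WU q 1 (e - 2 * b + 0))⁻¹, (hW1 _).inv, ?_⟩
    rw [EwF_zero, epsT_eq N q 0 h0, map_mul, map_inv₀, cE_cqN_pow, e1]
  · by_cases hae : a = e
    · subst hae
      have h1 : q ^ (a - 1 + 1) ∣ N := pow_succ_dvd_lvl N q M a hN (a - 1) (by omega)
      obtain ⟨z, hz, e2⟩ := uexp_gt N q M a B k hN hB hq (a - 1) b (by omega) (by omega) h1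
      refine ⟨(WU q z (max a (2 * b) - (a - 1) - 1))⁻¹, (gaussUnit_WU A q z _ hn hz _).inv, ?_⟩
      rw [EwF_top N q a ha0, epsT_eq N q (a - 1) h1]
      exact cE_of_inv_form N q M a B k hN hB hq b _ _ e2
    · have h1 : q ^ (a - 1 + 1) ∣ N := pow_succ_dvd_lvl N q M e hN (a - 1) (by omega)
      have h2 : q ^ (a + 1) ∣ N := pow_succ_dvd_lvl N q M e hN a (by omega)
      have e3 : EwF N q e a = epsN N q (a - 1) h1 * (cqN N q ^ 12 * (epsN N q a h2)⁻¹) := by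
        rw [EwF_mid N q e a ha0 hae, epsT_eq N q (a - 1) h1, epsT_eq N q a h2]
        ring
      have e4 : EwF N q e a = cqN N q ^ 12 * (epsN N q (a - 1) h1 * (epsN N q a h2)⁻¹) := by
        rw [EwF_mid N q e a ha0 hae, epsT_eq N q (a - 1) h1, epsT_eq N q a h2]
        ring
      rcases Nat.lt_or_ge b a with hba | hba
      · obtain ⟨z₁, hz₁, f1⟩ :=
          uexp_gt N q M e B k hN hB hq (a - 1) b (by omega) (by omega) h1
        obtain ⟨z₂, hz₂, f2⟩ := uexp_gt N q M e B k hN hB hq a b (by omega) (by omega) h2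
        refine ⟨(WU q z₁ (max e (2 * b) - (a - 1) - 1))⁻¹ * WU q z₂ (max e (2 * b) - a - 1),
          (gaussUnit_WU A q z₁ _ hn hz₁ _).inv.mul (gaussUnit_WU A q z₂ _ hn hz₂ _), ?_⟩
        rw [e3, map_mul, f2, cE_of_inv_form N q M e B k hN hB hq b _ _ f1, mul_assoc]
      · have f1 := uexp_le N q M e B k hN hB hq (a - 1) b (by omega) hb h1
        have f2 := uexp_le N q M e B k hN hB hq a b (by omega) hb h2
        refine ⟨WU q 1 (e - 2 * b + (a - 1)) * (WU q 1 (e - 2 * b + a))⁻¹,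
          (hW1 _).mul (hW1 _).inv, ?_⟩
        rw [e4, map_mul, map_mul, map_inv₀, cE_cqN_pow, f1, f2]

/-! ## The four targets -/

theorem C_q_pow_eq : (HahnSeries.C ((q : Kbar) ^ 12) : LaurentSeries Kbar)
    = ((q : ℕ) : LaurentSeries Kbar) ^ 12 := by
  rw [map_pow, map_natCast]

theorem gaussUnit_self_form (z₁ z₂ : Kbar) (h1 : z₁ ^ (q ^ e) = 1) (h2 : z₂ ^ (q ^ e) = 1)
    (a m : ℕ) : GaussUnit A (WU q z₁ m * (if a = 0 ∨ a = e then 1 else WU q z₂ m)) := by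
  have hn : q ^ e ≠ 0 := pow_ne_zero _ (NeZero.ne q)
  split_ifs
  · exact (gaussUnit_WU A q z₁ _ hn h1 m).mul (Fermat.Agent.RED.H73.gaussUnit_one A)
  · exact (gaussUnit_WU A q z₁ _ hn h1 m).mul (gaussUnit_WU A q z₂ _ hn h2 m)

/-- **(E-EPS i)** -/
theorem stmt_EwE_mem (he : 1 ≤ e) : Stmt_EwE_mem A N q M e B k hN hB hq := by
  intro a b ha hb
  rw [Fermat.Agent.S45.NUE.H23.mem_VE_iff]
  show cE N q M e B k hN hB hq b (EwF N q e a) ∈ gaussRingV A
  by_cases hab : a = b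
  · subst hab
    obtain ⟨z₁, z₂, h1, h2, hexp⟩ := cE_EwF_self N q M e B k hN hB hq he a ha
    rw [hexp]
    exact (gaussUnit_self_form A q e z₁ z₂ h1 h2 a _).mem
  · obtain ⟨u, hu, hexp⟩ := cE_EwF_off A N q M e B k hN hB hq he a b ha hb hab
    rw [hexp, C_q_pow_eq]
    exact mul_mem (pow_mem (natCast_mem _ q) 12) hu.mem

/-- **(E-EPS i')** -/
theorem stmt_EwE_inv (he : 1 ≤ e) : Stmt_EwE_inv A N q M e B k hN hB hq := by
  intro a ha
  rw [Fermat.Agent.S45.NUE.H23.mem_VE_iff]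
  show cE N q M e B k hN hB hq a (EwF N q e a)⁻¹ ∈ gaussRingV A
  obtain ⟨z₁, z₂, h1, h2, hexp⟩ := cE_EwF_self N q M e B k hN hB hq he a ha
  rw [map_inv₀, hexp]
  exact (gaussUnit_self_form A q e z₁ z₂ h1 h2 a _).inv.mem

/-- **(E-EPS ii)** -/
theorem stmt_EwE_div (he : 1 ≤ e) : Stmt_EwE_div A N q M e B k hN hB hq := by
  intro a b ha hb hab
  have hq0 : ((q : ℕ) : ↥(L0 A N)) ≠ 0 := Nat.cast_ne_zero.2 hq.ne_zero
  refine ⟨((q : ℕ) : ↥(L0 A N))⁻¹ * EwE A N q e a, ?_, ?_⟩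
  · rw [Fermat.Agent.S45.NUE.H23.mem_VE_iff]
    show cE N q M e B k hN hB hq b (((q : ℕ) : FN N)⁻¹ * EwF N q e a) ∈ gaussRingV A
    obtain ⟨u, hu, hexp⟩ := cE_EwF_off A N q M e B k hN hB hq he a b ha hb hab
    have hqK : ((q : ℕ) : Kbar) ≠ 0 := Nat.cast_ne_zero.2 hq.ne_zero
    have hC : (HahnSeries.C ((q : ℕ) : Kbar) : LaurentSeries Kbar) ≠ 0 := by
      rw [Ne, map_eq_zero]
      exact hqK
    have e0 : ((q : ℕ) : LaurentSeries Kbar) = HahnSeries.C ((q : ℕ) : Kbar) :=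
      (map_natCast (HahnSeries.C : Kbar →+* LaurentSeries Kbar) q).symm
    have e1 : (HahnSeries.C ((q : ℕ) : Kbar) : LaurentSeries Kbar)⁻¹
          * (HahnSeries.C ((q : Kbar) ^ 12) * u)
        = HahnSeries.C ((q : Kbar) ^ 11) * u := by
      rw [show (12 : ℕ) = 11 + 1 from rfl, pow_succ, map_mul,
        mul_comm (HahnSeries.C ((q : Kbar) ^ 11)) (HahnSeries.C ((q : ℕ) : Kbar)),
        mul_assoc, ← mul_assoc, inv_mul_cancel₀ hC, one_mul]
    rw [map_mul, map_inv₀, map_natCast, hexp, e0, e1]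
    exact mul_mem (const_mem82 A _ (pow_mem (natCast_mem A q) 11)) hu.mem
  · rw [← mul_assoc, mul_inv_cancel₀ hq0, one_mul]

/-- **(E-EPS iii)** the reduction of the witness of `a` at `V_a`, over `q`. -/
theorem stmt_EwE_red (he : 1 ≤ e) (hA : A.LiesOverPrime q) :
    Stmt_EwE_red A N q M e B k hN hB hq := by
  intro a ha h
  have hn : q ^ e ≠ 0 := pow_ne_zero _ hq.ne_zero
  obtain ⟨z₁, z₂, h1, h2, hexp⟩ := cE_EwF_self N q M e B k hN hB hq he a ha
  have hW₁ := (gaussUnit_WU A q z₁ _ hn h1 (max a (e - a) - 1)).mem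
  have hW₂ := (gaussUnit_WU A q z₂ _ hn h2 (max a (e - a) - 1)).mem
  have hs : sE A N q M e B k hN hB hq a ⟨EwE A N q e a, h⟩
      = gaussRedV A ⟨cE N q M e B k hN hB hq a (EwF N q e a), h⟩ := rfl
  rw [hs]
  by_cases hc : a = 0 ∨ a = e
  · rw [if_pos hc, mul_one] at hexp
    rw [cEw, if_pos hc, pow_one, gaussRedV_congr82 A hexp h hW₁,
      gaussRedV_WU A q hq hA z₁ e h1 _ hW₁]
  · rw [if_neg hc] at hexp
    rw [cEw, if_neg hc, gaussRedV_congr82 A hexp h (mul_mem hW₁ hW₂),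
      gaussRedV_mul82 A hW₁ hW₂, gaussRedV_WU A q hq hA z₁ e h1 _ hW₁,
      gaussRedV_WU A q hq hA z₂ e h2 _ hW₂, sq]

end Main

end Fermat.Agent.S45.NUE.H82
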