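import Fermat.Agent.S45.NUE.H41_PtHypsE2
import Fermat.Agent.S45.NUE.H41_SS0E
import Fermat.Agent.S45.NUE.H23_TotE4
import Fermat.Agent.S45.NUE.H82_EwEVal
import Fermat.Agent.S45.NUE.H54_SepMod
import Fermat.Agent.S45.NUE.H74_ChartDefs
import Fermat.Agent.S36.NU.H86_CuspRed

/-!
# S45 / NU_e, package E-FIN, leaf E-PT-HYPS (helper41): the modular instance

Level `N = M q^e`, `q ∤ M`, `M` tame at `q`, `e ≥ 1`; `T = totEM` (helper23), valuations `VE a`,
reductions `rEM a` (`= sE a`), witnesses `EwE a` (helper82, `stmt_EwE_red`), `C` ANY chart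
compatible with `T` with coordinate ring `B = intSub (Rur A) j` (e.g. helper74's `chart0E`).

Series level (no chart):
* `coe_FrMW : (Fr^w y)(s) = y(s^(q^w))`, `coe_hU_HUk`, `qExpand_HUk`;
* `rEM_j0 : rEM a j = Fr^(e - 2a) j~`;
* `rEM_EwE_pow : (rEM a (EwE a))^q = Fr^(e - 2a) (hU^n)`, `n = c_a q^(max(a, e-a) - (e-2a))`.

Chart level (`wit i` ANY elements of `B` with `(wit i : L0) = EwE i`, e.g. helper99's
`ChartE.witE`; `SS = H74.ssM A q M`):
* `hSS0E_mod` : **hSS0** of `H88.pointDataE_of_dichotomy`;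
* `ptHypsE_mod3` : hnc ∧ hsurj ∧ hSSchar;
* `ptHyps_chart0E`, `hSS0_chart0E` : the same for helper74's `chart0E A N totEM h`.
-/

set_option autoImplicit false
set_option synthInstance.maxHeartbeats 400000
set_option maxHeartbeats 1000000
set_option linter.style.haveILetI false
set_option linter.unusedSectionVars false
set_option linter.unusedVariables false

noncomputable section

open ModularCurve AlgebraicCurve

namespace Fermat.Agent.S45.NUE.H41P

open Fermat.Agent.S24 Fermat.Agent.BAD.H88 Fermat.Agent.S28 Fermat.Agent.S28.H73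
  Fermat.Agent.RED.H73 Fermat.Agent.RED.H17 Fermat.Agent.S36.NU.H88 Fermat.Agent.S36.NU.H23
  Fermat.Agent.S36.NU.H74 Fermat.Agent.BAD Fermat.Agent.RED
open Fermat.Agent.S36.NU.H16 (Chart)
open Fermat.Agent.S36.NU.H79 (TotN)
open Fermat.Agent.S36.NU.H24 (Compat InChart)
open Fermat.Agent.S36.NU.H41 (Rur)
open Fermat.Agent.S36.NU.H65 (intSub)
open Fermat.Agent.S45.NUE.H23 (VE sE wE kapE algkE totEM rEM)
open Fermat.Agent.S45.NUE.H82 (EwE cEw HUk)

/-! ## Series level -/

section Series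

variable (A : ValuationSubring Kbar) (q M : ℕ) (hq : q.Prime)
  [NeZero M] [NeZero q] [NeZero (M * q)] [NeZero (M * q * q)] (hqM : ¬ q ∣ M)
  (hA : A.LiesOverPrime q)

theorem coe_FrMW_aux (y : FM A M) : ∀ (w : ℕ) (hw : NeZero (q ^ w)),
    ((FrMW A q M hq hqM hA w y : FM A M) : LaurentSeries (kV A))
      = @qExpand (kV A) _ (q ^ w) hw (y : LaurentSeries (kV A)) := by
  intro w
  induction w with
  | zero =>
    intro hw
    rw [FrMW_apply, Function.iterate_zero_apply]
    exact ((qExpand_congr (pow_zero q) _).trans (qExpand_one_apply _)).symm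
  | succ w ih =>
    intro hw
    haveI hw' : NeZero (q ^ w) := ⟨pow_ne_zero _ (NeZero.ne q)⟩
    have h1 : FrMW A q M hq hqM hA (w + 1) y
        = FrM A q M hq hqM hA (FrMW A q M hq hqM hA w y) := by
      rw [FrMW_apply, Function.iterate_succ_apply', ← FrMW_apply]
    rw [h1, coe_FrM, ih hw', qExpand_qExpand]
    exact qExpand_congr (pow_succ' q w).symm _

/-- `(Fr^w y)(s) = y(s^(q^w))`. -/
theorem coe_FrMW (w : ℕ) [hw : NeZero (q ^ w)] (y : FM A M) :
    ((FrMW A q M hq hqM hA w y : FM A M) : LaurentSeries (kV A))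
      = qExpand (kV A) (q ^ w) (y : LaurentSeries (kV A)) :=
  coe_FrMW_aux A q M hq hqM hA y w hw

/-- `hU` has the expansion `HUk`. -/
theorem coe_hU_HUk :
    ((Fermat.Agent.S36.NU.H41.hU A q M hq hqM hA : FM A M) : LaurentSeries (kV A))
      = HUk A q := by
  rw [Fermat.Agent.S36.NU.H41.coe_hU, Fermat.Agent.S36.NU.H86.HU_eq_inv A q M hq hA]
  rfl

/-- `HUk(s^(q^w)) = (Fr^w hU)(s)`. -/
theorem qExpand_HUk (w : ℕ) [hw : NeZero (q ^ w)] :
    qExpand (kV A) (q ^ w) (HUk A q)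
      = ((Fermat.Agent.S36.NU.H41.hU A q M hq hqM hA ^ q ^ w : FM A M) :
          LaurentSeries (kV A)) := by
  have h := FrMW_hU_pow A q M hq hqM hA w 1
  rw [pow_one] at h
  rw [← h, coe_FrMW, coe_hU_HUk]

end Series

/-! ## The reductions at the level `M q^e` -/

section Level

variable (A : ValuationSubring Kbar)
variable (N q M e : ℕ) (B k : ℤ) (hN : N = M * q ^ e) (hB : B * M + k * (q : ℤ) ^ e = 1)
  (hq : q.Prime) [NeZero N] [NeZero q] [NeZero M] (hqM : ¬ q ∣ M) (hA : A.LiesOverPrime q)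
  (ht : H91.TameAt M q) (he : 0 < e)

/-- **`rEM a j = Fr^(e - 2a) j~`.** -/
theorem rEM_j0 (a : ℕ) (ha : a ≤ e) (h : j0 A N ∈ VE A N q M e B k hN hB hq a) :
    rEM A N q M e B k hN hB hq hqM hA he a ha ⟨j0 A N, h⟩
      = FrMW A q M hq hqM hA (e - 2 * a) (H91.jRed A M) := by
  haveI : NeZero (q ^ (e - 2 * a)) := ⟨pow_ne_zero _ (NeZero.ne q)⟩
  apply Subtype.ext
  rw [Fermat.Agent.S45.NUE.H23.coe_rEM, coe_FrMW, Fermat.Agent.S36.NU.H41.coe_jRed,
    Fermat.Agent.S45.NUE.H54.sE_j0 A N q M e B k hN hB hq a h,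
    Fermat.Agent.S45.NUE.H54.Jred_eq_jq]

omit [NeZero N] [NeZero q] [NeZero M] in
include he in
theorem one_le_max_sub (a : ℕ) : 1 ≤ max a (e - a) := by
  rcases Nat.eq_zero_or_pos a with h | h
  · subst h
    rw [Nat.sub_zero]
    exact le_max_of_le_right he
  · exact le_max_of_le_left h

omit [NeZero N] [NeZero q] [NeZero M] in
theorem sub_two_mul_le_max (a : ℕ) : e - 2 * a ≤ max a (e - a) :=
  le_max_of_le_right (by omega)

/-- **`(rEM a (EwE a))^q = Fr^(e - 2a) (hU^n)`**, `n = c_a q^(max(a, e - a) - (e - 2a))`. -/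
theorem rEM_EwE_pow (a : ℕ) (ha : a ≤ e) (h : EwE A N q e a ∈ VE A N q M e B k hN hB hq a) :
    rEM A N q M e B k hN hB hq hqM hA he a ha ⟨EwE A N q e a, h⟩ ^ q
      = FrMW A q M hq hqM hA (e - 2 * a)
          (Fermat.Agent.S36.NU.H41.hU A q M hq hqM hA
            ^ (cEw e a * q ^ (max a (e - a) - (e - 2 * a)))) := by
  haveI : NeZero (q ^ (max a (e - a) - 1)) := ⟨pow_ne_zero _ (NeZero.ne q)⟩
  have hr : rEM A N q M e B k hN hB hq hqM hA he a ha ⟨EwE A N q e a, h⟩
      = (Fermat.Agent.S36.NU.H41.hU A q M hq hqM hA ^ q ^ (max a (e - a) - 1)) ^ cEw e a := by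
    apply Subtype.ext
    rw [Fermat.Agent.S45.NUE.H23.coe_rEM,
      Fermat.Agent.S45.NUE.H82.stmt_EwE_red A N q M e B k hN hB hq he hA a ha h,
      qExpand_HUk A q M hq hqM hA]
    rfl
  rw [hr, FrMW_hU_pow, ← pow_mul, ← pow_mul, ← pow_mul]
  congr 1
  have h1 := one_le_max_sub e he a
  have h2 := sub_two_mul_le_max e a
  have e1 : q ^ (max a (e - a) - 1) * q = q ^ max a (e - a) := by
    rw [← pow_succ, Nat.sub_add_cancel h1]
  have e2 : q ^ (max a (e - a) - (e - 2 * a)) * q ^ (e - 2 * a) = q ^ max a (e - a) := by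
    rw [← pow_add, Nat.sub_add_cancel h2]
  calc q ^ (max a (e - a) - 1) * (cEw e a * q)
      = cEw e a * (q ^ (max a (e - a) - 1) * q) := by ring
    _ = cEw e a * (q ^ (max a (e - a) - (e - 2 * a)) * q ^ (e - 2 * a)) := by rw [e1, e2]
    _ = cEw e a * q ^ (max a (e - a) - (e - 2 * a)) * q ^ (e - 2 * a) := by ring

end Level

/-! ## The point hypotheses for a chart of `totEM` -/

section Chart

variable (A : ValuationSubring Kbar)
variable (N q M e : ℕ) (B k : ℤ) (hN : N = M * q ^ e) (hB : B * M + k * (q : ℤ) ^ e = 1)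
  (hq : q.Prime) [NeZero N] [NeZero q] [NeZero M] (hqM : ¬ q ∣ M) (hA : A.LiesOverPrime q)
  (ht : H91.TameAt M q) (he : 0 < e)

/-- The structure maps `Fr^(e - 2i)` of the residue fields of `totEM`. -/
def phiE (i : Fin (e + 1)) : FM A M →+* kapE A M e i :=
  FrMW A q M hq hqM hA (e - 2 * (i : ℕ))

theorem phiE_apply (i : Fin (e + 1)) (y : FM A M) :
    phiE A q M e hq hqM hA i y = FrMW A q M hq hqM hA (e - 2 * (i : ℕ)) y := rfl

/-- The residue of an element of the chart, through `rEM`. -/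
theorem rdB_eq_rEM :
    letI := algkE A M e
    ∀ (C : Chart ↥(Rur A) ↥(L0 A N) (kV A) (Fin (e + 1)) (kapE A M e))
      (_ : Compat C (totEM A N q M e B k hN hB hq hqM hA ht he))
      (i : Fin (e + 1)) (β : C.B) (h : (β : ↥(L0 A N)) ∈ VE A N q M e B k hN hB hq (i : ℕ)),
      C.rdB i β
        = rEM A N q M e B k hN hB hq hqM hA he (i : ℕ) (Nat.lt_succ_iff.mp i.2) ⟨β, h⟩ := by
  letI := algkE A M e
  intro C hc i β h
  rw [← C.rd_coe i β, hc.hrd i (β : ↥(L0 A N)),
    (totEM A N q M e B k hN hB hq hqM hA ht he).rdN_of_mem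
      (i := i) (f := (β : ↥(L0 A N))) h]
  rfl

/-- **The three point hypotheses** `hnc`, `hsurj`, `hSSchar` of `H88.pointDataE_of_dichotomy`
for a chart of `totEM` with `B = intSub (Rur A) j` and the witnesses `EwE i`. -/
theorem ptHypsE_mod3 :
    letI := algkE A M e
    ∀ (C : Chart ↥(Rur A) ↥(L0 A N) (kV A) (Fin (e + 1)) (kapE A M e))
      (_ : Compat C (totEM A N q M e B k hN hB hq hqM hA ht he))
      (_ : C.B = intSub ↥(Rur A) (j0 A N))
      (wit : Fin (e + 1) → C.B)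
      (_ : ∀ i, ((wit i : C.B) : ↥(L0 A N)) = EwE A N q e (i : ℕ)),
      (∀ i, ∃ β : C.B, ∀ c : kV A, C.rdB i β ≠ algebraMap (kV A) (kapE A M e i) c) ∧
      (∀ (i : Fin (e + 1)) (v : Place (kV A) (kapE A M e i)),
        (∀ β : C.B, RegAt v (C.rdB i β)) →
          ∃ z, (totEM A N q M e B k hN hB hq hqM hA ht he).pt i z = v) ∧
      (∀ (i : Fin (e + 1)) (z : Place (kV A) (FM A M)),
        (∀ β : C.B, RegAt ((totEM A N q M e B k hN hB hq hqM hA ht he).pt i z) (C.rdB i β)) →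
        VanAt ((totEM A N q M e B k hN hB hq hqM hA ht he).pt i z) (C.rdB i (wit i)) →
          z ∈ ssM A q M) := by
  letI := algkE A M e
  intro C hc hC wit hwit
  have hjB : j0 A N ∈ C.B := by
    rw [hC]
    exact Fermat.Agent.S36.NU.H65.self_mem_intSub ↥(Rur A) (j0 A N)
  have hle : ∀ i : Fin (e + 1), (i : ℕ) ≤ e := fun i => Nat.lt_succ_iff.mp i.2
  have hjV : ∀ a, j0 A N ∈ VE A N q M e B k hN hB hq a :=
    fun a => Fermat.Agent.S45.NUE.H54.j0_mem_VE A N q M e B k hN hB hq a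
  have hwV : ∀ i : Fin (e + 1), EwE A N q e (i : ℕ) ∈ VE A N q M e B k hN hB hq (i : ℕ) :=
    fun i => Fermat.Agent.S45.NUE.H82.stmt_EwE_mem A N q M e B k hN hB hq he
      (i : ℕ) (i : ℕ) (hle i) (hle i)
  refine ptHyps_abs C (totEM A N q M e B k hN hB hq hqM hA ht he)
    (phiE A q M e hq hqM hA) (fun i => q ^ (e - 2 * (i : ℕ))) ?_ ?_ ?_ ?_
    ⟨j0 A N, hjB⟩ (H91.jRed A M) ?_ (Fermat.Agent.S36.NU.H41.jRed_ne_const A M)
    (Fermat.Agent.S36.NU.H41.hU A q M hq hqM hA)
    (Fermat.Agent.S36.NU.H41.hU_ne_zero A q M hq hqM hA) wit ?_ (ssM A q M) ?_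
  · intro i c
    exact FrMW_algebraMap A q M hq hqM hA (e - 2 * (i : ℕ)) c
  · intro i
    exact pow_pos hq.pos _
  · intro i z y
    exact ord_FrMW A q M hq hqM hA (e - 2 * (i : ℕ)) z y
  · intro i
    exact iterate_betaM_surjective A q M hq hqM hA (e - 2 * (i : ℕ))
  · intro i
    rw [rdB_eq_rEM A N q M e B k hN hB hq hqM hA ht he C hc i ⟨j0 A N, hjB⟩ (hjV _)]
    exact rEM_j0 A N q M e B k hN hB hq hqM hA he (i : ℕ) (hle i) (hjV _)
  · intro i
    refine ⟨q, cEw e (i : ℕ) * q ^ (max (i : ℕ) (e - (i : ℕ)) - (e - 2 * (i : ℕ))), hq.pos, ?_⟩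
    have hw : ((wit i : C.B) : ↥(L0 A N)) ∈ VE A N q M e B k hN hB hq (i : ℕ) := by
      rw [hwit i]
      exact hwV i
    rw [rdB_eq_rEM A N q M e B k hN hB hq hqM hA ht he C hc i (wit i) hw]
    have e1 : (⟨((wit i : C.B) : ↥(L0 A N)), hw⟩ : ↥(VE A N q M e B k hN hB hq (i : ℕ)))
        = ⟨EwE A N q e (i : ℕ), hwV i⟩ := Subtype.ext (hwit i)
    rw [e1]
    exact rEM_EwE_pow A N q M e B k hN hB hq hqM hA he (i : ℕ) (hle i) (hwV i)
  · intro z hz hu
    exact mem_ssM_of_ord' A q M hq hqM hA z hz hu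

/-- **`hSS0`**: the supersingular points are points of the chart. -/
theorem hSS0E_mod :
    letI := algkE A M e
    ∀ (C : Chart ↥(Rur A) ↥(L0 A N) (kV A) (Fin (e + 1)) (kapE A M e))
      (_ : C.B = intSub ↥(Rur A) (j0 A N)),
      ∀ z ∈ ssM A q M, InChart C (totEM A N q M e B k hN hB hq hqM hA ht he) z := by
  letI := algkE A M e
  intro C hC
  exact inChart_ssM_lvl A q M N hq hqM hA ht (Fermat.Agent.S45.NUE.H23.hleE N q M e hN) C
    (totEM A N q M e B k hN hB hq hqM hA ht he) hC (fun _ => rfl)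

/-- **hnc ∧ hsurj ∧ hSSchar for helper74's chart of `j`** over `totEM`. -/
theorem ptHyps_chart0E :
    letI := algkE A M e
    ∀ (h : Fermat.Agent.S45.NUE.H74.ChartInE A N (totEM A N q M e B k hN hB hq hqM hA ht he))
      (wit : Fin (e + 1) →
        (Fermat.Agent.S45.NUE.H74.chart0E A N (totEM A N q M e B k hN hB hq hqM hA ht he) h).B)
      (_ : ∀ i, ((wit i :
        (Fermat.Agent.S45.NUE.H74.chart0E A N
          (totEM A N q M e B k hN hB hq hqM hA ht he) h).B) : ↥(L0 A N))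
          = EwE A N q e (i : ℕ)),
      (∀ i, ∃ β : (Fermat.Agent.S45.NUE.H74.chart0E A N
          (totEM A N q M e B k hN hB hq hqM hA ht he) h).B,
        ∀ c : kV A, (Fermat.Agent.S45.NUE.H74.chart0E A N
          (totEM A N q M e B k hN hB hq hqM hA ht he) h).rdB i β
            ≠ algebraMap (kV A) (kapE A M e i) c) ∧
      (∀ (i : Fin (e + 1)) (v : Place (kV A) (kapE A M e i)),
        (∀ β : (Fermat.Agent.S45.NUE.H74.chart0E A N
          (totEM A N q M e B k hN hB hq hqM hA ht he) h).B,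
          RegAt v ((Fermat.Agent.S45.NUE.H74.chart0E A N
            (totEM A N q M e B k hN hB hq hqM hA ht he) h).rdB i β)) →
          ∃ z, (totEM A N q M e B k hN hB hq hqM hA ht he).pt i z = v) ∧
      (∀ (i : Fin (e + 1)) (z : Place (kV A) (FM A M)),
        (∀ β : (Fermat.Agent.S45.NUE.H74.chart0E A N
          (totEM A N q M e B k hN hB hq hqM hA ht he) h).B,
          RegAt ((totEM A N q M e B k hN hB hq hqM hA ht he).pt i z)
            ((Fermat.Agent.S45.NUE.H74.chart0E A N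
              (totEM A N q M e B k hN hB hq hqM hA ht he) h).rdB i β)) →
        VanAt ((totEM A N q M e B k hN hB hq hqM hA ht he).pt i z)
          ((Fermat.Agent.S45.NUE.H74.chart0E A N
            (totEM A N q M e B k hN hB hq hqM hA ht he) h).rdB i (wit i)) →
          z ∈ ssM A q M) := by
  letI := algkE A M e
  intro h wit hwit
  exact ptHypsE_mod3 A N q M e B k hN hB hq hqM hA ht he
    (Fermat.Agent.S45.NUE.H74.chart0E A N (totEM A N q M e B k hN hB hq hqM hA ht he) h)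
    (Fermat.Agent.S45.NUE.H74.compat_chart0E A N _ h)
    (Fermat.Agent.S45.NUE.H74.chart0E_B A N _ h) wit hwit

/-- **hSS0 for helper74's chart of `j`** over `totEM`. -/
theorem hSS0_chart0E :
    letI := algkE A M e
    ∀ (h : Fermat.Agent.S45.NUE.H74.ChartInE A N (totEM A N q M e B k hN hB hq hqM hA ht he)),
      ∀ z ∈ ssM A q M,
        InChart (Fermat.Agent.S45.NUE.H74.chart0E A N
          (totEM A N q M e B k hN hB hq hqM hA ht he) h)
          (totEM A N q M e B k hN hB hq hqM hA ht he) z := by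
  letI := algkE A M e
  intro h
  exact hSS0E_mod A N q M e B k hN hB hq hqM hA ht he
    (Fermat.Agent.S45.NUE.H74.chart0E A N (totEM A N q M e B k hN hB hq hqM hA ht he) h)
    (Fermat.Agent.S45.NUE.H74.chart0E_B A N _ h)

end Chart

end Fermat.Agent.S45.NUE.H41P
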