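import Fermat.Agent.S45.NUE.H54_SepMod
import Fermat.Agent.S45.NUE.H23_TotE4
import Fermat.Agent.S45.NUE.H74_ChartDefs
import Fermat.Agent.S45.NUE.H28_RadQE

/-!
# S45 / NU_e, package E-CHART (helper54): the chart pack for the modular conservation datum

Level `N = M q^e`, `q ∤ M`, `M` tame at `q`, `e ≥ 1`, `T = totEM` (helper23, E-TOT), charts
`chart0E A N T h`, `chartInfE A N T h` (helper74), `h : ChartInE A N T` (helper81).

* `sepPattern_of_frob` : helper74's `SepPattern` from the `FrobPattern` of `H54_SepAbs`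
  (`m i = 2 idx i - e`);
* `bridgeEM` : the bridge `BridgeE` for `totEM` (`idx i = i`, `σ i` the inclusion of the residue
  field of level `M` into `k((s))`);
* `charP_kapE` : the residue fields have characteristic `q`;
* `sepPattern_totEM` : **the Frobenius pattern** of `j (τ)`, `j (q^e τ)` on `totEM`;
* `transcendental_red_j0` : the reduction of `j` at `V_0` is transcendental over `k`;
* `jEE_mem_intSub_totEM` : **`j (q^e τ)` lies in the integral closure of `R[j]`**;
* `chartHyp_chart0E_totEM`, `chartHyp_chartInfE_totEM` : **`ChartHyp`** for the two charts;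
* `isRadQ_chart0E_totEM`, `isRadQ_chartInfE_totEM` : (RADQ) for the two charts (helper28's
  `isRadQ_chartE` at `nrEM`).
-/

set_option autoImplicit false
set_option synthInstance.maxHeartbeats 400000
set_option maxHeartbeats 1000000
set_option linter.unusedSectionVars false
set_option linter.unusedVariables false
set_option linter.style.haveILetI false

noncomputable section

namespace Fermat.Agent.S45.NUE.H54

open Fermat.Agent.S24 Fermat.Agent.BAD.H88 ModularCurve AlgebraicCurve
open Fermat.Agent.S28 Fermat.Agent.S28.H73 Fermat.Agent.RED.H73 Fermat.Agent.RED.H17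
open Fermat.Agent.S36.NU.H16 Fermat.Agent.S36.NU.H17 Fermat.Agent.S36.NU.H24
  Fermat.Agent.S36.NU.H65 Fermat.Agent.S36.NU.H79 Fermat.Agent.S36.NU.H88
  Fermat.Agent.S36.NU.H41
open Fermat.Agent.S45.NUE.H23 Fermat.Agent.S45.NUE.H74 Fermat.Agent.BAD

local notation "L0" => Fermat.Agent.S36.NU.H23.L0

/-! ### `SepPattern` from `FrobPattern` -/

section Conv

variable {K F L k ι Z : Type*} {κ : ι → Type*} [Field K] [Field F] [Field L]
  [Algebra K L] [Algebra F L] [Field k] [Fintype ι] [∀ i, Field (κ i)]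
  [∀ i, Algebra k (κ i)]
variable {T : TotN K F L k ι Z κ} {e q : ℕ} {idx : ι → ℕ} {j0 jE : F}

/-- helper74's `SepPattern` from the `FrobPattern`, with `m i = 2 idx i - e`. -/
theorem sepPattern_of_frob (P : FrobPattern T e q idx j0 jE) :
    SepPattern T q j0 jE (fun i => 2 * (idx i : ℤ) - (e : ℤ)) where
  inj := fun i i' h => P.idx_inj (by
    have h' : 2 * (idx i : ℤ) - (e : ℤ) = 2 * (idx i' : ℤ) - (e : ℤ) := h
    omega)
  x_mem := P.mem0
  y_mem := P.memE
  pos := fun i h => by
    have h' : 0 ≤ 2 * (idx i : ℤ) - (e : ℤ) := h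
    have h1 : e ≤ 2 * idx i := by omega
    have h2 : (2 * (idx i : ℤ) - (e : ℤ)).toNat = 2 * idx i - e := by omega
    show T.rdN i jE = T.rdN i j0 ^ q ^ (2 * (idx i : ℤ) - (e : ℤ)).toNat
    rw [h2]
    exact P.ge i h1
  neg := fun i h => by
    have h' : 2 * (idx i : ℤ) - (e : ℤ) < 0 := h
    have h1 : 2 * idx i ≤ e := by omega
    have h2 : (-(2 * (idx i : ℤ) - (e : ℤ))).toNat = e - 2 * idx i := by omega
    show T.rdN i j0 = T.rdN i jE ^ q ^ (-(2 * (idx i : ℤ) - (e : ℤ))).toNat
    rw [h2]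
    exact P.le i h1
  gen_pos := fun i h => by
    have h' : 0 ≤ 2 * (idx i : ℤ) - (e : ℤ) := h
    exact P.nc0 i (by omega)
  gen_neg := fun i h => by
    have h' : 2 * (idx i : ℤ) - (e : ℤ) < 0 := h
    exact P.ncE i (by omega)

end Conv

/-! ### The modular datum -/

section Mod

variable (A : ValuationSubring Kbar)
variable (N q M e : ℕ) (B k : ℤ) (hN : N = M * q ^ e) (hB : B * M + k * (q : ℤ) ^ e = 1)
  (hq : q.Prime) [NeZero N] [NeZero q] [NeZero M] (hqM : ¬ q ∣ M) (hA : A.LiesOverPrime q)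
  (ht : H91.TameAt M q)

attribute [local instance] algkE

/-- The inclusions of the residue fields into `k((s))`. -/
def sigE : ∀ i : Fin (e + 1), kapE A M e i →+* LaurentSeries (kV A) :=
  fun _ => algebraMap (FM A M) (LaurentSeries (kV A))

theorem sigE_apply (i : Fin (e + 1)) (x : FM A M) :
    sigE A M e i x = (x : LaurentSeries (kV A)) := rfl

/-- **The bridge** for helper23's conservation datum. -/
theorem bridgeEM (he : 0 < e) :
    BridgeE A N q M e B k hN hB hq (totEM A N q M e B k hN hB hq hqM hA ht he)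
      (fun i : Fin (e + 1) => (i : ℕ)) (sigE A M e) where
  idx_inj := Fin.val_injective
  idx_le := fun i => Nat.lt_succ_iff.mp i.2
  V_eq := fun _ => rfl
  red_eq := fun _ _ _ _ => rfl

include hq hA in
/-- The residue fields have characteristic `q`. -/
theorem charP_kapE (i : Fin (e + 1)) : CharP (kapE A M e i) q := by
  haveI : CharP (kV A) q := Fermat.Agent.BAD.H82.charP_kV A hq hA
  haveI : CharP (LaurentSeries (kV A)) q :=
    charP_of_injective_algebraMap (algebraMap (kV A) (LaurentSeries (kV A))).injective q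
  exact (RingHom.charP_iff (sigE A M e i) (sigE A M e i).injective q).2 inferInstance

/-- **The Frobenius pattern** of `j (τ)` and `j (q^e τ)` on the modular conservation datum. -/
theorem sepPattern_totEM (he : 0 < e) (hD : q ^ e ∣ N) :
    SepPattern (totEM A N q M e B k hN hB hq hqM hA ht he) q (j0 A N) (jEE A N q e hD)
      (fun i : Fin (e + 1) => 2 * ((i : ℕ) : ℤ) - (e : ℤ)) :=
  sepPattern_of_frob (frobPattern_of_bridge (bridgeEM A N q M e B k hN hB hq hqM hA ht he) hA hD)

/-- `j` is a unit for all the valuations. -/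
theorem rdN_j0_ne_zero_totEM (he : 0 < e) (i : Fin (e + 1)) :
    (totEM A N q M e B k hN hB hq hqM hA ht he).rdN i (j0 A N) ≠ 0 :=
  (bridgeEM A N q M e B k hN hB hq hqM hA ht he).rdN_j0_ne_zero hA i

/-- `j (q^e τ)` is a unit for all the valuations. -/
theorem rdN_jEE_ne_zero_totEM (he : 0 < e) (hD : q ^ e ∣ N) (i : Fin (e + 1)) :
    (totEM A N q M e B k hN hB hq hqM hA ht he).rdN i (jEE A N q e hD) ≠ 0 :=
  (bridgeEM A N q M e B k hN hB hq hqM hA ht he).rdN_jEE_ne_zero hA hD i

/-- The reduction of `j` at any of the valuations is transcendental over `k`. -/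
theorem transcendental_red_j0 (he : 0 < e) (i : Fin (e + 1))
    (hj : j0 A N ∈ (totEM A N q M e B k hN hB hq hqM hA ht he).V i) :
    Transcendental (kV A) ((totEM A N q M e B k hN hB hq hqM hA ht he).red i ⟨j0 A N, hj⟩) := by
  have h1 : sigE A M e i ((totEM A N q M e B k hN hB hq hqM hA ht he).red i ⟨j0 A N, hj⟩)
      = qExpand (kV A) (q ^ (e - 2 * (i : ℕ))) (Jred A) := by
    rw [(bridgeEM A N q M e B k hN hB hq hqM hA ht he).red_eq i _ hj
      (j0_mem_VE A N q M e B k hN hB hq _), sE_j0]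
  let φ : kapE A M e i →ₐ[kV A] LaurentSeries (kV A) :=
    { sigE A M e i with commutes' := fun _ => rfl }
  refine Fermat.Agent.S45.NUE.H28.transcendental_of_algHom φ _ ?_
  show Transcendental (kV A)
    (sigE A M e i ((totEM A N q M e B k hN hB hq hqM hA ht he).red i ⟨j0 A N, hj⟩))
  rw [h1]
  exact Fermat.Agent.S45.NUE.H28.transcendental_qExpand_Jred A _

/-- **`j (q^e τ)` lies in the integral closure of `R[j]`.** -/
theorem jEE_mem_intSub_totEM (he : 0 < e) (hD : q ^ e ∣ N)
    (h : ChartInE A N (totEM A N q M e B k hN hB hq hqM hA ht he)) :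
    jEE A N q e hD ∈ intSub ↥(Rur A) (j0 A N) :=
  (bridgeEM A N q M e B k hN hB hq hqM hA ht he).jEE_mem_intSub hD (fun f hf₁ hf₂ =>
    Fermat.Agent.S45.NUE.H28.critE A q M N hq hqM hA (hleE N q M e hN)
      (algE A q M e hq hqM hA) (nrEM A N q M e B k hN hB hq hqM hA he) rfl
      (nrE_hdeg A N q M e B k hN hB hq hqM hA (inE_mod A N q M e B k hN hB hq hqM hA) he)
      (chart0E A N (totEM A N q M e B k hN hB hq hqM hA ht he) h) (fun _ => rfl) 0
      (h.j_mem 0)
      (transcendental_red_j0 A N q M e B k hN hB hq hqM hA ht he 0 (h.j_mem 0)) hf₁ hf₂)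

/-- **`ChartHyp` for the chart of `j`** on the modular conservation datum. -/
theorem chartHyp_chart0E_totEM (he : 0 < e) (hD : q ^ e ∣ N)
    (h : ChartInE A N (totEM A N q M e B k hN hB hq hqM hA ht he))
    (n : ℕ) (hn : 0 < n) (hcop : Nat.Coprime n q) :
    ChartHyp (chart0E A N (totEM A N q M e B k hN hB hq hqM hA ht he) h) q n :=
  chartHyp_chart0E_of_sep A N _ h q n hq (charP_kapE A q M e hq hA) hn hcop (jEE A N q e hD) _
    (sepPattern_totEM A N q M e B k hN hB hq hqM hA ht he hD)
    (jEE_mem_intSub_totEM A N q M e B k hN hB hq hqM hA ht he hD h)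

/-- **`ChartHyp` for the chart of `1 / j`** on the modular conservation datum. -/
theorem chartHyp_chartInfE_totEM (he : 0 < e) (hD : q ^ e ∣ N)
    (h : ChartInE A N (totEM A N q M e B k hN hB hq hqM hA ht he))
    (n : ℕ) (hn : 0 < n) (hcop : Nat.Coprime n q) :
    ChartHyp (chartInfE A N (totEM A N q M e B k hN hB hq hqM hA ht he) h) q n :=
  chartHyp_chartInfE_of_sep A N _ h q n hq (charP_kapE A q M e hq hA) hn hcop (jEE A N q e hD) _
    (sepPattern_totEM A N q M e B k hN hB hq hqM hA ht he hD)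
    (jEE_mem_intSub_totEM A N q M e B k hN hB hq hqM hA ht he hD h)

/-- **(RADQ)** for the chart of `j` on the modular conservation datum. -/
theorem isRadQ_chart0E_totEM (he : 0 < e)
    (h : ChartInE A N (totEM A N q M e B k hN hB hq hqM hA ht he))
    (ϖ : ↥(Rur A)) (hϖ : ϖ ≠ 0) :
    ∀ β ∈ (chart0E A N (totEM A N q M e B k hN hB hq hqM hA ht he) h).B,
      (∀ i, (chart0E A N (totEM A N q M e B k hN hB hq hqM hA ht he) h).rd i β = 0) →
      IsRadQ (chart0E A N (totEM A N q M e B k hN hB hq hqM hA ht he) h).B ϖ β :=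
  Fermat.Agent.S45.NUE.H28.isRadQ_chartE A q M N hq hqM hA (hleE N q M e hN)
    (algE A q M e hq hqM hA) (nrEM A N q M e B k hN hB hq hqM hA he) rfl
    (nrE_hdeg A N q M e B k hN hB hq hqM hA (inE_mod A N q M e B k hN hB hq hqM hA) he)
    (chart0E A N (totEM A N q M e B k hN hB hq hqM hA ht he) h) (fun _ => rfl) 0
    (h.j_mem 0)
    (transcendental_red_j0 A N q M e B k hN hB hq hqM hA ht he 0 (h.j_mem 0)) rfl ϖ hϖ

/-- **(RADQ)** for the chart of `1 / j` on the modular conservation datum. -/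
theorem isRadQ_chartInfE_totEM (he : 0 < e)
    (h : ChartInE A N (totEM A N q M e B k hN hB hq hqM hA ht he))
    (ϖ : ↥(Rur A)) (hϖ : ϖ ≠ 0) :
    ∀ β ∈ (chartInfE A N (totEM A N q M e B k hN hB hq hqM hA ht he) h).B,
      (∀ i, (chartInfE A N (totEM A N q M e B k hN hB hq hqM hA ht he) h).rd i β = 0) →
      IsRadQ (chartInfE A N (totEM A N q M e B k hN hB hq hqM hA ht he) h).B ϖ β :=
  Fermat.Agent.S45.NUE.H28.isRadQ_chartE_inv A q M N hq hqM hA (hleE N q M e hN)
    (algE A q M e hq hqM hA) (nrEM A N q M e B k hN hB hq hqM hA he) rfl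
    (nrE_hdeg A N q M e B k hN hB hq hqM hA (inE_mod A N q M e B k hN hB hq hqM hA) he)
    (chartInfE A N (totEM A N q M e B k hN hB hq hqM hA ht he) h) (fun _ => rfl) 0
    (h.j_mem 0)
    (transcendental_red_j0 A N q M e B k hN hB hq hqM hA ht he 0 (h.j_mem 0)) rfl ϖ hϖ

end Mod

end Fermat.Agent.S45.NUE.H54
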