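import Fermat.Agent.S45.NUE.H79_LowRootMod
import Fermat.Agent.S45.NUE.H23_TotE4

/-!
# S45 / NU_e, package E-FIN, leaf `hL` (helper54): `LowRoot` of the modular conservation datum

Level `N = M q^e`, `q ∤ M`, `M` tame at `q`, `e ≥ 1`, `T = totEM` (helper23, E-TOT).

* `VF_top_eq` : the valuation `VF e` is the Gauss valuation `V20 A N` at the cusp `∞`;
* `red_const_totEM` : the reductions of the integral constants are their residue classes;
* `lowRoot_totEM` : **`LowRoot (totEM …) n`** for all `n ≠ 0`, by helper79's `lowRoot_mod`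
  (`W i = VF i`, `i₀ = Fin.last e`).
-/

set_option autoImplicit false
set_option synthInstance.maxHeartbeats 400000
set_option maxHeartbeats 1000000
set_option linter.unusedSectionVars false
set_option linter.unusedVariables false
set_option linter.style.haveILetI false

noncomputable section

namespace Fermat.Agent.S45.NUE.H54

open ModularCurve AlgebraicCurve
open Fermat.Agent.S24 Fermat.Agent.BAD.H88 Fermat.Agent.S28 Fermat.Agent.S28.H73
open Fermat.Agent.RED.H73 Fermat.Agent.RED.H17 Fermat.Agent.S36.NU.H88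
open Fermat.Agent.S36.NU.H23
open Fermat.Agent.S45.NUE.H23 Fermat.Agent.S45.NUE.H79 Fermat.Agent.S36.NU.H79
open Fermat.Agent.BAD

local notation "L0" => Fermat.Agent.S36.NU.H23.L0

section LowRoot

variable (A : ValuationSubring Kbar)
variable (N q M e : ℕ) (B k : ℤ) (hN : N = M * q ^ e) (hB : B * M + k * (q : ℤ) ^ e = 1)
  (hq : q.Prime) [NeZero N] [NeZero q] [NeZero M] (hqM : ¬ q ∣ M) (hA : A.LiesOverPrime q)
  (ht : H91.TameAt M q)

attribute [local instance] algkE

/-- The valuation at the cusp `1/(q^e M)` is the Gauss valuation at `∞`. -/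
theorem VF_top_eq : VF A N q M e B k hN hB hq e = V20 A N := by
  ext x
  rw [mem_VF_iff, cE_top, mem_V20_iff]

/-- The reductions of the integral constants are their residue classes. -/
theorem red_const_totEM (he : 0 < e) (i : Fin (e + 1)) (c : Kbar) (hcA : c ∈ A)
    (hcL : algebraMap Kbar (FN N) c ∈ L0 A N)
    (hm : (⟨algebraMap Kbar (FN N) c, hcL⟩ : ↥(L0 A N))
      ∈ (totEM A N q M e B k hN hB hq hqM hA ht he).V i) :
    (totEM A N q M e B k hN hB hq hqM hA ht he).red i ⟨⟨algebraMap Kbar (FN N) c, hcL⟩, hm⟩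
      = algebraMap (kV A) (kapE A M e i) (resV A ⟨c, hcA⟩) := by
  haveI := neZero_nE N q M e B k hN hB hq (i : ℕ)
  have hG : algebraMap Kbar (FN N) c ∈ VG (hE N q M e B k hN hB hq (i : ℕ)) A := hm
  apply Subtype.ext
  show ((redG (hE N q M e B k hN hB hq (i : ℕ)) A ⟨_, hG⟩ :
    RG (hE N q M e B k hN hB hq (i : ℕ)) A) : LaurentSeries (kV A)) = _
  rw [redG_const (hE N q M e B k hN hB hq (i : ℕ)) A ⟨c, hcA⟩ hG]
  rfl

/-- **`LowRoot` of the modular conservation datum** of level `M q^e`. -/
theorem lowRoot_totEM (he : 0 < e) (n : ℕ) (hn : n ≠ 0) :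
    LowRoot (totEM A N q M e B k hN hB hq hqM hA ht he) n :=
  lowRoot_mod A N q hq hA (totEM A N q M e B k hN hB hq hqM hA ht he)
    (fun i : Fin (e + 1) => VF A N q M e B k hN hB hq (i : ℕ))
    (fun _ => rfl)
    (fun i c =>
      haveI := neZero_nE N q M e B k hN hB hq (i : ℕ)
      const_memG (hE N q M e B k hN hB hq (i : ℕ)) A c)
    (Fin.last e) (VF_top_eq A N q M e B k hN hB hq)
    (fun i c hcA hcL hm => red_const_totEM A N q M e B k hN hB hq hqM hA ht he i c hcA hcL hm)
    n hn

end LowRoot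

end Fermat.Agent.S45.NUE.H54
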