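import Fermat.Agent.S45.NUE.H74_ChartDefs
import Fermat.Agent.S45.NUE.H23_TotE4
import Fermat.Agent.S45.NUE.H28_RadQEMod

/-!
# S45 / NU_e, package E-FIN, leaf E-CHART, the modular input `ChartInE` (helper81)

Level `N = M q^e`, `q ∤ M`; `T = totE` (helper23), the conservation datum of the `e + 1`
valuations `VE a` of the inertia-fixed functions.

* `const_mem_VE`, `sE_const` : the constants of `Rur A` are integral for every `VE a`, with
  reduction `resRur`;
* `sE_j0_ne_zero` : `j` is a unit for every `VE a`;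
* **`chartInE_totE : ChartInE A N totE`** : the input of helper74's charts `chart0E`, `chartInfE`;
* **`chartInE_totEM : ChartInE A N totEM`** : the same for the unconditional datum `totEM`.
-/

set_option autoImplicit false
set_option synthInstance.maxHeartbeats 400000
set_option maxHeartbeats 1000000
set_option linter.style.haveILetI false
set_option linter.unusedSectionVars false
set_option linter.unusedVariables false

noncomputable section

open ModularCurve AlgebraicCurve
open Fermat.Agent.S24 Fermat.Agent.BAD.H88 Fermat.Agent.S28 Fermat.Agent.S28.H73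
open Fermat.Agent.RED.H73 Fermat.Agent.RED.H17 Fermat.Agent.S36.NU.H88
open Fermat.Agent.S36.NU.H23 Fermat.Agent.BAD Fermat.Agent.S36.NU.H79
open Fermat.Agent.S45.NUE.H23 Fermat.Agent.S45.NUE.H74 Fermat.Agent.S36.NU.H41

namespace Fermat.Agent.S45.NUE.H81

section Level

variable (A : ValuationSubring Kbar)
variable (N q M e : ℕ) (B k : ℤ) (hN : N = M * q ^ e) (hB : B * M + k * (q : ℤ) ^ e = 1)
  (hq : q.Prime) [NeZero N] [NeZero q] [NeZero M] (hqM : ¬ q ∣ M) (hA : A.LiesOverPrime q)
  (ht : H91.TameAt M q)

/-- The constants of `Rur A` are integral for `VE a`. -/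
theorem const_mem_VE (a : ℕ) (r : ↥(Rur A)) :
    algebraMap ↥(Rur A) ↥(L0 A N) r ∈ VE A N q M e B k hN hB hq a := by
  haveI := neZero_nE N q M e B k hN hB hq a
  exact (const_memG (hE N q M e B k hN hB hq a) A _).mpr r.2

/-- The reduction at `VE a` of a constant of `Rur A`. -/
theorem sE_const (a : ℕ) (r : ↥(Rur A))
    (h : algebraMap ↥(Rur A) ↥(L0 A N) r ∈ VE A N q M e B k hN hB hq a) :
    sE A N q M e B k hN hB hq a ⟨_, h⟩
      = algebraMap (kV A) (LaurentSeries (kV A)) (resRur A r) := by
  haveI := neZero_nE N q M e B k hN hB hq a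
  have hG : algebraMap Kbar (FN N) (((r : ↥(Kur A)) : Kbar))
      ∈ VG (hE N q M e B k hN hB hq a) A := h
  show ((redG (hE N q M e B k hN hB hq a) A ⟨_, hG⟩ : RG (hE N q M e B k hN hB hq a) A) :
    LaurentSeries (kV A)) = _
  rw [redG_const (hE N q M e B k hN hB hq a) A ⟨((r : ↥(Kur A)) : Kbar), r.2⟩ hG]
  rfl

/-- `j` is a unit for `VE a`. -/
theorem sE_j0_ne_zero (a : ℕ) (hj : j0 A N ∈ VE A N q M e B k hN hB hq a) :
    sE A N q M e B k hN hB hq a ⟨j0 A N, hj⟩ ≠ 0 := by
  intro h0
  have htr := Fermat.Agent.S45.NUE.H28.transcendental_sE_j0 A N q M e B k hN hB hq a hj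
  rw [h0] at htr
  exact htr (isAlgebraic_zero)

variable (H : InE A N q M e B k hN hB hq hqM hA)

/-- **The input of the two charts of level `M q^e`**. -/
theorem chartInE_totE (he : 0 < e) :
    @ChartInE A N _ (Fin (e + 1)) (Place (kV A) (FM A M)) (kapE A M e) _ _ (algkE A M e)
      (totE A N q M e B k hN hB hq hqM hA ht H he) := by
  letI := algkE A M e
  refine ⟨resRur_surjective A hq hA, fun i r => ?_, fun i r hr => ?_, fun i => ?_⟩
  · exact const_mem_VE A N q M e B k hN hB hq (i : ℕ) r
  · apply Subtype.ext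
    exact sE_const A N q M e B k hN hB hq (i : ℕ) r hr
  · have hj := Fermat.Agent.S45.NUE.H28.j0_mem_VE A N q M e B k hN hB hq (i : ℕ)
    rw [TotN.rdN_of_mem _ (show j0 A N ∈ (totE A N q M e B k hN hB hq hqM hA ht H he).V i
      from hj)]
    intro h0
    apply sE_j0_ne_zero A N q M e B k hN hB hq (i : ℕ) hj
    have := congrArg (fun c : FM A M => (c : LaurentSeries (kV A))) h0
    exact this

/-- **The input of the two charts of level `M q^e`**, for the unconditional datum `totEM`. -/
theorem chartInE_totEM (he : 0 < e) :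
    @ChartInE A N _ (Fin (e + 1)) (Place (kV A) (FM A M)) (kapE A M e) _ _ (algkE A M e)
      (totEM A N q M e B k hN hB hq hqM hA ht he) :=
  chartInE_totE A N q M e B k hN hB hq hqM hA ht (inE_mod A N q M e B k hN hB hq hqM hA) he

end Level

end Fermat.Agent.S45.NUE.H81
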