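import Fermat.Agent.S45.NUE.H65_FinTopE
import Fermat.Agent.S45.NUE.H54_ChartPack
import Fermat.Agent.S45.NUE.H54_LowRootE
import Fermat.Agent.S45.NUE.H81_ChartInE

/-!
# S45 / NU_e, package E-FIN (helper54): the leaves `LeavesE` from E-PT and E-CUSP

Levels `M₁ q = M' q^el` (lower) and `M₁ q q = M' q^(el+1)` (upper) as in helper65's
`H65_FinTopE`.  All the fields of `H65.LeavesE` except the local data at the points (`hpt0`,
E-PT) and at the cusps (`hptoo`, E-CUSP) are available: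

* `hin_TuE` : the input of the two charts (helper81);
* `hchart0_TuE`, `hchartoo_TuE` : `ChartHyp` of the two charts (E-CHART, `H54_ChartPack`);
* `hrad0_TuE`, `hradoo_TuE` : (RADQ) for the two charts;
* `hL_TlE` : `LowRoot` of the lower level (`H54_LowRootE`);
* `leavesE_of_pt` : **`LeavesE` from `hpt0` and `hptoo`**;
* `finModE_of_pt` : `FinModE` at the modular levels from `IsNuE D`, `hpt0` and `hptoo`.
-/

set_option autoImplicit false
set_option synthInstance.maxHeartbeats 400000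
set_option maxHeartbeats 1000000
set_option linter.style.haveILetI false
set_option linter.unusedSectionVars false
set_option linter.unusedVariables false

noncomputable section

open ModularCurve AlgebraicCurve IntermediateField

attribute [local instance] Classical.propDecidable

namespace Fermat.Agent.S45.NUE.H54

open Fermat.Agent.RED.H17 Fermat.Agent.RED Fermat.Agent.S36.NU.H16 Fermat.Agent.S36.NU.H79
  Fermat.Agent.S36.NU.H17 Fermat.Agent.S36.NU.H24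
  Fermat.Agent.S24 Fermat.Agent.BAD.H88 Fermat.Agent.S36.NU.H23 Fermat.Agent.S36.NU.H41
  Fermat.Agent.S36.NU.H88 Fermat.Agent.S36.NU.H74 Fermat.Agent.Lib.HeckeComm
  Fermat.Agent.S45.NUE.H79 Fermat.Agent.S45.NUE.H96 Fermat.Agent.S36.NU.H65
  Fermat.Agent.S45.NUE.H74 Fermat.Agent.S28 Fermat.Agent.S28.H73 Fermat.Agent.RED.H73
  Fermat.Agent.S45.NUE.H23 Fermat.Agent.BAD Fermat.Agent.S45.NUE.H65

attribute [local instance] algkE

section Mod

variable (A : ValuationSubring Kbar) (q M₁ M' el : ℕ) [NeZero M₁] [NeZero q] [NeZero M']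
  [NeZero (M₁ * q)] [NeZero (M₁ * q * q)] (hq : q.Prime)
  (hNl : M₁ * q = M' * q ^ el) (hNu : M₁ * q * q = M' * q ^ (el + 1))
  (Bl kl : ℤ) (hBl : Bl * M' + kl * (q : ℤ) ^ el = 1)
  (Bu ku : ℤ) (hBu : Bu * M' + ku * (q : ℤ) ^ (el + 1) = 1)
  (hqM : ¬ q ∣ M') (hA : A.LiesOverPrime q) (ht : H91.TameAt M' q)

/-- The input of the two charts of the upper level (helper81). -/
theorem hin_TuE : ChartInE A (M₁ * q * q) (TuE A q M₁ M' el hq hNu Bu ku hBu hqM hA ht) :=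
  Fermat.Agent.S45.NUE.H81.chartInE_totEM A (M₁ * q * q) q M' (el + 1) Bu ku hNu hBu hq hqM hA
    ht (Nat.succ_pos el)

include hNu in
theorem pow_dvd_upper : q ^ (el + 1) ∣ M₁ * q * q :=
  pow_dvd_lvl (M₁ * q * q) q M' (el + 1) hNu

/-- E-CHART: `ChartHyp` of the chart of `j` of the upper level. -/
theorem hchart0_TuE (hin : ChartInE A (M₁ * q * q) (TuE A q M₁ M' el hq hNu Bu ku hBu hqM hA ht))
    (n : ℕ) (hn : 0 < n) (hcop : Nat.Coprime n q) :
    ChartHyp (chart0E A (M₁ * q * q) (TuE A q M₁ M' el hq hNu Bu ku hBu hqM hA ht) hin) q n :=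
  chartHyp_chart0E_totEM A (M₁ * q * q) q M' (el + 1) Bu ku hNu hBu hq hqM hA ht
    (Nat.succ_pos el) (pow_dvd_upper q M₁ M' el hNu) hin n hn hcop

/-- E-CHART: `ChartHyp` of the chart of `1 / j` of the upper level. -/
theorem hchartoo_TuE
    (hin : ChartInE A (M₁ * q * q) (TuE A q M₁ M' el hq hNu Bu ku hBu hqM hA ht))
    (n : ℕ) (hn : 0 < n) (hcop : Nat.Coprime n q) :
    ChartHyp (chartInfE A (M₁ * q * q) (TuE A q M₁ M' el hq hNu Bu ku hBu hqM hA ht) hin) q n :=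
  chartHyp_chartInfE_totEM A (M₁ * q * q) q M' (el + 1) Bu ku hNu hBu hq hqM hA ht
    (Nat.succ_pos el) (pow_dvd_upper q M₁ M' el hNu) hin n hn hcop

include hq in
theorem natCast_Rur_ne_zero : ((q : ℕ) : ↥(Rur A)) ≠ 0 := by exact_mod_cast hq.ne_zero

/-- E-RADQ for the chart of `j` of the upper level. -/
theorem hrad0_TuE (hin : ChartInE A (M₁ * q * q) (TuE A q M₁ M' el hq hNu Bu ku hBu hqM hA ht)) :
    ∀ β ∈ (chart0E A (M₁ * q * q) (TuE A q M₁ M' el hq hNu Bu ku hBu hqM hA ht) hin).B,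
      (∀ i, (chart0E A (M₁ * q * q) (TuE A q M₁ M' el hq hNu Bu ku hBu hqM hA ht) hin).rd i β
        = 0) →
      IsRadQ (chart0E A (M₁ * q * q) (TuE A q M₁ M' el hq hNu Bu ku hBu hqM hA ht) hin).B
        ((q : ℕ) : ↥(Rur A)) β :=
  isRadQ_chart0E_totEM A (M₁ * q * q) q M' (el + 1) Bu ku hNu hBu hq hqM hA ht
    (Nat.succ_pos el) hin _ (natCast_Rur_ne_zero A q hq)

/-- E-RADQ for the chart of `1 / j` of the upper level. -/
theorem hradoo_TuE
    (hin : ChartInE A (M₁ * q * q) (TuE A q M₁ M' el hq hNu Bu ku hBu hqM hA ht)) :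
    ∀ β ∈ (chartInfE A (M₁ * q * q) (TuE A q M₁ M' el hq hNu Bu ku hBu hqM hA ht) hin).B,
      (∀ i, (chartInfE A (M₁ * q * q) (TuE A q M₁ M' el hq hNu Bu ku hBu hqM hA ht) hin).rd i β
        = 0) →
      IsRadQ (chartInfE A (M₁ * q * q) (TuE A q M₁ M' el hq hNu Bu ku hBu hqM hA ht) hin).B
        ((q : ℕ) : ↥(Rur A)) β :=
  isRadQ_chartInfE_totEM A (M₁ * q * q) q M' (el + 1) Bu ku hNu hBu hq hqM hA ht
    (Nat.succ_pos el) hin _ (natCast_Rur_ne_zero A q hq)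

/-- Roots at the lower level. -/
theorem hL_TlE (hel : 0 < el) (n : ℕ) (hn : 0 < n) (hcop : Nat.Coprime n q) :
    LowRoot (TlE A q M₁ M' el hq hNl Bl kl hBl hqM hA ht hel) n :=
  lowRoot_totEM A (M₁ * q) q M' el Bl kl hNl hBl hq hqM hA ht hel n hn.ne'

/-- **The leaves of E-FIN from E-PT and E-CUSP.** -/
theorem leavesE_of_pt (hel : 0 < el)
    (hpt0 : (∀ z ∈ ssM A q M', Glued (TuE A q M₁ M' el hq hNu Bu ku hBu hqM hA ht) z) →
      (∀ z ∈ ssM A q M', ∀ i,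
        ((TuE A q M₁ M' el hq hNu Bu ku hBu hqM hA ht).pt i z).deg = 1) →
      PointDataT
        (chart0E A (M₁ * q * q) (TuE A q M₁ M' el hq hNu Bu ku hBu hqM hA ht)
          (hin_TuE A q M₁ M' el hq hNu Bu ku hBu hqM hA ht))
        (TuE A q M₁ M' el hq hNu Bu ku hBu hqM hA ht) (ssM A q M') ((q : ℕ) : ↥(Rur A)))
    (hptoo : ∀ 𝔪 : Ideal
        (chartInfE A (M₁ * q * q) (TuE A q M₁ M' el hq hNu Bu ku hBu hqM hA ht)
          (hin_TuE A q M₁ M' el hq hNu Bu ku hBu hqM hA ht)).B,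
      𝔪.IsMaximal →
      (∃ i, (chartInfE A (M₁ * q * q) (TuE A q M₁ M' el hq hNu Bu ku hBu hqM hA ht)
          (hin_TuE A q M₁ M' el hq hNu Bu ku hBu hqM hA ht)).Icomp i ≤ 𝔪) →
      (∀ β : (chartInfE A (M₁ * q * q) (TuE A q M₁ M' el hq hNu Bu ku hBu hqM hA ht)
          (hin_TuE A q M₁ M' el hq hNu Bu ku hBu hqM hA ht)).B,
        (β : ↥(L0 A (M₁ * q * q))) = (j0 A (M₁ * q * q))⁻¹ → β ∈ 𝔪) →
      PointDataAtT (chartInfE A (M₁ * q * q) (TuE A q M₁ M' el hq hNu Bu ku hBu hqM hA ht)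
          (hin_TuE A q M₁ M' el hq hNu Bu ku hBu hqM hA ht))
        (TuE A q M₁ M' el hq hNu Bu ku hBu hqM hA ht) (ssM A q M') ((q : ℕ) : ↥(Rur A)) 𝔪) :
    LeavesE A q M₁ M' el hq hNl hNu Bl kl hBl Bu ku hBu hqM hA ht hel where
  hin := hin_TuE A q M₁ M' el hq hNu Bu ku hBu hqM hA ht
  hchart0 := hchart0_TuE A q M₁ M' el hq hNu Bu ku hBu hqM hA ht _
  hchartoo := hchartoo_TuE A q M₁ M' el hq hNu Bu ku hBu hqM hA ht _
  hpt0 := hpt0
  hptoo := hptoo
  hrad0 := hrad0_TuE A q M₁ M' el hq hNu Bu ku hBu hqM hA ht _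
  hradoo := hradoo_TuE A q M₁ M' el hq hNu Bu ku hBu hqM hA ht _
  hL := hL_TlE A q M₁ M' el hq hNl Bl kl hBl hqM hA ht hel

/-- **E-FIN at the modular levels** from a modular instance of `NUDataE`, E-PT and E-CUSP. -/
theorem finModE_of_pt (hel : 0 < el) (D : NUDataEM A q M₁ M' el)
    (hD : IsNuE A q M₁ M' el hq hNl hNu Bl kl hBl Bu ku hBu hqM hA ht hel D)
    (hpt0 : (∀ z ∈ ssM A q M', Glued (TuE A q M₁ M' el hq hNu Bu ku hBu hqM hA ht) z) →
      (∀ z ∈ ssM A q M', ∀ i,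
        ((TuE A q M₁ M' el hq hNu Bu ku hBu hqM hA ht).pt i z).deg = 1) →
      PointDataT
        (chart0E A (M₁ * q * q) (TuE A q M₁ M' el hq hNu Bu ku hBu hqM hA ht)
          (hin_TuE A q M₁ M' el hq hNu Bu ku hBu hqM hA ht))
        (TuE A q M₁ M' el hq hNu Bu ku hBu hqM hA ht) (ssM A q M') ((q : ℕ) : ↥(Rur A)))
    (hptoo : ∀ 𝔪 : Ideal
        (chartInfE A (M₁ * q * q) (TuE A q M₁ M' el hq hNu Bu ku hBu hqM hA ht)
          (hin_TuE A q M₁ M' el hq hNu Bu ku hBu hqM hA ht)).B,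
      𝔪.IsMaximal →
      (∃ i, (chartInfE A (M₁ * q * q) (TuE A q M₁ M' el hq hNu Bu ku hBu hqM hA ht)
          (hin_TuE A q M₁ M' el hq hNu Bu ku hBu hqM hA ht)).Icomp i ≤ 𝔪) →
      (∀ β : (chartInfE A (M₁ * q * q) (TuE A q M₁ M' el hq hNu Bu ku hBu hqM hA ht)
          (hin_TuE A q M₁ M' el hq hNu Bu ku hBu hqM hA ht)).B,
        (β : ↥(L0 A (M₁ * q * q))) = (j0 A (M₁ * q * q))⁻¹ → β ∈ 𝔪) →
      PointDataAtT (chartInfE A (M₁ * q * q) (TuE A q M₁ M' el hq hNu Bu ku hBu hqM hA ht)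
          (hin_TuE A q M₁ M' el hq hNu Bu ku hBu hqM hA ht))
        (TuE A q M₁ M' el hq hNu Bu ku hBu hqM hA ht) (ssM A q M') ((q : ℕ) : ↥(Rur A)) 𝔪) :
    FinModE A q (M₁ * q) (Fermat.Agent.S45.NUE.H51.IsUnitE A q M₁ M' el hq hNu Bu ku hBu) :=
  finModE_mod A q M₁ M' el hq hNl hNu Bl kl hBl Bu ku hBu hqM hA ht hel D hD
    (leavesE_of_pt A q M₁ M' el hq hNl hNu Bl kl hBl Bu ku hBu hqM hA ht hel hpt0 hptoo)

end Mod

end Fermat.Agent.S45.NUE.H54
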