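import Fermat.Agent.S45.NUE.H28_RadQEMod
import Fermat.Agent.S45.NUE.H23_TotE4
import Fermat.Agent.S45.NUE.H74_ChartDefs

/-!
# S45 / NU_e, package E-FIN, leaf E-RADQ (helper28): the MODULAR instances

Level `N = M q^e`, `q ∤ M`, `M` tame at `q`, `e ≥ 1`, `A` a valuation ring of `ℚ̄` over `q`,
`T = totEM …` the conservation datum of helper23 (E-TOT, unconditional), `C` ANY chart over
`R = Rur A` compatible with `T` (`H24.Compat C T`).

* `hV_chartEM` : the valuation rings of `C` are those of `nrEM`;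
* `j0_mem_chartEM` : `j ∈ C.V i`;
* `transcendental_red_chartEM` : the reduction of `j` at `C.V i` is transcendental over `k`;
* `critEM`, `critEM_inv` : **TI3-VAL** (integral over `K^ur[j]` and in all `V i` ⇒ in
  `intSub R j`), resp. for `1 / j`;
* `isRadQ_chartEM`, `isRadQ_chartEM_inv` : **(RADQ)** for a chart with `B = intSub R j`, resp.
  `B = intSub R j⁻¹`;
* `hrad0EM`, `hradooEM` : **the hypotheses `hrad0`, `hradoo` of `H65.finModE_charts`** for
  helper74's charts `chart0E A N T h`, `chartInfE A N T h`, `ϖ = q`;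
* `critEM_chart0E`, `critEM_chartInfE` : TI3-VAL for these two charts.
-/

set_option autoImplicit false
set_option synthInstance.maxHeartbeats 400000
set_option maxHeartbeats 1000000
set_option linter.style.haveILetI false
set_option linter.unusedSectionVars false
set_option linter.unusedVariables false

noncomputable section

open ModularCurve AlgebraicCurve Polynomial IntermediateField
open Fermat.Agent.S24 Fermat.Agent.BAD.H88 Fermat.Agent.S28 Fermat.Agent.S28.H73
open Fermat.Agent.RED.H73 Fermat.Agent.RED.H17 Fermat.Agent.S36.NU.H88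
open Fermat.Agent.S36.NU.H23 Fermat.Agent.S36.NU.H41 Fermat.Agent.S36.NU.H17
open Fermat.Agent.S36.NU.H16 Fermat.Agent.S36.NU.H65 Fermat.Agent.BAD
open Fermat.Agent.S36.NU.H24 Fermat.Agent.S36.NU.H79
open Fermat.Agent.S45.NUE.H23 Fermat.Agent.S45.NUE.H17 Fermat.Agent.S45.NUE.H74

namespace Fermat.Agent.S45.NUE.H28

attribute [local instance] Fermat.Agent.S45.NUE.H23.algkE

section Final

variable (A : ValuationSubring Kbar)
variable (N q M e : ℕ) (B k : ℤ) (hN : N = M * q ^ e) (hB : B * M + k * (q : ℤ) ^ e = 1)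
  (hq : q.Prime) [NeZero N] [NeZero q] [NeZero M] (hqM : ¬ q ∣ M) (hA : A.LiesOverPrime q)
  (ht : H91.TameAt M q) (he : 0 < e)
  (C : Chart ↥(Rur A) ↥(L0 A N) (kV A) (Fin (e + 1)) (kapE A M e))
  (hc : Compat C (totEM A N q M e B k hN hB hq hqM hA ht he))

include hc in
/-- The valuation rings of a chart compatible with `totEM` are those of `nrEM`. -/
theorem hV_chartEM (i : Fin (e + 1)) :
    C.V i = @H42.NRData.V ↥(L0 A M) ↥(L0 A N) (FM A M) _ _ _ (algL0 A (Fermat.Agent.S45.NUE.H23.hleE N q M e hN))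
      (Fin (e + 1)) (kapE A M e) _ (algE A q M e hq hqM hA)
      (nrEM A N q M e B k hN hB hq hqM hA he) i :=
  hc.hV i

include hc in
/-- `j` is integral for all valuations of a chart compatible with `totEM`. -/
theorem j0_mem_chartEM (i : Fin (e + 1)) : j0 A N ∈ C.V i := by
  rw [hc.hV i]
  exact j0_mem_VE A N q M e B k hN hB hq (i : ℕ)

include hc in
/-- The reduction of `j` at a valuation of a chart compatible with `totEM` is transcendental. -/
theorem transcendental_red_chartEM (i : Fin (e + 1)) (hj : j0 A N ∈ C.V i) :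
    Transcendental (kV A) (C.red i ⟨j0 A N, hj⟩) := by
  have hj' : j0 A N ∈ VE A N q M e B k hN hB hq (i : ℕ) :=
    j0_mem_VE A N q M e B k hN hB hq (i : ℕ)
  have e1 : C.red i ⟨j0 A N, hj⟩
      = rEM A N q M e B k hN hB hq hqM hA he (i : ℕ) (Nat.lt_succ_iff.mp i.2)
          ⟨j0 A N, hj'⟩ := by
    rw [← C.rd_of_mem i hj, hc.hrd i,
      (totEM A N q M e B k hN hB hq hqM hA ht he).rdN_of_mem (i := i) hj']
    rfl
  rw [e1]
  refine Fermat.Agent.RED.H73.transcendental_subtype _ _ ?_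
  rw [coe_rEM]
  exact transcendental_sE_j0 A N q M e B k hN hB hq (i : ℕ) hj'

include hc in
/-- **TI3-VAL** for a chart compatible with `totEM`: integral over `K^ur[j]` and integral for
all valuations implies integral over `R^ur[j]`. -/
theorem critEM {f : ↥(L0 A N)}
    (hf₁ : IsIntegral ↥(Algebra.adjoin ↥(Kur A) {j0 A N}) f) (hf₂ : ∀ i, f ∈ C.V i) :
    f ∈ intSub ↥(Rur A) (j0 A N) :=
  critE A q M N hq hqM hA (Fermat.Agent.S45.NUE.H23.hleE N q M e hN) (algE A q M e hq hqM hA)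
    (nrEM A N q M e B k hN hB hq hqM hA he) rfl
    (nrE_hdeg A N q M e B k hN hB hq hqM hA (inE_mod A N q M e B k hN hB hq hqM hA) he)
    C (hV_chartEM A N q M e B k hN hB hq hqM hA ht he C hc) 0
    (j0_mem_chartEM A N q M e B k hN hB hq hqM hA ht he C hc 0)
    (transcendental_red_chartEM A N q M e B k hN hB hq hqM hA ht he C hc 0 _) hf₁ hf₂

include hc in
/-- **TI3-VAL** for `1 / j`. -/
theorem critEM_inv {f : ↥(L0 A N)}
    (hf₁ : IsIntegral ↥(Algebra.adjoin ↥(Kur A) {(j0 A N)⁻¹}) f) (hf₂ : ∀ i, f ∈ C.V i) :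
    f ∈ intSub ↥(Rur A) (j0 A N)⁻¹ :=
  critE_inv A q M N hq hqM hA (Fermat.Agent.S45.NUE.H23.hleE N q M e hN)
    (algE A q M e hq hqM hA)
    (nrEM A N q M e B k hN hB hq hqM hA he) rfl
    (nrE_hdeg A N q M e B k hN hB hq hqM hA (inE_mod A N q M e B k hN hB hq hqM hA) he)
    C (hV_chartEM A N q M e B k hN hB hq hqM hA ht he C hc) 0
    (j0_mem_chartEM A N q M e B k hN hB hq hqM hA ht he C hc 0)
    (transcendental_red_chartEM A N q M e B k hN hB hq hqM hA ht he C hc 0 _) hf₁ hf₂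

include hc in
/-- **(RADQ)** for a chart of `j` compatible with `totEM`. -/
theorem isRadQ_chartEM (hB0 : C.B = intSub ↥(Rur A) (j0 A N)) (ϖ : ↥(Rur A)) (hϖ : ϖ ≠ 0) :
    ∀ β ∈ C.B, (∀ i, C.rd i β = 0) → IsRadQ C.B ϖ β :=
  isRadQ_chartE A q M N hq hqM hA (Fermat.Agent.S45.NUE.H23.hleE N q M e hN)
    (algE A q M e hq hqM hA)
    (nrEM A N q M e B k hN hB hq hqM hA he) rfl
    (nrE_hdeg A N q M e B k hN hB hq hqM hA (inE_mod A N q M e B k hN hB hq hqM hA) he)
    C (hV_chartEM A N q M e B k hN hB hq hqM hA ht he C hc) 0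
    (j0_mem_chartEM A N q M e B k hN hB hq hqM hA ht he C hc 0)
    (transcendental_red_chartEM A N q M e B k hN hB hq hqM hA ht he C hc 0 _) hB0 ϖ hϖ

include hc in
/-- **(RADQ)** for a chart of `1 / j` compatible with `totEM`. -/
theorem isRadQ_chartEM_inv (hBoo : C.B = intSub ↥(Rur A) (j0 A N)⁻¹) (ϖ : ↥(Rur A))
    (hϖ : ϖ ≠ 0) :
    ∀ β ∈ C.B, (∀ i, C.rd i β = 0) → IsRadQ C.B ϖ β :=
  isRadQ_chartE_inv A q M N hq hqM hA (Fermat.Agent.S45.NUE.H23.hleE N q M e hN)
    (algE A q M e hq hqM hA)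
    (nrEM A N q M e B k hN hB hq hqM hA he) rfl
    (nrE_hdeg A N q M e B k hN hB hq hqM hA (inE_mod A N q M e B k hN hB hq hqM hA) he)
    C (hV_chartEM A N q M e B k hN hB hq hqM hA ht he C hc) 0
    (j0_mem_chartEM A N q M e B k hN hB hq hqM hA ht he C hc 0)
    (transcendental_red_chartEM A N q M e B k hN hB hq hqM hA ht he C hc 0 _) hBoo ϖ hϖ

end Final

/-! ### The two charts of helper74 over `totEM` -/

section Charts

variable (A : ValuationSubring Kbar)
variable (N q M e : ℕ) (B k : ℤ) (hN : N = M * q ^ e) (hB : B * M + k * (q : ℤ) ^ e = 1)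
  (hq : q.Prime) [NeZero N] [NeZero q] [NeZero M] (hqM : ¬ q ∣ M) (hA : A.LiesOverPrime q)
  (ht : H91.TameAt M q) (he : 0 < e)
  (h : ChartInE A N (totEM A N q M e B k hN hB hq hqM hA ht he))

/-- `q ≠ 0` in `R^ur`. -/
theorem natCast_Rur_ne_zero (n : ℕ) (hn : n ≠ 0) : ((n : ℕ) : ↥(Rur A)) ≠ 0 := by
  intro h0
  have h1 : (((n : ℕ) : ↥(Rur A)) : ↥(Kur A)) = 0 := by rw [h0]; rfl
  have h2 : (((n : ℕ) : ↥(Rur A)) : ↥(Kur A)) = ((n : ℕ) : ↥(Kur A)) := by
    exact map_natCast (algebraMap ↥(Rur A) ↥(Kur A)) n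
  rw [h2] at h1
  exact hn (Nat.cast_eq_zero.mp h1)

/-- **`hrad0` of `H65.finModE_charts` / `H65.LeavesE`**: (RADQ) for the chart of `j` over
`totEM`, `ϖ = q`. -/
theorem hrad0EM :
    ∀ β ∈ (chart0E A N (totEM A N q M e B k hN hB hq hqM hA ht he) h).B,
      (∀ i, (chart0E A N (totEM A N q M e B k hN hB hq hqM hA ht he) h).rd i β = 0) →
      IsRadQ (chart0E A N (totEM A N q M e B k hN hB hq hqM hA ht he) h).B
        ((q : ℕ) : ↥(Rur A)) β :=
  isRadQ_chartEM A N q M e B k hN hB hq hqM hA ht he _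
    (compat_chart0E A N (totEM A N q M e B k hN hB hq hqM hA ht he) h)
    (chart0E_B A N (totEM A N q M e B k hN hB hq hqM hA ht he) h)
    ((q : ℕ) : ↥(Rur A)) (natCast_Rur_ne_zero A q hq.ne_zero)

/-- **`hradoo` of `H65.finModE_charts` / `H65.LeavesE`**: (RADQ) for the chart of `1 / j` over
`totEM`, `ϖ = q`. -/
theorem hradooEM :
    ∀ β ∈ (chartInfE A N (totEM A N q M e B k hN hB hq hqM hA ht he) h).B,
      (∀ i, (chartInfE A N (totEM A N q M e B k hN hB hq hqM hA ht he) h).rd i β = 0) →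
      IsRadQ (chartInfE A N (totEM A N q M e B k hN hB hq hqM hA ht he) h).B
        ((q : ℕ) : ↥(Rur A)) β :=
  isRadQ_chartEM_inv A N q M e B k hN hB hq hqM hA ht he _
    (compat_chartInfE A N (totEM A N q M e B k hN hB hq hqM hA ht he) h)
    (chartInfE_B A N (totEM A N q M e B k hN hB hq hqM hA ht he) h)
    ((q : ℕ) : ↥(Rur A)) (natCast_Rur_ne_zero A q hq.ne_zero)

/-- **TI3-VAL** for the chart of `j` over `totEM`. -/
theorem critEM_chart0E {f : ↥(L0 A N)}
    (hf₁ : IsIntegral ↥(Algebra.adjoin ↥(Kur A) {j0 A N}) f)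
    (hf₂ : ∀ i, f ∈ (totEM A N q M e B k hN hB hq hqM hA ht he).V i) :
    f ∈ (chart0E A N (totEM A N q M e B k hN hB hq hqM hA ht he) h).B := by
  rw [chart0E_B]
  exact critEM A N q M e B k hN hB hq hqM hA ht he _
    (compat_chart0E A N (totEM A N q M e B k hN hB hq hqM hA ht he) h) hf₁ hf₂

/-- **TI3-VAL** for the chart of `1 / j` over `totEM`. -/
theorem critEM_chartInfE {f : ↥(L0 A N)}
    (hf₁ : IsIntegral ↥(Algebra.adjoin ↥(Kur A) {(j0 A N)⁻¹}) f)
    (hf₂ : ∀ i, f ∈ (totEM A N q M e B k hN hB hq hqM hA ht he).V i) :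
    f ∈ (chartInfE A N (totEM A N q M e B k hN hB hq hqM hA ht he) h).B := by
  rw [chartInfE_B]
  exact critEM_inv A N q M e B k hN hB hq hqM hA ht he _
    (compat_chartInfE A N (totEM A N q M e B k hN hB hq hqM hA ht he) h) hf₁ hf₂

end Charts

end Fermat.Agent.S45.NUE.H28
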