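import Fermat.Agent.S45.NUE.H73_CuspDefsE
import Fermat.Agent.S45.NUE.H28_RadQEMod
import Fermat.Agent.S36.NU.H86_CuspRed

/-!
# S45 / NU_e, package E-CUSP, leaf CUSP-RED_e (helper88): the reductions at the cusps

Level `N = M q^e`, `1 ≤ e`, `A` over `q`, `u = 1 / j = H73.uooE`, `E_a = H73.EooE a`
(`a = 0`: `(EwE 0)^q u^(q-1)`; `a ≠ 0`: `EwE a · u^(KooE a)`), `s_a = H23.sE a`,
`HU = (Δ~^(q-1))⁻¹ = H82.HUk`, `P` = the reverse of the supersingular polynomial
(`P(0) = 1`, `P(1/j~) = HU (1/j~)^(q-1)`).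

* `qExpand_pow_of_fixed` : `f(s^(q^n)) = f^(q^n)` for a series with coefficients in the prime
  field; `qExpand_pow_deltaR`, `qExpand_pow_HUk`;
* `red_series_pos`, `red_series_zero` : the two identities of Laurent series;
* `uooE_mem_VE`, `sE_uooE` : `u ∈ V_a`, `s_a u = (j~(s^(q^(e-2a))))⁻¹`;
* `cuspRedE_core` : **CUSP-RED_e** for the component `a`, from `EwE a ∈ V_a` and the reduction
  of `EwE a`:  `s_a (EooE a) = P_a (s_a u)`, `P_a(0) = 1`  (`P_0 = P`, `P_a = P^(c_a q^(a-1))`);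
* `cuspRedE` : the same for all `a ≤ e`, from `H82.Stmt_EwE_mem` and `H82.Stmt_EwE_red`;
* `cuspRedE_forall` : the form with arbitrary membership proofs.
-/

set_option autoImplicit false
set_option synthInstance.maxHeartbeats 400000
set_option maxHeartbeats 1000000
set_option linter.unusedSectionVars false
set_option linter.unusedVariables false
set_option linter.style.haveILetI false

noncomputable section

open ModularCurve Polynomial
open Fermat.Agent.S24 Fermat.Agent.BAD.H88 Fermat.Agent.BAD.H30 Fermat.Agent.BAD.H21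
open Fermat.Agent.S28 Fermat.Agent.S28.H73 Fermat.Agent.RED.H73 Fermat.Agent.RED.H17
open Fermat.Agent.S36.NU.H88 Fermat.Agent.S36.NU.H23 Fermat.Agent.S36.NU.H82
open Fermat.Agent.S45.NUE.H23 (VE sE)
open Fermat.Agent.S45.NUE.H73 (uooE KooE EooE)
open Fermat.Agent.S45.NUE.H82 (EwE cEw HUk)

namespace Fermat.Agent.S45.NUE.H88

section Series

variable (K : Type) [Field K] (q : ℕ) [hq : Fact q.Prime] [CharP K q] [NeZero q]

/-- **Frobenius**: `f(s^(q^n)) = f^(q^n)` for a series with coefficients in the prime field. -/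
theorem qExpand_pow_of_fixed (f : LaurentSeries K) (hf : coeffMap (frobenius K q) f = f)
    (n : ℕ) : qExpand K (q ^ n) f = f ^ (q ^ n) := by
  have h1 : qExpand K q f = f ^ q := by
    rw [Fermat.Agent.RED.H10.pow_char_eq q f, hf]
  induction n with
  | zero =>
    rw [qExpand_congr (pow_zero q) f, qExpand_one_apply, pow_zero, pow_one]
  | succ n ih =>
    rw [qExpand_congr (pow_succ q n) f, ← qExpand_qExpand, h1, map_pow, ih, ← pow_mul,
      ← pow_succ]

theorem qExpand_pow_deltaR (n : ℕ) : qExpand K (q ^ n) (deltaR K) = deltaR K ^ (q ^ n) :=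
  qExpand_pow_of_fixed K q _ (coeffMap_deltaR _) n

/-- `HU(s^(q^n)) = HU^(q^n)`, `HU = (Δ~^(q-1))⁻¹`. -/
theorem qExpand_pow_HU (n : ℕ) :
    qExpand K (q ^ n) ((deltaR K ^ (q - 1))⁻¹) = ((deltaR K ^ (q - 1))⁻¹) ^ (q ^ n) := by
  rw [map_inv₀, map_pow, qExpand_pow_deltaR, inv_pow, ← pow_mul, ← pow_mul, mul_comm]

/-- `qExpand` commutes with the evaluation of polynomials with constant coefficients. -/
theorem qExpand_aevalE (d : ℕ) [NeZero d] (x : LaurentSeries K) (P : K[X]) :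
    qExpand K d (aeval x P) = aeval (qExpand K d x) P := by
  rw [← qExpandAlgHomC_apply, ← qExpandAlgHomC_apply]
  exact (Polynomial.aeval_algHom_apply (qExpandAlgHomC K d) x P).symm

/-- **The identity of series for the components `a ≠ 0`**: with `d = q^i`, `n = q^j`,
`HU(s^(dn))^c · (1/j~(s^d))^(c n (q-1)) = (P^(c n))(1/j~(s^d))`. -/
theorem red_series_pos (P : K[X])
    (hP : aeval (jqModC K)⁻¹ P = (deltaR K ^ (q - 1))⁻¹ * ((jqModC K)⁻¹) ^ (q - 1))
    (i j c : ℕ) :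
    (qExpand K (q ^ (i + j)) ((deltaR K ^ (q - 1))⁻¹)) ^ c
        * ((qExpand K (q ^ i) (jqModC K))⁻¹) ^ (c * q ^ j * (q - 1))
      = aeval ((qExpand K (q ^ i) (jqModC K))⁻¹) (P ^ (c * q ^ j)) := by
  have h1 : qExpand K (q ^ (i + j)) ((deltaR K ^ (q - 1))⁻¹)
      = (qExpand K (q ^ i) ((deltaR K ^ (q - 1))⁻¹)) ^ (q ^ j) := by
    rw [qExpand_congr (pow_add q i j) _, ← qExpand_qExpand, qExpand_pow_HU, map_pow]
  rw [map_pow, ← map_inv₀, ← qExpand_aevalE, hP, h1, map_mul, map_pow, mul_pow, ← pow_mul,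
    ← pow_mul, mul_comm (q ^ j) c, mul_comm (q - 1) (c * q ^ j)]

/-- **The identity of series for the component `a = 0`**:
`HU(s^(q^j))^q · (1/j~(s^(q^(j+1))))^(q-1) = P(1/j~(s^(q^(j+1))))`. -/
theorem red_series_zero (P : K[X])
    (hP : aeval (jqModC K)⁻¹ P = (deltaR K ^ (q - 1))⁻¹ * ((jqModC K)⁻¹) ^ (q - 1))
    (j : ℕ) :
    (qExpand K (q ^ j) ((deltaR K ^ (q - 1))⁻¹)) ^ q
        * ((qExpand K (q ^ (j + 1)) (jqModC K))⁻¹) ^ (q - 1)
      = aeval ((qExpand K (q ^ (j + 1)) (jqModC K))⁻¹) P := by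
  have h1 : (qExpand K (q ^ j) ((deltaR K ^ (q - 1))⁻¹)) ^ q
      = qExpand K (q ^ (j + 1)) ((deltaR K ^ (q - 1))⁻¹) := by
    rw [qExpand_pow_HU, qExpand_pow_HU, ← pow_mul, ← pow_succ]
  rw [← map_inv₀, ← qExpand_aevalE, hP, h1, map_mul, map_pow]

end Series

section Level

variable (A : ValuationSubring Kbar)
variable (N q M e : ℕ) (B k : ℤ) (hN : N = M * q ^ e) (hB : B * M + k * (q : ℤ) ^ e = 1)
  (hq : q.Prime) [NeZero N] [NeZero q] [NeZero M]

include hN hB hq in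
/-- `u = 1 / j ∈ V_a`, with reduction `(j~(s^(q^(e - 2a))))⁻¹`. -/
theorem uooE_mem_VE (a : ℕ) :
    ∃ hu : uooE A N ∈ VE A N q M e B k hN hB hq a,
      sE A N q M e B k hN hB hq a ⟨uooE A N, hu⟩
        = (qExpand (kV A) (q ^ (e - 2 * a)) (jqModC (kV A)))⁻¹ := by
  haveI := Fermat.Agent.S45.NUE.H28.neZero_one_mul_pow q (e - 2 * a + 0)
  have hj := Fermat.Agent.S45.NUE.H28.j0_mem_VE A N q M e B k hN hB hq a
  have hsj := Fermat.Agent.S45.NUE.H28.sE_j0 A N q M e B k hN hB hq a hj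
  have hd : 1 * q ^ (e - 2 * a + 0) = q ^ (e - 2 * a) := by rw [one_mul, add_zero]
  rw [qExpand_congr hd] at hsj
  have hne : sE A N q M e B k hN hB hq a ⟨j0 A N, hj⟩ ≠ 0 := by
    rw [hsj]
    intro h
    exact Fermat.Agent.S36.NU.H86.jqModC_ne_zero' (kV A)
      (qExpand_injective (q ^ (e - 2 * a)) (h.trans (map_zero _).symm))
  obtain ⟨hu, hsu⟩ := Fermat.Agent.S36.NU.H86.inv_mem_of_res_ne_zero
    (VE A N q M e B k hN hB hq a) (sE A N q M e B k hN hB hq a)
    (Fermat.Agent.S45.NUE.H23.sE_eq_zero_of_not_isUnit A N q M e B k hN hB hq a)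
    (j0 A N) hj hne
  rw [hsj] at hsu
  exact ⟨hu, hsu⟩

include hN hB hq in
theorem sE_uooE (a : ℕ) (hu : uooE A N ∈ VE A N q M e B k hN hB hq a) :
    sE A N q M e B k hN hB hq a ⟨uooE A N, hu⟩
      = (qExpand (kV A) (q ^ (e - 2 * a)) (jqModC (kV A)))⁻¹ :=
  (uooE_mem_VE A N q M e B k hN hB hq a).choose_spec

include hN hB hq in
/-- **CUSP-RED_e** for the component `a`. -/
theorem cuspRedE_core (hA : A.LiesOverPrime q) (he : e ≠ 0) (a : ℕ) (ha : a ≤ e)
    (hEw : EwE A N q e a ∈ VE A N q M e B k hN hB hq a)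
    (hred : sE A N q M e B k hN hB hq a ⟨EwE A N q e a, hEw⟩
      = (qExpand (kV A) (q ^ (max a (e - a) - 1)) (HUk A q)) ^ cEw e a) :
    ∃ (hu : uooE A N ∈ VE A N q M e B k hN hB hq a)
      (hE : EooE A N q e a ∈ VE A N q M e B k hN hB hq a) (P : Polynomial (kV A)),
      P.coeff 0 = 1 ∧
      sE A N q M e B k hN hB hq a ⟨EooE A N q e a, hE⟩
        = Polynomial.aeval (sE A N q M e B k hN hB hq a ⟨uooE A N, hu⟩) P := by
  haveI : Fact q.Prime := ⟨hq⟩
  haveI : CharP (kV A) q := Fermat.Agent.BAD.H82.charP_kV A hq hA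
  haveI : IsAlgClosed (kV A) := isAlgClosed_kV A
  obtain ⟨P, hP0, hP⟩ := Fermat.Agent.S36.NU.H86.exists_rev_poly (kV A) q
  obtain ⟨hu, hsu⟩ := uooE_mem_VE A N q M e B k hN hB hq a
  by_cases ha0 : a = 0
  · -- the component `a = 0`
    subst ha0
    have hE : EooE A N q e 0 ∈ VE A N q M e B k hN hB hq 0 := by
      rw [Fermat.Agent.S45.NUE.H73.EooE_zero]
      exact mul_mem (pow_mem hEw _) (pow_mem hu _)
    refine ⟨hu, hE, P, ?_, ?_⟩
    · rw [coeff_zero_eq_eval_zero, hP0]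
    · have e1 : (⟨EooE A N q e 0, hE⟩ : ↥(VE A N q M e B k hN hB hq 0))
          = ⟨EwE A N q e 0, hEw⟩ ^ q * ⟨uooE A N, hu⟩ ^ (q - 1) :=
        Subtype.ext (Fermat.Agent.S45.NUE.H73.EooE_zero A N q e)
      have hc : cEw e 0 = 1 := by rw [cEw, if_pos (Or.inl rfl)]
      have hd1 : q ^ (max 0 (e - 0) - 1) = q ^ (e - 1) := by
        congr 1
      have hd2 : q ^ (e - 2 * 0) = q ^ ((e - 1) + 1) := by
        congr 1
        omega
      rw [e1, map_mul, map_pow, map_pow, hred, hsu, hc, pow_one, qExpand_congr hd1,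
        qExpand_congr hd2, HUk]
      exact red_series_zero (kV A) q P hP (e - 1)
  · -- the components `a ≠ 0`
    have hE : EooE A N q e a ∈ VE A N q M e B k hN hB hq a := by
      rw [Fermat.Agent.S45.NUE.H73.EooE_of_ne A N q e a ha0]
      exact mul_mem hEw (pow_mem hu _)
    refine ⟨hu, hE, P ^ (cEw e a * q ^ (a - 1)), ?_, ?_⟩
    · rw [coeff_zero_eq_eval_zero, eval_pow, hP0, one_pow]
    · have e1 : (⟨EooE A N q e a, hE⟩ : ↥(VE A N q M e B k hN hB hq a))
          = ⟨EwE A N q e a, hEw⟩ * ⟨uooE A N, hu⟩ ^ KooE q e a :=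
        Subtype.ext (Fermat.Agent.S45.NUE.H73.EooE_of_ne A N q e a ha0)
      have hK : KooE q e a = cEw e a * q ^ (a - 1) * (q - 1) := by
        by_cases hae : a = e
        · subst hae
          rw [Fermat.Agent.S45.NUE.H73.KooE_top q a ha0, cEw, if_pos (Or.inr rfl), one_mul]
        · rw [Fermat.Agent.S45.NUE.H73.KooE_mid q e a ha0 hae, cEw,
            if_neg (by rintro (h | h); exacts [ha0 h, hae h])]
      have hd1 : q ^ (max a (e - a) - 1) = q ^ ((e - 2 * a) + (a - 1)) := by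
        congr 1
        omega
      rw [e1, map_mul, map_pow, hred, hsu, hK, qExpand_congr hd1, HUk]
      exact red_series_pos (kV A) q P hP (e - 2 * a) (a - 1) (cEw e a)

include hN hB hq in
/-- **CUSP-RED_e**, for all the components, from helper82's targets. -/
theorem cuspRedE (hA : A.LiesOverPrime q) (he : e ≠ 0)
    (hmem : Fermat.Agent.S45.NUE.H82.Stmt_EwE_mem A N q M e B k hN hB hq)
    (hred : Fermat.Agent.S45.NUE.H82.Stmt_EwE_red A N q M e B k hN hB hq)
    (a : ℕ) (ha : a ≤ e) :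
    ∃ (hu : uooE A N ∈ VE A N q M e B k hN hB hq a)
      (hE : EooE A N q e a ∈ VE A N q M e B k hN hB hq a) (P : Polynomial (kV A)),
      P.coeff 0 = 1 ∧
      sE A N q M e B k hN hB hq a ⟨EooE A N q e a, hE⟩
        = Polynomial.aeval (sE A N q M e B k hN hB hq a ⟨uooE A N, hu⟩) P :=
  cuspRedE_core A N q M e B k hN hB hq hA he a ha (hmem a a ha ha) (hred a ha (hmem a a ha ha))

include hN hB hq in
/-- **CUSP-RED_e**, with arbitrary membership proofs. -/
theorem cuspRedE_forall (hA : A.LiesOverPrime q) (he : e ≠ 0)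
    (hmem : Fermat.Agent.S45.NUE.H82.Stmt_EwE_mem A N q M e B k hN hB hq)
    (hred : Fermat.Agent.S45.NUE.H82.Stmt_EwE_red A N q M e B k hN hB hq)
    (a : ℕ) (ha : a ≤ e)
    (hu : uooE A N ∈ VE A N q M e B k hN hB hq a)
    (hE : EooE A N q e a ∈ VE A N q M e B k hN hB hq a) :
    ∃ P : Polynomial (kV A), P.coeff 0 = 1 ∧
      sE A N q M e B k hN hB hq a ⟨EooE A N q e a, hE⟩
        = Polynomial.aeval (sE A N q M e B k hN hB hq a ⟨uooE A N, hu⟩) P := by
  obtain ⟨_, _, P, h0, hs⟩ := cuspRedE A N q M e B k hN hB hq hA he hmem hred a ha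
  exact ⟨P, h0, hs⟩

include hN hB hq in
/-- `EooE a ∈ V_a`. -/
theorem EooE_mem_VE_self (hA : A.LiesOverPrime q) (he : e ≠ 0)
    (hmem : Fermat.Agent.S45.NUE.H82.Stmt_EwE_mem A N q M e B k hN hB hq)
    (hred : Fermat.Agent.S45.NUE.H82.Stmt_EwE_red A N q M e B k hN hB hq)
    (a : ℕ) (ha : a ≤ e) : EooE A N q e a ∈ VE A N q M e B k hN hB hq a :=
  (cuspRedE A N q M e B k hN hB hq hA he hmem hred a ha).choose_spec.choose

end Level

end Fermat.Agent.S45.NUE.H88
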