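import Fermat.Agent.S45.NUE.H73_CuspMemE
import Fermat.Agent.S45.NUE.H88_CuspRedE
import Fermat.Agent.S45.NUE.H82_EwEVal
import Fermat.Agent.S36.NU.H73_CuspW2

/-!
# S45 / NU_e, leaf E-CUSP, slice CUSP-W_e (helper73): the unit identity at the mid components

Level `N = M q^e`, `0 < a < e`, `m = min a (e - a)`, `φ = φ(q^m)`, `u = uooE = 1 / j`,
`E = EooE a = EwE a · u^(2 q^(a-1) (q-1))`, `f = fooE a = (π_a u^(q^(a-m)))^φ / q`.  At `V_a`:

* `s_a(u)^(q^(a-1)) = J⁻¹`, `J = j~(T)`, `T = s^(q^(max a (e-a) - 1))`;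
* `s_a(E) = (Δ~(T)^(q-1))⁻² J^(-2(q-1))`;
* `s_a(f) = c₀ · ((θ j~)(T) J⁻¹)^(q-1)`, `c₀ ≠ 0` the residue of `(ζ' - 1)^φ / q`;
* **`s_a(f)¹² · s_a(E) = c₀¹² (1 - 1728 s_a(u)^(q^(a-1)))^(6 (q-1))`**   (`cuspWE`).
-/

set_option autoImplicit false
set_option synthInstance.maxHeartbeats 400000
set_option maxHeartbeats 1000000
set_option linter.unusedSectionVars false
set_option linter.unusedVariables false
set_option linter.style.haveILetI false

noncomputable section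

namespace Fermat.Agent.S45.NUE.H73

open Fermat.Agent.S24 Fermat.Agent.BAD.H88 Fermat.Agent.BAD.H30 Fermat.Agent.BAD.H21 ModularCurve
open Fermat.Agent.S28 Fermat.Agent.S28.H73 Fermat.Agent.RED.H73
open Fermat.Agent.S36.NU.H88
open Fermat.Agent.S36.NU.H23 (L0 jdF_mem_L0)
open Fermat.Agent.S36.NU.H73 (thetaL thetaL_coeffMap thetaL_jq_pow_six cuspW2_base)
open Fermat.Agent.S45.NUE.H23 (VF VE sE neZero_nE mem_VE_iff sE_mk sE_eq_zero_of_not_isUnit)
open Fermat.Agent.S45.NUE.H82 (EwE Stmt_EwE_mem Stmt_EwE_red HUk cEw)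
open Fermat.Agent.S45.NUE.H88 (qExpand_pow_of_fixed qExpand_pow_deltaR qExpand_pow_HU)

/-! ### The identity of series -/

section Series

variable (K : Type) [Field K] (q : ℕ) [hq : Fact q.Prime] [CharP K q] [NeZero q]

theorem frob_jq : coeffMap (frobenius K q) (jqModC K) = jqModC K := coeffMap_jqModC _

theorem frob_theta_jq :
    coeffMap (frobenius K q) (thetaL (jqModC K)) = thetaL (jqModC K) := by
  rw [← thetaL_coeffMap, frob_jq]

/-- **The `W` identity of series.** -/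
theorem w_series (a e : ℕ) (ha : 1 ≤ a) (hae : a + 1 ≤ e) (c₀ : K) (U E F : LaurentSeries K)
    (hU : U = (qExpand K (q ^ (e - 2 * a)) (jqModC K))⁻¹)
    (hE : E = (qExpand K (q ^ (max a (e - a) - 1)) ((deltaR K ^ (q - 1))⁻¹)) ^ 2
      * U ^ (2 * q ^ (a - 1) * (q - 1)))
    (hF : F = HahnSeries.C c₀
      * (qExpand K (q ^ dE e a) (thetaL (jqModC K)) * U ^ (q ^ (a - min a (e - a))))
          ^ Nat.totient (q ^ min a (e - a))) :
    F ^ 12 * E
      = HahnSeries.C (c₀ ^ 12)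
        * (1 - HahnSeries.C (1728 : K) * U ^ (q ^ (a - 1))) ^ (6 * (q - 1)) := by
  have hqp : q.Prime := hq.out
  have hJ0 : jqModC K ≠ 0 := Fermat.Agent.S36.NU.H86.jqModC_ne_zero' K
  have hD0 : deltaR K ≠ 0 := deltaR_ne_zero K
  -- the Frobenius powers
  have h1 : qExpand K (q ^ (e - 2 * a)) (jqModC K) = jqModC K ^ (q ^ (e - 2 * a)) :=
    qExpand_pow_of_fixed K q _ (frob_jq K q) _
  have h2 : qExpand K (q ^ (max a (e - a) - 1)) ((deltaR K ^ (q - 1))⁻¹)
      = ((deltaR K ^ (q - 1))⁻¹) ^ (q ^ (max a (e - a) - 1)) := qExpand_pow_HU K q _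
  have h3 : qExpand K (q ^ dE e a) (thetaL (jqModC K)) = thetaL (jqModC K) ^ (q ^ dE e a) :=
    qExpand_pow_of_fixed K q _ (frob_theta_jq K q) _
  have hm1 : 1 ≤ min a (e - a) := by omega
  have hφ : Nat.totient (q ^ min a (e - a)) = q ^ (min a (e - a) - 1) * (q - 1) :=
    Nat.totient_prime_pow hqp (by omega)
  -- the identity at the level `T`
  have hid : (thetaL (jqModC K) ^ (q ^ (max a (e - a) - 1))) ^ 6
      = (jqModC K ^ (q ^ (max a (e - a) - 1))) ^ 4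
        * (jqModC K ^ (q ^ (max a (e - a) - 1)) - 1728) ^ 3
        * deltaR K ^ (q ^ (max a (e - a) - 1)) := by
    have h := congrArg (qExpand K (q ^ (max a (e - a) - 1))) (thetaL_jq_pow_six K)
    rw [map_pow, map_mul, map_mul, map_pow, map_pow, map_sub, map_ofNat,
      ← deltaR_eq_DL, qExpand_pow_of_fixed K q _ (frob_theta_jq K q),
      qExpand_pow_of_fixed K q _ (frob_jq K q), qExpand_pow_deltaR] at h
    exact h
  have hJ : jqModC K ^ (q ^ (max a (e - a) - 1)) ≠ 0 := pow_ne_zero _ hJ0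
  have hD : deltaR K ^ (q ^ (max a (e - a) - 1)) ≠ 0 := pow_ne_zero _ hD0
  have hb := cuspW2_base hJ hD hid
  -- `U^(q^(a-1)) = J⁻¹`
  have hUJ : U ^ (q ^ (a - 1)) = (jqModC K ^ (q ^ (max a (e - a) - 1)))⁻¹ := by
    rw [hU, h1, inv_pow, ← pow_mul, ← pow_add]
    congr 3
    omega
  -- `E`
  have hEJ : E = ((deltaR K ^ (q ^ (max a (e - a) - 1)))⁻¹ ^ 2
      * (jqModC K ^ (q ^ (max a (e - a) - 1)))⁻¹ ^ 2) ^ (q - 1) := by
    have e1 : U ^ (2 * q ^ (a - 1) * (q - 1)) = (U ^ (q ^ (a - 1))) ^ (2 * (q - 1)) := by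
      rw [← pow_mul]
      congr 1
      ring
    rw [hE, h2, e1, hUJ]
    simp only [inv_pow]
    rw [← mul_inv, ← mul_inv]
    ring
  -- `F`
  have hFJ : F = HahnSeries.C c₀
      * (thetaL (jqModC K) ^ (q ^ (max a (e - a) - 1))
        * (jqModC K ^ (q ^ (max a (e - a) - 1)))⁻¹) ^ (q - 1) := by
    have e1 : (thetaL (jqModC K) ^ (q ^ dE e a) * U ^ (q ^ (a - min a (e - a))))
        ^ (q ^ (min a (e - a) - 1))
        = thetaL (jqModC K) ^ (q ^ (max a (e - a) - 1)) * U ^ (q ^ (a - 1)) := by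
      rw [mul_pow, ← pow_mul, ← pow_mul, ← pow_add, ← pow_add]
      congr 3
      · rw [dE]; omega
      · omega
    rw [hF, h3, hφ, pow_mul, e1, hUJ]
  rw [hFJ, hEJ, hUJ, map_pow, map_ofNat, pow_mul _ 6 (q - 1), ← hb]
  generalize thetaL (jqModC K) ^ (q ^ (max a (e - a) - 1)) = Θ
  generalize (jqModC K ^ (q ^ (max a (e - a) - 1)))⁻¹ = Ji
  generalize (deltaR K ^ (q ^ (max a (e - a) - 1)))⁻¹ = Di
  generalize (HahnSeries.C c₀ : LaurentSeries K) = c
  ring

end Series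

/-! ### The constant `(ζ' - 1)^φ / q` -/

section Const

variable (A : ValuationSubring Kbar)
variable (q M e : ℕ) (B k : ℤ) (hB : B * M + k * (q : ℤ) ^ e = 1) (hq : q.Prime) [NeZero q]

/-- `c₀ = (ζ' - 1)^φ / q`, `ζ' = ζ_{q^m}^B`, `m = min a (e - a)`. -/
def cWE (q e a : ℕ) [NeZero q] (B : ℤ) : Kbar :=
  (zU q e a B - 1) ^ Nat.totient (q ^ min a (e - a)) * ((q : ℕ) : Kbar)⁻¹

include hB hq in
theorem val_cWE (a : ℕ) (ha : 1 ≤ a) (hae : a + 1 ≤ e) : A.valuation (cWE q e a B) = 1 := by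
  have hq0 : ((q : ℕ) : Kbar) ≠ 0 := by exact_mod_cast (NeZero.ne q)
  have hv : A.valuation ((q : ℕ) : Kbar) ≠ 0 := (Valuation.ne_zero_iff _).mpr hq0
  have hm : min a (e - a) - 1 + 1 = min a (e - a) := by omega
  have hprim : IsPrimitiveRoot (zU q e a B) (q ^ (min a (e - a) - 1 + 1)) := by
    rw [hm]
    exact isPrimitiveRoot_zU q M e B k hB hq a (by omega)
  have h := val_sub_one_ppow A hq (min a (e - a) - 1) hprim
  rw [hm] at h
  rw [cWE, map_mul, map_pow, h, map_inv₀, mul_inv_cancel₀ hv]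

include hB hq in
theorem cWE_mem (a : ℕ) (ha : 1 ≤ a) (hae : a + 1 ≤ e) : cWE q e a B ∈ A :=
  (ValuationSubring.valuation_le_one_iff A _).mp (val_cWE A q M e B k hB hq a ha hae).le

include hB hq in
theorem resV_cWE_ne_zero (a : ℕ) (ha : 1 ≤ a) (hae : a + 1 ≤ e) :
    resV A ⟨cWE q e a B, cWE_mem A q M e B k hB hq a ha hae⟩ ≠ 0 := by
  intro h
  have h1 : (⟨cWE q e a B, cWE_mem A q M e B k hB hq a ha hae⟩ : ↥A)
      ∈ IsLocalRing.maximalIdeal ↥A := (IsLocalRing.residue_eq_zero_iff _).mp h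
  have h2 : IsUnit (⟨cWE q e a B, cWE_mem A q M e B k hB hq a ha hae⟩ : ↥A) :=
    (ValuationSubring.valuation_eq_one_iff A _).mpr (val_cWE A q M e B k hB hq a ha hae)
  exact (IsLocalRing.mem_maximalIdeal _).mp h1 h2

end Const

/-! ### The reduction of `fooE` and the `W` identity -/

section W

variable (A : ValuationSubring Kbar)
variable (N q M e : ℕ) (B k : ℤ) (hN : N = M * q ^ e) (hB : B * M + k * (q : ℤ) ^ e = 1)
  (hq : q.Prime) [NeZero N] [NeZero q]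

include hB hq in
/-- `f_a = c₀ · (θ_a · u^(q^(a-m)))^φ`. -/
theorem coe_fooE (a : ℕ) (ha : 1 ≤ a) (hae : a + 1 ≤ e)
    (h1 : q ^ (a + min a (e - a)) ∣ N) (h2 : q ^ (a - min a (e - a)) ∣ N) :
    ((fooE A N q e a h1 h2 : ↥(L0 A N)) : FN N)
      = algebraMap Kbar (FN N) (cWE q e a B)
        * (thE N q e B a h1 h2 * (Fermat.Agent.S24.jF N)⁻¹ ^ (q ^ (a - min a (e - a))))
            ^ Nat.totient (q ^ min a (e - a)) := by
  have e0 : ((fooE A N q e a h1 h2 : ↥(L0 A N)) : FN N)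
      = (piE N q e a h1 h2 * (Fermat.Agent.S24.jF N)⁻¹ ^ (q ^ (a - min a (e - a))))
          ^ Nat.totient (q ^ min a (e - a))
        * ((((q : ℕ) : ↥(L0 A N)) : FN N))⁻¹ := rfl
  have e1 : (((q : ℕ) : ↥(L0 A N)) : FN N) = ((q : ℕ) : FN N) :=
    map_natCast (L0 A N).subtype q
  rw [e0, e1, piE_eq N q M e B k hB hq a ha (by omega) h1 h2, cWE, map_mul, map_pow, map_inv₀,
    map_natCast]
  ring

include hN hB hq in
/-- **CUSP-W_e**, from the reduction of `EwE a` at `V_a`. -/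
theorem cuspWE_core (hA : (q : Kbar) ∈ A.nonunits) (a : ℕ) (ha : 1 ≤ a) (hae : a + 1 ≤ e)
    (h1 : q ^ (a + min a (e - a)) ∣ N) (h2 : q ^ (a - min a (e - a)) ∣ N)
    (hEw : EwE A N q e a ∈ VE A N q M e B k hN hB hq a)
    (hred : sE A N q M e B k hN hB hq a ⟨EwE A N q e a, hEw⟩
      = (qExpand (kV A) (q ^ (max a (e - a) - 1)) (HUk A q)) ^ cEw e a) :
    ∃ (hu : uooE A N ∈ VE A N q M e B k hN hB hq a)
      (hE : EooE A N q e a ∈ VE A N q M e B k hN hB hq a)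
      (hf : fooE A N q e a h1 h2 ∈ VE A N q M e B k hN hB hq a) (c : kV A), c ≠ 0 ∧
      sE A N q M e B k hN hB hq a ⟨fooE A N q e a h1 h2, hf⟩ ^ 12
          * sE A N q M e B k hN hB hq a ⟨EooE A N q e a, hE⟩
        = HahnSeries.C c
          * (1 - HahnSeries.C (1728 : kV A)
              * sE A N q M e B k hN hB hq a ⟨uooE A N, hu⟩ ^ (q ^ (a - 1))) ^ (6 * (q - 1)) := by
  haveI : Fact q.Prime := ⟨hq⟩
  haveI : CharP (kV A) q := Fermat.Agent.BAD.H82.charP_kV A hq hA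
  haveI := neZero_nE N q M e B k hN hB hq a
  have ha0 : a ≠ 0 := by omega
  have hae' : a ≠ e := by omega
  -- `u`
  have hu := uooE_mem_VE A N q M e B k hN hB hq a
  have hsu := sE_uooE A N q M e B k hN hB hq a hu
  -- `E`
  have hEeq : EooE A N q e a = EwE A N q e a * uooE A N ^ (2 * q ^ (a - 1) * (q - 1)) :=
    EooE_mid A N q e a ha0 hae'
  have hE : EooE A N q e a ∈ VE A N q M e B k hN hB hq a := by
    rw [hEeq]
    exact mul_mem hEw (pow_mem hu _)
  have hsE : sE A N q M e B k hN hB hq a ⟨EooE A N q e a, hE⟩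
      = (qExpand (kV A) (q ^ (max a (e - a) - 1)) ((deltaR (kV A) ^ (q - 1))⁻¹)) ^ 2
        * sE A N q M e B k hN hB hq a ⟨uooE A N, hu⟩ ^ (2 * q ^ (a - 1) * (q - 1)) := by
    have e1 : (⟨EooE A N q e a, hE⟩ : ↥(VE A N q M e B k hN hB hq a))
        = ⟨EwE A N q e a, hEw⟩ * ⟨uooE A N, hu⟩ ^ (2 * q ^ (a - 1) * (q - 1)) :=
      Subtype.ext hEeq
    have e2 : cEw e a = 2 := by
      rw [cEw, if_neg]
      rintro (h | h)
      · exact ha0 h
      · exact hae' h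
    rw [e1, map_mul, map_pow, hred, e2]
    rfl
  -- `f`
  have hc : algebraMap Kbar (LaurentSeries Kbar) (cWE q e a B) ∈ gaussRingV A := by
    have h3 : iotaV A (HahnSeries.C
        (⟨cWE q e a B, cWE_mem A q M e B k hB hq a ha hae⟩ : ↥A))
        = algebraMap Kbar (LaurentSeries Kbar) (cWE q e a B) := by
      rw [algebraMap_laurentSeries_eq_single]
      exact coeffMap_single A.subtype 0 _
    rw [← h3]
    exact iotaV_mem_gaussRingV A _
  have hth : Fermat.Agent.S45.NUE.H23.cE N q M e B k hN hB hq a (thE N q e B a h1 h2) ∈ gaussRingV A :=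
    thE_mem_VG A N q M e B k hN hB hq a ha (by omega) h1 h2
  have hu' : Fermat.Agent.S45.NUE.H23.cE N q M e B k hN hB hq a ((Fermat.Agent.S24.jF N)⁻¹) ∈ gaussRingV A := hu
  have hcf : Fermat.Agent.S45.NUE.H23.cE N q M e B k hN hB hq a ((fooE A N q e a h1 h2 : ↥(L0 A N)) : FN N)
      = algebraMap Kbar (LaurentSeries Kbar) (cWE q e a B)
        * (Fermat.Agent.S45.NUE.H23.cE N q M e B k hN hB hq a (thE N q e B a h1 h2)
          * Fermat.Agent.S45.NUE.H23.cE N q M e B k hN hB hq a ((Fermat.Agent.S24.jF N)⁻¹) ^ (q ^ (a - min a (e - a))))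
            ^ Nat.totient (q ^ min a (e - a)) := by
    rw [coe_fooE A N q M e B k hB hq a ha hae h1 h2, map_mul, map_pow, map_mul, map_pow,
      AlgHom.commutes]
  have hf : fooE A N q e a h1 h2 ∈ VE A N q M e B k hN hB hq a := by
    rw [mem_VE_iff, hcf]
    exact mul_mem hc (pow_mem (mul_mem hth (pow_mem hu' _)) _)
  have hsf : sE A N q M e B k hN hB hq a ⟨fooE A N q e a h1 h2, hf⟩
      = HahnSeries.C (resV A ⟨cWE q e a B, cWE_mem A q M e B k hB hq a ha hae⟩)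
        * (qExpand (kV A) (q ^ dE e a) (thetaL (jqModC (kV A)))
          * sE A N q M e B k hN hB hq a ⟨uooE A N, hu⟩ ^ (q ^ (a - min a (e - a))))
            ^ Nat.totient (q ^ min a (e - a)) := by
    rw [sE_mk]
    have e1 : (⟨Fermat.Agent.S45.NUE.H23.cE N q M e B k hN hB hq a ((fooE A N q e a h1 h2 : ↥(L0 A N)) : FN N), hf⟩ :
        gaussRingV A)
        = ⟨algebraMap Kbar (LaurentSeries Kbar) (cWE q e a B), hc⟩
          * (⟨Fermat.Agent.S45.NUE.H23.cE N q M e B k hN hB hq a (thE N q e B a h1 h2), hth⟩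
            * ⟨Fermat.Agent.S45.NUE.H23.cE N q M e B k hN hB hq a ((Fermat.Agent.S24.jF N)⁻¹), hu'⟩ ^ (q ^ (a - min a (e - a))))
              ^ Nat.totient (q ^ min a (e - a)) := Subtype.ext hcf
    have e2 : gaussRedV A ⟨Fermat.Agent.S45.NUE.H23.cE N q M e B k hN hB hq a (thE N q e B a h1 h2), hth⟩
        = qExpand (kV A) (q ^ dE e a) (thetaL (jqModC (kV A))) := by
      have h5 := redG_thE A N q M e B k hN hB hq hA a ha (by omega) h1 h2 hth
      rw [Fermat.Agent.S36.NU.H73.coeffMap_jInt] at h5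
      exact h5
    have e3 : gaussRedV A ⟨Fermat.Agent.S45.NUE.H23.cE N q M e B k hN hB hq a ((Fermat.Agent.S24.jF N)⁻¹), hu'⟩
        = sE A N q M e B k hN hB hq a ⟨uooE A N, hu⟩ := rfl
    rw [e1, map_mul, map_pow, map_mul, map_pow,
      Fermat.Agent.S36.NU.H73.gaussRedV_const A _ (cWE_mem A q M e B k hB hq a ha hae), e2, e3]
  refine ⟨hu, hE, hf, resV A ⟨cWE q e a B, cWE_mem A q M e B k hB hq a ha hae⟩ ^ 12,
    pow_ne_zero _ (resV_cWE_ne_zero A q M e B k hB hq a ha hae), ?_⟩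
  exact w_series (kV A) q a e ha hae _ _ _ _ hsu hsE hsf

include hN hB hq in
/-- **CUSP-W_e** (unconditional): `s_a(f_a)¹² · s_a(EooE a) = c (1 - 1728 s_a(u)^(q^(a-1)))^(6(q-1))`,
`c ≠ 0`. -/
theorem cuspWE (hA : A.LiesOverPrime q) (a : ℕ) (ha : 1 ≤ a) (hae : a + 1 ≤ e)
    (h1 : q ^ (a + min a (e - a)) ∣ N) (h2 : q ^ (a - min a (e - a)) ∣ N) :
    ∃ (hu : uooE A N ∈ VE A N q M e B k hN hB hq a)
      (hE : EooE A N q e a ∈ VE A N q M e B k hN hB hq a)
      (hf : fooE A N q e a h1 h2 ∈ VE A N q M e B k hN hB hq a) (c : kV A), c ≠ 0 ∧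
      sE A N q M e B k hN hB hq a ⟨fooE A N q e a h1 h2, hf⟩ ^ 12
          * sE A N q M e B k hN hB hq a ⟨EooE A N q e a, hE⟩
        = HahnSeries.C c
          * (1 - HahnSeries.C (1728 : kV A)
              * sE A N q M e B k hN hB hq a ⟨uooE A N, hu⟩ ^ (q ^ (a - 1))) ^ (6 * (q - 1)) := by
  have he : 1 ≤ e := by omega
  have hEw := Fermat.Agent.S45.NUE.H82.stmt_EwE_mem A N q M e B k hN hB hq he a a (by omega)
    (by omega)
  exact cuspWE_core A N q M e B k hN hB hq hA a ha hae h1 h2 hEw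
    (Fermat.Agent.S45.NUE.H82.stmt_EwE_red A N q M e B k hN hB hq he hA a (by omega) hEw)

end W

end Fermat.Agent.S45.NUE.H73
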