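import Fermat.Agent.S45.NUE.H73_CuspMemE
import Fermat.Agent.S45.NUE.H82_EwEVal

/-!
# S45 / NU_e, package E-FIN, leaf E-CUSP / DIV_e (helper82)

Level `N = M q^e`, `1 ≤ e`.  The witness `EooE a` (helper73's `H73.EooE`) of the component `a` in
the chart at infinity is divisible by `q` in the valuation rings `V_b` of the other components:

* `EooE_div_of : Stmt_EwE_div .. → ∀ a b ≤ e, a ≠ b → ∃ f' ∈ V_b, EooE a = q * f'`;
* `EooE_div (he : 1 ≤ e)` : the same, unconditional;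
* `EooE_div_R` : the same with `q` written `algebraMap (Rur A) (L0 A N) q` (the form of the field
  `hdiv` of `H88.CuspWit.of_series`).
-/

set_option autoImplicit false
set_option synthInstance.maxHeartbeats 400000
set_option maxHeartbeats 1000000
set_option linter.unusedSectionVars false
set_option linter.unusedVariables false
set_option linter.style.haveILetI false

noncomputable section

open ModularCurve
open Fermat.Agent.S24 Fermat.Agent.BAD.H88
open Fermat.Agent.S36.NU.H88 Fermat.Agent.S36.NU.H23 Fermat.Agent.S36.NU.H41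
open Fermat.Agent.S45.NUE.H73

namespace Fermat.Agent.S45.NUE.H82

section Div

variable (A : ValuationSubring Kbar)
variable (N q M e : ℕ) (B k : ℤ) (hN : N = M * q ^ e) (hB : B * M + k * (q : ℤ) ^ e = 1)
  (hq : q.Prime) [NeZero N] [NeZero q]

open Fermat.Agent.S45.NUE.H23 (VE sE)

/-- **DIV_e** from `Stmt_EwE_div`. -/
theorem EooE_div_of (hdiv : Stmt_EwE_div A N q M e B k hN hB hq) (a b : ℕ) (ha : a ≤ e)
    (hb : b ≤ e) (hab : a ≠ b) :
    ∃ f' ∈ VE A N q M e B k hN hB hq b, EooE A N q e a = ((q : ℕ) : ↥(L0 A N)) * f' := by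
  have hu := uooE_mem_VE A N q M e B k hN hB hq b
  obtain ⟨f, hf, hEf⟩ := hdiv a b ha hb hab
  by_cases h0 : a = 0
  · subst h0
    have hq1 : q = (q - 1) + 1 := by
      have := hq.pos
      omega
    refine ⟨((q : ℕ) : ↥(L0 A N)) ^ (q - 1) * f ^ q * uooE A N ^ (q - 1),
      mul_mem (mul_mem (pow_mem (natCast_mem _ q) _) (pow_mem hf _)) (pow_mem hu _), ?_⟩
    rw [EooE_zero, hEf, mul_pow]
    nth_rewrite 2 [hq1]
    rw [pow_succ]
    ring
  · refine ⟨f * uooE A N ^ KooE q e a, mul_mem hf (pow_mem hu _), ?_⟩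
    rw [EooE_of_ne A N q e a h0, hEf, mul_assoc]

/-- **DIV_e**, unconditional. -/
theorem EooE_div (he : 1 ≤ e) (a b : ℕ) (ha : a ≤ e) (hb : b ≤ e) (hab : a ≠ b) :
    ∃ f' ∈ VE A N q M e B k hN hB hq b, EooE A N q e a = ((q : ℕ) : ↥(L0 A N)) * f' :=
  EooE_div_of A N q M e B k hN hB hq (stmt_EwE_div A N q M e B k hN hB hq he) a b ha hb hab

/-- **DIV_e** with `q` written in `R^ur` (the form of `H88.CuspWit`). -/
theorem EooE_div_R (he : 1 ≤ e) (a b : ℕ) (ha : a ≤ e) (hb : b ≤ e) (hab : a ≠ b) :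
    ∃ f' ∈ VE A N q M e B k hN hB hq b,
      EooE A N q e a = algebraMap ↥(Rur A) ↥(L0 A N) ((q : ℕ) : ↥(Rur A)) * f' := by
  obtain ⟨f, hf, h⟩ := EooE_div A N q M e B k hN hB hq he a b ha hb hab
  refine ⟨f, hf, ?_⟩
  rw [map_natCast]
  exact h

/-- The witness `EwE a` with `q` written in `R^ur`. -/
theorem EwE_div_R (he : 1 ≤ e) (a b : ℕ) (ha : a ≤ e) (hb : b ≤ e) (hab : a ≠ b) :
    ∃ f' ∈ VE A N q M e B k hN hB hq b,
      EwE A N q e a = algebraMap ↥(Rur A) ↥(L0 A N) ((q : ℕ) : ↥(Rur A)) * f' := by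
  obtain ⟨f, hf, h⟩ := stmt_EwE_div A N q M e B k hN hB hq he a b ha hb hab
  refine ⟨f, hf, ?_⟩
  rw [map_natCast]
  exact h

end Div

end Fermat.Agent.S45.NUE.H82
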