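import Fermat.Agent.S45.NUE.H96_TI3CoreMod
import Fermat.Agent.S45.NUE.H79_TrivE

/-!
# S45 / NU_e, package E-FIN: `fin_localE` (helper96)

helper79's E-ABS (`H79.NUDataE`, `NUDataE.glued`, `NUDataE.trivRed`: B2_e + B3_e, exponent `1`)
plugged into the abstract core of TI3 (`H96.GlueCore`, `H96.ti3_of_trivRed'`).

* `coreE hP D` : the gluing core of a datum `D : NUDataE ..` (GLUE_e = `NUDataE.glued`);
* `isGen_iff_T`, `trivRed_iff_T` : `GlueCore.IsGen`, `GlueCore.TrivRed` are helper79's `IsGenT`,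
  `TrivRedT` (`Iff.rfl`);
* `PointDataAtT`, `PointDataT` : the local data of a chart for a bare `TotN` and `SS`
  (`Iff.rfl` with `H96.PointDataAt`, `H96.PointData`);
* `fin_localE` : **FIN-LOCAL for `e + 1` components** (mirror of `H65.fin_local'`, exponent `1`):
  a unit `h` for all the valuations with (HOR) in both charts whose norms along `α` and `β` are
  constants times `n`-th powers is an integral constant times an `n`-th power;
* `finModE_point` : the modular wrapper (`R = Rur A`, `F = L0 A N`, any level `N`):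
  `h * s ^ n` is a constant for some inertia-fixed `s ≠ 0`.
-/

set_option autoImplicit false
set_option synthInstance.maxHeartbeats 400000
set_option maxHeartbeats 1000000
set_option linter.style.haveILetI false
set_option linter.unusedSectionVars false

noncomputable section

open ModularCurve AlgebraicCurve IntermediateField

attribute [local instance] Classical.propDecidable

namespace Fermat.Agent.S45.NUE.H96

open Fermat.Agent.RED.H17 Fermat.Agent.RED Fermat.Agent.S36.NU.H16 Fermat.Agent.S36.NU.H79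
  Fermat.Agent.S36.NU.H65 Fermat.Agent.S36.NU.H17 Fermat.Agent.S36.NU.H24
  Fermat.Agent.S45.NUE.H79

section Abstract

variable {R F k ι Z K L : Type*} {κ : ι → Type*} [CommRing R] [Field F] [Algebra R F]
  [Field k] [∀ i, Field (κ i)] [∀ i, Algebra k (κ i)] [Fintype ι]
  [Field K] [Field L] [Algebra K L] [Algebra F L]
  {K' F' L' ι' Z' : Type*} {κ' : ι' → Type*} [Field K'] [Field F'] [Field L']
  [Algebra K' L'] [Algebra F' L'] [Fintype ι'] [∀ i, Field (κ' i)]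
  [∀ i, Algebra k (κ' i)]

theorem isGen_iff_T (G : GlueCore K F L k ι Z κ) (n : ℕ) (z : Z) (h s : F) :
    G.IsGen n z h s ↔ IsGenT G.T n z h s := Iff.rfl

theorem trivRed_iff_T (G : GlueCore K F L k ι Z κ) (n : ℕ) (H : F) :
    G.TrivRed n H ↔ TrivRedT G.T G.SS n H := Iff.rfl

/-- The local data at ONE closed point of the special fibre of the chart, for a bare `TotN`
and a set `SS` of multiple points (`= H96.PointDataAt` for a gluing core, `= H65.PointDataAt`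
for a `NUData`). -/
def PointDataAtT (C : Chart R F k ι κ) (T : TotN K F L k ι Z κ) (SS : Set Z) (q : R)
    (𝔪 : Ideal C.B) : Prop :=
  (∀ i, C.Icomp i ≤ 𝔪 → Nonempty (Branch C 𝔪 i)) ∧ Nonempty (LocEq C q 𝔪) ∧
    ((∃ i₀, ∀ i, C.Icomp i ≤ 𝔪 → i = i₀) ∨
      ∃ z ∈ SS, InChart C T z ∧
        ∃ i₀, ∀ β : C.B, β ∈ 𝔪 ↔ VanAt (T.pt i₀ z) (C.rdB i₀ β))

/-- The local data at all the closed points of the special fibre of the chart. -/
def PointDataT (C : Chart R F k ι κ) (T : TotN K F L k ι Z κ) (SS : Set Z) (q : R) : Prop :=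
  ∀ 𝔪 : Ideal C.B, 𝔪.IsMaximal → (∃ i, C.Icomp i ≤ 𝔪) → PointDataAtT C T SS q 𝔪

theorem pointDataAt_iff_T (C : Chart R F k ι κ) (G : GlueCore K F L k ι Z κ) (q : R)
    (𝔪 : Ideal C.B) : PointDataAt C G q 𝔪 ↔ PointDataAtT C G.T G.SS q 𝔪 := Iff.rfl

theorem pointData_iff_T (C : Chart R F k ι κ) (G : GlueCore K F L k ι Z κ) (q : R) :
    PointData C G q ↔ PointDataT C G.T G.SS q := Iff.rfl

/-- **The gluing core of a datum of the two levels** (GLUE_e of helper79). -/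
def coreE [Infinite k] (hP : HasPrincipalDivisors K L)
    (D : NUDataE K F L k ι Z κ K' F' L' ι' Z' κ') : GlueCore K F L k ι Z κ where
  T := D.T
  SS := D.SS
  glue := fun _ hz => D.glued hP hz
  deg_one := D.deg_one

@[simp] theorem coreE_T [Infinite k] (hP : HasPrincipalDivisors K L)
    (D : NUDataE K F L k ι Z κ K' F' L' ι' Z' κ') : (coreE hP D).T = D.T := rfl

@[simp] theorem coreE_SS [Infinite k] (hP : HasPrincipalDivisors K L)
    (D : NUDataE K F L k ι Z κ K' F' L' ι' Z' κ') : (coreE hP D).SS = D.SS := rfl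

/-- **FIN-LOCAL for `e + 1` components** (exponent `1`). -/
theorem fin_localE [IsAlgClosed k] [IsNoetherianRing R] [IsDomain R] [IsIntegrallyClosed R]
    (D : NUDataE K F L k ι Z κ K' F' L' ι' Z' κ') (hP : HasPrincipalDivisors K L)
    (Kf : Type*) [Field Kf] [Algebra R Kf] [IsFractionRing R Kf] [Algebra Kf F]
    [IsScalarTower R Kf F]
    (C0 Coo : Chart R F k ι κ) [IsNoetherianRing C0.B] [IsFractionRing C0.B F]
    [IsNoetherianRing Coo.B] [IsFractionRing Coo.B F]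
    (hc0 : Compat C0 D.T) (hcoo : Compat Coo D.T)
    (qn n : ℕ) (hC0 : ChartHyp C0 qn n) (hCoo : ChartHyp Coo qn n)
    (j : F) (hjt : Transcendental Kf j) (hB0 : C0.B = intSub R j) (hBoo : Coo.B = intSub R j⁻¹)
    (q : R) (hq0 : q ≠ 0) (hqu : ¬ IsUnit q) (n' : R) (hnn : (n : R) * n' = 1)
    (hpt0 : PointDataT C0 D.T D.SS q)
    (hptoo : ∀ 𝔪 : Ideal Coo.B, 𝔪.IsMaximal → (∃ i, Coo.Icomp i ≤ 𝔪) →
      (∀ β : Coo.B, (β : F) = j⁻¹ → β ∈ 𝔪) → PointDataAtT Coo D.T D.SS q 𝔪)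
    (hrad0 : ∀ β ∈ C0.B, (∀ i, C0.rd i β = 0) → IsRadQ C0.B q β)
    (hradoo : ∀ β ∈ Coo.B, (∀ i, Coo.rd i β = 0) → IsRadQ Coo.B q β)
    (hcop : Nat.Coprime D.d n) (hL : LowRoot D.T' n) (hk : ∀ i', RootClosed k (κ' i') n)
    (h : F) (h0 : h ≠ 0) (hu : ∀ i, D.T.rdN i h ≠ 0)
    (hHOR0 : HOR C0 q n h) (hHORoo : HOR Coo q n h)
    (hfg : (MInt R j⁻¹ h n hC0.n_pos).FG)
    {cα gα cβ gβ : F'} (hcα : IsConstT D.T' cα) (hcβ : IsConstT D.T' cβ)
    (hα : D.sα.Nm h = cα * gα ^ n) (hβ : D.sβ.Nm h = cβ * gβ ^ n) :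
    ∃ s : F, s ≠ 0 ∧ IsIntegral R (h * s ^ n) := by
  haveI : Infinite k := IsAlgClosed.instInfinite
  have htriv : (coreE hP D).TrivRed n h :=
    D.trivRed hP hC0.n_pos.ne' hcop hL hk hu hcα hcβ hα hβ
  exact ti3_of_trivRed' (coreE hP D) Kf C0 Coo hc0 hcoo hP qn n hC0 hCoo j hjt hB0 hBoo q hq0
    hqu n' hnn hpt0 hptoo hrad0 hradoo h h0 hu hHOR0 hHORoo hfg htriv

end Abstract

section Modular

open Fermat.Agent.S24 Fermat.Agent.BAD.H88 Fermat.Agent.S36.NU.H23 Fermat.Agent.S36.NU.H41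
  Fermat.Agent.S36.NU.H88 Fermat.Agent.S36.NU.H74

variable (A : ValuationSubring Kbar) (q N : ℕ) (hq : q.Prime) [NeZero N]
  {kk ι Z K L : Type*} {κ : ι → Type*} [Field kk] [∀ i, Field (κ i)]
  [∀ i, Algebra kk (κ i)] [Fintype ι] [Field K] [Field L] [Algebra K L]
  [Algebra ↥(L0 A N) L]
  {K' F' L' ι' Z' : Type*} {κ' : ι' → Type*} [Field K'] [Field F'] [Field L']
  [Algebra K' L'] [Algebra F' L'] [Fintype ι'] [∀ i, Field (κ' i)]
  [∀ i, Algebra kk (κ' i)]

include hq in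
/-- **FIN-LOCAL for `e + 1` components, modular wrapper**: at the level `N`, for ONE exponent
`n` prime to `q` and ONE function `h ≠ 0`, a unit for all the valuations of `D` with (HOR) in
both charts whose norms along `α` and `β` are constants times `n`-th powers: `h` is a constant
times an `n`-th power of an `I`-fixed function. -/
theorem finModE_point [IsAlgClosed kk] (hA : A.LiesOverPrime q)
    (D : NUDataE K ↥(L0 A N) L kk ι Z κ K' F' L' ι' Z' κ') (hP : HasPrincipalDivisors K L)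
    (C0 Coo : Chart ↥(Rur A) ↥(L0 A N) kk ι κ)
    (hc0 : Compat C0 D.T) (hcoo : Compat Coo D.T)
    (hB0 : C0.B = intSub ↥(Rur A) (j0 A N))
    (hBoo : Coo.B = intSub ↥(Rur A) (j0 A N)⁻¹)
    (qn n : ℕ) (hcopq : Nat.Coprime n q)
    (hchart0 : ChartHyp C0 qn n) (hchartoo : ChartHyp Coo qn n)
    (hpt0 : PointDataT C0 D.T D.SS ((q : ℕ) : ↥(Rur A)))
    (hptoo : ∀ 𝔪 : Ideal Coo.B, 𝔪.IsMaximal → (∃ i, Coo.Icomp i ≤ 𝔪) →
      (∀ β : Coo.B, (β : ↥(L0 A N)) = (j0 A N)⁻¹ → β ∈ 𝔪) →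
      PointDataAtT Coo D.T D.SS ((q : ℕ) : ↥(Rur A)) 𝔪)
    (hrad0 : ∀ β ∈ C0.B, (∀ i, C0.rd i β = 0) → IsRadQ C0.B ((q : ℕ) : ↥(Rur A)) β)
    (hradoo : ∀ β ∈ Coo.B, (∀ i, Coo.rd i β = 0) → IsRadQ Coo.B ((q : ℕ) : ↥(Rur A)) β)
    (hcop : Nat.Coprime D.d n) (hL : LowRoot D.T' n) (hk : ∀ i', RootClosed kk (κ' i') n)
    (h : ↥(L0 A N)) (h0 : h ≠ 0) (hu : ∀ i, D.T.rdN i h ≠ 0)
    (hHOR0 : HOR C0 ((q : ℕ) : ↥(Rur A)) n h) (hHORoo : HOR Coo ((q : ℕ) : ↥(Rur A)) n h)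
    {cα gα cβ gβ : F'} (hcα : IsConstT D.T' cα) (hcβ : IsConstT D.T' cβ)
    (hα : D.sα.Nm h = cα * gα ^ n) (hβ : D.sβ.Nm h = cβ * gβ ^ n) :
    ∃ (s : ↥(L0 A N)) (c : Kbar), s ≠ 0 ∧
      (h : FN N) * (s : FN N) ^ n = algebraMap Kbar (FN N) c := by
  haveI : Infinite kk := IsAlgClosed.instInfinite
  have htriv : (coreE hP D).TrivRed n h :=
    D.trivRed hP hchart0.n_pos.ne' hcop hL hk hu hcα hcβ hα hβ
  exact ti3Core_point A q N hq hA (coreE hP D) C0 Coo hc0 hcoo hP hB0 hBoo qn n hcopq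
    hchart0 hchartoo hpt0 hptoo hrad0 hradoo h h0 hu hHOR0 hHORoo htriv

end Modular

end Fermat.Agent.S45.NUE.H96
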