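import Fermat.Agent.S45.NUE.H88_CuspFinalE
import Fermat.Agent.S45.NUE.H73_CuspWE
import Fermat.Agent.S45.NUE.H82_CuspDivE
import Fermat.Agent.S45.NUE.H17_BranchE2
import Fermat.Agent.S45.NUE.H28_RadQEFinal
import Fermat.Agent.S45.NUE.H96_FinLocalE

/-!
# S45 / NU_e, package E-FIN (helper65): E-CUSP closed (`hptoo` of `LeavesE`, unconditional)

Level `N = M q^e`, `q ∤ M`, `e ≥ 1`, `T = totEM …`, `h : ChartInE A N T`, `C = chartInfE A N T h`.

* `stmt_EooE_div_totEM` : helper88's `Stmt_EooE_div` (helper82's `EooE_div`);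
* `stmt_CuspW_totEM` : helper88's `Stmt_CuspW` (helper73's `cuspWE`);
* `hbroo_totEM` : the branches at the cusps of the chart of `1 / j` (helper17's
  `branch_chartInfE`);
* `hptoo_totEM` : **`hptoo`**, in the form `PointDataAtT` of `H65.LeavesE`.
-/

set_option autoImplicit false
set_option synthInstance.maxHeartbeats 400000
set_option maxHeartbeats 1000000
set_option linter.style.haveILetI false
set_option linter.unusedSectionVars false
set_option linter.unusedVariables false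

noncomputable section

open ModularCurve AlgebraicCurve IntermediateField

namespace Fermat.Agent.S45.NUE.H65

open Fermat.Agent.S24 Fermat.Agent.BAD.H88 Fermat.Agent.S28 Fermat.Agent.S28.H73
  Fermat.Agent.S36.NU.H88 Fermat.Agent.S36.NU.H23
  Fermat.Agent.S36.NU.H16 Fermat.Agent.S36.NU.H24 Fermat.Agent.S36.NU.H65
  Fermat.Agent.S36.NU.H41 Fermat.Agent.S36.NU.H17 Fermat.Agent.S36.NU.H79
  Fermat.Agent.RED.H73 Fermat.Agent.RED.H17 Fermat.Agent.BAD
  Fermat.Agent.S36.NU.H74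
open Fermat.Agent.S45.NUE.H23 Fermat.Agent.S45.NUE.H74 Fermat.Agent.S45.NUE.H96

section Cusp

variable (A : ValuationSubring Kbar)
variable (N q M e : ℕ) (B k : ℤ) (hN : N = M * q ^ e) (hB : B * M + k * (q : ℤ) ^ e = 1)
  (hq : q.Prime) [NeZero N] [NeZero q] [NeZero M] (hqM : ¬ q ∣ M) (hA : A.LiesOverPrime q)
  (ht : H91.TameAt M q) (he : 0 < e)

attribute [local instance] algkE

include he in
/-- (DIV_e), closed. -/
theorem stmt_EooE_div_totEM :
    Fermat.Agent.S45.NUE.H88.Stmt_EooE_div A N q M e B k hN hB hq :=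
  fun a b ha hb hab =>
    Fermat.Agent.S45.NUE.H82.EooE_div A N q M e B k hN hB hq he a b ha hb hab

include hA in
/-- (CUSP-W_e), closed. -/
theorem stmt_CuspW_totEM :
    Fermat.Agent.S45.NUE.H88.Stmt_CuspW A N q M e B k hN hB hq := by
  intro a ha hae h1 h2 hu hE
  obtain ⟨hu', hE', hf, c, hc, hW⟩ :=
    Fermat.Agent.S45.NUE.H73.cuspWE A N q M e B k hN hB hq hA a ha hae h1 h2
  refine ⟨hf, 12, 1, 0, q ^ (a - 1), 6 * (q - 1), c, 1728, by norm_num,
    pow_pos hq.pos _, hc, ?_⟩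
  rw [pow_one, pow_zero, mul_one, Fermat.Agent.S45.NUE.H88.algebraMap_eq_C_laurentE,
    Fermat.Agent.S45.NUE.H88.algebraMap_eq_C_laurentE]
  exact hW

/-- **The branches at the cusps** of the chart of `1 / j` over the modular conservation datum. -/
theorem hbroo_totEM (h : ChartInE A N (totEM A N q M e B k hN hB hq hqM hA ht he)) :
    ∀ 𝔪 : Ideal (chartInfE A N (totEM A N q M e B k hN hB hq hqM hA ht he) h).B,
      𝔪.IsMaximal →
      (∀ β : (chartInfE A N (totEM A N q M e B k hN hB hq hqM hA ht he) h).B,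
        (β : ↥(L0 A N)) = (j0 A N)⁻¹ → β ∈ 𝔪) →
      ∀ i, (chartInfE A N (totEM A N q M e B k hN hB hq hqM hA ht he) h).Icomp i ≤ 𝔪 →
        Nonempty (Branch (chartInfE A N (totEM A N q M e B k hN hB hq hqM hA ht he) h) 𝔪 i) :=
  Fermat.Agent.S45.NUE.H17.branch_chartInfE A N q M e B k hN hB hq
    (chartInfE A N (totEM A N q M e B k hN hB hq hqM hA ht he) h)
    (fun i : Fin (e + 1) => (i : ℕ)) (fun _ => AlgHom.id (kV A) (FM A M))
    (fun i => Nat.lt_succ_iff.mp i.2) (fun _ => rfl) (fun _ _ _ _ => rfl) hqM hA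
    (inv_j0_mem_chartInfE A N _ h) (fun β => β.2)
    (fun f h1 h2 =>
      Fermat.Agent.S45.NUE.H28.critEM_chartInfE A N q M e B k hN hB hq hqM hA ht he h h1 h2)
    (Fermat.Agent.S45.NUE.H17.isIntegral_jE_Rur A N q M e B k hN hB hq
      (fun f h1 h2 =>
        Fermat.Agent.S45.NUE.H28.critEM_chart0E A N q M e B k hN hB hq hqM hA ht he h h1
          (fun i => h2 (i : ℕ) (Nat.lt_succ_iff.mp i.2))))

/-- **E-CUSP, closed: `hptoo` of `LeavesE`** for the modular conservation datum. -/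
theorem hptoo_totEM (h : ChartInE A N (totEM A N q M e B k hN hB hq hqM hA ht he))
    (SS : Set (Place (kV A) (FM A M))) :
    ∀ 𝔪 : Ideal (chartInfE A N (totEM A N q M e B k hN hB hq hqM hA ht he) h).B,
      𝔪.IsMaximal →
      (∃ i, (chartInfE A N (totEM A N q M e B k hN hB hq hqM hA ht he) h).Icomp i ≤ 𝔪) →
      (∀ β : (chartInfE A N (totEM A N q M e B k hN hB hq hqM hA ht he) h).B,
        (β : ↥(L0 A N)) = (j0 A N)⁻¹ → β ∈ 𝔪) →
      PointDataAtT (chartInfE A N (totEM A N q M e B k hN hB hq hqM hA ht he) h)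
        (totEM A N q M e B k hN hB hq hqM hA ht he) SS ((q : ℕ) : ↥(Rur A)) 𝔪 := by
  intro 𝔪 hm hi hβ
  have key := Fermat.Agent.S45.NUE.H88.hptooE_totEM A N q M e B k hN hB hq hqM hA ht he h
    (⟨totEM A N q M e B k hN hB hq hqM hA ht he, ∅, fun _ hz => hz.elim,
      fun _ hz => hz.elim⟩ :
      GlueCore Kbar ↥(L0 A N) (FN N) (kV A) (Fin (e + 1)) (Place (kV A) (FM A M))
        (kapE A M e))
    (stmt_EooE_div_totEM A N q M e B k hN hB hq he)
    (stmt_CuspW_totEM A N q M e B k hN hB hq hA)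
    (hbroo_totEM A N q M e B k hN hB hq hqM hA ht he h) 𝔪 hm hi hβ
  obtain ⟨h1, h2, h3⟩ := key
  refine ⟨h1, h2, h3.imp id ?_⟩
  rintro ⟨z, hz, -⟩
  exact hz.elim

end Cusp

end Fermat.Agent.S45.NUE.H65
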