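import Fermat.Agent.S45.NUE.H65_FinTopAll
import Fermat.Agent.S45.NUE.H65_PtooE
import Fermat.Agent.S45.NUE.H54_LeavesE

/-!
# S45 / NU_e, package E-FIN (helper65): the close of `Stmt_NUCoreETame`

* `Stmt_Pt0EAll` : E-PT (`hpt0`) at every tame level `N = M q^e` (GLUE and `deg = 1` at the
  supersingular points as hypotheses);
* `stmt_LeavesEAll_of` : `Stmt_LeavesEAll` from `Stmt_Pt0EAll` (E-CHART, E-RADQ, `hL`:
  helper54's `leavesE_of_pt`; E-CUSP: `hptoo_totEM`);
* `nuCoreETame_close` : **`Stmt_NUCoreETame`** from `Stmt_NuEAll` (ND_e) and `Stmt_Pt0EAll`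
  (E-PT).
-/

set_option autoImplicit false
set_option synthInstance.maxHeartbeats 400000
set_option maxHeartbeats 1000000
set_option linter.style.haveILetI false
set_option linter.unusedSectionVars false
set_option linter.unusedVariables false

noncomputable section

open ModularCurve AlgebraicCurve IntermediateField

namespace Fermat.Agent.S45.NUE.H65

open Fermat.Agent.S24 Fermat.Agent.BAD.H88 Fermat.Agent.S36.NU.H23 Fermat.Agent.S36.NU.H81
  Fermat.Agent.S45.NUE.H79 Fermat.Agent.S45.NUE.H23 Fermat.Agent.BAD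
  Fermat.Agent.S36.NU.H74 Fermat.Agent.S45.NUE.H96 Fermat.Agent.S36.NU.H79
  Fermat.Agent.S36.NU.H24 Fermat.Agent.S45.NUE.H74 Fermat.Agent.S36.NU.H16
  Fermat.Agent.S36.NU.H41 Fermat.Agent.S36.NU.H88 Fermat.Agent.S36.NU.H17
  Fermat.Agent.RED.H17 Fermat.Agent.RED

attribute [local instance] algkE

/-- **E-PT at every tame level** `N = M q^e`: the local data at the closed points of the chart
of `j` over the modular conservation datum, from GLUE and `deg = 1` at the supersingular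
points. -/
def Stmt_Pt0EAll : Prop :=
  ∀ (A : ValuationSubring Kbar) (N q M e : ℕ) (B k : ℤ) (hN : N = M * q ^ e)
    (hB : B * M + k * (q : ℤ) ^ e = 1) (hq : q.Prime) [NeZero N] [NeZero q] [NeZero M]
    (hqM : ¬ q ∣ M) (hA : A.LiesOverPrime q) (ht : H91.TameAt M q) (he : 0 < e),
    CasesE q M →
    ∀ h : ChartInE A N (totEM A N q M e B k hN hB hq hqM hA ht he),
    (∀ z ∈ ssM A q M, Glued (totEM A N q M e B k hN hB hq hqM hA ht he) z) →
    (∀ z ∈ ssM A q M, ∀ i, ((totEM A N q M e B k hN hB hq hqM hA ht he).pt i z).deg = 1) →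
    PointDataT (chart0E A N (totEM A N q M e B k hN hB hq hqM hA ht he) h)
      (totEM A N q M e B k hN hB hq hqM hA ht he) (ssM A q M) ((q : ℕ) : ↥(Rur A))

/-- **`Stmt_LeavesEAll`** from E-PT. -/
theorem stmt_LeavesEAll_of (hpt0 : Stmt_Pt0EAll) : Stmt_LeavesEAll := by
  intro A q M₁ M' el _ _ _ _ _ hq hNl hNu Bl kl hBl Bu ku hBu hqM hA ht hel hel2 hc
  exact Fermat.Agent.S45.NUE.H54.leavesE_of_pt A q M₁ M' el hq hNl hNu Bl kl hBl Bu ku hBu hqM
    hA ht hel
    (hpt0 A (M₁ * q * q) q M' (el + 1) Bu ku hNu hBu hq hqM hA ht (Nat.succ_pos el) hc _)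
    (hptoo_totEM A (M₁ * q * q) q M' (el + 1) Bu ku hNu hBu hq hqM hA ht (Nat.succ_pos el) _
      (ssM A q M'))

/-- **THE TARGET `Stmt_NUCoreETame`** from ND_e and E-PT. -/
theorem nuCoreETame_close (hNu : Stmt_NuEAll) (hpt0 : Stmt_Pt0EAll) : Stmt_NUCoreETame :=
  nuCoreETame_of_leaves hNu (stmt_LeavesEAll_of hpt0)

end Fermat.Agent.S45.NUE.H65
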