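import Fermat.Agent.S45.NUE.H31_AlphaBeta2
import Fermat.Agent.BAD.H82_FrGauss
import Fermat.Agent.S36.NU.H26_DivNormL0

/-!
# S45 / NU_e, package E-NORM, leaf N1 RESTR (helper31): `α`, `β` and the valuations `V_a`

Lower level `N = M q^e`, upper level `N q = M q^(e+1)`; `α = heckeAlphaBar Kbar N q`,
`β = heckeBetaBar Kbar N q`.  With `VF`, `VE`, `sE` of helper23 (`H23_ValE`):

* membership: `alpha_mem_VF_iff` (`α x ∈ V_a ↔ x ∈ V'_a`), `alpha_mem_VF_top_iff`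
  (`a = e + 1 ↦ e`), `alpha_mem_VF_min_iff`; `beta_mem_VF_iff` (`β x ∈ V_a ↔ x ∈ V'_(a-1)`,
  natural subtraction: `a = 0 ↦ 0`); the same on `L0` (`alphaL0_mem_VE_iff`, …);
* reductions (on the level of `gaussRedV`, hence for `redG` and `sE`):
  `red_alpha_le` (`2 a ≤ e`: `qExpand q`), `red_alpha_gt` (`e < 2 a`: identity), `red_alpha_top`,
  `red_beta_le` (`1 ≤ a`, `2 a ≤ e + 1`: identity), `red_beta_gt` (`e + 2 ≤ 2 a`: `qExpand q`),
  `red_beta_zero` (`a = 0`, `A` over `q`: identity); `sE_alpha_*`, `sE_beta_*` on `L0`.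
-/

set_option autoImplicit false
set_option synthInstance.maxHeartbeats 400000
set_option maxHeartbeats 1000000
set_option linter.unusedSectionVars false
set_option linter.unusedVariables false
set_option linter.style.haveILetI false

noncomputable section

namespace Fermat.Agent.S45.NUE.H31

open Fermat.Agent.S24 Fermat.Agent.BAD.H88 ModularCurve UpperHalfPlane
open Fermat.Agent.S28 Fermat.Agent.S28.H73 Fermat.Agent.RED.H73 Fermat.Agent.RED.H17
open Fermat.Agent.S36.NU.H88 Fermat.Agent.RED.H95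
open Fermat.Agent.S36.NU.H23
open Fermat.Agent.S45.NUE.H73 (gE gE_inv zE zE_pow nE algHom_eq_of_jdF dvdE_cases dvdE posE
  coprimeE zetaK_mul_pow zetaK_congr)
open Fermat.Agent.S45.NUE.H23
open scoped MatrixGroups Manifold

/-! ### Roots of unity of `q`-power order as units of `A` -/

section Root

variable (A : ValuationSubring Kbar)

omit A in
theorem root_ne_zero {w : Kbar} {n : ℕ} (hn : n ≠ 0) (hw : w ^ n = 1) : w ≠ 0 := fun h0 => by
  rw [h0, zero_pow hn] at hw; exact zero_ne_one hw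

/-- A root of unity as a unit of `A`. -/
def rootUnit (w : Kbar) (n : ℕ) (hn : n ≠ 0) (hw : w ^ n = 1) : (↥A)ˣ where
  val := ⟨w, Fermat.Agent.S28.H48.mem_of_pow_eq_one A hn hw⟩
  inv := ⟨w⁻¹, Fermat.Agent.S28.H48.mem_of_pow_eq_one A hn (by rw [inv_pow, hw, inv_one])⟩
  val_inv := Subtype.ext (mul_inv_cancel₀ (root_ne_zero hn hw))
  inv_val := Subtype.ext (inv_mul_cancel₀ (root_ne_zero hn hw))

theorem coe_rootUnit (w : Kbar) (n : ℕ) (hn : n ≠ 0) (hw : w ^ n = 1) :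
    (((rootUnit A w n hn hw : (↥A)ˣ) : ↥A) : Kbar) = w := rfl

theorem coe_rootUnit_inv (w : Kbar) (n : ℕ) (hn : n ≠ 0) (hw : w ^ n = 1) :
    ((((rootUnit A w n hn hw)⁻¹ : (↥A)ˣ) : ↥A) : Kbar) = w⁻¹ := rfl

/-- The twist by a root of unity preserves the Gauss ring, in both directions. -/
theorem twist_root_mem_iff (w : Kbar) (n : ℕ) (hn : n ≠ 0) (hw : w ^ n = 1)
    (x : LaurentSeries Kbar) : twist w x ∈ gaussRingV A ↔ x ∈ gaussRingV A := by
  have hw0 : w ≠ 0 := root_ne_zero hn hw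
  constructor
  · intro h
    have h1 := twist_mem_gaussRingV A (rootUnit A w n hn hw)⁻¹ h
    rw [coe_rootUnit_inv, twist_twist, inv_mul_cancel₀ hw0, twist_one_left] at h1
    exact h1
  · intro h
    exact twist_mem_gaussRingV A (rootUnit A w n hn hw) h

/-- Over `q` the residue of a root of unity of `q`-power order is `1`. -/
theorem resV_rootUnit (q : ℕ) (hq : q.Prime) (hA : (q : Kbar) ∈ A.nonunits) (w : Kbar) (m : ℕ)
    (hw : w ^ (q ^ m) = 1) :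
    resV A ((rootUnit A w (q ^ m) (pow_ne_zero _ hq.ne_zero) hw : (↥A)ˣ) : ↥A) = 1 := by
  haveI : CharP (kV A) q := Fermat.Agent.BAD.H82.charP_kV A hq hA
  haveI : Fact q.Prime := ⟨hq⟩
  have h1 : ((rootUnit A w (q ^ m) (pow_ne_zero _ hq.ne_zero) hw : (↥A)ˣ) : ↥A) ^ (q ^ m) = 1 := by
    apply Subtype.ext
    show w ^ (q ^ m) = 1
    exact hw
  have h2 : (resV A ((rootUnit A w (q ^ m) (pow_ne_zero _ hq.ne_zero) hw : (↥A)ˣ) : ↥A) - 1)
      ^ (q ^ m) = 0 := by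
    rw [sub_pow_char_pow, ← map_pow, h1, map_one, one_pow, sub_self]
  have h3 := pow_eq_zero_iff (pow_ne_zero m hq.ne_zero) |>.mp h2
  exact sub_eq_zero.mp h3

/-- Over `q`, the twist by a root of unity of `q`-power order does not change the reduction. -/
theorem gaussRedV_twist_root (q : ℕ) (hq : q.Prime) (hA : (q : Kbar) ∈ A.nonunits) (w : Kbar)
    (m : ℕ) (hw : w ^ (q ^ m) = 1) (x : LaurentSeries Kbar) (hx : x ∈ gaussRingV A)
    (hx' : twist w x ∈ gaussRingV A) :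
    gaussRedV A ⟨twist w x, hx'⟩ = gaussRedV A ⟨x, hx⟩ :=
  gaussRedV_twist_of_res_eq_one A (rootUnit A w (q ^ m) (pow_ne_zero _ hq.ne_zero) hw)
    (resV_rootUnit A q hq hA w m hw) ⟨x, hx⟩ hx'

end Root

section Restr

variable (A : ValuationSubring Kbar)
variable (N q M e : ℕ) (B k Bu ku : ℤ) (hN : N = M * q ^ e)
  (hB : B * M + k * (q : ℤ) ^ e = 1)
  (hNu : N * q = M * q ^ (e + 1)) (hBu : Bu * M + ku * (q : ℤ) ^ (e + 1) = 1)
  (hq : q.Prime) [NeZero N] [NeZero q]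

/-- `t ↦ t^n` reflects the Gauss ring on the image of `cE a`. -/
theorem qExpand_cE_mem_iff (a n : ℕ) [NeZero n] (x : FN N) :
    qExpand Kbar n (cE N q M e B k hN hB hq a x) ∈ gaussRingV A
      ↔ cE N q M e B k hN hB hq a x ∈ gaussRingV A := by
  constructor
  · intro h
    by_cases hx : x = 0
    · rw [hx, map_zero]; exact zero_mem _
    haveI := neZero_nE N q M e B k hN hB hq a
    have hmem : cE N q M e B k hN hB hq a x
        ∈ (cG (hE N q M e B k hN hB hq a)).fieldRange := ⟨x, rfl⟩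
    have hne : cE N q M e B k hN hB hq a x ≠ 0 := fun h0 =>
      hx (cE_injective N q M e B k hN hB hq a (by rw [h0, map_zero]))
    exact Fermat.Agent.BAD.H82.mem_gaussRingV_of_Fr_mem A n
      (hasScale_cG (hE N q M e B k hN hB hq a) A _ hmem hne) h
  · exact fun h => Fermat.Agent.BAD.H73.qExpand_mem_gaussRingV A n h

/-! ### `α` -/

/-- `α x ∈ V_a ↔ x ∈ V'_a` (every `a`). -/
theorem alpha_mem_VF_iff (a : ℕ) (x : FN N) :
    heckeAlphaBar Kbar N q x ∈ VF A (N * q) q M (e + 1) Bu ku hNu hBu hq a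
      ↔ x ∈ VF A N q M e B k hN hB hq a := by
  rw [mem_VF_iff, mem_VF_iff]
  rcases Nat.lt_or_ge e (2 * a) with h | h
  · rw [cE_alpha_gt N q M e B k Bu ku hN hB hNu hBu hq a h x]
  · rw [cE_alpha_le N q M e B k Bu ku hN hB hNu hBu hq a h x]
    exact qExpand_cE_mem_iff A N q M e B k hN hB hq a q x

/-- `α x ∈ V_(e+1) ↔ x ∈ V'_e` (the cusps `∞`). -/
theorem alpha_mem_VF_top_iff (x : FN N) :
    heckeAlphaBar Kbar N q x ∈ VF A (N * q) q M (e + 1) Bu ku hNu hBu hq (e + 1)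
      ↔ x ∈ VF A N q M e B k hN hB hq e := by
  rw [mem_VF_iff, mem_VF_iff, cE_alpha_top N q M e B k Bu ku hN hB hNu hBu hq x]

/-- `α x ∈ V_a ↔ x ∈ V'_(min a e)`, `a ≤ e + 1`. -/
theorem alpha_mem_VF_min_iff (a : ℕ) (ha : a ≤ e + 1) (x : FN N) :
    heckeAlphaBar Kbar N q x ∈ VF A (N * q) q M (e + 1) Bu ku hNu hBu hq a
      ↔ x ∈ VF A N q M e B k hN hB hq (min a e) := by
  rcases Nat.lt_or_ge e a with h | h
  · obtain rfl : a = e + 1 := by omega
    rw [show min (e + 1) e = e by omega]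
    exact alpha_mem_VF_top_iff A N q M e B k Bu ku hN hB hNu hBu hq x
  · rw [show min a e = a by omega]
    exact alpha_mem_VF_iff A N q M e B k Bu ku hN hB hNu hBu hq a x

/-- `2 a ≤ e`: `red_a (α x) = (red'_a x)(s^q)`. -/
theorem red_alpha_le (a : ℕ) (ha : 2 * a ≤ e) (x : FN N)
    (h : cE N q M e B k hN hB hq a x ∈ gaussRingV A)
    (h' : cE (N * q) q M (e + 1) Bu ku hNu hBu hq a (heckeAlphaBar Kbar N q x) ∈ gaussRingV A) :
    gaussRedV A ⟨_, h'⟩ = qExpand (kV A) q (gaussRedV A ⟨_, h⟩) := by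
  rw [← Fermat.Agent.BAD.H73.gaussRedV_qExpand A q h
    (Fermat.Agent.BAD.H73.qExpand_mem_gaussRingV A q h)]
  congr 1
  exact Subtype.ext (cE_alpha_le N q M e B k Bu ku hN hB hNu hBu hq a ha x)

/-- `e < 2 a`: `red_a (α x) = red'_a x`. -/
theorem red_alpha_gt (a : ℕ) (ha : e < 2 * a) (x : FN N)
    (h : cE N q M e B k hN hB hq a x ∈ gaussRingV A)
    (h' : cE (N * q) q M (e + 1) Bu ku hNu hBu hq a (heckeAlphaBar Kbar N q x) ∈ gaussRingV A) :
    gaussRedV A ⟨_, h'⟩ = gaussRedV A ⟨_, h⟩ := by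
  congr 1
  exact Subtype.ext (cE_alpha_gt N q M e B k Bu ku hN hB hNu hBu hq a ha x)

/-- `a = e + 1`: `red_(e+1) (α x) = red'_e x`. -/
theorem red_alpha_top (x : FN N)
    (h : cE N q M e B k hN hB hq e x ∈ gaussRingV A)
    (h' : cE (N * q) q M (e + 1) Bu ku hNu hBu hq (e + 1) (heckeAlphaBar Kbar N q x)
      ∈ gaussRingV A) :
    gaussRedV A ⟨_, h'⟩ = gaussRedV A ⟨_, h⟩ := by
  congr 1
  exact Subtype.ext (cE_alpha_top N q M e B k Bu ku hN hB hNu hBu hq x)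

/-! ### `β` -/

/-- `β x ∈ V_a ↔ x ∈ V'_(a-1)` (every `a`; `a = 0 ↦ 0`). -/
theorem beta_mem_VF_iff (a : ℕ) (x : FN N) :
    heckeBetaBar Kbar N q x ∈ VF A (N * q) q M (e + 1) Bu ku hNu hBu hq a
      ↔ x ∈ VF A N q M e B k hN hB hq (a - 1) := by
  rw [mem_VF_iff, mem_VF_iff]
  rcases Nat.eq_zero_or_pos a with h0 | h0
  · subst h0
    rw [cE_beta_zero N q M e B k Bu ku hN hB hNu hBu hq x]
    exact twist_root_mem_iff A _ (q ^ (e + 1)) (pow_ne_zero _ hq.ne_zero) (wBeta_pow q e B Bu) _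
  rcases Nat.lt_or_ge (e + 1) (2 * a) with h | h
  · rw [cE_beta_gt N q M e B k Bu ku hN hB hNu hBu hq a (by omega) x]
    exact qExpand_cE_mem_iff A N q M e B k hN hB hq (a - 1) q x
  · rw [cE_beta_le N q M e B k Bu ku hN hB hNu hBu hq a h0 h x]

/-- `1 ≤ a`, `2 a ≤ e + 1`: `red_a (β x) = red'_(a-1) x`. -/
theorem red_beta_le (a : ℕ) (ha1 : 1 ≤ a) (ha : 2 * a ≤ e + 1) (x : FN N)
    (h : cE N q M e B k hN hB hq (a - 1) x ∈ gaussRingV A)
    (h' : cE (N * q) q M (e + 1) Bu ku hNu hBu hq a (heckeBetaBar Kbar N q x) ∈ gaussRingV A) :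
    gaussRedV A ⟨_, h'⟩ = gaussRedV A ⟨_, h⟩ := by
  congr 1
  exact Subtype.ext (cE_beta_le N q M e B k Bu ku hN hB hNu hBu hq a ha1 ha x)

/-- `e + 2 ≤ 2 a`: `red_a (β x) = (red'_(a-1) x)(s^q)`. -/
theorem red_beta_gt (a : ℕ) (ha : e + 2 ≤ 2 * a) (x : FN N)
    (h : cE N q M e B k hN hB hq (a - 1) x ∈ gaussRingV A)
    (h' : cE (N * q) q M (e + 1) Bu ku hNu hBu hq a (heckeBetaBar Kbar N q x) ∈ gaussRingV A) :
    gaussRedV A ⟨_, h'⟩ = qExpand (kV A) q (gaussRedV A ⟨_, h⟩) := by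
  rw [← Fermat.Agent.BAD.H73.gaussRedV_qExpand A q h
    (Fermat.Agent.BAD.H73.qExpand_mem_gaussRingV A q h)]
  congr 1
  exact Subtype.ext (cE_beta_gt N q M e B k Bu ku hN hB hNu hBu hq a ha x)

/-- `a = 0`, `A` over `q`: `red_0 (β x) = red'_0 x`. -/
theorem red_beta_zero (hA : (q : Kbar) ∈ A.nonunits) (x : FN N)
    (h : cE N q M e B k hN hB hq 0 x ∈ gaussRingV A)
    (h' : cE (N * q) q M (e + 1) Bu ku hNu hBu hq 0 (heckeBetaBar Kbar N q x) ∈ gaussRingV A) :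
    gaussRedV A ⟨_, h'⟩ = gaussRedV A ⟨_, h⟩ := by
  have hm : twist (wBeta q e B Bu) (cE N q M e B k hN hB hq 0 x) ∈ gaussRingV A :=
    (twist_root_mem_iff A _ (q ^ (e + 1)) (pow_ne_zero _ hq.ne_zero) (wBeta_pow q e B Bu) _).2 h
  rw [← gaussRedV_twist_root A q hq hA (wBeta q e B Bu) (e + 1) (wBeta_pow q e B Bu) _ h hm]
  congr 1
  exact Subtype.ext (cE_beta_zero N q M e B k Bu ku hN hB hNu hBu hq x)

/-! ### On the inertia-fixed functions `L0` (the exact forms `hV`, `hcompat` of helper33's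
`norm_single_wild` / `norm_single_insep`) -/

open Fermat.Agent.S36.NU.H26 in
/-- `α` on the inertia-fixed functions. -/
def alphaL0 : ↥(L0 A N) →+* ↥(L0 A (N * q)) :=
  mapL0 A (heckeAlphaBar Kbar N q) (arithEquivariant_alpha N q)

open Fermat.Agent.S36.NU.H26 in
/-- `β` on the inertia-fixed functions. -/
def betaL0 : ↥(L0 A N) →+* ↥(L0 A (N * q)) :=
  mapL0 A (heckeBetaBar Kbar N q) (arithEquivariant_beta N q)

theorem coe_alphaL0 (x : ↥(L0 A N)) :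
    ((alphaL0 A N q x : ↥(L0 A (N * q))) : FN (N * q)) = heckeAlphaBar Kbar N q (x : FN N) := rfl

theorem coe_betaL0 (x : ↥(L0 A N)) :
    ((betaL0 A N q x : ↥(L0 A (N * q))) : FN (N * q)) = heckeBetaBar Kbar N q (x : FN N) := rfl

open Fermat.Agent.S36.NU.H26 in
theorem alphaL0_eq : alphaL0 A N q
    = mapL0 A (heckeAlphaBar Kbar N q) (arithEquivariant_alpha N q) := rfl

open Fermat.Agent.S36.NU.H26 in
theorem betaL0_eq : betaL0 A N q
    = mapL0 A (heckeBetaBar Kbar N q) (arithEquivariant_beta N q) := rfl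

/-- **hV along `α`**: `x ∈ V'_a ↔ α x ∈ V_a` (every `a`). -/
theorem hV_alpha (a : ℕ) (x : ↥(L0 A N)) :
    x ∈ VE A N q M e B k hN hB hq a
      ↔ alphaL0 A N q x ∈ VE A (N * q) q M (e + 1) Bu ku hNu hBu hq a :=
  (alpha_mem_VF_iff A N q M e B k Bu ku hN hB hNu hBu hq a (x : FN N)).symm

/-- **hV along `α`, top**: `x ∈ V'_e ↔ α x ∈ V_(e+1)`. -/
theorem hV_alpha_top (x : ↥(L0 A N)) :
    x ∈ VE A N q M e B k hN hB hq e
      ↔ alphaL0 A N q x ∈ VE A (N * q) q M (e + 1) Bu ku hNu hBu hq (e + 1) :=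
  (alpha_mem_VF_top_iff A N q M e B k Bu ku hN hB hNu hBu hq (x : FN N)).symm

/-- **hV along `α`**, with `min a e`, `a ≤ e + 1`. -/
theorem hV_alpha_min (a : ℕ) (ha : a ≤ e + 1) (x : ↥(L0 A N)) :
    x ∈ VE A N q M e B k hN hB hq (min a e)
      ↔ alphaL0 A N q x ∈ VE A (N * q) q M (e + 1) Bu ku hNu hBu hq a :=
  (alpha_mem_VF_min_iff A N q M e B k Bu ku hN hB hNu hBu hq a ha (x : FN N)).symm

/-- **hV along `β`**: `x ∈ V'_(a-1) ↔ β x ∈ V_a` (every `a`; `a = 0 ↦ 0`). -/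
theorem hV_beta (a : ℕ) (x : ↥(L0 A N)) :
    x ∈ VE A N q M e B k hN hB hq (a - 1)
      ↔ betaL0 A N q x ∈ VE A (N * q) q M (e + 1) Bu ku hNu hBu hq a :=
  (beta_mem_VF_iff A N q M e B k Bu ku hN hB hNu hBu hq a (x : FN N)).symm

/-- **hcompat along `α`, inseparable shape** (`2 a ≤ e`): `s_a (α x) = (s'_a x)(s^q)`. -/
theorem hcompat_alpha_le (a : ℕ) (ha : 2 * a ≤ e) (x : ↥(VE A N q M e B k hN hB hq a))
    (hx : alphaL0 A N q (x : ↥(L0 A N)) ∈ VE A (N * q) q M (e + 1) Bu ku hNu hBu hq a) :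
    sE A (N * q) q M (e + 1) Bu ku hNu hBu hq a ⟨_, hx⟩
      = qExpand (kV A) q (sE A N q M e B k hN hB hq a x) :=
  red_alpha_le A N q M e B k Bu ku hN hB hNu hBu hq a ha ((x : ↥(L0 A N)) : FN N) x.2 hx

/-- **hcompat along `α`, wild shape** (`e < 2 a`): `s_a (α x) = s'_a x`. -/
theorem hcompat_alpha_gt (a : ℕ) (ha : e < 2 * a) (x : ↥(VE A N q M e B k hN hB hq a))
    (hx : alphaL0 A N q (x : ↥(L0 A N)) ∈ VE A (N * q) q M (e + 1) Bu ku hNu hBu hq a) :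
    sE A (N * q) q M (e + 1) Bu ku hNu hBu hq a ⟨_, hx⟩
      = sE A N q M e B k hN hB hq a x :=
  red_alpha_gt A N q M e B k Bu ku hN hB hNu hBu hq a ha ((x : ↥(L0 A N)) : FN N) x.2 hx

/-- **hcompat along `α`, top** (`a = e + 1 ↦ e`): `s_(e+1) (α x) = s'_e x`. -/
theorem hcompat_alpha_top (x : ↥(VE A N q M e B k hN hB hq e))
    (hx : alphaL0 A N q (x : ↥(L0 A N)) ∈ VE A (N * q) q M (e + 1) Bu ku hNu hBu hq (e + 1)) :
    sE A (N * q) q M (e + 1) Bu ku hNu hBu hq (e + 1) ⟨_, hx⟩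
      = sE A N q M e B k hN hB hq e x :=
  red_alpha_top A N q M e B k Bu ku hN hB hNu hBu hq ((x : ↥(L0 A N)) : FN N) x.2 hx

/-- **hcompat along `β`, wild shape** (`1 ≤ a`, `2 a ≤ e + 1`): `s_a (β x) = s'_(a-1) x`. -/
theorem hcompat_beta_le (a : ℕ) (ha1 : 1 ≤ a) (ha : 2 * a ≤ e + 1)
    (x : ↥(VE A N q M e B k hN hB hq (a - 1)))
    (hx : betaL0 A N q (x : ↥(L0 A N)) ∈ VE A (N * q) q M (e + 1) Bu ku hNu hBu hq a) :
    sE A (N * q) q M (e + 1) Bu ku hNu hBu hq a ⟨_, hx⟩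
      = sE A N q M e B k hN hB hq (a - 1) x :=
  red_beta_le A N q M e B k Bu ku hN hB hNu hBu hq a ha1 ha ((x : ↥(L0 A N)) : FN N) x.2 hx

/-- **hcompat along `β`, inseparable shape** (`e + 2 ≤ 2 a`):
`s_a (β x) = (s'_(a-1) x)(s^q)`. -/
theorem hcompat_beta_gt (a : ℕ) (ha : e + 2 ≤ 2 * a)
    (x : ↥(VE A N q M e B k hN hB hq (a - 1)))
    (hx : betaL0 A N q (x : ↥(L0 A N)) ∈ VE A (N * q) q M (e + 1) Bu ku hNu hBu hq a) :
    sE A (N * q) q M (e + 1) Bu ku hNu hBu hq a ⟨_, hx⟩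
      = qExpand (kV A) q (sE A N q M e B k hN hB hq (a - 1) x) :=
  red_beta_gt A N q M e B k Bu ku hN hB hNu hBu hq a ha ((x : ↥(L0 A N)) : FN N) x.2 hx

/-- **hcompat along `β` at the cusp `0`** (`a = 0 ↦ 0`, `A` over `q`): `s_0 (β x) = s'_0 x`. -/
theorem hcompat_beta_zero (hA : (q : Kbar) ∈ A.nonunits)
    (x : ↥(VE A N q M e B k hN hB hq 0))
    (hx : betaL0 A N q (x : ↥(L0 A N)) ∈ VE A (N * q) q M (e + 1) Bu ku hNu hBu hq 0) :
    sE A (N * q) q M (e + 1) Bu ku hNu hBu hq 0 ⟨_, hx⟩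
      = sE A N q M e B k hN hB hq 0 x :=
  red_beta_zero A N q M e B k Bu ku hN hB hNu hBu hq hA ((x : ↥(L0 A N)) : FN N) x.2 hx

end Restr

end Fermat.Agent.S45.NUE.H31
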