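import Fermat.Agent.S45.NUE.H51_ValVecEFinal
import Fermat.Agent.S45.NUE.H23_TotE4
import Fermat.Agent.S45.NUE.H31_AlphaBeta3
import Fermat.Agent.BAD.H42_Three

/-!
# S45 / NU_e, package E-VV + leaf N4 FIBRES (helper51): the unconditional instances

Levels `M₁ q = M' q^e` (lower) and `M₁ q q = M' q^(e+1)` (upper), `q ∤ M'`.

* `threeE` : **THREE_e**, every valuation ring `≠ ⊤` of `L0 A N` (`N = M q^e`, `e > 0`) above the
  Gauss valuation of `L0 A M` is one of the `VE a`, `a ≤ e` (helper23's `nrEM` + helper42's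
  `NRData.eq_of_valuationSubring`);
* `coverInputs : CoverInputs …` (THREE, helper57's `not_le_VE`, helper31's `hV_alpha_min`,
  `hV_beta`);
* `fibre_alpha_mod`, `fibre_beta_mod`, `cover_mod` : **N4 FIBRES**, unconditional;
* `valVecE_mod : ValVecE A q (M₁ q) (IsUnitE …)` and `valVecE_mod_fin` (indexed by
  `Fin (e + 2)`): **VALVEC_e**, unconditional, `K = q`, for `2 ≤ e`.
-/

set_option autoImplicit false
set_option synthInstance.maxHeartbeats 400000
set_option maxHeartbeats 1000000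
set_option linter.unusedSectionVars false
set_option linter.unusedVariables false
set_option linter.style.haveILetI false

noncomputable section

namespace Fermat.Agent.S45.NUE.H51

open Fermat.Agent.S24 Fermat.Agent.BAD.H88 ModularCurve AlgebraicCurve
open Fermat.Agent.S36.NU.H88 Fermat.Agent.S45.NUE.H23 Fermat.Agent.S45.NUE.H17
open Fermat.Agent.BAD Fermat.Agent.BAD.H42

local notation "L0" => Fermat.Agent.S36.NU.H23.L0
local notation "VE0" => Fermat.Agent.S36.NU.H23.VE0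
local notation "inclL0" => Fermat.Agent.S36.NU.H23.inclL0

/-! ## THREE_e -/

section Three

variable (A : ValuationSubring Kbar)
variable (N q M e : ℕ) (B k : ℤ) (hN : N = M * q ^ e) (hB : B * M + k * (q : ℤ) ^ e = 1)
  (hq : q.Prime) [NeZero N] [NeZero q] [NeZero M] (hqM : ¬ q ∣ M) (hA : A.LiesOverPrime q)

include hqM hA in
/-- **THREE_e**: the `VE a`, `a ≤ e`, are the only valuation rings `≠ ⊤` of `L0 A (M q^e)` above
the Gauss valuation of `L0 A M`. -/
theorem threeE (he : 0 < e) :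
    ThreeAlong (inclL0 A (Fermat.Agent.S45.NUE.H23.hleE N q M e hN)) (VE0 A M)
      (fun a : Fin (e + 1) => VE A N q M e B k hN hB hq (a : ℕ)) := by
  intro W htop hW
  letI := Fermat.Agent.S36.NU.H23.algL0 A (Fermat.Agent.S45.NUE.H23.hleE N q M e hN)
  letI := algE A q M e hq hqM hA
  haveI : Module.Finite ↥(L0 A M) ↥(L0 A N) :=
    Fermat.Agent.S36.NU.H23.finite_L0 A (Fermat.Agent.S45.NUE.H23.hleE N q M e hN) (finite_FNE N M (Fermat.Agent.S45.NUE.H23.hleE N q M e hN))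
  haveI : ∀ i, Module.Finite (FM A M) (kapE A M e i) := fun i => finite_algE A q M e hq hqM hA i
  exact H42.NRData.eq_of_valuationSubring (nrEM A N q M e B k hN hB hq hqM hA he)
    (nrE_hdeg A N q M e B k hN hB hq hqM hA (inE_mod A N q M e B k hN hB hq hqM hA) he) W hW htop

end Three

/-! ## The inputs of N4 FIBRES and of E-VV -/

section Inst

variable (A : ValuationSubring Kbar) (q M₁ M' el : ℕ) [NeZero M₁] [NeZero q] [NeZero M']
  [NeZero (M₁ * q)] [NeZero (M₁ * q * q)] (hq : q.Prime)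
  (hNl : M₁ * q = M' * q ^ el) (hNu : M₁ * q * q = M' * q ^ (el + 1))
  (Bl kl : ℤ) (hBl : Bl * M' + kl * (q : ℤ) ^ el = 1)
  (Bu ku : ℤ) (hBu : Bu * M' + ku * (q : ℤ) ^ (el + 1) = 1)
  (hqM : ¬ q ∣ M') (hA : A.LiesOverPrime q)

include hqM hA in
/-- **The modular inputs of N4 FIBRES hold.** -/
theorem coverInputs : CoverInputs A q M₁ M' el hq hNl hNu Bl kl hBl Bu ku hBu where
  three := threeE A (M₁ * q * q) q M' (el + 1) Bu ku hNu hBu hq hqM hA (Nat.succ_pos el)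
  inc_low := fun a a' ha ha' h =>
    Fermat.Agent.S45.NUE.H57.not_le_VE A (M₁ * q) q M' el Bl kl hNl hBl hq hA a a' ha ha' h
  tabα := fun a ha y =>
    (Fermat.Agent.S45.NUE.H31.hV_alpha_min A (M₁ * q) q M' el Bl kl Bu ku hNl hBl hNu hBu hq
      a ha y).symm
  tabβ := fun a _ y =>
    (Fermat.Agent.S45.NUE.H31.hV_beta A (M₁ * q) q M' el Bl kl Bu ku hNl hBl hNu hBu hq
      a y).symm

include hqM hA in
/-- **N4 FIBRES along `α`**: a valuation ring `W ≠ ⊤` of the upper level above `VEl a'` along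
`α` is `VEu a` with `min a e = a'`. -/
theorem fibre_alpha_mod (a' : ℕ) (ha' : a' ≤ el)
    (W : ValuationSubring ↥(L0 A (M₁ * q * q))) (hW : W ≠ ⊤)
    (hα : ∀ y ∈ VEl A q M₁ M' el hq hNl Bl kl hBl a', αo A q M₁ y ∈ W) :
    ∃ a : ℕ, a ≤ el + 1 ∧ W = VEu A q M₁ M' el hq hNu Bu ku hBu a ∧ min a el = a' :=
  (coverInputs A q M₁ M' el hq hNl hNu Bl kl hBl Bu ku hBu hqM hA).fibre_alpha a' ha' W hW hα

include hqM hA in
/-- **N4 FIBRES along `β`**: a valuation ring `W ≠ ⊤` of the upper level above `VEl a'` along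
`β` is `VEu a` with `a - 1 = a'`. -/
theorem fibre_beta_mod (a' : ℕ) (ha' : a' ≤ el)
    (W : ValuationSubring ↥(L0 A (M₁ * q * q))) (hW : W ≠ ⊤)
    (hβ : ∀ y ∈ VEl A q M₁ M' el hq hNl Bl kl hBl a', βo A q M₁ y ∈ W) :
    ∃ a : ℕ, a ≤ el + 1 ∧ W = VEu A q M₁ M' el hq hNu Bu ku hBu a ∧ a - 1 = a' :=
  (coverInputs A q M₁ M' el hq hNl hNu Bl kl hBl Bu ku hBu hqM hA).fibre_beta a' ha' W hW hβ

include hNl Bl kl hBl hqM hA in
/-- **The cover**, unconditional (`2 ≤ e`). -/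
theorem cover_mod (hel : 2 ≤ el) (a : Fin (el + 2)) :
    UniqAlong (αo A q M₁) (VEu A q M₁ M' el hq hNu Bu ku hBu (a : ℕ))
      ∨ UniqAlong (βo A q M₁) (VEu A q M₁ M' el hq hNu Bu ku hBu (a : ℕ)) :=
  (coverInputs A q M₁ M' el hq hNl hNu Bl kl hBl Bu ku hBu hqM hA).cover hel a

include hNl Bl kl hBl hqM hA in
/-- **VALVEC_e**, unconditional, `K = q`. -/
theorem valVecE_mod (hel : 2 ≤ el) :
    ValVecE A q (M₁ * q) (IsUnitE A q M₁ M' el hq hNu Bu ku hBu) :=
  valVecE_final A q M₁ M' el hq hNl hNu Bl kl hBl Bu ku hBu hA hel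
    (coverInputs A q M₁ M' el hq hNl hNu Bl kl hBl Bu ku hBu hqM hA)
    (fun a _ => Fermat.Agent.S45.NUE.H60.isArch_VE A (M₁ * q * q) q M' (el + 1) Bu ku hNu hBu hq
      hA a)
    (fun a a' ha ha' h => Fermat.Agent.S45.NUE.H57.not_le_VE A (M₁ * q * q) q M' (el + 1) Bu ku
      hNu hBu hq hA a a' ha ha' h)

include hNl Bl kl hBl hqM hA in
/-- **VALVEC_e**, unconditional, for the predicate indexed by `Fin (e + 2)`. -/
theorem valVecE_mod_fin (hel : 2 ≤ el) :
    ValVecE A q (M₁ * q)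
      (fun x => ∀ a : Fin (el + 2), x ∈ VEu A q M₁ M' el hq hNu Bu ku hBu (a : ℕ)
        ∧ x⁻¹ ∈ VEu A q M₁ M' el hq hNu Bu ku hBu (a : ℕ)) :=
  Fermat.Agent.S45.NUE.H26.valVecE_mono A q (M₁ * q) _ _
    (fun x hx a => hx (a : ℕ) (Nat.lt_succ_iff.1 a.2))
    (valVecE_mod A q M₁ M' el hq hNl hNu Bl kl hBl Bu ku hBu hqM hA hel)

end Inst

end Fermat.Agent.S45.NUE.H51
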