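import Fermat.Agent.S45.NUE.H65_FinTopE
import Fermat.Agent.S45.NUE.H51_CoverInst
import Fermat.Agent.S36.NU.H10_Tame
import Fermat.Agent.Lib.FrobExists

/-!
# S45 / NU_e, package E-FIN (helper65): `Stmt_FinTopE` from the modular datum and the leaves

* `Stmt_NuEAll` : a modular instance of `NUDataE` at every tame two-level setting (ND_e);
* `Stmt_LeavesEAll` : the modular leaves of E-FIN at every tame two-level setting;
* `tameNU_base`, `casesE_of_tameNU`, `tameAtE_of_tameNU` : the tameness of `M'` from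
  `TameNU (lvlE M' q e) q`;
* `stmt_FinTopE_of` : **`∀ q M' e, Stmt_FinTopE q M' e`** from the two statements (VALVEC_e is
  helper51's `valVecE_mod`), hence (`nuCoreETame_of`) `Stmt_NUCoreETame`.
-/

set_option autoImplicit false
set_option synthInstance.maxHeartbeats 400000
set_option maxHeartbeats 1000000
set_option linter.style.haveILetI false
set_option linter.unusedSectionVars false

noncomputable section

open ModularCurve AlgebraicCurve IntermediateField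

namespace Fermat.Agent.S45.NUE.H65

open Fermat.Agent.S24 Fermat.Agent.BAD.H88 Fermat.Agent.S36.NU.H23 Fermat.Agent.S36.NU.H81
  Fermat.Agent.S45.NUE.H79 Fermat.Agent.S45.NUE.H23 Fermat.Agent.BAD

attribute [local instance] algkE

/-- The tame cases of the level `M'` prime to `q`. -/
def CasesE (q M' : ℕ) : Prop := (5 ≤ q ∧ 4 ∣ M') ∨ (q = 3 ∧ 4 ∣ M') ∨ (q = 2 ∧ 9 ∣ M')

/-- A modular instance of `NUDataE` at every tame two-level setting. -/
def Stmt_NuEAll : Prop :=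
  ∀ (A : ValuationSubring Kbar) (q M₁ M' el : ℕ) [NeZero M₁] [NeZero q] [NeZero M']
    [NeZero (M₁ * q)] [NeZero (M₁ * q * q)] (hq : q.Prime)
    (hNl : M₁ * q = M' * q ^ el) (hNu : M₁ * q * q = M' * q ^ (el + 1))
    (Bl kl : ℤ) (hBl : Bl * M' + kl * (q : ℤ) ^ el = 1)
    (Bu ku : ℤ) (hBu : Bu * M' + ku * (q : ℤ) ^ (el + 1) = 1)
    (hqM : ¬ q ∣ M') (hA : A.LiesOverPrime q) (ht : H91.TameAt M' q) (hel : 0 < el),
    2 ≤ el → CasesE q M' →
    ∃ D : NUDataEM A q M₁ M' el,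
      IsNuE A q M₁ M' el hq hNl hNu Bl kl hBl Bu ku hBu hqM hA ht hel D

/-- The modular leaves of E-FIN at every tame two-level setting. -/
def Stmt_LeavesEAll : Prop :=
  ∀ (A : ValuationSubring Kbar) (q M₁ M' el : ℕ) [NeZero M₁] [NeZero q] [NeZero M']
    [NeZero (M₁ * q)] [NeZero (M₁ * q * q)] (hq : q.Prime)
    (hNl : M₁ * q = M' * q ^ el) (hNu : M₁ * q * q = M' * q ^ (el + 1))
    (Bl kl : ℤ) (hBl : Bl * M' + kl * (q : ℤ) ^ el = 1)
    (Bu ku : ℤ) (hBu : Bu * M' + ku * (q : ℤ) ^ (el + 1) = 1)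
    (hqM : ¬ q ∣ M') (hA : A.LiesOverPrime q) (ht : H91.TameAt M' q) (hel : 0 < el),
    2 ≤ el → CasesE q M' →
    LeavesE A q M₁ M' el hq hNl hNu Bl kl hBl Bu ku hBu hqM hA ht hel

/-! ### Tameness -/

/-- `TameNU` of the level `M' q^e`, `e ≥ 1`, `q ∤ M'`, gives `TameNU` of the level `M' q`. -/
theorem tameNU_base {q M' e : ℕ} (hq : q.Prime) (ht : TameNU (lvlE M' q e) q) :
    TameNU (M' * q) q := by
  rw [lvlE_eq] at ht
  rcases ht with ⟨h2, h4⟩ | ⟨h2, h9⟩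
  · refine Or.inl ⟨h2, ?_⟩
    have h2q : Nat.Coprime 2 q := (Nat.coprime_primes Nat.prime_two hq).2 (fun h => h2 h.symm)
    have hc : Nat.Coprime (2 ^ 2) (q ^ e) := Nat.Coprime.pow 2 e h2q
    have h4' : 4 ∣ M' := by
      have : (2 ^ 2 : ℕ) ∣ M' := hc.dvd_of_dvd_mul_right (by simpa using h4)
      simpa using this
    exact Dvd.dvd.mul_right h4' q
  · refine Or.inr ⟨h2, ?_⟩
    subst h2
    have hc : Nat.Coprime (3 ^ 2) (2 ^ e) := Nat.Coprime.pow 2 e (by decide)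
    have h9' : 9 ∣ M' := by
      have : (3 ^ 2 : ℕ) ∣ M' := hc.dvd_of_dvd_mul_right (by simpa using h9)
      simpa using this
    exact Dvd.dvd.mul_right h9' 2

theorem casesE_of_tameNU {q M' e : ℕ} (hq : q.Prime) (ht : TameNU (lvlE M' q e) q) :
    CasesE q M' :=
  Fermat.Agent.S36.NU.H10.cases_of_tameNU hq (tameNU_base hq ht)

theorem tameAtE_of_tameNU {q M' e : ℕ} (hq : q.Prime) (ht : TameNU (lvlE M' q e) q) :
    H91.TameAt M' q :=
  Fermat.Agent.S36.NU.H10.tameAt_of_tameNU hq (tameNU_base hq ht)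

/-- Bézout for `M'` and `q ^ n`. -/
theorem exists_bezoutE {q M' : ℕ} (hq : q.Prime) (hqM : ¬ q ∣ M') (n : ℕ) :
    ∃ B k : ℤ, B * M' + k * (q : ℤ) ^ n = 1 := by
  have h1 : Nat.Coprime M' q := ((Nat.Prime.coprime_iff_not_dvd hq).2 hqM).symm
  have h2 : IsCoprime (M' : ℤ) (q : ℤ) := Nat.isCoprime_iff_coprime.2 h1
  exact h2.pow_right

/-! ### The assembly -/

/-- **`Stmt_FinTopE q M' e`** from the modular datum and the modular leaves. -/
theorem stmt_FinTopE_of (hNuAll : Stmt_NuEAll) (hLv : Stmt_LeavesEAll) (q M' e : ℕ) [NeZero M']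
    [NeZero q] : Stmt_FinTopE q M' e := by
  intro hq hqM he ht
  obtain ⟨el', rfl⟩ : ∃ el', e = el' + 1 := ⟨e - 1, by omega⟩
  obtain ⟨A, hA⟩ := Fermat.Agent.Lib.FrobExists.exists_liesOverPrime q hq
  have hc : CasesE q M' := casesE_of_tameNU hq ht
  have htA : H91.TameAt M' q := tameAtE_of_tameNU hq ht
  haveI : NeZero (lvlE M' q el' * q) := ⟨Nat.mul_ne_zero (NeZero.ne _) hq.ne_zero⟩
  haveI : NeZero (lvlE M' q el' * q * q) := ⟨Nat.mul_ne_zero (NeZero.ne _) hq.ne_zero⟩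
  have hNl : lvlE M' q el' * q = M' * q ^ (el' + 1) := by
    rw [← lvlE_succ, lvlE_eq]
  have hNu : lvlE M' q el' * q * q = M' * q ^ (el' + 1 + 1) := by
    rw [← lvlE_succ, ← lvlE_succ, lvlE_eq]
  obtain ⟨Bl, kl, hBl⟩ := exists_bezoutE hq hqM (el' + 1)
  obtain ⟨Bu, ku, hBu⟩ := exists_bezoutE hq hqM (el' + 1 + 1)
  have hel : 0 < el' + 1 := Nat.succ_pos _
  obtain ⟨D, hD⟩ := hNuAll A q (lvlE M' q el') M' (el' + 1) hq hNl hNu Bl kl hBl Bu ku hBu hqM hA
    htA hel he hc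
  have hL := hLv A q (lvlE M' q el') M' (el' + 1) hq hNl hNu Bl kl hBl Bu ku hBu hqM hA
    htA hel he hc
  exact ⟨A, Fermat.Agent.S45.NUE.H51.IsUnitE A q (lvlE M' q el') M' (el' + 1) hq hNu Bu ku hBu,
    hA,
    finModE_mod A q (lvlE M' q el') M' (el' + 1) hq hNl hNu Bl kl hBl Bu ku hBu hqM hA htA hel
      D hD hL,
    Fermat.Agent.S45.NUE.H51.valVecE_mod A q (lvlE M' q el') M' (el' + 1) hq hNl hNu Bl kl hBl
      Bu ku hBu hqM hA he⟩

/-- **THE TARGET `Stmt_NUCoreETame`** from the modular datum and the modular leaves. -/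
theorem nuCoreETame_of_leaves (hNu : Stmt_NuEAll) (hLv : Stmt_LeavesEAll) : Stmt_NUCoreETame :=
  nuCoreETame_of (fun q M' e _ _ => stmt_FinTopE_of hNu hLv q M' e)

end Fermat.Agent.S45.NUE.H65
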