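import Fermat.Agent.S45.NUE.H96_TI3Core
import Fermat.Agent.S36.NU.H99_PtAsm

/-!
# S45 / NU_e, package E-FIN, leaf E-PT-ASM (helper88)

Port of `S36.NU.H99.pointDataAt_of_dichotomy` / `pointData_of_dichotomy` (helper99) from
`H65.PointDataAt` (three components, `NUData`) to `H96.PointDataAt` / `H96.PointData`
(ANY `Fintype ι`, `GlueCore`).

* `pointDataAtE_of_dichotomy` : **the local data at a closed point `𝔪`** (`H96.PointDataAt`) from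
  - a branch through `𝔪` on every component through `𝔪`,
  - witnesses `wit i ∈ B`: if `wit i ∉ 𝔪 ⊇ Icomp i` then `𝔪` has a local equation datum and `i`
    is the only component through `𝔪` (the ordinary points),
  - the zeros of `rd i (wit i)` on the component `i` are the points `pt i z`, `z ∈ SS`,
  - a local equation datum at the points `𝔪_z`, `z ∈ SS`, described on ONE reference component
    `i₀` (LOCEQ-SS);
* `pointDataE_of_dichotomy` : the same at all closed points of the special fibre of the chart.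
* `pointDataAtE_of_ss` / `pointDataAtE_of_ord` : the two branches of the dichotomy separately.
-/

set_option autoImplicit false
set_option linter.style.haveILetI false

noncomputable section

open AlgebraicCurve

namespace Fermat.Agent.S45.NUE.H88

open Fermat.Agent.RED.H17 Fermat.Agent.RED Fermat.Agent.S36.NU.H16 Fermat.Agent.S36.NU.H79
  Fermat.Agent.S36.NU.H24 Fermat.Agent.S36.NU.H65 Fermat.Agent.S36.NU.H17
  Fermat.Agent.S36.NU.H99 Fermat.Agent.S45.NUE.H96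

section Asm

variable {R F k ι Z K L : Type*} {κ : ι → Type*} [CommRing R] [Field F] [Algebra R F]
  [Field k] [∀ i, Field (κ i)] [∀ i, Algebra k (κ i)] [Fintype ι]
  [Field K] [Field L] [Algebra K L] [Algebra F L]

/-- **The local data at an ordinary point**: `wit i ∉ 𝔪 ⊇ Icomp i`. -/
theorem pointDataAtE_of_ord (C : Chart R F k ι κ) (G : GlueCore K F L k ι Z κ) (q : R)
    (𝔪 : Ideal C.B)
    (hbr : ∀ i, C.Icomp i ≤ 𝔪 → Nonempty (Branch C 𝔪 i))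
    (i : ι) (hL : Nonempty (LocEq C q 𝔪)) (h1 : ∀ i', C.Icomp i' ≤ 𝔪 → i' = i) :
    H96.PointDataAt C G q 𝔪 :=
  ⟨hbr, hL, Or.inl ⟨i, h1⟩⟩

/-- **The local data at a multiple point** `𝔪 = 𝔪_z`, `z ∈ SS`, seen on the component `i`. -/
theorem pointDataAtE_of_ss [Infinite k] (C : Chart R F k ι κ)
    (G : GlueCore K F L k ι Z κ) (q : R)
    (hc : Compat C G.T) (hP : HasPrincipalDivisors K L) (i₀ : ι)
    (hss : ∀ z ∈ G.SS, ∀ 𝔪 : Ideal C.B, 𝔪.IsMaximal →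
      (∀ β : C.B, β ∈ 𝔪 ↔ VanAt (G.T.pt i₀ z) (C.rdB i₀ β)) → Nonempty (LocEq C q 𝔪))
    (𝔪 : Ideal C.B) (hmax : 𝔪.IsMaximal)
    (hbr : ∀ i, C.Icomp i ≤ 𝔪 → Nonempty (Branch C 𝔪 i))
    (z : Z) (hzSS : z ∈ G.SS) (hIn : InChart C G.T z) (i : ι)
    (hvan : ∀ β : C.B, β ∈ 𝔪 ↔ VanAt (G.T.pt i z) (C.rdB i β)) :
    H96.PointDataAt C G q 𝔪 := by
  have hg : Glued G.T z := G.glue z hzSS
  have h0 : ∀ β : C.B, β ∈ 𝔪 ↔ VanAt (G.T.pt i₀ z) (C.rdB i₀ β) := by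
    intro β
    rw [hvan, ← mem_ptMax hc hP hIn i]
    exact mem_ptMax_iff hc hP hIn hg i i₀ β
  exact ⟨hbr, hss z hzSS 𝔪 hmax h0, Or.inr ⟨z, hzSS, hIn, i, hvan⟩⟩

/-- **The local data at a closed point**, from the dichotomy ordinary / multiple point. -/
theorem pointDataAtE_of_dichotomy [Infinite k] (C : Chart R F k ι κ) [IsNoetherianRing C.B]
    (G : GlueCore K F L k ι Z κ) (q : R)
    (hc : Compat C G.T) (hP : HasPrincipalDivisors K L)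
    (hSS0 : ∀ z ∈ G.SS, InChart C G.T z)
    (wit : ι → C.B)
    (hnc : ∀ i, ∃ β : C.B, ∀ c : k, C.rdB i β ≠ algebraMap k (κ i) c)
    (hsurj : ∀ (i : ι) (v : Place k (κ i)), (∀ β : C.B, RegAt v (C.rdB i β)) →
      ∃ z, G.T.pt i z = v)
    (hSSchar : ∀ (i : ι) (z : Z), (∀ β : C.B, RegAt (G.T.pt i z) (C.rdB i β)) →
      VanAt (G.T.pt i z) (C.rdB i (wit i)) → z ∈ G.SS)
    (i₀ : ι)
    (hss : ∀ z ∈ G.SS, ∀ 𝔪 : Ideal C.B, 𝔪.IsMaximal →
      (∀ β : C.B, β ∈ 𝔪 ↔ VanAt (G.T.pt i₀ z) (C.rdB i₀ β)) → Nonempty (LocEq C q 𝔪))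
    (𝔪 : Ideal C.B) (hmax : 𝔪.IsMaximal)
    (hbr : ∀ i, C.Icomp i ≤ 𝔪 → Nonempty (Branch C 𝔪 i))
    (hord : ∀ i, C.Icomp i ≤ 𝔪 → wit i ∉ 𝔪 →
      Nonempty (LocEq C q 𝔪) ∧ ∀ i', C.Icomp i' ≤ 𝔪 → i' = i)
    (hex : ∃ i, C.Icomp i ≤ 𝔪) : H96.PointDataAt C G q 𝔪 := by
  haveI : 𝔪.IsPrime := hmax.isPrime
  obtain ⟨i, hi⟩ := hex
  by_cases hw : wit i ∈ 𝔪
  · obtain ⟨b⟩ := hbr i hi
    obtain ⟨β₀, hβ₀⟩ := hnc i
    have hne : b.O ≠ ⊤ := branch_ne_top b β₀ hβ₀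
    obtain ⟨z, hz⟩ := hsurj i (branchPlace b hne) (regAt_branchPlace b hne)
    have hreg : ∀ β : C.B, RegAt (G.T.pt i z) (C.rdB i β) := by
      rw [hz]
      exact regAt_branchPlace b hne
    have hvan : ∀ β : C.B, β ∈ 𝔪 ↔ VanAt (G.T.pt i z) (C.rdB i β) := by
      intro β
      rw [hz]
      exact (vanAt_branchPlace_iff b hne β).symm
    have hzSS : z ∈ G.SS := hSSchar i z hreg ((hvan _).1 hw)
    exact pointDataAtE_of_ss C G q hc hP i₀ hss 𝔪 hmax hbr z hzSS (hSS0 z hzSS) i hvan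
  · obtain ⟨hL, h1⟩ := hord i hi hw
    exact pointDataAtE_of_ord C G q 𝔪 hbr i hL h1

/-- **The local data at all closed points of the special fibre of a chart.** -/
theorem pointDataE_of_dichotomy [Infinite k] (C : Chart R F k ι κ) [IsNoetherianRing C.B]
    (G : GlueCore K F L k ι Z κ) (q : R)
    (hc : Compat C G.T) (hP : HasPrincipalDivisors K L)
    (hSS0 : ∀ z ∈ G.SS, InChart C G.T z)
    (wit : ι → C.B)
    (hnc : ∀ i, ∃ β : C.B, ∀ c : k, C.rdB i β ≠ algebraMap k (κ i) c)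
    (hsurj : ∀ (i : ι) (v : Place k (κ i)), (∀ β : C.B, RegAt v (C.rdB i β)) →
      ∃ z, G.T.pt i z = v)
    (hSSchar : ∀ (i : ι) (z : Z), (∀ β : C.B, RegAt (G.T.pt i z) (C.rdB i β)) →
      VanAt (G.T.pt i z) (C.rdB i (wit i)) → z ∈ G.SS)
    (i₀ : ι)
    (hss : ∀ z ∈ G.SS, ∀ 𝔪 : Ideal C.B, 𝔪.IsMaximal →
      (∀ β : C.B, β ∈ 𝔪 ↔ VanAt (G.T.pt i₀ z) (C.rdB i₀ β)) → Nonempty (LocEq C q 𝔪))
    (hbr : ∀ 𝔪 : Ideal C.B, 𝔪.IsMaximal → ∀ i, C.Icomp i ≤ 𝔪 → Nonempty (Branch C 𝔪 i))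
    (hord : ∀ 𝔪 : Ideal C.B, 𝔪.IsMaximal → ∀ i, C.Icomp i ≤ 𝔪 → wit i ∉ 𝔪 →
      Nonempty (LocEq C q 𝔪) ∧ ∀ i', C.Icomp i' ≤ 𝔪 → i' = i) :
    H96.PointData C G q := fun 𝔪 hmax hex =>
  pointDataAtE_of_dichotomy C G q hc hP hSS0 wit hnc hsurj hSSchar i₀ hss 𝔪 hmax (hbr 𝔪 hmax)
    (hord 𝔪 hmax) hex

end Asm

end Fermat.Agent.S45.NUE.H88
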