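import Fermat.Agent.S45.NUE.H82_EwE
import Fermat.Agent.S45.NUE.H73_Unif
import Fermat.Agent.S36.NU.H73_GuUnit
import Fermat.Agent.S36.NU.H65_Ord11Q23

/-!
# S45 / NU_e, package E-FIN, leaf E-PT-ORD, cut ORD-SER (helper26)

The characteristic-`q` series algebra of the certificate of helper99, in `k((t))`, `k` a field of
characteristic `q` (for `k = kV A`: `serJ1` … `serJ4`).  `1 ≤ a < e`, `m = min a (e - a)`,
`δ = dE e a = |e - 2 a|`, `φ = φ(q^m)`, `D = Δ~`, `Dδ = D(t^(q^δ))`,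
`H1 = HU(t^(q^(max a (e - a) - 1)))`, `HU = (D^(q-1))⁻¹`, `T(u) = (θ u)(t^(q^δ))`.

* **(J1)** `qExpand (q ^ j) D = D ^ (q ^ j)`;
* **(J2)** `H1 * Dδ ^ φ = 1`;
* **(J3)** `(H1² (ε T(ū₄)^φ))¹² = ε¹² 3^(12 φ) (H1²)¹¹ ((v̄⁶ v̄₂¹⁶)(t^(q^δ)))^φ`;
* **(J4)** `q = 2, 3`: `(H1² (ε T(j̄)^φ))² = ε² (H1²)³`.
-/

set_option autoImplicit false
set_option linter.style.haveILetI false
set_option linter.unusedSectionVars false
set_option linter.unusedVariables false
set_option synthInstance.maxHeartbeats 400000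
set_option maxHeartbeats 1000000

noncomputable section

namespace Fermat.Agent.S45.NUE.H26

open ModularCurve Fermat.Agent.S24 Fermat.Agent.BAD Fermat.Agent.BAD.H88 Fermat.Agent.BAD.H30
  Fermat.Agent.S28 Fermat.Agent.S28.H73 Fermat.Agent.RED.H73
  Fermat.Agent.S36.NU.H73 Fermat.Agent.S45.NUE.H73 Fermat.Agent.S45.NUE.H82

/-! ### Arithmetic of the exponents -/

/-- `max a (e - a) - 1 = δ + (m - 1)`. -/
theorem max_sub_one_eq (e a : ℕ) (ha1 : 1 ≤ a) (hae : a < e) :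
    max a (e - a) - 1 = dE e a + (min a (e - a) - 1) := by
  unfold dE
  rcases le_total a (e - a) with h | h
  · rw [max_eq_right h, min_eq_left h]
    have h2 : 2 * a ≤ e := by omega
    rw [max_eq_left h2, min_eq_right h2]
    omega
  · rw [max_eq_left h, min_eq_right h]
    have h2 : e ≤ 2 * a := by omega
    rw [max_eq_right h2, min_eq_left h2]
    omega

/-- `φ(q^m) = q^(m-1) (q-1)`, `m = min a (e - a) ≥ 1`. -/
theorem totient_min_eq (q e a : ℕ) (hq : q.Prime) (ha1 : 1 ≤ a) (hae : a < e) :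
    Nat.totient (q ^ min a (e - a)) = q ^ (min a (e - a) - 1) * (q - 1) := by
  have hm : 0 < min a (e - a) := by
    rw [lt_min_iff]
    exact ⟨ha1, by omega⟩
  exact Nat.totient_prime_pow hq hm

/-! ### Series over a field of characteristic `q` -/

section Gen

variable (k : Type*) [Field k] (q : ℕ) [NeZero q] [Fact q.Prime] [CharP k q]

/-- **(J1), generic.**  Frobenius on `Δ~`. -/
theorem qExpand_deltaR_pow (j : ℕ) :
    qExpand k (q ^ j) (deltaR k) = deltaR k ^ (q ^ j) := by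
  induction j with
  | zero =>
    rw [qExpand_congr (pow_zero q) (deltaR k), qExpand_one_apply, pow_zero, pow_one]
  | succ j ih =>
    have h1 : q ^ (j + 1) = q * q ^ j := by rw [pow_succ, mul_comm]
    rw [qExpand_congr h1 (deltaR k), ← qExpand_qExpand, ih, map_pow, qExpand_deltaR_char k q,
      ← pow_mul, ← h1]

/-- **(J2), generic.** -/
theorem serJ2_gen (e a : ℕ) (ha1 : 1 ≤ a) (hae : a < e) :
    qExpand k (q ^ (max a (e - a) - 1)) ((deltaR k ^ (q - 1))⁻¹)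
      * qExpand k (q ^ dE e a) (deltaR k) ^ Nat.totient (q ^ min a (e - a)) = 1 := by
  have hq : q.Prime := Fact.out
  have hD : deltaR k ≠ 0 := deltaR_ne_zero k
  rw [map_inv₀, map_pow, qExpand_deltaR_pow, qExpand_deltaR_pow, totient_min_eq q e a hq ha1 hae,
    max_sub_one_eq e a ha1 hae, ← pow_mul, ← pow_mul, pow_add, mul_assoc]
  exact inv_mul_cancel₀ (pow_ne_zero _ hD)

/-- **(J3), generic.** -/
theorem serJ3_gen (e a : ℕ) (ha1 : 1 ≤ a) (hae : a < e) (ε : k) :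
    (qExpand k (q ^ (max a (e - a) - 1)) ((deltaR k ^ (q - 1))⁻¹) ^ 2
        * (algebraMap k (LaurentSeries k) ε
          * qExpand k (q ^ dE e a) (thetaL (ubar4 k)) ^ Nat.totient (q ^ min a (e - a)))) ^ 12
      = algebraMap k (LaurentSeries k) (ε ^ 12 * 3 ^ (12 * Nat.totient (q ^ min a (e - a))))
        * (qExpand k (q ^ (max a (e - a) - 1)) ((deltaR k ^ (q - 1))⁻¹) ^ 2) ^ 11
        * qExpand k (q ^ dE e a) (vbar k ^ 6 * vbar2 k ^ 16)
          ^ Nat.totient (q ^ min a (e - a)) := by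
  have h1 := serJ2_gen k q e a ha1 hae
  have h2 := congrArg (qExpand k (q ^ dE e a)) (thetaL_ubar_pow_D k)
  rw [map_pow, map_mul, map_mul, map_pow, map_pow, map_ofNat] at h2
  generalize qExpand k (q ^ (max a (e - a) - 1)) ((deltaR k ^ (q - 1))⁻¹) = H1 at h1 ⊢
  generalize qExpand k (q ^ dE e a) (deltaR k) = Dδ at h1 h2
  generalize qExpand k (q ^ dE e a) (thetaL (ubar4 k)) = T at h2 ⊢
  generalize qExpand k (q ^ dE e a) (vbar k ^ 6 * vbar2 k ^ 16) = W at h2 ⊢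
  generalize Nat.totient (q ^ min a (e - a)) = φ at h1 ⊢
  rw [map_mul, map_pow, map_pow, map_ofNat]
  generalize algebraMap k (LaurentSeries k) ε = E
  have e1 : (H1 ^ 2 * (E * T ^ φ)) ^ 12 = H1 ^ 24 * E ^ 12 * (T ^ 12) ^ φ := by
    rw [← pow_mul T 12 φ, mul_comm 12 φ, pow_mul T φ 12]
    ring
  rw [e1, h2]
  have e2 : H1 ^ 24 * E ^ 12 * (3 ^ 12 * W * Dδ ^ 2) ^ φ
      = H1 ^ 22 * (H1 * Dδ ^ φ) ^ 2 * (E ^ 12 * 3 ^ (12 * φ)) * W ^ φ := by
    rw [pow_mul (3 : LaurentSeries k) 12 φ]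
    ring
  rw [e2, h1]
  ring

/-- **(J4), generic**, `q = 2` or `q = 3`. -/
theorem serJ4_gen (h23 : q = 2 ∨ q = 3) (e a : ℕ) (ha1 : 1 ≤ a) (hae : a < e) (ε : k) :
    (qExpand k (q ^ (max a (e - a) - 1)) ((deltaR k ^ (q - 1))⁻¹) ^ 2
        * (algebraMap k (LaurentSeries k) ε
          * qExpand k (q ^ dE e a) (thetaL (jqModC k)) ^ Nat.totient (q ^ min a (e - a)))) ^ 2
      = algebraMap k (LaurentSeries k) (ε ^ 2)
        * (qExpand k (q ^ (max a (e - a) - 1)) ((deltaR k ^ (q - 1))⁻¹) ^ 2) ^ 3 := by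
  have hq : q.Prime := Fact.out
  have h1 := serJ2_gen k q e a ha1 hae
  have hD : deltaR k ≠ 0 := deltaR_ne_zero k
  have hj : jqModC k = (deltaR k)⁻¹ :=
    eq_inv_of_mul_eq_one_left (Fermat.Agent.S36.NU.H65.q23_j_mul_deltaR (K := k) (ℓ := q) h23)
  have hθ : thetaL (jqModC k) ^ (q - 1) = ((deltaR k)⁻¹) ^ (q - 1) := by
    rw [Fermat.Agent.S36.NU.H65.q23_thetaL_pow (K := k) (ℓ := q) h23, hj]
  -- `T ^ φ = H1`
  have hT : qExpand k (q ^ dE e a) (thetaL (jqModC k)) ^ Nat.totient (q ^ min a (e - a))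
      = qExpand k (q ^ (max a (e - a) - 1)) ((deltaR k ^ (q - 1))⁻¹) := by
    have h0 : qExpand k (q ^ dE e a) (thetaL (jqModC k)) ^ (q - 1)
        * qExpand k (q ^ dE e a) (deltaR k) ^ (q - 1) = 1 := by
      have hX : qExpand k (q ^ dE e a) (thetaL (jqModC k)) ^ (q - 1)
          = qExpand k (q ^ dE e a) (((deltaR k)⁻¹) ^ (q - 1)) := by
        rw [← hθ]
        exact (map_pow (qExpand k (q ^ dE e a)) _ _).symm
      have hY : qExpand k (q ^ dE e a) (deltaR k) ^ (q - 1)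
          = qExpand k (q ^ dE e a) (deltaR k ^ (q - 1)) :=
        (map_pow (qExpand k (q ^ dE e a)) _ _).symm
      rw [hX, hY, ← map_mul, ← mul_pow, inv_mul_cancel₀ hD, one_pow, map_one]
    have h3 : qExpand k (q ^ dE e a) (thetaL (jqModC k)) ^ Nat.totient (q ^ min a (e - a))
        * qExpand k (q ^ dE e a) (deltaR k) ^ Nat.totient (q ^ min a (e - a)) = 1 := by
      rw [totient_min_eq q e a hq ha1 hae, mul_comm (q ^ (min a (e - a) - 1)) (q - 1),
        pow_mul, pow_mul, ← mul_pow, h0, one_pow]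
    have hne : qExpand k (q ^ dE e a) (deltaR k) ^ Nat.totient (q ^ min a (e - a)) ≠ 0 :=
      pow_ne_zero _ (qExpand_deltaR_ne_zero k _)
    exact mul_right_cancel₀ hne (h3.trans h1.symm)
  rw [hT, map_pow]
  ring

end Gen

/-! ### The residue field of `A` -/

section KV

variable (A : ValuationSubring Kbar) (q : ℕ) [NeZero q] (hq : q.Prime)
  (hA : (q : Kbar) ∈ A.nonunits)

include hq hA

/-- **(J1)** Frobenius on `Δ~`. -/
theorem serJ1 (j : ℕ) :
    qExpand (kV A) (q ^ j) (deltaR (kV A)) = deltaR (kV A) ^ (q ^ j) := by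
  haveI : Fact q.Prime := ⟨hq⟩
  haveI : CharP (kV A) q := Fermat.Agent.BAD.H82.charP_kV A hq hA
  exact qExpand_deltaR_pow (kV A) q j

/-- **(J2)** `H1 * Dδ ^ φ = 1`. -/
theorem serJ2 (e a : ℕ) (ha1 : 1 ≤ a) (hae : a < e) :
    qExpand (kV A) (q ^ (max a (e - a) - 1)) (HUk A q)
      * qExpand (kV A) (q ^ dE e a) (deltaR (kV A)) ^ Nat.totient (q ^ min a (e - a)) = 1 := by
  haveI : Fact q.Prime := ⟨hq⟩
  haveI : CharP (kV A) q := Fermat.Agent.BAD.H82.charP_kV A hq hA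
  exact serJ2_gen (kV A) q e a ha1 hae

/-- **(J3)** the certificate of `u₄`. -/
theorem serJ3 (e a : ℕ) (ha1 : 1 ≤ a) (hae : a < e) (ε : kV A) :
    (qExpand (kV A) (q ^ (max a (e - a) - 1)) (HUk A q) ^ 2
        * (algebraMap (kV A) (LaurentSeries (kV A)) ε
          * qExpand (kV A) (q ^ dE e a) (thetaL (ubar4 (kV A)))
            ^ Nat.totient (q ^ min a (e - a)))) ^ 12
      = algebraMap (kV A) (LaurentSeries (kV A))
          (ε ^ 12 * 3 ^ (12 * Nat.totient (q ^ min a (e - a))))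
        * (qExpand (kV A) (q ^ (max a (e - a) - 1)) (HUk A q) ^ 2) ^ 11
        * qExpand (kV A) (q ^ dE e a) (vbar (kV A) ^ 6 * vbar2 (kV A) ^ 16)
          ^ Nat.totient (q ^ min a (e - a)) := by
  haveI : Fact q.Prime := ⟨hq⟩
  haveI : CharP (kV A) q := Fermat.Agent.BAD.H82.charP_kV A hq hA
  exact serJ3_gen (kV A) q e a ha1 hae ε

/-- **(J4)** the certificate of `j`, `q = 2` or `q = 3`. -/
theorem serJ4 (h23 : q = 2 ∨ q = 3) (e a : ℕ) (ha1 : 1 ≤ a) (hae : a < e) (ε : kV A) :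
    (qExpand (kV A) (q ^ (max a (e - a) - 1)) (HUk A q) ^ 2
        * (algebraMap (kV A) (LaurentSeries (kV A)) ε
          * qExpand (kV A) (q ^ dE e a) (thetaL (jqModC (kV A)))
            ^ Nat.totient (q ^ min a (e - a)))) ^ 2
      = algebraMap (kV A) (LaurentSeries (kV A)) (ε ^ 2)
        * (qExpand (kV A) (q ^ (max a (e - a) - 1)) (HUk A q) ^ 2) ^ 3 := by
  haveI : Fact q.Prime := ⟨hq⟩
  haveI : CharP (kV A) q := Fermat.Agent.BAD.H82.charP_kV A hq hA
  exact serJ4_gen (kV A) q h23 e a ha1 hae ε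

end KV

end Fermat.Agent.S45.NUE.H26
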