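import Fermat.Agent.S45.NUE.H99_OrdE
import Fermat.Agent.S45.NUE.H26_OrdSer
import Fermat.Agent.S36.NU.H65_Ord11Q23

/-!
# S45 / NU_e, leaf E-PT-ORD, cut ORD-CERT for `q = 2, 3` (helper26)

Mirror of `H99_OrdCertU4` (helper99, `q ≥ 5`, `4 ∣ M`) in the two small characteristics: the
coordinate is `j` itself (as in S36, `H65.ord11_q23`), `(θ j̄)^(q-1) = j̄^(q-1)`, `j̄ Δ̄ = 1`.

* `isIntegral_incL0_j` : horizontal integrality of `j (q^i τ)`;
* `isIntegral_piUo_j` : horizontal integrality of the local equation `π_a(j)`;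
* `midCertE_q23` : **`MidCertE a`** for `q = 2` or `q = 3` (any `M`), with `m = 2`, `n = 3`,
  `c = ε̄²`, `U = 1`, by the series identity `serJ4`.
-/

set_option autoImplicit false
set_option synthInstance.maxHeartbeats 400000
set_option maxHeartbeats 1000000
set_option linter.unusedSectionVars false
set_option linter.unusedVariables false
set_option linter.style.haveILetI false

noncomputable section

open ModularCurve AlgebraicCurve IntermediateField
open Fermat.Agent.S24 Fermat.Agent.BAD.H88 Fermat.Agent.BAD.H30 Fermat.Agent.BAD.H21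
open Fermat.Agent.S28 Fermat.Agent.S28.H73 Fermat.Agent.RED.H73 Fermat.Agent.RED.H17
open Fermat.Agent.S36.NU Fermat.Agent.S36.NU.H88 Fermat.Agent.S36.NU.H23
open Fermat.Agent.S36.NU.H41 Fermat.Agent.RED

namespace Fermat.Agent.S45.NUE.H26

open Fermat.Agent.S45.NUE.H23 (VE sE)
open Fermat.Agent.S45.NUE.H73 (dE)
open Fermat.Agent.S45.NUE.H82 (HUk)
open Fermat.Agent.S45.NUE.H99

section Level

variable (A : ValuationSubring Kbar)
variable (N q M e : ℕ) (B k : ℤ) (hN : N = M * q ^ e) (hB : B * M + k * (q : ℤ) ^ e = 1)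
  (hq : q.Prime) [NeZero N] [NeZero q] [NeZero M]

include hN in
theorem one_mul_pow_dvd (i : ℕ) (hi : i ≤ e) : 1 * q ^ i ∣ N := by
  rw [hN, one_mul]
  exact Dvd.dvd.mul_left (pow_dvd_pow q hi) M

/-- `j (q^i τ)` as an inertia-fixed function of level `N`. -/
theorem incL0_j_eq (i : ℕ) (hi : i ≤ e) [NeZero (1 * q ^ i)] :
    incL0 A N q M e hN i hi
        ((fo0 A M (jdF M 1 (one_dvd M)) jInt (coe_jdF_one M) : ↥(VE0 A M)) : ↥(L0 A M))
      = (⟨jdF N (1 * q ^ i) (one_mul_pow_dvd N q M e hN i hi),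
          jdF_mem_L0 A N (1 * q ^ i) (one_mul_pow_dvd N q M e hN i hi)⟩ : ↥(L0 A N)) := by
  apply Subtype.ext
  rw [coe_incL0]
  exact incQ_jdF N q M e hN i hi 1 (one_dvd M) (one_mul_pow_dvd N q M e hN i hi)

/-- Horizontal integrality of `j (q^i τ)`. -/
theorem isIntegral_incL0_j (i : ℕ) (hi : i ≤ e) :
    IsIntegral ↥(Algebra.adjoin ↥(Kur A) ({j0 A N} : Set ↥(L0 A N)))
      (incL0 A N q M e hN i hi
        ((fo0 A M (jdF M 1 (one_dvd M)) jInt (coe_jdF_one M) : ↥(VE0 A M)) : ↥(L0 A M))) := by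
  haveI : NeZero (1 * q ^ i) := ⟨by rw [one_mul]; exact pow_ne_zero _ (NeZero.ne q)⟩
  rw [incL0_j_eq A N q M e hN i hi]
  exact isIntegral_jdF_L0 A N (1 * q ^ i) (one_mul_pow_dvd N q M e hN i hi)

/-- **Horizontal integrality of the local equation** for `f = j`. -/
theorem isIntegral_piUo_j (a : ℕ) (hae : a ≤ e) :
    IsIntegral ↥(Algebra.adjoin ↥(Kur A) ({j0 A N} : Set ↥(L0 A N)))
      (piUo A N q M e hN (jdF M 1 (one_dvd M)) jInt (coe_jdF_one M) a hae) := by
  rw [piUo]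
  exact (isIntegral_incL0_j A N q M e hN _ _).sub (isIntegral_incL0_j A N q M e hN _ _)

/-- The reduction of the integral expansion of `j`. -/
theorem coeffMap_jInt_kV : coeffMap (Int.castRingHom (kV A)) jInt = jqModC (kV A) := by
  rw [jInt, qExpand_one_apply, coeffMap_jqModC]

include hq in
/-- **The certificate of the component `0 < a < e`** for `q = 2` or `q = 3`. -/
theorem midCertE_q23 (hA : (q : Kbar) ∈ A.nonunits) (h23 : q = 2 ∨ q = 3)
    (a : ℕ) (ha1 : 1 ≤ a) (hae : a < e) :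
    MidCertE A N q M e B k hN hB hq a ha1 hae := by
  have hε := resV_epsU_ne_zero A q M e B k hB hq a ha1 hae
  refine ⟨jdF M 1 (one_dvd M), jInt, coe_jdF_one M, 2, 3,
    resV A ⟨epsU q e a B, epsU_mem A q M e B k hB hq a ha1 hae⟩ ^ 2, 1, 1,
    isIntegral_piUo_j A N q M e hN a hae.le, by norm_num, pow_ne_zero _ hε, one_mul 1,
    isIntegral_one, isIntegral_one, fun b _ => ⟨one_mem _, one_mem _⟩, ?_⟩
  intro hU
  have e1 : (⟨(1 : ↥(L0 A N)), hU⟩ : ↥(VE A N q M e B k hN hB hq a)) = 1 := rfl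
  rw [e1, map_one, mul_one, coeffMap_jInt_kV]
  exact serJ4 A q hq hA h23 e a ha1 hae _

end Level

end Fermat.Agent.S45.NUE.H26
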