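import Fermat.Agent.S45.NUE.H99_OrdFinal
import Fermat.Agent.S45.NUE.H26_OrdCert23

/-!
# S45 / NU_e, leaf E-PT-ORD (helper99): `hord` on the chart of `j` of `totEM`, all tame cases

* `midCertE_all` : the certificates `MidCertE a`, `0 < a < e`, for `q = 2`, `q = 3` (helper26's
  `midCertE_q23`, coordinate `j`) and for `q ≥ 5`, `4 ∣ M` (`midCertE_u4`, coordinate
  `Δ(t)/Δ(t⁴)`);
* `hordE_totEM` : **the hypothesis `hord` of `H88.pointDataE_of_dichotomy`** on
  `chart0E A N totEM h`, with the witnesses `witE0`, unconditional in these cases.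
-/

set_option autoImplicit false
set_option synthInstance.maxHeartbeats 400000
set_option maxHeartbeats 1000000
set_option linter.unusedSectionVars false
set_option linter.unusedVariables false
set_option linter.style.haveILetI false

noncomputable section

open ModularCurve AlgebraicCurve IntermediateField
open Fermat.Agent.S24 Fermat.Agent.BAD.H88 Fermat.Agent.S28 Fermat.Agent.S28.H73
  Fermat.Agent.S36.NU.H88 Fermat.Agent.S36.NU.H23
  Fermat.Agent.S36.NU.H16 Fermat.Agent.S36.NU.H24 Fermat.Agent.S36.NU.H65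
  Fermat.Agent.S36.NU.H41 Fermat.Agent.S36.NU.H17 Fermat.Agent.S36.NU.H79
  Fermat.Agent.RED.H73 Fermat.Agent.RED.H17 Fermat.Agent.BAD
open Fermat.Agent.S45.NUE.H23 Fermat.Agent.S45.NUE.H74

namespace Fermat.Agent.S45.NUE.H99

section Inst

variable (A : ValuationSubring Kbar)
variable (N q M e : ℕ) (B k : ℤ) (hN : N = M * q ^ e) (hB : B * M + k * (q : ℤ) ^ e = 1)
  (hq : q.Prime) [NeZero N] [NeZero q] [NeZero M] (hqM : ¬ q ∣ M) (hA : A.LiesOverPrime q)
  (ht : H91.TameAt M q) (he : 0 < e)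

attribute [local instance] algkE

include hA in
/-- **The certificates of all components `0 < a < e`**, `q = 2`, `q = 3`, or `q ≥ 5`, `4 ∣ M`. -/
theorem midCertE_all (hcase : q = 2 ∨ q = 3 ∨ (5 ≤ q ∧ 4 ∣ M))
    (a : ℕ) (ha1 : 1 ≤ a) (hae : a < e) :
    MidCertE A N q M e B k hN hB hq a ha1 hae := by
  rcases hcase with h2 | h3 | ⟨h5, h4⟩
  · exact Fermat.Agent.S45.NUE.H26.midCertE_q23 A N q M e B k hN hB hq hA (Or.inl h2) a ha1 hae
  · exact Fermat.Agent.S45.NUE.H26.midCertE_q23 A N q M e B k hN hB hq hA (Or.inr h3) a ha1 hae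
  · exact midCertE_u4 A N q M e B k hN hB hq hA h5 h4 a ha1 hae

/-- **`hord` on the chart of `j`**, unconditional: `q = 2`, `q = 3`, or `q ≥ 5`, `4 ∣ M`. -/
theorem hordE_totEM (hcase : q = 2 ∨ q = 3 ∨ (5 ≤ q ∧ 4 ∣ M))
    (h : ChartInE A N (totEM A N q M e B k hN hB hq hqM hA ht he)) :
    ∀ 𝔪 : Ideal (chart0E A N (totEM A N q M e B k hN hB hq hqM hA ht he) h).B, 𝔪.IsMaximal →
      ∀ i, (chart0E A N (totEM A N q M e B k hN hB hq hqM hA ht he) h).Icomp i ≤ 𝔪 →
        witE0 A N q M e B k hN hB hq hqM hA ht he h i ∉ 𝔪 →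
        Nonempty (LocEq (chart0E A N (totEM A N q M e B k hN hB hq hqM hA ht he) h)
            ((q : ℕ) : ↥(Rur A)) 𝔪)
          ∧ ∀ i', (chart0E A N (totEM A N q M e B k hN hB hq hqM hA ht he) h).Icomp i' ≤ 𝔪 →
            i' = i :=
  hordE_totEM_of_cert A N q M e B k hN hB hq hqM hA ht he h
    (midCertE_all A N q M e B k hN hB hq hA hcase)

end Inst

end Fermat.Agent.S45.NUE.H99
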