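import Fermat.Agent.S45.NUE.H12_HssEAll
import Fermat.Agent.S45.NUE.H99_OrdAll
import Fermat.Agent.S45.NUE.H41_PtHypsE3
import Fermat.Agent.S45.NUE.H17_BranchE2
import Fermat.Agent.S45.NUE.H88_PtAsmE
import Fermat.Agent.S45.NUE.H54_LeavesE
import Fermat.Agent.S45.NUE.H65_FinTopAll
import Fermat.Agent.S45.NUE.H65_Close

/-!
# S45 / NU_e, package E-FIN, leaf PT0-ASM (helper23): the local data at the closed points of
the chart of `j`

Level `N = M q^e`, `q ∤ M`, `M` tame at `q`, `e ≥ 1`; `T = totEM …` (E-TOT), `h : ChartInE A N T`,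
`C = chart0E A N T h` (helper74), witnesses `H99.witE0` (helper99 / helper82).

* `hbr_chart0E` : the branches (helper17's `branch_chart0E`);
* `hss_chart0E` : the local equation data at the supersingular points (helper16 / helper12);
* `pointDataT_chart0E` : **`PointDataT C T (ssM A q M) q`** from GLUE and `deg = 1` at the
  supersingular points = ONE call of helper88's `pointDataE_of_dichotomy` (`hnc`, `hsurj`,
  `hSSchar`, `hSS0`: helper41; `hord`: helper99 + helper26);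
* `hpt0_TuE` : **the field `hpt0` of `H65.LeavesE`** (in the shape of `H54.leavesE_of_pt`).
-/

set_option autoImplicit false
set_option synthInstance.maxHeartbeats 400000
set_option maxHeartbeats 1000000
set_option linter.style.haveILetI false
set_option linter.unusedSectionVars false
set_option linter.unusedVariables false

noncomputable section

open ModularCurve AlgebraicCurve IntermediateField

attribute [local instance] Classical.propDecidable

namespace Fermat.Agent.S45.NUE.H23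

open Fermat.Agent.RED.H17 Fermat.Agent.RED Fermat.Agent.S36.NU.H16 Fermat.Agent.S36.NU.H79
  Fermat.Agent.S36.NU.H17 Fermat.Agent.S36.NU.H24
  Fermat.Agent.S24 Fermat.Agent.BAD.H88 Fermat.Agent.S36.NU.H23 Fermat.Agent.S36.NU.H41
  Fermat.Agent.S36.NU.H88 Fermat.Agent.S36.NU.H74 Fermat.Agent.S36.NU.H65
  Fermat.Agent.S45.NUE.H96 Fermat.Agent.S45.NUE.H74 Fermat.Agent.S28 Fermat.Agent.S28.H73
  Fermat.Agent.RED.H73 Fermat.Agent.BAD Fermat.Agent.S45.NUE.H65

attribute [local instance] algkE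

section Level

variable (A : ValuationSubring Kbar)
variable (N q M e : ℕ) (B k : ℤ) (hN : N = M * q ^ e) (hB : B * M + k * (q : ℤ) ^ e = 1)
  (hq : q.Prime) [NeZero N] [NeZero q] [NeZero M] (hqM : ¬ q ∣ M) (hA : A.LiesOverPrime q)
  (ht : H91.TameAt M q) (he : 0 < e)

/-- **`hbr`**: the branches of the chart of `j` over `totEM`. -/
theorem hbr_chart0E (h : ChartInE A N (totEM A N q M e B k hN hB hq hqM hA ht he)) :
    ∀ 𝔪 : Ideal (chart0E A N (totEM A N q M e B k hN hB hq hqM hA ht he) h).B, 𝔪.IsMaximal →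
      ∀ i, (chart0E A N (totEM A N q M e B k hN hB hq hqM hA ht he) h).Icomp i ≤ 𝔪 →
        Nonempty (Branch (chart0E A N (totEM A N q M e B k hN hB hq hqM hA ht he) h) 𝔪 i) :=
  Fermat.Agent.S45.NUE.H17.branch_chart0E A N q M e B k hN hB hq
    (chart0E A N (totEM A N q M e B k hN hB hq hqM hA ht he) h) (fun i => (i : ℕ))
    (fun _ => AlgHom.id (kV A) (FM A M)) (fun i => Nat.lt_succ_iff.mp i.2) (fun _ => rfl)
    (fun _ _ _ _ => rfl) hqM hA ht
    (j0_mem_chart0E A N (totEM A N q M e B k hN hB hq hqM hA ht he) h)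
    (fun β => β.2)
    (Fermat.Agent.S45.NUE.H74.chartE_chart0E A N q M e B k hN hB hq hqM hA ht he h).crit

/-- **`hss`**: the local equation data at the supersingular points of the chart of `j`. -/
theorem hss_chart0E (hT : (q ≠ 2 ∧ 4 ∣ M) ∨ (q = 2 ∧ 9 ∣ M))
    (h : ChartInE A N (totEM A N q M e B k hN hB hq hqM hA ht he)) :
    ∀ z ∈ ssM A q M,
      ∀ 𝔪 : Ideal (chart0E A N (totEM A N q M e B k hN hB hq hqM hA ht he) h).B, 𝔪.IsMaximal →
      (∀ β : (chart0E A N (totEM A N q M e B k hN hB hq hqM hA ht he) h).B, β ∈ 𝔪 ↔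
        VanAt ((totEM A N q M e B k hN hB hq hqM hA ht he).pt (Fin.last e) z)
          ((chart0E A N (totEM A N q M e B k hN hB hq hqM hA ht he) h).rdB (Fin.last e) β)) →
      Nonempty (LocEq (chart0E A N (totEM A N q M e B k hN hB hq hqM hA ht he) h)
        ((q : ℕ) : ↥(Rur A)) 𝔪) := by
  have S := Fermat.Agent.S45.NUE.H74.chartE_chart0E A N q M e B k hN hB hq hqM hA ht he h
  refine Fermat.Agent.S45.NUE.H12.hssE_all A N q M e B k hN hB hq hqM hA ht hT he
    (chart0E A N (totEM A N q M e B k hN hB hq hqM hA ht he) h)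
    (compat_chart0E A N _ h) (chart0E_B A N _ h) S.hE (fun i => ?_) S.crit
  have := S.hqV i
  rwa [S.hqR] at this

/-- **PT0-ASM**: the local data at all the closed points of the special fibre of the chart of
`j` over `totEM`, from GLUE and `deg = 1` at the supersingular points. -/
theorem pointDataT_chart0E (hc : CasesE q M)
    (h : ChartInE A N (totEM A N q M e B k hN hB hq hqM hA ht he))
    (hg : ∀ z ∈ ssM A q M, Glued (totEM A N q M e B k hN hB hq hqM hA ht he) z)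
    (hd : ∀ z ∈ ssM A q M, ∀ i,
      ((totEM A N q M e B k hN hB hq hqM hA ht he).pt i z).deg = 1) :
    PointDataT (chart0E A N (totEM A N q M e B k hN hB hq hqM hA ht he) h)
      (totEM A N q M e B k hN hB hq hqM hA ht he) (ssM A q M) ((q : ℕ) : ↥(Rur A)) := by
  haveI : IsAlgClosed (kV A) := isAlgClosed_kV A
  haveI : Infinite (kV A) := IsAlgClosed.instInfinite
  haveI : IsNoetherianRing ↥(chart0E A N (totEM A N q M e B k hN hB hq hqM hA ht he) h).B :=
    isNoetherianRing_chart0E A N _ h q hq hA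
  have hT : (q ≠ 2 ∧ 4 ∣ M) ∨ (q = 2 ∧ 9 ∣ M) := by
    rcases hc with ⟨h5, h4⟩ | ⟨h3, h4⟩ | ⟨h2, h9⟩
    · exact Or.inl ⟨by omega, h4⟩
    · exact Or.inl ⟨by omega, h4⟩
    · exact Or.inr ⟨h2, h9⟩
  have hcase : q = 2 ∨ q = 3 ∨ (5 ≤ q ∧ 4 ∣ M) := by
    rcases hc with ⟨h5, h4⟩ | ⟨h3, h4⟩ | ⟨h2, h9⟩
    · exact Or.inr (Or.inr ⟨h5, h4⟩)
    · exact Or.inr (Or.inl h3)
    · exact Or.inl h2
  obtain ⟨hnc, hsurj, hSSchar⟩ :=
    Fermat.Agent.S45.NUE.H41P.ptHyps_chart0E A N q M e B k hN hB hq hqM hA ht he h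
      (Fermat.Agent.S45.NUE.H99.witE0 A N q M e B k hN hB hq hqM hA ht he h) (fun _ => rfl)
  exact (pointData_iff_T _
    (⟨totEM A N q M e B k hN hB hq hqM hA ht he, ssM A q M, hg, hd⟩ :
      GlueCore Kbar ↥(L0 A N) (FN N) (kV A) (Fin (e + 1)) (Place (kV A) (FM A M))
        (kapE A M e)) _).1
    (Fermat.Agent.S45.NUE.H88.pointDataE_of_dichotomy
      (chart0E A N (totEM A N q M e B k hN hB hq hqM hA ht he) h) _ ((q : ℕ) : ↥(Rur A))
      (compat_chart0E A N _ h)
      (Fermat.Agent.RED.H51.stmt_FFB_principal Kbar (FN N)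
        (Fermat.Agent.RED.H95.stmt_HKA_isFF N))
      (Fermat.Agent.S45.NUE.H41P.hSS0_chart0E A N q M e B k hN hB hq hqM hA ht he h)
      (Fermat.Agent.S45.NUE.H99.witE0 A N q M e B k hN hB hq hqM hA ht he h)
      hnc hsurj hSSchar (Fin.last e)
      (hss_chart0E A N q M e B k hN hB hq hqM hA ht he hT h)
      (hbr_chart0E A N q M e B k hN hB hq hqM hA ht he h)
      (Fermat.Agent.S45.NUE.H99.hordE_totEM A N q M e B k hN hB hq hqM hA ht he hcase h))

end Level

/-- **E-PT at every tame level** (helper65's `Stmt_Pt0EAll`). -/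
theorem stmt_Pt0EAll : Stmt_Pt0EAll :=
  fun A N q M e B k hN hB hq _ _ _ hqM hA ht he hc h hg hd =>
    pointDataT_chart0E A N q M e B k hN hB hq hqM hA ht he hc h hg hd

section Mod

variable (A : ValuationSubring Kbar) (q M₁ M' el : ℕ) [NeZero M₁] [NeZero q] [NeZero M']
  [NeZero (M₁ * q)] [NeZero (M₁ * q * q)] (hq : q.Prime)
  (hNl : M₁ * q = M' * q ^ el) (hNu : M₁ * q * q = M' * q ^ (el + 1))
  (Bl kl : ℤ) (hBl : Bl * M' + kl * (q : ℤ) ^ el = 1)
  (Bu ku : ℤ) (hBu : Bu * M' + ku * (q : ℤ) ^ (el + 1) = 1)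
  (hqM : ¬ q ∣ M') (hA : A.LiesOverPrime q) (ht : H91.TameAt M' q)

/-- **The field `hpt0` of `H65.LeavesE`**, for any input `hin` of the charts. -/
theorem hpt0_TuE_gen (hc : CasesE q M')
    (hin : ChartInE A (M₁ * q * q) (TuE A q M₁ M' el hq hNu Bu ku hBu hqM hA ht)) :
    (∀ z ∈ ssM A q M', Glued (TuE A q M₁ M' el hq hNu Bu ku hBu hqM hA ht) z) →
    (∀ z ∈ ssM A q M', ∀ i,
      ((TuE A q M₁ M' el hq hNu Bu ku hBu hqM hA ht).pt i z).deg = 1) →
    PointDataT (chart0E A (M₁ * q * q) (TuE A q M₁ M' el hq hNu Bu ku hBu hqM hA ht) hin)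
      (TuE A q M₁ M' el hq hNu Bu ku hBu hqM hA ht) (ssM A q M') ((q : ℕ) : ↥(Rur A)) :=
  fun hg hd => pointDataT_chart0E A (M₁ * q * q) q M' (el + 1) Bu ku hNu hBu hq hqM hA ht
    (Nat.succ_pos el) hc hin hg hd

/-- **The field `hpt0` of `H65.LeavesE`**, in the shape of `H54.leavesE_of_pt`. -/
theorem hpt0_TuE (hc : CasesE q M') :
    (∀ z ∈ ssM A q M', Glued (TuE A q M₁ M' el hq hNu Bu ku hBu hqM hA ht) z) →
    (∀ z ∈ ssM A q M', ∀ i,
      ((TuE A q M₁ M' el hq hNu Bu ku hBu hqM hA ht).pt i z).deg = 1) →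
    PointDataT
      (chart0E A (M₁ * q * q) (TuE A q M₁ M' el hq hNu Bu ku hBu hqM hA ht)
        (Fermat.Agent.S45.NUE.H54.hin_TuE A q M₁ M' el hq hNu Bu ku hBu hqM hA ht))
      (TuE A q M₁ M' el hq hNu Bu ku hBu hqM hA ht) (ssM A q M') ((q : ℕ) : ↥(Rur A)) :=
  hpt0_TuE_gen A q M₁ M' el hq hNu Bu ku hBu hqM hA ht hc _

end Mod

end Fermat.Agent.S45.NUE.H23
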