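import Fermat.Agent.BAD.H42_FundIneq

/-!
# S45 / NU_e, package E-TOT, T2 (helper23): the residue fields from the degree count

Setting of `H42.NRData` (`E ⊆ L` finite, finitely many valuation rings `V i` of `L` over the
discrete valuation ring `VE` of `E`, residue fields `κ i` over `Et`).  Given subfields
`C i → κ i` (`ψ i`), with structure maps `φ i : Et → C i`, `ψ i ∘ φ i = algebraMap`, of degrees
`f i = [C i : Et]` with `∑ e i f i = [L : E]`: every `ψ i` is surjective (`κ i = C i`).

(Modular: `V a`, `a = 0..e`, the valuations of the inertia-fixed functions of level `M' q^e`,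
`C a = k(X₀(M'))` with `φ a = Fr^max(e - 2a, 0)`, `e a = φ(q^min(a, e - a))`.)
-/

set_option autoImplicit false
set_option linter.style.haveILetI false
set_option linter.unusedSectionVars false

noncomputable section

namespace Fermat.Agent.S45.NUE.H23

open Fermat.Agent.BAD

section ResCount

variable {E L Et : Type} [Field E] [Field L] [Field Et] [Algebra E L] [Module.Finite E L]
  {ι : Type} [Fintype ι] [DecidableEq ι] {κ : ι → Type} [∀ i, Field (κ i)]
  [∀ i, Algebra Et (κ i)] (D : H42.NRData E L Et ι κ)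
  {C : ι → Type} [∀ i, Field (C i)] (φ : ∀ i, Et →+* C i) (ψ : ∀ i, C i →+* κ i)
  (hψφ : ∀ i x, ψ i (φ i x) = algebraMap Et (κ i) x)

include D hψφ

/-- The degree of `κ i` over `Et` is the product of the degrees. -/
theorem finrank_res_eq (i : ι) :
    Module.finrank Et (κ i)
      = @Module.finrank Et (C i) _ _ (φ i).toAlgebra.toModule
        * @Module.finrank (C i) (κ i) _ _ (ψ i).toAlgebra.toModule := by
  letI : Algebra Et (C i) := (φ i).toAlgebra
  letI : Algebra (C i) (κ i) := (ψ i).toAlgebra
  haveI : IsScalarTower Et (C i) (κ i) :=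
    IsScalarTower.of_algebraMap_eq (fun x => (hψφ i x).symm)
  exact (Module.finrank_mul_finrank Et (C i) (κ i)).symm

/-- `κ i` is finite over `C i`. -/
theorem finite_res_over (i : ι) : @Module.Finite (C i) (κ i) _ _ (ψ i).toAlgebra.toModule := by
  letI : Algebra Et (C i) := (φ i).toAlgebra
  letI : Algebra (C i) (κ i) := (ψ i).toAlgebra
  haveI : IsScalarTower Et (C i) (κ i) :=
    IsScalarTower.of_algebraMap_eq (fun x => (hψφ i x).symm)
  haveI : Module.Finite Et (κ i) := D.finite_res i
  exact Module.Finite.of_restrictScalars_finite Et (C i) (κ i)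

theorem finrank_res_over_pos (i : ι) :
    0 < @Module.finrank (C i) (κ i) _ _ (ψ i).toAlgebra.toModule := by
  letI : Algebra (C i) (κ i) := (ψ i).toAlgebra
  haveI : Module.Finite (C i) (κ i) := finite_res_over D φ ψ hψφ i
  exact Module.finrank_pos

/-- **RES-COUNT**: if the degrees add up, `[κ i : C i] = 1`. -/
theorem finrank_eq_one_of_count (f : ι → ℕ)
    (hf : ∀ i, @Module.finrank Et (C i) _ _ (φ i).toAlgebra.toModule = f i)
    (hf0 : ∀ i, 0 < f i) (hsum : ∑ i, D.e i * f i = Module.finrank E L) (i : ι) :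
    @Module.finrank (C i) (κ i) _ _ (ψ i).toAlgebra.toModule = 1 := by
  have h := D.sum_le_finrank
  rw [← hsum] at h
  have hterm : ∀ j, D.e j * f j
      ≤ D.e j * Module.finrank Et (κ j) := by
    intro j
    rw [finrank_res_eq D φ ψ hψφ j, hf j]
    exact Nat.mul_le_mul_left _ (Nat.le_mul_of_pos_right _ (finrank_res_over_pos D φ ψ hψφ j))
  by_contra hne
  have hi : 2 ≤ @Module.finrank (C i) (κ i) _ _ (ψ i).toAlgebra.toModule := by
    have := finrank_res_over_pos D φ ψ hψφ i
    omega
  have hlt : D.e i * f i < D.e i * Module.finrank Et (κ i) := by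
    rw [finrank_res_eq D φ ψ hψφ i, hf i]
    have h1 : 0 < D.e i * f i := Nat.mul_pos (D.he i) (hf0 i)
    calc D.e i * f i < D.e i * f i * 2 := by omega
      _ ≤ D.e i * f i * @Module.finrank (C i) (κ i) _ _ (ψ i).toAlgebra.toModule :=
          Nat.mul_le_mul_left _ hi
      _ = D.e i * (f i * @Module.finrank (C i) (κ i) _ _ (ψ i).toAlgebra.toModule) :=
          mul_assoc _ _ _
  have hs : ∑ j, D.e j * f j < ∑ j, D.e j * Module.finrank Et (κ j) :=
    Finset.sum_lt_sum (fun j _ => hterm j) ⟨i, Finset.mem_univ i, hlt⟩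
  exact absurd h (not_le.mpr hs)

/-- **RES-COUNT**: if the degrees add up, the maps `C i → κ i` are surjective. -/
theorem surjective_of_count (f : ι → ℕ)
    (hf : ∀ i, @Module.finrank Et (C i) _ _ (φ i).toAlgebra.toModule = f i)
    (hf0 : ∀ i, 0 < f i) (hsum : ∑ i, D.e i * f i = Module.finrank E L) (i : ι) :
    Function.Surjective (ψ i) := by
  letI : Algebra (C i) (κ i) := (ψ i).toAlgebra
  have h1 : Module.finrank (C i) (κ i) = 1 :=
    finrank_eq_one_of_count D φ ψ hψφ f hf hf0 hsum i
  haveI : Module.Finite (C i) (κ i) := finite_res_over D φ ψ hψφ i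
  intro y
  have hb : (⊥ : Subalgebra (C i) (κ i)) = ⊤ := Subalgebra.bot_eq_top_of_finrank_eq_one h1
  have hy : y ∈ (⊥ : Subalgebra (C i) (κ i)) := by rw [hb]; trivial
  exact Algebra.mem_bot.mp hy

end ResCount

end Fermat.Agent.S45.NUE.H23
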