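import Fermat.Agent.S36.NU.H23_Fr2

/-!
# S45 / NU_e, package E-TOT, leaf T1 FRW (helper42): the `Fr^w`-twisted structure

`E ⊂ k((t))` a `φ`-stable field over the perfect field `k` of characteristic `q`, `E''` a field
with an isomorphism `e : E'' ≃+* E`, and `E` an `E''`-algebra through `Fr^w ∘ e`
(`Fr : t ↦ t ^ q`), for ANY `w : ℕ` (helper23's `H23_Fr2` is `w = 2`, helper73's `H73_NormFr` is
`w = 1`).  (Modular: the residue field of the valuation `v_(a,b)` of level `q^e M'` over the
residue field of level `M'`.)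

* `iterate_FrE_frobE : Fr^w (φ^w x) = x ^ (q ^ w)`;
* `pow_qw_eq_algebraMap : x ^ (q ^ w) = algebraMap (e⁻¹ (φ^w x))`;
* `isPurelyInseparable_of_FrW`;
* `finrank_of_FrW : [E : E''] = q ^ w`;
* `norm_of_FrW : N_{E/E''} g = e⁻¹ (φ^w g)`;
* `iterate_beta_ord : ord_{β^w z} g = ord_z (φ^w g)`;
* `ord_norm_of_FrW : ord_z (e (N g)) = ord_{β^w z} g`.

This file has no open goals.
-/

set_option autoImplicit false
set_option synthInstance.maxHeartbeats 400000
set_option maxHeartbeats 1000000
set_option linter.style.haveILetI false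
set_option linter.unusedSectionVars false

noncomputable section

open ModularCurve AlgebraicCurve Polynomial IntermediateField

namespace Fermat.Agent.S45.NUE.H42

open Fermat.Agent.BAD.H73 Fermat.Agent.S36.NU.H23

section TwistW

variable {k : Type*} [Field k] {q : ℕ} [Fact q.Prime] [CharP k q] [PerfectRing k q]
variable {E : IntermediateField k (LaurentSeries k)} (h : FrobStable q E)

/-- `Fr^w`, as a ring endomorphism of `E`. -/
def FrW (w : ℕ) : ↥E →+* ↥E := ((FrE h : ↥E →ₐ[k] ↥E) : ↥E →+* ↥E) ^ w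

theorem FrW_apply (w : ℕ) (x : ↥E) : FrW h w x = (FrE h)^[w] x := by
  unfold FrW
  rw [RingHom.coe_pow]
  rfl

theorem FrW_zero (x : ↥E) : FrW h 0 x = x := by
  rw [FrW_apply]
  rfl

theorem FrW_succ (w : ℕ) (x : ↥E) : FrW h (w + 1) x = FrE h (FrW h w x) := by
  rw [FrW_apply, FrW_apply, Function.iterate_succ_apply']

theorem FrW_succ' (w : ℕ) (x : ↥E) : FrW h (w + 1) x = FrW h w (FrE h x) := by
  rw [FrW_apply, FrW_apply, Function.iterate_succ_apply]

/-- `Fr^w (φ^w x) = x ^ (q ^ w)`. -/
theorem FrW_iterate_frobE (w : ℕ) (x : ↥E) : FrW h w ((frobE h)^[w] x) = x ^ (q ^ w) := by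
  induction w generalizing x with
  | zero => rw [FrW_zero, Function.iterate_zero_apply, pow_zero, pow_one]
  | succ w ih =>
    rw [FrW_succ', Function.iterate_succ_apply', FrE_frobE, map_pow, ih, ← pow_mul, pow_succ]

/-- `ord_{β^w z} g = ord_z (φ^w g)`. -/
theorem iterate_beta_ord (w : ℕ) (z : Place k ↥E) (g : ↥E) :
    ((beta h)^[w] z).ord g = z.ord ((frobE h)^[w] g) := by
  induction w generalizing g with
  | zero => rfl
  | succ w ih =>
    rw [Function.iterate_succ_apply', beta_ord, ih, ← Function.iterate_succ_apply]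

variable {E'' : Type*} [Field E''] (e : E'' ≃+* ↥E)

section Alg

variable [Algebra E'' ↥E] (w : ℕ)
variable (he : ∀ a : E'', algebraMap E'' ↥E a = FrW h w (e a))

include he in
/-- `x ^ (q ^ w)` is in the image of `E''`. -/
theorem pow_qw_eq_algebraMap (x : ↥E) :
    x ^ (q ^ w) = algebraMap E'' ↥E (e.symm ((frobE h)^[w] x)) := by
  rw [he, e.apply_symm_apply, FrW_iterate_frobE]

include e he in
/-- `E` is purely inseparable over `E''` (structure map `Fr^w ∘ e`). -/
theorem isPurelyInseparable_of_FrW : IsPurelyInseparable E'' ↥E := by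
  have : CharP E'' q := charP_of_equiv e
  rw [isPurelyInseparable_iff_pow_mem E'' q]
  intro x
  exact ⟨w, e.symm ((frobE h)^[w] x), (pow_qw_eq_algebraMap h e w he x).symm⟩

end Alg

/-- The middle copy over `E''`, through `Fr^w ∘ e`. -/
@[reducible] def algBotMidW (w : ℕ) : Algebra E'' (MidE h) :=
  ((midEquiv h).symm.toRingHom.comp ((FrW h w).comp e.toRingHom)).toAlgebra

/-- **`[E : E''] = q ^ w`** for the structure map `Fr^w ∘ e` (any algebra structure with this
structure map). -/
theorem finrank_of_FrW_aux (x : ↥E) {n : ℤ} (hn : ¬ (q : ℤ) ∣ n)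
    (hx : (x : LaurentSeries k).coeff n ≠ 0)
    (hsep : ∀ y ∈ E, IsSeparable ↥(IntermediateField.adjoin k {(x : LaurentSeries k)}) y) :
    ∀ (w : ℕ) (inst : Algebra E'' ↥E)
      (_ : ∀ a : E'', @algebraMap E'' ↥E _ _ inst a = FrW h w (e a)),
      @Module.finrank E'' ↥E _ _ inst.toModule = q ^ w := by
  intro w
  induction w with
  | zero =>
    intro inst he
    letI := inst
    -- `e` is `E''`-linear
    let L : E'' ≃ₗ[E''] ↥E :=
      { e.toAddEquiv with
        map_smul' := fun a b => by
          show e (a * b) = a • e b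
          rw [map_mul, Algebra.smul_def, he, FrW_zero] }
    rw [← L.finrank_eq, Module.finrank_self, pow_zero]
  | succ w ih =>
    intro inst he
    letI := inst
    letI := algBotMidW h e w
    letI := algMidTop h
    haveI : IsScalarTower E'' (MidE h) ↥E := by
      refine IsScalarTower.of_algebraMap_eq fun a => ?_
      rw [he, FrW_succ]
      rfl
    have h2 : Module.finrank (MidE h) ↥E = q :=
      finrank_of_Fr h (midEquiv h) (fun _ => rfl) x hn hx hsep
    have h1 : Module.finrank E'' (MidE h) = q ^ w := by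
      have h3 := ih ((FrW h w).comp e.toRingHom).toAlgebra (fun _ => rfl)
      exact h3
    haveI : Module.Free (MidE h) ↥E := Module.Free.of_divisionRing _ _
    haveI : Module.Free E'' (MidE h) := Module.Free.of_divisionRing _ _
    rw [← Module.finrank_mul_finrank E'' (MidE h) ↥E, h1, h2, pow_succ]

variable [Algebra E'' ↥E] (w : ℕ)
variable (he : ∀ a : E'', algebraMap E'' ↥E a = FrW h w (e a))

include e he in
/-- **`[E : E''] = q ^ w`** for the structure map `Fr^w ∘ e`. -/
theorem finrank_of_FrW (x : ↥E) {n : ℤ} (hn : ¬ (q : ℤ) ∣ n)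
    (hx : (x : LaurentSeries k).coeff n ≠ 0)
    (hsep : ∀ y ∈ E, IsSeparable ↥(IntermediateField.adjoin k {(x : LaurentSeries k)}) y) :
    Module.finrank E'' ↥E = q ^ w :=
  finrank_of_FrW_aux h e x hn hx hsep w _ he

include e he in
/-- **`N_{E/E''} g = e⁻¹ (φ^w g)`** for the structure map `Fr^w ∘ e`. -/
theorem norm_of_FrW (x : ↥E) {n : ℤ} (hn : ¬ (q : ℤ) ∣ n)
    (hx : (x : LaurentSeries k).coeff n ≠ 0)
    (hsep : ∀ y ∈ E, IsSeparable ↥(IntermediateField.adjoin k {(x : LaurentSeries k)}) y)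
    (g : ↥E) : Algebra.norm E'' g = e.symm ((frobE h)^[w] g) := by
  have : CharP E'' q := charP_of_equiv e
  have : IsPurelyInseparable E'' ↥E := isPurelyInseparable_of_FrW h e w he
  apply (algebraMap E'' ↥E).injective
  rw [algebraMap_norm_of_isPurelyInseparable q g, finrank_of_FrW h e w he x hn hx hsep,
    pow_qw_eq_algebraMap h e w he]

include e he in
/-- **`ord_z (e (N_{E/E''} g)) = ord_{β^w z} g`**. -/
theorem ord_norm_of_FrW (x : ↥E) {n : ℤ} (hn : ¬ (q : ℤ) ∣ n)
    (hx : (x : LaurentSeries k).coeff n ≠ 0)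
    (hsep : ∀ y ∈ E, IsSeparable ↥(IntermediateField.adjoin k {(x : LaurentSeries k)}) y)
    (z : Place k ↥E) (g : ↥E) :
    z.ord (e (Algebra.norm E'' g)) = ((beta h)^[w] z).ord g := by
  rw [norm_of_FrW h e w he x hn hx hsep, e.apply_symm_apply, iterate_beta_ord]

/-- The hypothesis `he` in iterate form. -/
theorem he_of_iterate (he' : ∀ a : E'', algebraMap E'' ↥E a = (FrE h)^[w] (e a)) :
    ∀ a : E'', algebraMap E'' ↥E a = FrW h w (e a) := fun a => by
  rw [he', FrW_apply]

end TwistW

end Fermat.Agent.S45.NUE.H42
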