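import Fermat.Agent.S45.NUE.H73_RamVE
import Fermat.Agent.S45.NUE.H23_ResCount
import Fermat.Agent.S45.NUE.H41_DegE
import Fermat.Agent.S45.NUE.H42_FrW
import Fermat.Agent.S36.NU.H23_Mod4

/-!
# S45 / NU_e, package E-TOT (helper23), part 1: the abstract residue fields of the `V_a`

Level `N = M q^e`, `q ∤ M`, `a = 0..e`; `C = FM A M` the residue field of level `M`.

* `wE e a = e - 2a` (the structure map of the `a`-th residue field over `C` is `Fr^(wE e a)`),
  `mE q e a = φ(q^min(a, e - a))` (the ramification index), `FrWM w : C →+* C`;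
* `InE` : the modular inputs (reductions of the generators: helper17; incomparability);
* `KE a`, `resE a` : the abstract residue field of `VE a` and its residue map;
  `incE a : VE0 → VE a`, `aE a : C → KE a` (structure map), `psiE a : C → KE a` (from
  `C ⊆ range (sE a)`), `psiE_FrWM : psiE a ∘ Fr^w = aE a`.
-/

set_option autoImplicit false
set_option synthInstance.maxHeartbeats 400000
set_option maxHeartbeats 1000000
set_option linter.style.haveILetI false
set_option linter.unusedSectionVars false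

noncomputable section

open ModularCurve AlgebraicCurve
open Fermat.Agent.S24 Fermat.Agent.BAD.H88 Fermat.Agent.S28 Fermat.Agent.S28.H73
open Fermat.Agent.RED.H73 Fermat.Agent.RED.H17 Fermat.Agent.S36.NU.H88
open Fermat.Agent.S36.NU.H23 Fermat.Agent.BAD

namespace Fermat.Agent.S45.NUE.H23

/-- The exponent of the Frobenius in the structure map of the `a`-th residue field. -/
def wE (e a : ℕ) : ℕ := e - 2 * a

/-- The ramification index of the `a`-th valuation. -/
def mE (q e a : ℕ) : ℕ := Nat.totient (q ^ min a (e - a))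

theorem mE_pos (q e a : ℕ) (hq : q.Prime) : 0 < mE q e a :=
  Nat.totient_pos.mpr (pow_pos hq.pos _)

theorem mE_zero (q e : ℕ) : mE q e 0 = 1 := by
  unfold mE
  rw [Nat.zero_min, pow_zero, Nat.totient_one]

theorem mE_top (q e : ℕ) : mE q e e = 1 := by
  unfold mE
  rw [Nat.sub_self, Nat.min_zero, pow_zero, Nat.totient_one]

section TotE

variable (A : ValuationSubring Kbar)
variable (N q M e : ℕ) (B k : ℤ) (hN : N = M * q ^ e) (hB : B * M + k * (q : ℤ) ^ e = 1)
  (hq : q.Prime) [NeZero N] [NeZero q] [NeZero M] (hqM : ¬ q ∣ M) (hA : A.LiesOverPrime q)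

include hN in
/-- `F_M ⊆ F_N`. -/
theorem hleE : modularFunctionFieldBar M ≤ modularFunctionFieldBar N :=
  Fermat.Agent.S36.NU.H82.FM_le_of_dvd N M ⟨q ^ e, hN⟩

theorem neZero_Mqq : NeZero (M * q * q) :=
  ⟨(Nat.mul_pos (Nat.mul_pos (Nat.pos_of_ne_zero (NeZero.ne M))
    (Nat.pos_of_ne_zero (NeZero.ne q))) (Nat.pos_of_ne_zero (NeZero.ne q))).ne'⟩

include hqM in
/-- The residue field of level `M` is stable under the coefficientwise Frobenius. -/
theorem frobStableE :
    @Fermat.Agent.BAD.H73.FrobStable (kV A) _ q ⟨hq⟩ (Fermat.Agent.BAD.H82.charP_kV A hq hA)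
      (@Fermat.Agent.BAD.H73.perfectRing_kV _ _ _ A q ⟨hq⟩
        (Fermat.Agent.BAD.H82.charP_kV A hq hA))
      (redField A (modularFunctionFieldBar M) (hScM A M)) :=
  haveI := neZero_Mqq q M
  frobStable_FM A q M hq hqM hA

/-- `Fr^w : t ↦ t ^ (q ^ w)` on the residue field of level `M`. -/
def FrWM (w : ℕ) : FM A M →+* FM A M :=
  @Fermat.Agent.S45.NUE.H42.FrW (kV A) _ q ⟨hq⟩ (Fermat.Agent.BAD.H82.charP_kV A hq hA)
    (@Fermat.Agent.BAD.H73.perfectRing_kV _ _ _ A q ⟨hq⟩
      (Fermat.Agent.BAD.H82.charP_kV A hq hA)) _ (frobStableE A q M hq hqM hA) w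

/-- `β^w` on the places of the residue field of level `M`. -/
def betaWM (w : ℕ) : Place (kV A) (FM A M) → Place (kV A) (FM A M) :=
  (@Fermat.Agent.BAD.H73.beta (kV A) _ q ⟨hq⟩ (Fermat.Agent.BAD.H82.charP_kV A hq hA)
    (@Fermat.Agent.BAD.H73.perfectRing_kV _ _ _ A q ⟨hq⟩
      (Fermat.Agent.BAD.H82.charP_kV A hq hA)) _ (frobStableE A q M hq hqM hA))^[w]

/-- **The modular inputs of E-TOT** (reductions of the generators at the `V_a`;
incomparability). -/
structure InE : Prop where
  /-- the Gauss valuation of level `M` lies under every `V_a` -/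
  hVE : ∀ a, a ≤ e → ∀ x : ↥(L0 A M), x ∈ VE0 A M →
    inclL0 A (hleE N q M e hN) x ∈ VE A N q M e B k hN hB hq a
  /-- the reduction at `V_a` of a function of level `M` is `Fr^(e - 2a)` of its reduction -/
  hcomp : ∀ a, a ≤ e → ∀ (x : ↥(VE0 A M))
    (h : inclL0 A (hleE N q M e hN) (x : ↥(L0 A M)) ∈ VE A N q M e B k hN hB hq a),
    sE A N q M e B k hN hB hq a ⟨_, h⟩
      = ((FrWM A q M hq hqM hA (wE e a) (rE A M x) : FM A M) : LaurentSeries (kV A))
  /-- the residue field of level `M` lies in the image of the residue map of `V_a` -/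
  hrange : ∀ a, a ≤ e → ∀ c : FM A M,
    ∃ x : ↥(VE A N q M e B k hN hB hq a),
      sE A N q M e B k hN hB hq a x = (c : LaurentSeries (kV A))
  /-- the `V_a` are pairwise incomparable -/
  hincomp : ∀ a a', a ≤ e → a' ≤ e → a ≠ a' →
    ¬ VE A N q M e B k hN hB hq a ≤ VE A N q M e B k hN hB hq a'
  /-- the `V_a` are of rank one -/
  harch : ∀ a, a ≤ e → Fermat.Agent.BAD.H42.IsArch (VE A N q M e B k hN hB hq a)
  /-- Teichmüller lifts of the constants -/
  hlift : ∀ c : kV A, ∃ x : ↥(L0 A N),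
    (∃ c' : Kbar, (x : FN N) = algebraMap Kbar (FN N) c') ∧
    ∀ a, a ≤ e → ∃ h : x ∈ VE A N q M e B k hN hB hq a,
      sE A N q M e B k hN hB hq a ⟨x, h⟩ = algebraMap (kV A) (LaurentSeries (kV A)) c

/-! ### The abstract residue fields -/

/-- The residue field of `VE a`. -/
abbrev KE (a : ℕ) : Type := IsLocalRing.ResidueField ↥(VE A N q M e B k hN hB hq a)

/-- The canonical residue map of `VE a`. -/
def resE (a : ℕ) : ↥(VE A N q M e B k hN hB hq a) →+* KE A N q M e B k hN hB hq a :=
  IsLocalRing.residue _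

theorem resE_surjective (a : ℕ) : Function.Surjective (resE A N q M e B k hN hB hq a) :=
  IsLocalRing.residue_surjective

theorem resE_eq_zero_of_not_isUnit (a : ℕ) (x : ↥(VE A N q M e B k hN hB hq a))
    (hx : ¬ IsUnit x) : resE A N q M e B k hN hB hq a x = 0 :=
  (IsLocalRing.residue_eq_zero_iff x).2 ((IsLocalRing.mem_maximalIdeal x).2 hx)

theorem resE_eq_zero_iff_sE (a : ℕ) (x : ↥(VE A N q M e B k hN hB hq a)) :
    resE A N q M e B k hN hB hq a x = 0 ↔ sE A N q M e B k hN hB hq a x = 0 := by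
  constructor
  · intro h
    have h1 : x ∈ IsLocalRing.maximalIdeal ↥(VE A N q M e B k hN hB hq a) :=
      (IsLocalRing.residue_eq_zero_iff x).1 h
    exact sE_eq_zero_of_not_isUnit A N q M e B k hN hB hq a x
      ((IsLocalRing.mem_maximalIdeal x).1 h1)
  · intro h
    apply resE_eq_zero_of_not_isUnit
    intro hu
    exact (hu.map (sE A N q M e B k hN hB hq a)).ne_zero h

theorem resE_eq_iff_sE (a : ℕ) (x y : ↥(VE A N q M e B k hN hB hq a)) :
    resE A N q M e B k hN hB hq a x = resE A N q M e B k hN hB hq a y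
      ↔ sE A N q M e B k hN hB hq a x = sE A N q M e B k hN hB hq a y := by
  rw [← sub_eq_zero, ← map_sub, resE_eq_zero_iff_sE, map_sub, sub_eq_zero]

variable (H : InE A N q M e B k hN hB hq hqM hA)

/-- `VE0 → VE a`. -/
def incE (a : ℕ) (ha : a ≤ e) : ↥(VE0 A M) →+* ↥(VE A N q M e B k hN hB hq a) where
  toFun x := ⟨inclL0 A (hleE N q M e hN) (x : ↥(L0 A M)), H.hVE a ha x x.2⟩
  map_one' := Subtype.ext (map_one (inclL0 A (hleE N q M e hN)))
  map_mul' x y := Subtype.ext
    (map_mul (inclL0 A (hleE N q M e hN)) (x : ↥(L0 A M)) (y : ↥(L0 A M)))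
  map_zero' := Subtype.ext (map_zero (inclL0 A (hleE N q M e hN)))
  map_add' x y := Subtype.ext
    (map_add (inclL0 A (hleE N q M e hN)) (x : ↥(L0 A M)) (y : ↥(L0 A M)))

theorem coe_incE (a : ℕ) (ha : a ≤ e) (x : ↥(VE0 A M)) :
    ((incE A N q M e B k hN hB hq hqM hA H a ha x : ↥(VE A N q M e B k hN hB hq a)) :
      ↥(L0 A N)) = inclL0 A (hleE N q M e hN) (x : ↥(L0 A M)) := rfl

theorem sE_incE (a : ℕ) (ha : a ≤ e) (x : ↥(VE0 A M)) :
    sE A N q M e B k hN hB hq a (incE A N q M e B k hN hB hq hqM hA H a ha x)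
      = ((FrWM A q M hq hqM hA (wE e a) (rE A M x) : FM A M) : LaurentSeries (kV A)) :=
  H.hcomp a ha x (H.hVE a ha x x.2)

include hq hqM hA in
theorem rE_surjectiveE : Function.Surjective (rE A M) :=
  haveI := neZero_Mqq q M
  rE_surjective A q M hq hqM hA

theorem rE_ker_leE (a : ℕ) (ha : a ≤ e) :
    RingHom.ker (rE A M)
      ≤ RingHom.ker ((resE A N q M e B k hN hB hq a).comp
          (incE A N q M e B k hN hB hq hqM hA H a ha)) := by
  intro x hx
  rw [RingHom.mem_ker] at hx ⊢
  rw [RingHom.comp_apply, resE_eq_zero_iff_sE, sE_incE, hx, map_zero]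
  rfl

/-- The structure map of the residue field of `VE a` over the residue field of level `M`. -/
def aE (a : ℕ) (ha : a ≤ e) : FM A M →+* KE A N q M e B k hN hB hq a :=
  (rE A M).liftOfRightInverse (Function.surjInv (rE_surjectiveE A q M hq hqM hA))
    (Function.rightInverse_surjInv (rE_surjectiveE A q M hq hqM hA))
    ⟨(resE A N q M e B k hN hB hq a).comp (incE A N q M e B k hN hB hq hqM hA H a ha),
      rE_ker_leE A N q M e B k hN hB hq hqM hA H a ha⟩

theorem aE_rE (a : ℕ) (ha : a ≤ e) (x : ↥(VE0 A M)) :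
    aE A N q M e B k hN hB hq hqM hA H a ha (rE A M x)
      = resE A N q M e B k hN hB hq a (incE A N q M e B k hN hB hq hqM hA H a ha x) :=
  RingHom.liftOfRightInverse_comp_apply _ _ _ _ x

/-! ### The residue field of level `M` inside the residue field of `VE a` -/

/-- A lift to `VE a` of an element of the residue field of level `M`. -/
def liftE (a : ℕ) (ha : a ≤ e) (c : FM A M) : ↥(VE A N q M e B k hN hB hq a) :=
  (H.hrange a ha c).choose

theorem sE_liftE (a : ℕ) (ha : a ≤ e) (c : FM A M) :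
    sE A N q M e B k hN hB hq a (liftE A N q M e B k hN hB hq hqM hA H a ha c)
      = (c : LaurentSeries (kV A)) :=
  (H.hrange a ha c).choose_spec

/-- `C → KE a`, from `C ⊆ range (sE a)`. -/
def psiE (a : ℕ) (ha : a ≤ e) : FM A M →+* KE A N q M e B k hN hB hq a where
  toFun c := resE A N q M e B k hN hB hq a (liftE A N q M e B k hN hB hq hqM hA H a ha c)
  map_one' := by
    rw [← map_one (resE A N q M e B k hN hB hq a), resE_eq_iff_sE, sE_liftE, map_one]
    rfl
  map_mul' x y := by
    rw [← map_mul (resE A N q M e B k hN hB hq a), resE_eq_iff_sE, sE_liftE, map_mul,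
      sE_liftE, sE_liftE]
    rfl
  map_zero' := by
    rw [← map_zero (resE A N q M e B k hN hB hq a), resE_eq_iff_sE, sE_liftE, map_zero]
    rfl
  map_add' x y := by
    rw [← map_add (resE A N q M e B k hN hB hq a), resE_eq_iff_sE, sE_liftE, map_add,
      sE_liftE, sE_liftE]
    rfl

theorem psiE_apply (a : ℕ) (ha : a ≤ e) (c : FM A M) :
    psiE A N q M e B k hN hB hq hqM hA H a ha c
      = resE A N q M e B k hN hB hq a (liftE A N q M e B k hN hB hq hqM hA H a ha c) := rfl

/-- `psiE a c = resE a x` as soon as `sE a x = c`. -/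
theorem psiE_eq_of (a : ℕ) (ha : a ≤ e) (c : FM A M) (x : ↥(VE A N q M e B k hN hB hq a))
    (hx : sE A N q M e B k hN hB hq a x = (c : LaurentSeries (kV A))) :
    psiE A N q M e B k hN hB hq hqM hA H a ha c = resE A N q M e B k hN hB hq a x := by
  rw [psiE_apply, resE_eq_iff_sE, sE_liftE, hx]

/-- `psiE a ∘ Fr^(e - 2a) = aE a`. -/
theorem psiE_FrWM (a : ℕ) (ha : a ≤ e) (c : FM A M) :
    psiE A N q M e B k hN hB hq hqM hA H a ha (FrWM A q M hq hqM hA (wE e a) c)
      = aE A N q M e B k hN hB hq hqM hA H a ha c := by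
  obtain ⟨x, rfl⟩ := rE_surjectiveE A q M hq hqM hA c
  rw [aE_rE]
  exact psiE_eq_of A N q M e B k hN hB hq hqM hA H a ha _ _
    (sE_incE A N q M e B k hN hB hq hqM hA H a ha x)

end TotE

end Fermat.Agent.S45.NUE.H23
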