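/-
S45 (row 41), E-TOT, leaf T7 ARITH (helper60): the degree check

  `sum_mE : ∑ a : Fin (e+1), φ (q ^ min a (e - a)) * q ^ (e - 2 a) = q ^ e + q ^ (e - 1)`

(`e ≥ 1`; the subtraction `e - 2 a` is truncated), and `sum_ordE` (for E-PT-SS): the `e + 1` valuations `v_(a, e-a)` of `L0` over
`q` have multiplicity `φ (q ^ min (a, e-a))` and residue degree `q ^ max (e - 2a, 0)` over
`X₀(M')`, and the degree of `X₀(M' q^e) → X₀(M')` is `q ^ e + q ^ (e - 1)`.
-/
import Mathlib

set_option autoImplicit false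

namespace Fermat.Agent.S45.NUE.H60

open Finset

/-- `∑_{b ≤ B} φ (q ^ b) = q ^ B`. -/
theorem sum_totient_pow (q : ℕ) (hq : q.Prime) (B : ℕ) :
    ∑ b ∈ range (B + 1), Nat.totient (q ^ b) = q ^ B := by
  induction B with
  | zero => simp
  | succ B ih =>
    rw [sum_range_succ, ih, Nat.totient_prime_pow_succ hq, pow_succ]
    have h1 : 1 ≤ q := hq.one_le
    obtain ⟨k, rfl⟩ : ∃ k, q = k + 1 := ⟨q - 1, by omega⟩
    simp only [Nat.add_sub_cancel]
    ring

/-- The part `2 a ≤ e`: `∑_{a ≤ A} φ (q ^ a) q ^ (e - 2 a) + q ^ (e - A - 1) = q ^ e + q ^ (e - 1)`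
for `2 A ≤ e`, `1 ≤ e`. -/
theorem sum_low (q : ℕ) (hq : q.Prime) (e : ℕ) (he : 0 < e) (A : ℕ) (hA : 2 * A ≤ e) :
    ∑ a ∈ range (A + 1), Nat.totient (q ^ a) * q ^ (e - 2 * a) + q ^ (e - A - 1) =
      q ^ e + q ^ (e - 1) := by
  induction A with
  | zero => simp
  | succ A ih =>
    have ih' := ih (by omega)
    rw [sum_range_succ, Nat.totient_prime_pow_succ hq]
    have h1 : 1 ≤ q := hq.one_le
    -- exponents
    obtain ⟨m, hm⟩ : ∃ m, e = 2 * A + 2 + m := ⟨e - (2 * A + 2), by omega⟩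
    have e1 : e - 2 * (A + 1) = m := by omega
    have e2 : e - (A + 1) - 1 = A + m := by omega
    have e3 : e - A - 1 = A + m + 1 := by omega
    rw [e1, e2]
    rw [e3] at ih'
    rw [← ih']
    obtain ⟨k, rfl⟩ : ∃ k, q = k + 1 := ⟨q - 1, by omega⟩
    simp only [Nat.add_sub_cancel]
    ring

/-- **T7 ARITH**: the degree check for the `e + 1` valuations. -/
theorem sum_mE (q e : ℕ) (hq : q.Prime) (he : 0 < e) :
    ∑ a : Fin (e + 1), Nat.totient (q ^ min (a : ℕ) (e - a)) * q ^ (e - 2 * a) =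
      q ^ e + q ^ (e - 1) := by
  rw [Fin.sum_univ_eq_sum_range
    (fun a : ℕ => Nat.totient (q ^ min a (e - a)) * q ^ (e - 2 * a)) (e + 1)]
  rw [← sum_filter_add_sum_filter_not (range (e + 1)) (fun a => 2 * a ≤ e)]
  -- the first part
  have hf1 : (range (e + 1)).filter (fun a => 2 * a ≤ e) = range (e / 2 + 1) := by
    ext a
    simp only [mem_filter, mem_range]
    omega
  have hs1 : ∑ a ∈ (range (e + 1)).filter (fun a => 2 * a ≤ e),
      Nat.totient (q ^ min a (e - a)) * q ^ (e - 2 * a) =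
      ∑ a ∈ range (e / 2 + 1), Nat.totient (q ^ a) * q ^ (e - 2 * a) := by
    rw [hf1]
    refine sum_congr rfl fun a ha => ?_
    have h : min a (e - a) = a := by
      rw [mem_range] at ha
      omega
    rw [h]
  -- the second part
  have hs2 : ∑ a ∈ (range (e + 1)).filter (fun a => ¬ 2 * a ≤ e),
      Nat.totient (q ^ min a (e - a)) * q ^ (e - 2 * a) =
      ∑ b ∈ range (e - e / 2 - 1 + 1), Nat.totient (q ^ b) := by
    refine sum_nbij' (fun a => e - a) (fun b => e - b) ?_ ?_ ?_ ?_ ?_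
    · intro a ha
      simp only [mem_filter, mem_range] at ha
      simp only [mem_range]
      omega
    · intro b hb
      simp only [mem_range] at hb
      simp only [mem_filter, mem_range]
      omega
    · intro a ha
      simp only [mem_filter, mem_range] at ha
      omega
    · intro b hb
      simp only [mem_range] at hb
      omega
    · intro a ha
      simp only [mem_filter, mem_range] at ha
      have h : min a (e - a) = e - a := by omega
      have h' : e - 2 * a = 0 := by omega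
      rw [h, h', pow_zero, mul_one]
  rw [hs1, hs2, sum_totient_pow q hq]
  exact sum_low q hq e he (e / 2) (by omega)

/-- `φ (q ^ m) q ^ (n - m) = φ (q ^ n)` for `1 ≤ m ≤ n`. -/
theorem totient_pow_mul_pow (q : ℕ) (hq : q.Prime) {m n : ℕ} (hm : 1 ≤ m) (hmn : m ≤ n) :
    Nat.totient (q ^ m) * q ^ (n - m) = Nat.totient (q ^ n) := by
  rw [Nat.totient_prime_pow hq (by omega : 0 < m), Nat.totient_prime_pow hq (by omega : 0 < n)]
  have h : n - 1 = (m - 1) + (n - m) := by omega
  rw [h, pow_add]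
  ring

/-- **E-PT-SS, arithmetic**: `∑_{n < E} φ (q ^ min n (E - n)) q ^ (n - min n (E - n)) = q ^ (E - 1)`
(the term of `n ≥ 1` is `q ^ n - q ^ (n - 1)`). -/
theorem sum_ordE (q E : ℕ) (hq : q.Prime) (hE : 1 ≤ E) :
    ∑ n ∈ Finset.range E, Nat.totient (q ^ min n (E - n)) * q ^ (n - min n (E - n)) =
      q ^ (E - 1) := by
  have hterm : ∀ n ∈ Finset.range E,
      Nat.totient (q ^ min n (E - n)) * q ^ (n - min n (E - n)) = Nat.totient (q ^ n) := by
    intro n hn
    rw [Finset.mem_range] at hn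
    rcases Nat.eq_zero_or_pos n with rfl | hpos
    · simp
    · exact totient_pow_mul_pow q hq (by omega) (min_le_left _ _)
  rw [Finset.sum_congr rfl hterm]
  obtain ⟨B, rfl⟩ : ∃ B, E = B + 1 := ⟨E - 1, by omega⟩
  rw [sum_totient_pow q hq B, Nat.add_sub_cancel]

end Fermat.Agent.S45.NUE.H60
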