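import Fermat.Agent.S45.NUE.H23_TotE1
import Fermat.Agent.S45.NUE.H60_SumE

/-!
# S45 / NU_e, package E-TOT (helper23), part 2: RES_a and the modular `NRData`

Level `N = M q^e`, `q ∤ M`, `e ≥ 1`, `C = FM A M`.

* `piEa a` : the uniformiser of `VE a` (`q` for `a = 0, e`; helper73's `π_a` for `0 < a < e`);
* `nrPreE` : the `NRData` of the `e + 1` valuations with the ABSTRACT residue fields `KE a`;
* **RES_a** `sE_mem` : the residue field of `VE a` is `C` (degree count);
* `rEa a : VE a →+* C`, surjective, kernel, `rEa_incl`;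
* **`nrE`** : the modular `NRData`, `κ = (C, …, C)`, `e a = φ(q^min(a, e - a))`, structure
  maps `Fr^(e - 2a)`, and `nrE_hdeg`.
-/

set_option autoImplicit false
set_option synthInstance.maxHeartbeats 400000
set_option maxHeartbeats 1000000
set_option linter.style.haveILetI false
set_option linter.unusedSectionVars false

noncomputable section

open ModularCurve AlgebraicCurve
open Fermat.Agent.S24 Fermat.Agent.BAD.H88 Fermat.Agent.S28 Fermat.Agent.S28.H73
open Fermat.Agent.RED.H73 Fermat.Agent.RED.H17 Fermat.Agent.S36.NU.H88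
open Fermat.Agent.S36.NU.H23 Fermat.Agent.BAD

namespace Fermat.Agent.S45.NUE.H23

section TotE2

variable (A : ValuationSubring Kbar)
variable (N q M e : ℕ) (B k : ℤ) (hN : N = M * q ^ e) (hB : B * M + k * (q : ℤ) ^ e = 1)
  (hq : q.Prime) [NeZero N] [NeZero q] [NeZero M] (hqM : ¬ q ∣ M) (hA : A.LiesOverPrime q)

/-! ### The uniformisers -/

theorem dvd_hiE (a : ℕ) (ha : a ≤ e) (hN : N = M * q ^ e) : q ^ (a + min a (e - a)) ∣ N := by
  rw [hN]
  exact Dvd.dvd.mul_left (pow_dvd_pow q (by omega)) M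

theorem dvd_loE (a : ℕ) (ha : a ≤ e) (hN : N = M * q ^ e) : q ^ (a - min a (e - a)) ∣ N := by
  rw [hN]
  exact Dvd.dvd.mul_left (pow_dvd_pow q (by omega)) M

/-- The uniformiser of `VE a`. -/
def piEa (a : ℕ) : ↥(L0 A N) :=
  if h : 1 ≤ a ∧ a < e then
    Fermat.Agent.S45.NUE.H73.piEo A N q e a (dvd_hiE N q M e a h.2.le hN)
      (dvd_loE N q M e a h.2.le hN)
  else ((q : ℕ) : ↥(L0 A N))

include hA in
theorem val_piEa_lt_one (a : ℕ) :
    (VE A N q M e B k hN hB hq a).valuation (piEa A N q M e hN a) < 1 := by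
  unfold piEa
  split_ifs with h
  · exact Fermat.Agent.S45.NUE.H73.val_piEo_lt_one A N q M e B k hN hB hq hA a h.1 h.2 _ _
  · exact Fermat.Agent.S45.NUE.H73.valE_q_lt_one A N q M e B k hN hB hq hA a

include hA in
theorem hramEa (a : ℕ) (ha : a ≤ e) :
    (VE A N q M e B k hN hB hq a).valuation ((q : ℕ) : ↥(L0 A N))
      = (VE A N q M e B k hN hB hq a).valuation (piEa A N q M e hN a) ^ mE q e a := by
  unfold piEa
  split_ifs with h
  · exact Fermat.Agent.S45.NUE.H73.hramE A N q M e B k hN hB hq hA a h.1 h.2 _ _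
  · have hm : mE q e a = 1 := by
      rcases Nat.eq_zero_or_pos a with h0 | h0
      · rw [h0]; exact mE_zero q e
      · have : a = e := by
          by_contra hne
          exact h ⟨h0, lt_of_le_of_ne ha hne⟩
        rw [this]; exact mE_top q e
    rw [hm, pow_one]

/-! ### The preliminary `NRData` -/

variable (H : InE A N q M e B k hN hB hq hqM hA)

theorem algebraMap_piE :
    inclL0 A (hleE N q M e hN) (piE A q M) = ((q : ℕ) : ↥(L0 A N)) := by
  unfold piE
  exact map_natCast (inclL0 A (hleE N q M e hN)) q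

/-- The abstract residue fields. -/
abbrev kapPre : Fin (e + 1) → Type := fun i => KE A N q M e B k hN hB hq (i : ℕ)

/-- The structure maps of the abstract residue fields. -/
@[reducible] def algPre : ∀ i : Fin (e + 1),
    Algebra (FM A M) (kapPre A N q M e B k hN hB hq i) :=
  fun i => (aE A N q M e B k hN hB hq hqM hA H (i : ℕ) (Nat.lt_succ_iff.mp i.2)).toAlgebra

/-- The preliminary `NRData`, with the abstract residue fields of the `VE a`. -/
def nrPreE : @H42.NRData ↥(L0 A M) ↥(L0 A N) (FM A M) _ _ _ (algL0 A (hleE N q M e hN))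
    (Fin (e + 1)) (kapPre A N q M e B k hN hB hq) _ (algPre A N q M e B k hN hB hq hqM hA H) :=
  letI := algL0 A (hleE N q M e hN)
  letI := algPre A N q M e B k hN hB hq hqM hA H
  haveI := neZero_Mqq q M
  { VE := VE0 A M
    V := fun i => VE A N q M e B k hN hB hq (i : ℕ)
    redE := rE A M
    red := fun i => resE A N q M e B k hN hB hq (i : ℕ)
    ϖ := piE A q M
    π := fun i => piEa A N q M e hN (i : ℕ)
    e := fun i => mE q e (i : ℕ)
    hϖ0 := piE_ne_zero A q M hq
    hE := hE_mod A q M hq hA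
    hVE := fun i a ha => H.hVE (i : ℕ) (Nat.lt_succ_iff.mp i.2) a ha
    hkerE := rE_eq_zero_of_not_isUnit A M
    hsurj := fun i => resE_surjective A N q M e B k hN hB hq (i : ℕ)
    hker := fun i => resE_eq_zero_of_not_isUnit A N q M e B k hN hB hq (i : ℕ)
    hcompat := fun i a ha =>
      (aE_rE A N q M e B k hN hB hq hqM hA H (i : ℕ) (Nat.lt_succ_iff.mp i.2) a).symm
    hinc := fun i j hij => H.hincomp (i : ℕ) (j : ℕ) (Nat.lt_succ_iff.mp i.2)
      (Nat.lt_succ_iff.mp j.2) (fun h => hij (Fin.ext h))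
    hA := fun i => H.harch (i : ℕ) (Nat.lt_succ_iff.mp i.2)
    hπ := fun i => val_piEa_lt_one A N q M e B k hN hB hq hA (i : ℕ)
    he := fun i => mE_pos q e (i : ℕ) hq
    hram := fun i => by
      show (VE A N q M e B k hN hB hq (i : ℕ)).valuation
          (inclL0 A (hleE N q M e hN) (piE A q M)) = _
      rw [algebraMap_piE A N q M e hN]
      exact hramEa A N q M e B k hN hB hq hA (i : ℕ) (Nat.lt_succ_iff.mp i.2) }

/-! ### The degree count -/

include hq hqM hA in
theorem jqModC_mem_FME :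
    jqModC (kV A) ∈ redField A (modularFunctionFieldBar M) (hScM A M) :=
  haveI := neZero_Mqq q M
  jqModC_mem_FM A q M hq hqM hA

include hq hqM hA in
theorem isSeparable_FME :
    ∀ y ∈ redField A (modularFunctionFieldBar M) (hScM A M),
      IsSeparable ↥(IntermediateField.adjoin (kV A)
        ({jqModC (kV A)} : Set (LaurentSeries (kV A)))) y :=
  haveI := neZero_Mqq q M
  isSeparable_FM A q M hq hqM hA

/-- **`[C : C] = q ^ w`** for the structure `Fr^w`. -/
theorem finrank_FrWM (w : ℕ) :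
    @Module.finrank (FM A M) (FM A M) _ _ (FrWM A q M hq hqM hA w).toAlgebra.toModule
      = q ^ w :=
  haveI := neZero_Mqq q M
  @Fermat.Agent.S45.NUE.H42.finrank_of_FrW (kV A) _ q ⟨hq⟩
    (Fermat.Agent.BAD.H82.charP_kV A hq hA)
    (@Fermat.Agent.BAD.H73.perfectRing_kV _ _ _ A q ⟨hq⟩
      (Fermat.Agent.BAD.H82.charP_kV A hq hA)) _ (frobStableE A q M hq hqM hA)
    (FM A M) _ (RingEquiv.refl _) (FrWM A q M hq hqM hA w).toAlgebra w (fun _ => rfl)
    ⟨jqModC (kV A), jqModC_mem_FME A q M hq hqM hA⟩ (-1) (not_dvd_neg_one q hq)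
    (coeff_jqM A q M hq hqM hA) (isSeparable_FME A q M hq hqM hA)

theorem finite_FrWM (w : ℕ) :
    @Module.Finite (FM A M) (FM A M) _ _ (FrWM A q M hq hqM hA w).toAlgebra.toModule :=
  @Module.finite_of_finrank_pos (FM A M) (FM A M) _ _
    (FrWM A q M hq hqM hA w).toAlgebra.toModule
    (@Module.Free.of_divisionRing (FM A M) (FM A M) _ _
      (FrWM A q M hq hqM hA w).toAlgebra.toModule) _ (by
    rw [finrank_FrWM A q M hq hqM hA w]; exact pow_pos hq.pos w)

include hq hqM hA in
/-- The degrees add up. -/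
theorem sum_degE (he : 0 < e) :
    ∑ i : Fin (e + 1), mE q e (i : ℕ) * q ^ wE e (i : ℕ)
      = @Module.finrank ↥(L0 A M) ↥(L0 A N) _ _ (algL0 A (hleE N q M e hN)).toModule := by
  rw [Fermat.Agent.S45.NUE.H41.finrank_L0_pow A q e M N hq hqM he hN (hleE N q M e hN)]
  exact Fermat.Agent.S45.NUE.H60.sum_mE q e hq he

/-- **RES_a (abstract form)**: the residue field of `VE a` is the image of the residue field
of level `M`. -/
theorem surjective_psiE (he : 0 < e) (a : ℕ) (ha : a ≤ e) :
    Function.Surjective (psiE A N q M e B k hN hB hq hqM hA H a ha) := by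
  letI := algL0 A (hleE N q M e hN)
  letI := algPre A N q M e B k hN hB hq hqM hA H
  haveI : Module.Finite ↥(L0 A M) ↥(L0 A N) :=
    Fermat.Agent.S45.NUE.H41.finite_L0_of_le A M N (hleE N q M e hN)
  have h := surjective_of_count (nrPreE A N q M e B k hN hB hq hqM hA H)
    (C := fun _ : Fin (e + 1) => FM A M)
    (fun i => FrWM A q M hq hqM hA (wE e (i : ℕ)))
    (fun i => psiE A N q M e B k hN hB hq hqM hA H (i : ℕ) (Nat.lt_succ_iff.mp i.2))
    (fun i x => psiE_FrWM A N q M e B k hN hB hq hqM hA H (i : ℕ) (Nat.lt_succ_iff.mp i.2) x)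
    (fun i => q ^ wE e (i : ℕ))
    (fun i => finrank_FrWM A q M hq hqM hA (wE e (i : ℕ)))
    (fun i => pow_pos hq.pos _)
    (sum_degE A N q M e hN hq hqM hA he) ⟨a, Nat.lt_succ_iff.mpr ha⟩
  exact h

include hqM hA H in
/-- **RES_a**: the reductions at `V_a` of the inertia-fixed functions lie in the residue field
of level `M`. -/
theorem sE_memM (he : 0 < e) (a : ℕ) (ha : a ≤ e) (x : ↥(VE A N q M e B k hN hB hq a)) :
    sE A N q M e B k hN hB hq a x ∈ redField A (modularFunctionFieldBar M) (hScM A M) := by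
  obtain ⟨c, hc⟩ := surjective_psiE A N q M e B k hN hB hq hqM hA H he a ha
    (resE A N q M e B k hN hB hq a x)
  rw [psiE_apply, resE_eq_iff_sE, sE_liftE] at hc
  rw [← hc]
  exact c.2

/-! ### The residue maps into the residue field of level `M` -/

/-- The residue map of `VE a`, into the residue field of level `M`. -/
def rEa (he : 0 < e) (a : ℕ) (ha : a ≤ e) : ↥(VE A N q M e B k hN hB hq a) →+* FM A M where
  toFun x := ⟨sE A N q M e B k hN hB hq a x, sE_memM A N q M e B k hN hB hq hqM hA H he a ha x⟩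
  map_one' := Subtype.ext (map_one (sE A N q M e B k hN hB hq a))
  map_mul' x y := Subtype.ext (map_mul (sE A N q M e B k hN hB hq a) x y)
  map_zero' := Subtype.ext (map_zero (sE A N q M e B k hN hB hq a))
  map_add' x y := Subtype.ext (map_add (sE A N q M e B k hN hB hq a) x y)

theorem coe_rEa (he : 0 < e) (a : ℕ) (ha : a ≤ e) (x : ↥(VE A N q M e B k hN hB hq a)) :
    ((rEa A N q M e B k hN hB hq hqM hA H he a ha x : FM A M) : LaurentSeries (kV A))
      = sE A N q M e B k hN hB hq a x := rfl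

theorem rEa_eq_zero_of_not_isUnit (he : 0 < e) (a : ℕ) (ha : a ≤ e)
    (x : ↥(VE A N q M e B k hN hB hq a)) (hx : ¬ IsUnit x) :
    rEa A N q M e B k hN hB hq hqM hA H he a ha x = 0 := by
  apply Subtype.ext
  rw [coe_rEa, sE_eq_zero_of_not_isUnit A N q M e B k hN hB hq a x hx]
  rfl

theorem rEa_incl (he : 0 < e) (a : ℕ) (ha : a ≤ e) (x : ↥(VE0 A M))
    (h : inclL0 A (hleE N q M e hN) (x : ↥(L0 A M)) ∈ VE A N q M e B k hN hB hq a) :
    rEa A N q M e B k hN hB hq hqM hA H he a ha ⟨_, h⟩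
      = FrWM A q M hq hqM hA (wE e a) (rE A M x) := by
  apply Subtype.ext
  rw [coe_rEa]
  exact H.hcomp a ha x h

theorem rEa_surjective (he : 0 < e) (a : ℕ) (ha : a ≤ e) :
    Function.Surjective (rEa A N q M e B k hN hB hq hqM hA H he a ha) := by
  intro c
  obtain ⟨x, hx⟩ := H.hrange a ha c
  exact ⟨x, Subtype.ext hx⟩

/-! ### The modular `NRData` -/

/-- The residue fields `(C, …, C)`. -/
def kapE : Fin (e + 1) → Type := fun _ => FM A M

instance kapEField : ∀ i, Field (kapE A M e i) := fun _ => inferInstanceAs (Field (FM A M))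

/-- The structure maps `Fr^(e - 2a)`. -/
@[reducible] def algE : ∀ i : Fin (e + 1), Algebra (FM A M) (kapE A M e i) :=
  fun i => (FrWM A q M hq hqM hA (wE e (i : ℕ))).toAlgebra

/-- **The modular `NRData`** of the `e + 1` valuations `V_a` of the inertia-fixed functions of
level `M q^e` over the Gauss valuation of level `M`. -/
def nrE (he : 0 < e) : @H42.NRData ↥(L0 A M) ↥(L0 A N) (FM A M) _ _ _
    (algL0 A (hleE N q M e hN)) (Fin (e + 1)) (kapE A M e) _ (algE A q M e hq hqM hA) :=
  letI := algL0 A (hleE N q M e hN)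
  letI := algE A q M e hq hqM hA
  haveI := neZero_Mqq q M
  { VE := VE0 A M
    V := fun i => VE A N q M e B k hN hB hq (i : ℕ)
    redE := rE A M
    red := fun i => rEa A N q M e B k hN hB hq hqM hA H he (i : ℕ) (Nat.lt_succ_iff.mp i.2)
    ϖ := piE A q M
    π := fun i => piEa A N q M e hN (i : ℕ)
    e := fun i => mE q e (i : ℕ)
    hϖ0 := piE_ne_zero A q M hq
    hE := hE_mod A q M hq hA
    hVE := fun i a ha => H.hVE (i : ℕ) (Nat.lt_succ_iff.mp i.2) a ha
    hkerE := rE_eq_zero_of_not_isUnit A M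
    hsurj := fun i =>
      rEa_surjective A N q M e B k hN hB hq hqM hA H he (i : ℕ) (Nat.lt_succ_iff.mp i.2)
    hker := fun i =>
      rEa_eq_zero_of_not_isUnit A N q M e B k hN hB hq hqM hA H he (i : ℕ)
        (Nat.lt_succ_iff.mp i.2)
    hcompat := fun i a ha =>
      rEa_incl A N q M e B k hN hB hq hqM hA H he (i : ℕ) (Nat.lt_succ_iff.mp i.2) a ha
    hinc := fun i j hij => H.hincomp (i : ℕ) (j : ℕ) (Nat.lt_succ_iff.mp i.2)
      (Nat.lt_succ_iff.mp j.2) (fun h => hij (Fin.ext h))
    hA := fun i => H.harch (i : ℕ) (Nat.lt_succ_iff.mp i.2)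
    hπ := fun i => val_piEa_lt_one A N q M e B k hN hB hq hA (i : ℕ)
    he := fun i => mE_pos q e (i : ℕ) hq
    hram := fun i => by
      show (VE A N q M e B k hN hB hq (i : ℕ)).valuation
          (inclL0 A (hleE N q M e hN) (piE A q M)) = _
      rw [algebraMap_piE A N q M e hN]
      exact hramEa A N q M e B k hN hB hq hA (i : ℕ) (Nat.lt_succ_iff.mp i.2) }

/-- The degrees add up: `∑ φ(q^min(a, e-a)) q^(e - 2a) = q^e + q^(e-1) = [L0 N : L0 M]`. -/
theorem nrE_hdeg (he : 0 < e) :
    ∑ i, @H42.NRData.e ↥(L0 A M) ↥(L0 A N) (FM A M) _ _ _ (algL0 A (hleE N q M e hN))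
          (Fin (e + 1)) (kapE A M e) _ (algE A q M e hq hqM hA)
          (nrE A N q M e B k hN hB hq hqM hA H he) i
        * @Module.finrank (FM A M) (kapE A M e i) _ _ (algE A q M e hq hqM hA i).toModule
      = @Module.finrank ↥(L0 A M) ↥(L0 A N) _ _ (algL0 A (hleE N q M e hN)).toModule := by
  rw [← sum_degE A N q M e hN hq hqM hA he]
  refine Finset.sum_congr rfl fun i _ => ?_
  have h2 : @Module.finrank (FM A M) (kapE A M e i) _ _ (algE A q M e hq hqM hA i).toModule
      = q ^ wE e (i : ℕ) := finrank_FrWM A q M hq hqM hA (wE e (i : ℕ))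
  rw [h2]
  rfl

end TotE2

end Fermat.Agent.S45.NUE.H23
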