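import Fermat.Agent.S45.NUE.H23_TotE2
attribute [local instance 10000] SubalgebraClass.toAlgebra
attribute [local instance 10000] HahnSeries.powerSeriesAlgebra

/-!
# S45 / NU_e, package E-TOT (helper23), part 3: the modular conservation datum `TotN`

Level `N = M q^e`, `q ∤ M`, `M` tame at `q`, `e ≥ 1`; `C = FM A M`.

**`totE : TotN ℚ̄ (L0 A N) (F_N · ℚ̄) k (Fin (e + 1)) (Place k C) (C, …, C)`** with
`V a = VE a`, `red a = rEa a`, `m a = φ(q^min(a, e - a))`, `ρ P = r_M (P | F_M)`,
`pt a z = β^(e - 2a) z`.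
-/

set_option autoImplicit false
set_option synthInstance.maxHeartbeats 400000
set_option maxHeartbeats 1000000
set_option linter.style.haveILetI false
set_option linter.unusedSectionVars false

noncomputable section

open ModularCurve AlgebraicCurve
open Fermat.Agent.S24 Fermat.Agent.BAD.H88 Fermat.Agent.S28 Fermat.Agent.S28.H73
open Fermat.Agent.RED.H73 Fermat.Agent.RED.H17 Fermat.Agent.S36.NU.H88
open Fermat.Agent.S36.NU.H23

namespace Fermat.Agent.S45.NUE.H23

open Fermat.Agent.BAD Fermat.Agent.RED Fermat.Agent.S36.NU.H79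

section TotE3

variable (A : ValuationSubring Kbar)
variable (N q M e : ℕ) (B k : ℤ) (hN : N = M * q ^ e) (hB : B * M + k * (q : ℤ) ^ e = 1)
  (hq : q.Prime) [NeZero N] [NeZero q] [NeZero M] (hqM : ¬ q ∣ M) (hA : A.LiesOverPrime q)
  (ht : H91.TameAt M q)

/-! ### The tower `F_M ⊂ F_N` -/

theorem tower_FNE (hle : modularFunctionFieldBar M ≤ modularFunctionFieldBar N) :
    letI := algF hle
    IsScalarTower Kbar (FN M) (FN N) :=
  isScalarTower_along (IntermediateField.inclusion hle)

theorem finite_FNE (hle : modularFunctionFieldBar M ≤ modularFunctionFieldBar N) :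
    letI := algF hle
    Module.Finite (FN M) (FN N) := Fermat.Agent.S45.NUE.H41.finite_FN_of_le M N hle

/-- The norm formula for `F_N / F_M`. -/
theorem normFormula_FNE (hle : modularFunctionFieldBar M ≤ modularFunctionFieldBar N) :
    letI := algF hle
    haveI := tower_FNE N M hle
    haveI := finite_FNE N M hle
    Divisor.PushforwardNormFormula Kbar (FN M) (FN N) :=
  H51.stmt_FFB_norm Kbar (FN M) (FN N) (H95.stmt_HKA_isFF M)
    (H95.stmt_HKA_isFF N) (IntermediateField.inclusion hle)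
    (Fermat.Agent.S45.NUE.H41.finite_FN_of_le M N hle)

/-- All inertia degrees are `1`. -/
theorem inertiaDeg_FNE (hle : modularFunctionFieldBar M ≤ modularFunctionFieldBar N)
    (w : Place Kbar (FN N)) :
    letI := algF hle
    haveI := tower_FNE N M hle
    haveI := finite_FNE N M hle
    w.inertiaDeg (FN M) = 1 := by
  letI := algF hle
  haveI := tower_FNE N M hle
  haveI := finite_FNE N M hle
  have h := w.deg_restrict_mul_inertiaDeg (F := FN M)
  rw [H51.stmt_FFB_deg Kbar (FN M) (H95.stmt_HKA_isFF M),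
    H51.stmt_FFB_deg Kbar (FN N) (H95.stmt_HKA_isFF N), one_mul] at h
  exact h

/-! ### The residue fields -/

/-- The natural structures of `k`-algebra of the residue fields. -/
@[reducible] def algkE : ∀ i : Fin (e + 1), Algebra (kV A) (kapE A M e i) :=
  fun _ => inferInstanceAs (Algebra (kV A) (FM A M))

theorem finite_algE (i : Fin (e + 1)) :
    @Module.Finite (FM A M) (kapE A M e i) _ _ (algE A q M e hq hqM hA i).toModule :=
  finite_FrWM A q M hq hqM hA (wE e (i : ℕ))

/-- The points of the components over a point of the curve of level `M`. -/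
def ptE : ∀ i : Fin (e + 1), Place (kV A) (FM A M) →
    @Place (kV A) (kapE A M e i) _ _ (algkE A M e i) :=
  fun i z => betaWM A q M hq hqM hA (wE e (i : ℕ)) z

/-- The reduction map of `F_N` to the curve of level `M`. -/
def rhoE (P : Place Kbar (FN N)) : Place (kV A) (FM A M) :=
  letI := algF (hleE N q M e hN)
  haveI := tower_FNE N M (hleE N q M e hN)
  haveI := finite_FNE N M (hleE N q M e hN)
  (H91.seM hq hqM ht hA).r (P.restrict (FN M))

/-- `ord_z (N g) = ord_{pt i z} g`. -/
theorem hN_modE (i : Fin (e + 1)) (z : Place (kV A) (FM A M)) (g : kapE A M e i) :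
    z.ord (@Algebra.norm (FM A M) (kapE A M e i) _ _ (algE A q M e hq hqM hA i) g)
      = @Place.ord (kV A) (kapE A M e i) _ _ (algkE A M e i)
          (ptE A q M e hq hqM hA i z) g :=
  haveI := neZero_Mqq q M
  @Fermat.Agent.S45.NUE.H42.ord_norm_of_FrW (kV A) _ q ⟨hq⟩
    (Fermat.Agent.BAD.H82.charP_kV A hq hA)
    (@Fermat.Agent.BAD.H73.perfectRing_kV _ _ _ A q ⟨hq⟩
      (Fermat.Agent.BAD.H82.charP_kV A hq hA)) _ (frobStableE A q M hq hqM hA)
    (FM A M) _ (RingEquiv.refl _) (algE A q M e hq hqM hA i) (wE e (i : ℕ)) (fun _ => rfl)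
    ⟨jqModC (kV A), jqModC_mem_FME A q M hq hqM hA⟩ (-1) (not_dvd_neg_one q hq)
    (coeff_jqM A q M hq hqM hA) (isSeparable_FME A q M hq hqM hA) z g

/-! ### The conservation datum -/

variable (H : InE A N q M e B k hN hB hq hqM hA)

/-- **E-TOT**: the conservation datum of the `e + 1` valuations `V_a` of the inertia-fixed
functions of level `M q^e`, with multiplicities `φ(q^min(a, e - a))`. -/
def totE (he : 0 < e) : @TotN Kbar ↥(L0 A N) (FN N) (kV A) (Fin (e + 1))
    (Place (kV A) (FM A M)) (kapE A M e) _ _ _ _ _ _ _ _ (algkE A M e) :=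
  letI := algF (hleE N q M e hN)
  haveI := tower_FNE N M (hleE N q M e hN)
  haveI := finite_FNE N M (hleE N q M e hN)
  letI := algL0 A (hleE N q M e hN)
  haveI : Module.Finite ↥(L0 A M) ↥(L0 A N) :=
    Fermat.Agent.S45.NUE.H41.finite_L0_of_le A M N (hleE N q M e hN)
  letI := algE A q M e hq hqM hA
  haveI : ∀ i, Module.Finite (FM A M) (kapE A M e i) := finite_algE A q M e hq hqM hA
  letI := algkE A M e
  totN_of_normRedR (H91.seM hq hqM ht hA)
    (H51.stmt_FFB_principal Kbar (FN M) (H95.stmt_HKA_isFF M))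
    (inertiaDeg_FNE N M (hleE N q M e hN)) (normFormula_FNE N M (hleE N q M e hN))
    (nrE A N q M e B k hN hB hq hqM hA H he) (nrE_hdeg A N q M e B k hN hB hq hqM hA H he)
    (RingHom.id (FM A M))
    (fun x => (coe_inclL0 A (hleE N q M e hN) x).symm)
    (fun g => norm_L0 A (hleE N q M e hN) (Fermat.Agent.S45.NUE.H41.finite_FN_of_le M N
      (hleE N q M e hN)) g)
    (fun _ ha => ha)
    (fun _ _ => rfl)
    (fun c hc => const_L0 A (hleE N q M e hN) c hc)
    (rhoE A N q M e hN hq hqM hA ht) id Function.injective_id (fun _ => rfl)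
    (ptE A q M e hq hqM hA)
    (fun i z g _ => hN_modE A q M e hq hqM hA i z g)
    (fun a => by
      obtain ⟨c, hc, hall⟩ := H.hlift a
      refine ⟨c, hc, fun i => ?_⟩
      obtain ⟨h0, e0⟩ := hall (i : ℕ) (Nat.lt_succ_iff.mp i.2)
      exact ⟨h0, Subtype.ext e0⟩)

theorem totE_V (he : 0 < e) (i : Fin (e + 1)) :
    @TotN.V Kbar ↥(L0 A N) (FN N) (kV A) (Fin (e + 1))
      (Place (kV A) (FM A M)) (kapE A M e) _ _ _ _ _ _ _ _ (algkE A M e)
      (totE A N q M e B k hN hB hq hqM hA ht H he) i = VE A N q M e B k hN hB hq (i : ℕ) := rfl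

theorem totE_red (he : 0 < e) (i : Fin (e + 1)) :
    @TotN.red Kbar ↥(L0 A N) (FN N) (kV A) (Fin (e + 1))
      (Place (kV A) (FM A M)) (kapE A M e) _ _ _ _ _ _ _ _ (algkE A M e)
      (totE A N q M e B k hN hB hq hqM hA ht H he) i
      = rEa A N q M e B k hN hB hq hqM hA H he (i : ℕ) (Nat.lt_succ_iff.mp i.2) := rfl

theorem totE_m (he : 0 < e) (i : Fin (e + 1)) :
    @TotN.m Kbar ↥(L0 A N) (FN N) (kV A) (Fin (e + 1))
      (Place (kV A) (FM A M)) (kapE A M e) _ _ _ _ _ _ _ _ (algkE A M e)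
      (totE A N q M e B k hN hB hq hqM hA ht H he) i = mE q e (i : ℕ) := rfl

theorem totE_rho (he : 0 < e) :
    @TotN.ρ Kbar ↥(L0 A N) (FN N) (kV A) (Fin (e + 1))
      (Place (kV A) (FM A M)) (kapE A M e) _ _ _ _ _ _ _ _ (algkE A M e)
      (totE A N q M e B k hN hB hq hqM hA ht H he) = rhoE A N q M e hN hq hqM hA ht := rfl

theorem totE_pt (he : 0 < e) :
    @TotN.pt Kbar ↥(L0 A N) (FN N) (kV A) (Fin (e + 1))
      (Place (kV A) (FM A M)) (kapE A M e) _ _ _ _ _ _ _ _ (algkE A M e)
      (totE A N q M e B k hN hB hq hqM hA ht H he) = ptE A q M e hq hqM hA := rfl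

theorem ptE_apply (i : Fin (e + 1)) (z : Place (kV A) (FM A M)) :
    ptE A q M e hq hqM hA i z = betaWM A q M hq hqM hA (wE e (i : ℕ)) z := rfl

end TotE3

end Fermat.Agent.S45.NUE.H23
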