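import Fermat.Agent.S36.NU.H23_Mod1
attribute [local instance 10000] SubalgebraClass.toAlgebra
attribute [local instance 10000] HahnSeries.powerSeriesAlgebra

/-!
# S45 / NU_e, package E-VAL (helper23; spec helper62): Gauss valuations at a cusp with a
normalised expansion

`N` a level, `γ ∈ SL₂(ℤ)`, `n ≥ 1`.  `IsCuspExp N γ n`: the `u`-expansion (`u = t^(1/N)`) at the
cusp `γ⁻¹ ∞` of every generator `j (t^D)`, `D ∣ N`, is `(twist z j)(u^(n m))` for a root of unity
`z` (modular: `γ = gE a`, the cusp `1 / (q^a M')` of `X₀(M' q^e)`, `n = M' q^min(e, 2a)`).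

* `cG h : F_N →ₐ[ℚ̄] ℚ̄((s))`, the normalised expansion (`s = u^n`), `qExpand_cG`, `cG_eq_of`;
* `hasScale_cG` : its image has the scaling property;
* `VG A h : ValuationSubring (F_N)`, the Gauss valuation of the normalised expansion, its residue
  map `redG A h` (kernel, surjectivity, scaling, constants);
* `VGo A h : ValuationSubring (L0 A N)`, its restriction to the inertia-fixed functions, and
  `sG A h : VGo → k((s))` (`sG_mk`, kernel, constants).
-/

set_option autoImplicit false
set_option synthInstance.maxHeartbeats 400000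
set_option maxHeartbeats 1000000
set_option linter.style.haveILetI false
set_option linter.unusedSectionVars false

noncomputable section

open ModularCurve AlgebraicCurve
open Fermat.Agent.S24 Fermat.Agent.BAD.H88 Fermat.Agent.S28 Fermat.Agent.S28.H73
open Fermat.Agent.RED.H73 Fermat.Agent.RED.H17 Fermat.Agent.S36.NU.H88
open Fermat.Agent.S36.NU.H23
open scoped MatrixGroups

namespace Fermat.Agent.S45.NUE.H23

/-! ## Generalities on twists -/

/-- A root of unity of `ℚ̄` has an `m`-th root which is a root of unity. -/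
theorem exists_root_of_unity (m : ℕ) (hm : 0 < m) (z : Kbar) (r : ℕ)
    (hz : z ^ r = 1) : ∃ w : Kbar, w ^ m = z ∧ w ^ (m * r) = 1 := by
  obtain ⟨w, hw⟩ := IsAlgClosed.exists_pow_nat_eq z hm
  exact ⟨w, hw, by rw [pow_mul, hw, hz]⟩

/-- `(twist z j)(s^m)` lies in `IntSpan` for a root of unity `z`. -/
theorem qExpand_twist_jBar_mem_intSpan (m : ℕ) [NeZero m] (z : Kbar) (r : ℕ) (hr : 0 < r)
    (hz : z ^ r = 1) : qExpand Kbar m (twist z jBar) ∈ IntSpan Kbar := by
  have hm : 0 < m := Nat.pos_of_ne_zero (NeZero.ne m)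
  obtain ⟨w, hw, hw1⟩ := exists_root_of_unity m hm z r hz
  have e : qExpand Kbar m (twist z jBar) = twist w (qExpand Kbar m jBar) := by
    rw [twist_qExpand, zpow_natCast, hw]
  rw [e]
  exact twist_mem_intSpan (Nat.mul_pos hm hr) hw1 (qExpand_jBar_mem_intSeries m)

/-! ## Cusps with a normalised expansion -/

/-- The `u`-expansions at the cusp `γ⁻¹ ∞` of the generators of `F_N` are twists of `j` by roots
of unity, in the variable `u ^ (n m)`. -/
def IsCuspExp (N : ℕ) [NeZero N] (γ : SL(2, ℤ)) (n : ℕ) [NeZero n] : Prop :=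
  ∀ (D : ℕ) (_ : NeZero D) (hD : D ∣ N), ∃ (m : ℕ) (_ : NeZero m) (r : ℕ) (z : Kbar),
    0 < r ∧ z ^ r = 1 ∧
    cuspU N γ (jdF N D hD) = qExpand Kbar n (qExpand Kbar m (twist z jBar))

section Generic

variable {N : ℕ} [NeZero N] {γ : SL(2, ℤ)} {n : ℕ} [NeZero n] (h : IsCuspExp N γ n)

include h

/-- The `u`-expansions at the cusp are series in `u ^ n`. -/
theorem cuspU_mem_range (x : FN N) : cuspU N γ x ∈ (qExpandAlgHomC Kbar n).range := by
  have hx : x ∈ IntermediateField.adjoin Kbar
      {x : FN N | ∃ (d : ℕ) (_ : NeZero d) (hd : d ∣ N), x = jdF N d hd} := by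
    rw [adjoin_jdF]; exact IntermediateField.mem_top
  induction hx using IntermediateField.adjoin_induction with
  | mem y hy =>
    obtain ⟨D, hD0, hD, rfl⟩ := hy
    obtain ⟨m, hm, r, z, -, -, e⟩ := h D hD0 hD
    exact ⟨_, e.symm⟩
  | algebraMap c =>
    rw [AlgHom.commutes]
    exact Subalgebra.algebraMap_mem _ c
  | add y z _ _ hy hz =>
    rw [map_add]; exact add_mem hy hz
  | inv y _ hy =>
    rw [map_inv₀]
    obtain ⟨t, ht⟩ := hy
    exact ⟨t⁻¹, by rw [map_inv₀]; exact congrArg _ ht⟩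
  | mul y z _ _ hy hz =>
    rw [map_mul]; exact mul_mem hy hz

/-- **The normalised expansion at the cusp `γ⁻¹ ∞`.** -/
def cG : FN N →ₐ[Kbar] LaurentSeries Kbar :=
  ((AlgEquiv.ofInjective (qExpandAlgHomC Kbar n) (qExpandAlgHomC_injective n)).symm.toAlgHom).comp
    ((cuspU N γ).codRestrict (qExpandAlgHomC Kbar n).range (cuspU_mem_range h))

theorem qExpand_cG (x : FN N) : qExpand Kbar n (cG h x) = cuspU N γ x := by
  have h' := (AlgEquiv.ofInjective (qExpandAlgHomC Kbar n)
    (qExpandAlgHomC_injective n)).apply_symm_apply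
    (((cuspU N γ).codRestrict (qExpandAlgHomC Kbar n).range (cuspU_mem_range h)) x)
  exact congrArg Subtype.val h'

theorem cG_injective : Function.Injective (cG h) := (cG h).toRingHom.injective

/-- The normalised expansion from the `u`-expansion. -/
theorem cG_eq_of (x : FN N) (y : LaurentSeries Kbar) (hxy : cuspU N γ x = qExpand Kbar n y) :
    cG h x = y := by
  apply qExpand_injective n
  rw [qExpand_cG, hxy]

/-- The values of `cG` lie in the field generated by `IntSpan`. -/
theorem cG_mem_adjoin_intSpan (x : FN N) :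
    cG h x ∈ IntermediateField.adjoin Kbar (IntSpan Kbar : Set (LaurentSeries Kbar)) := by
  have hx : x ∈ IntermediateField.adjoin Kbar
      {x : FN N | ∃ (d : ℕ) (_ : NeZero d) (hd : d ∣ N), x = jdF N d hd} := by
    rw [adjoin_jdF]; exact IntermediateField.mem_top
  induction hx using IntermediateField.adjoin_induction with
  | mem y hy =>
    obtain ⟨D, hD0, hD, rfl⟩ := hy
    apply IntermediateField.subset_adjoin
    obtain ⟨m, hm, r, z, hr, hz, e⟩ := h D hD0 hD
    rw [cG_eq_of h _ _ e]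
    exact qExpand_twist_jBar_mem_intSpan m z r hr hz
  | algebraMap c =>
    rw [AlgHom.commutes]
    exact IntermediateField.algebraMap_mem _ c
  | add y z _ _ hy hz =>
    rw [map_add]; exact add_mem hy hz
  | inv y _ hy =>
    rw [map_inv₀]; exact inv_mem hy
  | mul y z _ _ hy hz =>
    rw [map_mul]; exact mul_mem hy hz

/-- The image of `cG` has the scaling property. -/
theorem hasScale_cG (A : ValuationSubring Kbar) : HasScale A (cG h).fieldRange := by
  refine HasScale.mono A (hasScale_adjoin A (le_refl _)) ?_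
  rintro y ⟨x, rfl⟩
  exact cG_mem_adjoin_intSpan h x

/-! ## The Gauss valuation at the cusp -/

variable (A : ValuationSubring Kbar)

/-- The image of the normalised expansion. -/
abbrev FG : IntermediateField Kbar (LaurentSeries Kbar) := (cG h).fieldRange

/-- `F_N ≃ cG F_N`. -/
abbrev eG : FN N ≃ₐ[Kbar] ↥(FG h) := (cG h).equivFieldRange

theorem coe_eG (x : FN N) : ((eG h x : ↥(FG h)) : LaurentSeries Kbar) = cG h x := rfl

/-- **The Gauss valuation of the normalised expansion at the cusp `γ⁻¹ ∞`.** -/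
def VG : ValuationSubring (FN N) :=
  comapVE (gaussValSub A (FG h) (hasScale_cG h A)) (eG h)

theorem mem_VG_iff (x : FN N) : x ∈ VG h A ↔ cG h x ∈ gaussRingV A := Iff.rfl

/-- The residue field of `VG`, inside `k((s))`. -/
abbrev RG : Type := ↥(redField A (FG h) (hasScale_cG h A))

/-- The residue map of `VG`. -/
def redG : ↥(VG h A) →+* RG h A :=
  comapRedE _ (gaussResF' A (hasScale_cG h A)) (eG h)

theorem coe_redG (x : FN N) (hx : x ∈ VG h A) :
    ((redG h A ⟨x, hx⟩ : RG h A) : LaurentSeries (kV A)) = gaussRedV A ⟨cG h x, hx⟩ := rfl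

theorem redG_eq_zero_iff (u : ↥(VG h A)) :
    redG h A u = 0 ↔ u ∈ IsLocalRing.maximalIdeal ↥(VG h A) :=
  comapRedE_eq_zero_iff _ _ _ (gaussResF'_eq_zero_iff A (hasScale_cG h A)) u

theorem redG_surjective : Function.Surjective (redG h A) :=
  comapRedE_surjective _ _ _ (gaussResF'_surjective A (hasScale_cG h A))

theorem exists_scaleG (f : FN N) (hf : f ≠ 0) :
    ∃ c : Kbar, c ≠ 0 ∧ ∃ hm : algebraMap Kbar (FN N) c * f ∈ VG h A,
      redG h A ⟨_, hm⟩ ≠ 0 :=
  comapE_exists_scale _ _ _ (gauss_exists_scale A (hasScale_cG h A)) f hf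

theorem const_memG (c : Kbar) : algebraMap Kbar (FN N) c ∈ VG h A ↔ c ∈ A :=
  (comapE_const_mem _ _ c).trans (algebraMap_mem_gaussValSub_iff A (hasScale_cG h A) c)

theorem redG_const (c : ↥A) (hc : algebraMap Kbar (FN N) (c : Kbar) ∈ VG h A) :
    redG h A ⟨_, hc⟩ = algebraMap (kV A) (RG h A) (resV A c) := by
  have h₁ : algebraMap Kbar ↥(FG h) (c : Kbar) ∈ gaussValSub A (FG h) (hasScale_cG h A) :=
    (algebraMap_mem_gaussValSub_iff A _ _).mpr c.2
  exact (comapE_const_red _ (gaussResF' A (hasScale_cG h A)) (eG h) (c : Kbar) h₁ hc).trans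
    (gaussResF'_algebraMap A (hasScale_cG h A) c h₁)

/-! ## Restriction to the inertia-fixed functions -/

/-- `VG` on `L0 A N`. -/
def VGo : ValuationSubring ↥(L0 A N) := resV0 (L0 A N) (VG h A)

theorem mem_VGo_iff (x : ↥(L0 A N)) : x ∈ VGo h A ↔ cG h (x : FN N) ∈ gaussRingV A := Iff.rfl

/-- The residue map of `VGo`, with values in `k((s))`. -/
def sG : ↥(VGo h A) →+* LaurentSeries (kV A) :=
  (IntermediateField.val _).toRingHom.comp (resRed (L0 A N) (VG h A) (redG h A))

theorem sG_mk (x : ↥(L0 A N)) (hx : x ∈ VGo h A) :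
    sG h A ⟨x, hx⟩ = gaussRedV A ⟨cG h (x : FN N), hx⟩ := rfl

theorem sG_eq_zero_of_not_isUnit (x : ↥(VGo h A)) (hx : ¬ IsUnit x) : sG h A x = 0 := by
  have h' := resRed_eq_zero_of_not_isUnit (L0 A N) (VG h A) (redG h A)
    (redG_eq_zero_iff h A) x hx
  show ((resRed (L0 A N) (VG h A) (redG h A) x : RG h A) : LaurentSeries (kV A)) = 0
  rw [h']; rfl

end Generic

end Fermat.Agent.S45.NUE.H23
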