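import Fermat.Agent.S45.NUE.H51_ValVecEAbs
import Fermat.Agent.S36.NU.H51_ValVecLow
import Fermat.Agent.S36.NU.H26_DivNormL0
import Fermat.Agent.L.Pivot.Geom.H24_B2BetaDeg
import Fermat.Agent.S45.NUE.Defs

/-!
# S45 / NU_e, package E-VV, leaf LINK-MOD (helper26)

Three levels `M₁`, `M₁ q`, `M₁ q q` (any `M₁`), `α, β : F_{M₁ q} → F_{M₁ q q}` and
`α', β' : F_{M₁} → F_{M₁ q}` the degeneracy maps.  If `N_α f = c_α g_α ^ n` and
`N_β f = c_β g_β ^ n` with inertia-fixed constants `c_α`, `c_β` of values `v(q) ^ m_α`,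
`v(q) ^ m_β` and inertia-fixed `g_α`, `g_β`, and `n` is prime to `6 q (q - 1) (q + 1)`, then
`n ∣ m_α - m_β`.

Proof: `N_β' N_α = N_α' N_β` (commuting square) gives
`c_α ^ d (N_β' g_α) ^ n = c_β ^ d (N_α' g_β) ^ n` in `F_{M₁}`, `d = [F_{M₁ q} : F_{M₁}] ∈ {q, q + 1}`;
the Gauss valuation `V20 A M₁` takes its values in `v(q) ^ ℤ` on the inertia-fixed functions.

* `link_abs` : the abstract form (three fields, a valuation of the lowest one);
* `finrankAlong_alpha_cases`, `goodExp_coprime_deg`, `heckeComm_sq`;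
* `link_mod` : the statement for the modular tower.
-/

set_option autoImplicit false
set_option linter.style.haveILetI false
set_option linter.unusedSectionVars false
set_option linter.unusedVariables false
set_option synthInstance.maxHeartbeats 400000
set_option maxHeartbeats 1000000

noncomputable section

namespace Fermat.Agent.S45.NUE.H26

open AlgebraicCurve ModularCurve Fermat.Agent.S24 Fermat.Agent.Lib.HeckeComm
  Fermat.Agent.S36.H44 Fermat.Agent.BAD Fermat.Agent.S36.NU.H23 Fermat.Agent.BAD.H88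
  Fermat.Agent.S36.NU.H88 Fermat.Agent.S36.NU.H51 Fermat.Agent.S36.NU.H26
  Fermat.Agent.S45.NUE.H51 Fermat.Agent.S45.NUE

/-! ### The abstract form -/

section Abs

variable {E₂ E L : Type} [Field E₂] [Field E] [Field L]

/-- **LINK, abstract form**: the congruence of the exponents of the constants from the
commuting norms and a valuation `W` of the lowest field whose values on a set `S` containing
the two norms are powers of `γ`. -/
theorem link_abs (α' β' : E₂ →+* E) (α β : E →+* L) (hcomm : α.comp β' = β.comp α')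
    (hfα : FinAlong α) (hfβ : FinAlong β) (hfα' : FinAlong α') (hfβ' : FinAlong β')
    (d : ℕ) (hdα' : degAlong α' = d) (hdβ' : degAlong β' = d)
    (n : ℕ) (hn : 0 < n) (hcop : Nat.Coprime n d) (f : L) (hf : f ≠ 0)
    (cα cβ : E₂) (gα gβ : E)
    (hNα : normAlongHom α f = β' cα * gα ^ n) (hNβ : normAlongHom β f = α' cβ * gβ ^ n)
    (W : ValuationSubring E₂) (γ : W.ValueGroup) (hγ0 : γ ≠ 0) (hγ1 : γ ≠ 1)
    (S : Set E₂) (hS : ∀ x ∈ S, x ≠ 0 → ∃ m : ℤ, W.valuation x = γ ^ m)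
    (hSα : normAlongHom β' gα ∈ S) (hSβ : normAlongHom α' gβ ∈ S)
    (mα mβ : ℤ) (hvα : W.valuation cα = γ ^ mα) (hvβ : W.valuation cβ = γ ^ mβ) :
    (n : ℤ) ∣ mα - mβ := by
  have hlink := link_norm α' β' α β hcomm d hdα' hdβ' n f cα cβ gα gβ hNα hNβ
  have hgα0 : gα ≠ 0 := by
    rintro rfl
    rw [zero_pow hn.ne', mul_zero] at hNα
    exact normAlongHom_ne_zero α hfα f hf hNα
  have hgβ0 : gβ ≠ 0 := by
    rintro rfl
    rw [zero_pow hn.ne', mul_zero] at hNβ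
    exact normAlongHom_ne_zero β hfβ f hf hNβ
  have hNgα0 : normAlongHom β' gα ≠ 0 := normAlongHom_ne_zero β' hfβ' gα hgα0
  have hNgβ0 : normAlongHom α' gβ ≠ 0 := normAlongHom_ne_zero α' hfα' gβ hgβ0
  obtain ⟨k₁, hk₁⟩ := hS _ hSα hNgα0
  obtain ⟨k₂, hk₂⟩ := hS _ hSβ hNgβ0
  have hval := congrArg W.valuation hlink
  rw [map_mul, map_mul, map_pow, map_pow, map_pow, map_pow, hvα, hvβ, hk₁, hk₂] at hval
  exact link_val γ hγ0 hγ1 d n hcop mα mβ k₁ k₂ hval

end Abs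

/-! ### The modular tower -/

/-- The degree of `α : F_M → F_{M q}` is `q` or `q + 1`. -/
theorem finrankAlong_alpha_cases (M q : ℕ) [NeZero M] [NeZero q] (hq : q.Prime) :
    finrankAlong Kbar (heckeAlphaBar Kbar M q) = q ∨
      finrankAlong Kbar (heckeAlphaBar Kbar M q) = q + 1 := by
  by_cases h : q ∣ M
  · exact Or.inl (Fermat.Agent.NEB.OLD.H6.finrankAlong_alpha_of_dvd M q hq h)
  · exact Or.inr (Fermat.Agent.RED.H95.finrankAlong_alpha hq h)

/-- `n` prime to `6 q (q - 1) (q + 1)` is prime to the degree of `α`. -/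
theorem goodExp_coprime_deg (M q n : ℕ) [NeZero M] [NeZero q] (hq : q.Prime)
    (hgood : GoodExp q n) :
    Nat.Coprime n (finrankAlong Kbar (heckeAlphaBar Kbar M q)) := by
  have hg : Nat.Coprime n (6 * q * (q - 1) * (q + 1)) := hgood
  rcases finrankAlong_alpha_cases M q hq with h | h
  · rw [h]
    exact Nat.Coprime.coprime_dvd_right ⟨6 * (q - 1) * (q + 1), by ring⟩ hg
  · rw [h]
    exact Nat.Coprime.coprime_dvd_right ⟨6 * q * (q - 1), by ring⟩ hg

/-- The commuting square `α ∘ β' = β ∘ α'`. -/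
theorem heckeComm_sq (q M₁ : ℕ) [NeZero M₁] [NeZero q] [NeZero (M₁ * q)] :
    (heckeAlphaBar Kbar (M₁ * q) q).toRingHom.comp (heckeBetaBar Kbar M₁ q).toRingHom
      = (heckeBetaBar Kbar (M₁ * q) q).toRingHom.comp (heckeAlphaBar Kbar M₁ q).toRingHom := by
  ext x
  simp only [RingHom.comp_apply, AlgHom.toRingHom_eq_coe, RingHom.coe_coe,
    coe_heckeBetaBar, coe_heckeAlphaBar]

/-- The value of a constant of absolute value `v(q) ^ m` at a valuation of
`F_N` inducing `A` on the constants. -/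
theorem val_const_of_isLowVal (A : ValuationSubring Kbar) (N : ℕ) [NeZero N] (q : ℕ)
    (W : ValuationSubring (FN N)) (hW : IsLowVal A N q W) (c : Kbar) (m : ℤ)
    (hm : A.valuation c = A.valuation (q : Kbar) ^ m) :
    W.valuation (algebraMap Kbar (FN N) c) = W.valuation ((q : ℕ) : FN N) ^ m := by
  have h1 : A.valuation c = A.valuation ((q : Kbar) ^ m) := by rw [map_zpow₀]; exact hm
  have h2 := val_algebraMap_congr A W hW.const h1
  rw [h2, map_zpow₀, map_natCast, map_zpow₀]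

/-- **LINK-MOD.** -/
theorem link_mod (A : ValuationSubring Kbar) (q M₁ : ℕ) [NeZero M₁] [NeZero q]
    [NeZero (M₁ * q)] [NeZero (M₁ * q * q)]
    (hq : q.Prime) (hA : A.LiesOverPrime q) (n : ℕ) (hn : 0 < n) (hgood : GoodExp q n)
    (f : FN (M₁ * q * q)) (hf : f ≠ 0) (cα cβ : Kbar) (gα gβ : FN (M₁ * q))
    (hcα : ∀ σ ∈ A.inertiaSubgroupIn ℚ, σ cα = cα) (hcβ : ∀ σ ∈ A.inertiaSubgroupIn ℚ, σ cβ = cβ)
    (hgα : gα ∈ L0 A (M₁ * q)) (hgβ : gβ ∈ L0 A (M₁ * q))
    (hNα : normAlongHom (heckeAlphaBar Kbar (M₁ * q) q).toRingHom f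
      = algebraMap Kbar _ cα * gα ^ n)
    (hNβ : normAlongHom (heckeBetaBar Kbar (M₁ * q) q).toRingHom f
      = algebraMap Kbar _ cβ * gβ ^ n)
    (mα mβ : ℤ) (hmα : A.valuation cα = A.valuation (q : Kbar) ^ mα)
    (hmβ : A.valuation cβ = A.valuation (q : Kbar) ^ mβ) : (n : ℤ) ∣ mα - mβ := by
  have hW : IsLowVal A M₁ q (V20 A M₁) := isLowVal_V20 A M₁ q hq hA
  have hq0 : ((q : ℕ) : FN M₁) ≠ 0 := Nat.cast_ne_zero.2 hq.ne_zero
  have e1 : algebraMap Kbar (FN (M₁ * q)) cα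
      = (heckeBetaBar Kbar M₁ q).toRingHom (algebraMap Kbar (FN M₁) cα) :=
    ((heckeBetaBar Kbar M₁ q).commutes cα).symm
  have e2 : algebraMap Kbar (FN (M₁ * q)) cβ
      = (heckeAlphaBar Kbar M₁ q).toRingHom (algebraMap Kbar (FN M₁) cβ) :=
    ((heckeAlphaBar Kbar M₁ q).commutes cβ).symm
  exact link_abs (heckeAlphaBar Kbar M₁ q).toRingHom (heckeBetaBar Kbar M₁ q).toRingHom
    (heckeAlphaBar Kbar (M₁ * q) q).toRingHom (heckeBetaBar Kbar (M₁ * q) q).toRingHom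
    (heckeComm_sq q M₁)
    (alpha_finite (M₁ * q) q) (beta_finite (M₁ * q) q) (alpha_finite M₁ q) (beta_finite M₁ q)
    (finrankAlong Kbar (heckeAlphaBar Kbar M₁ q)) rfl
    (Fermat.Agent.L.Pivot.Geom.H24.finrank_beta_eq_alpha_h24 q hq M₁)
    n hn (goodExp_coprime_deg M₁ q n hq hgood) f hf
    (algebraMap Kbar (FN M₁) cα) (algebraMap Kbar (FN M₁) cβ) gα gβ
    (e1 ▸ hNα) (e2 ▸ hNβ)
    (V20 A M₁) ((V20 A M₁).valuation ((q : ℕ) : FN M₁))
    ((Valuation.ne_zero_iff _).2 hq0) (hW.val_q_lt_one hA).ne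
    (L0 A M₁ : Set (FN M₁)) (fun x hx hx0 => hW.exact x hx hx0)
    (norm_mem_L0 A (heckeBetaBar Kbar M₁ q) (arithEquivariant_beta M₁ q) (beta_finite M₁ q)
      gα hgα)
    (norm_mem_L0 A (heckeAlphaBar Kbar M₁ q) (arithEquivariant_alpha M₁ q) (alpha_finite M₁ q)
      gβ hgβ)
    mα mβ (val_const_of_isLowVal A M₁ q _ hW cα mα hmα)
    (val_const_of_isLowVal A M₁ q _ hW cβ mβ hmβ)

end Fermat.Agent.S45.NUE.H26
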