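import Fermat.Agent.S45.NUE.H51_ValVecEMod
import Fermat.Agent.S45.NUE.H23_ValE
import Fermat.Agent.S45.NUE.H26_LinkE

/-!
# S45 / NU_e, package E-VV, leaf E-VV-SMALL (helper26)

Small inputs of the final assembly `valVecE_final` of helper51:

* `isConstA_VE` : the valuations `VE a` of level `N = M q^e` induce `A` on the constants;
* `VE_ne_top` : they are not trivial;
* `linkHyp` : `H51.LinkHyp A q M₁` (= `link_mod`);
* `valVecE_mono` : `ValVecE` is monotone in the predicate `U`.
-/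

set_option autoImplicit false
set_option linter.style.haveILetI false
set_option linter.unusedSectionVars false
set_option linter.unusedVariables false
set_option synthInstance.maxHeartbeats 400000
set_option maxHeartbeats 1000000

noncomputable section

namespace Fermat.Agent.S45.NUE.H26

open AlgebraicCurve ModularCurve Fermat.Agent.S24 Fermat.Agent.Lib.HeckeComm
  Fermat.Agent.S36.H44 Fermat.Agent.BAD Fermat.Agent.S36.NU.H23 Fermat.Agent.BAD.H88
  Fermat.Agent.S45.NUE

section Level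

variable (A : ValuationSubring Kbar)
variable (N q M e : ℕ) (B k : ℤ) (hN : N = M * q ^ e) (hB : B * M + k * (q : ℤ) ^ e = 1)
  (hq : q.Prime) [NeZero N] [NeZero q]

/-- The valuations `VE a` induce `A` on the constants. -/
theorem isConstA_VE (a : ℕ) :
    Fermat.Agent.S45.NUE.H51.IsConstA A
      (Fermat.Agent.S45.NUE.H23.VE A N q M e B k hN hB hq a) := by
  intro c hc
  haveI := Fermat.Agent.S45.NUE.H23.neZero_nE N q M e B k hN hB hq a
  exact Fermat.Agent.S45.NUE.H23.const_memG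
    (Fermat.Agent.S45.NUE.H23.hE N q M e B k hN hB hq a) A c

/-- A valuation ring of `L0 A N` which induces `A` on the constants is not trivial. -/
theorem ne_top_of_isConstA (hA : A.LiesOverPrime q) (W : ValuationSubring ↥(L0 A N))
    (hW : Fermat.Agent.S45.NUE.H51.IsConstA A W) : W ≠ ⊤ := by
  intro htop
  have hqI : ∀ σ ∈ A.inertiaSubgroupIn ℚ, σ ((q : Kbar)⁻¹) = (q : Kbar)⁻¹ := fun σ _ => by
    rw [map_inv₀, map_natCast]
  have h1 : Fermat.Agent.S45.NUE.H51.constL0 (N := N) A ((q : Kbar)⁻¹) hqI ∈ W := by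
    rw [htop]
    exact ValuationSubring.mem_top _
  have h2 : (q : Kbar)⁻¹ ∈ A := (hW _ hqI).1 h1
  have h3 : A.valuation (q : Kbar) < 1 := (A.mem_nonunits_iff).1 hA
  have h4 : A.valuation ((q : Kbar)⁻¹) ≤ 1 := (ValuationSubring.valuation_le_one_iff _ _).2 h2
  rw [map_inv₀] at h4
  have hq0 : (q : Kbar) ≠ 0 := Nat.cast_ne_zero.mpr (NeZero.ne q)
  have h5 := (inv_le_one₀ (zero_lt_iff.2 ((Valuation.ne_zero_iff _).2 hq0))).1 h4
  exact absurd h3 (not_lt.2 h5)

/-- The valuations `VE a` are not trivial. -/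
theorem VE_ne_top (hA : A.LiesOverPrime q) (a : ℕ) :
    Fermat.Agent.S45.NUE.H23.VE A N q M e B k hN hB hq a ≠ ⊤ :=
  ne_top_of_isConstA A N q hA _ (isConstA_VE A N q M e B k hN hB hq a)

end Level

/-- **The congruence of the exponents of the two constants** (`link_mod` in the form of
`H51.LinkHyp`). -/
theorem linkHyp (A : ValuationSubring Kbar) (q M₁ : ℕ) [NeZero M₁] [NeZero q]
    [NeZero (M₁ * q)] [NeZero (M₁ * q * q)] (hq : q.Prime) (hA : A.LiesOverPrime q) :
    Fermat.Agent.S45.NUE.H51.LinkHyp A q M₁ := by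
  intro n hn hgood f hf cα cβ gα gβ hcα hcβ hgα hgβ hNα hNβ mα mβ hmα hmβ
  exact link_mod A q M₁ hq hA n hn hgood f hf cα cβ gα gβ hcα hcβ hgα hgβ hNα hNβ mα mβ hmα hmβ

/-- `ValVecE` is monotone in the predicate. -/
theorem valVecE_mono (A : ValuationSubring Kbar) (q M : ℕ) [NeZero M] [NeZero q]
    [NeZero (M * q)] (U U' : ↥(L0 A (M * q)) → Prop) (h : ∀ x, U x → U' x) :
    ValVecE A q M U → ValVecE A q M U' := by
  rintro ⟨K, hK, hV⟩
  refine ⟨K, hK, fun n hn hgood f hf hα hβ => ?_⟩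
  obtain ⟨b, w, hw, hU⟩ := hV n hn hgood f hf hα hβ
  exact ⟨b, w, hw, h _ hU⟩

end Fermat.Agent.S45.NUE.H26
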