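import Fermat.Agent.S45.NUE.H28_RadQE

/-!
# S45 / NU_e, package E-FIN, leaf E-RADQ (helper28): the index-generic forms

As `S45/NUE/H28_RadQE.lean`, for a chart `C` indexed by `ι'` and an `NRData` `D` indexed by `ι`,
with `idx : ι' → ι` surjective and `C.V i = D.V (idx i)` (the shape of helper65's
`H65.valE_of_nrData`).

* `hthreeI`, `hthreeI_inv` : **(THREE)**;
* `harchI` : rank one;
* `critI`, `critI_inv` : **TI3-VAL**;
* `isRadQ_chartI`, `isRadQ_chartI_inv` : **(RADQ)**.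
-/

set_option autoImplicit false
set_option synthInstance.maxHeartbeats 400000
set_option maxHeartbeats 1000000
set_option linter.style.haveILetI false
set_option linter.unusedSectionVars false
set_option linter.unusedVariables false

noncomputable section

open ModularCurve AlgebraicCurve Polynomial IntermediateField
open Fermat.Agent.S24 Fermat.Agent.BAD.H88 Fermat.Agent.S28 Fermat.Agent.S28.H73
open Fermat.Agent.RED.H73 Fermat.Agent.RED.H17 Fermat.Agent.S36.NU.H88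
open Fermat.Agent.S36.NU.H23 Fermat.Agent.S36.NU.H41 Fermat.Agent.S36.NU.H17
open Fermat.Agent.S36.NU.H16 Fermat.Agent.S36.NU.H65 Fermat.Agent.BAD

namespace Fermat.Agent.S45.NUE.H28

section ChartI

variable (A : ValuationSubring Kbar) (q M' N : ℕ) [NeZero M'] [NeZero N] [NeZero q]
  (hq : q.Prime) (hqM : ¬ q ∣ M') (hA : A.LiesOverPrime q)
  (hle : modularFunctionFieldBar M' ≤ modularFunctionFieldBar N)
  {ι : Type} [Fintype ι] [DecidableEq ι] {κ : ι → Type} [∀ i, Field (κ i)]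
  (alg : ∀ i, Algebra (FM A M') (κ i))
  (D : @H42.NRData ↥(L0 A M') ↥(L0 A N) (FM A M') _ _ _ (algL0 A hle) ι κ _ alg)
  (hVE : @H42.NRData.VE ↥(L0 A M') ↥(L0 A N) (FM A M') _ _ _ (algL0 A hle) ι κ _ alg D
    = VE0 A M')
  (hdeg : ∑ i, @H42.NRData.e ↥(L0 A M') ↥(L0 A N) (FM A M') _ _ _ (algL0 A hle) ι κ _ alg D i
        * @Module.finrank (FM A M') (κ i) _ _ (alg i).toModule
      = @Module.finrank ↥(L0 A M') ↥(L0 A N) _ _ (algL0 A hle).toModule)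
  {kk : Type*} {ι' : Type*} [Finite ι'] {κC : ι' → Type*} [Field kk] [∀ i, Field (κC i)]
  [∀ i, Algebra kk (κC i)]
  (C : Chart ↥(Rur A) ↥(L0 A N) kk ι' κC)
  (idx : ι' → ι) (hidx : Function.Surjective idx)
  (hV : ∀ i, C.V i = @H42.NRData.V ↥(L0 A M') ↥(L0 A N) (FM A M') _ _ _ (algL0 A hle) ι κ _
    alg D (idx i))
  (i₀ : ι')

include hq hqM hA hVE hdeg hV hidx in
/-- **(THREE)** for `j`, index-generic. -/
theorem hthreeI (f : ↥(L0 A N)) (hf : ∀ i, f ∈ C.V i) :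
    ∃ P : (↥(L0 A N))[X], P.Monic ∧
      (∀ m, P.coeff m ∈ C.V i₀ ∧ P.coeff m ∈ (↥(Kur A))⟮j0 A N⟯) ∧ P.eval f = 0 := by
  obtain ⟨P, hP, hc, hPV, hroot⟩ := int_modE A q M' N hq hqM hA hle alg D hVE hdeg f
    (fun i => by
      obtain ⟨i', rfl⟩ := hidx i
      exact hV i' ▸ hf i')
  refine ⟨P, hP, fun m => ⟨(hV i₀).symm ▸ hPV m (idx i₀), ?_⟩, hroot⟩
  obtain ⟨a, -, e⟩ := hc m
  rw [e]
  exact incl_mem_adjoin_j0E A M' N hle a

include hq hqM hA hVE hdeg hV hidx in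
/-- **(THREE)** for `1 / j`, index-generic. -/
theorem hthreeI_inv (f : ↥(L0 A N)) (hf : ∀ i, f ∈ C.V i) :
    ∃ P : (↥(L0 A N))[X], P.Monic ∧
      (∀ m, P.coeff m ∈ C.V i₀ ∧ P.coeff m ∈ (↥(Kur A))⟮(j0 A N)⁻¹⟯) ∧ P.eval f = 0 := by
  rw [Fermat.Agent.S36.NU.H88.adjoin_inv_eq ↥(Kur A) (j0 A N)]
  exact hthreeI A q M' N hq hqM hA hle alg D hVE hdeg C idx hidx hV i₀ f hf

include hV in
/-- The valuations of the chart are of rank one. -/
theorem harchI (i : ι') (x y : ↥(L0 A N)) (hx : (C.V i).valuation x < 1) (hy : y ≠ 0) :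
    ∃ n : ℕ, (C.V i).valuation (x ^ n) < (C.V i).valuation y := by
  rw [hV i] at hx ⊢
  exact @H42.NRData.hA ↥(L0 A M') ↥(L0 A N) (FM A M') _ _ _ (algL0 A hle) ι κ _ alg D (idx i)
    x y hx hy

variable (hj : j0 A N ∈ C.V i₀) (htr : Transcendental kk (C.red i₀ ⟨j0 A N, hj⟩))

include hq hqM hA hVE hdeg hV hidx htr in
/-- **TI3-VAL** for the chart of `j`, index-generic. -/
theorem critI {f : ↥(L0 A N)}
    (hf₁ : IsIntegral ↥(Algebra.adjoin ↥(Kur A) {j0 A N}) f) (hf₂ : ∀ i, f ∈ C.V i) :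
    f ∈ intSub ↥(Rur A) (j0 A N) :=
  isIntegral_adjoin_of_forall_mem ↥(Rur A) ↥(Kur A) (j0 A N)
    (transcendental_j0 A N) C.V i₀
    (hG_chartE A N C i₀ (j0 A N) hj htr)
    (hthreeI A q M' N hq hqM hA hle alg D hVE hdeg C idx hidx hV i₀) hf₁ hf₂

include hq hqM hA hVE hdeg hV hidx htr in
/-- **TI3-VAL** for the chart of `1 / j`, index-generic. -/
theorem critI_inv {f : ↥(L0 A N)}
    (hf₁ : IsIntegral ↥(Algebra.adjoin ↥(Kur A) {(j0 A N)⁻¹}) f) (hf₂ : ∀ i, f ∈ C.V i) :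
    f ∈ intSub ↥(Rur A) (j0 A N)⁻¹ :=
  isIntegral_adjoin_of_forall_mem ↥(Rur A) ↥(Kur A) (j0 A N)⁻¹
    (transcendental_inv ↥(Kur A) _ (transcendental_j0 A N)) C.V i₀
    (hG_chartE_inv A N C i₀ (j0 A N) hj htr)
    (hthreeI_inv A q M' N hq hqM hA hle alg D hVE hdeg C idx hidx hV i₀) hf₁ hf₂

include hq hqM hA hVE hdeg hV hidx htr in
/-- **(RADQ)** for a chart of `j`, index-generic. -/
theorem isRadQ_chartI (hB0 : C.B = intSub ↥(Rur A) (j0 A N)) (ϖ : ↥(Rur A)) (hϖ : ϖ ≠ 0) :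
    ∀ β ∈ C.B, (∀ i, C.rd i β = 0) → IsRadQ C.B ϖ β := fun _ hβ hrd =>
  isRadQ_of_rd_eq_zero_adjoin ↥(Rur A) ↥(Kur A) C (j0 A N) (transcendental_j0 A N)
    (fun _ => by rw [hB0]; exact Iff.rfl) i₀
    (hG_chartE A N C i₀ (j0 A N) hj htr)
    (hthreeI A q M' N hq hqM hA hle alg D hVE hdeg C idx hidx hV i₀)
    (harchI A M' N hle alg D C idx hV)
    ϖ (algebraMap_Rur_ne_zeroE A N ϖ hϖ) hβ hrd

include hq hqM hA hVE hdeg hV hidx htr in
/-- **(RADQ)** for a chart of `1 / j`, index-generic. -/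
theorem isRadQ_chartI_inv (hBoo : C.B = intSub ↥(Rur A) (j0 A N)⁻¹) (ϖ : ↥(Rur A))
    (hϖ : ϖ ≠ 0) :
    ∀ β ∈ C.B, (∀ i, C.rd i β = 0) → IsRadQ C.B ϖ β := fun _ hβ hrd =>
  isRadQ_of_rd_eq_zero_adjoin ↥(Rur A) ↥(Kur A) C (j0 A N)⁻¹
    (transcendental_inv ↥(Kur A) _ (transcendental_j0 A N))
    (fun _ => by rw [hBoo]; exact Iff.rfl) i₀
    (hG_chartE_inv A N C i₀ (j0 A N) hj htr)
    (hthreeI_inv A q M' N hq hqM hA hle alg D hVE hdeg C idx hidx hV i₀)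
    (harchI A M' N hle alg D C idx hV)
    ϖ (algebraMap_Rur_ne_zeroE A N ϖ hϖ) hβ hrd

end ChartI

end Fermat.Agent.S45.NUE.H28
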