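import Fermat.Agent.S36.NU.H24_BridgeB

/-!
# S45 / NU_e, package E-ABS (helper79): the abstract datum of the two levels, general form

Modular picture: upper level `N = M' q ^ e` (`e ≥ 3`, `q ∤ M'`), lower level `N / q`; the
valuations `v_(a,b)`, `a + b = e`, of the inertia-fixed functions `L₀` of level `N`
(`ι = Fin (e + 1)`), the valuations `v'_(a',b')`, `a' + b' = e - 1` of the inertia-fixed functions
`L₀'` of level `N / q` (`ι' = Fin e`); the norms `Nα`, `Nβ : L₀ → L₀'` along the two degeneracy
maps.

* `IsGenT`, `TrivRedT` : `NUData.IsGen`, `NUData.TrivRed` of S36 (helper79, `H79_B3`) for a bare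
  `TotN` and a set `SS` of multiple points;
* `TotN.IsConst` : constants of `L₀`;
* `LowRoot T' n` : the lower level has `n`-th roots of units of the form `constant · gⁿ`
  (`lowRoot_of_scale` : from "constants which are units have constant reductions" + "scaling");
* `SingleRel` : a component `i` of the upper level which is the ONLY component above the
  component `i'` of the lower level along the norm map `Nm`:
  `rd' i' (Nm h) = R.N (rd i h) ^ e` for units `h`, `R : ResNorm`, `R.f * e = d` (`d = q`);
* `DoubleRel` : two components `i₁`, `i₂` above `i'`: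
  `rd' i' (Nm h) = R₁.N (rd i₁ h) ^ e₁ * R₂.N (rd i₂ h) ^ e₂`, `R₁.f * e₁ + R₂.f * e₂ = d`;
* `SideE` : one degeneracy map: norm `Nm`, the map `zm` on the multiple points, the set `S` of
  single components with their `SingleRel`, norms of units are units (`unit`), norms of functions
  regular on the fibre of `z ∈ SS` are regular on the fibre of `zm z` (`reg`), and the lower level
  is GLUED at `zm z` (`glue'`: `H24.Glued`, known by induction on `e`);
* `NUDataE` : the two sides `sα`, `sβ`, every component is single for `α` or for `β`, and one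
  `DoubleRel` along `α` at `(i₁, i₂)` with `i₁`, `i₂` single for `β`; `jα` single for `α`.

Modular instance (`e ≥ 3`): `sα.S (a,b) ↔ 2 ≤ b`, `sβ.S (a,b) ↔ 2 ≤ a`, `i₁ = (e,0)`,
`i₂ = (e-1,1)` (`e₁ = 1`, `e₂ = q - 1`, `f = 1`), `jα = (0,e)`, `d = q`.
-/

set_option autoImplicit false
set_option linter.style.haveILetI false

noncomputable section

open AlgebraicCurve

attribute [local instance] Classical.propDecidable

namespace Fermat.Agent.S45.NUE.H79

open Fermat.Agent.RED.H17 Fermat.Agent.RED Fermat.Agent.BAD.H79 Fermat.Agent.BAD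
open Fermat.Agent.S36.NU.H79 Fermat.Agent.S36.NU.H24

section Upper

variable {K L₀ L k ι Z : Type*} {E : ι → Type*} [Field K] [Field L₀] [Field L]
  [Algebra K L] [Algebra L₀ L] [Field k] [Fintype ι] [∀ i, Field (E i)]
  [∀ i, Algebra k (E i)]

/-- `c` is a constant of `L₀`. -/
def IsConstT (_T : TotN K L₀ L k ι Z E) (c : L₀) : Prop :=
  ∃ c' : K, algebraMap L₀ L c = algebraMap K L c'

/-- `s` is a **local generator** of `h` at `z` (for the exponent `n`): a unit for all
valuations such that `h s ^ n` has no zero or pole on the fibre of `z`. -/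
def IsGenT (T : TotN K L₀ L k ι Z E) (n : ℕ) (z : Z) (h s : L₀) : Prop :=
  (∀ i, T.rdN i s ≠ 0) ∧ ∀ P, T.ρ P = z → P.ord (algebraMap L₀ L (h * s ^ n)) = 0

/-- **Trivial reduction data** (for a bare `TotN` and a set `SS` of multiple points): the
reductions of `H` are `c G i ^ n` with a common constant `c`, and at every `z ∈ SS` the functions
`G i · red i s`, for a local generator `s` of `H` at `z`, take the same non-zero value. -/
def TrivRedT (T : TotN K L₀ L k ι Z E) (SS : Set Z) (n : ℕ) (H : L₀) : Prop :=
  ∃ (c : k) (G : ∀ i, E i), c ≠ 0 ∧ (∀ i, T.rdN i H = algebraMap k (E i) c * G i ^ n) ∧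
    ∀ z ∈ SS, ∀ s : L₀, IsGenT T n z H s →
      ∃ a : k, a ≠ 0 ∧ ∀ i, HasValue (T.pt i z) (G i * T.rdN i s) a

/-- **Roots at the lower level**: a unit for all valuations of the form `c gⁿ` with a constant
`c` is `C g'ⁿ` with `g'` a unit for all valuations and `C` a constant whose reductions are the
same constant `a` of the residue fields. -/
def LowRoot (T : TotN K L₀ L k ι Z E) (n : ℕ) : Prop :=
  ∀ f c g : L₀, IsConstT T c → f = c * g ^ n → (∀ i, T.rdN i f ≠ 0) →
    ∃ (g' C : L₀) (a : k), IsConstT T C ∧ C ≠ 0 ∧ a ≠ 0 ∧ (∀ i, T.rdN i g' ≠ 0) ∧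
      f = C * g' ^ n ∧ ∀ i, T.rdN i f = algebraMap k (E i) a * T.rdN i g' ^ n

end Upper

section Rel

variable {K L₀ L k ι Z : Type*} {E : ι → Type*} [Field K] [Field L₀] [Field L]
  [Algebra K L] [Algebra L₀ L] [Field k] [Fintype ι] [∀ i, Field (E i)]
  [∀ i, Algebra k (E i)]
  {K' L₀' L' ι' Z' : Type*} {E' : ι' → Type*} [Field K'] [Field L₀'] [Field L']
  [Algebra K' L'] [Algebra L₀' L'] [Fintype ι'] [∀ i, Field (E' i)]
  [∀ i, Algebra k (E' i)]

/-- **A single component**: `i` is the only component of the upper level above the component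
`i'` of the lower level along `Nm`; `e` is the ramification index, `R` the norm of the residue
fields (`R.f` the residue degree), `d = R.f * e` the local degree. -/
structure SingleRel (T : TotN K L₀ L k ι Z E) (T' : TotN K' L₀' L' k ι' Z' E')
    (Nm : L₀ →* L₀') (SS : Set Z) (zm : Z → Z') (d : ℕ) (i : ι) where
  /-- the component of the lower level -/
  i' : ι'
  /-- the norm of the residue fields -/
  R : ResNorm k (E i) (E' i')
  /-- the ramification index -/
  e : ℕ
  deg : R.f * e = d
  /-- NORM-RED with ramification, for units -/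
  norm : ∀ h : L₀, (∀ j, T.rdN j h ≠ 0) → T'.rdN i' (Nm h) = R.N (T.rdN i h) ^ e
  /-- the point of the component `i` over `z` lies over the point of `i'` over `zm z` -/
  pt : ∀ z ∈ SS, ∀ (y : E' i') (c : k),
    HasValue (T.pt i z) (R.j y) c → HasValue (T'.pt i' (zm z)) y c

/-- **A double component**: `i₁`, `i₂` are the two components of the upper level above the
component `i'` of the lower level along `Nm`. -/
structure DoubleRel (T : TotN K L₀ L k ι Z E) (T' : TotN K' L₀' L' k ι' Z' E')
    (Nm : L₀ →* L₀') (SS : Set Z) (zm : Z → Z') (d : ℕ) (i₁ i₂ : ι) where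
  /-- the component of the lower level -/
  i' : ι'
  /-- the norms of the residue fields -/
  R₁ : ResNorm k (E i₁) (E' i')
  R₂ : ResNorm k (E i₂) (E' i')
  /-- the ramification indices -/
  e₁ : ℕ
  e₂ : ℕ
  deg : R₁.f * e₁ + R₂.f * e₂ = d
  pos₁ : 0 < R₁.f * e₁
  pos₂ : 0 < R₂.f * e₂
  /-- NORM-RED with ramification, for units -/
  norm : ∀ h : L₀, (∀ j, T.rdN j h ≠ 0) →
    T'.rdN i' (Nm h) = R₁.N (T.rdN i₁ h) ^ e₁ * R₂.N (T.rdN i₂ h) ^ e₂
  pt₁ : ∀ z ∈ SS, ∀ (y : E' i') (c : k),
    HasValue (T.pt i₁ z) (R₁.j y) c → HasValue (T'.pt i' (zm z)) y c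
  pt₂ : ∀ z ∈ SS, ∀ (y : E' i') (c : k),
    HasValue (T.pt i₂ z) (R₂.j y) c → HasValue (T'.pt i' (zm z)) y c

/-- **One degeneracy map** between the two levels. -/
structure SideE (T : TotN K L₀ L k ι Z E) (T' : TotN K' L₀' L' k ι' Z' E')
    (SS : Set Z) (d : ℕ) where
  /-- the norm along the degeneracy map -/
  Nm : L₀ →* L₀'
  /-- the image of a multiple point -/
  zm : Z → Z'
  /-- the single components -/
  S : ι → Prop
  single : ∀ i, S i → SingleRel T T' Nm SS zm d i
  /-- the norm of a unit for all valuations is a unit for all valuations -/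
  unit : ∀ h : L₀, (∀ i, T.rdN i h ≠ 0) → ∀ i', T'.rdN i' (Nm h) ≠ 0
  /-- norms of functions regular on the fibre of `z` are regular on the fibre of `zm z` -/
  reg : ∀ z ∈ SS, ∀ h : L₀, (∀ P, T.ρ P = z → RegAt P (algebraMap L₀ L h)) →
    ∀ Q, T'.ρ Q = zm z → RegAt Q (algebraMap L₀' L' (Nm h))
  /-- the lower level is glued at the images of the multiple points -/
  glue' : ∀ z ∈ SS, Glued T' (zm z)

end Rel

/-- **The datum of the two levels**, general form (`e ≥ 3`). -/
structure NUDataE (K L₀ L k ι Z : Type*) (E : ι → Type*) (K' L₀' L' ι' Z' : Type*)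
    (E' : ι' → Type*) [Field K] [Field L₀] [Field L] [Algebra K L] [Algebra L₀ L] [Field k]
    [Fintype ι] [∀ i, Field (E i)] [∀ i, Algebra k (E i)] [Field K'] [Field L₀'] [Field L']
    [Algebra K' L'] [Algebra L₀' L'] [Fintype ι'] [∀ i, Field (E' i)]
    [∀ i, Algebra k (E' i)] where
  /-- the conservation datum of the higher level -/
  T : TotN K L₀ L k ι Z E
  /-- the conservation datum of the lower level -/
  T' : TotN K' L₀' L' k ι' Z' E'
  /-- the multiple points (modular: the supersingular points) -/
  SS : Set Z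
  /-- the local degree (modular: the residue characteristic `q`) -/
  d : ℕ
  d_pos : 0 < d
  /-- the degeneracy map `α` -/
  sα : SideE T T' SS d
  /-- the degeneracy map `β` -/
  sβ : SideE T T' SS d
  /-- every component is single for `α` or for `β` -/
  cover : ∀ i, sα.S i ∨ sβ.S i
  /-- a component single for `α` -/
  jα : ι
  hjα : sα.S jα
  /-- the two components of the double relation along `α` -/
  i₁ : ι
  i₂ : ι
  hi₁ : sβ.S i₁
  hi₂ : sβ.S i₂
  double : DoubleRel T T' sα.Nm SS sα.zm d i₁ i₂
  deg_one : ∀ z ∈ SS, ∀ i, (T.pt i z).deg = 1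

end Fermat.Agent.S45.NUE.H79
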