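import Fermat.Agent.S45.NUE.Top
import Fermat.Agent.S45.NUE.H79_Defs
import Fermat.Agent.S36.NU.H74_FinHyps

/-!
# S45 / NU_e, leaf E-INST-B (helper96): the bridges `hNα`, `hNβ`, `hk`, `hDd` of `H65.finModE_of`

Levels `M` (lower) and `N` (upper; `N = M * q` for the degeneracy maps), `A` a valuation ring of
`ℚ̄`, `L0 A N` the inertia-fixed functions of level `N`.

* `nmL0 A φ hint hfin : L0 A N →* L0 A M` : the norm along `φ : F_M → F_N` (arithmetically
  equivariant, finite) on the inertia-fixed functions; `coe_nmL0`: its value in `F_M` is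
  `normAlongHom φ`;
* `nmAlphaE A M q`, `nmBetaE A M q` : the norms along `α`, `β : F_M → F_{M q}`
  (`coe_nmAlphaE`, `coe_nmBetaE`);
* `isConstT_of_const` : an inertia-fixed constant of `L0 A M` is a constant for every `TotN` over
  `ℚ̄`, `L0 A M`, `F_M`;
* `hN_of_isNormPowE` : **the hypotheses `hNα`, `hNβ` of `H65.finModE_of`**, for every norm map
  `Nm : L0 A N →* L0 A M` whose value in `F_M` is the norm along `φ`;
  `hNα_nmAlphaE`, `hNβ_nmBetaE` : for `nmAlphaE`, `nmBetaE`;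
* `hN_of_isNormPowE'` : the same for an abstract lower field `L₀'` with an embedding
  `ι : L0 A M → L₀'` compatible with the constants and the norm map;
* `hk_kV` : the hypothesis `hk` (residue field `kV A`, algebraically closed);
* `hDd_of_eq` : the hypothesis `hDd` from `D.d = q`.
-/

set_option autoImplicit false
set_option synthInstance.maxHeartbeats 400000
set_option maxHeartbeats 1000000
set_option linter.style.haveILetI false
set_option linter.unusedSectionVars false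

noncomputable section

open ModularCurve AlgebraicCurve

namespace Fermat.Agent.S45.NUE.H96

open Fermat.Agent.S24 Fermat.Agent.BAD Fermat.Agent.BAD.H88 Fermat.Agent.Lib.HeckeComm
  Fermat.Agent.S36.NU.H23 Fermat.Agent.S36.NU.H79 Fermat.Agent.S36.NU.H10
  Fermat.Agent.S36.H44 Fermat.Agent.S45.NUE.H79 Fermat.Agent.S36.NU.H26
  Fermat.Agent.S28.H73 Fermat.Agent.S36.NU.H16

/-! ### The norm maps on the inertia-fixed functions -/

section NormMap

variable (A : ValuationSubring Kbar) {M N : ℕ} [NeZero M] [NeZero N]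
  (φ : FN M →ₐ[Kbar] FN N) (hint : ArithEquivariant φ) (hfin : FiniteAlong Kbar φ)

theorem normAlongHom_one_E {E L : Type*} [Field E] [Field L] (ψ : E →+* L) :
    normAlongHom ψ (1 : L) = 1 := by
  letI := ψ.toAlgebra
  exact map_one (Algebra.norm E)

/-- The norm along `φ` on the inertia-fixed functions, with values in the inertia-fixed
functions. -/
def nmL0 : ↥(L0 A N) →* ↥(L0 A M) where
  toFun h := ⟨normAlongHom φ.toRingHom (h : FN N), norm_mem_L0 A φ hint hfin _ h.2⟩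
  map_one' := Subtype.ext (normAlongHom_one_E φ.toRingHom)
  map_mul' x y := Subtype.ext (normAlongHom_mul φ.toRingHom (x : FN N) (y : FN N))

theorem coe_nmL0 (h : ↥(L0 A N)) :
    ((nmL0 A φ hint hfin h : ↥(L0 A M)) : FN M) = normAlongHom φ.toRingHom (h : FN N) := rfl

end NormMap

section AlphaBeta

variable (A : ValuationSubring Kbar) (M q : ℕ) [NeZero M] [NeZero q] [NeZero (M * q)]

/-- The norm along `α : F_M → F_{M q}` on the inertia-fixed functions. -/
def nmAlphaE : ↥(L0 A (M * q)) →* ↥(L0 A M) :=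
  nmL0 A (heckeAlphaBar Kbar M q) (arithEquivariant_alpha M q) (alpha_finite M q)

/-- The norm along `β : F_M → F_{M q}` on the inertia-fixed functions. -/
def nmBetaE : ↥(L0 A (M * q)) →* ↥(L0 A M) :=
  nmL0 A (heckeBetaBar Kbar M q) (arithEquivariant_beta M q) (beta_finite M q)

theorem coe_nmAlphaE (h : ↥(L0 A (M * q))) :
    ((nmAlphaE A M q h : ↥(L0 A M)) : FN M)
      = normAlongHom (heckeAlphaBar Kbar M q).toRingHom (h : FN (M * q)) := rfl

theorem coe_nmBetaE (h : ↥(L0 A (M * q))) :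
    ((nmBetaE A M q h : ↥(L0 A M)) : FN M)
      = normAlongHom (heckeBetaBar Kbar M q).toRingHom (h : FN (M * q)) := rfl

end AlphaBeta

/-! ### The bridges `hNα`, `hNβ` -/

section Bridge

variable (A : ValuationSubring Kbar) {M N : ℕ} [NeZero M] [NeZero N]
  {kk ι' Z' : Type*} {κ' : ι' → Type*} [Field kk] [Fintype ι'] [∀ i, Field (κ' i)]
  [∀ i, Algebra kk (κ' i)]

/-- An inertia-fixed constant is a constant of `L0 A M`, for every `TotN`. -/
theorem isConstT_of_const (T' : TotN Kbar ↥(L0 A M) (FN M) kk ι' Z' κ') (c : Kbar)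
    (hc : ∀ σ ∈ A.inertiaSubgroupIn ℚ, σ c = c) :
    IsConstT T' (⟨algebraMap Kbar (FN M) c, (const_mem_L0_iff A c).2 hc⟩ : ↥(L0 A M)) :=
  ⟨c, rfl⟩

/-- **E-INST-B, the norms**: the hypotheses `hNα`, `hNβ` of `H65.finModE_of`, for a norm map
`Nm` which is the norm along `φ`. -/
theorem hN_of_isNormPowE (φ : FN M →ₐ[Kbar] FN N)
    (T' : TotN Kbar ↥(L0 A M) (FN M) kk ι' Z' κ')
    (Nm : ↥(L0 A N) →* ↥(L0 A M))
    (hNm : ∀ h : ↥(L0 A N),
      ((Nm h : ↥(L0 A M)) : FN M) = normAlongHom φ.toRingHom (h : FN N)) :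
    ∀ (n : ℕ) (h : ↥(L0 A N)), IsNormPowE A φ n (h : FN N) →
      ∃ c g : ↥(L0 A M), IsConstT T' c ∧ Nm h = c * g ^ n := by
  rintro n h ⟨c, g, hc, hg, hcg⟩
  refine ⟨⟨algebraMap Kbar (FN M) c, (const_mem_L0_iff A c).2 hc⟩, ⟨g, hg⟩,
    isConstT_of_const A T' c hc, Subtype.ext ?_⟩
  rw [hNm h, hcg]
  rfl

end Bridge

section BridgeAbs

variable (A : ValuationSubring Kbar) {M N : ℕ} [NeZero M] [NeZero N]
  {kk ι' Z' K' L₀' L' : Type*} {κ' : ι' → Type*} [Field kk] [Fintype ι'] [∀ i, Field (κ' i)]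
  [∀ i, Algebra kk (κ' i)] [Field K'] [Field L₀'] [Field L'] [Algebra K' L'] [Algebra L₀' L']

/-- **E-INST-B, the norms, abstract lower field**: the same for any presentation
`j : L0 A M →+* L₀'` of the lower level whose constants `algebraMap ℚ̄ F_M c` (`c` fixed by
inertia) are constants of `T'`. -/
theorem hN_of_isNormPowE' (φ : FN M →ₐ[Kbar] FN N)
    (T' : TotN K' L₀' L' kk ι' Z' κ') (j : ↥(L0 A M) →+* L₀')
    (hj : ∀ (c : Kbar) (hc : ∀ σ ∈ A.inertiaSubgroupIn ℚ, σ c = c),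
      IsConstT T' (j ⟨algebraMap Kbar (FN M) c, (const_mem_L0_iff A c).2 hc⟩))
    (Nm : ↥(L0 A N) →* L₀') (Nm₀ : ↥(L0 A N) → ↥(L0 A M))
    (hNm₀ : ∀ h : ↥(L0 A N), Nm h = j (Nm₀ h))
    (hNm : ∀ h : ↥(L0 A N),
      ((Nm₀ h : ↥(L0 A M)) : FN M) = normAlongHom φ.toRingHom (h : FN N)) :
    ∀ (n : ℕ) (h : ↥(L0 A N)), IsNormPowE A φ n (h : FN N) →
      ∃ c g : L₀', IsConstT T' c ∧ Nm h = c * g ^ n := by
  rintro n h ⟨c, g, hc, hg, hcg⟩
  refine ⟨j ⟨algebraMap Kbar (FN M) c, (const_mem_L0_iff A c).2 hc⟩, j ⟨g, hg⟩, hj c hc, ?_⟩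
  rw [hNm₀ h, ← map_pow, ← map_mul]
  congr 1
  apply Subtype.ext
  rw [hNm h, hcg]
  rfl

end BridgeAbs

section Modular

variable (A : ValuationSubring Kbar) (M q : ℕ) [NeZero M] [NeZero q] [NeZero (M * q)]
  {kk ι' Z' : Type*} {κ' : ι' → Type*} [Field kk] [Fintype ι'] [∀ i, Field (κ' i)]
  [∀ i, Algebra kk (κ' i)]

/-- **`hNα`** of `H65.finModE_of` for `D.sα.Nm = nmAlphaE A M q`. -/
theorem hNα_nmAlphaE (T' : TotN Kbar ↥(L0 A M) (FN M) kk ι' Z' κ') :
    ∀ (n : ℕ) (h : ↥(L0 A (M * q))),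
      IsNormPowE A (heckeAlphaBar Kbar M q) n (h : FN (M * q)) →
      ∃ c g : ↥(L0 A M), IsConstT T' c ∧ nmAlphaE A M q h = c * g ^ n :=
  hN_of_isNormPowE A (heckeAlphaBar Kbar M q) T' (nmAlphaE A M q) (coe_nmAlphaE A M q)

/-- **`hNβ`** of `H65.finModE_of` for `D.sβ.Nm = nmBetaE A M q`. -/
theorem hNβ_nmBetaE (T' : TotN Kbar ↥(L0 A M) (FN M) kk ι' Z' κ') :
    ∀ (n : ℕ) (h : ↥(L0 A (M * q))),
      IsNormPowE A (heckeBetaBar Kbar M q) n (h : FN (M * q)) →
      ∃ c g : ↥(L0 A M), IsConstT T' c ∧ nmBetaE A M q h = c * g ^ n :=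
  hN_of_isNormPowE A (heckeBetaBar Kbar M q) T' (nmBetaE A M q) (coe_nmBetaE A M q)

end Modular

/-! ### `hk`, `hDd` -/

section Small

variable (A : ValuationSubring Kbar)

/-- **`hk`** of `H65.finModE_of` for the residue field `kV A`. -/
theorem hk_kV (q : ℕ) {ι' : Type*} (κ' : ι' → Type*) [∀ i, Field (κ' i)]
    [∀ i, Algebra (kV A) (κ' i)] :
    ∀ n : ℕ, 0 < n → Nat.Coprime n q → ∀ i', RootClosed (kV A) (κ' i') n :=
  fun _ hn _ i' => Fermat.Agent.S36.NU.H74.rootClosed_kV A (κ' i') hn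

/-- **`hDd`** of `H65.finModE_of` from `d = q`. -/
theorem hDd_of_eq {d q : ℕ} (hd : d = q) :
    ∀ n : ℕ, Nat.Coprime n q → Nat.Coprime d n :=
  fun _ hn => hd ▸ hn.symm

end Small

end Fermat.Agent.S45.NUE.H96
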