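import Fermat.Agent.S45.NUE.H65_FinEMod
import Fermat.Agent.S45.NUE.H23_TotE4
import Fermat.Agent.S45.NUE.H96_InstB
import Fermat.Agent.S45.NUE.H96_FinLocalE
import Fermat.Agent.S45.NUE.H51_ValVecEFinal

/-!
# S45 / NU_e, package E-FIN (helper65): `FinModE` at the modular levels, interface + assembly

Levels `M₁ q = M' q^el` (lower) and `N = M₁ q q = M' q^(el+1)` (upper), `q ∤ M'`, `M'` tame,
`A` over `q` (the conventions of helper51's `valVecE_final`).  `TuE` / `TlE` = helper23's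
`totEM` at the upper / lower level.

* `finModE_mono`, `finModE_charts_T` : the call of `finModE_of` for a datum `D` with
  `D.T = T`, `D.SS = SS` (leaves stated for `T`, `SS`, in the `PointDataT` form of helper96);
* `IsNuE D` : `D` is a modular instance of helper79's `NUDataE`
  (`D.T = TuE`, `D.T' = TlE`, `D.SS = ssM A q M'`, `D.d = q`, `Nm = nmAlphaE / nmBetaE`);
* `LeavesE` : the modular leaves of E-FIN on `chart0E` / `chartInfE` of `TuE`
  (E-CHART `hchart0`, `hchartoo`; E-PT `hpt0`, with GLUE at the supersingular points as a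
  hypothesis; E-CUSP `hptoo`; E-RADQ `hrad0`, `hradoo`; `hL` = LowRoot of the lower level);
* `finModE_mod` : **`FinModE A q (M₁ q) (IsUnitE …)`** from `IsNuE D` and `LeavesE`
  (`IsUnitE` = the predicate `U` of helper51's `valVecE_final`).
-/

set_option autoImplicit false
set_option synthInstance.maxHeartbeats 400000
set_option maxHeartbeats 1000000
set_option linter.style.haveILetI false
set_option linter.unusedSectionVars false

noncomputable section

open ModularCurve AlgebraicCurve IntermediateField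

attribute [local instance] Classical.propDecidable

namespace Fermat.Agent.S45.NUE.H65

open Fermat.Agent.RED.H17 Fermat.Agent.RED Fermat.Agent.S36.NU.H16 Fermat.Agent.S36.NU.H79
  Fermat.Agent.S36.NU.H17 Fermat.Agent.S36.NU.H24
  Fermat.Agent.S24 Fermat.Agent.BAD.H88 Fermat.Agent.S36.NU.H23 Fermat.Agent.S36.NU.H41
  Fermat.Agent.S36.NU.H88 Fermat.Agent.S36.NU.H74 Fermat.Agent.Lib.HeckeComm
  Fermat.Agent.S45.NUE.H79 Fermat.Agent.S45.NUE.H96 Fermat.Agent.S36.NU.H65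
  Fermat.Agent.S45.NUE.H74 Fermat.Agent.S28 Fermat.Agent.S28.H73 Fermat.Agent.RED.H73
  Fermat.Agent.S45.NUE.H23 Fermat.Agent.BAD

attribute [local instance] algkE

/-! ### The call of `finModE_of`, for `D.T = T`, `D.SS = SS` -/

section ChartsT

variable (A : ValuationSubring Kbar) (q M : ℕ) [NeZero M] [NeZero q] [NeZero (M * q)]
  {ι Z : Type*} {κ : ι → Type*} [∀ i, Field (κ i)] [∀ i, Algebra (kV A) (κ i)] [Fintype ι]
  {K' L₀' L' ι' Z' : Type*} {κ' : ι' → Type*} [Field K'] [Field L₀'] [Field L']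
  [Algebra K' L'] [Algebra L₀' L'] [Fintype ι'] [∀ i, Field (κ' i)]
  [∀ i, Algebra (kV A) (κ' i)]

/-- `FinModE` is antitone in the predicate. -/
theorem finModE_mono (U U' : ↥(L0 A (M * q)) → Prop) (hUU : ∀ f, U' f → U f)
    (hFin : FinModE A q M U) : FinModE A q M U' := by
  obtain ⟨E, hE, h⟩ := hFin
  exact ⟨E, hE, fun n hn hg f hU hdiv hα hβ => h n hn hg f (hUU f hU) hdiv hα hβ⟩

/-- **E-FIN on the two charts**, for a datum `D` with `D.T = T`, `D.SS = SS`, `D.T' = T'`. -/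
theorem finModE_charts_T [IsAlgClosed (kV A)] (hq : q.Prime) (hA : A.LiesOverPrime q)
    (D : NUDataE Kbar ↥(L0 A (M * q)) (FN (M * q)) (kV A) ι Z κ K' L₀' L' ι' Z' κ')
    (T : TotN Kbar ↥(L0 A (M * q)) (FN (M * q)) (kV A) ι Z κ) (hT : D.T = T)
    (SS : Set Z) (hSS : D.SS = SS)
    (T' : TotN K' L₀' L' (kV A) ι' Z' κ') (hT' : D.T' = T')
    (h : ChartInE A (M * q) T)
    (hP : HasPrincipalDivisors Kbar (FN (M * q)))
    (hDd : ∀ n : ℕ, Nat.Coprime n q → Nat.Coprime D.d n)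
    -- E-CHART
    (hchart0 : ∀ n : ℕ, 0 < n → Nat.Coprime n q → ChartHyp (chart0E A (M * q) T h) q n)
    (hchartoo : ∀ n : ℕ, 0 < n → Nat.Coprime n q → ChartHyp (chartInfE A (M * q) T h) q n)
    -- E-PT, E-CUSP
    (hpt0 : (∀ z ∈ SS, Glued T z) → (∀ z ∈ SS, ∀ i, (T.pt i z).deg = 1) →
      PointDataT (chart0E A (M * q) T h) T SS ((q : ℕ) : ↥(Rur A)))
    (hptoo : ∀ 𝔪 : Ideal (chartInfE A (M * q) T h).B, 𝔪.IsMaximal →
      (∃ i, (chartInfE A (M * q) T h).Icomp i ≤ 𝔪) →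
      (∀ β : (chartInfE A (M * q) T h).B,
        (β : ↥(L0 A (M * q))) = (j0 A (M * q))⁻¹ → β ∈ 𝔪) →
      PointDataAtT (chartInfE A (M * q) T h) T SS ((q : ℕ) : ↥(Rur A)) 𝔪)
    -- RADQ
    (hrad0 : ∀ β ∈ (chart0E A (M * q) T h).B, (∀ i, (chart0E A (M * q) T h).rd i β = 0) →
      IsRadQ (chart0E A (M * q) T h).B ((q : ℕ) : ↥(Rur A)) β)
    (hradoo : ∀ β ∈ (chartInfE A (M * q) T h).B,
      (∀ i, (chartInfE A (M * q) T h).rd i β = 0) →
      IsRadQ (chartInfE A (M * q) T h).B ((q : ℕ) : ↥(Rur A)) β)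
    -- the lower level
    (hL : ∀ n : ℕ, 0 < n → Nat.Coprime n q → LowRoot T' n)
    (hk : ∀ n : ℕ, 0 < n → Nat.Coprime n q → ∀ i', RootClosed (kV A) (κ' i') n)
    -- the norms
    (hNα : ∀ (n : ℕ) (h : ↥(L0 A (M * q))),
      IsNormPowE A (heckeAlphaBar Kbar M q) n (h : FN (M * q)) →
      ∃ c g : L₀', IsConstT T' c ∧ D.sα.Nm h = c * g ^ n)
    (hNβ : ∀ (n : ℕ) (h : ↥(L0 A (M * q))),
      IsNormPowE A (heckeBetaBar Kbar M q) n (h : FN (M * q)) →
      ∃ c g : L₀', IsConstT T' c ∧ D.sβ.Nm h = c * g ^ n)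
    (i₀ : ι) :
    FinModE A q M (IsUnitT A (M * q) T) := by
  subst hT hSS hT'
  haveI : Infinite (kV A) := IsAlgClosed.instInfinite
  refine finModE_of_ne A q M _ ?_
  exact finModE_of A q M hq hA D hP hDd (chart0E A (M * q) D.T h) (chartInfE A (M * q) D.T h)
    (compat_chart0E A (M * q) D.T h) (compat_chartInfE A (M * q) D.T h)
    (chart0E_B A (M * q) D.T h) (chartInfE_B A (M * q) D.T h)
    hchart0 hchartoo
    ((pointData_iff_T _ (toGlueCore D hP) _).2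
      (hpt0 (fun _ hz => D.glued hP hz) D.deg_one))
    (fun 𝔪 hm hex hu => (pointDataAt_iff_T _ (toGlueCore D hP) _ 𝔪).2 (hptoo 𝔪 hm hex hu))
    hrad0 hradoo hL hk hNα hNβ _
    (fun f hf i => rdN_ne_zero_of_isUnitT A (M * q) D.T f hf.1 hf.2 i) i₀

end ChartsT

/-! ### The modular setting -/

section Mod

variable (A : ValuationSubring Kbar) (q M₁ M' el : ℕ) [NeZero M₁] [NeZero q] [NeZero M']
  [NeZero (M₁ * q)] [NeZero (M₁ * q * q)] (hq : q.Prime)
  (hNl : M₁ * q = M' * q ^ el) (hNu : M₁ * q * q = M' * q ^ (el + 1))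
  (Bl kl : ℤ) (hBl : Bl * M' + kl * (q : ℤ) ^ el = 1)
  (Bu ku : ℤ) (hBu : Bu * M' + ku * (q : ℤ) ^ (el + 1) = 1)
  (hqM : ¬ q ∣ M') (hA : A.LiesOverPrime q) (ht : H91.TameAt M' q)

/-- **The conservation datum of the upper level** `M' q^(el+1)`. -/
abbrev TuE : TotN Kbar ↥(L0 A (M₁ * q * q)) (FN (M₁ * q * q)) (kV A) (Fin (el + 1 + 1))
    (Place (kV A) (FM A M')) (kapE A M' (el + 1)) :=
  totEM A (M₁ * q * q) q M' (el + 1) Bu ku hNu hBu hq hqM hA ht (Nat.succ_pos el)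

/-- **The conservation datum of the lower level** `M' q^el`. -/
abbrev TlE (hel : 0 < el) : TotN Kbar ↥(L0 A (M₁ * q)) (FN (M₁ * q)) (kV A) (Fin (el + 1))
    (Place (kV A) (FM A M')) (kapE A M' el) :=
  totEM A (M₁ * q) q M' el Bl kl hNl hBl hq hqM hA ht hel

/-- The type of the modular data `NUDataE`. -/
abbrev NUDataEM : Type _ :=
  NUDataE Kbar ↥(L0 A (M₁ * q * q)) (FN (M₁ * q * q)) (kV A) (Fin (el + 1 + 1))
    (Place (kV A) (FM A M')) (kapE A M' (el + 1))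
    Kbar ↥(L0 A (M₁ * q)) (FN (M₁ * q)) (Fin (el + 1))
    (Place (kV A) (FM A M')) (kapE A M' el)

/-- **`D` is a modular instance of `NUDataE`.** -/
structure IsNuE (hel : 0 < el) (D : NUDataEM A q M₁ M' el) : Prop where
  hT : D.T = TuE A q M₁ M' el hq hNu Bu ku hBu hqM hA ht
  hT' : D.T' = TlE A q M₁ M' el hq hNl Bl kl hBl hqM hA ht hel
  hSS : D.SS = ssM A q M'
  hd : D.d = q
  hNα : ∀ h : ↥(L0 A (M₁ * q * q)), D.sα.Nm h = nmAlphaE A (M₁ * q) q h
  hNβ : ∀ h : ↥(L0 A (M₁ * q * q)), D.sβ.Nm h = nmBetaE A (M₁ * q) q h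

/-- **The modular leaves of E-FIN** on the two charts of the upper level. -/
structure LeavesE (hel : 0 < el) : Prop where
  /-- E-CHART: the input of the two charts -/
  hin : ChartInE A (M₁ * q * q) (TuE A q M₁ M' el hq hNu Bu ku hBu hqM hA ht)
  /-- E-CHART: `ChartHyp` of the chart of `j` -/
  hchart0 : ∀ n : ℕ, 0 < n → Nat.Coprime n q →
    ChartHyp (chart0E A (M₁ * q * q) (TuE A q M₁ M' el hq hNu Bu ku hBu hqM hA ht) hin) q n
  /-- E-CHART: `ChartHyp` of the chart of `1 / j` -/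
  hchartoo : ∀ n : ℕ, 0 < n → Nat.Coprime n q →
    ChartHyp (chartInfE A (M₁ * q * q) (TuE A q M₁ M' el hq hNu Bu ku hBu hqM hA ht) hin) q n
  /-- E-PT: the local data at the closed points of the chart of `j` (GLUE at the supersingular
  points, from ND_e, is a hypothesis) -/
  hpt0 : (∀ z ∈ ssM A q M', Glued (TuE A q M₁ M' el hq hNu Bu ku hBu hqM hA ht) z) →
    (∀ z ∈ ssM A q M', ∀ i, ((TuE A q M₁ M' el hq hNu Bu ku hBu hqM hA ht).pt i z).deg = 1) →
    PointDataT (chart0E A (M₁ * q * q) (TuE A q M₁ M' el hq hNu Bu ku hBu hqM hA ht) hin)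
      (TuE A q M₁ M' el hq hNu Bu ku hBu hqM hA ht) (ssM A q M') ((q : ℕ) : ↥(Rur A))
  /-- E-CUSP: the local data at the cusps of the chart of `1 / j` -/
  hptoo : ∀ 𝔪 : Ideal
      (chartInfE A (M₁ * q * q) (TuE A q M₁ M' el hq hNu Bu ku hBu hqM hA ht) hin).B,
    𝔪.IsMaximal →
    (∃ i, (chartInfE A (M₁ * q * q) (TuE A q M₁ M' el hq hNu Bu ku hBu hqM hA ht) hin).Icomp i
      ≤ 𝔪) →
    (∀ β : (chartInfE A (M₁ * q * q) (TuE A q M₁ M' el hq hNu Bu ku hBu hqM hA ht) hin).B,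
      (β : ↥(L0 A (M₁ * q * q))) = (j0 A (M₁ * q * q))⁻¹ → β ∈ 𝔪) →
    PointDataAtT (chartInfE A (M₁ * q * q) (TuE A q M₁ M' el hq hNu Bu ku hBu hqM hA ht) hin)
      (TuE A q M₁ M' el hq hNu Bu ku hBu hqM hA ht) (ssM A q M') ((q : ℕ) : ↥(Rur A)) 𝔪
  /-- E-RADQ for the chart of `j` -/
  hrad0 : ∀ β ∈ (chart0E A (M₁ * q * q) (TuE A q M₁ M' el hq hNu Bu ku hBu hqM hA ht) hin).B,
    (∀ i, (chart0E A (M₁ * q * q) (TuE A q M₁ M' el hq hNu Bu ku hBu hqM hA ht) hin).rd i β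
      = 0) →
    IsRadQ (chart0E A (M₁ * q * q) (TuE A q M₁ M' el hq hNu Bu ku hBu hqM hA ht) hin).B
      ((q : ℕ) : ↥(Rur A)) β
  /-- E-RADQ for the chart of `1 / j` -/
  hradoo : ∀ β ∈
      (chartInfE A (M₁ * q * q) (TuE A q M₁ M' el hq hNu Bu ku hBu hqM hA ht) hin).B,
    (∀ i, (chartInfE A (M₁ * q * q) (TuE A q M₁ M' el hq hNu Bu ku hBu hqM hA ht) hin).rd i β
      = 0) →
    IsRadQ (chartInfE A (M₁ * q * q) (TuE A q M₁ M' el hq hNu Bu ku hBu hqM hA ht) hin).B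
      ((q : ℕ) : ↥(Rur A)) β
  /-- roots at the lower level -/
  hL : ∀ n : ℕ, 0 < n → Nat.Coprime n q →
    LowRoot (TlE A q M₁ M' el hq hNl Bl kl hBl hqM hA ht hel) n

/-- The units of helper51's `valVecE_final` are units for all valuations of `TuE`. -/
theorem isUnitT_of_isUnitE (x : ↥(L0 A (M₁ * q * q)))
    (hx : Fermat.Agent.S45.NUE.H51.IsUnitE A q M₁ M' el hq hNu Bu ku hBu x) :
    IsUnitT A (M₁ * q * q) (TuE A q M₁ M' el hq hNu Bu ku hBu hqM hA ht) x := fun i =>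
  hx (i : ℕ) (Nat.lt_succ_iff.mp i.2)

/-- **E-FIN at the modular levels**: `FinModE` for the units of helper51's `valVecE_final`, from
a modular instance of `NUDataE` and the modular leaves. -/
theorem finModE_mod (hel : 0 < el) (D : NUDataEM A q M₁ M' el)
    (hD : IsNuE A q M₁ M' el hq hNl hNu Bl kl hBl Bu ku hBu hqM hA ht hel D)
    (hLv : LeavesE A q M₁ M' el hq hNl hNu Bl kl hBl Bu ku hBu hqM hA ht hel) :
    FinModE A q (M₁ * q) (Fermat.Agent.S45.NUE.H51.IsUnitE A q M₁ M' el hq hNu Bu ku hBu) := by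
  haveI : IsAlgClosed (kV A) := isAlgClosed_kV A
  refine finModE_mono A q (M₁ * q) _ _
    (isUnitT_of_isUnitE A q M₁ M' el hq hNu Bu ku hBu hqM hA ht) ?_
  refine finModE_charts_T A q (M₁ * q) hq hA D _ hD.hT _ hD.hSS _ hD.hT' hLv.hin
    (Fermat.Agent.RED.H51.stmt_FFB_principal Kbar (FN (M₁ * q * q))
      (Fermat.Agent.RED.H95.stmt_HKA_isFF (M₁ * q * q)))
    (hDd_of_eq hD.hd) hLv.hchart0 hLv.hchartoo hLv.hpt0 hLv.hptoo hLv.hrad0 hLv.hradoo hLv.hL
    (hk_kV A q (kapE A M' el)) ?_ ?_ 0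
  · intro n h hn
    rw [hD.hNα]
    exact hNα_nmAlphaE A (M₁ * q) q _ n h hn
  · intro n h hn
    rw [hD.hNβ]
    exact hNβ_nmBetaE A (M₁ * q) q _ n h hn

end Mod

end Fermat.Agent.S45.NUE.H65
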