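import Fermat.Agent.S45.NUE.H28_RadQEFinal
import Fermat.Agent.S45.NUE.H65_FinTopE

/-!
# S45 / NU_e, package E-FIN, leaf E-RADQ (helper28): the fields `hrad0`, `hradoo` of
`H65.LeavesE`

Setting of helper65's `H65_FinTopE` (levels `M₁ q = M' q^el`, `M₁ q q = M' q^(el+1)`,
`TuE = totEM` at the upper level).

* `leavesE_hrad0`, `leavesE_hradoo` : the two fields, for ANY proof `hin` of `ChartInE`;
* `leavesE_crit0`, `leavesE_critoo` : TI3-VAL for the two charts of `TuE`.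
-/

set_option autoImplicit false
set_option synthInstance.maxHeartbeats 400000
set_option maxHeartbeats 1000000
set_option linter.style.haveILetI false
set_option linter.unusedSectionVars false
set_option linter.unusedVariables false

noncomputable section

open ModularCurve AlgebraicCurve IntermediateField
open Fermat.Agent.S24 Fermat.Agent.BAD.H88 Fermat.Agent.S28 Fermat.Agent.S28.H73
open Fermat.Agent.RED.H73 Fermat.Agent.RED.H17 Fermat.Agent.S36.NU.H88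
open Fermat.Agent.S36.NU.H23 Fermat.Agent.S36.NU.H41 Fermat.Agent.S36.NU.H17
open Fermat.Agent.S36.NU.H16 Fermat.Agent.S36.NU.H65 Fermat.Agent.BAD
open Fermat.Agent.S36.NU.H24 Fermat.Agent.S36.NU.H79
open Fermat.Agent.S45.NUE.H23 Fermat.Agent.S45.NUE.H74 Fermat.Agent.S45.NUE.H65

namespace Fermat.Agent.S45.NUE.H28

attribute [local instance] Fermat.Agent.S45.NUE.H23.algkE

section Leaves

variable (A : ValuationSubring Kbar) (q M₁ M' el : ℕ) [NeZero M₁] [NeZero q] [NeZero M']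
  [NeZero (M₁ * q)] [NeZero (M₁ * q * q)] (hq : q.Prime)
  (hNu : M₁ * q * q = M' * q ^ (el + 1))
  (Bu ku : ℤ) (hBu : Bu * M' + ku * (q : ℤ) ^ (el + 1) = 1)
  (hqM : ¬ q ∣ M') (hA : A.LiesOverPrime q) (ht : H91.TameAt M' q)
  (hin : ChartInE A (M₁ * q * q) (TuE A q M₁ M' el hq hNu Bu ku hBu hqM hA ht))

/-- **The field `hrad0` of `H65.LeavesE`.** -/
theorem leavesE_hrad0 :
    ∀ β ∈ (chart0E A (M₁ * q * q) (TuE A q M₁ M' el hq hNu Bu ku hBu hqM hA ht) hin).B,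
      (∀ i, (chart0E A (M₁ * q * q) (TuE A q M₁ M' el hq hNu Bu ku hBu hqM hA ht) hin).rd i β
        = 0) →
      IsRadQ (chart0E A (M₁ * q * q) (TuE A q M₁ M' el hq hNu Bu ku hBu hqM hA ht) hin).B
        ((q : ℕ) : ↥(Rur A)) β :=
  hrad0EM A (M₁ * q * q) q M' (el + 1) Bu ku hNu hBu hq hqM hA ht (Nat.succ_pos el) hin

/-- **The field `hradoo` of `H65.LeavesE`.** -/
theorem leavesE_hradoo :
    ∀ β ∈ (chartInfE A (M₁ * q * q) (TuE A q M₁ M' el hq hNu Bu ku hBu hqM hA ht) hin).B,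
      (∀ i, (chartInfE A (M₁ * q * q) (TuE A q M₁ M' el hq hNu Bu ku hBu hqM hA ht) hin).rd i β
        = 0) →
      IsRadQ (chartInfE A (M₁ * q * q) (TuE A q M₁ M' el hq hNu Bu ku hBu hqM hA ht) hin).B
        ((q : ℕ) : ↥(Rur A)) β :=
  hradooEM A (M₁ * q * q) q M' (el + 1) Bu ku hNu hBu hq hqM hA ht (Nat.succ_pos el) hin

/-- TI3-VAL for the chart of `j` of `TuE`. -/
theorem leavesE_crit0 {f : ↥(L0 A (M₁ * q * q))}
    (hf₁ : IsIntegral ↥(Algebra.adjoin ↥(Kur A) {j0 A (M₁ * q * q)}) f)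
    (hf₂ : ∀ i, f ∈ (TuE A q M₁ M' el hq hNu Bu ku hBu hqM hA ht).V i) :
    f ∈ (chart0E A (M₁ * q * q) (TuE A q M₁ M' el hq hNu Bu ku hBu hqM hA ht) hin).B :=
  critEM_chart0E A (M₁ * q * q) q M' (el + 1) Bu ku hNu hBu hq hqM hA ht (Nat.succ_pos el) hin
    hf₁ hf₂

/-- TI3-VAL for the chart of `1 / j` of `TuE`. -/
theorem leavesE_critoo {f : ↥(L0 A (M₁ * q * q))}
    (hf₁ : IsIntegral ↥(Algebra.adjoin ↥(Kur A) {(j0 A (M₁ * q * q))⁻¹}) f)
    (hf₂ : ∀ i, f ∈ (TuE A q M₁ M' el hq hNu Bu ku hBu hqM hA ht).V i) :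
    f ∈ (chartInfE A (M₁ * q * q) (TuE A q M₁ M' el hq hNu Bu ku hBu hqM hA ht) hin).B :=
  critEM_chartInfE A (M₁ * q * q) q M' (el + 1) Bu ku hNu hBu hq hqM hA ht (Nat.succ_pos el) hin
    hf₁ hf₂

end Leaves

end Fermat.Agent.S45.NUE.H28
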