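import Fermat.Agent.S36.NU.H88_Mid

/-!
# S45 / NU_e, package E-CUSP (helper73): expansions of the generators at the cusps `1/(q^b M)`

Level `N = M q^e`, `q ∤ M`, `B M + k q^e = 1`.  `gE q M b` is the matrix `γ_b` with
`γ_b⁻¹ = !![1, 0; q^b M, 1]` (the cusp `γ_b⁻¹ ∞ = 1/(q^b M)`; `gE q M 1 = gMid q M`).
The generators of `F_N` are the `j (q^D)`, `D = d q^i`, `d ∣ M`, `i ≤ e` (`dvdE_cases`).

* `matE_le`, `matE_gt` : the Hermite forms of `diag(d q^i, 1) γ_b⁻¹`;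
* `cuspU_gE_le` : for `i ≤ b`, `cuspU N γ_b (j (q^(d q^i))) = j (q^(d q^i))` (`q = u^N`);
* `cuspU_gE_gt` : for `b < i ≤ e`,
  `cuspU N γ_b (j (q^(d q^i))) = (twist (ζ_{q^(i-b)}^(B d)) j)(u^(M d q^(e - i + 2 b)))`;
* `cuspU_gE_gt'` : for `b < i ≤ 2 b`, `i ≤ e`: `= j ((z q)^(d q^(2 b - i)))`, `z = ζ_{q^b}^B`,
  `q = u^N`.
-/

set_option autoImplicit false
set_option synthInstance.maxHeartbeats 400000
set_option maxHeartbeats 1000000
set_option linter.unusedSectionVars false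
set_option linter.unusedVariables false
set_option linter.style.haveILetI false

noncomputable section

namespace Fermat.Agent.S45.NUE.H73

open Fermat.Agent.S24 Fermat.Agent.BAD.H88 ModularCurve UpperHalfPlane
open Fermat.Agent.S36.NU.H88
open scoped MatrixGroups Manifold

/-! ## The matrices -/

/-- `γ_b` with `γ_b⁻¹ = !![1, 0; q^b M, 1]`: the cusp `γ_b⁻¹ ∞ = 1 / (q^b M)`. -/
def gE (q M b : ℕ) : SL(2, ℤ) :=
  ⟨!![1, 0; -((q : ℤ) ^ b * M), 1], by rw [Matrix.det_fin_two_of]; ring⟩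

theorem gE_inv (q M b : ℕ) :
    ((gE q M b)⁻¹ : SL(2, ℤ)).1 = !![1, 0; (q : ℤ) ^ b * M, 1] := by
  rw [Matrix.SpecialLinearGroup.coe_inv, gE]
  simp [Matrix.adjugate_fin_two_of]

theorem gE_one (q M : ℕ) : gE q M 1 = gMid q M := by
  apply Subtype.ext
  show (!![1, 0; -((q : ℤ) ^ 1 * M), 1] : Matrix (Fin 2) (Fin 2) ℤ) = !![1, 0; -((q : ℤ) * M), 1]
  rw [pow_one]

/-- `i ≤ b`: `diag(d q^i, 1) γ_b⁻¹ = δ diag(d q^i, 1)`. -/
theorem matE_le (q M d d' i b : ℕ) (hM : M = d * d') (hib : i ≤ b) :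
    ∃ δ : SL(2, ℤ), (!![((d * q ^ i : ℕ) : ℤ), 0; 0, 1] : Matrix (Fin 2) (Fin 2) ℤ) *
        ((gE q M b)⁻¹ : SL(2, ℤ)).1
      = δ.1 * !![((d * q ^ i : ℕ) : ℤ), 0; 0, ((1 : ℕ) : ℤ)] := by
  obtain ⟨c, rfl⟩ := Nat.exists_eq_add_of_le hib
  refine ⟨⟨!![1, 0; (q : ℤ) ^ c * d', 1], by rw [Matrix.det_fin_two_of]; ring⟩, ?_⟩
  rw [gE_inv]
  subst hM
  ext r s
  fin_cases r <;> fin_cases s
  all_goals simp [Matrix.mul_apply, Fin.sum_univ_two]
  all_goals try ring1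

/-- `b < i ≤ e`: `diag(d q^i, 1) γ_b⁻¹ = δ !![d q^b, B d; 0, q^(i - b)]`. -/
theorem matE_gt (q M d d' e i b : ℕ) (B k : ℤ) (hB : B * M + k * (q : ℤ) ^ e = 1)
    (hM : M = d * d') (hbi : b < i) (hie : i ≤ e) :
    ∃ δ : SL(2, ℤ), (!![((d * q ^ i : ℕ) : ℤ), 0; 0, 1] : Matrix (Fin 2) (Fin 2) ℤ) *
        ((gE q M b)⁻¹ : SL(2, ℤ)).1
      = δ.1 * !![((d * q ^ b : ℕ) : ℤ), B * d; 0, ((q ^ (i - b) : ℕ) : ℤ)] := by
  obtain ⟨c, rfl⟩ := Nat.exists_eq_add_of_le hbi.le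
  obtain ⟨f, rfl⟩ := Nat.exists_eq_add_of_le hie
  have hc : b + c - b = c := by omega
  rw [hc]
  have hB' : B * ((d : ℤ) * d') + k * ((q : ℤ) ^ c * (q : ℤ) ^ f) * (q : ℤ) ^ b = 1 := by
    subst hM
    push_cast at hB
    rw [← hB]
    ring
  refine ⟨⟨!![(q : ℤ) ^ c, -(B * d); (d' : ℤ), k * (q : ℤ) ^ (b + f)], ?_⟩, ?_⟩
  · rw [Matrix.det_fin_two_of]
    linear_combination hB'
  · rw [gE_inv]
    subst hM
    ext r s
    fin_cases r <;> fin_cases s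
    all_goals simp [Matrix.mul_apply, Fin.sum_univ_two]
    all_goals first | ring1 | linear_combination (-1 : ℤ) * hB'

/-! ## Roots of unity -/

/-- `ζ_{a b}^a = ζ_b`. -/
theorem zetaK_mul_pow (a b : ℕ) [NeZero a] [NeZero b] [NeZero (a * b)] :
    zetaK (a * b) ^ a = zetaK b := by
  apply iotaC.injective
  rw [map_pow, iotaC_zetaK, iotaC_zetaK, ← Complex.exp_nat_mul]
  congr 1
  have ha : (a : ℂ) ≠ 0 := Nat.cast_ne_zero.mpr (NeZero.ne a)
  have hb : (b : ℂ) ≠ 0 := Nat.cast_ne_zero.mpr (NeZero.ne b)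
  push_cast
  field_simp

/-! ## Arithmetic of the level -/

section Level

variable (N q M e : ℕ) (B k : ℤ) (hN : N = M * q ^ e) (hB : B * M + k * (q : ℤ) ^ e = 1)
  (hq : q.Prime) [NeZero N] [NeZero q]

include hN hB hq

theorem coprimeE : Nat.Coprime M (q ^ e) := by
  have h : IsCoprime (M : ℤ) ((q ^ e : ℕ) : ℤ) := ⟨B, k, by push_cast; exact hB⟩
  exact Nat.isCoprime_iff_coprime.mp h

theorem posE : 0 < M := by
  rcases Nat.eq_zero_or_pos M with h | h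
  · exfalso; apply NeZero.ne N; rw [hN, h, zero_mul]
  · exact h

/-- The divisors of `M q^e`. -/
theorem dvdE_cases (D : ℕ) (hD : D ∣ N) :
    ∃ d d' i, M = d * d' ∧ i ≤ e ∧ D = d * q ^ i := by
  have hcop := coprimeE N q M e B k hN hB hq
  rw [hN] at hD
  have h1 : D = Nat.gcd D M * Nat.gcd D (q ^ e) := by
    have h2 : Nat.gcd D (M * q ^ e) = D := Nat.gcd_eq_left hD
    rw [← Nat.Coprime.gcd_mul D hcop, h2]
  obtain ⟨d', hd'⟩ := Nat.gcd_dvd_right D M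
  obtain ⟨i, hi, hgi⟩ := (Nat.dvd_prime_pow hq).mp (Nat.gcd_dvd_right D (q ^ e))
  exact ⟨Nat.gcd D M, d', i, hd', hi, by rw [← hgi]; exact h1⟩

theorem dvdE (d d' i : ℕ) (hM : M = d * d') (hi : i ≤ e) : d * q ^ i ∣ N := by
  obtain ⟨f, rfl⟩ := Nat.exists_eq_add_of_le hi
  rw [hN, hM]
  exact ⟨d' * q ^ f, by rw [pow_add]; ring⟩

/-! ## The expansions -/

/-- `i ≤ b`: the expansion of `j (q^(d q^i))` at the cusp `1/(q^b M)` is `j (q^(d q^i))`. -/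
theorem cuspU_gE_le (d d' i b : ℕ) (hM : M = d * d') (hib : i ≤ b) [NeZero (d * q ^ i)]
    (hD : d * q ^ i ∣ N) :
    cuspU N (gE q M b) (jdF N (d * q ^ i) hD)
      = qExpand Kbar N (qExpand Kbar (d * q ^ i) jBar) := by
  obtain ⟨δ, hδ⟩ := matE_le q M d d' i b hM hib
  have hd0 : 0 < d * q ^ i := Nat.pos_of_ne_zero (NeZero.ne (d * q ^ i))
  have hN0 : 0 < N := Nat.pos_of_ne_zero (NeZero.ne N)
  haveI : NeZero (N / 1 * (d * q ^ i)) :=
    ⟨by rw [Nat.div_one]; exact (Nat.mul_pos hN0 hd0).ne'⟩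
  rw [cuspU_upper N (gE q M b) δ (d * q ^ i) hD (d * q ^ i) 1 0 hd0 one_pos (one_dvd N)
    (by exact_mod_cast hδ), zpow_zero, twist_one', qExpand_qExpand]
  exact qExpand_congr (by rw [Nat.div_one]) _

/-- `b < i ≤ e`: the expansion of `j (q^(d q^i))` at the cusp `1/(q^b M)` is
`(twist (ζ_{q^(i-b)}^(B d)) j)(u^(M d q^(e - i + 2 b)))`. -/
theorem cuspU_gE_gt (d d' i b : ℕ) (hM : M = d * d') (hbi : b < i) (hie : i ≤ e)
    [NeZero (d * q ^ i)] [NeZero (q ^ (i - b))] [NeZero (M * d * q ^ (e - i + 2 * b))]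
    (hD : d * q ^ i ∣ N) :
    cuspU N (gE q M b) (jdF N (d * q ^ i) hD)
      = qExpand Kbar (M * d * q ^ (e - i + 2 * b))
          (twist (zetaK (q ^ (i - b)) ^ (B * d)) jBar) := by
  obtain ⟨δ, hδ⟩ := matE_gt q M d d' e i b B k hB hM hbi hie
  have hq0 : 0 < q := hq.pos
  have hM0 := posE N q M e B k hN hB hq
  have hd0 : 0 < d := by
    rcases Nat.eq_zero_or_pos d with h | h
    · rw [h, zero_mul] at hM; omega
    · exact h
  have hN0 : 0 < N := Nat.pos_of_ne_zero (NeZero.ne N)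
  have hqN : q ^ (i - b) ∣ N := by
    rw [hN]
    exact dvd_mul_of_dvd_right (pow_dvd_pow q (by omega)) M
  have hdiv : N / q ^ (i - b) = M * q ^ (e - (i - b)) := by
    rw [hN]
    have : q ^ e = q ^ (e - (i - b)) * q ^ (i - b) := by
      rw [← pow_add]; congr 1; omega
    rw [this, ← mul_assoc, Nat.mul_div_cancel _ (pow_pos hq0 _)]
  have hidx : N / q ^ (i - b) * (d * q ^ b) = M * d * q ^ (e - i + 2 * b) := by
    rw [hdiv]
    have : e - i + 2 * b = (e - (i - b)) + b := by omega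
    rw [this, pow_add]
    ring
  haveI : NeZero (N / q ^ (i - b) * (d * q ^ b)) := ⟨by
    rw [hidx]; exact NeZero.ne _⟩
  rw [cuspU_upper N (gE q M b) δ (d * q ^ i) hD (d * q ^ b) (q ^ (i - b)) (B * d)
    (Nat.mul_pos hd0 (pow_pos hq0 _)) (pow_pos hq0 _) hqN (by exact_mod_cast hδ)]
  exact qExpand_congr hidx _

omit hN hB hq [NeZero N] [NeZero q] in
theorem zetaK_congr {m n : ℕ} [NeZero m] [NeZero n] (h : m = n) : zetaK m = zetaK n := by
  subst h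
  rfl

/-- `b < i ≤ 2 b`, `i ≤ e`: the expansion of `j (q^(d q^i))` at the cusp `1/(q^b M)` is
`j ((z q)^(d q^(2 b - i)))` with `z = ζ_{q^b}^B` (and `q = u^N`). -/
theorem cuspU_gE_gt' (d d' i b : ℕ) (hM : M = d * d') (hbi : b < i) (hi2 : i ≤ 2 * b)
    (hie : i ≤ e) [NeZero (d * q ^ i)] [NeZero (q ^ b)] [NeZero (d * q ^ (2 * b - i))]
    (hD : d * q ^ i ∣ N) :
    cuspU N (gE q M b) (jdF N (d * q ^ i) hD)
      = qExpand Kbar N (twist (zetaK (q ^ b) ^ B) (qExpand Kbar (d * q ^ (2 * b - i)) jBar)) := by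
  have hq0 : 0 < q := hq.pos
  have hM0 := posE N q M e B k hN hB hq
  have hd0 : 0 < d := by
    rcases Nat.eq_zero_or_pos d with h | h
    · rw [h, zero_mul] at hM; omega
    · exact h
  have hN0 : 0 < N := Nat.pos_of_ne_zero (NeZero.ne N)
  haveI : NeZero (q ^ (i - b)) := ⟨(pow_pos hq0 _).ne'⟩
  haveI : NeZero (q ^ (2 * b - i)) := ⟨(pow_pos hq0 _).ne'⟩
  haveI : NeZero (q ^ (2 * b - i) * q ^ (i - b)) :=
    ⟨(Nat.mul_pos (pow_pos hq0 _) (pow_pos hq0 _)).ne'⟩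
  haveI : NeZero (M * d * q ^ (e - i + 2 * b)) :=
    ⟨(Nat.mul_pos (Nat.mul_pos hM0 hd0) (pow_pos hq0 _)).ne'⟩
  have hidx : N * (d * q ^ (2 * b - i)) = M * d * q ^ (e - i + 2 * b) := by
    rw [hN]
    have : e - i + 2 * b = e + (2 * b - i) := by omega
    rw [this, pow_add]
    ring
  have hz : zetaK (q ^ b) ^ (q ^ (2 * b - i)) = zetaK (q ^ (i - b)) := by
    have h1 : q ^ b = q ^ (2 * b - i) * q ^ (i - b) := by
      rw [← pow_add]; congr 1; omega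
    rw [zetaK_congr h1]
    exact zetaK_mul_pow _ _
  have hzz : (zetaK (q ^ b) ^ B) ^ ((d * q ^ (2 * b - i) : ℕ) : ℤ)
      = zetaK (q ^ (i - b)) ^ (B * d) := by
    rw [← hz, ← zpow_natCast (zetaK (q ^ b)) (q ^ (2 * b - i)), ← zpow_mul, ← zpow_mul]
    congr 1
    push_cast
    ring
  rw [cuspU_gE_gt N q M e B k hN hB hq d d' i b hM hbi hie hD, twist_qExpand, qExpand_qExpand,
    hzz]
  exact qExpand_congr hidx.symm _

end Level

end Fermat.Agent.S45.NUE.H73
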