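import Fermat.Agent.S45.NUE.H23_Val
import Fermat.Agent.S45.NUE.H73_CuspExp
import Fermat.Agent.S36.NU.H88_Restrict2

/-!
# S45 / NU_e, package E-VAL §7 (helper31): the cusp expansions along `α` and `β`

Levels `N` (lower) and `N * q` (upper), `α, β = heckeAlphaBar / heckeBetaBar Kbar N q`
(`α x = x`, `β x = x (q τ)`), `γ ∈ SL₂(ℤ)`, `cuspU N γ` the `u`-expansion at the cusp `γ⁻¹ ∞`.

General part (any level, any cusp):
* `cuspU_alpha`   : `cuspU (N q) γ (α x) = (cuspU N γ x)(u^q)`;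
* `cuspU_beta_q1` : if `diag(q,1) γ⁻¹ = γ'⁻¹ diag(q,1)` then
  `cuspU (N q) γ (β x) = (cuspU N γ' x)(u^(q²))`;
* `cuspU_beta_1q` : if `diag(q,1) γ⁻¹ = γ'⁻¹ !![1, b; 0, q]` then
  `cuspU (N q) γ (β x) = twist (ζ_{N q}^b) (cuspU N γ' x)`.
-/

set_option autoImplicit false
set_option synthInstance.maxHeartbeats 400000
set_option maxHeartbeats 1000000
set_option linter.unusedSectionVars false
set_option linter.unusedVariables false
set_option linter.style.haveILetI false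

noncomputable section

namespace Fermat.Agent.S45.NUE.H31

open Fermat.Agent.S24 Fermat.Agent.BAD.H88 ModularCurve UpperHalfPlane
open Fermat.Agent.S36.NU.H88 Fermat.Agent.RED.H95
open Fermat.Agent.S45.NUE.H73 (zetaK_mul_pow zetaK_congr)
open scoped MatrixGroups Manifold

/-! ## Matrices -/

/-- `det (diag(D, 1) γ⁻¹) = D`. -/
theorem det_diag_mul (D : ℕ) (γ : SL(2, ℤ)) :
    ((!![(D : ℤ), 0; 0, 1] : Matrix (Fin 2) (Fin 2) ℤ) * (γ⁻¹ : SL(2, ℤ)).1).det = D := by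
  rw [Matrix.det_mul, (γ⁻¹ : SL(2, ℤ)).2, mul_one, Matrix.det_fin_two_of]
  ring

/-- The Hermite form of `diag(D, 1) γ⁻¹`, with `d ∣ D`. -/
theorem exists_hermite_diag (D : ℕ) (hD0 : 0 < D) (γ : SL(2, ℤ)) :
    ∃ (δ : SL(2, ℤ)) (a d : ℕ) (b : ℤ), 0 < a ∧ 0 < d ∧ a * d = D ∧
      (!![(D : ℤ), 0; 0, 1] : Matrix (Fin 2) (Fin 2) ℤ) * (γ⁻¹ : SL(2, ℤ)).1
        = δ.1 * !![(a : ℤ), b; 0, (d : ℤ)] := by
  have hdet := det_diag_mul D γ
  obtain ⟨δ, a, d, b, ha, hd, had, hA⟩ := hermite_general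
    ((!![(D : ℤ), 0; 0, 1] : Matrix (Fin 2) (Fin 2) ℤ) * (γ⁻¹ : SL(2, ℤ)).1)
    (by rw [hdet]; exact_mod_cast hD0)
  refine ⟨δ, a, d, b, ha, hd, ?_, hA⟩
  rw [hdet] at had
  exact_mod_cast had

section General

variable (N q : ℕ) [NeZero N] [NeZero q]

/-- **(A)** the expansion of `α x` at the cusp `γ⁻¹ ∞` of level `N q`. -/
theorem cuspU_comp_alpha (γ : SL(2, ℤ)) :
    (cuspU (N * q) γ).comp (heckeAlphaBar Kbar N q)
      = (qExpandAlgHomC Kbar q).comp (cuspU N γ) := by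
  apply algHom_ext_of_adjoin _ (adjoin_jdF N)
  rintro x ⟨D, hD0, hD, rfl⟩
  have hDpos : 0 < D := Nat.pos_of_ne_zero (NeZero.ne D)
  have hNpos : 0 < N := Nat.pos_of_ne_zero (NeZero.ne N)
  have hqpos : 0 < q := Nat.pos_of_ne_zero (NeZero.ne q)
  rw [AlgHom.comp_apply, AlgHom.comp_apply, alpha_jdF, qExpandAlgHomC_apply]
  obtain ⟨δ, a, d, b, ha, hd, had, hA⟩ := exists_hermite_diag D hDpos γ
  have hdD : d ∣ D := ⟨a, by rw [← had]; ring⟩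
  have hdN : d ∣ N := hdD.trans hD
  haveI : NeZero d := ⟨hd.ne'⟩
  have h1 : 0 < N / d := Nat.div_pos (Nat.le_of_dvd hNpos hdN) hd
  haveI : NeZero (N / d * a) := ⟨(Nat.mul_pos h1 ha).ne'⟩
  have h2 : N * q / d = N / d * q := (Nat.div_mul_right_comm hdN q).symm
  haveI : NeZero (N * q / d * a) := ⟨by
    rw [h2]; exact (Nat.mul_pos (Nat.mul_pos h1 hqpos) ha).ne'⟩
  rw [cuspU_upper (N * q) γ δ D (Dvd.dvd.mul_right hD q) a d b ha hd (Dvd.dvd.mul_right hdN q) hA,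
    cuspU_upper N γ δ D hD a d b ha hd hdN hA, qExpand_qExpand]
  exact qExpand_congr (by rw [h2]; ring) _

theorem cuspU_alpha (γ : SL(2, ℤ)) (x : FN N) :
    cuspU (N * q) γ (heckeAlphaBar Kbar N q x) = qExpand Kbar q (cuspU N γ x) :=
  congrArg (fun f : FN N →ₐ[Kbar] LaurentSeries Kbar => f x) (cuspU_comp_alpha N q γ)

/-- **(B1)** the expansion of `β x` at the cusp `γ⁻¹ ∞` of level `N q`, when
`diag(q, 1) γ⁻¹ = γ'⁻¹ diag(q, 1)`. -/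
theorem cuspU_comp_beta_q1 (γ γ' : SL(2, ℤ))
    (h : (!![(q : ℤ), 0; 0, 1] : Matrix (Fin 2) (Fin 2) ℤ) * (γ⁻¹ : SL(2, ℤ)).1
      = (γ'⁻¹ : SL(2, ℤ)).1 * !![(q : ℤ), 0; 0, 1]) :
    (cuspU (N * q) γ).comp (heckeBetaBar Kbar N q)
      = (qExpandAlgHomC Kbar (q * q)).comp (cuspU N γ') := by
  apply algHom_ext_of_adjoin _ (adjoin_jdF N)
  rintro x ⟨D, hD0, hD, rfl⟩
  have hDpos : 0 < D := Nat.pos_of_ne_zero (NeZero.ne D)
  have hNpos : 0 < N := Nat.pos_of_ne_zero (NeZero.ne N)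
  have hqpos : 0 < q := Nat.pos_of_ne_zero (NeZero.ne q)
  haveI : NeZero (D * q) := ⟨(Nat.mul_pos hDpos hqpos).ne'⟩
  rw [AlgHom.comp_apply, AlgHom.comp_apply, beta_jdF, qExpandAlgHomC_apply]
  obtain ⟨δ, a, d, b, ha, hd, had, hA⟩ := exists_hermite_diag D hDpos γ'
  have hdD : d ∣ D := ⟨a, by rw [← had]; ring⟩
  have hdN : d ∣ N := hdD.trans hD
  haveI : NeZero d := ⟨hd.ne'⟩
  have h1 : 0 < N / d := Nat.div_pos (Nat.le_of_dvd hNpos hdN) hd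
  haveI : NeZero (N / d * a) := ⟨(Nat.mul_pos h1 ha).ne'⟩
  have h2 : N * q / d = N / d * q := (Nat.div_mul_right_comm hdN q).symm
  haveI : NeZero (N * q / d * (a * q)) := ⟨by
    rw [h2]; exact (Nat.mul_pos (Nat.mul_pos h1 hqpos) (Nat.mul_pos ha hqpos)).ne'⟩
  have hA' : (!![((D * q : ℕ) : ℤ), 0; 0, 1] : Matrix (Fin 2) (Fin 2) ℤ) * (γ⁻¹ : SL(2, ℤ)).1
      = δ.1 * !![((a * q : ℕ) : ℤ), b; 0, (d : ℤ)] := by
    have e1 : (!![((D * q : ℕ) : ℤ), 0; 0, 1] : Matrix (Fin 2) (Fin 2) ℤ)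
        = !![(D : ℤ), 0; 0, 1] * !![(q : ℤ), 0; 0, 1] := by
      ext r s
      fin_cases r <;> fin_cases s <;> simp [Matrix.mul_apply, Fin.sum_univ_two]
    have e2 : (!![((a * q : ℕ) : ℤ), b; 0, (d : ℤ)] : Matrix (Fin 2) (Fin 2) ℤ)
        = !![(a : ℤ), b; 0, (d : ℤ)] * !![(q : ℤ), 0; 0, 1] := by
      ext r s
      fin_cases r <;> fin_cases s <;> simp [Matrix.mul_apply, Fin.sum_univ_two]
    rw [e1, e2, Matrix.mul_assoc, h, ← Matrix.mul_assoc, hA, Matrix.mul_assoc]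
  rw [cuspU_upper (N * q) γ δ (D * q) (Nat.mul_dvd_mul_right hD q) (a * q) d b
    (Nat.mul_pos ha hqpos) hd (Dvd.dvd.mul_right hdN q) hA',
    cuspU_upper N γ' δ D hD a d b ha hd hdN hA, qExpand_qExpand]
  exact qExpand_congr (by rw [h2]; ring) _

theorem cuspU_beta_q1 (γ γ' : SL(2, ℤ))
    (h : (!![(q : ℤ), 0; 0, 1] : Matrix (Fin 2) (Fin 2) ℤ) * (γ⁻¹ : SL(2, ℤ)).1
      = (γ'⁻¹ : SL(2, ℤ)).1 * !![(q : ℤ), 0; 0, 1]) (x : FN N) :
    cuspU (N * q) γ (heckeBetaBar Kbar N q x) = qExpand Kbar (q * q) (cuspU N γ' x) :=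
  congrArg (fun f : FN N →ₐ[Kbar] LaurentSeries Kbar => f x) (cuspU_comp_beta_q1 N q γ γ' h)

/-- **(B2)** the expansion of `β x` at the cusp `γ⁻¹ ∞` of level `N q`, when
`diag(q, 1) γ⁻¹ = γ'⁻¹ !![1, b₀; 0, q]`. -/
theorem cuspU_comp_beta_1q [NeZero (N * q)] (γ γ' : SL(2, ℤ)) (b₀ : ℤ)
    (h : (!![(q : ℤ), 0; 0, 1] : Matrix (Fin 2) (Fin 2) ℤ) * (γ⁻¹ : SL(2, ℤ)).1
      = (γ'⁻¹ : SL(2, ℤ)).1 * !![1, b₀; 0, (q : ℤ)]) :
    (cuspU (N * q) γ).comp (heckeBetaBar Kbar N q)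
      = (twistAlg (zetaK (N * q) ^ b₀) (zpow_ne_zero _ (zetaK_ne_zero (N * q)))).comp
          (cuspU N γ') := by
  apply algHom_ext_of_adjoin _ (adjoin_jdF N)
  rintro x ⟨D, hD0, hD, rfl⟩
  have hDpos : 0 < D := Nat.pos_of_ne_zero (NeZero.ne D)
  have hNpos : 0 < N := Nat.pos_of_ne_zero (NeZero.ne N)
  have hqpos : 0 < q := Nat.pos_of_ne_zero (NeZero.ne q)
  haveI : NeZero (D * q) := ⟨(Nat.mul_pos hDpos hqpos).ne'⟩
  rw [AlgHom.comp_apply, AlgHom.comp_apply, beta_jdF, twistAlg_apply]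
  obtain ⟨δ, a, d, b, ha, hd, had, hA⟩ := exists_hermite_diag D hDpos γ'
  have hdD : d ∣ D := ⟨a, by rw [← had]; ring⟩
  have hdN : d ∣ N := hdD.trans hD
  haveI : NeZero d := ⟨hd.ne'⟩
  haveI : NeZero (d * q) := ⟨(Nat.mul_pos hd hqpos).ne'⟩
  have h1 : 0 < N / d := Nat.div_pos (Nat.le_of_dvd hNpos hdN) hd
  haveI : NeZero (N / d) := ⟨h1.ne'⟩
  haveI : NeZero (N / d * a) := ⟨(Nat.mul_pos h1 ha).ne'⟩
  have h2 : N * q / (d * q) = N / d := Nat.mul_div_mul_right N d hqpos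
  haveI : NeZero (N * q / (d * q) * a) := ⟨by rw [h2]; exact (Nat.mul_pos h1 ha).ne'⟩
  have hA' : (!![((D * q : ℕ) : ℤ), 0; 0, 1] : Matrix (Fin 2) (Fin 2) ℤ) * (γ⁻¹ : SL(2, ℤ)).1
      = δ.1 * !![(a : ℤ), (a : ℤ) * b₀ + b * q; 0, ((d * q : ℕ) : ℤ)] := by
    have e1 : (!![((D * q : ℕ) : ℤ), 0; 0, 1] : Matrix (Fin 2) (Fin 2) ℤ)
        = !![(D : ℤ), 0; 0, 1] * !![(q : ℤ), 0; 0, 1] := by
      ext r s
      fin_cases r <;> fin_cases s <;> simp [Matrix.mul_apply, Fin.sum_univ_two]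
    have e2 : (!![(a : ℤ), (a : ℤ) * b₀ + b * q; 0, ((d * q : ℕ) : ℤ)] :
        Matrix (Fin 2) (Fin 2) ℤ)
        = !![(a : ℤ), b; 0, (d : ℤ)] * !![1, b₀; 0, (q : ℤ)] := by
      ext r s
      fin_cases r <;> fin_cases s <;> simp [Matrix.mul_apply, Fin.sum_univ_two]
    rw [e1, e2, Matrix.mul_assoc, h, ← Matrix.mul_assoc, hA, Matrix.mul_assoc]
  rw [cuspU_upper (N * q) γ δ (D * q) (Nat.mul_dvd_mul_right hD q) a (d * q)
    ((a : ℤ) * b₀ + b * q) ha (Nat.mul_pos hd hqpos) (Nat.mul_dvd_mul_right hdN q) hA',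
    cuspU_upper N γ' δ D hD a d b ha hd hdN hA, twist_qExpand, twist_twist]
  -- the roots of unity
  have hNq : N * q = N / d * (d * q) := by
    rw [← mul_assoc, Nat.div_mul_cancel hdN]
  have hz1 : zetaK (N * q) ^ (N / d) = zetaK (d * q) := by
    haveI : NeZero (N / d * (d * q)) := ⟨by rw [← hNq]; exact NeZero.ne _⟩
    rw [zetaK_congr hNq]
    exact zetaK_mul_pow _ _
  have hz2 : zetaK (d * q) ^ q = zetaK d := by
    haveI : NeZero (q * d) := ⟨(Nat.mul_pos hqpos hd).ne'⟩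
    rw [zetaK_congr (mul_comm d q)]
    exact zetaK_mul_pow _ _
  have hz : (zetaK (N * q) ^ b₀) ^ ((N / d * a : ℕ) : ℤ) * zetaK d ^ b
      = zetaK (d * q) ^ ((a : ℤ) * b₀ + b * q) := by
    rw [← hz2, ← hz1, ← zpow_natCast (zetaK (N * q)) (N / d), ← zpow_natCast _ q, ← zpow_mul,
      ← zpow_mul, ← zpow_mul, ← zpow_mul,
      ← zpow_add₀ (zetaK_ne_zero (N * q))]
    congr 1
    push_cast
    ring
  rw [hz]
  exact qExpand_congr (by rw [h2]) _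

theorem cuspU_beta_1q [NeZero (N * q)] (γ γ' : SL(2, ℤ)) (b₀ : ℤ)
    (h : (!![(q : ℤ), 0; 0, 1] : Matrix (Fin 2) (Fin 2) ℤ) * (γ⁻¹ : SL(2, ℤ)).1
      = (γ'⁻¹ : SL(2, ℤ)).1 * !![1, b₀; 0, (q : ℤ)]) (x : FN N) :
    cuspU (N * q) γ (heckeBetaBar Kbar N q x)
      = twist (zetaK (N * q) ^ b₀) (cuspU N γ' x) := by
  have := congrArg (fun f : FN N →ₐ[Kbar] LaurentSeries Kbar => f x)
    (cuspU_comp_beta_1q N q γ γ' b₀ h)
  simpa only [AlgHom.comp_apply, twistAlg_apply] using this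

end General

end Fermat.Agent.S45.NUE.H31
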