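import Fermat.Agent.S45.NUE.H31_AlphaBeta
import Fermat.Agent.S45.NUE.H23_ValE

/-!
# S45 / NU_e, package E-VAL §7, part 2 (helper31): the table of `α`, `β` on the cusps `1/(q^a M)`

Lower level `N = M q^e` (`B M + k q^e = 1`), upper level `N q = M q^(e+1)`
(`Bu M + ku q^(e+1) = 1`); `α = heckeAlphaBar Kbar N q`, `β = heckeBetaBar Kbar N q`.

`cuspU` form (for E-EPS, helper82):
* `cuspU_gE_alpha`  : `cuspU (N q) (gE a) (α x) = qExpand q (cuspU N (gE a) x)` (every `a`);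
* `cuspU_gE_alpha_min` : the same with `gE (min a e)` on the right, `a ≤ e + 1`;
* `cuspU_gE_beta`   : `1 ≤ a`: `cuspU (N q) (gE a) (β x) = qExpand (q q) (cuspU N (gE (a-1)) x)`;
* `cuspU_gE_beta_zero` : `cuspU (N q) (gE 0) (β x) = twist z (cuspU N (gE 0) x)`, `z = wBeta ^ Bu`.

Normalised form (`cE` of helper23, `H23_ValE`):
* `cE_alpha_le` (`2 a ≤ e`: `qExpand q`), `cE_alpha_gt` (`e < 2 a`: identity), `cE_alpha_top`
  (`a = e + 1 ↦ e`);
* `cE_beta_le` (`1 ≤ a`, `2 a ≤ e + 1`: identity), `cE_beta_gt` (`e + 2 ≤ 2 a`: `qExpand q`),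
  `cE_beta_zero` (`a = 0`: twist by the `q`-power root of unity `wBeta`).
-/

set_option autoImplicit false
set_option synthInstance.maxHeartbeats 400000
set_option maxHeartbeats 1000000
set_option linter.unusedSectionVars false
set_option linter.unusedVariables false
set_option linter.style.haveILetI false

noncomputable section

namespace Fermat.Agent.S45.NUE.H31

open Fermat.Agent.S24 Fermat.Agent.BAD.H88 ModularCurve UpperHalfPlane
open Fermat.Agent.S28 Fermat.Agent.S28.H73 Fermat.Agent.RED.H73 Fermat.Agent.RED.H17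
open Fermat.Agent.S36.NU.H88 Fermat.Agent.RED.H95
open Fermat.Agent.S36.NU.H23
open Fermat.Agent.S45.NUE.H73 (gE gE_inv zE zE_pow nE algHom_eq_of_jdF dvdE_cases dvdE posE
  coprimeE zetaK_mul_pow zetaK_congr)
open Fermat.Agent.S45.NUE.H23
open scoped MatrixGroups Manifold

/-- `diag(q, 1) γ_a⁻¹ = γ_(a-1)⁻¹ diag(q, 1)`. -/
theorem gE_beta_mat (q M a : ℕ) (ha : 1 ≤ a) :
    (!![(q : ℤ), 0; 0, 1] : Matrix (Fin 2) (Fin 2) ℤ) * ((gE q M a)⁻¹ : SL(2, ℤ)).1
      = ((gE q M (a - 1))⁻¹ : SL(2, ℤ)).1 * !![(q : ℤ), 0; 0, 1] := by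
  rw [gE_inv, gE_inv]
  obtain ⟨b, rfl⟩ : ∃ b, a = b + 1 := ⟨a - 1, by omega⟩
  rw [Nat.add_sub_cancel]
  ext i j
  fin_cases i <;> fin_cases j <;>
    simp [Matrix.mul_apply, Fin.sum_univ_two, pow_succ]
  ring

section CuspForm

variable (N q M : ℕ) [NeZero N] [NeZero q]

/-- **(Ta)** `α` at the cusp `1/(q^a M)`. -/
theorem cuspU_gE_alpha (a : ℕ) (x : FN N) :
    cuspU (N * q) (gE q M a) (heckeAlphaBar Kbar N q x)
      = qExpand Kbar q (cuspU N (gE q M a) x) :=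
  cuspU_alpha N q (gE q M a) x

/-- **(Tb1)** `β` at the cusp `1/(q^a M)`, `1 ≤ a`. -/
theorem cuspU_gE_beta (a : ℕ) (ha : 1 ≤ a) (x : FN N) :
    cuspU (N * q) (gE q M a) (heckeBetaBar Kbar N q x)
      = qExpand Kbar (q * q) (cuspU N (gE q M (a - 1)) x) :=
  cuspU_beta_q1 N q _ _ (gE_beta_mat q M a ha) x

end CuspForm

section Table

variable (N q M e : ℕ) (B k Bu ku : ℤ) (hN : N = M * q ^ e)
  (hB : B * M + k * (q : ℤ) ^ e = 1)
  (hNu : N * q = M * q ^ (e + 1)) (hBu : Bu * M + ku * (q : ℤ) ^ (e + 1) = 1)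
  (hq : q.Prime) [NeZero N] [NeZero q]

/-- `cE` does not depend on the Bezout data. -/
theorem cE_congr (B' k' : ℤ) (hB' : B' * M + k' * (q : ℤ) ^ e = 1) (a : ℕ) :
    cE N q M e B k hN hB hq a = cE N q M e B' k' hN hB' hq a := rfl

theorem qExpand_cE' (a : ℕ) (x : FN N) :
    haveI := neZero_nE N q M e B k hN hB hq a
    qExpand Kbar (M * q ^ min e (2 * a)) (cE N q M e B k hN hB hq a x)
      = cuspU N (gE q M a) x :=
  haveI := neZero_nE N q M e B k hN hB hq a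
  qExpand_cG (hE N q M e B k hN hB hq a) x

/-- `α`, `2 a ≤ e`: `cE_a (α x) = (cE'_a x)(s^q)`. -/
theorem cE_alpha_le (a : ℕ) (ha : 2 * a ≤ e) (x : FN N) :
    cE (N * q) q M (e + 1) Bu ku hNu hBu hq a (heckeAlphaBar Kbar N q x)
      = qExpand Kbar q (cE N q M e B k hN hB hq a x) := by
  haveI := neZero_nE (N * q) q M (e + 1) Bu ku hNu hBu hq a
  haveI := neZero_nE N q M e B k hN hB hq a
  apply qExpand_injective (M * q ^ min (e + 1) (2 * a))
  rw [qExpand_cE' (N * q) q M (e + 1) Bu ku hNu hBu hq a, cuspU_gE_alpha,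
    ← qExpand_cE' N q M e B k hN hB hq a x, qExpand_qExpand, qExpand_qExpand]
  refine qExpand_congr ?_ _
  rw [show min e (2 * a) = 2 * a by omega, show min (e + 1) (2 * a) = 2 * a by omega]
  ring

/-- `α`, `e < 2 a`: `cE_a (α x) = cE'_a x`. -/
theorem cE_alpha_gt (a : ℕ) (ha : e < 2 * a) (x : FN N) :
    cE (N * q) q M (e + 1) Bu ku hNu hBu hq a (heckeAlphaBar Kbar N q x)
      = cE N q M e B k hN hB hq a x := by
  haveI := neZero_nE (N * q) q M (e + 1) Bu ku hNu hBu hq a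
  haveI := neZero_nE N q M e B k hN hB hq a
  apply qExpand_injective (M * q ^ min (e + 1) (2 * a))
  rw [qExpand_cE' (N * q) q M (e + 1) Bu ku hNu hBu hq a, cuspU_gE_alpha,
    ← qExpand_cE' N q M e B k hN hB hq a x, qExpand_qExpand]
  refine qExpand_congr ?_ _
  rw [show min e (2 * a) = e by omega, show min (e + 1) (2 * a) = e + 1 by omega, pow_succ]
  ring

/-- `α`, `a = e + 1`: the cusp `∞` of level `N q` lies over the cusp `∞` of level `N`. -/
theorem cE_alpha_top (x : FN N) :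
    cE (N * q) q M (e + 1) Bu ku hNu hBu hq (e + 1) (heckeAlphaBar Kbar N q x)
      = cE N q M e B k hN hB hq e x := by
  rw [cE_top, cE_top, coe_heckeAlphaBar]

/-- `β`, `1 ≤ a`, `2 a ≤ e + 1`: `cE_a (β x) = cE'_(a-1) x`. -/
theorem cE_beta_le (a : ℕ) (ha1 : 1 ≤ a) (ha : 2 * a ≤ e + 1) (x : FN N) :
    cE (N * q) q M (e + 1) Bu ku hNu hBu hq a (heckeBetaBar Kbar N q x)
      = cE N q M e B k hN hB hq (a - 1) x := by
  haveI := neZero_nE (N * q) q M (e + 1) Bu ku hNu hBu hq a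
  haveI := neZero_nE N q M e B k hN hB hq (a - 1)
  apply qExpand_injective (M * q ^ min (e + 1) (2 * a))
  rw [qExpand_cE' (N * q) q M (e + 1) Bu ku hNu hBu hq a, cuspU_gE_beta N q M a ha1,
    ← qExpand_cE' N q M e B k hN hB hq (a - 1) x, qExpand_qExpand]
  refine qExpand_congr ?_ _
  obtain ⟨b, rfl⟩ : ∃ b, a = b + 1 := ⟨a - 1, by omega⟩
  rw [Nat.add_sub_cancel, show min e (2 * b) = 2 * b by omega,
    show min (e + 1) (2 * (b + 1)) = 2 * b + 2 by omega, pow_add]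
  ring

/-- `β`, `e + 2 ≤ 2 a`: `cE_a (β x) = (cE'_(a-1) x)(s^q)`. -/
theorem cE_beta_gt (a : ℕ) (ha : e + 2 ≤ 2 * a) (x : FN N) :
    cE (N * q) q M (e + 1) Bu ku hNu hBu hq a (heckeBetaBar Kbar N q x)
      = qExpand Kbar q (cE N q M e B k hN hB hq (a - 1) x) := by
  haveI := neZero_nE (N * q) q M (e + 1) Bu ku hNu hBu hq a
  haveI := neZero_nE N q M e B k hN hB hq (a - 1)
  apply qExpand_injective (M * q ^ min (e + 1) (2 * a))
  rw [qExpand_cE' (N * q) q M (e + 1) Bu ku hNu hBu hq a,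
    cuspU_gE_beta N q M a (by omega),
    ← qExpand_cE' N q M e B k hN hB hq (a - 1) x, qExpand_qExpand, qExpand_qExpand]
  refine qExpand_congr ?_ _
  obtain ⟨b, rfl⟩ : ∃ b, a = b + 1 := ⟨a - 1, by omega⟩
  rw [Nat.add_sub_cancel, show min e (2 * b) = e by omega,
    show min (e + 1) (2 * (b + 1)) = e + 1 by omega, pow_succ]
  ring

include hN hB hNu hBu hq in
/-- **(Ta)**, with the index of the lower level: `a ≤ e + 1`. -/
theorem cuspU_gE_alpha_min (a : ℕ) (ha : a ≤ e + 1) (x : FN N) :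
    cuspU (N * q) (gE q M a) (heckeAlphaBar Kbar N q x)
      = qExpand Kbar q (cuspU N (gE q M (min a e)) x) := by
  rcases Nat.lt_or_ge e a with h | h
  · obtain rfl : a = e + 1 := by omega
    rw [show min (e + 1) e = e by omega]
    haveI := neZero_nE (N * q) q M (e + 1) Bu ku hNu hBu hq (e + 1)
    haveI := neZero_nE N q M e B k hN hB hq e
    rw [← qExpand_cE' (N * q) q M (e + 1) Bu ku hNu hBu hq (e + 1),
      ← qExpand_cE' N q M e B k hN hB hq e x,
      cE_alpha_top N q M e B k Bu ku hN hB hNu hBu hq x, qExpand_qExpand]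
    refine qExpand_congr ?_ _
    rw [show min e (2 * e) = e by omega, show min (e + 1) (2 * (e + 1)) = e + 1 by omega,
      pow_succ]
    ring
  · rw [show min a e = a by omega]
    exact cuspU_gE_alpha N q M a x

end Table

/-! ### The cusp `0` (`a = 0`) along `β` -/

theorem jdF_congr (N : ℕ) [NeZero N] {D D' : ℕ} [NeZero D] [NeZero D'] (h : D = D')
    (hD : D ∣ N) (hD' : D' ∣ N) : jdF N D hD = jdF N D' hD' := by
  subst h; rfl

theorem twist_qExpand_eq (m n : ℕ) [NeZero m] [NeZero n] (hmn : m = n) (z w : Kbar)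
    (hzw : z ^ n = w ^ n) (x : LaurentSeries Kbar) :
    twist z (qExpand Kbar m x) = twist w (qExpand Kbar n x) := by
  subst hmn
  rw [twist_qExpand, twist_qExpand, zpow_natCast, zpow_natCast, hzw]

theorem zE_ne_zero (q e a : ℕ) [NeZero q] (B : ℤ) : zE q e a B ≠ 0 := by
  haveI : NeZero (q ^ max a (e - a)) := ⟨pow_ne_zero _ (NeZero.ne q)⟩
  exact zpow_ne_zero _ (zetaK_ne_zero _)

/-- The `q`-power root of unity of the twist of `β` at the cusp `0`:
`ζ_(q^(e+1))^Bu / ζ_(q^e)^B`. -/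
def wBeta (q e : ℕ) [NeZero q] (B Bu : ℤ) : Kbar := zE q (e + 1) 0 Bu * (zE q e 0 B)⁻¹

theorem wBeta_ne_zero (q e : ℕ) [NeZero q] (B Bu : ℤ) : wBeta q e B Bu ≠ 0 :=
  mul_ne_zero (zE_ne_zero q (e + 1) 0 Bu) (inv_ne_zero (zE_ne_zero q e 0 B))

theorem zE_zero_pow (q e : ℕ) [NeZero q] (B : ℤ) : zE q e 0 B ^ (q ^ e) = 1 := by
  have h := zE_pow q e 0 B
  rwa [show max 0 (e - 0) = e by omega] at h

theorem wBeta_pow (q e : ℕ) [NeZero q] (B Bu : ℤ) : wBeta q e B Bu ^ (q ^ (e + 1)) = 1 := by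
  rw [wBeta, mul_pow, inv_pow, zE_zero_pow, pow_succ, pow_mul, zE_zero_pow, one_pow, inv_one,
    mul_one]

theorem wBeta_mul (q e : ℕ) [NeZero q] (B Bu : ℤ) :
    wBeta q e B Bu * zE q e 0 B = zE q (e + 1) 0 Bu := by
  rw [wBeta, mul_assoc, inv_mul_cancel₀ (zE_ne_zero q e 0 B), mul_one]

section Zero

variable (N q M e : ℕ) (B k Bu ku : ℤ) (hN : N = M * q ^ e)
  (hB : B * M + k * (q : ℤ) ^ e = 1)
  (hNu : N * q = M * q ^ (e + 1)) (hBu : Bu * M + ku * (q : ℤ) ^ (e + 1) = 1)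
  (hq : q.Prime) [NeZero N] [NeZero q]

/-- `β`, `a = 0`: `cE_0 (β x) = twist w (cE'_0 x)`, `w = wBeta` a `q^(e+1)`-th root of unity. -/
theorem cE_beta_zero (x : FN N) :
    cE (N * q) q M (e + 1) Bu ku hNu hBu hq 0 (heckeBetaBar Kbar N q x)
      = twist (wBeta q e B Bu) (cE N q M e B k hN hB hq 0 x) := by
  refine algHom_eq_of_jdF N q M e B k hN hB hq
    ((cE (N * q) q M (e + 1) Bu ku hNu hBu hq 0).comp (heckeBetaBar Kbar N q))
    ((twistAlg (wBeta q e B Bu) (wBeta_ne_zero q e B Bu)).comp (cE N q M e B k hN hB hq 0)) ?_ x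
  intro D hD0 hD
  obtain ⟨d, d', i, hM, hie, h⟩ := dvdE_cases N q M e B k hN hB hq D hD
  subst h
  have hq0 : 0 < q := hq.pos
  have hM0 := posE N q M e B k hN hB hq
  have hd0 : 0 < d := by
    rcases Nat.eq_zero_or_pos d with h | h
    · rw [h, zero_mul] at hM; omega
    · exact h
  haveI : NeZero (d * q ^ (i + 1)) := ⟨(Nat.mul_pos hd0 (pow_pos hq0 _)).ne'⟩
  have hDu : d * q ^ (i + 1) ∣ N * q := by
    rw [pow_succ, ← mul_assoc]; exact Nat.mul_dvd_mul_right hD q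
  have hβ : heckeBetaBar Kbar N q (jdF N (d * q ^ i) hD)
      = jdF (N * q) (d * q ^ (i + 1)) hDu := by
    rw [Fermat.Agent.BAD.H88.beta_jdF q N (d * q ^ i) hD]
    exact jdF_congr (N * q) (by rw [pow_succ]; ring) _ _
  show cE (N * q) q M (e + 1) Bu ku hNu hBu hq 0 (heckeBetaBar Kbar N q (jdF N (d * q ^ i) hD))
      = twist (wBeta q e B Bu) (cE N q M e B k hN hB hq 0 (jdF N (d * q ^ i) hD))
  haveI : NeZero (d * q ^ (max (e + 1) (2 * 0) - (i + 1))) :=
    ⟨(Nat.mul_pos hd0 (pow_pos hq0 _)).ne'⟩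
  rw [hβ, cE_jdF_gt (N * q) q M (e + 1) Bu ku hNu hBu hq d d' (i + 1) 0 hM (by omega)
    (by omega) hDu]
  rcases Nat.eq_zero_or_pos i with hi | hi
  · subst hi
    haveI : NeZero (d * q ^ (e - 2 * 0 + 0)) := ⟨(Nat.mul_pos hd0 (pow_pos hq0 _)).ne'⟩
    rw [cE_jdF_le N q M e B k hN hB hq d d' 0 0 hM le_rfl hD]
    refine twist_qExpand_eq _ _ (by congr 2) _ _ ?_ _
    rw [show e - 2 * 0 + 0 = e by omega, ← wBeta_mul q e B Bu, mul_pow, mul_comm d, pow_mul,
      pow_mul (zE q e 0 B), zE_zero_pow, one_pow, mul_one]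
  · haveI : NeZero (d * q ^ (max e (2 * 0) - i)) := ⟨(Nat.mul_pos hd0 (pow_pos hq0 _)).ne'⟩
    rw [cE_jdF_gt N q M e B k hN hB hq d d' i 0 hM hi hie hD, twist_twist, wBeta_mul]
    refine twist_qExpand_eq _ _ ?_ _ _ rfl _
    congr 2
    omega

include hN hB hNu hBu hq in
/-- **(Tb0)** `β` at the cusp `0`, in `cuspU` form: a twist by a `q^(e+1)`-th root of unity. -/
theorem cuspU_gE_beta_zero (x : FN N) :
    cuspU (N * q) (gE q M 0) (heckeBetaBar Kbar N q x)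
      = twist (wBeta q e B Bu ^ Bu) (cuspU N (gE q M 0) x) := by
  haveI := neZero_nE (N * q) q M (e + 1) Bu ku hNu hBu hq 0
  haveI := neZero_nE N q M e B k hN hB hq 0
  rw [← qExpand_cE' (N * q) q M (e + 1) Bu ku hNu hBu hq 0,
    ← qExpand_cE' N q M e B k hN hB hq 0 x,
    cE_beta_zero N q M e B k Bu ku hN hB hNu hBu hq x, twist_qExpand]
  have hw : (wBeta q e B Bu ^ Bu) ^ ((M * q ^ min e (2 * 0) : ℕ) : ℤ) = wBeta q e B Bu := by
    have h1 : (Bu : ℤ) * ((M * q ^ min e (2 * 0) : ℕ) : ℤ)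
        = 1 + (-ku) * ((q ^ (e + 1) : ℕ) : ℤ) := by
      rw [show min e (2 * 0) = 0 by omega]
      push_cast
      linear_combination hBu
    rw [← zpow_mul, h1, zpow_add₀ (wBeta_ne_zero q e B Bu), zpow_one, mul_comm (-ku),
      zpow_mul, zpow_natCast, wBeta_pow, one_zpow, mul_one]
  rw [hw]
  exact qExpand_congr (by rw [show min (e + 1) (2 * 0) = 0 by omega,
    show min e (2 * 0) = 0 by omega]) _

theorem wBeta_zpow_pow (q e : ℕ) [NeZero q] (B Bu : ℤ) :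
    (wBeta q e B Bu ^ Bu) ^ (q ^ (e + 1)) = 1 := by
  rw [← zpow_natCast, ← zpow_mul, mul_comm, zpow_mul, zpow_natCast, wBeta_pow, one_zpow]

end Zero

end Fermat.Agent.S45.NUE.H31
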