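import Fermat.Agent.S45.NUE.H79_Defs
import Fermat.Agent.S45.NUE.H23_TotE4
import Fermat.Agent.S36.NU.H23_NmP

/-!
# S45 / NU_e, ND_e (helper79): norms of residue fields and points of the components

Level `M q^e`, `q ∤ M`; all residue fields are `C = FM A M` (helper23's `kapE`), the point of the
component `a` over `z` is `ptE a z = β^[e - 2 a] z`.

* `resIdE` : the norm of residue fields of degree `1` (`N = id`, `j = id`): WILD single
  components (ramification index `q`) and the double component;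
* `resFrE` : the norm of residue fields of degree `q` (`N = φ`, `j = Fr`): INSEPARABLE single
  components (ramification index `1`);
* `ptE_eq_iter`, `ptE_eq_self` : the points `ptE`;
* `ptE_alpha_wild`, `ptE_alpha_insep`, `ptE_beta_wild`, `ptE_beta_insep`, `ptE_double_top`,
  `ptE_double_mid` : the fields `pt` of `SingleRel`, `DoubleRel` for `zα = id`, `zβ = β⁻¹`;
* `deg_ptE` : the points have degree one;
* `insep_norm_eq` : `Fr x' = x ^ q → x' = φ x` (the inseparable norm formula in `ResNorm` form).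
-/

set_option autoImplicit false
set_option synthInstance.maxHeartbeats 400000
set_option maxHeartbeats 1000000
set_option linter.style.haveILetI false
set_option linter.unusedSectionVars false

noncomputable section

open ModularCurve AlgebraicCurve
open Fermat.Agent.S24 Fermat.Agent.BAD.H88 Fermat.Agent.S28 Fermat.Agent.S28.H73
open Fermat.Agent.RED.H73 Fermat.Agent.RED.H17 Fermat.Agent.S36.NU.H88
open Fermat.Agent.S36.NU.H23 Fermat.Agent.S45.NUE.H23

namespace Fermat.Agent.S45.NUE.H79

open Fermat.Agent.BAD Fermat.Agent.RED Fermat.Agent.S36.NU.H79 Fermat.Agent.S36.NU.H24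

attribute [local instance] algkE

section Shape

variable (A : ValuationSubring Kbar) (q M : ℕ) (hq : q.Prime) [NeZero M] [NeZero q]
  [NeZero (M * q * q)] (hqM : ¬ q ∣ M) (hA : A.LiesOverPrime q)

/-! ### The norms of the residue fields -/

/-- The norm of residue fields of degree `1`. -/
def resIdE : ResNorm (kV A) (FM A M) (FM A M) where
  N := MonoidHom.id _
  j := AlgHom.id _ _
  f := 1
  hj := fun x => by rw [pow_one]; rfl

/-- The norm of residue fields of degree `q`: `N = φ`, `j = Fr`. -/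
def resFrE : ResNorm (kV A) (FM A M) (FM A M) where
  N := ((phiM A q M hq hqM hA : FM A M ≃+* FM A M) : FM A M →* FM A M)
  j := FrM A q M hq hqM hA
  f := q
  hj := fun x =>
    @BAD.H73.FrE_frobE (kV A) _ q ⟨hq⟩ (BAD.H82.charP_kV A hq hA)
      (@BAD.H73.perfectRing_kV _ _ _ A q ⟨hq⟩ (BAD.H82.charP_kV A hq hA)) _
      (frobStable_FM A q M hq hqM hA) x

@[simp] theorem resIdE_f : (resIdE A M).f = 1 := rfl

@[simp] theorem resIdE_N (x : FM A M) : (resIdE A M).N x = x := rfl

@[simp] theorem resIdE_j (x : FM A M) : (resIdE A M).j x = x := rfl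

@[simp] theorem resFrE_f : (resFrE A q M hq hqM hA).f = q := rfl

theorem resFrE_N (x : FM A M) : (resFrE A q M hq hqM hA).N x = phiM A q M hq hqM hA x := rfl

theorem resFrE_j (x : FM A M) : (resFrE A q M hq hqM hA).j x = FrM A q M hq hqM hA x := rfl

/-- `Fr (φ x) = x ^ q`. -/
theorem FrM_phiM (x : FM A M) : FrM A q M hq hqM hA (phiM A q M hq hqM hA x) = x ^ q :=
  (resFrE A q M hq hqM hA).hj x

/-- **The inseparable norm formula in `ResNorm` form**: `Fr x' = x ^ q → x' = φ x`. -/
theorem insep_norm_eq (x x' : FM A M)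
    (h : qExpand (kV A) q (x' : LaurentSeries (kV A)) = (x : LaurentSeries (kV A)) ^ q) :
    x' = (resFrE A q M hq hqM hA).N x := by
  have h1 : FrM A q M hq hqM hA x' = FrM A q M hq hqM hA (phiM A q M hq hqM hA x) := by
    rw [FrM_phiM]
    apply Subtype.ext
    rw [coe_FrM, h]
    rfl
  exact (FrM A q M hq hqM hA).toRingHom.injective h1

/-- The wild norm formula in `ResNorm` form. -/
theorem wild_norm_eq (x x' : FM A M)
    (h : (x' : LaurentSeries (kV A)) = (x : LaurentSeries (kV A)) ^ q) :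
    x' = (resIdE A M).N x ^ q := by
  apply Subtype.ext
  rw [h]
  rfl

/-! ### The points of the components -/

/-- The point of the component `i` over `z` is `β^[w] z`, `w = e - 2 i`. -/
theorem ptE_eq_iter (e : ℕ) (i : Fin (e + 1)) (w : ℕ) (hw : e - 2 * (i : ℕ) = w)
    (z : Place (kV A) (FM A M)) :
    ptE A q M e hq hqM hA i z = (betaM A q M hq hqM hA)^[w] z := by
  subst hw
  rfl

/-- The point of the component `i` over `z` is `z` if `e ≤ 2 i`. -/
theorem ptE_eq_self (e : ℕ) (i : Fin (e + 1)) (hi : e ≤ 2 * (i : ℕ))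
    (z : Place (kV A) (FM A M)) : ptE A q M e hq hqM hA i z = z :=
  ptE_eq_iter A q M hq hqM hA e i 0 (Nat.sub_eq_zero_of_le hi) z

/-- `pt` along `α`, wild component (`e < 2 a`). -/
theorem ptE_alpha_wild (e : ℕ) (i : Fin (e + 2)) (i' : Fin (e + 1)) (hi' : (i' : ℕ) = (i : ℕ))
    (hi : e < 2 * (i : ℕ)) (z : Place (kV A) (FM A M)) (y : FM A M) (c : kV A)
    (h : HasValue (ptE A q M (e + 1) hq hqM hA i z) ((resIdE A M).j y) c) :
    HasValue (ptE A q M e hq hqM hA i' z) y c := by
  rw [ptE_eq_self A q M hq hqM hA (e + 1) i (by omega) z] at h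
  rw [ptE_eq_self A q M hq hqM hA e i' (by omega) z]
  exact h

/-- `pt` along `α`, inseparable component (`2 a ≤ e`). -/
theorem ptE_alpha_insep (e : ℕ) (i : Fin (e + 2)) (i' : Fin (e + 1))
    (hi' : (i' : ℕ) = (i : ℕ)) (hi : 2 * (i : ℕ) ≤ e) (z : Place (kV A) (FM A M))
    (y : FM A M) (c : kV A)
    (h : HasValue (ptE A q M (e + 1) hq hqM hA i z) ((resFrE A q M hq hqM hA).j y) c) :
    HasValue (ptE A q M e hq hqM hA i' z) y c := by
  rw [ptE_eq_iter A q M hq hqM hA (e + 1) i (e - 2 * (i : ℕ) + 1) (by omega) z,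
    Function.iterate_succ_apply'] at h
  rw [ptE_eq_iter A q M hq hqM hA e i' (e - 2 * (i : ℕ)) (by omega) z]
  exact (hasValue_betaM_FrM A q M hq hqM hA _ y c).1 h

/-- `pt` along `β`, wild component (`2 ≤ a`, `2 a ≤ e + 1`), `zβ = β⁻¹`. -/
theorem ptE_beta_wild (e : ℕ) (i : Fin (e + 2)) (i' : Fin (e + 1))
    (hi' : (i' : ℕ) + 1 = (i : ℕ)) (hi : 2 * (i : ℕ) ≤ e + 1) (z : Place (kV A) (FM A M))
    (y : FM A M) (c : kV A)
    (h : HasValue (ptE A q M (e + 1) hq hqM hA i z) ((resIdE A M).j y) c) :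
    HasValue (ptE A q M e hq hqM hA i' ((betaM A q M hq hqM hA).symm z)) y c := by
  rw [ptE_eq_iter A q M hq hqM hA (e + 1) i (e + 1 - 2 * (i : ℕ)) rfl z] at h
  rw [ptE_eq_iter A q M hq hqM hA e i' (e + 1 - 2 * (i : ℕ) + 1) (by omega) _,
    Function.iterate_succ_apply, Equiv.apply_symm_apply]
  exact h

/-- `pt` along `β`, inseparable component (`e + 2 ≤ 2 a`), `zβ = β⁻¹`. -/
theorem ptE_beta_insep (e : ℕ) (i : Fin (e + 2)) (i' : Fin (e + 1))
    (hi' : (i' : ℕ) + 1 = (i : ℕ)) (hi : e + 2 ≤ 2 * (i : ℕ)) (z : Place (kV A) (FM A M))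
    (y : FM A M) (c : kV A)
    (h : HasValue (ptE A q M (e + 1) hq hqM hA i z) ((resFrE A q M hq hqM hA).j y) c) :
    HasValue (ptE A q M e hq hqM hA i' ((betaM A q M hq hqM hA).symm z)) y c := by
  rw [ptE_eq_self A q M hq hqM hA (e + 1) i (by omega) z] at h
  rw [ptE_eq_self A q M hq hqM hA e i' (by omega) _]
  have hz : z = betaM A q M hq hqM hA ((betaM A q M hq hqM hA).symm z) :=
    (Equiv.apply_symm_apply _ _).symm
  rw [hz] at h
  exact (hasValue_betaM_FrM A q M hq hqM hA _ y c).1 h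

/-- The points of the components have degree one. -/
theorem deg_ptE (ht : H91.TameAt M q) (e : ℕ) (i : Fin (e + 1)) (z : Place (kV A) (FM A M)) :
    @Place.deg (kV A) (kapE A M e i) _ _ (algkE A M e i) (ptE A q M e hq hqM hA i z) = 1 := by
  haveI : IsAlgClosed (kV A) := isAlgClosed_kV A
  exact (Fermat.Agent.RED.H17.ffHyp_of_isFF _ _
    (Fermat.Agent.BAD.H91.isFF_redM hq hqM ht hA)).deg_one _

end Shape

end Fermat.Agent.S45.NUE.H79
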