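import Fermat.Agent.S45.NUE.H33_RedInst
import Fermat.Agent.S45.NUE.H51_CoverInst
import Fermat.Agent.S45.NUE.H79_ShapeE
import Fermat.Agent.S45.NUE.H96_InstB

/-!
# S45 / NU_e, ND_e (helper33): the single components along `α` and the norms of units

Levels `N = M q ^ e` (lower, `e > 0`) and `N q = M q ^ (e + 1)` (upper), `q ∤ M`, `A` over `q`;
`Tu`, `Tl` the conservation data `totEM` of helper23 of the two levels, `nmAlphaE` the norm along
`α` on the inertia-fixed functions (helper96).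

* `normAlpha_wild_gen`, `normAlpha_insep_gen` : the norm–reduction formulas of `H33_NormFinal`
  for a generic level `N` (`sE`-form);
* `singleAlphaWild` (`a < e`, `e < 2 a`), `singleAlphaInsep` (`a < e`, `2 a ≤ e`),
  **`singleAlpha`** (`a < e`) : `H79.SingleRel Tu Tl (nmAlphaE A N q) (ssM A q M) id q i`;
* **`unitAlphaT`**, `unitBetaT` : the norm of a unit for all the valuations of the upper level is
  a unit for all the valuations of the lower level (the field `unit` of `H79.SideE`).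
-/

set_option autoImplicit false
set_option linter.style.haveILetI false
set_option linter.unusedSectionVars false
set_option linter.unusedVariables false
set_option synthInstance.maxHeartbeats 400000
set_option maxHeartbeats 1000000

noncomputable section

namespace Fermat.Agent.S45.NUE.H33

open AlgebraicCurve ModularCurve Fermat.Agent.S24 Fermat.Agent.Lib.HeckeComm
  Fermat.Agent.S36.H44 Fermat.Agent.BAD Fermat.Agent.BAD.H88
  Fermat.Agent.S36.NU.H26 Fermat.Agent.S45.NUE.H51 Fermat.Agent.S45.NUE.H23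
  Fermat.Agent.S28 Fermat.Agent.S28.H73 Fermat.Agent.RED.H73 Fermat.Agent.RED.H17
  Fermat.Agent.S36.NU.H79 Fermat.Agent.S36.NU.H88 Fermat.Agent.S36.NU.H23

attribute [local instance] Fermat.Agent.S45.NUE.H23.algkE

section SideE

variable (A : ValuationSubring Kbar) (N q M e : ℕ) (B k B' k' : ℤ) (hN : N = M * q ^ e)
  (hB : B * M + k * (q : ℤ) ^ e = 1)
  (hN' : N * q = M * q ^ (e + 1)) (hB' : B' * M + k' * (q : ℤ) ^ (e + 1) = 1) (hq : q.Prime)
  [NeZero N] [NeZero q] [NeZero (N * q)] [NeZero M] [NeZero (M * q)] [NeZero (M * q * q)]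
  (he : 0 < e) (hqM : ¬ q ∣ M) (hA : A.LiesOverPrime q) (ht : H91.TameAt M q)

/-! ### The norm formulas at a generic level -/

include hN he in
theorem exists_level : ∃ M₁ : ℕ, N = M₁ * q :=
  ⟨M * q ^ (e - 1), by
    rw [hN, mul_assoc, ← pow_succ]
    congr 2
    omega⟩

include hqM hA he in
/-- **NORM-RED along `α`, wild shape** (`a < e`, `e < 2 a`), generic level. -/
theorem normAlpha_wild_gen (a : ℕ) (ha : a < e) (h2 : e < 2 * a)
    (f : ↥(L0 A (N * q))) (hf : f ∈ VE A (N * q) q M (e + 1) B' k' hN' hB' hq a) :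
    ∃ hm : Fermat.Agent.S45.NUE.H96.nmAlphaE A N q f ∈ VE A N q M e B k hN hB hq a,
      sE A N q M e B k hN hB hq a ⟨_, hm⟩
        = sE A (N * q) q M (e + 1) B' k' hN' hB' hq a ⟨f, hf⟩ ^ q := by
  obtain ⟨M₁, rfl⟩ := exists_level N q M e hN he
  haveI : NeZero M₁ := ⟨fun h0 => NeZero.ne (M₁ * q) (by rw [h0, zero_mul])⟩
  exact normAlpha_wild (coverInputs A q M₁ M e hq hN hN' B k hB B' k' hB' hqM hA)
    (redInputs A q M₁ M e hq hN hN' B k hB B' k' hB') hqM hA a ha h2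
    (fun x => sE_mem A (M₁ * q * q) q M (e + 1) B' k' hN' hB' hq hqM hA (Nat.succ_pos e) a
      (by omega) x) f hf

include hqM hA he in
/-- **NORM-RED along `α`, inseparable shape** (`a < e`, `2 a ≤ e`), generic level. -/
theorem normAlpha_insep_gen (a : ℕ) (ha : a < e) (h2 : 2 * a ≤ e)
    (f : ↥(L0 A (N * q))) (hf : f ∈ VE A (N * q) q M (e + 1) B' k' hN' hB' hq a) :
    ∃ hm : Fermat.Agent.S45.NUE.H96.nmAlphaE A N q f ∈ VE A N q M e B k hN hB hq a,
      qExpand (kV A) q (sE A N q M e B k hN hB hq a ⟨_, hm⟩)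
        = sE A (N * q) q M (e + 1) B' k' hN' hB' hq a ⟨f, hf⟩ ^ q := by
  obtain ⟨M₁, rfl⟩ := exists_level N q M e hN he
  haveI : NeZero M₁ := ⟨fun h0 => NeZero.ne (M₁ * q) (by rw [h0, zero_mul])⟩
  exact normAlpha_insep (coverInputs A q M₁ M e hq hN hN' B k hB B' k' hB' hqM hA)
    (redInputs A q M₁ M e hq hN hN' B k hB B' k' hB') hqM hA a ha h2
    (fun x => sE_mem A (M₁ * q * q) q M (e + 1) B' k' hN' hB' hq hqM hA (Nat.succ_pos e) a
      (by omega) x) f hf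

include hqM hA he in
/-- **UNIT along `α`**, generic level, membership form. -/
theorem unitAlpha_gen (f : ↥(L0 A (N * q)))
    (hu : ∀ a, a ≤ e + 1 → f ∈ VE A (N * q) q M (e + 1) B' k' hN' hB' hq a)
    (hu' : ∀ a, a ≤ e + 1 → f⁻¹ ∈ VE A (N * q) q M (e + 1) B' k' hN' hB' hq a)
    (a' : ℕ) (ha' : a' ≤ e) :
    Fermat.Agent.S45.NUE.H96.nmAlphaE A N q f ∈ VE A N q M e B k hN hB hq a'
      ∧ (Fermat.Agent.S45.NUE.H96.nmAlphaE A N q f)⁻¹ ∈ VE A N q M e B k hN hB hq a' := by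
  obtain ⟨M₁, rfl⟩ := exists_level N q M e hN he
  haveI : NeZero M₁ := ⟨fun h0 => NeZero.ne (M₁ * q) (by rw [h0, zero_mul])⟩
  exact unitAlpha (coverInputs A q M₁ M e hq hN hN' B k hB B' k' hB' hqM hA) f hu hu' a' ha'

include hqM hA he in
/-- **UNIT along `β`**, generic level, membership form. -/
theorem unitBeta_gen (f : ↥(L0 A (N * q)))
    (hu : ∀ a, a ≤ e + 1 → f ∈ VE A (N * q) q M (e + 1) B' k' hN' hB' hq a)
    (hu' : ∀ a, a ≤ e + 1 → f⁻¹ ∈ VE A (N * q) q M (e + 1) B' k' hN' hB' hq a)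
    (a' : ℕ) (ha' : a' ≤ e) :
    Fermat.Agent.S45.NUE.H96.nmBetaE A N q f ∈ VE A N q M e B k hN hB hq a'
      ∧ (Fermat.Agent.S45.NUE.H96.nmBetaE A N q f)⁻¹ ∈ VE A N q M e B k hN hB hq a' := by
  obtain ⟨M₁, rfl⟩ := exists_level N q M e hN he
  haveI : NeZero M₁ := ⟨fun h0 => NeZero.ne (M₁ * q) (by rw [h0, zero_mul])⟩
  exact unitBeta (coverInputs A q M₁ M e hq hN hN' B k hB B' k' hB' hqM hA) f hu hu' a' ha'

/-! ### The conservation data of the two levels -/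

/-- The conservation datum of the upper level `N q = M q ^ (e + 1)`. -/
abbrev TuE := totEM A (N * q) q M (e + 1) B' k' hN' hB' hq hqM hA ht (Nat.succ_pos e)

/-- The conservation datum of the lower level `N = M q ^ e`. -/
abbrev TlE := totEM A N q M e B k hN hB hq hqM hA ht he

/-- A non-zero `h` with `h, h⁻¹ ∈ V i` has non-zero reduction. -/
theorem rdN_ne_zero_of_mem_inv {K L₀ L k ι Z : Type*} {E : ι → Type*} [Field K] [Field L₀]
    [Field L] [Algebra K L] [Algebra L₀ L] [Field k] [Fintype ι] [∀ i, Field (E i)]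
    [∀ i, Algebra k (E i)] (T : TotN K L₀ L k ι Z E) {i : ι} {h : L₀} (h0 : h ≠ 0)
    (hm : h ∈ T.V i) (hi : h⁻¹ ∈ T.V i) : T.rdN i h ≠ 0 := by
  intro hz
  have h1 : T.rdN i (h⁻¹ * h) = T.rdN i h⁻¹ * T.rdN i h := T.rdN_mul hi hm
  rw [inv_mul_cancel₀ h0, T.rdN_one, hz, mul_zero] at h1
  exact one_ne_zero h1

/-- A function with non-zero reduction is non-zero. -/
theorem ne_zero_of_rdN_ne_zero {K L₀ L k ι Z : Type*} {E : ι → Type*} [Field K] [Field L₀]
    [Field L] [Algebra K L] [Algebra L₀ L] [Field k] [Fintype ι] [∀ i, Field (E i)]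
    [∀ i, Algebra k (E i)] (T : TotN K L₀ L k ι Z E) {i : ι} {h : L₀}
    (hu : T.rdN i h ≠ 0) : h ≠ 0 := by
  rintro rfl
  apply hu
  rw [T.rdN_of_mem (T.V i).zero_mem]
  exact map_zero (T.red i)

/-- Membership of a unit of the upper level. -/
theorem mem_of_unitT (h : ↥(L0 A (N * q)))
    (hu : ∀ i, (TuE A N q M e B' k' hN' hB' hq hqM hA ht).rdN i h ≠ 0) (a : ℕ)
    (ha : a ≤ e + 1) : h ∈ VE A (N * q) q M (e + 1) B' k' hN' hB' hq a :=
  (TuE A N q M e B' k' hN' hB' hq hqM hA ht).mem_of_rdN_ne_zero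
    (i := (⟨a, Nat.lt_succ_iff.2 ha⟩ : Fin (e + 1 + 1))) (hu ⟨a, Nat.lt_succ_iff.2 ha⟩)

/-- Membership of the inverse of a unit of the upper level. -/
theorem inv_mem_of_unitT (h : ↥(L0 A (N * q)))
    (hu : ∀ i, (TuE A N q M e B' k' hN' hB' hq hqM hA ht).rdN i h ≠ 0) (a : ℕ)
    (ha : a ≤ e + 1) : h⁻¹ ∈ VE A (N * q) q M (e + 1) B' k' hN' hB' hq a :=
  (TuE A N q M e B' k' hN' hB' hq hqM hA ht).inv_mem_of_rdN_ne_zero
    (i := (⟨a, Nat.lt_succ_iff.2 ha⟩ : Fin (e + 1 + 1))) (hu ⟨a, Nat.lt_succ_iff.2 ha⟩)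

/-- A unit of the upper level is non-zero. -/
theorem ne_zero_of_unitT (h : ↥(L0 A (N * q)))
    (hu : ∀ i, (TuE A N q M e B' k' hN' hB' hq hqM hA ht).rdN i h ≠ 0) : h ≠ 0 :=
  ne_zero_of_rdN_ne_zero (TuE A N q M e B' k' hN' hB' hq hqM hA ht)
    (i := (⟨0, Nat.succ_pos _⟩ : Fin (e + 1 + 1))) (hu ⟨0, Nat.succ_pos _⟩)

/-- The reduction at the lower level of a unit is non-zero. -/
theorem rdN_low_ne_zero (x : ↥(L0 A N)) (hx0 : x ≠ 0) (i' : Fin (e + 1))
    (h1 : x ∈ VE A N q M e B k hN hB hq (i' : ℕ))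
    (h2 : x⁻¹ ∈ VE A N q M e B k hN hB hq (i' : ℕ)) :
    (TlE A N q M e B k hN hB hq he hqM hA ht).rdN i' x ≠ 0 :=
  rdN_ne_zero_of_mem_inv (TlE A N q M e B k hN hB hq he hqM hA ht) (i := i') hx0 h1 h2

/-- **UNIT along `α`** (the field `unit` of `H79.SideE`). -/
theorem unitAlphaT (h : ↥(L0 A (N * q)))
    (hu : ∀ i, (TuE A N q M e B' k' hN' hB' hq hqM hA ht).rdN i h ≠ 0) (i' : Fin (e + 1)) :
    (TlE A N q M e B k hN hB hq he hqM hA ht).rdN i'
      (Fermat.Agent.S45.NUE.H96.nmAlphaE A N q h) ≠ 0 := by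
  have h0 : h ≠ 0 := ne_zero_of_unitT A N q M e B' k' hN' hB' hq hqM hA ht h hu
  have hn0 : Fermat.Agent.S45.NUE.H96.nmAlphaE A N q h ≠ 0 :=
    ((IsUnit.mk0 h h0).map (Fermat.Agent.S45.NUE.H96.nmAlphaE A N q)).ne_zero
  obtain ⟨h1, h2⟩ := unitAlpha_gen A N q M e B k B' k' hN hB hN' hB' hq he hqM hA h
    (mem_of_unitT A N q M e B' k' hN' hB' hq hqM hA ht h hu)
    (inv_mem_of_unitT A N q M e B' k' hN' hB' hq hqM hA ht h hu)
    (i' : ℕ) (Nat.lt_succ_iff.1 i'.2)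
  exact rdN_low_ne_zero A N q M e B k hN hB hq he hqM hA ht _ hn0 i' h1 h2

/-- **UNIT along `β`** (the field `unit` of `H79.SideE`). -/
theorem unitBetaT (h : ↥(L0 A (N * q)))
    (hu : ∀ i, (TuE A N q M e B' k' hN' hB' hq hqM hA ht).rdN i h ≠ 0) (i' : Fin (e + 1)) :
    (TlE A N q M e B k hN hB hq he hqM hA ht).rdN i'
      (Fermat.Agent.S45.NUE.H96.nmBetaE A N q h) ≠ 0 := by
  have h0 : h ≠ 0 := ne_zero_of_unitT A N q M e B' k' hN' hB' hq hqM hA ht h hu
  have hn0 : Fermat.Agent.S45.NUE.H96.nmBetaE A N q h ≠ 0 :=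
    ((IsUnit.mk0 h h0).map (Fermat.Agent.S45.NUE.H96.nmBetaE A N q)).ne_zero
  obtain ⟨h1, h2⟩ := unitBeta_gen A N q M e B k B' k' hN hB hN' hB' hq he hqM hA h
    (mem_of_unitT A N q M e B' k' hN' hB' hq hqM hA ht h hu)
    (inv_mem_of_unitT A N q M e B' k' hN' hB' hq hqM hA ht h hu)
    (i' : ℕ) (Nat.lt_succ_iff.1 i'.2)
  exact rdN_low_ne_zero A N q M e B k hN hB hq he hqM hA ht _ hn0 i' h1 h2

/-! ### The single components along `α` -/

/-- **The single components along `α`, wild shape** (`a < e`, `e < 2 a`). -/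
def singleAlphaWild (i : Fin (e + 2)) (hi : (i : ℕ) < e) (h2 : e < 2 * (i : ℕ)) :
    Fermat.Agent.S45.NUE.H79.SingleRel (TuE A N q M e B' k' hN' hB' hq hqM hA ht)
      (TlE A N q M e B k hN hB hq he hqM hA ht)
      (Fermat.Agent.S45.NUE.H96.nmAlphaE A N q) (Fermat.Agent.S36.NU.H74.ssM A q M) id q i where
  i' := ⟨(i : ℕ), by omega⟩
  R := Fermat.Agent.S45.NUE.H79.resIdE A M
  e := q
  deg := by
    show 1 * q = q
    rw [one_mul]
  norm := fun h hu => by
    have hf : h ∈ VE A (N * q) q M (e + 1) B' k' hN' hB' hq (i : ℕ) :=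
      (TuE A N q M e B' k' hN' hB' hq hqM hA ht).mem_of_rdN_ne_zero (hu i)
    obtain ⟨hm, hs⟩ := normAlpha_wild_gen A N q M e B k B' k' hN hB hN' hB' hq he hqM hA
      (i : ℕ) hi h2 h hf
    rw [(TuE A N q M e B' k' hN' hB' hq hqM hA ht).rdN_of_mem hf,
      (TlE A N q M e B k hN hB hq he hqM hA ht).rdN_of_mem
        (i := (⟨(i : ℕ), by omega⟩ : Fin (e + 1))) hm]
    exact Fermat.Agent.S45.NUE.H79.wild_norm_eq A q M _ _ hs
  pt := fun z _ y c hv =>
    Fermat.Agent.S45.NUE.H79.ptE_alpha_wild A q M hq hqM hA e i ⟨(i : ℕ), by omega⟩ rfl h2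
      z y c hv

/-- **The single components along `α`, inseparable shape** (`a < e`, `2 a ≤ e`). -/
def singleAlphaInsep (i : Fin (e + 2)) (hi : (i : ℕ) < e) (h2 : 2 * (i : ℕ) ≤ e) :
    Fermat.Agent.S45.NUE.H79.SingleRel (TuE A N q M e B' k' hN' hB' hq hqM hA ht)
      (TlE A N q M e B k hN hB hq he hqM hA ht)
      (Fermat.Agent.S45.NUE.H96.nmAlphaE A N q) (Fermat.Agent.S36.NU.H74.ssM A q M) id q i where
  i' := ⟨(i : ℕ), by omega⟩
  R := Fermat.Agent.S45.NUE.H79.resFrE A q M hq hqM hA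
  e := 1
  deg := by
    show q * 1 = q
    rw [mul_one]
  norm := fun h hu => by
    have hf : h ∈ VE A (N * q) q M (e + 1) B' k' hN' hB' hq (i : ℕ) :=
      (TuE A N q M e B' k' hN' hB' hq hqM hA ht).mem_of_rdN_ne_zero (hu i)
    obtain ⟨hm, hs⟩ := normAlpha_insep_gen A N q M e B k B' k' hN hB hN' hB' hq he hqM hA
      (i : ℕ) hi h2 h hf
    rw [(TuE A N q M e B' k' hN' hB' hq hqM hA ht).rdN_of_mem hf,
      (TlE A N q M e B k hN hB hq he hqM hA ht).rdN_of_mem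
        (i := (⟨(i : ℕ), by omega⟩ : Fin (e + 1))) hm, pow_one]
    exact Fermat.Agent.S45.NUE.H79.insep_norm_eq A q M hq hqM hA _ _ hs
  pt := fun z _ y c hv =>
    Fermat.Agent.S45.NUE.H79.ptE_alpha_insep A q M hq hqM hA e i ⟨(i : ℕ), by omega⟩ rfl h2
      z y c hv

/-- **The single components along `α`** (`a < e`). -/
def singleAlpha (i : Fin (e + 2)) (hi : (i : ℕ) < e) :
    Fermat.Agent.S45.NUE.H79.SingleRel (TuE A N q M e B' k' hN' hB' hq hqM hA ht)
      (TlE A N q M e B k hN hB hq he hqM hA ht)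
      (Fermat.Agent.S45.NUE.H96.nmAlphaE A N q) (Fermat.Agent.S36.NU.H74.ssM A q M) id q i :=
  if h2 : 2 * (i : ℕ) ≤ e then
    singleAlphaInsep A N q M e B k B' k' hN hB hN' hB' hq he hqM hA ht i hi h2
  else
    singleAlphaWild A N q M e B k B' k' hN hB hN' hB' hq he hqM hA ht i hi (by omega)

theorem singleAlpha_i' (i : Fin (e + 2)) (hi : (i : ℕ) < e) :
    ((singleAlpha A N q M e B k B' k' hN hB hN' hB' hq he hqM hA ht i hi).i' : ℕ) = (i : ℕ) := by
  unfold singleAlpha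
  split_ifs <;> rfl

end SideE

end Fermat.Agent.S45.NUE.H33
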