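import Fermat.Agent.S45.NUE.H79_GlueE

/-!
# S45 / NU_e, package E-ABS (helper79): the GLUE tower, from ONE degeneracy map

`SideE.glued_of_double` : GLUE at the upper level from GLUE at the lower level, using only the
side `α` (`S : SideE ..`) and ONE double relation along `α`, if every component of the upper level
is single for `α` or one of the two components of the double relation.

Modular: upper level `M' q ^ e`, ANY `e ≥ 2`, components `(a,b)`, `a + b = e`:
`S.S (a,b) ↔ 2 ≤ b`, double relation at `i₁ = (e,0)`, `i₂ = (e-1,1)` over `v'_(e-1,0)`,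
`j = (0,e)`.  So `Glued T_e z` for all `e ≥ 1` follows by induction on `e` from the nodes of the
level `M' q` (`e = 1`: `glued_fin_two_of_node`-type bridges are modular) — the side `β` is not
needed for GLUE.

`NUDataE.ofGlue` is not needed: `NUDataE.glued` of `H79_GlueE` stays valid.
-/

set_option autoImplicit false
set_option linter.style.haveILetI false

noncomputable section

open AlgebraicCurve

attribute [local instance] Classical.propDecidable

namespace Fermat.Agent.S45.NUE.H79

open Fermat.Agent.RED.H17 Fermat.Agent.RED Fermat.Agent.BAD.H79 Fermat.Agent.BAD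
open Fermat.Agent.S36.NU.H79 Fermat.Agent.S36.NU.H24

variable {K L₀ L k ι Z : Type*} {E : ι → Type*} [Field K] [Field L₀] [Field L]
  [Algebra K L] [Algebra L₀ L] [Field k] [Fintype ι] [∀ i, Field (E i)]
  [∀ i, Algebra k (E i)]
  {K' L₀' L' ι' Z' : Type*} {E' : ι' → Type*} [Field K'] [Field L₀'] [Field L']
  [Algebra K' L'] [Algebra L₀' L'] [Fintype ι'] [∀ i, Field (E' i)]
  [∀ i, Algebra k (E' i)]
  {T : TotN K L₀ L k ι Z E} {T' : TotN K' L₀' L' k ι' Z' E'} {SS : Set Z} {d : ℕ}

/-- The values of the reductions of `f ∈ R_z` at `z ∈ SS` are equal (one side + one double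
relation). -/
theorem SideE.value_eq_of_double [Infinite k] (S : SideE T T' SS d) (hd : 0 < d) {i₁ i₂ : ι}
    (R : DoubleRel T T' S.Nm SS S.zm d i₁ i₂) {j : ι} (hj : S.S j)
    (hcov : ∀ i, S.S i ∨ i = i₁ ∨ i = i₂) {z : Z} (hz : z ∈ SS) {f : L₀} (hf : T.InR z f)
    {a : ι → k} (ha : ∀ i, HasValue (T.pt i z) (T.rdN i f) (a i)) (i : ι) : a i = a j := by
  have h12 := S.value_eq_double R hz hf ha hj
  rcases hcov i with hi | rfl | rfl
  · exact S.value_eq hd hz hf ha hi hj
  · exact h12.1
  · exact h12.2

/-- **GLUE from one side**: the upper level is glued at the multiple points. -/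
theorem SideE.glued_of_double [Infinite k] (S : SideE T T' SS d) (hd : 0 < d) {i₁ i₂ : ι}
    (R : DoubleRel T T' S.Nm SS S.zm d i₁ i₂) {j : ι} (hj : S.S j)
    (hcov : ∀ i, S.S i ∨ i = i₁ ∨ i = i₂) (hP : HasPrincipalDivisors K L) {z : Z}
    (hz : z ∈ SS) (hdeg : ∀ i, (T.pt i z).deg = 1) : Glued T z := by
  intro f hf i l c
  have hex : ∀ l, ∃ a : k, HasValue (T.pt l z) (T.rdN l f) a := fun l =>
    exists_value (T.pt l z) (hdeg l) (hf.regAt hP l)
  choose a ha using hex
  have heq : ∀ l, a l = a j := S.value_eq_of_double hd R hj hcov hz hf ha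
  constructor
  · intro h
    have : c = a l := by rw [heq l, ← heq i]; exact h.unique (ha i)
    rw [this]; exact ha l
  · intro h
    have : c = a i := by rw [heq i, ← heq l]; exact h.unique (ha l)
    rw [this]; exact ha i

/-- A level with ONE component is glued everywhere. -/
theorem glued_of_subsingleton [Subsingleton ι] (z : Z) : Glued T z := by
  intro f _ i j c
  obtain rfl : i = j := Subsingleton.elim i j
  exact Iff.rfl

end Fermat.Agent.S45.NUE.H79
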