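import Fermat.Agent.S45.NUE.H79_ShapeE
import Fermat.Agent.S45.NUE.H79_GlueTower
import Fermat.Agent.S45.NUE.H96_InstB

/-!
# S45 / NU_e, ND_e (helper79): the GLUE tower and the modular datum `NUDataE`

Lower level `N = M q^e`, upper level `N q = M q^(e+1)`, `q ∤ M`, `M` tame at `q`, `A` over `q`;
`Tl = totEM` at `(N, e)`, `Tu = totEM` at `(N q, e + 1)` (helper23), `SS = ssM A q M`,
`Nα = nmAlphaE A N q`, `Nβ = nmBetaE A N q` (helper96), `zα = id`, `zβ = β⁻¹`.

* `AlphaInputs` : the inputs of the side `α` (singles `a < e`: helper33; unit: helper33;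
  reg: helper96; double at `(e + 1, e)`: helper5);
* `BetaInputs` : the inputs of the side `β` (singles `2 ≤ a`, unit, reg);
* `AlphaInputs.sideE` : the side `α` from GLUE at the lower level;
* `glued_step` : GLUE at the level `e + 1` from GLUE at the level `e` (`1 ≤ e`);
* **`glued_totEM`** : the GLUE tower: GLUE at every level `e ≥ 2` from the base `e = 2`;
* **`nuDataE`** : the modular datum of the two levels, `2 ≤ e`;
  `nuDataE_T`, `nuDataE_T'`, `nuDataE_SS`, `nuDataE_d`, `nuDataE_Nα`, `nuDataE_Nβ` (`rfl`);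
* **`glued_totEM`** : the GLUE tower by induction on `e`.
-/

set_option autoImplicit false
set_option synthInstance.maxHeartbeats 400000
set_option maxHeartbeats 1000000
set_option linter.style.haveILetI false
set_option linter.unusedSectionVars false

noncomputable section

open ModularCurve AlgebraicCurve
open Fermat.Agent.S24 Fermat.Agent.BAD.H88 Fermat.Agent.S28 Fermat.Agent.S28.H73
open Fermat.Agent.RED.H73 Fermat.Agent.RED.H17 Fermat.Agent.S36.NU.H88
open Fermat.Agent.S36.NU.H23 Fermat.Agent.S45.NUE.H23 Fermat.Agent.S36.NU.H74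
open Fermat.Agent.S45.NUE.H96

namespace Fermat.Agent.S45.NUE.H79

open Fermat.Agent.BAD Fermat.Agent.RED Fermat.Agent.S36.NU.H79 Fermat.Agent.S36.NU.H24

attribute [local instance] algkE

section Inputs

variable (A : ValuationSubring Kbar) (N q M e : ℕ) (B k B' k' : ℤ)
  (hN : N = M * q ^ e) (hB : B * M + k * (q : ℤ) ^ e = 1)
  (hN' : N * q = M * q ^ (e + 1)) (hB' : B' * M + k' * (q : ℤ) ^ (e + 1) = 1)
  (hq : q.Prime) [NeZero N] [NeZero q] [NeZero (N * q)] [NeZero M] [NeZero (M * q)]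
  [NeZero (M * q * q)] (hqM : ¬ q ∣ M) (hA : A.LiesOverPrime q) (ht : H91.TameAt M q)
  (he : 0 < e)

/-- The conservation datum of the upper level. -/
abbrev TuE : TotN Kbar ↥(L0 A (N * q)) (FN (N * q)) (kV A) (Fin (e + 2))
    (Place (kV A) (FM A M)) (kapE A M (e + 1)) :=
  totEM A (N * q) q M (e + 1) B' k' hN' hB' hq hqM hA ht (Nat.succ_pos e)

/-- The conservation datum of the lower level. -/
abbrev TlE : TotN Kbar ↥(L0 A N) (FN N) (kV A) (Fin (e + 1))
    (Place (kV A) (FM A M)) (kapE A M e) :=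
  totEM A N q M e B k hN hB hq hqM hA ht he

/-- **The inputs of the side `α`.** -/
structure AlphaInputs where
  /-- the single components `a < e` (helper33) -/
  single : ∀ i : Fin (e + 2), (i : ℕ) < e →
    SingleRel (TuE A N q M e B' k' hN' hB' hq hqM hA ht)
      (TlE A N q M e B k hN hB hq hqM hA ht he) (nmAlphaE A N q) (ssM A q M) id q i
  /-- norms of units (helper33) -/
  unit : ∀ h : ↥(L0 A (N * q)),
    (∀ i, (TuE A N q M e B' k' hN' hB' hq hqM hA ht).rdN i h ≠ 0) →
    ∀ i', (TlE A N q M e B k hN hB hq hqM hA ht he).rdN i' (nmAlphaE A N q h) ≠ 0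
  /-- norms of functions regular on a fibre (helper96) -/
  reg : ∀ z ∈ ssM A q M, ∀ h : ↥(L0 A (N * q)),
    (∀ P, (TuE A N q M e B' k' hN' hB' hq hqM hA ht).ρ P = z →
      RegAt P (algebraMap ↥(L0 A (N * q)) (FN (N * q)) h)) →
    ∀ Q, (TlE A N q M e B k hN hB hq hqM hA ht he).ρ Q = z →
      RegAt Q (algebraMap ↥(L0 A N) (FN N) (nmAlphaE A N q h))
  /-- the double component `(e + 1, e)` over `e` (helper5) -/
  double : DoubleRel (TuE A N q M e B' k' hN' hB' hq hqM hA ht)
    (TlE A N q M e B k hN hB hq hqM hA ht he) (nmAlphaE A N q) (ssM A q M) id q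
    (⟨e + 1, by omega⟩ : Fin (e + 2)) (⟨e, by omega⟩ : Fin (e + 2))

/-- **The inputs of the side `β`.** -/
structure BetaInputs where
  /-- the single components `2 ≤ a` (helper33) -/
  single : ∀ i : Fin (e + 2), 2 ≤ (i : ℕ) →
    SingleRel (TuE A N q M e B' k' hN' hB' hq hqM hA ht)
      (TlE A N q M e B k hN hB hq hqM hA ht he) (nmBetaE A N q) (ssM A q M)
      (betaM A q M hq hqM hA).symm q i
  /-- norms of units (helper33) -/
  unit : ∀ h : ↥(L0 A (N * q)),
    (∀ i, (TuE A N q M e B' k' hN' hB' hq hqM hA ht).rdN i h ≠ 0) →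
    ∀ i', (TlE A N q M e B k hN hB hq hqM hA ht he).rdN i' (nmBetaE A N q h) ≠ 0
  /-- norms of functions regular on a fibre (helper96) -/
  reg : ∀ z ∈ ssM A q M, ∀ h : ↥(L0 A (N * q)),
    (∀ P, (TuE A N q M e B' k' hN' hB' hq hqM hA ht).ρ P = z →
      RegAt P (algebraMap ↥(L0 A (N * q)) (FN (N * q)) h)) →
    ∀ Q, (TlE A N q M e B k hN hB hq hqM hA ht he).ρ Q = (betaM A q M hq hqM hA).symm z →
      RegAt Q (algebraMap ↥(L0 A N) (FN N) (nmBetaE A N q h))

variable {A N q M e B k B' k' hN hB hN' hB' hq hqM hA ht he}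

/-- The side `α`, from GLUE at the lower level. -/
def AlphaInputs.sideE (I : AlphaInputs A N q M e B k B' k' hN hB hN' hB' hq hqM hA ht he)
    (hg : ∀ z ∈ ssM A q M, Glued (TlE A N q M e B k hN hB hq hqM hA ht he) z) :
    SideE (TuE A N q M e B' k' hN' hB' hq hqM hA ht)
      (TlE A N q M e B k hN hB hq hqM hA ht he) (ssM A q M) q where
  Nm := nmAlphaE A N q
  zm := id
  S := fun i => (i : ℕ) < e
  single := I.single
  unit := I.unit
  reg := I.reg
  glue' := fun z hz => hg z hz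

/-- The side `β`, from GLUE at the lower level. -/
def BetaInputs.sideE (I : BetaInputs A N q M e B k B' k' hN hB hN' hB' hq hqM hA ht he)
    (hg : ∀ z ∈ ssM A q M, Glued (TlE A N q M e B k hN hB hq hqM hA ht he) z) :
    SideE (TuE A N q M e B' k' hN' hB' hq hqM hA ht)
      (TlE A N q M e B k hN hB hq hqM hA ht he) (ssM A q M) q where
  Nm := nmBetaE A N q
  zm := (betaM A q M hq hqM hA).symm
  S := fun i => 2 ≤ (i : ℕ)
  single := I.single
  unit := I.unit
  reg := I.reg
  glue' := fun z hz => hg _ (betaM_symm_mem_ssM A q M hq hqM hA z hz)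

/-- **The step of the GLUE tower**: GLUE at the level `e + 1` from GLUE at the level `e`. -/
theorem glued_step (I : AlphaInputs A N q M e B k B' k' hN hB hN' hB' hq hqM hA ht he)
    (hg : ∀ z ∈ ssM A q M, Glued (TlE A N q M e B k hN hB hq hqM hA ht he) z) :
    ∀ z ∈ ssM A q M, Glued (TuE A N q M e B' k' hN' hB' hq hqM hA ht) z := by
  haveI : IsAlgClosed (kV A) := isAlgClosed_kV A
  haveI : Infinite (kV A) := IsAlgClosed.instInfinite
  intro z hz
  refine SideE.glued_of_double (I.sideE hg) hq.pos I.double (j := (⟨0, by omega⟩ : Fin (e + 2)))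
    (show (0 : ℕ) < e from he) ?_ (hasPrincipalDivisors_FN (N * q)) hz
    (fun i => deg_ptE A q M hq hqM hA ht (e + 1) i z)
  intro i
  rcases Nat.lt_or_ge (i : ℕ) e with h | h
  · exact Or.inl h
  · have hi := i.2
    rcases Nat.eq_or_lt_of_le h with h1 | h1
    · exact Or.inr (Or.inr (Fin.ext h1.symm))
    · exact Or.inr (Or.inl (Fin.ext (by simp only []; omega)))

end Inputs

section Data

variable (A : ValuationSubring Kbar) (N q M e : ℕ) (B k B' k' : ℤ)
  (hN : N = M * q ^ e) (hB : B * M + k * (q : ℤ) ^ e = 1)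
  (hN' : N * q = M * q ^ (e + 1)) (hB' : B' * M + k' * (q : ℤ) ^ (e + 1) = 1)
  (hq : q.Prime) [NeZero N] [NeZero q] [NeZero (N * q)] [NeZero M] [NeZero (M * q)]
  [NeZero (M * q * q)] (hqM : ¬ q ∣ M) (hA : A.LiesOverPrime q) (ht : H91.TameAt M q)
  (he : 2 ≤ e)

/-- **ND_e: the modular datum of the two levels** `M q^e ⊂ M q^(e+1)`, `2 ≤ e`. -/
def nuDataE
    (Iα : AlphaInputs A N q M e B k B' k' hN hB hN' hB' hq hqM hA ht (by omega))
    (Iβ : BetaInputs A N q M e B k B' k' hN hB hN' hB' hq hqM hA ht (by omega))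
    (hg : ∀ z ∈ ssM A q M, Glued (TlE A N q M e B k hN hB hq hqM hA ht (by omega)) z) :
    NUDataE Kbar ↥(L0 A (N * q)) (FN (N * q)) (kV A) (Fin (e + 2)) (Place (kV A) (FM A M))
      (kapE A M (e + 1)) Kbar ↥(L0 A N) (FN N) (Fin (e + 1)) (Place (kV A) (FM A M))
      (kapE A M e) where
  T := TuE A N q M e B' k' hN' hB' hq hqM hA ht
  T' := TlE A N q M e B k hN hB hq hqM hA ht (by omega)
  SS := ssM A q M
  d := q
  d_pos := hq.pos
  sα := Iα.sideE hg
  sβ := Iβ.sideE hg
  cover := fun i => by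
    rcases Nat.lt_or_ge (i : ℕ) e with h | h
    · exact Or.inl h
    · exact Or.inr (show 2 ≤ (i : ℕ) by omega)
  jα := ⟨0, by omega⟩
  hjα := show (0 : ℕ) < e by omega
  i₁ := ⟨e + 1, by omega⟩
  i₂ := ⟨e, by omega⟩
  hi₁ := show 2 ≤ e + 1 by omega
  hi₂ := he
  double := Iα.double
  deg_one := fun z _ i => deg_ptE A q M hq hqM hA ht (e + 1) i z

variable (Iα : AlphaInputs A N q M e B k B' k' hN hB hN' hB' hq hqM hA ht (by omega))
  (Iβ : BetaInputs A N q M e B k B' k' hN hB hN' hB' hq hqM hA ht (by omega))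
  (hg : ∀ z ∈ ssM A q M, Glued (TlE A N q M e B k hN hB hq hqM hA ht (by omega)) z)

theorem nuDataE_T :
    (nuDataE A N q M e B k B' k' hN hB hN' hB' hq hqM hA ht he Iα Iβ hg).T
      = totEM A (N * q) q M (e + 1) B' k' hN' hB' hq hqM hA ht (Nat.succ_pos e) := rfl

theorem nuDataE_T' :
    (nuDataE A N q M e B k B' k' hN hB hN' hB' hq hqM hA ht he Iα Iβ hg).T'
      = totEM A N q M e B k hN hB hq hqM hA ht (by omega) := rfl

theorem nuDataE_SS :
    (nuDataE A N q M e B k B' k' hN hB hN' hB' hq hqM hA ht he Iα Iβ hg).SS = ssM A q M := rfl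

theorem nuDataE_d :
    (nuDataE A N q M e B k B' k' hN hB hN' hB' hq hqM hA ht he Iα Iβ hg).d = q := rfl

theorem nuDataE_Nα :
    (nuDataE A N q M e B k B' k' hN hB hN' hB' hq hqM hA ht he Iα Iβ hg).sα.Nm
      = nmAlphaE A N q := rfl

theorem nuDataE_Nβ :
    (nuDataE A N q M e B k B' k' hN hB hN' hB' hq hqM hA ht he Iα Iβ hg).sβ.Nm
      = nmBetaE A N q := rfl

end Data

section Tower

variable (A : ValuationSubring Kbar) (q M : ℕ) (hq : q.Prime) [NeZero q] [NeZero M]
  [NeZero (M * q)] [NeZero (M * q * q)] (hqM : ¬ q ∣ M) (hA : A.LiesOverPrime q)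
  (ht : H91.TameAt M q)

/-- **The GLUE tower**: GLUE at every level `M q^e`, `2 ≤ e`, from the base `e = 2` (S36) and the
inputs of the side `α` at the levels `e ≥ 2`. -/
theorem glued_totEM
    (hbase : ∀ (N : ℕ) (B k : ℤ) (hN : N = M * q ^ 2) (hB : B * M + k * (q : ℤ) ^ 2 = 1)
      [NeZero N], ∀ z ∈ ssM A q M,
        Glued (totEM A N q M 2 B k hN hB hq hqM hA ht (by norm_num)) z)
    (hα : ∀ (e : ℕ) (he : 2 ≤ e) (N : ℕ) (B k B' k' : ℤ) (hN : N = M * q ^ e)
      (hB : B * M + k * (q : ℤ) ^ e = 1) (hN' : N * q = M * q ^ (e + 1))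
      (hB' : B' * M + k' * (q : ℤ) ^ (e + 1) = 1) [NeZero N] [NeZero (N * q)],
      AlphaInputs A N q M e B k B' k' hN hB hN' hB' hq hqM hA ht (by omega)) :
    ∀ (e : ℕ) (he : 2 ≤ e) (N : ℕ) (B k : ℤ) (hN : N = M * q ^ e)
      (hB : B * M + k * (q : ℤ) ^ e = 1) [NeZero N], ∀ z ∈ ssM A q M,
        Glued (totEM A N q M e B k hN hB hq hqM hA ht (by omega)) z := by
  intro e he
  induction e, he using Nat.le_induction with
  | base => exact fun N B k hN hB _ z hz => hbase N B k hN hB z hz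
  | succ e he ih =>
    intro N' B' k' hN' hB' _ z hz
    have hNN : N' = M * q ^ e * q := by rw [hN', pow_succ, mul_assoc]
    subst hNN
    haveI : NeZero (M * q ^ e) := ⟨Nat.mul_ne_zero (NeZero.ne M) (pow_ne_zero _ (NeZero.ne q))⟩
    have hB : B' * M + (k' * (q : ℤ)) * (q : ℤ) ^ e = 1 := by
      rw [← hB', pow_succ]
      ring
    exact glued_step (hα e he (M * q ^ e) B' (k' * (q : ℤ)) B' k' rfl hB hN' hB')
      (ih (M * q ^ e) B' (k' * (q : ℤ)) rfl hB) z hz

end Tower

end Fermat.Agent.S45.NUE.H79
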