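import Fermat.Agent.S45.NUE.H33_RedInst
import Fermat.Agent.S45.NUE.H51_CoverInst
import Fermat.Agent.S45.NUE.H79_NuE
import Fermat.Agent.S45.NUE.H33_SideE

/-!
# S45 / NU_e, package ND_e (helper31): the single components and the units along `β`

Lower level `N = M q^e` (`0 < e`), upper level `N q = M q^(e+1)`, `q ∤ M`, `A` over `q`;
`TlE`, `TuE` of helper79 (`H79_NuE`: `totEM` at `(N, e)`, `(N q, e + 1)`), `Nβ = nmBetaE A N q`.
The two theorems are the fields `single`, `unit` of `H79.BetaInputs` (`betaSingleUnit`).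

* `normBeta_wild_gen`, `normBeta_insep_gen` : helper33's norm formulas along `β`, unconditional,
  for a generic lower level `N`;
* **`singleBeta i (hi : 2 ≤ i)`** : `H79.SingleRel Tu Tl Nβ (ssM A q M) β⁻¹ q i`, with
  `i' = i - 1`, `R = resIdE`, `e = q` (wild, `singleBetaWild`) or `R = resFrE`, `e = 1`
  (inseparable, `singleBetaInsep`);
* `betaInputs_of_reg` : `H79.BetaInputs` from `reg` (`unit` = helper33's `unitBetaT`).
-/

set_option autoImplicit false
set_option synthInstance.maxHeartbeats 400000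
set_option maxHeartbeats 1000000
set_option linter.unusedSectionVars false
set_option linter.unusedVariables false
set_option linter.style.haveILetI false

noncomputable section

open ModularCurve AlgebraicCurve
open Fermat.Agent.S24 Fermat.Agent.BAD.H88 Fermat.Agent.S28 Fermat.Agent.S28.H73
open Fermat.Agent.RED.H73 Fermat.Agent.RED.H17 Fermat.Agent.S36.NU.H88
open Fermat.Agent.S36.NU.H23 Fermat.Agent.S45.NUE.H23

namespace Fermat.Agent.S45.NUE.H31

open Fermat.Agent.BAD Fermat.Agent.RED Fermat.Agent.S36.NU.H79 Fermat.Agent.S36.NU.H24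
open Fermat.Agent.S45.NUE.H79 Fermat.Agent.S36.NU.H74 Fermat.Agent.S45.NUE.H96

attribute [local instance] algkE

section SideBeta

variable (A : ValuationSubring Kbar) (N q M e : ℕ) (B k B' k' : ℤ)
  (hN : N = M * q ^ e) (hB : B * M + k * (q : ℤ) ^ e = 1)
  (hN' : N * q = M * q ^ (e + 1)) (hB' : B' * M + k' * (q : ℤ) ^ (e + 1) = 1)
  (hq : q.Prime) [NeZero N] [NeZero q] [NeZero (N * q)] [NeZero M] [NeZero (M * q)]
  [NeZero (M * q * q)] (hqM : ¬ q ∣ M) (hA : A.LiesOverPrime q) (ht : H91.TameAt M q)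
  (he : 0 < e)

omit [NeZero N] [NeZero q] [NeZero (N * q)] [NeZero M] [NeZero (M * q)]
  [NeZero (M * q * q)] in
/-- The lower level is a multiple of `q`. -/
theorem exists_lower (hN : N = M * q ^ e) (he : 0 < e) : ∃ M₁ : ℕ, N = M₁ * q :=
  ⟨M * q ^ (e - 1), by
    rw [hN, mul_assoc, ← pow_succ]
    congr 2
    omega⟩

include hqM hA he in
/-- **NORM-RED along `β`, wild shape**, unconditional, generic lower level. -/
theorem normBeta_wild_gen (a : ℕ) (ha2 : 2 ≤ a) (h2 : 2 * a ≤ e + 1)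
    (f : ↥(L0 A (N * q))) (hf : f ∈ VE A (N * q) q M (e + 1) B' k' hN' hB' hq a) :
    ∃ hm : nmBetaE A N q f ∈ VE A N q M e B k hN hB hq (a - 1),
      sE A N q M e B k hN hB hq (a - 1) ⟨_, hm⟩
        = sE A (N * q) q M (e + 1) B' k' hN' hB' hq a ⟨f, hf⟩ ^ q := by
  obtain ⟨M₁, rfl⟩ := exists_lower N q M e hN he
  haveI : NeZero M₁ := ⟨fun h => by
    have := NeZero.ne (M₁ * q)
    rw [h, zero_mul] at this
    exact this rfl⟩
  exact Fermat.Agent.S45.NUE.H33.normBeta_wild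
    (Fermat.Agent.S45.NUE.H51.coverInputs A q M₁ M e hq hN hN' B k hB B' k' hB' hqM hA)
    (Fermat.Agent.S45.NUE.H33.redInputs A q M₁ M e hq hN hN' B k hB B' k' hB') hqM hA
    a ha2 h2
    (fun x => sE_mem A (M₁ * q * q) q M (e + 1) B' k' hN' hB' hq hqM hA (Nat.succ_pos e) a
      (by omega) x) f hf

include hqM hA he in
/-- **NORM-RED along `β`, inseparable shape**, unconditional, generic lower level. -/
theorem normBeta_insep_gen (a : ℕ) (ha2 : 2 ≤ a) (ha : a ≤ e + 1) (h2 : e + 2 ≤ 2 * a)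
    (f : ↥(L0 A (N * q))) (hf : f ∈ VE A (N * q) q M (e + 1) B' k' hN' hB' hq a) :
    ∃ hm : nmBetaE A N q f ∈ VE A N q M e B k hN hB hq (a - 1),
      qExpand (kV A) q (sE A N q M e B k hN hB hq (a - 1) ⟨_, hm⟩)
        = sE A (N * q) q M (e + 1) B' k' hN' hB' hq a ⟨f, hf⟩ ^ q := by
  obtain ⟨M₁, rfl⟩ := exists_lower N q M e hN he
  haveI : NeZero M₁ := ⟨fun h => by
    have := NeZero.ne (M₁ * q)
    rw [h, zero_mul] at this
    exact this rfl⟩
  exact Fermat.Agent.S45.NUE.H33.normBeta_insep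
    (Fermat.Agent.S45.NUE.H51.coverInputs A q M₁ M e hq hN hN' B k hB B' k' hB' hqM hA)
    (Fermat.Agent.S45.NUE.H33.redInputs A q M₁ M e hq hN hN' B k hB B' k' hB') hqM hA
    a ha2 ha h2
    (fun x => sE_mem A (M₁ * q * q) q M (e + 1) B' k' hN' hB' hq hqM hA (Nat.succ_pos e) a
      ha x) f hf

include hqM hA he in
/-- **UNIT along `β`** in `VE` form, unconditional, generic lower level. -/
theorem unitBeta_gen (f : ↥(L0 A (N * q)))
    (hu : ∀ a, a ≤ e + 1 → f ∈ VE A (N * q) q M (e + 1) B' k' hN' hB' hq a)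
    (hu' : ∀ a, a ≤ e + 1 → f⁻¹ ∈ VE A (N * q) q M (e + 1) B' k' hN' hB' hq a)
    (a' : ℕ) (ha' : a' ≤ e) :
    nmBetaE A N q f ∈ VE A N q M e B k hN hB hq a'
      ∧ (nmBetaE A N q f)⁻¹ ∈ VE A N q M e B k hN hB hq a' := by
  obtain ⟨M₁, rfl⟩ := exists_lower N q M e hN he
  haveI : NeZero M₁ := ⟨fun h => by
    have := NeZero.ne (M₁ * q)
    rw [h, zero_mul] at this
    exact this rfl⟩
  exact Fermat.Agent.S45.NUE.H33.unitBeta
    (Fermat.Agent.S45.NUE.H51.coverInputs A q M₁ M e hq hN hN' B k hB B' k' hB' hqM hA)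
    f hu hu' a' ha'

omit [NeZero N] [NeZero q] [NeZero (N * q)] [NeZero M] [NeZero (M * q)]
  [NeZero (M * q * q)] in
theorem pred_lt (i : Fin (e + 2)) : (i : ℕ) - 1 < e + 1 := by
  have := i.2
  omega

/-- **The single components along `β`, wild shape** (`2 ≤ a`, `2 a ≤ e + 1`). -/
def singleBetaWild (i : Fin (e + 2)) (hi : 2 ≤ (i : ℕ)) (h2 : 2 * (i : ℕ) ≤ e + 1) :
    SingleRel (TuE A N q M e B' k' hN' hB' hq hqM hA ht)
      (TlE A N q M e B k hN hB hq hqM hA ht he)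
      (nmBetaE A N q) (ssM A q M) (betaM A q M hq hqM hA).symm q i where
  i' := ⟨(i : ℕ) - 1, pred_lt e i⟩
  R := resIdE A M
  e := q
  deg := by
    show 1 * q = q
    rw [one_mul]
  norm := fun h hu => by
    have hf : h ∈ VE A (N * q) q M (e + 1) B' k' hN' hB' hq (i : ℕ) :=
      (TuE A N q M e B' k' hN' hB' hq hqM hA ht).mem_of_rdN_ne_zero (hu i)
    obtain ⟨hm, hs⟩ := normBeta_wild_gen A N q M e B k B' k' hN hB hN' hB' hq hqM hA he
      (i : ℕ) hi h2 h hf
    rw [(TuE A N q M e B' k' hN' hB' hq hqM hA ht).rdN_of_mem hf,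
      (TlE A N q M e B k hN hB hq hqM hA ht he).rdN_of_mem
        (i := (⟨(i : ℕ) - 1, pred_lt e i⟩ : Fin (e + 1))) hm]
    exact wild_norm_eq A q M _ _ hs
  pt := fun z _ y c hv =>
    ptE_beta_wild A q M hq hqM hA e i ⟨(i : ℕ) - 1, pred_lt e i⟩
      (show (i : ℕ) - 1 + 1 = (i : ℕ) by omega) h2 z y c hv

/-- **The single components along `β`, inseparable shape** (`2 ≤ a`, `e + 2 ≤ 2 a`). -/
def singleBetaInsep (i : Fin (e + 2)) (hi : 2 ≤ (i : ℕ)) (h2 : e + 2 ≤ 2 * (i : ℕ)) :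
    SingleRel (TuE A N q M e B' k' hN' hB' hq hqM hA ht)
      (TlE A N q M e B k hN hB hq hqM hA ht he)
      (nmBetaE A N q) (ssM A q M) (betaM A q M hq hqM hA).symm q i where
  i' := ⟨(i : ℕ) - 1, pred_lt e i⟩
  R := resFrE A q M hq hqM hA
  e := 1
  deg := by
    show q * 1 = q
    rw [mul_one]
  norm := fun h hu => by
    have hf : h ∈ VE A (N * q) q M (e + 1) B' k' hN' hB' hq (i : ℕ) :=
      (TuE A N q M e B' k' hN' hB' hq hqM hA ht).mem_of_rdN_ne_zero (hu i)
    obtain ⟨hm, hs⟩ := normBeta_insep_gen A N q M e B k B' k' hN hB hN' hB' hq hqM hA he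
      (i : ℕ) hi (Nat.lt_succ_iff.1 i.2) h2 h hf
    rw [(TuE A N q M e B' k' hN' hB' hq hqM hA ht).rdN_of_mem hf,
      (TlE A N q M e B k hN hB hq hqM hA ht he).rdN_of_mem
        (i := (⟨(i : ℕ) - 1, pred_lt e i⟩ : Fin (e + 1))) hm, pow_one]
    exact insep_norm_eq A q M hq hqM hA _ _ hs
  pt := fun z _ y c hv =>
    ptE_beta_insep A q M hq hqM hA e i ⟨(i : ℕ) - 1, pred_lt e i⟩
      (show (i : ℕ) - 1 + 1 = (i : ℕ) by omega) h2 z y c hv

/-- **The single components along `β`** (`2 ≤ a`): the field `single` of `H79.BetaInputs`. -/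
def singleBeta (i : Fin (e + 2)) (hi : 2 ≤ (i : ℕ)) :
    SingleRel (TuE A N q M e B' k' hN' hB' hq hqM hA ht)
      (TlE A N q M e B k hN hB hq hqM hA ht he)
      (nmBetaE A N q) (ssM A q M) (betaM A q M hq hqM hA).symm q i :=
  if h2 : 2 * (i : ℕ) ≤ e + 1 then
    singleBetaWild A N q M e B k B' k' hN hB hN' hB' hq hqM hA ht he i hi h2
  else
    singleBetaInsep A N q M e B k B' k' hN hB hN' hB' hq hqM hA ht he i hi (by omega)

theorem singleBeta_i' (i : Fin (e + 2)) (hi : 2 ≤ (i : ℕ)) :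
    ((singleBeta A N q M e B k B' k' hN hB hN' hB' hq hqM hA ht he i hi).i' : ℕ)
      = (i : ℕ) - 1 := by
  unfold singleBeta
  split_ifs <;> rfl

/-- **The inputs of the side `β`**, from `reg` (helper96); `unit` is helper33's `unitBetaT`. -/
def betaInputs_of_reg
    (hreg : ∀ z ∈ ssM A q M, ∀ h : ↥(L0 A (N * q)),
      (∀ P, (TuE A N q M e B' k' hN' hB' hq hqM hA ht).ρ P = z →
        RegAt P (algebraMap ↥(L0 A (N * q)) (FN (N * q)) h)) →
      ∀ Q, (TlE A N q M e B k hN hB hq hqM hA ht he).ρ Q = (betaM A q M hq hqM hA).symm z →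
        RegAt Q (algebraMap ↥(L0 A N) (FN N) (nmBetaE A N q h))) :
    BetaInputs A N q M e B k B' k' hN hB hN' hB' hq hqM hA ht he where
  single := singleBeta A N q M e B k B' k' hN hB hN' hB' hq hqM hA ht he
  unit := fun h hu i' =>
    Fermat.Agent.S45.NUE.H33.unitBetaT A N q M e B k B' k' hN hB hN' hB' hq he hqM hA ht h hu i'
  reg := hreg

end SideBeta

end Fermat.Agent.S45.NUE.H31
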