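import Fermat.Agent.S36.NU.H51_NormUniq
import Fermat.Agent.S36.NU.H79_NormVal
import Fermat.Agent.BAD.H42_ApproxR
import Fermat.Agent.Lib.HeckeComm.H2_NormBC

/-!
# S45 / NU_e, package E-VV (helper51): VALVEC_e, the abstract part

`L` a field with finitely many pairwise incomparable valuation rings `V i` of rank one,
`α, β : E → L` two finite embeddings of the same degree `d`.  Every `V i` is the ONLY valuation
ring of `L` above its restriction along `α`, or along `β` (`UniqAlong`; for the `e + 1`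
valuations of level `M' q ^ e`, `e ≥ 3`: `α` for the indices `≤ e - 2`, `β` for the indices
`≥ 2`).  No uniformiser, no residue degree, no value group is needed:

* `val_norm_eq_pow_of_unique` : `w (N y) = w (y) ^ [L : E]` for a unique extension `w`;
* `exists_val_eq` : weak approximation, `w` with `v_i (w) = v_i (y i)` for all `i`;
* `valvecE_abs` : if `N_α f = c_α g_α ^ n`, `N_β f = c_β g_β ^ n` with `v_i (c_α) = v_i (ϖ) ^ m_α`,
  `v_i (c_β) = v_i (ϖ) ^ m_β`, `n ∣ m_α - m_β`, then `f ^ d ϖ ^ (-b) w ^ n` is a unit for all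
  `V i`, for some `b`, `w ≠ 0`;
* `link_norm`, `link_val` : the congruence `n ∣ m_α - m_β` from the commuting norms two levels
  below (`N_β' N_α = N_α' N_β`) and a valuation of the lowest level with value group `v (ϖ) ^ ℤ`.
-/

set_option autoImplicit false
set_option linter.style.haveILetI false
set_option linter.unusedSectionVars false

noncomputable section

namespace Fermat.Agent.S45.NUE.H51

open Fermat.Agent.BAD Fermat.Agent.BAD.H42 Fermat.Agent.Lib.HeckeComm

/-! ### The value of the norm for a unique extension -/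

section Norm

variable {E L : Type} [Field E] [Field L] [Algebra E L] [Module.Finite E L]
  (W : ValuationSubring L)

/-- **The value of the norm for a unique extension**: if `W` is the only valuation ring `≠ L`
of `L` above `W ∩ E`, then `w (N y) = w (y) ^ [L : E]`. -/
theorem val_norm_eq_pow_of_unique
    (huniq : ∀ W' : ValuationSubring L,
      (∀ a : E, algebraMap E L a ∈ W → algebraMap E L a ∈ W') → W' ≠ ⊤ → W' = W)
    (y : L) (hy : y ≠ 0) :
    W.valuation (algebraMap E L (Algebra.norm E y)) = W.valuation y ^ Module.finrank E L := by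
  haveI : Algebra.IsAlgebraic E L := Algebra.IsAlgebraic.of_finite E L
  set V : ValuationSubring E := W.comap (algebraMap E L) with hV
  have huniq' : ∀ W' : ValuationSubring L,
      (∀ a : E, a ∈ V → algebraMap E L a ∈ W') → W' ≠ ⊤ → W' = W :=
    fun W' h hne => huniq W' (fun a ha => h a (ValuationSubring.mem_comap.2 ha)) hne
  obtain ⟨m, a, hm, ha, hma⟩ := Fermat.Agent.S36.NU.H79.nv_exists_pow_val_eq (E := E) W y hy
  have haL : algebraMap E L a ≠ 0 := (map_ne_zero _).2 ha
  have hav : W.valuation (algebraMap E L a) ≠ 0 := (Valuation.ne_zero_iff _).2 haL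
  set u : L := y ^ m * (algebraMap E L a)⁻¹ with hu
  have hu0 : u ≠ 0 := mul_ne_zero (pow_ne_zero _ hy) (inv_ne_zero haL)
  have hval : W.valuation u = 1 := by
    rw [hu, map_mul, map_pow, map_inv₀, hma]
    exact mul_inv_cancel₀ hav
  have hu1 : u ∈ W := (ValuationSubring.valuation_le_one_iff _ _).1 hval.le
  have hu2 : u⁻¹ ∈ W := by
    rw [← ValuationSubring.valuation_le_one_iff, map_inv₀, hval, inv_one]
  have hN1 : W.valuation (algebraMap E L (Algebra.norm E u)) ≤ 1 :=
    (ValuationSubring.valuation_le_one_iff _ _).2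
      (ValuationSubring.mem_comap.1
        (Fermat.Agent.S36.NU.H51.norm_mem_of_unique V W huniq' u hu1))
  have hN2 : W.valuation (algebraMap E L (Algebra.norm E u⁻¹)) ≤ 1 :=
    (ValuationSubring.valuation_le_one_iff _ _).2
      (ValuationSubring.mem_comap.1
        (Fermat.Agent.S36.NU.H51.norm_mem_of_unique V W huniq' u⁻¹ hu2))
  have hmul : algebraMap E L (Algebra.norm E u) * algebraMap E L (Algebra.norm E u⁻¹) = 1 := by
    rw [← map_mul, ← map_mul, mul_inv_cancel₀ hu0, map_one, map_one]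
  have hNval : W.valuation (algebraMap E L (Algebra.norm E u)) = 1 := by
    apply le_antisymm hN1
    have h3 : W.valuation (algebraMap E L (Algebra.norm E u))
        * W.valuation (algebraMap E L (Algebra.norm E u⁻¹)) = 1 := by
      rw [← map_mul, hmul, map_one]
    calc (1 : _) = W.valuation (algebraMap E L (Algebra.norm E u))
          * W.valuation (algebraMap E L (Algebra.norm E u⁻¹)) := h3.symm
      _ ≤ W.valuation (algebraMap E L (Algebra.norm E u)) * 1 := by gcongr
      _ = W.valuation (algebraMap E L (Algebra.norm E u)) := mul_one _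
  have hy' : y ^ m = u * algebraMap E L a := by
    rw [hu, mul_assoc, inv_mul_cancel₀ haL, mul_one]
  have hNy : Algebra.norm E y ^ m = Algebra.norm E u * a ^ Module.finrank E L := by
    rw [← map_pow, hy', map_mul, Algebra.norm_algebraMap]
  have h4 : W.valuation (algebraMap E L (Algebra.norm E y)) ^ m
      = (W.valuation y ^ Module.finrank E L) ^ m := by
    rw [← map_pow, ← map_pow, hNy, map_mul, map_mul, hNval, one_mul, map_pow, map_pow, ← hma,
      ← pow_mul, ← pow_mul, mul_comm]
  exact (pow_left_inj₀ zero_le zero_le hm.ne').1 h4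

end Norm

/-! ### Weak approximation -/

section Approx

variable {L : Type} [Field L] {ι : Type} [DecidableEq ι] [Fintype ι]

/-- **Weak approximation of the values**: for finitely many pairwise incomparable valuation
rings of rank one there is `w` with `v_i (w) = v_i (y i)` for all `i`. -/
theorem exists_val_eq (V : ι → ValuationSubring L) (hA : ∀ i, IsArch (V i))
    (hinc : ∀ i j, i ≠ j → ¬ V i ≤ V j) (hnt : ∀ i, V i ≠ ⊤) (y : ι → L) (hy : ∀ i, y i ≠ 0) :
    ∃ w : L, w ≠ 0 ∧ ∀ i, (V i).valuation w = (V i).valuation (y i) := by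
  classical
  have hE : ∀ j : ι, ∃ E : L, (V j).valuation (E - 1) < 1 ∧
      ∀ l ∈ Finset.univ.erase j, (V l).valuation E < (V l).valuation (y l / y j) := fun j =>
    exists_one_small V hA hinc hnt j (Finset.univ.erase j) (Finset.notMem_erase j _)
      (fun l => y l / y j) (fun l _ => div_ne_zero (hy l) (hy j))
  choose E hE1 hE2 using hE
  have hEj : ∀ j, (V j).valuation (E j) = 1 := by
    intro j
    have : E j = 1 + (E j - 1) := by ring
    rw [this]
    exact Valuation.map_one_add_of_lt _ (hE1 j)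
  have key : ∀ l, (V l).valuation (∑ j, y j * E j) = (V l).valuation (y l) := by
    intro l
    rw [← Finset.add_sum_erase _ _ (Finset.mem_univ l)]
    have hl : (V l).valuation (y l * E l) = (V l).valuation (y l) := by
      rw [map_mul, hEj, mul_one]
    have hyl : (V l).valuation (y l) ≠ 0 := (Valuation.ne_zero_iff _).2 (hy l)
    have hs : (V l).valuation (∑ j ∈ Finset.univ.erase l, y j * E j)
        < (V l).valuation (y l * E l) := by
      rw [hl]
      apply Valuation.map_sum_lt _ hyl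
      intro j hj
      have hjl : j ≠ l := Finset.ne_of_mem_erase hj
      have h1 := hE2 j l (Finset.mem_erase.2 ⟨fun h => hjl h.symm, Finset.mem_univ _⟩)
      rw [map_mul]
      have hyj : (V l).valuation (y j) ≠ 0 := (Valuation.ne_zero_iff _).2 (hy j)
      calc (V l).valuation (y j) * (V l).valuation (E j)
          < (V l).valuation (y j) * (V l).valuation (y l / y j) :=
            mul_lt_mul_of_pos_left h1 (zero_lt_iff.2 hyj)
        _ = (V l).valuation (y l) := by rw [map_div₀, mul_div_cancel₀ _ hyj]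
    rw [Valuation.map_add_eq_of_lt_left _ hs, hl]
  by_cases hne : Nonempty ι
  · obtain ⟨i₀⟩ := hne
    refine ⟨∑ j, y j * E j, ?_, key⟩
    intro h0
    have := key i₀
    rw [h0, map_zero] at this
    exact (Valuation.ne_zero_iff _).2 (hy i₀) this.symm
  · exact ⟨1, one_ne_zero, fun i => absurd ⟨i⟩ hne⟩

end Approx

/-! ### VALVEC_e -/

section Main

variable {E L : Type} [Field E] [Field L]

/-- `W` is the only valuation ring `≠ L` of `L` above its restriction along `φ`. -/
def UniqAlong (φ : E →+* L) (W : ValuationSubring L) : Prop :=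
  ∀ W' : ValuationSubring L, (∀ a : E, φ a ∈ W → φ a ∈ W') → W' ≠ ⊤ → W' = W

/-- The degree of `L` over `E` along `φ`. -/
def degAlong (φ : E →+* L) : ℕ :=
  letI := φ.toAlgebra
  Module.finrank E L

/-- `L` is finite over `E` along `φ`. -/
def FinAlong (φ : E →+* L) : Prop :=
  letI := φ.toAlgebra
  Module.Finite E L

/-- The value of the norm along `φ` for a unique extension. -/
theorem val_normAlong_of_uniq (φ : E →+* L) (hfin : FinAlong φ) (W : ValuationSubring L)
    (h : UniqAlong φ W) (y : L) (hy : y ≠ 0) :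
    W.valuation (φ (normAlongHom φ y)) = W.valuation y ^ degAlong φ := by
  letI := φ.toAlgebra
  haveI : Module.Finite E L := hfin
  exact val_norm_eq_pow_of_unique W h y hy

theorem normAlongHom_ne_zero (φ : E →+* L) (hfin : FinAlong φ) (y : L) (hy : y ≠ 0) :
    normAlongHom φ y ≠ 0 := by
  letI := φ.toAlgebra
  haveI : Module.Finite E L := hfin
  exact fun h => hy (Algebra.norm_eq_zero_iff.1 h)

variable {ι : Type} [DecidableEq ι] [Fintype ι]

/-- **VALVEC_e, abstract form.** -/
theorem valvecE_abs (α β : E →+* L) (hfα : FinAlong α) (hfβ : FinAlong β)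
    (d : ℕ) (hdα : degAlong α = d) (hdβ : degAlong β = d)
    (V : ι → ValuationSubring L) (hA : ∀ i, IsArch (V i))
    (hinc : ∀ i j, i ≠ j → ¬ V i ≤ V j) (hnt : ∀ i, V i ≠ ⊤)
    (hcov : ∀ i, UniqAlong α (V i) ∨ UniqAlong β (V i))
    (ϖ : L) (hϖ : ϖ ≠ 0) (n : ℕ) (hn : 0 < n) (f : L) (hf : f ≠ 0)
    (cα gα cβ gβ : E) (hNα : normAlongHom α f = cα * gα ^ n)
    (hNβ : normAlongHom β f = cβ * gβ ^ n)
    (mα mβ : ℤ) (hcα : ∀ i, (V i).valuation (α cα) = (V i).valuation ϖ ^ mα)
    (hcβ : ∀ i, (V i).valuation (β cβ) = (V i).valuation ϖ ^ mβ)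
    (hlink : (n : ℤ) ∣ mα - mβ) :
    ∃ (b : ℤ) (w : L), w ≠ 0 ∧ ∀ i, (V i).valuation (f ^ d * ϖ ^ (-b) * w ^ n) = 1 := by
  classical
  obtain ⟨t, ht⟩ := hlink
  have hgα : gα ≠ 0 := by
    rintro rfl
    rw [zero_pow hn.ne', mul_zero] at hNα
    exact normAlongHom_ne_zero α hfα f hf hNα
  have hgβ : gβ ≠ 0 := by
    rintro rfl
    rw [zero_pow hn.ne', mul_zero] at hNβ
    exact normAlongHom_ne_zero β hfβ f hf hNβ
  have hαg : α gα ≠ 0 := (map_ne_zero α).2 hgα
  have hβg : β gβ ≠ 0 := (map_ne_zero β).2 hgβ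
  set y : ι → L := fun i => if UniqAlong α (V i) then (α gα)⁻¹ else ϖ ^ t * (β gβ)⁻¹ with hy
  have hy0 : ∀ i, y i ≠ 0 := by
    intro i
    rw [hy]
    by_cases h : UniqAlong α (V i)
    · simp only [h, if_true]
      exact inv_ne_zero hαg
    · simp only [h, if_false]
      exact mul_ne_zero (zpow_ne_zero _ hϖ) (inv_ne_zero hβg)
  obtain ⟨w, hw0, hw⟩ := exists_val_eq V hA hinc hnt y hy0
  refine ⟨mα, w, hw0, fun i => ?_⟩
  have hϖv : (V i).valuation ϖ ≠ 0 := (Valuation.ne_zero_iff _).2 hϖ
  rw [map_mul, map_mul, map_pow, map_pow, map_zpow₀, hw i]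
  by_cases h : UniqAlong α (V i)
  · have h1 := val_normAlong_of_uniq α hfα (V i) h f hf
    rw [hdα, hNα, map_mul, map_pow, map_mul, map_pow, hcα i] at h1
    have hy1 : y i = (α gα)⁻¹ := by rw [hy]; simp only [h, if_true]
    have hgv : (V i).valuation (α gα) ≠ 0 := (Valuation.ne_zero_iff _).2 hαg
    rw [← h1, hy1, map_inv₀, inv_pow, zpow_neg]
    field_simp
  · have h' : UniqAlong β (V i) := (hcov i).resolve_left h
    have h1 := val_normAlong_of_uniq β hfβ (V i) h' f hf
    rw [hdβ, hNβ, map_mul, map_pow, map_mul, map_pow, hcβ i] at h1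
    have hy1 : y i = ϖ ^ t * (β gβ)⁻¹ := by rw [hy]; simp only [h, if_false]
    have hgv : (V i).valuation (β gβ) ≠ 0 := (Valuation.ne_zero_iff _).2 hβg
    have hm : mβ = mα - n * t := by omega
    rw [← h1, hy1, map_mul, map_zpow₀, map_inv₀, mul_pow, inv_pow, hm, zpow_neg, ← zpow_natCast
      ((V i).valuation ϖ ^ t) n, ← zpow_mul, zpow_sub₀ hϖv, mul_comm t (n : ℤ)]
    have hz : (V i).valuation ϖ ^ ((n : ℤ) * t) ≠ 0 := zpow_ne_zero _ hϖv
    have hz' : (V i).valuation ϖ ^ mα ≠ 0 := zpow_ne_zero _ hϖv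
    have hg' : (V i).valuation (β gβ) ^ n ≠ 0 := pow_ne_zero _ hgv
    field_simp

end Main

/-! ### The congruence of the exponents of the constants -/

section Link

variable {E₂ E L : Type} [Field E₂] [Field E] [Field L]

/-- **Commuting norms**: if `α ∘ β' = β ∘ α'`, `N_α f = β' (c_α) g_α ^ n` and
`N_β f = α' (c_β) g_β ^ n`, then `c_α ^ d (N_β' g_α) ^ n = c_β ^ d (N_α' g_β) ^ n`. -/
theorem link_norm (α' β' : E₂ →+* E) (α β : E →+* L) (hcomm : α.comp β' = β.comp α')
    (d : ℕ) (hdα' : degAlong α' = d) (hdβ' : degAlong β' = d)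
    (n : ℕ) (f : L) (cα cβ : E₂) (gα gβ : E)
    (hNα : normAlongHom α f = β' cα * gα ^ n) (hNβ : normAlongHom β f = α' cβ * gβ ^ n) :
    cα ^ d * normAlongHom β' gα ^ n = cβ ^ d * normAlongHom α' gβ ^ n := by
  have h1 : normAlongHom β' (normAlongHom α f) = normAlongHom α' (normAlongHom β f) := by
    rw [normAlongHom_comp, normAlongHom_comp, hcomm]
  rw [hNα, hNβ] at h1
  have e1 : normAlongHom β' (β' cα * gα ^ n) = cα ^ d * normAlongHom β' gα ^ n := by
    letI := β'.toAlgebra
    show Algebra.norm E₂ (algebraMap E₂ E cα * gα ^ n) = _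
    rw [map_mul, map_pow, Algebra.norm_algebraMap]
    congr 2
  have e2 : normAlongHom α' (α' cβ * gβ ^ n) = cβ ^ d * normAlongHom α' gβ ^ n := by
    letI := α'.toAlgebra
    show Algebra.norm E₂ (algebraMap E₂ E cβ * gβ ^ n) = _
    rw [map_mul, map_pow, Algebra.norm_algebraMap]
    congr 2
  rw [e1, e2] at h1
  exact h1

/-- The arithmetic of the exponents. -/
theorem link_val {Γ : Type*} [LinearOrderedCommGroupWithZero Γ] (γ : Γ) (hγ0 : γ ≠ 0)
    (hγ1 : γ ≠ 1) (d n : ℕ) (hcop : Nat.Coprime n d) (mα mβ k₁ k₂ : ℤ)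
    (h : (γ ^ mα) ^ d * (γ ^ k₁) ^ n = (γ ^ mβ) ^ d * (γ ^ k₂) ^ n) : (n : ℤ) ∣ mα - mβ := by
  have h1 : γ ^ (mα * d + k₁ * n) = γ ^ (mβ * d + k₂ * n) := by
    rw [zpow_add₀ hγ0, zpow_add₀ hγ0, zpow_mul, zpow_mul, zpow_mul, zpow_mul, zpow_natCast,
      zpow_natCast, zpow_natCast, zpow_natCast]
    exact h
  have h2 : mα * d + k₁ * n = mβ * d + k₂ * n :=
    zpow_right_injective₀ (zero_lt_iff.2 hγ0) hγ1 h1
  have h3 : (n : ℤ) ∣ (mα - mβ) * d := ⟨k₂ - k₁, by linarith⟩
  have hc : IsCoprime (n : ℤ) (d : ℤ) := Nat.isCoprime_iff_coprime.2 hcop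
  exact hc.dvd_of_dvd_mul_right h3

end Link

end Fermat.Agent.S45.NUE.H51
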