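import Fermat.Agent.S45.NUE.Top
import Fermat.Agent.S45.NUE.H51_ValVecEAbs
import Fermat.Agent.S36.NU.H51_ValVecLow
import Fermat.Agent.S36.NU.H44_NormBCNU
import Fermat.Agent.L.Pivot.Geom.H24_B2BetaDeg

/-!
# S45 / NU_e, package E-VV (helper51): VALVEC_e for a covered family of valuations

Levels `M₁`, `M₁ q`, `M₁ q q` (`q ∣ M₁`); `αo`, `βo : L0 A (M₁ q) → L0 A (M₁ q q)` the two
degeneracy maps on the inertia-fixed functions.  For ANY finite family `V i` of pairwise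
incomparable valuation rings of rank one of `L0 A (M₁ q q)` which induce `A` on the constants
and are covered (`UniqAlong αo (V i) ∨ UniqAlong βo (V i)`):

* `valVecE_of_cover : LinkHyp → ValVecE A q (M₁ q) (fun h => ∀ i, h ∈ V i ∧ h⁻¹ ∈ V i)`, `K = q`.

`LinkHyp` (the congruence of the exponents of the two constants) is helper26's `link_mod`.
-/

set_option autoImplicit false
set_option synthInstance.maxHeartbeats 400000
set_option maxHeartbeats 1000000
set_option linter.style.haveILetI false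
set_option linter.unusedSectionVars false

noncomputable section

open ModularCurve AlgebraicCurve
open Fermat.Agent.S24 Fermat.Agent.BAD Fermat.Agent.BAD.H88 Fermat.Agent.Lib.HeckeComm
open Fermat.Agent.S36.NU.H23 Fermat.Agent.S36.NU.H81 Fermat.Agent.S36.NU.H10
open Fermat.Agent.S36.H44 Fermat.Agent.BAD.H42

namespace Fermat.Agent.S45.NUE.H51

section Const

variable (A : ValuationSubring Kbar) {N : ℕ} [NeZero N] (q : ℕ)

/-- The constant `c` as an element of `L0 A N`. -/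
def constL0 (c : Kbar) (hc : ∀ σ ∈ A.inertiaSubgroupIn ℚ, σ c = c) : ↥(L0 A N) :=
  ⟨algebraMap Kbar (FN N) c, (const_mem_L0_iff A c).2 hc⟩

theorem coe_constL0 (c : Kbar) (hc : ∀ σ ∈ A.inertiaSubgroupIn ℚ, σ c = c) :
    ((constL0 A c hc : ↥(L0 A N)) : FN N) = algebraMap Kbar (FN N) c := rfl

/-- `W` induces `A` on the constants. -/
def IsConstA (W : ValuationSubring ↥(L0 A N)) : Prop :=
  ∀ (c : Kbar) (hc : ∀ σ ∈ A.inertiaSubgroupIn ℚ, σ c = c), constL0 A c hc ∈ W ↔ c ∈ A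

variable {A q}

/-- The values of the constants. -/
theorem IsConstA.val_const {W : ValuationSubring ↥(L0 A N)} (hW : IsConstA A W)
    (hq0 : (q : Kbar) ≠ 0) (c : Kbar) (hc : ∀ σ ∈ A.inertiaSubgroupIn ℚ, σ c = c) (m : ℤ)
    (hm : A.valuation c = A.valuation (q : Kbar) ^ m) :
    W.valuation (constL0 A c hc) = W.valuation ((q : ℕ) : ↥(L0 A N)) ^ m := by
  have hqv : A.valuation (q : Kbar) ≠ 0 := (Valuation.ne_zero_iff _).2 hq0
  have hc0 : c ≠ 0 := by
    intro h0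
    rw [h0, map_zero] at hm
    exact zpow_ne_zero m hqv hm.symm
  set u : Kbar := c * ((q : Kbar) ^ m)⁻¹ with hu
  have hu0 : u ≠ 0 := mul_ne_zero hc0 (inv_ne_zero (zpow_ne_zero _ hq0))
  have huI : ∀ σ ∈ A.inertiaSubgroupIn ℚ, σ u = u := fun σ hσ => by
    rw [hu, map_mul, map_inv₀, map_zpow₀, map_natCast, hc σ hσ]
  have huI' : ∀ σ ∈ A.inertiaSubgroupIn ℚ, σ u⁻¹ = u⁻¹ := fun σ hσ => by
    rw [map_inv₀, huI σ hσ]
  have huv : A.valuation u = 1 := by
    rw [hu, map_mul, map_inv₀, map_zpow₀, hm]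
    exact mul_inv_cancel₀ (zpow_ne_zero _ hqv)
  have h1 : constL0 (N := N) A u huI ∈ W :=
    (hW u huI).2 ((ValuationSubring.valuation_le_one_iff _ _).1 huv.le)
  have h2 : constL0 (N := N) A u⁻¹ huI' ∈ W := by
    refine (hW u⁻¹ huI').2 ((ValuationSubring.valuation_le_one_iff _ _).1 ?_)
    rw [map_inv₀, huv, inv_one]
  have hinv : constL0 (N := N) A u⁻¹ huI' = (constL0 (N := N) A u huI)⁻¹ := by
    apply Subtype.ext
    rw [coe_constL0]
    show _ = ((constL0 (N := N) A u huI : ↥(L0 A N)) : FN N)⁻¹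
    rw [coe_constL0, map_inv₀]
  have hv1 : W.valuation (constL0 (N := N) A u huI) = 1 := by
    apply le_antisymm ((ValuationSubring.valuation_le_one_iff _ _).2 h1)
    have h3 := (ValuationSubring.valuation_le_one_iff _ _).2 h2
    rw [hinv, map_inv₀] at h3
    have hne : W.valuation (constL0 (N := N) A u huI) ≠ 0 := by
      rw [Valuation.ne_zero_iff]
      intro h0
      have := congrArg Subtype.val h0
      rw [coe_constL0] at this
      exact hu0 ((map_eq_zero _).1 this)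
    exact (inv_le_one₀ (zero_lt_iff.2 hne)).1 h3
  have hdec : constL0 (N := N) A c hc
      = constL0 (N := N) A u huI * ((q : ℕ) : ↥(L0 A N)) ^ m := by
    apply Subtype.ext
    show algebraMap Kbar (FN N) c
      = ((constL0 (N := N) A u huI : ↥(L0 A N)) : FN N)
        * (((((q : ℕ) : ↥(L0 A N)) ^ m : ↥(L0 A N))) : FN N)
    rw [coe_constL0, Fermat.Agent.S36.NU.H51.coe_natCast_zpow_L0, ← map_natCast
      (algebraMap Kbar (FN N)) q, ← map_zpow₀, ← map_mul, hu, mul_assoc,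
      inv_mul_cancel₀ (zpow_ne_zero _ hq0), mul_one]
  rw [hdec, map_mul, hv1, one_mul, map_zpow₀]

end Const

section Mod

variable (A : ValuationSubring Kbar) (q M₁ : ℕ) [NeZero M₁] [NeZero q] [NeZero (M₁ * q)]
  [NeZero (M₁ * q * q)]

/-- `α` on the inertia-fixed functions. -/
def αo : ↥(L0 A (M₁ * q)) →+* ↥(L0 A (M₁ * q * q)) :=
  Fermat.Agent.S36.NU.H26.mapL0 A (heckeAlphaBar Kbar (M₁ * q) q)
    (Fermat.Agent.S36.NU.H26.arithEquivariant_alpha (M₁ * q) q)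

/-- `β` on the inertia-fixed functions. -/
def βo : ↥(L0 A (M₁ * q)) →+* ↥(L0 A (M₁ * q * q)) :=
  Fermat.Agent.S36.NU.H26.mapL0 A (heckeBetaBar Kbar (M₁ * q) q)
    (Fermat.Agent.S36.NU.H26.arithEquivariant_beta (M₁ * q) q)

theorem coe_αo (x : ↥(L0 A (M₁ * q))) :
    ((αo A q M₁ x : ↥(L0 A (M₁ * q * q))) : FN (M₁ * q * q))
      = heckeAlphaBar Kbar (M₁ * q) q (x : FN (M₁ * q)) := rfl

theorem coe_βo (x : ↥(L0 A (M₁ * q))) :
    ((βo A q M₁ x : ↥(L0 A (M₁ * q * q))) : FN (M₁ * q * q))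
      = heckeBetaBar Kbar (M₁ * q) q (x : FN (M₁ * q)) := rfl

/-- **The congruence of the exponents of the two constants** (helper26's `link_mod`). -/
def LinkHyp : Prop :=
  ∀ (n : ℕ), 0 < n → GoodExp q n → ∀ (f : FN (M₁ * q * q)), f ≠ 0 →
    ∀ (cα cβ : Kbar) (gα gβ : FN (M₁ * q)),
      (∀ σ ∈ A.inertiaSubgroupIn ℚ, σ cα = cα) → (∀ σ ∈ A.inertiaSubgroupIn ℚ, σ cβ = cβ) →
      gα ∈ L0 A (M₁ * q) → gβ ∈ L0 A (M₁ * q) →
      normAlongHom (heckeAlphaBar Kbar (M₁ * q) q).toRingHom f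
        = algebraMap Kbar (FN (M₁ * q)) cα * gα ^ n →
      normAlongHom (heckeBetaBar Kbar (M₁ * q) q).toRingHom f
        = algebraMap Kbar (FN (M₁ * q)) cβ * gβ ^ n →
      ∀ (mα mβ : ℤ), A.valuation cα = A.valuation (q : Kbar) ^ mα →
        A.valuation cβ = A.valuation (q : Kbar) ^ mβ → (n : ℤ) ∣ mα - mβ

theorem finAlong_αo : FinAlong (αo A q M₁) :=
  Fermat.Agent.S36.NU.H26.finite_L0_along A (heckeAlphaBar Kbar (M₁ * q) q)
    (Fermat.Agent.S36.NU.H26.arithEquivariant_alpha (M₁ * q) q) (alpha_finite (M₁ * q) q)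

theorem finAlong_βo : FinAlong (βo A q M₁) :=
  Fermat.Agent.S36.NU.H26.finite_L0_along A (heckeBetaBar Kbar (M₁ * q) q)
    (Fermat.Agent.S36.NU.H26.arithEquivariant_beta (M₁ * q) q) (beta_finite (M₁ * q) q)

theorem degAlong_αo (hq : q.Prime) : degAlong (αo A q M₁) = q := by
  have h := Fermat.Agent.S36.NU.H26.finrank_L0_along A (heckeAlphaBar Kbar (M₁ * q) q)
    (Fermat.Agent.S36.NU.H26.arithEquivariant_alpha (M₁ * q) q) (alpha_finite (M₁ * q) q)
  exact h.trans (Fermat.Agent.S36.NU.H44.finrank_alpha_dvd (M₁ * q) q hq (dvd_mul_left q M₁))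

theorem degAlong_βo (hq : q.Prime) : degAlong (βo A q M₁) = q := by
  have h := Fermat.Agent.S36.NU.H26.finrank_L0_along A (heckeBetaBar Kbar (M₁ * q) q)
    (Fermat.Agent.S36.NU.H26.arithEquivariant_beta (M₁ * q) q) (beta_finite (M₁ * q) q)
  exact h.trans (Fermat.Agent.L.Pivot.Geom.H24.finrank_beta_of_dvd (M₁ * q) q hq
    (dvd_mul_left q M₁))

theorem normAlong_αo (f : ↥(L0 A (M₁ * q * q))) :
    ((normAlongHom (αo A q M₁) f : ↥(L0 A (M₁ * q))) : FN (M₁ * q))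
      = normAlongHom (heckeAlphaBar Kbar (M₁ * q) q).toRingHom (f : FN (M₁ * q * q)) :=
  (Fermat.Agent.S36.NU.H26.norm_L0_along A (heckeAlphaBar Kbar (M₁ * q) q)
    (Fermat.Agent.S36.NU.H26.arithEquivariant_alpha (M₁ * q) q) (alpha_finite (M₁ * q) q) f).symm

theorem normAlong_βo (f : ↥(L0 A (M₁ * q * q))) :
    ((normAlongHom (βo A q M₁) f : ↥(L0 A (M₁ * q))) : FN (M₁ * q))
      = normAlongHom (heckeBetaBar Kbar (M₁ * q) q).toRingHom (f : FN (M₁ * q * q)) :=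
  (Fermat.Agent.S36.NU.H26.norm_L0_along A (heckeBetaBar Kbar (M₁ * q) q)
    (Fermat.Agent.S36.NU.H26.arithEquivariant_beta (M₁ * q) q) (beta_finite (M₁ * q) q) f).symm

variable {ι : Type} [DecidableEq ι] [Fintype ι]

/-- **VALVEC_e for a covered family of valuations**, `K = q`. -/
theorem valVecE_of_cover (hq : q.Prime) (hA : A.LiesOverPrime q) (hlink : LinkHyp A q M₁)
    (V : ι → ValuationSubring ↥(L0 A (M₁ * q * q))) (hArch : ∀ i, IsArch (V i))
    (hinc : ∀ i j, i ≠ j → ¬ V i ≤ V j) (hnt : ∀ i, V i ≠ ⊤)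
    (hconst : ∀ i, IsConstA A (V i))
    (hcov : ∀ i, UniqAlong (αo A q M₁) (V i) ∨ UniqAlong (βo A q M₁) (V i)) :
    ValVecE A q (M₁ * q) (fun h => ∀ i, h ∈ V i ∧ h⁻¹ ∈ V i) := by
  refine ⟨q, hq.ne_zero, ?_⟩
  intro n hn hgood f hf0 hNα hNβ
  obtain ⟨cα, gα, hcα, hgα, hNα⟩ := hNα
  obtain ⟨cβ, gβ, hcβ, hgβ, hNβ⟩ := hNβ
  have hq0 : (q : Kbar) ≠ 0 := Nat.cast_ne_zero.mpr hq.ne_zero
  have hfF : (f : FN (M₁ * q * q)) ≠ 0 := fun h => hf0 (Subtype.ext h)
  -- the constants are non-zero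
  have hNα0 : normAlongHom (heckeAlphaBar Kbar (M₁ * q) q).toRingHom (f : FN (M₁ * q * q)) ≠ 0 :=
    normAlongHom_ne_zero _ (alpha_finite (M₁ * q) q) _ hfF
  have hNβ0 : normAlongHom (heckeBetaBar Kbar (M₁ * q) q).toRingHom (f : FN (M₁ * q * q)) ≠ 0 :=
    normAlongHom_ne_zero _ (beta_finite (M₁ * q) q) _ hfF
  have hcα0 : cα ≠ 0 := by
    rintro rfl
    rw [map_zero, zero_mul] at hNα
    exact hNα0 hNα
  have hcβ0 : cβ ≠ 0 := by
    rintro rfl
    rw [map_zero, zero_mul] at hNβ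
    exact hNβ0 hNβ
  obtain ⟨mα, hmα⟩ := Fermat.Agent.S36.NU.H82.valuation_Kur A hq hA cα hcα hcα0
  obtain ⟨mβ, hmβ⟩ := Fermat.Agent.S36.NU.H82.valuation_Kur A hq hA cβ hcβ hcβ0
  have hl := hlink n hn hgood f hfF cα cβ gα gβ hcα hcβ hgα hgβ hNα hNβ mα mβ hmα hmβ
  -- the norms on the inertia-fixed functions
  have hNαo : normAlongHom (αo A q M₁) f
      = constL0 A cα hcα * (⟨gα, hgα⟩ : ↥(L0 A (M₁ * q))) ^ n := by
    apply Subtype.ext
    rw [normAlong_αo, hNα]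
    rfl
  have hNβo : normAlongHom (βo A q M₁) f
      = constL0 A cβ hcβ * (⟨gβ, hgβ⟩ : ↥(L0 A (M₁ * q))) ^ n := by
    apply Subtype.ext
    rw [normAlong_βo, hNβ]
    rfl
  have hαc : αo A q M₁ (constL0 A cα hcα) = constL0 A cα hcα :=
    Subtype.ext ((heckeAlphaBar Kbar (M₁ * q) q).commutes cα)
  have hβc : βo A q M₁ (constL0 A cβ hcβ) = constL0 A cβ hcβ :=
    Subtype.ext ((heckeBetaBar Kbar (M₁ * q) q).commutes cβ)
  have hqL : ((q : ℕ) : ↥(L0 A (M₁ * q * q))) ≠ 0 := Nat.cast_ne_zero.mpr hq.ne_zero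
  obtain ⟨b, w, hw0, hw⟩ := valvecE_abs (αo A q M₁) (βo A q M₁) (finAlong_αo A q M₁)
    (finAlong_βo A q M₁) q (degAlong_αo A q M₁ hq) (degAlong_βo A q M₁ hq) V hArch hinc hnt hcov
    ((q : ℕ) : ↥(L0 A (M₁ * q * q))) hqL n hn f hf0 (constL0 A cα hcα) ⟨gα, hgα⟩
    (constL0 A cβ hcβ) ⟨gβ, hgβ⟩ hNαo hNβo mα mβ
    (fun i => by rw [hαc]; exact (hconst i).val_const hq0 cα hcα mα hmα)
    (fun i => by rw [hβc]; exact (hconst i).val_const hq0 cβ hcβ mβ hmβ) hl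
  refine ⟨b, w, hw0, fun i => ⟨?_, ?_⟩⟩
  · exact (ValuationSubring.valuation_le_one_iff _ _).1 (hw i).le
  · rw [← ValuationSubring.valuation_le_one_iff, map_inv₀, hw i, inv_one]

end Mod

end Fermat.Agent.S45.NUE.H51
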