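import Fermat.Agent.S45.NUE.H51_ALE
import Fermat.Agent.S45.NUE.H51_ValVecEMod

/-!
# S45 / NU_e, leaf N4 FIBRES (helper51): the valuations of the upper level above a valuation of
the lower level, along `α` and along `β`

Levels `M₁ q = M' q^e` (lower) and `M₁ q q = M' q^(e+1)` (upper), `q ∤ M'`;
`VEl a'` (`a' ≤ e`), `VEu a` (`a ≤ e + 1`) the valuations of helper23 (`H23_ValE`).

Abstract part:
* `fibre_abs` : a valuation ring `W ≠ ⊤` above `V' a'` along `φ` is a `V j` with `r j = a'`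
  (from THREE, the restriction table and the incomparability of the `V' a'`);
* `cover_abs2` : the cover from THREE along `α ∘ ψ_α` and along `β ∘ ψ_β`.

Modular part, from `CoverInputs` (THREE of the upper level = E-TOT, incomparability of the lower
level = T8 HINC, the two restriction tables = N1 RESTR):
* `fibre_alpha` : `W ≠ ⊤`, `α (VEl a') ⊆ W`  ⟹  `W = VEu a`, `min a e = a'`;
* `fibre_beta`  : `W ≠ ⊤`, `β (VEl a') ⊆ W`  ⟹  `W = VEu a`, `a - 1 = a'`;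
* `cover_mod`   : `UniqAlong αo (VEu a) ∨ UniqAlong βo (VEu a)` for all `a ≤ e + 1`, if `2 ≤ e`.
-/

set_option autoImplicit false
set_option synthInstance.maxHeartbeats 400000
set_option maxHeartbeats 1000000
set_option linter.unusedSectionVars false
set_option linter.unusedVariables false
set_option linter.style.haveILetI false

noncomputable section

namespace Fermat.Agent.S45.NUE.H51

open Fermat.Agent.S24 Fermat.Agent.BAD.H88 ModularCurve AlgebraicCurve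
open Fermat.Agent.S36.NU.H88 Fermat.Agent.S45.NUE.H23 Fermat.Agent.S45.NUE.H17

local notation "L0" => Fermat.Agent.S36.NU.H23.L0
local notation "VE0" => Fermat.Agent.S36.NU.H23.VE0
local notation "inclL0" => Fermat.Agent.S36.NU.H23.inclL0

/-! ## Abstract part -/

/-- The index map of `α`. -/
def rA (el : ℕ) (a : Fin (el + 2)) : Fin (el + 1) :=
  ⟨min (a : ℕ) el, Nat.lt_succ_of_le (min_le_right _ _)⟩

/-- The index map of `β`. -/
def rB (el : ℕ) (a : Fin (el + 2)) : Fin (el + 1) :=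
  ⟨(a : ℕ) - 1, by have := a.2; omega⟩

section Abs

variable {E₀ E L : Type} [Field E₀] [Field E] [Field L] {ι ι' : Type}

/-- **The fibre** of the valuations of `L` above `V' a'` along `φ`. -/
theorem fibre_abs (φ : E →+* L) (ψ' : E₀ →+* E) (V₀ : ValuationSubring E₀)
    (V : ι → ValuationSubring L) (hthree : ThreeAlong (φ.comp ψ') V₀ V)
    (V' : ι' → ValuationSubring E) (hinc' : ∀ a b, a ≠ b → ¬ V' a ≤ V' b)
    (hbase : ∀ a', ∀ a ∈ V₀, ψ' a ∈ V' a') (r : ι → ι')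
    (htab : ∀ (j : ι) (y : E), φ y ∈ V j ↔ y ∈ V' (r j)) (a' : ι')
    (W : ValuationSubring L) (hW : W ≠ ⊤) (h : ∀ y ∈ V' a', φ y ∈ W) :
    ∃ j, W = V j ∧ r j = a' := by
  obtain ⟨j, hj⟩ := hthree W hW (fun a ha => h _ (hbase a' a ha))
  refine ⟨j, hj, ?_⟩
  by_contra hne
  refine hinc' a' (r j) (fun e => hne e.symm) (fun y hy => ?_)
  have h1 := h y hy
  rw [hj] at h1
  exact (htab j y).1 h1

/-- **The cover** from THREE along `α ∘ ψ_α` and along `β ∘ ψ_β`. -/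
theorem cover_abs2 (α β : E →+* L) (ψα ψβ : E₀ →+* E) (V₀ : ValuationSubring E₀)
    (V : ι → ValuationSubring L) (hthreeα : ThreeAlong (α.comp ψα) V₀ V)
    (hthreeβ : ThreeAlong (β.comp ψβ) V₀ V)
    (V' : ι' → ValuationSubring E) (hinc' : ∀ a b, a ≠ b → ¬ V' a ≤ V' b)
    (hbaseα : ∀ a', ∀ a ∈ V₀, ψα a ∈ V' a') (hbaseβ : ∀ a', ∀ a ∈ V₀, ψβ a ∈ V' a')
    (rα rβ : ι → ι') (htabα : ∀ (j : ι) (y : E), α y ∈ V j ↔ y ∈ V' (rα j))
    (htabβ : ∀ (j : ι) (y : E), β y ∈ V j ↔ y ∈ V' (rβ j))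
    (hfib : ∀ i, (∀ j, rα j = rα i → j = i) ∨ (∀ j, rβ j = rβ i → j = i)) :
    ∀ i, UniqAlong α (V i) ∨ UniqAlong β (V i) := by
  intro i
  rcases hfib i with h | h
  · left
    exact uniqAlong_of_three α ψα V₀ V i hthreeα
      (fun a ha => (htabα i _).2 (hbaseα _ a ha))
      (sepAlong_of_table α V V' rα htabα hinc' i h)
  · right
    exact uniqAlong_of_three β ψβ V₀ V i hthreeβ
      (fun a ha => (htabβ i _).2 (hbaseβ _ a ha))
      (sepAlong_of_table β V V' rβ htabβ hinc' i h)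

end Abs

/-! ## Modular part -/

section Mod

variable (A : ValuationSubring Kbar) (q M₁ M' el : ℕ) [NeZero M₁] [NeZero q] [NeZero M']
  [NeZero (M₁ * q)] [NeZero (M₁ * q * q)] (hq : q.Prime)
  (hNl : M₁ * q = M' * q ^ el) (hNu : M₁ * q * q = M' * q ^ (el + 1))
  (Bl kl : ℤ) (hBl : Bl * M' + kl * (q : ℤ) ^ el = 1)
  (Bu ku : ℤ) (hBu : Bu * M' + ku * (q : ℤ) ^ (el + 1) = 1)

/-- The valuations of the lower level `M₁ q = M' q^e`. -/
abbrev VEl (a : ℕ) : ValuationSubring ↥(L0 A (M₁ * q)) :=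
  VE A (M₁ * q) q M' el Bl kl hNl hBl hq a

/-- The valuations of the upper level `M₁ q q = M' q^(e+1)`. -/
abbrev VEu (a : ℕ) : ValuationSubring ↥(L0 A (M₁ * q * q)) :=
  VE A (M₁ * q * q) q M' (el + 1) Bu ku hNu hBu hq a

/-- The inclusion of the good level into the lower level. -/
abbrev inclLow : ↥(L0 A M') →+* ↥(L0 A (M₁ * q)) := inclL0 A (hleE (M₁ * q) q M' el hNl)

/-- The inclusion of the good level into the upper level. -/
abbrev inclUpp : ↥(L0 A M') →+* ↥(L0 A (M₁ * q * q)) :=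
  inclL0 A (hleE (M₁ * q * q) q M' (el + 1) hNu)

theorem αo_inclLow (x : ↥(L0 A M')) :
    αo A q M₁ (inclLow A q M₁ M' el hNl x) = inclUpp A q M₁ M' el hNu x := by
  apply Subtype.ext
  rw [coe_αo]
  apply Subtype.ext
  rw [coe_heckeAlphaBar, Fermat.Agent.S36.NU.H23.coe_inclL0, Fermat.Agent.S36.NU.H23.coe_inclL0,
    IntermediateField.coe_inclusion, IntermediateField.coe_inclusion]

theorem βo_betaLow (x : ↥(L0 A M')) :
    βo A q M₁ (betaL0 A (M₁ * q) q M' el hNl x) = betaL0 A (M₁ * q * q) q M' (el + 1) hNu x := by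
  haveI : NeZero (q ^ el) := ⟨pow_ne_zero _ (NeZero.ne q)⟩
  haveI : NeZero (q ^ (el + 1)) := ⟨pow_ne_zero _ (NeZero.ne q)⟩
  apply Subtype.ext
  rw [coe_βo]
  apply Subtype.ext
  rw [coe_heckeBetaBar, coe_betaL0, coe_betaL0, coe_betaE, coe_betaE, qExpand_qExpand]
  exact qExpand_congr (by rw [pow_succ, mul_comm]) _

theorem αo_comp_inclLow :
    (αo A q M₁).comp (inclLow A q M₁ M' el hNl) = inclUpp A q M₁ M' el hNu :=
  RingHom.ext (αo_inclLow A q M₁ M' el hNl hNu)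

theorem βo_comp_betaLow :
    (βo A q M₁).comp (betaL0 A (M₁ * q) q M' el hNl)
      = betaL0 A (M₁ * q * q) q M' (el + 1) hNu :=
  RingHom.ext (βo_betaLow A q M₁ M' el hNl hNu)

/-- **The modular inputs of N4 FIBRES**: THREE for the upper level (E-TOT), the incomparability
of the valuations of the lower level (T8 HINC), the two restriction tables (N1 RESTR). -/
structure CoverInputs : Prop where
  three : ThreeAlong (inclUpp A q M₁ M' el hNu) (VE0 A M')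
    (fun a : Fin (el + 2) => VEu A q M₁ M' el hq hNu Bu ku hBu (a : ℕ))
  inc_low : ∀ a a' : ℕ, a ≤ el → a' ≤ el → a ≠ a' →
    ¬ VEl A q M₁ M' el hq hNl Bl kl hBl a ≤ VEl A q M₁ M' el hq hNl Bl kl hBl a'
  tabα : ∀ (a : ℕ), a ≤ el + 1 → ∀ y : ↥(L0 A (M₁ * q)),
    αo A q M₁ y ∈ VEu A q M₁ M' el hq hNu Bu ku hBu a
      ↔ y ∈ VEl A q M₁ M' el hq hNl Bl kl hBl (min a el)
  tabβ : ∀ (a : ℕ), a ≤ el + 1 → ∀ y : ↥(L0 A (M₁ * q)),
    βo A q M₁ y ∈ VEu A q M₁ M' el hq hNu Bu ku hBu a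
      ↔ y ∈ VEl A q M₁ M' el hq hNl Bl kl hBl (a - 1)

variable {A q M₁ M' el hq hNl hNu Bl kl hBl Bu ku hBu}

/-- THREE along `β^(e+1)` for the upper level. -/
theorem CoverInputs.three_beta (h : CoverInputs A q M₁ M' el hq hNl hNu Bl kl hBl Bu ku hBu) :
    ThreeAlong (betaL0 A (M₁ * q * q) q M' (el + 1) hNu) (VE0 A M')
      (fun a : Fin (el + 2) => VEu A q M₁ M' el hq hNu Bu ku hBu (a : ℕ)) :=
  threeAlong_beta A (M₁ * q * q) q M' (el + 1) Bu ku hNu hBu hq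
    (hleE (M₁ * q * q) q M' (el + 1) hNu) h.three

/-- The lower valuations, indexed by `Fin (e + 1)`. -/
theorem CoverInputs.inc_low' (h : CoverInputs A q M₁ M' el hq hNl hNu Bl kl hBl Bu ku hBu)
    (a b : Fin (el + 1)) (hab : a ≠ b) :
    ¬ VEl A q M₁ M' el hq hNl Bl kl hBl (a : ℕ) ≤ VEl A q M₁ M' el hq hNl Bl kl hBl (b : ℕ) :=
  h.inc_low a b (Nat.lt_succ_iff.1 a.2) (Nat.lt_succ_iff.1 b.2)
    (fun e => hab (Fin.ext e))

/-- **N4 FIBRES along `α`.** -/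
theorem CoverInputs.fibre_alpha
    (h : CoverInputs A q M₁ M' el hq hNl hNu Bl kl hBl Bu ku hBu) (a' : ℕ) (ha' : a' ≤ el)
    (W : ValuationSubring ↥(L0 A (M₁ * q * q))) (hW : W ≠ ⊤)
    (hα : ∀ y ∈ VEl A q M₁ M' el hq hNl Bl kl hBl a', αo A q M₁ y ∈ W) :
    ∃ a : ℕ, a ≤ el + 1 ∧ W = VEu A q M₁ M' el hq hNu Bu ku hBu a ∧ min a el = a' := by
  have h3 : ThreeAlong ((αo A q M₁).comp (inclLow A q M₁ M' el hNl)) (VE0 A M')
      (fun a : Fin (el + 2) => VEu A q M₁ M' el hq hNu Bu ku hBu (a : ℕ)) := by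
    rw [αo_comp_inclLow A q M₁ M' el hNl hNu]
    exact h.three
  obtain ⟨j, hj, hr⟩ := fibre_abs (αo A q M₁) (inclLow A q M₁ M' el hNl) (VE0 A M')
    (fun a : Fin (el + 2) => VEu A q M₁ M' el hq hNu Bu ku hBu (a : ℕ)) h3
    (fun a : Fin (el + 1) => VEl A q M₁ M' el hq hNl Bl kl hBl (a : ℕ)) h.inc_low'
    (fun b x hx => inclL0_mem_VE A (M₁ * q) q M' el Bl kl hNl hBl hq
      (hleE (M₁ * q) q M' el hNl) (b : ℕ) x hx)
    (rA el) (fun j y => h.tabα (j : ℕ) (Nat.lt_succ_iff.1 j.2) y)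
    ⟨a', Nat.lt_succ_iff.2 ha'⟩ W hW hα
  exact ⟨(j : ℕ), Nat.lt_succ_iff.1 j.2, hj, congrArg Fin.val hr⟩

/-- **N4 FIBRES along `β`.** -/
theorem CoverInputs.fibre_beta
    (h : CoverInputs A q M₁ M' el hq hNl hNu Bl kl hBl Bu ku hBu) (a' : ℕ) (ha' : a' ≤ el)
    (W : ValuationSubring ↥(L0 A (M₁ * q * q))) (hW : W ≠ ⊤)
    (hβ : ∀ y ∈ VEl A q M₁ M' el hq hNl Bl kl hBl a', βo A q M₁ y ∈ W) :
    ∃ a : ℕ, a ≤ el + 1 ∧ W = VEu A q M₁ M' el hq hNu Bu ku hBu a ∧ a - 1 = a' := by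
  have h3 : ThreeAlong ((βo A q M₁).comp (betaL0 A (M₁ * q) q M' el hNl)) (VE0 A M')
      (fun a : Fin (el + 2) => VEu A q M₁ M' el hq hNu Bu ku hBu (a : ℕ)) := by
    rw [βo_comp_betaLow A q M₁ M' el hNl hNu]
    exact h.three_beta
  obtain ⟨j, hj, hr⟩ := fibre_abs (βo A q M₁) (betaL0 A (M₁ * q) q M' el hNl) (VE0 A M')
    (fun a : Fin (el + 2) => VEu A q M₁ M' el hq hNu Bu ku hBu (a : ℕ)) h3
    (fun a : Fin (el + 1) => VEl A q M₁ M' el hq hNl Bl kl hBl (a : ℕ)) h.inc_low'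
    (fun b x hx => betaL0_mem_VE A (M₁ * q) q M' el Bl kl hNl hBl hq (b : ℕ)
      (Nat.lt_succ_iff.1 b.2) x hx)
    (rB el) (fun j y => h.tabβ (j : ℕ) (Nat.lt_succ_iff.1 j.2) y)
    ⟨a', Nat.lt_succ_iff.2 ha'⟩ W hW hβ
  exact ⟨(j : ℕ), Nat.lt_succ_iff.1 j.2, hj, congrArg Fin.val hr⟩

/-- **The cover**: for `2 ≤ e` every valuation of the upper level is the only one above its
restriction along `α`, or along `β`. -/
theorem CoverInputs.cover (h : CoverInputs A q M₁ M' el hq hNl hNu Bl kl hBl Bu ku hBu)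
    (hel : 2 ≤ el) (a : Fin (el + 2)) :
    UniqAlong (αo A q M₁) (VEu A q M₁ M' el hq hNu Bu ku hBu (a : ℕ))
      ∨ UniqAlong (βo A q M₁) (VEu A q M₁ M' el hq hNu Bu ku hBu (a : ℕ)) := by
  have h3α : ThreeAlong ((αo A q M₁).comp (inclLow A q M₁ M' el hNl)) (VE0 A M')
      (fun a : Fin (el + 2) => VEu A q M₁ M' el hq hNu Bu ku hBu (a : ℕ)) := by
    rw [αo_comp_inclLow A q M₁ M' el hNl hNu]
    exact h.three
  have h3β : ThreeAlong ((βo A q M₁).comp (betaL0 A (M₁ * q) q M' el hNl)) (VE0 A M')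
      (fun a : Fin (el + 2) => VEu A q M₁ M' el hq hNu Bu ku hBu (a : ℕ)) := by
    rw [βo_comp_betaLow A q M₁ M' el hNl hNu]
    exact h.three_beta
  refine cover_abs2 (αo A q M₁) (βo A q M₁) (inclLow A q M₁ M' el hNl)
    (betaL0 A (M₁ * q) q M' el hNl) (VE0 A M')
    (fun a : Fin (el + 2) => VEu A q M₁ M' el hq hNu Bu ku hBu (a : ℕ)) h3α h3β
    (fun a : Fin (el + 1) => VEl A q M₁ M' el hq hNl Bl kl hBl (a : ℕ)) h.inc_low'
    (fun b x hx => inclL0_mem_VE A (M₁ * q) q M' el Bl kl hNl hBl hq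
      (hleE (M₁ * q) q M' el hNl) (b : ℕ) x hx)
    (fun b x hx => betaL0_mem_VE A (M₁ * q) q M' el Bl kl hNl hBl hq (b : ℕ)
      (Nat.lt_succ_iff.1 b.2) x hx)
    (rA el) (rB el) (fun j y => h.tabα (j : ℕ) (Nat.lt_succ_iff.1 j.2) y)
    (fun j y => h.tabβ (j : ℕ) (Nat.lt_succ_iff.1 j.2) y) ?_ a
  intro i
  rcases Nat.lt_or_ge (i : ℕ) el with hi | hi
  · left
    intro j hj
    have hj' : min (j : ℕ) el = min (i : ℕ) el := congrArg Fin.val hj
    apply Fin.ext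
    rw [min_eq_left hi.le] at hj'
    rcases Nat.lt_or_ge (j : ℕ) el with h1 | h1
    · rw [min_eq_left h1.le] at hj'
      exact hj'
    · rw [min_eq_right h1] at hj'
      omega
  · right
    intro j hj
    have hj' : (j : ℕ) - 1 = (i : ℕ) - 1 := congrArg Fin.val hj
    apply Fin.ext
    omega

end Mod

end Fermat.Agent.S45.NUE.H51
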