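import Fermat.Agent.S45.NUE.H33_NormMod
import Fermat.Agent.S45.NUE.H51_Fibres

/-!
# S45 / NU_e, package E-NORM (helper33): the norm tables of the single components, assembled

Levels `M₁ q = M' q ^ e` (lower) and `M₁ q q = M' q ^ (e + 1)` (upper), `q ∤ M'`, `A` over `q`;
`VEl a'`, `sEl a'` (`a' ≤ e`) and `VEu a`, `sEu a` (`a ≤ e + 1`) the valuations and residue maps
of helper23, `αo`, `βo` the two degeneracy maps on the inertia-fixed functions (helper51),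
`NαE`, `NβE` the norms.  From

* `H51.CoverInputs` (THREE for the upper level, incomparability below, the restriction tables),
* `RedInputs` (the reductions of `α y`, `β y`: N1 RESTR, helper31),
* `hmem` (`sEu a x ∈ fullC k M'`: E-TOT),

the norm–reduction formulas of all the single components:

* `normAlpha_insep` (`a < e`, `2 a ≤ e`) : `(sEl a (Nα h))(s ^ q) = (sEu a h) ^ q`;
* `normAlpha_wild`  (`a < e`, `e < 2 a`) : `sEl a (Nα h) = (sEu a h) ^ q`;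
* `normBeta_wild`   (`2 ≤ a ≤ e + 1`, `2 a ≤ e + 1`) : `sEl (a - 1) (Nβ h) = (sEu a h) ^ q`;
* `normBeta_insep`  (`a ≤ e + 1`, `e + 2 ≤ 2 a`) : `(sEl (a - 1) (Nβ h))(s ^ q) = (sEu a h) ^ q`;
* `unitAlpha`, `unitBeta` : the norms of a unit for all `VEu a` are units for all `VEl a'`.
-/

set_option autoImplicit false
set_option linter.style.haveILetI false
set_option linter.unusedSectionVars false
set_option linter.unusedVariables false
set_option synthInstance.maxHeartbeats 400000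
set_option maxHeartbeats 1000000

noncomputable section

namespace Fermat.Agent.S45.NUE.H33

open AlgebraicCurve ModularCurve Fermat.Agent.S24 Fermat.Agent.Lib.HeckeComm
  Fermat.Agent.S36.H44 Fermat.Agent.BAD Fermat.Agent.BAD.H88
  Fermat.Agent.S36.NU.H26 Fermat.Agent.S45.NUE.H51 Fermat.Agent.S45.NUE.H23
  Fermat.Agent.S28 Fermat.Agent.S28.H73 Fermat.Agent.RED.H73 Fermat.Agent.RED.H17

local notation "L0" => Fermat.Agent.S36.NU.H23.L0

section Final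

variable (A : ValuationSubring Kbar) (q M₁ M' el : ℕ) [NeZero M₁] [NeZero q] [NeZero M']
  [NeZero (M₁ * q)] [NeZero (M₁ * q * q)] (hq : q.Prime)
  (hNl : M₁ * q = M' * q ^ el) (hNu : M₁ * q * q = M' * q ^ (el + 1))
  (Bl kl : ℤ) (hBl : Bl * M' + kl * (q : ℤ) ^ el = 1)
  (Bu ku : ℤ) (hBu : Bu * M' + ku * (q : ℤ) ^ (el + 1) = 1)

/-- The residue maps of the lower level. -/
abbrev sEl (a : ℕ) : ↥(VEl A q M₁ M' el hq hNl Bl kl hBl a) →+* LaurentSeries (kV A) :=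
  sE A (M₁ * q) q M' el Bl kl hNl hBl hq a

/-- The residue maps of the upper level. -/
abbrev sEu (a : ℕ) : ↥(VEu A q M₁ M' el hq hNu Bu ku hBu a) →+* LaurentSeries (kV A) :=
  sE A (M₁ * q * q) q M' (el + 1) Bu ku hNu hBu hq a

/-- The norm along `α` on the inertia-fixed functions. -/
abbrev NαE (h : ↥(L0 A (M₁ * q * q))) : ↥(L0 A (M₁ * q)) :=
  nmE A (heckeAlphaBar Kbar (M₁ * q) q) (arithEquivariant_alpha (M₁ * q) q)
    (alpha_finite (M₁ * q) q) h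

/-- The norm along `β` on the inertia-fixed functions. -/
abbrev NβE (h : ↥(L0 A (M₁ * q * q))) : ↥(L0 A (M₁ * q)) :=
  nmE A (heckeBetaBar Kbar (M₁ * q) q) (arithEquivariant_beta (M₁ * q) q)
    (beta_finite (M₁ * q) q) h

/-- **The reductions of `α y`, `β y`** (N1 RESTR, reduction part). -/
structure RedInputs : Prop where
  redα_le : ∀ a : ℕ, 2 * a ≤ el → ∀ (y : ↥(VEl A q M₁ M' el hq hNl Bl kl hBl a))
    (hy : αo A q M₁ (y : ↥(L0 A (M₁ * q))) ∈ VEu A q M₁ M' el hq hNu Bu ku hBu a),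
    sEu A q M₁ M' el hq hNu Bu ku hBu a ⟨_, hy⟩
      = qExpand (kV A) q (sEl A q M₁ M' el hq hNl Bl kl hBl a y)
  redα_gt : ∀ a : ℕ, el < 2 * a → a ≤ el → ∀ (y : ↥(VEl A q M₁ M' el hq hNl Bl kl hBl a))
    (hy : αo A q M₁ (y : ↥(L0 A (M₁ * q))) ∈ VEu A q M₁ M' el hq hNu Bu ku hBu a),
    sEu A q M₁ M' el hq hNu Bu ku hBu a ⟨_, hy⟩ = sEl A q M₁ M' el hq hNl Bl kl hBl a y
  redβ_le : ∀ a : ℕ, 1 ≤ a → 2 * a ≤ el + 1 →
    ∀ (y : ↥(VEl A q M₁ M' el hq hNl Bl kl hBl (a - 1)))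
    (hy : βo A q M₁ (y : ↥(L0 A (M₁ * q))) ∈ VEu A q M₁ M' el hq hNu Bu ku hBu a),
    sEu A q M₁ M' el hq hNu Bu ku hBu a ⟨_, hy⟩
      = sEl A q M₁ M' el hq hNl Bl kl hBl (a - 1) y
  redβ_gt : ∀ a : ℕ, el + 2 ≤ 2 * a → a ≤ el + 1 →
    ∀ (y : ↥(VEl A q M₁ M' el hq hNl Bl kl hBl (a - 1)))
    (hy : βo A q M₁ (y : ↥(L0 A (M₁ * q))) ∈ VEu A q M₁ M' el hq hNu Bu ku hBu a),
    sEu A q M₁ M' el hq hNu Bu ku hBu a ⟨_, hy⟩
      = qExpand (kV A) q (sEl A q M₁ M' el hq hNl Bl kl hBl (a - 1) y)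

variable {A q M₁ M' el hq hNl hNu Bl kl hBl Bu ku hBu}

/-- The degree of `α`. -/
theorem hdegα (hq : q.Prime) : finrankAlong Kbar (heckeAlphaBar Kbar (M₁ * q) q) = q :=
  Fermat.Agent.S36.NU.H44.finrank_alpha_dvd (M₁ * q) q hq (dvd_mul_left q M₁)

/-- The degree of `β`. -/
theorem hdegβ (hq : q.Prime) : finrankAlong Kbar (heckeBetaBar Kbar (M₁ * q) q) = q :=
  Fermat.Agent.L.Pivot.Geom.H24.finrank_beta_of_dvd (M₁ * q) q hq (dvd_mul_left q M₁)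

/-- `VEu a` is the only valuation ring above `VEl a` along `α`, for `a < e`. -/
theorem uniqAlpha (h : CoverInputs A q M₁ M' el hq hNl hNu Bl kl hBl Bu ku hBu) (a : ℕ)
    (ha : a < el) : UniqAlong (αo A q M₁) (VEu A q M₁ M' el hq hNu Bu ku hBu a) := by
  intro W' hW' htop
  obtain ⟨a₁, ha₁, hWa, hmin⟩ := h.fibre_alpha a ha.le W' htop (fun y hy => by
    apply hW'
    rw [h.tabα a (by omega) y, min_eq_left ha.le]
    exact hy)
  have : a₁ = a := by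
    rcases Nat.lt_or_ge a₁ el with h1 | h1
    · rwa [min_eq_left h1.le] at hmin
    · rw [min_eq_right h1] at hmin
      omega
  rw [hWa, this]

/-- `VEu a` is the only valuation ring above `VEl (a - 1)` along `β`, for `2 ≤ a`. -/
theorem uniqBeta (h : CoverInputs A q M₁ M' el hq hNl hNu Bl kl hBl Bu ku hBu) (a : ℕ)
    (ha2 : 2 ≤ a) (ha : a ≤ el + 1) :
    UniqAlong (βo A q M₁) (VEu A q M₁ M' el hq hNu Bu ku hBu a) := by
  intro W' hW' htop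
  obtain ⟨a₁, ha₁, hWa, hpred⟩ := h.fibre_beta (a - 1) (by omega) W' htop (fun y hy => by
    apply hW'
    rw [h.tabβ a ha y]
    exact hy)
  have : a₁ = a := by omega
  rw [hWa, this]

/-- **NORM-RED along `α`, inseparable shape** (`a < e`, `2 a ≤ e`). -/
theorem normAlpha_insep (h : CoverInputs A q M₁ M' el hq hNl hNu Bl kl hBl Bu ku hBu)
    (hr : RedInputs A q M₁ M' el hq hNl hNu Bl kl hBl Bu ku hBu)
    (hqM : ¬ q ∣ M') (hA : A.LiesOverPrime q) (a : ℕ) (ha : a < el) (h2 : 2 * a ≤ el)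
    (hmem : ∀ x : ↥(VEu A q M₁ M' el hq hNu Bu ku hBu a),
      sEu A q M₁ M' el hq hNu Bu ku hBu a x ∈ modularFunctionFieldFullC (kV A) M')
    (f : ↥(L0 A (M₁ * q * q))) (hf : f ∈ VEu A q M₁ M' el hq hNu Bu ku hBu a) :
    ∃ hm : NαE A q M₁ f ∈ VEl A q M₁ M' el hq hNl Bl kl hBl a,
      qExpand (kV A) q (sEl A q M₁ M' el hq hNl Bl kl hBl a ⟨_, hm⟩)
        = sEu A q M₁ M' el hq hNu Bu ku hBu a ⟨f, hf⟩ ^ q :=
  norm_single_insep A q M' el (M₁ * q) (M₁ * q * q) Bl kl Bu ku hNl hBl hNu hBu hq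
    (heckeAlphaBar Kbar (M₁ * q) q) (arithEquivariant_alpha (M₁ * q) q)
    (alpha_finite (M₁ * q) q) (hdegα hq) hqM hA a a ha.le hmem
    (fun x => by
      have := h.tabα a (by omega) x
      rw [min_eq_left ha.le] at this
      exact this.symm)
    (hr.redα_le a h2) (uniqAlpha h a ha) f hf

/-- **NORM-RED along `α`, wild shape** (`a < e`, `e < 2 a`). -/
theorem normAlpha_wild (h : CoverInputs A q M₁ M' el hq hNl hNu Bl kl hBl Bu ku hBu)
    (hr : RedInputs A q M₁ M' el hq hNl hNu Bl kl hBl Bu ku hBu)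
    (hqM : ¬ q ∣ M') (hA : A.LiesOverPrime q) (a : ℕ) (ha : a < el) (h2 : el < 2 * a)
    (hmem : ∀ x : ↥(VEu A q M₁ M' el hq hNu Bu ku hBu a),
      sEu A q M₁ M' el hq hNu Bu ku hBu a x ∈ modularFunctionFieldFullC (kV A) M')
    (f : ↥(L0 A (M₁ * q * q))) (hf : f ∈ VEu A q M₁ M' el hq hNu Bu ku hBu a) :
    ∃ hm : NαE A q M₁ f ∈ VEl A q M₁ M' el hq hNl Bl kl hBl a,
      sEl A q M₁ M' el hq hNl Bl kl hBl a ⟨_, hm⟩
        = sEu A q M₁ M' el hq hNu Bu ku hBu a ⟨f, hf⟩ ^ q :=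
  norm_single_wild A q M' el (M₁ * q) (M₁ * q * q) Bl kl Bu ku hNl hBl hNu hBu hq
    (heckeAlphaBar Kbar (M₁ * q) q) (arithEquivariant_alpha (M₁ * q) q)
    (alpha_finite (M₁ * q) q) (hdegα hq) hqM hA a a ha.le hmem
    (fun x => by
      have := h.tabα a (by omega) x
      rw [min_eq_left ha.le] at this
      exact this.symm)
    (hr.redα_gt a h2 ha.le) (uniqAlpha h a ha) f hf

/-- **NORM-RED along `β`, wild shape** (`2 ≤ a`, `2 a ≤ e + 1`). -/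
theorem normBeta_wild (h : CoverInputs A q M₁ M' el hq hNl hNu Bl kl hBl Bu ku hBu)
    (hr : RedInputs A q M₁ M' el hq hNl hNu Bl kl hBl Bu ku hBu)
    (hqM : ¬ q ∣ M') (hA : A.LiesOverPrime q) (a : ℕ) (ha2 : 2 ≤ a) (h2 : 2 * a ≤ el + 1)
    (hmem : ∀ x : ↥(VEu A q M₁ M' el hq hNu Bu ku hBu a),
      sEu A q M₁ M' el hq hNu Bu ku hBu a x ∈ modularFunctionFieldFullC (kV A) M')
    (f : ↥(L0 A (M₁ * q * q))) (hf : f ∈ VEu A q M₁ M' el hq hNu Bu ku hBu a) :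
    ∃ hm : NβE A q M₁ f ∈ VEl A q M₁ M' el hq hNl Bl kl hBl (a - 1),
      sEl A q M₁ M' el hq hNl Bl kl hBl (a - 1) ⟨_, hm⟩
        = sEu A q M₁ M' el hq hNu Bu ku hBu a ⟨f, hf⟩ ^ q :=
  norm_single_wild A q M' el (M₁ * q) (M₁ * q * q) Bl kl Bu ku hNl hBl hNu hBu hq
    (heckeBetaBar Kbar (M₁ * q) q) (arithEquivariant_beta (M₁ * q) q)
    (beta_finite (M₁ * q) q) (hdegβ hq) hqM hA a (a - 1) (by omega) hmem
    (fun x => (h.tabβ a (by omega) x).symm)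
    (hr.redβ_le a (by omega) h2) (uniqBeta h a ha2 (by omega)) f hf

/-- **NORM-RED along `β`, inseparable shape** (`a ≤ e + 1`, `e + 2 ≤ 2 a`). -/
theorem normBeta_insep (h : CoverInputs A q M₁ M' el hq hNl hNu Bl kl hBl Bu ku hBu)
    (hr : RedInputs A q M₁ M' el hq hNl hNu Bl kl hBl Bu ku hBu)
    (hqM : ¬ q ∣ M') (hA : A.LiesOverPrime q) (a : ℕ) (ha2 : 2 ≤ a) (ha : a ≤ el + 1)
    (h2 : el + 2 ≤ 2 * a)
    (hmem : ∀ x : ↥(VEu A q M₁ M' el hq hNu Bu ku hBu a),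
      sEu A q M₁ M' el hq hNu Bu ku hBu a x ∈ modularFunctionFieldFullC (kV A) M')
    (f : ↥(L0 A (M₁ * q * q))) (hf : f ∈ VEu A q M₁ M' el hq hNu Bu ku hBu a) :
    ∃ hm : NβE A q M₁ f ∈ VEl A q M₁ M' el hq hNl Bl kl hBl (a - 1),
      qExpand (kV A) q (sEl A q M₁ M' el hq hNl Bl kl hBl (a - 1) ⟨_, hm⟩)
        = sEu A q M₁ M' el hq hNu Bu ku hBu a ⟨f, hf⟩ ^ q :=
  norm_single_insep A q M' el (M₁ * q) (M₁ * q * q) Bl kl Bu ku hNl hBl hNu hBu hq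
    (heckeBetaBar Kbar (M₁ * q) q) (arithEquivariant_beta (M₁ * q) q)
    (beta_finite (M₁ * q) q) (hdegβ hq) hqM hA a (a - 1) (by omega) hmem
    (fun x => (h.tabβ a ha x).symm)
    (hr.redβ_gt a h2 ha) (uniqBeta h a ha2 ha) f hf

/-- **UNIT along `α`**: the norm of a unit for all the valuations of the upper level is a unit
for all the valuations of the lower level. -/
theorem unitAlpha (h : CoverInputs A q M₁ M' el hq hNl hNu Bl kl hBl Bu ku hBu)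
    (f : ↥(L0 A (M₁ * q * q)))
    (hu : ∀ a, a ≤ el + 1 → f ∈ VEu A q M₁ M' el hq hNu Bu ku hBu a)
    (hu' : ∀ a, a ≤ el + 1 → f⁻¹ ∈ VEu A q M₁ M' el hq hNu Bu ku hBu a)
    (a' : ℕ) (ha' : a' ≤ el) :
    NαE A q M₁ f ∈ VEl A q M₁ M' el hq hNl Bl kl hBl a'
      ∧ (NαE A q M₁ f)⁻¹ ∈ VEl A q M₁ M' el hq hNl Bl kl hBl a' :=
  unit_of_cover A (heckeAlphaBar Kbar (M₁ * q) q) (arithEquivariant_alpha (M₁ * q) q)
    (alpha_finite (M₁ * q) q) _
    (fun a : Fin (el + 2) => VEu A q M₁ M' el hq hNu Bu ku hBu (a : ℕ))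
    (fun W' hW' htop => by
      obtain ⟨a, ha, hWa, -⟩ := h.fibre_alpha a' ha' W' htop hW'
      exact ⟨⟨a, Nat.lt_succ_iff.2 ha⟩, hWa⟩)
    f (fun a => hu a (Nat.lt_succ_iff.1 a.2)) (fun a => hu' a (Nat.lt_succ_iff.1 a.2))

/-- **UNIT along `β`.** -/
theorem unitBeta (h : CoverInputs A q M₁ M' el hq hNl hNu Bl kl hBl Bu ku hBu)
    (f : ↥(L0 A (M₁ * q * q)))
    (hu : ∀ a, a ≤ el + 1 → f ∈ VEu A q M₁ M' el hq hNu Bu ku hBu a)
    (hu' : ∀ a, a ≤ el + 1 → f⁻¹ ∈ VEu A q M₁ M' el hq hNu Bu ku hBu a)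
    (a' : ℕ) (ha' : a' ≤ el) :
    NβE A q M₁ f ∈ VEl A q M₁ M' el hq hNl Bl kl hBl a'
      ∧ (NβE A q M₁ f)⁻¹ ∈ VEl A q M₁ M' el hq hNl Bl kl hBl a' :=
  unit_of_cover A (heckeBetaBar Kbar (M₁ * q) q) (arithEquivariant_beta (M₁ * q) q)
    (beta_finite (M₁ * q) q) _
    (fun a : Fin (el + 2) => VEu A q M₁ M' el hq hNu Bu ku hBu (a : ℕ))
    (fun W' hW' htop => by
      obtain ⟨a, ha, hWa, -⟩ := h.fibre_beta a' ha' W' htop hW'
      exact ⟨⟨a, Nat.lt_succ_iff.2 ha⟩, hWa⟩)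
    f (fun a => hu a (Nat.lt_succ_iff.1 a.2)) (fun a => hu' a (Nat.lt_succ_iff.1 a.2))

end Final

end Fermat.Agent.S45.NUE.H33
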