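import Fermat.Agent.S45.NUE.H33_NormSingle
import Fermat.Agent.S45.NUE.H17_RedGen

/-!
# S45 / NU_e, package E-NORM (helper33): NORM-RED for the single components, modular form

Lower level `Nl = M q ^ e`, upper level `Nu = M q ^ (e + 1)`, `q ∤ M`, `A` over `q`,
`φ : F_{Nl} → F_{Nu}` one of the two degeneracy maps (`α`, `β`; any `φ` commuting with the
arithmetic Galois action, finite of degree `q`).  `a` an index of the upper level, `a'` an index
of the lower level, such that `V_a` is the ONLY valuation ring of `L0 A Nu` above `V'_{a'}`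
along `φ`.  With the restriction table (N1), the fibre (N4) and the residue field
(`sE a x ∈ fullC k M`, E-TOT) as hypotheses:

* `norm_single_wild` (`sE a (φ x) = sE' a' x`: ramification index `q`, residue degree `1`):
  `sE' a' (N_φ h) = (sE a h) ^ q`;
* `norm_single_insep` (`sE a (φ x) = (sE' a' x)(s ^ q)`: ramification index `1`, residue degree
  `q`, purely inseparable): `(sE' a' (N_φ h))(s ^ q) = (sE a h) ^ q`.

No uniformiser, no discreteness: `H33.red_norm_of_unique_pi`.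
-/

set_option autoImplicit false
set_option linter.style.haveILetI false
set_option linter.unusedSectionVars false
set_option synthInstance.maxHeartbeats 400000
set_option maxHeartbeats 1000000

noncomputable section

namespace Fermat.Agent.S45.NUE.H33

open AlgebraicCurve ModularCurve Fermat.Agent.S24 Fermat.Agent.Lib.HeckeComm
  Fermat.Agent.S36.H44 Fermat.Agent.BAD Fermat.Agent.S36.NU.H23 Fermat.Agent.BAD.H88
  Fermat.Agent.S36.NU.H26 Fermat.Agent.S45.NUE.H51 Fermat.Agent.S45.NUE.H23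
  Fermat.Agent.S28 Fermat.Agent.S28.H73 Fermat.Agent.RED.H73 Fermat.Agent.RED.H17

section Mod

variable (A : ValuationSubring Kbar) (q M e Nl Nu : ℕ) (Bl kl Bu ku : ℤ)
  (hNl : Nl = M * q ^ e) (hBl : Bl * M + kl * (q : ℤ) ^ e = 1)
  (hNu : Nu = M * q ^ (e + 1)) (hBu : Bu * M + ku * (q : ℤ) ^ (e + 1) = 1)
  (hq : q.Prime) [NeZero M] [NeZero q] [NeZero Nl] [NeZero Nu]
  (φ : FN Nl →ₐ[Kbar] FN Nu) (hint : ArithEquivariant φ) (hfin : FiniteAlong Kbar φ)
  (hdeg : finrankAlong Kbar φ = q)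

/-- The series field `k((s))` has characteristic exponent `q`. -/
theorem expChar_series (A : ValuationSubring Kbar) (q : ℕ) (hq : q.Prime)
    (hA : A.LiesOverPrime q) : ExpChar (LaurentSeries (kV A)) q := by
  haveI : CharP (kV A) q := Fermat.Agent.BAD.H82.charP_kV A hq hA
  haveI : CharP (LaurentSeries (kV A)) q :=
    charP_of_injective_algebraMap (algebraMap (kV A) (LaurentSeries (kV A))).injective q
  exact ExpChar.prime hq

include hdeg in
/-- **NORM-RED for a single component, wild shape** (`e = q`, `f = 1`). -/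
theorem norm_single_wild (hqM : ¬ q ∣ M) (hA : A.LiesOverPrime q) (a a' : ℕ) (ha' : a' ≤ e)
    (hmem : ∀ x : ↥(VE A Nu q M (e + 1) Bu ku hNu hBu hq a),
      sE A Nu q M (e + 1) Bu ku hNu hBu hq a x ∈ modularFunctionFieldFullC (kV A) M)
    (hV : ∀ x : ↥(L0 A Nl), x ∈ VE A Nl q M e Bl kl hNl hBl hq a'
      ↔ mapL0 A φ hint x ∈ VE A Nu q M (e + 1) Bu ku hNu hBu hq a)
    (hcompat : ∀ (x : ↥(VE A Nl q M e Bl kl hNl hBl hq a'))
      (hx : mapL0 A φ hint (x : ↥(L0 A Nl)) ∈ VE A Nu q M (e + 1) Bu ku hNu hBu hq a),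
      sE A Nu q M (e + 1) Bu ku hNu hBu hq a ⟨_, hx⟩ = sE A Nl q M e Bl kl hNl hBl hq a' x)
    (huniq : UniqAlong (mapL0 A φ hint) (VE A Nu q M (e + 1) Bu ku hNu hBu hq a))
    (h : ↥(L0 A Nu)) (hh : h ∈ VE A Nu q M (e + 1) Bu ku hNu hBu hq a) :
    ∃ hm : nmE A φ hint hfin h ∈ VE A Nl q M e Bl kl hNl hBl hq a',
      sE A Nl q M e Bl kl hNl hBl hq a' ⟨_, hm⟩
        = sE A Nu q M (e + 1) Bu ku hNu hBu hq a ⟨h, hh⟩ ^ q := by
  haveI := expChar_series A q hq hA
  have hle : modularFunctionFieldBar M ≤ modularFunctionFieldBar Nl :=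
    Fermat.Agent.S45.NUE.H17.hleE Nl q M e hNl
  have hpi : ∀ x : ↥(VE A Nu q M (e + 1) Bu ku hNu hBu hq a),
      ∃ y : ↥(VE A Nl q M e Bl kl hNl hBl hq a'),
        sE A Nu q M (e + 1) Bu ku hNu hBu hq a x ^ q
          = RingHom.id (LaurentSeries (kV A)) (sE A Nl q M e Bl kl hNl hBl hq a' y) := by
    intro x
    obtain ⟨y, hy⟩ := Fermat.Agent.S45.NUE.H17.exists_sE_eq A Nl q M e Bl kl hNl hBl hq hqM hA
      hle a' ha' _ (pow_mem (hmem x) q)
    exact ⟨y, hy.symm⟩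
  obtain ⟨hm, e1⟩ := norm_single A φ hint hfin _ _ hV huniq q
    (sE A Nu q M (e + 1) Bu ku hNu hBu hq a) (sE A Nl q M e Bl kl hNl hBl hq a')
    (RingHom.id _) (sE_eq_zero_of_not_isUnit A Nu q M (e + 1) Bu ku hNu hBu hq a)
    hcompat hpi h hh
  refine ⟨hm, ?_⟩
  rw [hdeg] at e1
  exact e1

include hdeg in
/-- **NORM-RED for a single component, inseparable shape** (`e = 1`, `f = q`). -/
theorem norm_single_insep (hqM : ¬ q ∣ M) (hA : A.LiesOverPrime q) (a a' : ℕ) (ha' : a' ≤ e)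
    (hmem : ∀ x : ↥(VE A Nu q M (e + 1) Bu ku hNu hBu hq a),
      sE A Nu q M (e + 1) Bu ku hNu hBu hq a x ∈ modularFunctionFieldFullC (kV A) M)
    (hV : ∀ x : ↥(L0 A Nl), x ∈ VE A Nl q M e Bl kl hNl hBl hq a'
      ↔ mapL0 A φ hint x ∈ VE A Nu q M (e + 1) Bu ku hNu hBu hq a)
    (hcompat : ∀ (x : ↥(VE A Nl q M e Bl kl hNl hBl hq a'))
      (hx : mapL0 A φ hint (x : ↥(L0 A Nl)) ∈ VE A Nu q M (e + 1) Bu ku hNu hBu hq a),
      sE A Nu q M (e + 1) Bu ku hNu hBu hq a ⟨_, hx⟩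
        = qExpand (kV A) q (sE A Nl q M e Bl kl hNl hBl hq a' x))
    (huniq : UniqAlong (mapL0 A φ hint) (VE A Nu q M (e + 1) Bu ku hNu hBu hq a))
    (h : ↥(L0 A Nu)) (hh : h ∈ VE A Nu q M (e + 1) Bu ku hNu hBu hq a) :
    ∃ hm : nmE A φ hint hfin h ∈ VE A Nl q M e Bl kl hNl hBl hq a',
      qExpand (kV A) q (sE A Nl q M e Bl kl hNl hBl hq a' ⟨_, hm⟩)
        = sE A Nu q M (e + 1) Bu ku hNu hBu hq a ⟨h, hh⟩ ^ q := by
  haveI := expChar_series A q hq hA
  haveI : Fact q.Prime := ⟨hq⟩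
  haveI : CharP (kV A) q := Fermat.Agent.BAD.H82.charP_kV A hq hA
  haveI : PerfectRing (kV A) q := Fermat.Agent.BAD.H73.perfectRing_kV A q
  have hle : modularFunctionFieldBar M ≤ modularFunctionFieldBar Nl :=
    Fermat.Agent.S45.NUE.H17.hleE Nl q M e hNl
  have hpi : ∀ x : ↥(VE A Nu q M (e + 1) Bu ku hNu hBu hq a),
      ∃ y : ↥(VE A Nl q M e Bl kl hNl hBl hq a'),
        sE A Nu q M (e + 1) Bu ku hNu hBu hq a x ^ q
          = qExpand (kV A) q (sE A Nl q M e Bl kl hNl hBl hq a' y) := by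
    intro x
    have h1 : Fermat.Agent.BAD.H73.frobL (kV A) q (sE A Nu q M (e + 1) Bu ku hNu hBu hq a x)
        ∈ modularFunctionFieldFullC (kV A) M :=
      (Fermat.Agent.BAD.H73.frobStable_fullC (k := kV A) q M).frobL_mem (hmem x)
    obtain ⟨y, hy⟩ := Fermat.Agent.S45.NUE.H17.exists_sE_eq A Nl q M e Bl kl hNl hBl hq hqM hA
      hle a' ha' _ h1
    refine ⟨y, ?_⟩
    rw [hy]
    exact Fermat.Agent.BAD.H73.pow_eq_qExpand_frobL (k := kV A) (q := q) _
  obtain ⟨hm, e1⟩ := norm_single A φ hint hfin _ _ hV huniq q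
    (sE A Nu q M (e + 1) Bu ku hNu hBu hq a) (sE A Nl q M e Bl kl hNl hBl hq a')
    (qExpand (kV A) q) (sE_eq_zero_of_not_isUnit A Nu q M (e + 1) Bu ku hNu hBu hq a)
    hcompat hpi h hh
  refine ⟨hm, ?_⟩
  rw [hdeg] at e1
  exact e1

end Mod

end Fermat.Agent.S45.NUE.H33
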