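import Fermat.Agent.S45.NUE.H33_UniqPI
import Fermat.Agent.S45.NUE.H51_ValVecEAbs
import Fermat.Agent.S36.NU.H26_DivNormL0

/-!
# S45 / NU_e, package E-NORM (helper33): NORM-RED for a single component, semi-abstract form

`φ : F_M → F_N` commuting with the arithmetic Galois action and finite (`α`, `β`), `W` a valuation
ring of `L0 A N` which is the ONLY one above `V = W ∩ L0 A M` (along `φ`), `s : W → Ω`,
`s' : V → Ω` residue maps into a field of characteristic `p` with `s (φ x) = T (s' x)`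
(`T = id` or `T = (t ↦ t ^ q)`), and `s x ^ p ∈ T (s' V)` for all `x ∈ W`.  Then

  `T (s' (N_φ h)) = s (h) ^ [F_N : F_M]`   for all `h ∈ W`.

* `norm_single` : the statement above;
* `unit_of_cover` : the norm of a unit for all the valuation rings of a cover of the fibre above
  `V` is a unit of `V`.
-/

set_option autoImplicit false
set_option linter.style.haveILetI false
set_option linter.unusedSectionVars false
set_option synthInstance.maxHeartbeats 400000
set_option maxHeartbeats 1000000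

noncomputable section

namespace Fermat.Agent.S45.NUE.H33

open AlgebraicCurve ModularCurve Fermat.Agent.S24 Fermat.Agent.Lib.HeckeComm
  Fermat.Agent.S36.H44 Fermat.Agent.BAD Fermat.Agent.S36.NU.H23 Fermat.Agent.BAD.H88
  Fermat.Agent.S36.NU.H26 Fermat.Agent.S45.NUE.H51

section Single

variable (A : ValuationSubring Kbar) {M N : ℕ} [NeZero M] [NeZero N]
  (φ : FN M →ₐ[Kbar] FN N) (hint : ArithEquivariant φ) (hfin : FiniteAlong Kbar φ)

/-- The norm along `φ` of an inertia-fixed function, as an inertia-fixed function. -/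
def nmE (h : ↥(L0 A N)) : ↥(L0 A M) :=
  ⟨normAlongHom φ.toRingHom (h : FN N), norm_mem_L0 A φ hint hfin _ h.2⟩

theorem coe_nmE (h : ↥(L0 A N)) :
    ((nmE A φ hint hfin h : ↥(L0 A M)) : FN M) = normAlongHom φ.toRingHom (h : FN N) := rfl

theorem nmE_eq_norm (h : ↥(L0 A N)) :
    nmE A φ hint hfin h = (letI := algL0Along A φ hint; Algebra.norm ↥(L0 A M) h) :=
  Subtype.ext (norm_L0_along A φ hint hfin h)

/-- **NORM-RED for a single component** (UNIQ-PI along `φ`). -/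
theorem norm_single (V : ValuationSubring ↥(L0 A M)) (W : ValuationSubring ↥(L0 A N))
    (hV : ∀ x : ↥(L0 A M), x ∈ V ↔ mapL0 A φ hint x ∈ W)
    (huniq : UniqAlong (mapL0 A φ hint) W)
    {Ω : Type*} [Field Ω] (p : ℕ) [ExpChar Ω p]
    (s : ↥W →+* Ω) (s' : ↥V →+* Ω) (T : Ω →+* Ω)
    (hker : ∀ x : ↥W, ¬ IsUnit x → s x = 0)
    (hcompat : ∀ (x : ↥V) (hx : mapL0 A φ hint (x : ↥(L0 A M)) ∈ W), s ⟨_, hx⟩ = T (s' x))
    (hpi : ∀ x : ↥W, ∃ y : ↥V, s x ^ p = T (s' y))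
    (h : ↥(L0 A N)) (hh : h ∈ W) :
    ∃ hm : nmE A φ hint hfin h ∈ V,
      T (s' ⟨_, hm⟩) = s ⟨h, hh⟩ ^ finrankAlong Kbar φ := by
  letI := algL0Along A φ hint
  haveI : Module.Finite ↥(L0 A M) ↥(L0 A N) := finite_L0_along A φ hint hfin
  have hV' : ∀ a : ↥(L0 A M), a ∈ V ↔ algebraMap ↥(L0 A M) ↥(L0 A N) a ∈ W := hV
  have huniq' : ∀ W' : ValuationSubring ↥(L0 A N),
      (∀ a : ↥(L0 A M), a ∈ V → algebraMap ↥(L0 A M) ↥(L0 A N) a ∈ W') → W' ≠ ⊤ → W' = W :=
    fun W' hW' hne => huniq W' (fun a ha => hW' a ((hV a).2 ha)) hne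
  have hpi' : ∀ x : ↥W, ∃ y : ↥V,
      s x ^ p = s (incVW V W (fun a ha => (hV' a).1 ha) y) := by
    intro x
    obtain ⟨y, hy⟩ := hpi x
    refine ⟨y, ?_⟩
    rw [hy]
    exact (hcompat y ((hV' _).1 y.2)).symm
  obtain ⟨hN, e⟩ := red_norm_of_unique_pi V W hV' huniq' p s hker hpi' h hh
  have hN' : mapL0 A φ hint (nmE A φ hint hfin h) ∈ W := by
    rw [nmE_eq_norm]
    exact hN
  have hm : nmE A φ hint hfin h ∈ V := (hV _).2 hN'
  refine ⟨hm, ?_⟩
  rw [← hcompat ⟨_, hm⟩ hN']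
  have e1 : (⟨mapL0 A φ hint (nmE A φ hint hfin h), hN'⟩ : ↥W)
      = ⟨algebraMap ↥(L0 A M) ↥(L0 A N) (Algebra.norm ↥(L0 A M) h), hN⟩ := by
    apply Subtype.ext
    show mapL0 A φ hint (nmE A φ hint hfin h) = _
    rw [nmE_eq_norm]
    rfl
  rw [e1, e]
  congr 1
  exact finrank_L0_along A φ hint hfin

/-- **UNIT**: the norm of a unit for all the valuation rings above `V` is a unit of `V`. -/
theorem unit_of_cover (V : ValuationSubring ↥(L0 A M)) {ι : Type*}
    (Ws : ι → ValuationSubring ↥(L0 A N))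
    (hcov : ∀ W' : ValuationSubring ↥(L0 A N),
      (∀ a : ↥(L0 A M), a ∈ V → mapL0 A φ hint a ∈ W') → W' ≠ ⊤ → ∃ i, W' = Ws i)
    (h : ↥(L0 A N)) (hu : ∀ i, h ∈ Ws i) (hu' : ∀ i, h⁻¹ ∈ Ws i) :
    nmE A φ hint hfin h ∈ V ∧ (nmE A φ hint hfin h)⁻¹ ∈ V := by
  letI := algL0Along A φ hint
  haveI : Module.Finite ↥(L0 A M) ↥(L0 A N) := finite_L0_along A φ hint hfin
  rw [nmE_eq_norm]
  exact norm_unit_of_cover V Ws hcov h hu hu'

end Single

end Fermat.Agent.S45.NUE.H33
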