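import Fermat.Agent.S45.NUE.H33_NormFinal
import Fermat.Agent.S45.NUE.H31_AlphaBeta3

/-!
# S45 / NU_e, package E-NORM (helper33): the reductions of `α y`, `β y`, unconditional

`redInputs : RedInputs …` from helper31's `hcompat_alpha_le/gt`, `hcompat_beta_le/gt`
(N1 RESTR), in helper51's convention (levels `M₁ q = M' q ^ e`, `M₁ q q = M' q ^ (e + 1)`).
-/

set_option autoImplicit false
set_option linter.style.haveILetI false
set_option linter.unusedSectionVars false
set_option linter.unusedVariables false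
set_option synthInstance.maxHeartbeats 400000
set_option maxHeartbeats 1000000

noncomputable section

namespace Fermat.Agent.S45.NUE.H33

open AlgebraicCurve ModularCurve Fermat.Agent.S24 Fermat.Agent.Lib.HeckeComm
  Fermat.Agent.S36.H44 Fermat.Agent.BAD Fermat.Agent.BAD.H88
  Fermat.Agent.S36.NU.H26 Fermat.Agent.S45.NUE.H51 Fermat.Agent.S45.NUE.H23
  Fermat.Agent.S28 Fermat.Agent.S28.H73 Fermat.Agent.RED.H73 Fermat.Agent.RED.H17

section RedInst

variable (A : ValuationSubring Kbar) (q M₁ M' el : ℕ) [NeZero M₁] [NeZero q] [NeZero M']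
  [NeZero (M₁ * q)] [NeZero (M₁ * q * q)] (hq : q.Prime)
  (hNl : M₁ * q = M' * q ^ el) (hNu : M₁ * q * q = M' * q ^ (el + 1))
  (Bl kl : ℤ) (hBl : Bl * M' + kl * (q : ℤ) ^ el = 1)
  (Bu ku : ℤ) (hBu : Bu * M' + ku * (q : ℤ) ^ (el + 1) = 1)

/-- **The reductions of `α y`, `β y`** (N1 RESTR, helper31), unconditional. -/
theorem redInputs : RedInputs A q M₁ M' el hq hNl hNu Bl kl hBl Bu ku hBu where
  redα_le := fun a h2 y hy =>
    Fermat.Agent.S45.NUE.H31.hcompat_alpha_le A (M₁ * q) q M' el Bl kl Bu ku hNl hBl hNu hBu hq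
      a h2 y hy
  redα_gt := fun a h2 _ y hy =>
    Fermat.Agent.S45.NUE.H31.hcompat_alpha_gt A (M₁ * q) q M' el Bl kl Bu ku hNl hBl hNu hBu hq
      a h2 y hy
  redβ_le := fun a h1 h2 y hy =>
    Fermat.Agent.S45.NUE.H31.hcompat_beta_le A (M₁ * q) q M' el Bl kl Bu ku hNl hBl hNu hBu hq
      a h1 h2 y hy
  redβ_gt := fun a h2 _ y hy =>
    Fermat.Agent.S45.NUE.H31.hcompat_beta_gt A (M₁ * q) q M' el Bl kl Bu ku hNl hBl hNu hBu hq
      a h2 y hy

end RedInst

end Fermat.Agent.S45.NUE.H33
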