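import Fermat.Agent.S36.NU.H51_NormUniq

/-!
# S45 / NU_e, package E-NORM (helper33): NORM-RED for a unique extension with purely inseparable
residue extension (UNIQ-PI)

`L / E` finite, `V` a valuation ring of `E`, `W` the ONLY valuation ring `≠ L` of `L` above `V`
(`V = W ∩ E`).  No uniformiser, no discreteness, no ramification index, no residue degree:

* `minpoly_map_residue` : if `h ∈ W` is congruent to `c ∈ V` modulo the maximal ideal of `W`,
  then the minimal polynomial of `h` over `V` reduces to `(X - c̄) ^ m` (lying over for the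
  integral extension `V[X] → W`, `W` local);
* `norm_eq_coeff_pow` : `N_{L/E} h = ((-1) ^ m · μ_h (0)) ^ [L : E(h)]`;
* `norm_near` : `h ≡ c` modulo the maximal ideal of `W` ⟹ `N h ≡ c ^ [L : E]` modulo the maximal
  ideal of `V`;
* `red_norm_of_unique_pi` (**UNIQ-PI**) : for a residue map `r : W → Ω` (`Ω` a field of
  characteristic `p`) such that every `r x ^ p` is the residue of an element of `V` (the residue
  extension is trivial or purely inseparable of exponent one): `r (N h) = r (h) ^ [L : E]`.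

Modular use (levels `M' q ^ e ⊂ M' q ^ (e + 1)`): all the single components along `α` and `β`,
of both shapes (wild: `e = q`, `f = 1`; inseparable: `e = 1`, `f = q`).
-/

set_option autoImplicit false
set_option linter.style.haveILetI false
set_option linter.unusedSectionVars false

noncomputable section

namespace Fermat.Agent.S45.NUE.H33

open Polynomial IntermediateField

section Abs

variable {E L : Type} [Field E] [Field L] [Algebra E L]
  (V : ValuationSubring E) (W : ValuationSubring L)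

/-- The inclusion `V → W`. -/
def incVW (hVW : ∀ a : E, a ∈ V → algebraMap E L a ∈ W) : ↥V →+* ↥W where
  toFun a := ⟨algebraMap E L (a : E), hVW a a.2⟩
  map_one' := Subtype.ext (map_one _)
  map_mul' _ _ := Subtype.ext (map_mul _ _ _)
  map_zero' := Subtype.ext (map_zero _)
  map_add' _ _ := Subtype.ext (map_add _ _ _)

theorem coe_incVW (hVW : ∀ a : E, a ∈ V → algebraMap E L a ∈ W) (a : ↥V) :
    ((incVW V W hVW a : ↥W) : L) = algebraMap E L (a : E) := rfl

theorem subtype_comp_incVW (hVW : ∀ a : E, a ∈ V → algebraMap E L a ∈ W) :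
    W.subtype.comp (incVW V W hVW) = algebraMap ↥V L := by
  ext a
  rfl

/-- `W` is integral over `V`, for a unique extension. -/
theorem incVW_isIntegral (hVW : ∀ a : E, a ∈ V → algebraMap E L a ∈ W)
    (huniq : ∀ W' : ValuationSubring L, (∀ a : E, a ∈ V → algebraMap E L a ∈ W') → W' ≠ ⊤ →
      W' = W) : (incVW V W hVW).IsIntegral := by
  intro w
  obtain ⟨p, hp, hpw⟩ := Fermat.Agent.S36.NU.H51.isIntegral_of_unique V W huniq (w : L) w.2
  refine ⟨p, hp, ?_⟩
  apply Subtype.ext
  have h1 := Polynomial.hom_eval₂ p (incVW V W hVW) W.subtype w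
  rw [subtype_comp_incVW] at h1
  exact h1.trans hpw

/-- **The minimal polynomial of an element congruent to `c ∈ V`** reduces to a power of
`X - c̄`, for a unique extension. -/
theorem minpoly_map_residue (hVW : ∀ a : E, a ∈ V → algebraMap E L a ∈ W)
    (huniq : ∀ W' : ValuationSubring L, (∀ a : E, a ∈ V → algebraMap E L a ∈ W') → W' ≠ ⊤ →
      W' = W) (h : L) (hh : h ∈ W) (c : ↥V)
    (hc : W.valuation (h - algebraMap E L (c : E)) < 1) :
    (minpoly ↥V h).map (IsLocalRing.residue ↥V)
      = (X - C (IsLocalRing.residue ↥V c)) ^ (minpoly ↥V h).natDegree := by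
  classical
  have hint : IsIntegral ↥V h := Fermat.Agent.S36.NU.H51.isIntegral_of_unique V W huniq h hh
  have hιint := incVW_isIntegral V W hVW huniq
  set ι : ↥V →+* ↥W := incVW V W hVW with hι
  set ev : (↥V)[X] →+* ↥W := Polynomial.eval₂RingHom ι ⟨h, hh⟩ with hev
  have hevC : ∀ a : ↥V, ev (C a) = ι a := fun a => by
    rw [hev, Polynomial.coe_eval₂RingHom, Polynomial.eval₂_C]
  have hevX : ev X = ⟨h, hh⟩ := by
    rw [hev, Polynomial.coe_eval₂RingHom, Polynomial.eval₂_X]
  have hevcomp : ev.comp C = ι := RingHom.ext hevC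
  have hevint : ev.IsIntegral :=
    RingHom.IsIntegral.tower_top C ev (by rw [hevcomp]; exact hιint)
  set 𝔪 : Ideal ↥V := IsLocalRing.maximalIdeal ↥V with h𝔪
  set 𝔞 : Ideal (↥V)[X] := Ideal.map C 𝔪 ⊔ RingHom.ker ev with h𝔞
  have hrad : X - C c ∈ 𝔞.radical := by
    rw [Ideal.radical_eq_sInf, Ideal.mem_sInf]
    rintro 𝔭 ⟨hle, h𝔭⟩
    letI : Algebra (↥V)[X] ↥W := ev.toAlgebra
    haveI : Algebra.IsIntegral (↥V)[X] ↥W := ⟨hevint⟩
    haveI := h𝔭
    obtain ⟨𝔔, h𝔔, hcomap⟩ := Ideal.exists_ideal_over_prime_of_isIntegral_of_isDomain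
      (S := ↥W) 𝔭 (le_sup_right.trans hle)
    have hcomap' : Ideal.comap ev 𝔔 = 𝔭 := hcomap
    have hcomapV : Ideal.comap ι 𝔔 = 𝔪 := by
      have h1 : 𝔪 ≤ Ideal.comap ι 𝔔 := by
        intro a ha
        have h2 : C a ∈ 𝔭 := hle (Ideal.mem_sup_left (Ideal.mem_map_of_mem C ha))
        rw [← hcomap', Ideal.mem_comap, hevC] at h2
        exact h2
      have h2 : Ideal.comap ι 𝔔 ≠ ⊤ := Ideal.comap_ne_top ι h𝔔.ne_top
      exact ((IsLocalRing.maximalIdeal.isMaximal ↥V).eq_of_le h2 h1).symm
    have hmax : 𝔔.IsMaximal :=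
      Ideal.isMaximal_of_isIntegral_of_isMaximal_comap' ι hιint 𝔔
        (by rw [hcomapV]; exact IsLocalRing.maximalIdeal.isMaximal ↥V)
    have h𝔔eq : 𝔔 = IsLocalRing.maximalIdeal ↥W := IsLocalRing.eq_maximalIdeal hmax
    have ht : ((⟨h, hh⟩ : ↥W) - ι c) ∈ 𝔔 := by
      rw [h𝔔eq, ValuationSubring.valuation_lt_one_iff]
      exact hc
    rw [← hcomap', Ideal.mem_comap, map_sub, hevX, hevC]
    exact ht
  obtain ⟨n, hn⟩ := hrad
  obtain ⟨Q, hQ, G, hG, hsum⟩ := Submodule.mem_sup.1 hn
  have hG0 : Polynomial.aeval h G = 0 := by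
    have h1 : ev G = 0 := hG
    have h2 := Polynomial.hom_eval₂ G ι W.subtype ⟨h, hh⟩
    rw [subtype_comp_incVW] at h2
    rw [Polynomial.aeval_def]
    refine Eq.trans h2.symm ?_
    have h3 : Polynomial.eval₂ ι ⟨h, hh⟩ G = ev G := rfl
    rw [h3, h1, map_zero]
  have hdvd : minpoly ↥V h ∣ G := minpoly.isIntegrallyClosed_dvd hint hG0
  have hQ0 : Q.map (IsLocalRing.residue ↥V) = 0 := by
    ext i
    rw [coeff_map, coeff_zero, IsLocalRing.residue_eq_zero_iff]
    exact Ideal.mem_map_C_iff.1 hQ i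
  have hpow : ((X - C c) ^ n).map (IsLocalRing.residue ↥V)
      = G.map (IsLocalRing.residue ↥V) := by
    rw [← hsum, Polynomial.map_add, hQ0, zero_add]
  have hdvd' : (minpoly ↥V h).map (IsLocalRing.residue ↥V)
      ∣ (X - C (IsLocalRing.residue ↥V c)) ^ n := by
    have h1 := Polynomial.map_dvd (IsLocalRing.residue ↥V) hdvd
    rw [← hpow, Polynomial.map_pow, Polynomial.map_sub, Polynomial.map_X, Polynomial.map_C]
      at h1
    exact h1
  obtain ⟨i, -, hi⟩ := (dvd_prime_pow (Polynomial.prime_X_sub_C _) n).1 hdvd'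
  have hmon : ((minpoly ↥V h).map (IsLocalRing.residue ↥V)).Monic := (minpoly.monic hint).map _
  have heq := Polynomial.eq_of_monic_of_associated hmon ((monic_X_sub_C _).pow i) hi
  have hdeg : i = (minpoly ↥V h).natDegree := by
    have h1 := congrArg natDegree heq
    rw [(minpoly.monic hint).natDegree_map, natDegree_pow, natDegree_X_sub_C, mul_one] at h1
    exact h1.symm
  rw [heq, hdeg]

end Abs

section Norm

variable {E L : Type} [Field E] [Field L] [Algebra E L] [Module.Finite E L]
  (V : ValuationSubring E) (W : ValuationSubring L)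

/-- The norm from the constant coefficient of the minimal polynomial over `V`. -/
theorem norm_eq_coeff_pow (h : L) (hint : IsIntegral ↥V h) :
    Algebra.norm E h
      = (((-1) ^ (minpoly ↥V h).natDegree * (minpoly ↥V h).coeff 0 : ↥V) : E)
        ^ Module.finrank E⟮h⟯ L := by
  have hintE : IsIntegral E h := IsIntegral.of_finite E h
  have hmin : minpoly E h = (minpoly ↥V h).map (algebraMap ↥V E) :=
    minpoly.isIntegrallyClosed_eq_field_fractions' E hint
  rw [Algebra.norm_eq_norm_adjoin E h]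
  congr 1
  have h1 := Algebra.PowerBasis.norm_gen_eq_coeff_zero_minpoly (adjoin.powerBasis hintE)
  rw [adjoin.powerBasis_gen, adjoin.powerBasis_dim, minpoly_gen, hmin, coeff_map,
    (minpoly.monic hint).natDegree_map] at h1
  rw [h1]
  push_cast
  rfl

/-- `[E(h) : E] [L : E(h)] = [L : E]`, with the degree of the minimal polynomial over `V`. -/
theorem natDegree_mul_finrank (h : L) (hint : IsIntegral ↥V h) :
    (minpoly ↥V h).natDegree * Module.finrank E⟮h⟯ L = Module.finrank E L := by
  have hintE : IsIntegral E h := IsIntegral.of_finite E h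
  have hmin : minpoly E h = (minpoly ↥V h).map (algebraMap ↥V E) :=
    minpoly.isIntegrallyClosed_eq_field_fractions' E hint
  rw [← Module.finrank_mul_finrank E E⟮h⟯ L, adjoin.finrank hintE, hmin,
    (minpoly.monic hint).natDegree_map]

/-- **NORM-RED for a unique extension, near an element of `V`**: if `h ≡ c` modulo the maximal
ideal of `W`, `c ∈ V`, then `N h ≡ c ^ [L : E]` modulo the maximal ideal of `V`. -/
theorem norm_near (hVW : ∀ a : E, a ∈ V → algebraMap E L a ∈ W)
    (huniq : ∀ W' : ValuationSubring L, (∀ a : E, a ∈ V → algebraMap E L a ∈ W') → W' ≠ ⊤ →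
      W' = W) (h : L) (hh : h ∈ W) (c : ↥V)
    (hc : W.valuation (h - algebraMap E L (c : E)) < 1) :
    ∃ y : ↥V, Algebra.norm E h = (y : E) ∧
      IsLocalRing.residue ↥V y = IsLocalRing.residue ↥V c ^ Module.finrank E L := by
  have hint : IsIntegral ↥V h := Fermat.Agent.S36.NU.H51.isIntegral_of_unique V W huniq h hh
  refine ⟨((-1) ^ (minpoly ↥V h).natDegree * (minpoly ↥V h).coeff 0) ^ Module.finrank E⟮h⟯ L,
    ?_, ?_⟩
  · rw [norm_eq_coeff_pow V h hint]
    rfl
  · have h1 := minpoly_map_residue V W hVW huniq h hh c hc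
    have h2 : IsLocalRing.residue ↥V ((minpoly ↥V h).coeff 0)
        = (-(IsLocalRing.residue ↥V c)) ^ (minpoly ↥V h).natDegree := by
      rw [← coeff_map, h1, coeff_zero_eq_eval_zero, eval_pow, eval_sub, eval_X, eval_C,
        zero_sub]
    rw [map_pow, map_mul, map_pow, map_neg, map_one, h2, ← mul_pow, neg_one_mul, neg_neg,
      ← pow_mul, natDegree_mul_finrank V h hint]

/-- **UNIQ-PI: NORM-RED for a unique extension with trivial or purely inseparable residue
extension.**  `W` the only valuation ring `≠ L` of `L` above `V = W ∩ E`, `r : W → Ω` a ring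
homomorphism into a field of characteristic exponent `p` which vanishes on the non-units, such
that `r x ^ p` is the image of an element of `V` for every `x ∈ W`.  Then
`r (N h) = r (h) ^ [L : E]` for all `h ∈ W`. -/
theorem red_norm_of_unique_pi (hV : ∀ a : E, a ∈ V ↔ algebraMap E L a ∈ W)
    (huniq : ∀ W' : ValuationSubring L, (∀ a : E, a ∈ V → algebraMap E L a ∈ W') → W' ≠ ⊤ →
      W' = W) {Ω : Type*} [Field Ω] (p : ℕ) [ExpChar Ω p] (r : ↥W →+* Ω)
    (hker : ∀ x : ↥W, ¬ IsUnit x → r x = 0)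
    (hpi : ∀ x : ↥W, ∃ y : ↥V, r x ^ p = r (incVW V W (fun a ha => (hV a).1 ha) y))
    (h : L) (hh : h ∈ W) :
    ∃ hN : algebraMap E L (Algebra.norm E h) ∈ W,
      r ⟨_, hN⟩ = r ⟨h, hh⟩ ^ Module.finrank E L := by
  have hVW : ∀ a : E, a ∈ V → algebraMap E L a ∈ W := fun a ha => (hV a).1 ha
  set ι : ↥V →+* ↥W := incVW V W hVW with hι
  have hN0 : Algebra.norm E h ∈ V :=
    Fermat.Agent.S36.NU.H51.norm_mem_of_unique V W huniq h hh
  -- `r ∘ ι` kills the maximal ideal of `V`
  have hnu : ∀ a : ↥V, a ∈ IsLocalRing.maximalIdeal ↥V → r (ι a) = 0 := by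
    intro a ha
    apply hker
    intro hu
    rw [ValuationSubring.valuation_eq_one_iff] at hu
    have hu' : W.valuation (algebraMap E L (a : E)) = 1 := hu
    by_cases ha0 : (a : E) = 0
    · rw [ha0, map_zero, map_zero] at hu'
      exact zero_ne_one hu'
    · have h1 : (algebraMap E L (a : E))⁻¹ ∈ W := by
        rw [← ValuationSubring.valuation_le_one_iff, map_inv₀, hu', inv_one]
      rw [← map_inv₀, ← hV] at h1
      have h2 : IsUnit a := by
        refine IsUnit.of_mul_eq_one (⟨(a : E)⁻¹, h1⟩ : ↥V) ?_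
        apply Subtype.ext
        show (a : E) * (a : E)⁻¹ = 1
        exact mul_inv_cancel₀ ha0
      exact ha h2
  have hres : ∀ a b : ↥V, IsLocalRing.residue ↥V a = IsLocalRing.residue ↥V b →
      r (ι a) = r (ι b) := by
    intro a b hab
    have h1 : a - b ∈ IsLocalRing.maximalIdeal ↥V := by
      rw [← IsLocalRing.residue_eq_zero_iff, map_sub, hab, sub_self]
    have h2 := hnu _ h1
    rw [map_sub, map_sub, sub_eq_zero] at h2
    exact h2
  obtain ⟨y, hy⟩ := hpi ⟨h, hh⟩
  -- `h ^ p ≡ y`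
  have hc : W.valuation (h ^ p - algebraMap E L (y : E)) < 1 := by
    have h1 : r ((⟨h, hh⟩ : ↥W) ^ p - ι y) = 0 := by
      rw [map_sub, map_pow, hy, sub_self]
    have h2 : ¬ IsUnit ((⟨h, hh⟩ : ↥W) ^ p - ι y) := fun hu => (hu.map r).ne_zero h1
    have h3 : ((⟨h, hh⟩ : ↥W) ^ p - ι y) ∈ IsLocalRing.maximalIdeal ↥W := h2
    rw [ValuationSubring.valuation_lt_one_iff] at h3
    exact h3
  obtain ⟨y', hy'1, hy'2⟩ := norm_near V W hVW huniq (h ^ p) (pow_mem hh p) y hc
  set z : ↥V := ⟨Algebra.norm E h, hN0⟩ with hz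
  have hzp : z ^ p = y' := by
    apply Subtype.ext
    show (Algebra.norm E h) ^ p = (y' : E)
    rw [← map_pow, hy'1]
  refine ⟨hVW _ hN0, ?_⟩
  have h1 : r (ι z) ^ p = (r ⟨h, hh⟩ ^ Module.finrank E L) ^ p := by
    rw [← map_pow, ← map_pow, hzp, hres y' (y ^ Module.finrank E L) (by rw [hy'2, map_pow]),
      map_pow, map_pow, ← hy, ← pow_mul, ← pow_mul, mul_comm]
  exact frobenius_inj Ω p h1

end Norm

section Cover

variable {E L : Type} [Field E] [Field L] [Algebra E L]
  (V : ValuationSubring E) {ι : Type*} (Ws : ι → ValuationSubring L)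

/-- The elements of `⋂ Ws i` are integral over `V`, if the `Ws i` are the only valuation rings
`≠ L` containing `V`. -/
theorem isIntegral_of_cover
    (hcov : ∀ W' : ValuationSubring L, (∀ a : E, a ∈ V → algebraMap E L a ∈ W') → W' ≠ ⊤ →
      ∃ i, W' = Ws i) (u : L) (hu : ∀ i, u ∈ Ws i) : IsIntegral ↥V u := by
  set s : Set L := Set.range (fun a : ↥V => algebraMap E L (a : E)) with hs
  have h1 : u ∈ (⨅ V' : {V' : ValuationSubring L // s ⊆ V'.toSubring}, V'.1.toSubring) := by
    rw [Subring.mem_iInf]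
    rintro ⟨W', hW'⟩
    by_cases htop : W' = ⊤
    · show u ∈ W'
      rw [htop]; trivial
    · obtain ⟨i, e⟩ := hcov W' (fun a ha => hW' ⟨⟨a, ha⟩, rfl⟩) htop
      show u ∈ W'
      rw [e]; exact hu i
  rw [iInf_valuationSubring_superset] at h1
  have h2 : IsIntegral ↥(Subring.closure s) u := h1
  obtain ⟨p, hp, hpu⟩ := h2
  let f : ↥V →+* L := (algebraMap E L).comp V.subtype
  have hcl : Subring.closure s = f.range := by
    apply le_antisymm
    · rw [Subring.closure_le]
      rintro _ ⟨a, rfl⟩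
      exact ⟨a, rfl⟩
    · rintro _ ⟨a, rfl⟩
      exact Subring.subset_closure ⟨a, rfl⟩
  have hlift : p.map (Subring.closure s).subtype ∈ Polynomial.lifts f := by
    rw [Polynomial.lifts_iff_coeff_lifts]
    intro n
    rw [Polynomial.coeff_map]
    have : ((p.coeff n : ↥(Subring.closure s)) : L) ∈ f.range := by
      rw [← hcl]; exact (p.coeff n).2
    exact this
  have hmon : (p.map (Subring.closure s).subtype).Monic := hp.map _
  obtain ⟨r, hr, -, hrm⟩ := Polynomial.lifts_and_degree_eq_and_monic hlift hmon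
  refine ⟨r, hrm, ?_⟩
  have h3 : Polynomial.eval₂ f u r = Polynomial.eval₂ (Subring.closure s).subtype u p := by
    rw [← Polynomial.eval_map, hr, Polynomial.eval_map]
  have h4 : Polynomial.eval₂ (algebraMap ↥V L) u r = Polynomial.eval₂ f u r := rfl
  rw [h4, h3]
  exact hpu

variable [Module.Finite E L]

/-- The norm maps `⋂ Ws i` into `V`. -/
theorem norm_mem_of_cover
    (hcov : ∀ W' : ValuationSubring L, (∀ a : E, a ∈ V → algebraMap E L a ∈ W') → W' ≠ ⊤ →
      ∃ i, W' = Ws i) (u : L) (hu : ∀ i, u ∈ Ws i) : Algebra.norm E u ∈ V := by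
  have h1 : IsIntegral ↥V u := isIntegral_of_cover V Ws hcov u hu
  have h2 : IsIntegral ↥V (Algebra.norm E u) := Algebra.isIntegral_norm E h1
  obtain ⟨y, hy⟩ := (IsIntegrallyClosed.isIntegral_iff (R := ↥V) (K := E)).1 h2
  rw [← hy]
  exact y.2

/-- **UNIT**: the norm of a unit for all the valuation rings above `V` is a unit of `V`. -/
theorem norm_unit_of_cover
    (hcov : ∀ W' : ValuationSubring L, (∀ a : E, a ∈ V → algebraMap E L a ∈ W') → W' ≠ ⊤ →
      ∃ i, W' = Ws i) (u : L) (hu : ∀ i, u ∈ Ws i) (hu' : ∀ i, u⁻¹ ∈ Ws i) :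
    Algebra.norm E u ∈ V ∧ (Algebra.norm E u)⁻¹ ∈ V := by
  refine ⟨norm_mem_of_cover V Ws hcov u hu, ?_⟩
  by_cases hu0 : u = 0
  · rw [hu0, Algebra.norm_zero, inv_zero]
    exact zero_mem V
  · have h1 : Algebra.norm E u * Algebra.norm E u⁻¹ = 1 := by
      rw [← map_mul, mul_inv_cancel₀ hu0, map_one]
    rw [← eq_inv_of_mul_eq_one_right h1]
    exact norm_mem_of_cover V Ws hcov u⁻¹ hu'

end Cover

end Fermat.Agent.S45.NUE.H33
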