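import Fermat.Agent.S45.NUE.H33_NormSingle
import Fermat.Agent.S45.NUE.H51_CoverAbs

/-!
# S45 / NU_e, package E-NORM (helper33): the fibres of the valuations and the field `SideE.unit`

With helper51's abstract inputs (`ThreeAlong`, the restriction table `φ y ∈ V j ↔ y ∈ V' (r j)`,
the `V' a` pairwise incomparable, `BaseSwap` for `β`):

* `fibre_of_three`, `fibre_of_three_swap` : every valuation ring `≠ ⊤` of `L` above `V' a'` along
  `φ` is some `V j` with `r j = a'` (all the fibres, not only the single ones);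
* `unit_of_three`, `unit_of_three_swap` : for `φ : F_M → F_N` (`α`, `β`) and `h ∈ L0 A N` a unit
  for all the `V j`, the norm `N_φ h` is a unit for all the `V' a'` (field `unit` of
  `H79.SideE`; no norm formula is needed).
-/

set_option autoImplicit false
set_option linter.style.haveILetI false
set_option linter.unusedSectionVars false
set_option synthInstance.maxHeartbeats 400000
set_option maxHeartbeats 1000000

noncomputable section

namespace Fermat.Agent.S45.NUE.H33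

open AlgebraicCurve ModularCurve Fermat.Agent.S24 Fermat.Agent.Lib.HeckeComm
  Fermat.Agent.S36.H44 Fermat.Agent.BAD Fermat.Agent.S36.NU.H23 Fermat.Agent.BAD.H88
  Fermat.Agent.S36.NU.H26 Fermat.Agent.S45.NUE.H51

section Fibre

variable {E₀ E₁ E L : Type} [Field E₀] [Field E₁] [Field E] [Field L]
  {ι ι' : Type}

/-- The index of the restriction from the table. -/
theorem index_of_table (φ : E →+* L) (V : ι → ValuationSubring L)
    (V' : ι' → ValuationSubring E) (r : ι → ι')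
    (htab : ∀ (j : ι) (y : E), φ y ∈ V j ↔ y ∈ V' (r j))
    (hinc' : ∀ a b, a ≠ b → ¬ V' a ≤ V' b) (a' : ι') (j : ι)
    (h : ∀ y ∈ V' a', φ y ∈ V j) : r j = a' := by
  by_contra hne
  exact hinc' a' (r j) (fun e => hne e.symm) (fun y hy => (htab j y).1 (h y hy))

/-- **The fibre above `V' a'` along `φ`** from THREE, if the base field lies in `φ E`. -/
theorem fibre_of_three (φ : E →+* L) (ψ' : E₀ →+* E) (V₀ : ValuationSubring E₀)
    (V : ι → ValuationSubring L) (hthree : ThreeAlong (φ.comp ψ') V₀ V)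
    (V' : ι' → ValuationSubring E) (hinc' : ∀ a b, a ≠ b → ¬ V' a ≤ V' b)
    (hbase' : ∀ a', ∀ a ∈ V₀, ψ' a ∈ V' a') (r : ι → ι')
    (htab : ∀ (j : ι) (y : E), φ y ∈ V j ↔ y ∈ V' (r j)) (a' : ι')
    (W' : ValuationSubring L) (hW' : ∀ y ∈ V' a', φ y ∈ W') (htop : W' ≠ ⊤) :
    ∃ j, r j = a' ∧ W' = V j := by
  obtain ⟨j, hj⟩ := hthree W' htop (fun a ha => hW' _ (hbase' a' a ha))
  exact ⟨j, index_of_table φ V V' r htab hinc' a' j (fun y hy => hj ▸ hW' y hy), hj⟩

/-- **The fibre above `V' a'` along `β`** from THREE along `α ^ (e + 1)`, through the first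
level. -/
theorem fibre_of_three_swap (β : E →+* L) (ψ : E₀ →+* L) (ψ' : E₀ →+* E)
    (ι₁ : E₁ →+* L) (α₁ β₁ : E₀ →+* E₁) (hψ : ∀ a, ψ a = ι₁ (α₁ a))
    (hβ : ∀ a, β (ψ' a) = ι₁ (β₁ a)) (V₀ : ValuationSubring E₀)
    (hswap : BaseSwap α₁ β₁ V₀) (V : ι → ValuationSubring L) (hthree : ThreeAlong ψ V₀ V)
    (V' : ι' → ValuationSubring E) (hinc' : ∀ a b, a ≠ b → ¬ V' a ≤ V' b)
    (hbase' : ∀ a', ∀ a ∈ V₀, ψ' a ∈ V' a') (r : ι → ι')
    (htab : ∀ (j : ι) (y : E), β y ∈ V j ↔ y ∈ V' (r j)) (a' : ι')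
    (W' : ValuationSubring L) (hW' : ∀ y ∈ V' a', β y ∈ W') (htop : W' ≠ ⊤) :
    ∃ j, r j = a' ∧ W' = V j := by
  have h1 : ∀ a ∈ V₀, β₁ a ∈ W'.comap ι₁ := fun a ha => by
    rw [ValuationSubring.mem_comap, ← hβ]
    exact hW' _ (hbase' a' a ha)
  have h2 := hswap (W'.comap ι₁) h1
  obtain ⟨j, hj⟩ := hthree W' htop (fun a ha => by
    rw [hψ]
    exact ValuationSubring.mem_comap.1 (h2 a ha))
  exact ⟨j, index_of_table β V V' r htab hinc' a' j (fun y hy => hj ▸ hW' y hy), hj⟩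

end Fibre

section Unit

variable (A : ValuationSubring Kbar) {M N : ℕ} [NeZero M] [NeZero N]
  (φ : FN M →ₐ[Kbar] FN N) (hint : ArithEquivariant φ) (hfin : FiniteAlong Kbar φ)
  {ι ι' : Type}

/-- **UNIT from the fibres**: if every valuation ring `≠ ⊤` of `L0 A N` above `V' a'` along `φ`
is one of the `V j`, the norm of a unit for all the `V j` is a unit for `V' a'`. -/
theorem unit_of_fibre (V : ι → ValuationSubring ↥(L0 A N)) (V' : ValuationSubring ↥(L0 A M))
    (hfib : ∀ W' : ValuationSubring ↥(L0 A N),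
      (∀ y ∈ V', mapL0 A φ hint y ∈ W') → W' ≠ ⊤ → ∃ j, W' = V j)
    (h : ↥(L0 A N)) (hu : ∀ j, h ∈ V j) (hu' : ∀ j, h⁻¹ ∈ V j) :
    nmE A φ hint hfin h ∈ V' ∧ (nmE A φ hint hfin h)⁻¹ ∈ V' :=
  unit_of_cover A φ hint hfin V' V (fun W' hW' htop => hfib W' hW' htop) h hu hu'

end Unit

end Fermat.Agent.S45.NUE.H33
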