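import Mathlib

/-!
# S45, E-TOT, leaf T7 ARITH (helper3): the sum of the multiplicities

`sum_mE : ∑ a : Fin (e+1), φ (q ^ min a (e - a)) * q ^ (e - 2 a) = q ^ e + q ^ (e - 1)`
(`q` prime, `0 < e`; natural subtraction): the cusps of `Γ₀(q ^ e)` counted with their widths
give the index `ψ(q ^ e) = q ^ e + q ^ (e - 1)`.
-/

set_option autoImplicit false

namespace Fermat.Agent.S45.NUE.H3

open Finset

/-- `∑_{j ≤ n} φ (q ^ j) = q ^ n`. -/
theorem sum_totient_pow (q : ℕ) (hq : q.Prime) (n : ℕ) :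
    ∑ j ∈ range (n + 1), Nat.totient (q ^ j) = q ^ n := by
  rw [← Nat.sum_divisors_prime_pow (f := Nat.totient) hq, Nat.sum_totient]

/-- The part `2 a < e` of the sum, telescoped. -/
theorem sum_first (q : ℕ) (hq : q.Prime) (e : ℕ) : ∀ m : ℕ, 2 * m + 1 ≤ e →
    ∑ a ∈ range (m + 1), Nat.totient (q ^ a) * q ^ (e - 2 * a) + q ^ (e - m - 1)
      = q ^ e + q ^ (e - 1) := by
  intro m
  induction m with
  | zero =>
    intro _
    simp
  | succ m ih =>
    intro hm
    have ih' := ih (by omega)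
    rw [sum_range_succ]
    obtain ⟨t, rfl⟩ := Nat.exists_eq_add_of_le hm
    obtain ⟨r, hr⟩ : ∃ r, q = r + 1 := ⟨q - 1, by have := hq.pos; omega⟩
    have h1 : 2 * (m + 1) + 1 + t - 2 * (m + 1) = t + 1 := by omega
    have h2 : 2 * (m + 1) + 1 + t - (m + 1) - 1 = m + 1 + t := by omega
    have h3 : 2 * (m + 1) + 1 + t - m - 1 = m + 2 + t := by omega
    rw [h3] at ih'
    rw [h1, h2, Nat.totient_prime_pow_succ hq, ← ih']
    have key : q ^ m * (q - 1) * q ^ (t + 1) + q ^ (m + 1 + t) = q ^ (m + 2 + t) := by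
      subst hr
      simp only [Nat.add_sub_cancel]
      ring
    rw [add_assoc, key]

/-- **T7 ARITH**: the sum of the multiplicities `m_a = φ (q ^ min a (e - a)) q ^ (e - 2 a)`
over `a = 0, …, e` is `q ^ e + q ^ (e - 1)`. -/
theorem sum_mE (q e : ℕ) (hq : q.Prime) (he : 0 < e) :
    ∑ a : Fin (e + 1), Nat.totient (q ^ min (a : ℕ) (e - a)) * q ^ (e - 2 * a)
      = q ^ e + q ^ (e - 1) := by
  rw [Fin.sum_univ_eq_sum_range
    (fun a => Nat.totient (q ^ min a (e - a)) * q ^ (e - 2 * a)) (e + 1)]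
  -- the cut `h = ⌈e / 2⌉`
  obtain ⟨m, hm⟩ : ∃ m, (e + 1) / 2 = m + 1 := ⟨(e + 1) / 2 - 1, by omega⟩
  have hme : 2 * m + 1 ≤ e := by omega
  have hle : m + 1 ≤ e + 1 := by omega
  rw [← sum_range_add_sum_Ico _ hle]
  have hA : ∑ a ∈ range (m + 1), Nat.totient (q ^ min a (e - a)) * q ^ (e - 2 * a)
      = ∑ a ∈ range (m + 1), Nat.totient (q ^ a) * q ^ (e - 2 * a) := by
    refine sum_congr rfl fun a ha => ?_
    have ha' : a < m + 1 := mem_range.mp ha
    have : min a (e - a) = a := by omega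
    rw [this]
  have hB : ∑ a ∈ Ico (m + 1) (e + 1), Nat.totient (q ^ min a (e - a)) * q ^ (e - 2 * a)
      = ∑ a ∈ Ico (m + 1) (e + 1), Nat.totient (q ^ (e - a)) := by
    refine sum_congr rfl fun a ha => ?_
    obtain ⟨ha1, ha2⟩ := mem_Ico.mp ha
    have h1 : min a (e - a) = e - a := by omega
    have h2 : e - 2 * a = 0 := by omega
    rw [h1, h2, pow_zero, mul_one]
  have hB' : ∑ a ∈ Ico (m + 1) (e + 1), Nat.totient (q ^ (e - a)) = q ^ (e - m - 1) := by
    rw [sum_Ico_reflect (fun b => Nat.totient (q ^ b)) (m + 1) (le_refl (e + 1))]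
    have h1 : e + 1 - (e + 1) = 0 := by omega
    have h2 : e + 1 - (m + 1) = (e - m - 1) + 1 := by omega
    rw [h1, h2, Nat.Ico_zero_eq_range, sum_totient_pow q hq]
  rw [hA, hB, hB', sum_first q hq e m hme]

end Fermat.Agent.S45.NUE.H3
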