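import Fermat.Agent.S36.NU.H74_FinHyps

/-!
# S45 / NU_e, package E-FIN, leaf E-PT-HYPS (helper41): the point hypotheses, abstract form

The hypotheses `hnc`, `hsurj`, `hSSchar` of `pointData_of_dichotomy` for a chart `C` over a
conservation datum `T` with ANY number of components, from the following data of the special
fibre (to be supplied by E-VAL / E-TOT / E-PT-ORD):

* `C0` : the residue field of the lower level (a function field over `k`), `Z = Place k C0`;
* `φ i : C0 →+* κ i` : the embeddings of `C0` into the residue fields of the components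
  (identity or a power of Frobenius), compatible with the constants;
* `(T.pt i z).ord (φ i y) = e i * z.ord y` with `e i > 0`;
* `rd i j = φ i j~`, `j~` not constant;
* a power of `rd i (wit i)` is `φ i (hU ^ n)`, `n > 0` (`hU ≠ 0` the Hasse function);
* the supersingular points are the `z` with `j~` regular and `hU` vanishing at `z`.

Main statements: `hnc_abs`, `hSSchar_abs`, `ptHyps_abs`.
-/

set_option autoImplicit false
set_option linter.style.haveILetI false
set_option linter.unusedSectionVars false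

noncomputable section

open AlgebraicCurve

namespace Fermat.Agent.S45.NUE.H41P

open Fermat.Agent.RED.H17 Fermat.Agent.RED Fermat.Agent.S36.NU.H16 Fermat.Agent.S36.NU.H79

section Abs

variable {R F k ι K L C0 : Type*} {κ : ι → Type*} [CommRing R] [Field F] [Algebra R F]
  [Field k] [∀ i, Field (κ i)] [∀ i, Algebra k (κ i)] [Fintype ι]
  [Field K] [Field L] [Algebra K L] [Algebra F L] [Field C0] [Algebra k C0]

variable (C : Chart R F k ι κ) (T : TotN K F L k ι (Place k C0) κ)
  (φ : ∀ i, C0 →+* κ i) (e : ι → ℕ)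

/-- **(hnc)**: the reduction of `j` is not constant on any component. -/
theorem hnc_abs (hφk : ∀ i (c : k), φ i (algebraMap k C0 c) = algebraMap k (κ i) c)
    (jB : C.B) (jbar : C0) (hj : ∀ i, C.rdB i jB = φ i jbar)
    (hjnc : ∀ c : k, jbar ≠ algebraMap k C0 c) :
    ∀ i, ∃ β : C.B, ∀ c : k, C.rdB i β ≠ algebraMap k (κ i) c := by
  intro i
  refine ⟨jB, fun c hc => hjnc c ?_⟩
  rw [hj i, ← hφk i c] at hc
  exact (φ i).injective hc

/-- Regularity of `rd i j` at `pt i z` gives regularity of `j~` at `z`. -/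
theorem ord_nonneg_of_regAt (he : ∀ i, 0 < e i)
    (hord : ∀ i (z : Place k C0) (y : C0), (T.pt i z).ord (φ i y) = (e i : ℤ) * z.ord y)
    {i : ι} {z : Place k C0} {y : C0} (h : RegAt (T.pt i z) (φ i y)) : 0 ≤ z.ord y := by
  have h1 := h.ord_nonneg
  rw [hord] at h1
  have h2 : (0 : ℤ) < (e i : ℤ) := by exact_mod_cast he i
  exact nonneg_of_mul_nonneg_right h1 h2

/-- Vanishing at `pt i z` of an element with a power `φ i (u ^ n)` gives vanishing of `u` at
`z`. -/
theorem ord_pos_of_vanAt (he : ∀ i, 0 < e i)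
    (hord : ∀ i (z : Place k C0) (y : C0), (T.pt i z).ord (φ i y) = (e i : ℤ) * z.ord y)
    {i : ι} {z : Place k C0} {u : C0} (hu : u ≠ 0) {x : κ i} {m n : ℕ} (hm : 0 < m)
    (hx : x ^ m = φ i (u ^ n)) (h : VanAt (T.pt i z) x) : 0 < z.ord u := by
  have hx0 : x ≠ 0 := by
    rintro rfl
    rw [zero_pow hm.ne'] at hx
    exact (map_ne_zero (φ i)).2 (pow_ne_zero n hu) hx.symm
  have h1 : 0 < (T.pt i z).ord x := h.ord_pos hx0
  have h2 : (T.pt i z).ord (x ^ m) = (m : ℤ) * (T.pt i z).ord x := ord_pow _ _ _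
  rw [hx, hord, ord_pow] at h2
  have hm' : (0 : ℤ) < (m : ℤ) := by exact_mod_cast hm
  have he' : (0 : ℤ) < (e i : ℤ) := by exact_mod_cast he i
  have h3 : (0 : ℤ) < (e i : ℤ) * ((n : ℤ) * z.ord u) := by
    rw [h2]
    exact mul_pos hm' h1
  have h4 : (0 : ℤ) < (n : ℤ) * z.ord u := pos_of_mul_pos_right h3 he'.le
  exact pos_of_mul_pos_right h4 (Int.natCast_nonneg n)

/-- **(hSSchar)**: a point of a component at which all functions of the chart are regular and the
witness of the component vanishes is supersingular. -/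
theorem hSSchar_abs (he : ∀ i, 0 < e i)
    (hord : ∀ i (z : Place k C0) (y : C0), (T.pt i z).ord (φ i y) = (e i : ℤ) * z.ord y)
    (jB : C.B) (jbar : C0) (hj : ∀ i, C.rdB i jB = φ i jbar)
    (hU : C0) (hU0 : hU ≠ 0) (wit : ι → C.B)
    (hwit : ∀ i, ∃ m n : ℕ, 0 < m ∧ C.rdB i (wit i) ^ m = φ i (hU ^ n))
    (SS : Set (Place k C0)) (hSS : ∀ z : Place k C0, 0 ≤ z.ord jbar → 0 < z.ord hU → z ∈ SS) :
    ∀ (i : ι) (z : Place k C0), (∀ β : C.B, RegAt (T.pt i z) (C.rdB i β)) →
      VanAt (T.pt i z) (C.rdB i (wit i)) → z ∈ SS := by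
  intro i z hreg hvan
  obtain ⟨m, n, hm, hx⟩ := hwit i
  refine hSS z ?_ ?_
  · have h := hreg jB
    rw [hj i] at h
    exact ord_nonneg_of_regAt T φ e he hord h
  · exact ord_pos_of_vanAt T φ e he hord hU0 hm hx hvan

/-- **The three point hypotheses**, abstract form. -/
theorem ptHyps_abs (hφk : ∀ i (c : k), φ i (algebraMap k C0 c) = algebraMap k (κ i) c)
    (he : ∀ i, 0 < e i)
    (hord : ∀ i (z : Place k C0) (y : C0), (T.pt i z).ord (φ i y) = (e i : ℤ) * z.ord y)
    (hpt : ∀ i, Function.Surjective (T.pt i))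
    (jB : C.B) (jbar : C0) (hj : ∀ i, C.rdB i jB = φ i jbar)
    (hjnc : ∀ c : k, jbar ≠ algebraMap k C0 c)
    (hU : C0) (hU0 : hU ≠ 0) (wit : ι → C.B)
    (hwit : ∀ i, ∃ m n : ℕ, 0 < m ∧ C.rdB i (wit i) ^ m = φ i (hU ^ n))
    (SS : Set (Place k C0)) (hSS : ∀ z : Place k C0, 0 ≤ z.ord jbar → 0 < z.ord hU → z ∈ SS) :
    (∀ i, ∃ β : C.B, ∀ c : k, C.rdB i β ≠ algebraMap k (κ i) c) ∧
    (∀ (i : ι) (v : Place k (κ i)), (∀ β : C.B, RegAt v (C.rdB i β)) → ∃ z, T.pt i z = v) ∧
    (∀ (i : ι) (z : Place k C0), (∀ β : C.B, RegAt (T.pt i z) (C.rdB i β)) →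
      VanAt (T.pt i z) (C.rdB i (wit i)) → z ∈ SS) :=
  ⟨hnc_abs C φ hφk jB jbar hj hjnc, fun i v _ => hpt i v,
    hSSchar_abs C T φ e he hord jB jbar hj hU hU0 wit hwit SS hSS⟩

end Abs

end Fermat.Agent.S45.NUE.H41P
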