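import Fermat.Agent.S45.NUE.H41_PtHypsE
import Fermat.Agent.S36.NU.H41_PtHyps

/-!
# S45 / NU_e, package E-FIN, leaf E-PT-HYPS (helper41): Frobenius twists on the residue field
of the tame level

`C0 = FM A M` (`q ∤ M`), `Fr = FrM` (`t ↦ t ^ q`), `β = betaM`, `hU = Δ~(t) / Δ~(t ^ q)`,
`j~ = H91.jRed A M`.

* `iterate_betaM_ord_FrM : ord_{β^w z} (Fr^w y) = q ^ w * ord_z y`  (the hypothesis `hord` of
  `H41P.ptHyps_abs` for a component with structure map `Fr^w`, `e i = q ^ w`);
* `iterate_betaM_surjective`;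
* `iterate_FrM_hU : Fr^w (hU ^ n) = (hU ^ n) ^ (q ^ w)`  (so a witness with reduction `hU ^ n`
  satisfies `hwit` with `m = q ^ w`);
* `iterate_FrM_ne_const : Fr^w (j~)` is not constant;
* `mem_ssM_of_ord'` : the set `SS = H74.ssM A q M` satisfies `hSS`.
-/

set_option autoImplicit false
set_option synthInstance.maxHeartbeats 400000
set_option maxHeartbeats 1000000
set_option linter.style.haveILetI false
set_option linter.unusedSectionVars false

noncomputable section

open ModularCurve AlgebraicCurve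

namespace Fermat.Agent.S45.NUE.H41P

open Fermat.Agent.S24 Fermat.Agent.BAD.H88 Fermat.Agent.S28 Fermat.Agent.S28.H73
  Fermat.Agent.RED.H73 Fermat.Agent.RED.H17 Fermat.Agent.S36.NU.H88 Fermat.Agent.S36.NU.H23
  Fermat.Agent.S36.NU.H74 Fermat.Agent.BAD Fermat.Agent.RED

section Twist

variable (A : ValuationSubring Kbar) (q M : ℕ) (hq : q.Prime)
  [NeZero M] [NeZero q] [NeZero (M * q)] [NeZero (M * q * q)] (hqM : ¬ q ∣ M)
  (hA : A.LiesOverPrime q)

/-- `ord_{β z} (Fr y) = q * ord_z y`. -/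
theorem betaM_ord_FrM (z : Place (kV A) (FM A M)) (y : FM A M) :
    (betaM A q M hq hqM hA z).ord (FrM A q M hq hqM hA y) = (q : ℤ) * z.ord y :=
  @Fermat.Agent.BAD.H73.beta_ord_Fr (kV A) _ q ⟨hq⟩ (Fermat.Agent.BAD.H82.charP_kV A hq hA)
    (@Fermat.Agent.BAD.H73.perfectRing_kV _ _ _ A q ⟨hq⟩
      (Fermat.Agent.BAD.H82.charP_kV A hq hA)) _ (frobStable_FM A q M hq hqM hA) z y

/-- `ord_{β^w z} (Fr^w y) = q ^ w * ord_z y`. -/
theorem iterate_betaM_ord_FrM (w : ℕ) (z : Place (kV A) (FM A M)) (y : FM A M) :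
    ((betaM A q M hq hqM hA)^[w] z).ord ((FrM A q M hq hqM hA)^[w] y)
      = ((q ^ w : ℕ) : ℤ) * z.ord y := by
  induction w generalizing z y with
  | zero => simp
  | succ w ih =>
    rw [Function.iterate_succ_apply', Function.iterate_succ_apply', betaM_ord_FrM, ih]
    push_cast
    ring

theorem iterate_betaM_surjective (w : ℕ) :
    Function.Surjective ((betaM A q M hq hqM hA)^[w]) :=
  ((betaM A q M hq hqM hA).bijective.iterate w).surjective

theorem iterate_FrM_injective (w : ℕ) :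
    Function.Injective ((FrM A q M hq hqM hA)^[w]) :=
  Function.Injective.iterate (FrM A q M hq hqM hA).toRingHom.injective w

/-- `Fr^w` as a ring homomorphism. -/
def FrMW (w : ℕ) : FM A M →+* FM A M :=
  ((FrM A q M hq hqM hA : FM A M →ₐ[kV A] FM A M) : FM A M →+* FM A M) ^ w

theorem FrMW_apply (w : ℕ) (y : FM A M) :
    FrMW A q M hq hqM hA w y = (FrM A q M hq hqM hA)^[w] y := by
  unfold FrMW
  rw [RingHom.coe_pow]
  rfl

theorem FrMW_algebraMap (w : ℕ) (c : kV A) :
    FrMW A q M hq hqM hA w (algebraMap (kV A) (FM A M) c) = algebraMap (kV A) (FM A M) c := by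
  rw [FrMW_apply]
  induction w with
  | zero => rfl
  | succ w ih => rw [Function.iterate_succ_apply', ih, AlgHom.commutes]

theorem ord_FrMW (w : ℕ) (z : Place (kV A) (FM A M)) (y : FM A M) :
    ((betaM A q M hq hqM hA)^[w] z).ord (FrMW A q M hq hqM hA w y)
      = ((q ^ w : ℕ) : ℤ) * z.ord y := by
  rw [FrMW_apply, iterate_betaM_ord_FrM]

/-- `Fr^w (hU ^ n) = (hU ^ n) ^ (q ^ w)`. -/
theorem FrMW_hU_pow (w n : ℕ) :
    FrMW A q M hq hqM hA w (Fermat.Agent.S36.NU.H41.hU A q M hq hqM hA ^ n)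
      = (Fermat.Agent.S36.NU.H41.hU A q M hq hqM hA ^ n) ^ (q ^ w) := by
  induction w with
  | zero => rw [FrMW_apply, Function.iterate_zero_apply, pow_zero, pow_one]
  | succ w ih =>
    rw [FrMW_apply, Function.iterate_succ_apply', ← FrMW_apply, ih, map_pow, map_pow,
      Fermat.Agent.S36.NU.H41.FrM_hU A q M hq hqM hA, pow_succ q w]
    ring

/-- `Fr^w (j~)` is not constant. -/
theorem FrMW_jRed_ne_const (w : ℕ) (c : kV A) :
    FrMW A q M hq hqM hA w (H91.jRed A M) ≠ algebraMap (kV A) (FM A M) c := by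
  intro h
  rw [← FrMW_algebraMap A q M hq hqM hA w c] at h
  exact Fermat.Agent.S36.NU.H41.jRed_ne_const A M c
    ((FrMW A q M hq hqM hA w).injective h)

/-- The supersingular points: `j~` regular and `hU` vanishing. -/
theorem mem_ssM_of_ord' (z : Place (kV A) (FM A M)) (hj : 0 ≤ z.ord (H91.jRed A M))
    (hu : 0 < z.ord (Fermat.Agent.S36.NU.H41.hU A q M hq hqM hA)) : z ∈ ssM A q M :=
  Fermat.Agent.S36.NU.H41.mem_ssM_of_ord A q M hq hqM hA hj hu

end Twist

end Fermat.Agent.S45.NUE.H41P
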