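import Fermat.Agent.S45.NUE.H23_TotE4

/-!
# S45 / NU_e, package E-FIN, leaf E-PT-HYPS, cut `hsurj` (helper51)

The points of the components of the conservation datum `totEM` (helper23): `pt i = β^(wE e i)`
is a bijection of the places of the residue field `FM A M` of the tame level, because `β` is
(`H73.beta` is an `Equiv`).

* `betaWM_bijective`, `ptE_surjective`, `pt_totEM_surjective`;
* `hsurj_totEM` : **(hsurj)** of `H88.pointDataE_of_dichotomy` for ANY chart over `totEM`:
  `∀ i v, (…) → ∃ z, (totEM …).pt i z = v`  (the regularity hypothesis is not needed);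
* `hpt_totEM` : the hypothesis `hpt` of `H41P.ptHyps_abs`.
-/

set_option autoImplicit false
set_option synthInstance.maxHeartbeats 400000
set_option maxHeartbeats 1000000
set_option linter.unusedSectionVars false
set_option linter.unusedVariables false
set_option linter.style.haveILetI false

noncomputable section

open ModularCurve AlgebraicCurve

namespace Fermat.Agent.S45.NUE.H51

open Fermat.Agent.S24 Fermat.Agent.BAD.H88 Fermat.Agent.S28 Fermat.Agent.S28.H73
open Fermat.Agent.RED.H73 Fermat.Agent.RED.H17 Fermat.Agent.S36.NU.H88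
open Fermat.Agent.S36.NU.H23
open Fermat.Agent.BAD Fermat.Agent.RED Fermat.Agent.S36.NU.H79
open Fermat.Agent.S45.NUE.H23

section Hsurj

variable (A : ValuationSubring Kbar)
variable (N q M e : ℕ) (B k : ℤ) (hN : N = M * q ^ e) (hB : B * M + k * (q : ℤ) ^ e = 1)
  (hq : q.Prime) [NeZero N] [NeZero q] [NeZero M] (hqM : ¬ q ∣ M) (hA : A.LiesOverPrime q)
  (ht : H91.TameAt M q)

/-- `β^w` is a bijection of the places of the residue field of level `M`. -/
theorem betaWM_bijective (w : ℕ) : Function.Bijective (betaWM A q M hq hqM hA w) :=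
  (Equiv.bijective _).iterate w

/-- The points of the component `i` over the points of the curve of level `M`: surjective. -/
theorem ptE_surjective (i : Fin (e + 1)) (v : @Place (kV A) (kapE A M e i) _ _ (algkE A M e i)) :
    ∃ z : Place (kV A) (FM A M), ptE A q M e hq hqM hA i z = v :=
  (betaWM_bijective A q M hq hqM hA (wE e (i : ℕ))).surjective v

/-- `pt i` of the modular conservation datum is surjective. -/
theorem pt_totEM_surjective (he : 0 < e) (i : Fin (e + 1))
    (v : @Place (kV A) (kapE A M e i) _ _ (algkE A M e i)) :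
    ∃ z : Place (kV A) (FM A M),
      @TotN.pt Kbar ↥(L0 A N) (FN N) (kV A) (Fin (e + 1))
        (Place (kV A) (FM A M)) (kapE A M e) _ _ _ _ _ _ _ _ (algkE A M e)
        (totEM A N q M e B k hN hB hq hqM hA ht he) i z = v :=
  ptE_surjective A q M e hq hqM hA i v

/-- **(hsurj)** for the modular conservation datum (any hypothesis `P` on the point). -/
theorem hsurj_totEM (he : 0 < e)
    (P : ∀ i : Fin (e + 1), @Place (kV A) (kapE A M e i) _ _ (algkE A M e i) → Prop) :
    ∀ (i : Fin (e + 1)) (v : @Place (kV A) (kapE A M e i) _ _ (algkE A M e i)), P i v →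
      ∃ z : Place (kV A) (FM A M),
        @TotN.pt Kbar ↥(L0 A N) (FN N) (kV A) (Fin (e + 1))
          (Place (kV A) (FM A M)) (kapE A M e) _ _ _ _ _ _ _ _ (algkE A M e)
          (totEM A N q M e B k hN hB hq hqM hA ht he) i z = v :=
  fun i v _ => pt_totEM_surjective A N q M e B k hN hB hq hqM hA ht he i v

/-- The hypothesis `hpt` of `H41P.ptHyps_abs`. -/
theorem hpt_totEM (he : 0 < e) (i : Fin (e + 1)) :
    Function.Surjective
      (@TotN.pt Kbar ↥(L0 A N) (FN N) (kV A) (Fin (e + 1))
        (Place (kV A) (FM A M)) (kapE A M e) _ _ _ _ _ _ _ _ (algkE A M e)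
        (totEM A N q M e B k hN hB hq hqM hA ht he) i) :=
  fun v => pt_totEM_surjective A N q M e B k hN hB hq hqM hA ht he i v

end Hsurj

end Fermat.Agent.S45.NUE.H51
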