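import Fermat.Agent.S45.NUE.H51_CoverInst

/-!
# S45 / NU_e, package E-VV (helper51): `ValVecE` at the levels `lvlE M' q e` of E-TOP

* `exists_bezoutE` : Bezout coefficients `B M' + k q^e = 1` for `q ∤ M'`;
* `valVecE_lvlE` : **VALVEC_e at the level `lvlE M' q e`** (`2 ≤ e`, `q ∤ M'`), for the predicate
  `U x := ∀ a : Fin (e + 2), x ∈ VE (a) ∧ x⁻¹ ∈ VE (a)` of the `e + 2` valuations
  `VE a = H23.VE A (lvlE M' q e * q) q M' (e + 1) Bu ku hNu hBu hq a` of the upper level, for ANY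
  Bezout data `Bu`, `ku` (this is the second half of `Stmt_FinTopE q M' e`, with the predicate
  that `H65.finModE_charts_V` produces for `V := fun a : Fin (e + 2) => VE a`).
-/

set_option autoImplicit false
set_option synthInstance.maxHeartbeats 400000
set_option maxHeartbeats 1000000
set_option linter.unusedSectionVars false
set_option linter.unusedVariables false
set_option linter.style.haveILetI false

noncomputable section

namespace Fermat.Agent.S45.NUE.H51

open Fermat.Agent.S24 ModularCurve AlgebraicCurve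

local notation "L0" => Fermat.Agent.S36.NU.H23.L0

/-- Bezout coefficients for `M'` and `q ^ e`, `q ∤ M'`. -/
theorem exists_bezoutE {q : ℕ} (hq : q.Prime) {M' : ℕ} (hqM : ¬ q ∣ M') (e : ℕ) :
    ∃ B k : ℤ, B * (M' : ℤ) + k * (q : ℤ) ^ e = 1 := by
  have hco : Nat.Coprime M' (q ^ e) :=
    Nat.Coprime.pow_right e ((Nat.Prime.coprime_iff_not_dvd hq).mpr hqM).symm
  have h : IsCoprime ((M' : ℕ) : ℤ) (((q ^ e : ℕ)) : ℤ) := Nat.isCoprime_iff_coprime.mpr hco
  obtain ⟨u, v, huv⟩ := h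
  exact ⟨u, v, by rw [← huv]; push_cast; ring⟩

/-- **VALVEC_e at the level `lvlE M' q e`** (`2 ≤ e`, `q ∤ M'`): the second half of
`Stmt_FinTopE q M' e`, for the units of the `e + 2` valuations of the upper level. -/
theorem valVecE_lvlE (A : ValuationSubring Kbar) (q M' e : ℕ) [NeZero M'] [NeZero q]
    [NeZero (lvlE M' q e * q)]
    (hq : q.Prime) (hqM : ¬ q ∣ M') (he : 2 ≤ e) (hA : A.LiesOverPrime q)
    (hNu : lvlE M' q e * q = M' * q ^ (e + 1))
    (Bu ku : ℤ) (hBu : Bu * (M' : ℤ) + ku * (q : ℤ) ^ (e + 1) = 1) :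
    ValVecE A q (lvlE M' q e)
      (fun x => ∀ a : Fin (e + 2),
        x ∈ Fermat.Agent.S45.NUE.H23.VE A (lvlE M' q e * q) q M' (e + 1) Bu ku hNu hBu hq (a : ℕ)
        ∧ x⁻¹ ∈ Fermat.Agent.S45.NUE.H23.VE A (lvlE M' q e * q) q M' (e + 1) Bu ku hNu hBu hq
          (a : ℕ)) := by
  obtain ⟨e', rfl⟩ : ∃ e', e = e' + 1 := ⟨e - 1, by omega⟩
  obtain ⟨Bl, kl, hBl⟩ := exists_bezoutE hq hqM (e' + 1)
  haveI : NeZero (lvlE M' q e' * q) := ⟨lvlE_ne_zero (NeZero.ne M') (NeZero.ne q) (e' + 1)⟩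
  exact valVecE_mod_fin A q (lvlE M' q e') M' (e' + 1) hq (lvlE_eq M' q (e' + 1)) hNu Bl kl hBl
    Bu ku hBu hqM hA he

end Fermat.Agent.S45.NUE.H51
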