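import Fermat.Agent.S36.NU.H88_ChartOf

/-!
# S45 / NU_e, package E-CHART (helper54): separating elements, abstract form

`T : TotN K F L k ι Z κ` a conservation datum whose components are indexed by `idx : ι → ℕ`
(injective; modular: `idx (a, b) = a`, the number of `F`-steps of the component `F^a V^(e-a)`),
`j0`, `jE ∈ F` (modular: `j (τ)` and `j (q^e τ)`) with the reductions of the pattern `F^a V^(e-a)`:

* `2 a ≥ e` : `rd_a jE = (rd_a j0) ^ (q ^ (2 a - e))`,
* `2 a ≤ e` : `rd_a j0 = (rd_a jE) ^ (q ^ (e - 2 a))`,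

and the "primitive" one of the two reductions is not fixed by any power of Frobenius.  Then

* `tauSep e q j0 jE a' = j0 ^ (q ^ (2 a' - e)) - jE` (`2 a' ≥ e`), `j0 - jE ^ (q ^ (e - 2 a'))`
  (`2 a' < e`) reduces to `0` on the component `a'` and to a non-zero function on every other
  component (`rdN_tauSep_self`, `rdN_tauSep_ne`);
* `hinc_of_frob` : the hypothesis `hinc` of `S36.NU.H88.chartHyp_chartOf`;
* `chartHyp_of_frob` : `ChartHyp` for the chart `chartOf T j res h`.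

(S36, `e = 2`: `tauB = jdd - j0 ^ q ^ 2`, `tauA = jdd - j0`, `tauC = j0 - jdd ^ q ^ 2`.)
-/

set_option autoImplicit false
set_option linter.unusedSectionVars false
set_option linter.style.haveILetI false
set_option linter.unusedVariables false

noncomputable section

namespace Fermat.Agent.S45.NUE.H54

open Fermat.Agent.S36.NU.H16 Fermat.Agent.S36.NU.H17 Fermat.Agent.S36.NU.H24
  Fermat.Agent.S36.NU.H65 Fermat.Agent.S36.NU.H79 Fermat.Agent.S36.NU.H88

section Frob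

variable {E : Type*} [Field E] {q : ℕ}

/-- In characteristic `q`: `x ^ q ^ m ≠ x ^ q ^ m'` for `m ≠ m'` if no power of Frobenius fixes
`x`. -/
theorem pow_frob_ne [CharP E q] (hq : q.Prime) {x : E}
    (hx : ∀ m : ℕ, 0 < m → x ^ q ^ m ≠ x) {m m' : ℕ} (hm : m ≠ m') :
    x ^ q ^ m - x ^ q ^ m' ≠ 0 := by
  haveI : Fact q.Prime := ⟨hq⟩
  rcases Nat.lt_or_gt_of_ne hm with h | h
  · -- `m < m'`
    obtain ⟨d, rfl⟩ : ∃ d, m' = m + d := ⟨m' - m, by omega⟩
    have hd : 0 < d := by omega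
    have e1 : x ^ q ^ m - x ^ q ^ (m + d) = (x - x ^ q ^ d) ^ q ^ m := by
      rw [sub_pow_char_pow, ← pow_mul, ← pow_add, add_comm d m]
    rw [e1]
    exact pow_ne_zero _ (sub_ne_zero.2 (hx d hd).symm)
  · obtain ⟨d, rfl⟩ : ∃ d, m = m' + d := ⟨m - m', by omega⟩
    have hd : 0 < d := by omega
    have e1 : x ^ q ^ (m' + d) - x ^ q ^ m' = (x ^ q ^ d - x) ^ q ^ m' := by
      rw [sub_pow_char_pow, ← pow_mul, ← pow_add, add_comm d m']
    rw [e1]
    exact pow_ne_zero _ (sub_ne_zero.2 (hx d hd))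

end Frob

section Sep

variable {R K F L k ι Z : Type*} {κ : ι → Type*} [CommRing R] [Field K] [Field F] [Field L]
  [Algebra K L] [Algebra F L] [Algebra R F] [Field k] [Fintype ι] [∀ i, Field (κ i)]
  [∀ i, Algebra k (κ i)]

/-- The separating element of the component `a'`. -/
def tauSep (e q : ℕ) (j0 jE : F) (a' : ℕ) : F :=
  if e ≤ 2 * a' then j0 ^ q ^ (2 * a' - e) - jE else j0 - jE ^ q ^ (e - 2 * a')

theorem tauSep_mem (e q : ℕ) {j0 jE : F} (S : Subalgebra R F) (h0 : j0 ∈ S) (hE : jE ∈ S)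
    (a' : ℕ) : tauSep e q j0 jE a' ∈ S := by
  unfold tauSep
  split_ifs
  · exact S.sub_mem (S.pow_mem h0 _) hE
  · exact S.sub_mem h0 (S.pow_mem hE _)

theorem tauSep_mem_V (e q : ℕ) {j0 jE : F} (V : ValuationSubring F) (h0 : j0 ∈ V)
    (hE : jE ∈ V) (a' : ℕ) : tauSep e q j0 jE a' ∈ V := by
  unfold tauSep
  split_ifs
  · exact V.sub_mem (V.pow_mem h0 _) hE
  · exact V.sub_mem h0 (V.pow_mem hE _)

variable (T : TotN K F L k ι Z κ) (e q : ℕ) (idx : ι → ℕ) (j0 jE : F)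

/-- The hypotheses on the reductions of `j0` and `jE`: the pattern `F^a V^(e-a)`. -/
structure FrobPattern : Prop where
  q_prime : q.Prime
  charq : ∀ i, CharP (κ i) q
  idx_inj : Function.Injective idx
  mem0 : ∀ i, j0 ∈ T.V i
  memE : ∀ i, jE ∈ T.V i
  ge : ∀ i, e ≤ 2 * idx i → T.rdN i jE = T.rdN i j0 ^ q ^ (2 * idx i - e)
  le : ∀ i, 2 * idx i ≤ e → T.rdN i j0 = T.rdN i jE ^ q ^ (e - 2 * idx i)
  nc0 : ∀ i, e ≤ 2 * idx i → ∀ m : ℕ, 0 < m → T.rdN i j0 ^ q ^ m ≠ T.rdN i j0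
  ncE : ∀ i, 2 * idx i ≤ e → ∀ m : ℕ, 0 < m → T.rdN i jE ^ q ^ m ≠ T.rdN i jE

variable {T e q idx j0 jE}

theorem rdN_tauSep (P : FrobPattern T e q idx j0 jE) (i : ι) (a' : ℕ) :
    T.rdN i (tauSep e q j0 jE a') =
      if e ≤ 2 * a' then T.rdN i j0 ^ q ^ (2 * a' - e) - T.rdN i jE
      else T.rdN i j0 - T.rdN i jE ^ q ^ (e - 2 * a') := by
  unfold tauSep
  split_ifs
  · rw [T.rdN_sub ((T.V i).pow_mem (P.mem0 i) _) (P.memE i), T.rdN_pow (P.mem0 i)]
  · rw [T.rdN_sub (P.mem0 i) ((T.V i).pow_mem (P.memE i) _), T.rdN_pow (P.memE i)]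

/-- `τ_{a'}` vanishes on the component `a'`. -/
theorem rdN_tauSep_self (P : FrobPattern T e q idx j0 jE) (i' : ι) :
    T.rdN i' (tauSep e q j0 jE (idx i')) = 0 := by
  rw [rdN_tauSep P]
  split_ifs with h
  · rw [P.ge i' h, sub_self]
  · rw [P.le i' (by omega), sub_self]

/-- `τ_{a'}` does not vanish on the other components. -/
theorem rdN_tauSep_ne (P : FrobPattern T e q idx j0 jE) {i i' : ι} (hii : i ≠ i') :
    T.rdN i (tauSep e q j0 jE (idx i')) ≠ 0 := by
  haveI := P.charq i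
  have hq := P.q_prime
  have hne : idx i ≠ idx i' := fun h => hii (P.idx_inj h)
  rw [rdN_tauSep P]
  split_ifs with h'
  · -- `e ≤ 2 a'`
    by_cases h : e ≤ 2 * idx i
    · rw [P.ge i h]
      exact pow_frob_ne hq (P.nc0 i h) (by omega)
    · have hl : 2 * idx i ≤ e := by omega
      rw [P.le i hl, ← pow_mul, ← pow_add]
      exact sub_ne_zero.2 (P.ncE i hl _ (by omega))
  · -- `2 a' < e`
    by_cases h : e ≤ 2 * idx i
    · rw [P.ge i h, ← pow_mul, ← pow_add]
      exact sub_ne_zero.2 (P.nc0 i h _ (by omega)).symm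
    · have hl : 2 * idx i ≤ e := by omega
      rw [P.le i hl]
      exact pow_frob_ne hq (P.ncE i hl) (by omega)

/-- **The separating elements** (hypothesis `hinc` of `H88.chartHyp_chartOf`). -/
theorem hinc_of_frob (P : FrobPattern T e q idx j0 jE) (j : F)
    (hint0 : j0 ∈ intSub R j) (hintE : jE ∈ intSub R j) :
    ∀ i i' : ι, i ≠ i' → ∃ τ : F, τ ∈ intSub R j ∧ T.rdN i' τ = 0 ∧ T.rdN i τ ≠ 0 :=
  fun i i' hii => ⟨tauSep e q j0 jE (idx i'), tauSep_mem e q _ hint0 hintE _,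
    rdN_tauSep_self P i', rdN_tauSep_ne P hii⟩

/-- **`ChartHyp`** for the chart of `j` from the pattern `F^a V^(e-a)`. -/
theorem chartHyp_of_frob (P : FrobPattern T e q idx j0 jE) (j : F) (res : R →+* k)
    (h : ChartInput T j res) (hint0 : j0 ∈ intSub R j) (hintE : jE ∈ intSub R j)
    (n : ℕ) (hn : 0 < n) (hcop : Nat.Coprime n q) :
    ChartHyp (chartOf T j res h) q n :=
  chartHyp_chartOf T j res h q n P.q_prime P.charq hn hcop (hinc_of_frob P j hint0 hintE)

end Sep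

end Fermat.Agent.S45.NUE.H54
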