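import Fermat.Agent.S45.NUE.H73_Unif
import Fermat.Agent.S45.NUE.H23_ValE

/-!
# S45 / NU_e, package E-VAL-3 (helper57): RAM_a for the valuations `V_a` of the inertia-fixed
functions

`N = M q^e`, `B M + k q^e = 1`, `0 < a < e`, `m = min(a, e - a)`,
`π_a = j(q^(a + m) τ) - j(q^(a - m) τ)` (helper73's `H73.piE`), `VE a` helper23's valuation of
`L0 A N` at the cusp `1/(q^a M)`.

* `piAo` : `π_a` as an element of `L0 A N`;
* **`ramVE`** : `v_a(π_a)^φ(q^m) = v_a(q)` in `VE a`  (the S36 analogue is `H23.hram11`);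
* `ramVF` : the same in `VF a` with `(q : F_N)`;
* `val_q_lt_one` : `v_a(q) < 1` (every `a`);  `val_piAo_lt_one` : `v_a(π_a) < 1`;
  `piAo_ne_zero`; `piAo_mem`.
-/

set_option autoImplicit false
set_option synthInstance.maxHeartbeats 400000
set_option maxHeartbeats 1000000
set_option linter.unusedSectionVars false
set_option linter.style.haveILetI false

noncomputable section

namespace Fermat.Agent.S45.NUE.H57

open Fermat.Agent.S24 Fermat.Agent.BAD.H88 ModularCurve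
open Fermat.Agent.S28 Fermat.Agent.S28.H73 Fermat.Agent.RED.H73 Fermat.Agent.RED.H17
open Fermat.Agent.S36.NU.H88 Fermat.Agent.S36.NU.H23
open Fermat.Agent.S45.NUE.H23 Fermat.Agent.S45.NUE.H73

section RamVE

variable (A : ValuationSubring Kbar)
variable (N q M e : ℕ) (B k : ℤ) (hN : N = M * q ^ e) (hB : B * M + k * (q : ℤ) ^ e = 1)
  (hq : q.Prime) [NeZero N] [NeZero q]

/-- `π_a` as an inertia-fixed function. -/
def piAo (a : ℕ) (h1 : q ^ (a + min a (e - a)) ∣ N) (h2 : q ^ (a - min a (e - a)) ∣ N) :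
    ↥(L0 A N) :=
  ⟨H73.piE N q e a h1 h2, sub_mem (jdF_mem_L0 A N _ h1) (jdF_mem_L0 A N _ h2)⟩

theorem coe_piAo (a : ℕ) (h1 : q ^ (a + min a (e - a)) ∣ N) (h2 : q ^ (a - min a (e - a)) ∣ N) :
    ((piAo A N q e a h1 h2 : ↥(L0 A N)) : FN N) = H73.piE N q e a h1 h2 := rfl

theorem coe_natCast_L0 (n : ℕ) : (((n : ℕ) : ↥(L0 A N)) : FN N) = ((n : ℕ) : FN N) :=
  map_natCast (L0 A N).subtype n

/-- **RAM_a** on `F_N`, with `(q : F_N)`. -/
theorem ramVF (hA : (q : Kbar) ∈ A.nonunits) (a : ℕ) (ha1 : 1 ≤ a) (hae : a < e)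
    (h1 : q ^ (a + min a (e - a)) ∣ N) (h2 : q ^ (a - min a (e - a)) ∣ N) :
    (VF A N q M e B k hN hB hq a).valuation (H73.piE N q e a h1 h2)
        ^ Nat.totient (q ^ min a (e - a))
      = (VF A N q M e B k hN hB hq a).valuation ((q : ℕ) : FN N) := by
  haveI := neZero_nE N q M e B k hN hB hq a
  have h := H73.ramE A N q M e B k hN hB hq hA a ha1 hae h1 h2
  rw [map_natCast] at h
  exact h

/-- **RAM_a**: `v_a(π_a)^φ(q^m) = v_a(q)` for the valuation `V_a` of the inertia-fixed functions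
of level `M q^e`, `0 < a < e`, `m = min(a, e - a)`. -/
theorem ramVE (hA : (q : Kbar) ∈ A.nonunits) (a : ℕ) (ha1 : 1 ≤ a) (hae : a < e)
    (h1 : q ^ (a + min a (e - a)) ∣ N) (h2 : q ^ (a - min a (e - a)) ∣ N) :
    (VE A N q M e B k hN hB hq a).valuation (piAo A N q e a h1 h2)
        ^ Nat.totient (q ^ min a (e - a))
      = (VE A N q M e B k hN hB hq a).valuation ((q : ℕ) : ↥(L0 A N)) := by
  rw [← map_pow, VE_eq_resV0, valuation_resV0_eq_iff, coe_natCast_L0]
  have h := ramVF A N q M e B k hN hB hq hA a ha1 hae h1 h2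
  rw [← map_pow] at h
  exact h

/-- Constants of the maximal ideal have value `< 1`. -/
theorem val_const_lt_one_G {F : Type} [Field F] [Algebra Kbar F] (V : ValuationSubring F)
    (hV : ∀ c : Kbar, algebraMap Kbar F c ∈ V ↔ c ∈ A) (c : Kbar) (hc : c ∈ A.nonunits) :
    V.valuation (algebraMap Kbar F c) < 1 := by
  apply lt_of_le_of_ne
  · rw [ValuationSubring.valuation_le_one_iff, hV]
    exact ((A.mem_nonunits_iff_exists_mem_maximalIdeal).1 hc).1
  · intro h1
    have hc0 : algebraMap Kbar F c ≠ 0 := by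
      intro h0
      rw [h0, map_zero] at h1
      exact zero_ne_one h1
    have h2 : (algebraMap Kbar F c)⁻¹ ∈ V := by
      rw [← ValuationSubring.valuation_le_one_iff, map_inv₀, h1, inv_one]
    rw [← map_inv₀, hV] at h2
    have h3 : A.valuation c < 1 := (A.mem_nonunits_iff).1 hc
    have h4 : A.valuation c⁻¹ ≤ 1 := (ValuationSubring.valuation_le_one_iff _ _).2 h2
    rw [map_inv₀] at h4
    have hc0' : c ≠ 0 := fun h => hc0 (by rw [h, map_zero])
    have h5 := (inv_le_one₀ (zero_lt_iff.2 ((Valuation.ne_zero_iff _).2 hc0'))).1 h4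
    exact absurd h3 (not_lt.2 h5)

/-- `v_a(q) < 1` on `F_N` (every `a`). -/
theorem valF_q_lt_one (hA : (q : Kbar) ∈ A.nonunits) (a : ℕ) :
    (VF A N q M e B k hN hB hq a).valuation ((q : ℕ) : FN N) < 1 := by
  haveI := neZero_nE N q M e B k hN hB hq a
  rw [← map_natCast (algebraMap Kbar (FN N)) q]
  exact val_const_lt_one_G A _ (const_memG (hE N q M e B k hN hB hq a) A) _ hA

/-- `v_a(q) < 1` (every `a`). -/
theorem val_q_lt_one (hA : (q : Kbar) ∈ A.nonunits) (a : ℕ) :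
    (VE A N q M e B k hN hB hq a).valuation ((q : ℕ) : ↥(L0 A N)) < 1 := by
  rw [VE_eq_resV0, valuation_resV0_lt_one_iff, coe_natCast_L0]
  exact valF_q_lt_one A N q M e B k hN hB hq hA a

/-- `v_a(π_a) < 1`. -/
theorem val_piAo_lt_one (hA : (q : Kbar) ∈ A.nonunits) (a : ℕ) (ha1 : 1 ≤ a) (hae : a < e)
    (h1 : q ^ (a + min a (e - a)) ∣ N) (h2 : q ^ (a - min a (e - a)) ∣ N) :
    (VE A N q M e B k hN hB hq a).valuation (piAo A N q e a h1 h2) < 1 := by
  by_contra hge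
  rw [not_lt] at hge
  have h3 : 1 ≤ (VE A N q M e B k hN hB hq a).valuation (piAo A N q e a h1 h2)
      ^ Nat.totient (q ^ min a (e - a)) := one_le_pow₀ hge
  rw [ramVE A N q M e B k hN hB hq hA a ha1 hae h1 h2] at h3
  exact absurd (val_q_lt_one A N q M e B k hN hB hq hA a) (not_lt.2 h3)

/-- `π_a ∈ V_a`. -/
theorem piAo_mem (hA : (q : Kbar) ∈ A.nonunits) (a : ℕ) (ha1 : 1 ≤ a) (hae : a < e)
    (h1 : q ^ (a + min a (e - a)) ∣ N) (h2 : q ^ (a - min a (e - a)) ∣ N) :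
    piAo A N q e a h1 h2 ∈ VE A N q M e B k hN hB hq a :=
  (ValuationSubring.valuation_le_one_iff _ _).1
    (le_of_lt (val_piAo_lt_one A N q M e B k hN hB hq hA a ha1 hae h1 h2))

include hN hB hq in
theorem piAo_ne_zero (hA : (q : Kbar) ∈ A.nonunits) (a : ℕ) (ha1 : 1 ≤ a) (hae : a < e)
    (h1 : q ^ (a + min a (e - a)) ∣ N) (h2 : q ^ (a - min a (e - a)) ∣ N) :
    piAo A N q e a h1 h2 ≠ 0 := by
  intro h0
  have h3 := ramVE A N q M e B k hN hB hq hA a ha1 hae h1 h2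
  have ht : Nat.totient (q ^ min a (e - a)) ≠ 0 :=
    (Nat.totient_pos.mpr (pow_pos hq.pos _)).ne'
  rw [h0, map_zero, zero_pow ht] at h3
  have h4 : ((q : ℕ) : ↥(L0 A N)) = 0 := (Valuation.zero_iff _).mp h3.symm
  have h5 : ((q : ℕ) : FN N) = 0 := by
    rw [← coe_natCast_L0 A N q, h4]; rfl
  exact (Nat.cast_ne_zero (R := FN N)).2 hq.ne_zero h5

include hN in
/-- The divisibilities needed to form `π_a`. -/
theorem dvd_hi (a : ℕ) (hae : a ≤ e) : q ^ (a + min a (e - a)) ∣ N := by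
  rw [hN]
  exact Dvd.dvd.mul_left (pow_dvd_pow q (by omega)) M

include hN in
theorem dvd_lo (a : ℕ) (hae : a ≤ e) : q ^ (a - min a (e - a)) ∣ N := by
  rw [hN]
  exact Dvd.dvd.mul_left (pow_dvd_pow q (by omega)) M

end RamVE

end Fermat.Agent.S45.NUE.H57
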