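import Fermat.Agent.S45.NUE.H57_SSRamCore
import Fermat.Agent.S45.NUE.H17_RedGen
import Fermat.Agent.S45.NUE.H68_LocEqSSE

/-!
# S45 / NU_e, E-PT-SS, leaf SS-RAM (helper57)

`N = M q^e`, `f ∈ F_M` with integral expansion `u₀ ∈ ℤ((t))`, `x = f(τ)`, `y = f(q^e τ)` in
`L0 A N` (characterised by their expansions at `∞`), `t_a = H68.tE q e a x y`.

* `cE_of_coe_eq`, `cE_of_coe_eq_beta` : the expansions of `x`, `y` at the cusp `1/(q^a M)`;
* `cE_tE_pow` : the expansion of `t_a^φ(q^min(a, e-a))` at the cusp `1/(q^a M)` is `q W`, `W` integral;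
* **`ss_ram`** : `∀ a < e, ∃ f' ∈ VE a, t_a ^ φ(q^min(a, e-a)) = q * f'`  (the input `hpow` of
  `H68.locEq_ss_coordE`).
-/

set_option autoImplicit false
set_option synthInstance.maxHeartbeats 400000
set_option maxHeartbeats 1000000
set_option linter.unusedSectionVars false
set_option linter.unusedVariables false
set_option linter.style.haveILetI false

noncomputable section

namespace Fermat.Agent.S45.NUE.H57

open Fermat.Agent.S24 Fermat.Agent.BAD.H88 ModularCurve AlgebraicCurve
open Fermat.Agent.S28 Fermat.Agent.S28.H73 Fermat.Agent.RED.H73 Fermat.Agent.RED.H17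
open Fermat.Agent.RED.H95 Fermat.Agent.RED.H10
open Fermat.Agent.S36.NU Fermat.Agent.S36.NU.H88
open Fermat.Agent.S45.NUE.H23

local notation "L0" => Fermat.Agent.S36.NU.H23.L0

/-! ## SS-RAM -/

section Main

variable (A : ValuationSubring Kbar)
variable (N q M e : ℕ) (B k : ℤ) (hN : N = M * q ^ e) (hB : B * M + k * (q : ℤ) ^ e = 1)
  (hq : q.Prime) [NeZero N] [NeZero q] [NeZero M]

include hN hB hq in
/-- The expansion at the cusp `1/(q^a M)` of the function `x = f(τ)`. -/
theorem cE_of_coe_eq (f : FN M) (x : FN N)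
    (hx : (x : LaurentSeries Kbar) = (f : LaurentSeries Kbar)) (a : ℕ) :
    cE N q M e B k hN hB hq a x = qExpand Kbar (q ^ (e - 2 * a)) (f : LaurentSeries Kbar) := by
  have hle := H17.hleE N q M e hN
  have e1 : x = IntermediateField.inclusion hle f := by
    apply Subtype.ext
    rw [IntermediateField.coe_inclusion]
    exact hx
  rw [e1]
  exact H17.cE_inclusion N q M e B k hN hB hq hle a f

include hB hq in
/-- The expansion at the cusp `1/(q^a M)`, `a < e`, of the function `y = f(q^e τ)`. -/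
theorem cE_of_coe_eq_beta (f : FN M) (y : FN N)
    (hy : (y : LaurentSeries Kbar) = qExpand Kbar (q ^ e) (f : LaurentSeries Kbar)) (a : ℕ)
    (hae : a < e) :
    cE N q M e B k hN hB hq a y
      = twist (H73.zE q e a B)
          (qExpand Kbar (q ^ (max e (2 * a) - e)) (f : LaurentSeries Kbar)) := by
  have e1 : y = H17.betaE N q M e hN f := by
    apply Subtype.ext
    rw [H17.coe_betaE]
    exact hy
  rw [e1]
  exact H17.cE_betaE_lt N q M e B k hN hB hq a hae f

include hN hB hq in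
/-- **SS-RAM, series form**: the expansion of `t_a^φ(q^m)` at the cusp `1/(q^a M)` is `q` times an
integral series. -/
theorem cE_tE_pow (hA : (q : Kbar) ∈ A.nonunits) (f : FN M) (u₀ : LaurentSeries ℤ)
    (hf : (f : LaurentSeries Kbar) = H65.intSer Kbar u₀) (x y : FN N)
    (hx : (x : LaurentSeries Kbar) = H65.intSer Kbar u₀)
    (hy : (y : LaurentSeries Kbar) = H65.intSer Kbar (qExpand ℤ (q ^ e) u₀))
    (a : ℕ) (hae : a < e) :
    ∃ W ∈ gaussRingV A,
      cE N q M e B k hN hB hq a (H68.tE q e a x y) ^ (Nat.totient (q ^ min a (e - a)))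
        = ((q : ℕ) : LaurentSeries Kbar) * W := by
  haveI : Fact q.Prime := ⟨hq⟩
  have hxE := cE_of_coe_eq N q M e B k hN hB hq f x (hx.trans hf.symm) a
  have hyE := cE_of_coe_eq_beta N q M e B k hN hB hq f y
    (by rw [hy, hf, H65.intSer_qExpand]) a hae
  rw [hf] at hxE hyE
  have hz0 : H73.zE q e a B ≠ 0 := H17.zE_ne_zero q e a B
  have hzp := H73.isPrimitiveRoot_zU q M e B k hB hq a hae
  have hzd := H73.zE_pow_dE q e a B hae.le
  rcases Nat.lt_or_ge (2 * a) e with h2 | h2
  · -- `2a < e`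
    have hc : H73.dE e a = e - 2 * a := by rw [H73.dE]; omega
    have h0 : max e (2 * a) - e = 0 := by omega
    have hyE' : cE N q M e B k hN hB hq a y = twist (H73.zE q e a B) (H65.intSer Kbar u₀) := by
      rw [hyE, qExpand_congr (show q ^ (max e (2 * a) - e) = 1 by rw [h0, pow_zero]),
        qExpand_one_apply]
    rw [hc] at hzd
    obtain ⟨I, hI⟩ := caseB_eq q (e - 2 * a) (H73.zE q e a B) (H73.zU q e a B) hz0 hzd u₀
    have hT : cE N q M e B k hN hB hq a (H68.tE q e a x y)
        = -(qExpand Kbar (q ^ (e - 2 * a))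
            (twist (H73.zU q e a B) (H65.intSer Kbar u₀) - H65.intSer Kbar u₀))
          + ((q : ℕ) : LaurentSeries Kbar)
            * twist (H73.zE q e a B) (H65.intSer Kbar (-I)) := by
      rw [H68.tE_of_lt q e a x y h2, map_sub, map_pow, hxE, hyE', hI]
    exact pow_totient_eq A q hq hA (min a (e - a)) (H73.zU q e a B) hzp (q ^ (e - 2 * a)) u₀ _ _
      (H17.twist_zE_mem A q e a B (H65.intSer_mem A _)) hT
  · -- `e ≤ 2a`
    have hc : H73.dE e a = 2 * a - e := by rw [H73.dE]; omega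
    have h0 : e - 2 * a = 0 := by omega
    have h1 : max e (2 * a) - e = 2 * a - e := by omega
    have hxE' : cE N q M e B k hN hB hq a x = H65.intSer Kbar u₀ := by
      rw [hxE, qExpand_congr (show q ^ (e - 2 * a) = 1 by rw [h0, pow_zero]),
        qExpand_one_apply]
    have hyE' : cE N q M e B k hN hB hq a y
        = twist (H73.zE q e a B) (qExpand Kbar (q ^ (2 * a - e)) (H65.intSer Kbar u₀)) := by
      rw [hyE]
      congr 1
      exact qExpand_congr (by rw [h1]) _
    rw [hc] at hzd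
    obtain ⟨I, hI⟩ := caseA_eq q (2 * a - e) (H73.zE q e a B) (H73.zU q e a B) hzd u₀
    have hT : cE N q M e B k hN hB hq a (H68.tE q e a x y)
        = -(qExpand Kbar (q ^ (2 * a - e))
            (twist (H73.zU q e a B) (H65.intSer Kbar u₀) - H65.intSer Kbar u₀))
          + ((q : ℕ) : LaurentSeries Kbar) * H65.intSer Kbar I := by
      rw [H68.tE_of_le q e a x y h2, map_sub, map_pow, hxE', hyE', hI]
    exact pow_totient_eq A q hq hA (min a (e - a)) (H73.zU q e a B) hzp (q ^ (2 * a - e)) u₀ _ _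
      (H65.intSer_mem A _) hT

include hN hB hq in
/-- **SS-RAM**: for `x = f(τ)`, `y = f(q^e τ)` (`f` of level `M` with integral expansion `u₀`) and
`a < e`: `t_a^φ(q^min(a, e-a)) = q f'` with `f' ∈ V_a`, `t_a = H68.tE q e a x y`. -/
theorem ss_ram (hA : (q : Kbar) ∈ A.nonunits) (f : FN M) (u₀ : LaurentSeries ℤ)
    (hf : (f : LaurentSeries Kbar) = H65.intSer Kbar u₀) (x y : ↥(L0 A N))
    (hx : ((x : FN N) : LaurentSeries Kbar) = H65.intSer Kbar u₀)
    (hy : ((y : FN N) : LaurentSeries Kbar) = H65.intSer Kbar (qExpand ℤ (q ^ e) u₀))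
    (a : ℕ) (hae : a < e) :
    ∃ f' ∈ VE A N q M e B k hN hB hq a,
      H68.tE q e a x y ^ (Nat.totient (q ^ min a (e - a))) = ((q : ℕ) : ↥(L0 A N)) * f' := by
  obtain ⟨W, hW, hWe⟩ := cE_tE_pow A N q M e B k hN hB hq hA f u₀ hf (x : FN N) (y : FN N)
    hx hy a hae
  have hq0 : ((q : ℕ) : ↥(L0 A N)) ≠ 0 := Nat.cast_ne_zero.mpr hq.ne_zero
  have hqK : ((q : ℕ) : Kbar) ≠ 0 := Nat.cast_ne_zero.mpr hq.ne_zero
  have hq0' : ((q : ℕ) : LaurentSeries Kbar) ≠ 0 := by
    rw [← map_natCast (HahnSeries.C : Kbar →+* LaurentSeries Kbar) q]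
    intro h
    exact hqK (HahnSeries.C_injective (h.trans (map_zero _).symm))
  refine ⟨((q : ℕ) : ↥(L0 A N))⁻¹ * H68.tE q e a x y ^ (Nat.totient (q ^ min a (e - a))),
    ?_, ?_⟩
  · rw [mem_VE_iff]
    have e1 : (((((q : ℕ) : ↥(L0 A N))⁻¹
          * H68.tE q e a x y ^ (Nat.totient (q ^ min a (e - a))) : ↥(L0 A N)) : FN N))
        = ((q : ℕ) : FN N)⁻¹
          * H68.tE q e a (x : FN N) (y : FN N) ^ (Nat.totient (q ^ min a (e - a))) := by
      have h1 := H68.map_tE (L0 A N).subtype q e a x y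
      have h2 : (L0 A N).subtype (((q : ℕ) : ↥(L0 A N))⁻¹
          * H68.tE q e a x y ^ (Nat.totient (q ^ min a (e - a))))
          = ((q : ℕ) : FN N)⁻¹
            * H68.tE q e a (x : FN N) (y : FN N) ^ (Nat.totient (q ^ min a (e - a))) := by
        rw [map_mul, map_inv₀, map_pow, map_natCast, h1]
        rfl
      exact h2
    rw [e1, map_mul, map_inv₀, map_pow, map_natCast, hWe, ← mul_assoc, inv_mul_cancel₀ hq0',
      one_mul]
    exact hW
  · rw [← mul_assoc, mul_inv_cancel₀ hq0, one_mul]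

include hN hB hq in
/-- **SS-RAM in the shape of helper16's `H16.RamE A N q M e B k hN hB hq u₀`** (the body of that
definition, verbatim), for every `u₀` which is the expansion of a function of level `M`. -/
theorem ramE_of (hA : (q : Kbar) ∈ A.nonunits) (f : FN M) (u₀ : LaurentSeries ℤ)
    (hf : (f : LaurentSeries Kbar) = H65.intSer Kbar u₀) :
    ∀ x y : ↥(L0 A N), ((x : FN N) : LaurentSeries Kbar) = H65.intSer Kbar u₀ →
      ((y : FN N) : LaurentSeries Kbar) = H65.intSer Kbar (qExpand ℤ (q ^ e) u₀) →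
      ∀ n, n < e → ∃ f' ∈ VE A N q M e B k hN hB hq n,
        H68.tE q e n x y ^ Nat.totient (q ^ min n (e - n)) = ((q : ℕ) : ↥(L0 A N)) * f' :=
  fun x y hx hy n hn => ss_ram A N q M e B k hN hB hq hA f u₀ hf x y hx hy n hn

end Main

end Fermat.Agent.S45.NUE.H57
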