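import Fermat.Agent.S45.NUE.H57_RamG
import Fermat.Agent.S36.NU.H88_Mid

/-!
# S45 / NU_e, E-PT-SS, leaf SS-RAM (helper57), series part

* `exists_kron`, `exists_kron_intSer` : `u^(q^c) = u(s^(q^c)) + q K` for `u ∈ ℤ((s))`;
* `caseA_eq`, `caseB_eq` : the expansions of `t_a = x^(q^c) - y` resp. `x - y^(q^c)` at the cusp
  `1/(q^a M)` are `-(J(z' s^Q) - J(s^Q)) + q I` with `I` integral;
* `pow_totient_eq` : if `T = -(J(z' s^Q) - J(s^Q)) + q I`, `z'` a primitive `q^m`-th root of unity,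
  then `T^φ(q^m) = q W`, `W` integral.
-/

set_option autoImplicit false
set_option synthInstance.maxHeartbeats 400000
set_option maxHeartbeats 1000000
set_option linter.unusedSectionVars false
set_option linter.unusedVariables false
set_option linter.style.haveILetI false

noncomputable section

namespace Fermat.Agent.S45.NUE.H57

open Fermat.Agent.S24 Fermat.Agent.BAD.H88 ModularCurve AlgebraicCurve
open Fermat.Agent.S28 Fermat.Agent.S28.H73 Fermat.Agent.RED.H73 Fermat.Agent.RED.H17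
open Fermat.Agent.RED.H95 Fermat.Agent.RED.H10
open Fermat.Agent.S36.NU Fermat.Agent.S36.NU.H88
open Fermat.Agent.S45.NUE.H23



/-! ## Kronecker's congruence for `q^c` -/

section Kron

variable (q : ℕ) [NeZero q] [Fact q.Prime]

theorem pow_ppow_eq_qExpand_zmod (c : ℕ) (x : LaurentSeries (ZMod q)) :
    x ^ (q ^ c) = qExpand (ZMod q) (q ^ c) x := by
  induction c with
  | zero =>
    have e1 : x ^ q ^ 0 = x := by rw [pow_zero, pow_one]
    rw [e1, qExpand_congr (pow_zero q) x, qExpand_one_apply]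
  | succ c ih =>
    have e1 : x ^ q ^ (c + 1) = (x ^ q ^ c) ^ q := by rw [pow_succ, pow_mul]
    rw [e1, ih, H65.pow_eq_qExpand_zmod, qExpand_qExpand]
    exact qExpand_congr (by rw [pow_succ, mul_comm]) _

/-- `u^(q^c) = u(s^(q^c)) + q K`, `K ∈ ℤ((s))`. -/
theorem exists_kron (c : ℕ) (u : LaurentSeries ℤ) :
    ∃ K : LaurentSeries ℤ,
      u ^ (q ^ c) = qExpand ℤ (q ^ c) u + ((q : ℕ) : LaurentSeries ℤ) * K := by
  have h0 : coeffMap (Int.castRingHom (ZMod q)) (u ^ (q ^ c) - qExpand ℤ (q ^ c) u) = 0 := by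
    rw [map_sub, map_pow, coeffMap_qExpand, pow_ppow_eq_qExpand_zmod, sub_self]
  refine ⟨H65.divQ q (u ^ (q ^ c) - qExpand ℤ (q ^ c) u), ?_⟩
  rw [H65.natCast_mul_divQ q _ (H65.dvd_coeff_of_coeffMap_eq_zero q _ h0)]
  ring

/-- The same over a field. -/
theorem exists_kron_intSer (C : Type) [Field C] (c : ℕ) (u : LaurentSeries ℤ) :
    ∃ K : LaurentSeries ℤ, H65.intSer C u ^ (q ^ c)
      = qExpand C (q ^ c) (H65.intSer C u) + ((q : ℕ) : LaurentSeries C) * H65.intSer C K := by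
  obtain ⟨K, hK⟩ := exists_kron q c u
  refine ⟨K, ?_⟩
  have h := congrArg (coeffMap (Int.castRingHom C)) hK
  rw [map_pow, map_add, H65.coeffMap_natCast_mul, coeffMap_qExpand] at h
  exact h

end Kron

/-! ## The two series identities -/

section SeriesId

variable (q : ℕ) [NeZero q] [Fact q.Prime]

theorem twist_natCast_mul (z : Kbar) (hz : z ≠ 0) (n : ℕ) (x : LaurentSeries Kbar) :
    twist z (((n : ℕ) : LaurentSeries Kbar) * x) = ((n : ℕ) : LaurentSeries Kbar) * twist z x := by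
  have h := map_mul (twistHom z hz) ((n : ℕ) : LaurentSeries Kbar) x
  rw [map_natCast] at h
  exact h

theorem twist_pow' (z : Kbar) (hz : z ≠ 0) (n : ℕ) (x : LaurentSeries Kbar) :
    twist z (x ^ n) = twist z x ^ n := map_pow (twistHom z hz) x n

theorem twist_sub' (z : Kbar) (hz : z ≠ 0) (x y : LaurentSeries Kbar) :
    twist z (x - y) = twist z x - twist z y := map_sub (twistHom z hz) x y

theorem twist_add' (z : Kbar) (hz : z ≠ 0) (x y : LaurentSeries Kbar) :
    twist z (x + y) = twist z x + twist z y := map_add (twistHom z hz) x y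

/-- Case `e ≤ 2a`: `J^(q^c) - (twist z)(J(s^(q^c)))`. -/
theorem caseA_eq (c : ℕ) (z z' : Kbar) (hz' : z ^ (q ^ c) = z') (u₀ : LaurentSeries ℤ) :
    ∃ I : LaurentSeries ℤ,
      H65.intSer Kbar u₀ ^ (q ^ c) - twist z (qExpand Kbar (q ^ c) (H65.intSer Kbar u₀))
        = -(qExpand Kbar (q ^ c) (twist z' (H65.intSer Kbar u₀) - H65.intSer Kbar u₀))
          + ((q : ℕ) : LaurentSeries Kbar) * H65.intSer Kbar I := by
  obtain ⟨K, hK⟩ := exists_kron_intSer q Kbar c u₀
  refine ⟨K, ?_⟩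
  rw [hK, twist_qExpand, zpow_natCast, hz', map_sub]
  ring

/-- Case `2a < e`: `J(s^(q^c)) - ((twist z) J)^(q^c)`. -/
theorem caseB_eq (c : ℕ) (z z' : Kbar) (hz : z ≠ 0) (hz' : z ^ (q ^ c) = z')
    (u₀ : LaurentSeries ℤ) :
    ∃ I : LaurentSeries ℤ,
      qExpand Kbar (q ^ c) (H65.intSer Kbar u₀) - twist z (H65.intSer Kbar u₀) ^ (q ^ c)
        = -(qExpand Kbar (q ^ c) (twist z' (H65.intSer Kbar u₀) - H65.intSer Kbar u₀))
          + ((q : ℕ) : LaurentSeries Kbar) * twist z (H65.intSer Kbar (-I)) := by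
  obtain ⟨K, hK⟩ := exists_kron_intSer q Kbar c u₀
  refine ⟨K, ?_⟩
  have h1 : H65.intSer Kbar (-K) = - H65.intSer Kbar K := map_neg (coeffMap _) K
  have h2 : twist z (- H65.intSer Kbar K) = - twist z (H65.intSer Kbar K) :=
    map_neg (twistHom z hz) _
  rw [← twist_pow' z hz, hK, twist_add' z hz, twist_natCast_mul z hz, twist_qExpand, zpow_natCast,
    hz', map_sub, h1, h2]
  ring

end SeriesId

/-! ## Integrality of `T^φ / q` -/

section Integral

variable (A : ValuationSubring Kbar) (q : ℕ) (hq : q.Prime) [NeZero q]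

theorem C_mem_gaussRingV (c : Kbar) (hc : c ∈ A) :
    (HahnSeries.C c : LaurentSeries Kbar) ∈ gaussRingV A := by
  have h : iotaV A (HahnSeries.C (⟨c, hc⟩ : ↥A)) = HahnSeries.C c :=
    coeffMap_single A.subtype 0 _
  rw [← h]
  exact iotaV_mem_gaussRingV A _

include hq in
/-- **If `T = -(J(z' s^Q) - J(s^Q)) + q I`, `I` integral, `z'` a primitive `q^m`-th root of
unity, then `T^φ(q^m) = q W` with `W` integral.** -/
theorem pow_totient_eq (hA : (q : Kbar) ∈ A.nonunits) (m : ℕ) (z' : Kbar)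
    (hz' : IsPrimitiveRoot z' (q ^ m)) (Q : ℕ) [NeZero Q] (u₀ : LaurentSeries ℤ)
    (T I : LaurentSeries Kbar) (hI : I ∈ gaussRingV A)
    (hT : T = -(qExpand Kbar Q (twist z' (H65.intSer Kbar u₀) - H65.intSer Kbar u₀))
      + ((q : ℕ) : LaurentSeries Kbar) * I) :
    ∃ W ∈ gaussRingV A, T ^ (Nat.totient (q ^ m)) = ((q : ℕ) : LaurentSeries Kbar) * W := by
  rcases Nat.eq_zero_or_pos m with hm | hm
  · subst hm
    rw [pow_zero] at hz'
    have h1 : z' = 1 := IsPrimitiveRoot.one_right_iff.mp hz'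
    refine ⟨I, hI, ?_⟩
    rw [pow_zero, Nat.totient_one, pow_one, hT, h1, twist_one', sub_self, map_zero, neg_zero,
      zero_add]
  · have hm0 : m ≠ 0 := hm.ne'
    have hqm : q ^ m ≠ 0 := pow_ne_zero m hq.ne_zero
    have hz1 : z' ≠ 1 := by
      intro h1
      have h2 := hz'.unique (h1 ▸ IsPrimitiveRoot.one)
      have h3 : 1 < q ^ m := Nat.one_lt_pow hm0 hq.one_lt
      omega
    have hzs : z' - 1 ≠ 0 := sub_ne_zero.mpr hz1
    have hq0 : (q : Kbar) ≠ 0 := Nat.cast_ne_zero.mpr hq.ne_zero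
    set φ := Nat.totient (q ^ m) with hφ
    have hφ0 : 0 < φ := Nat.totient_pos.mpr (pow_pos hq.pos m)
    have hval : A.valuation (z' - 1) ^ φ = A.valuation (q : Kbar) :=
      val_sub_one_pow_totient A hq hm0 hz'
    have hzA : z' ∈ A := root_mem A hqm hz'.pow_eq_one
    have hv1 : A.valuation (z' - 1) ≤ 1 :=
      (ValuationSubring.valuation_le_one_iff A _).mpr (A.sub_mem hzA A.one_mem)
    have hvne : A.valuation (z' - 1) ≠ 0 := (Valuation.ne_zero_iff _).mpr hzs
    -- `c₁ = q / (z' - 1) ∈ A`, `c₀ = (z' - 1)^φ / q ∈ A`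
    have hc1 : (q : Kbar) / (z' - 1) ∈ A := by
      rw [← ValuationSubring.valuation_le_one_iff, map_div₀, ← hval,
        div_le_one₀ (zero_lt_iff.mpr hvne)]
      calc A.valuation (z' - 1) ^ φ ≤ A.valuation (z' - 1) ^ 1 :=
            pow_le_pow_of_le_one zero_le hv1 hφ0
        _ = A.valuation (z' - 1) := pow_one _
    have hc0 : (z' - 1) ^ φ / (q : Kbar) ∈ A := by
      rw [← ValuationSubring.valuation_le_one_iff, map_div₀, map_pow, hval,
        div_self ((Valuation.ne_zero_iff _).mpr hq0)]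
    set Y : LaurentSeries Kbar :=
      iotaV A (rqA A z' (q ^ m) hqm hz'.pow_eq_one Q u₀) with hY
    have hYm : Y ∈ gaussRingV A := iotaV_mem_gaussRingV A _
    have hqC : ((q : ℕ) : LaurentSeries Kbar) = HahnSeries.C (q : Kbar) :=
      (map_natCast (HahnSeries.C : Kbar →+* LaurentSeries Kbar) q).symm
    set W₁ : LaurentSeries Kbar := -Y + HahnSeries.C ((q : Kbar) / (z' - 1)) * I with hW₁
    have hW₁m : W₁ ∈ gaussRingV A :=
      add_mem (neg_mem hYm) (mul_mem (C_mem_gaussRingV A _ hc1) hI)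
    have hT' : T = HahnSeries.C (z' - 1) * W₁ := by
      rw [hT, qExpand_twist_sub_self A z' (q ^ m) hqm hz'.pow_eq_one Q u₀,
        algebraMap_laurentSeries_eq_single, hW₁, mul_add, ← mul_assoc, ← map_mul,
        mul_div_cancel₀ _ hzs, hqC]
      rw [show (HahnSeries.single 0 (z' - 1) : LaurentSeries Kbar) = HahnSeries.C (z' - 1) from rfl]
      ring
    refine ⟨HahnSeries.C ((z' - 1) ^ φ / (q : Kbar)) * W₁ ^ φ,
      mul_mem (C_mem_gaussRingV A _ hc0) (pow_mem hW₁m φ), ?_⟩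
    rw [hT', mul_pow, ← map_pow, hqC, ← mul_assoc, ← map_mul, mul_div_cancel₀ _ hq0]

end Integral

end Fermat.Agent.S45.NUE.H57
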