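import Fermat.Agent.S45.NUE.H73_RamVE
import Fermat.Agent.S45.NUE.H31_AlphaBeta
import Fermat.Agent.S45.NUE.H41_DegE
import Fermat.Agent.S45.NUE.H17_RedGen
import Fermat.Agent.S36.NU.H87_NrA1
import Fermat.Agent.S36.NU.H26_DivNormL0

/-!
# S45 / NU_e, package E-NORM, leaf N3 DOUBLE (helper5): NORM-RED along `α` above the cusp `∞`

Lower level `N = M q^e` (`q ∤ M`, `e ≥ 1`), upper level `N q = M q^(e+1)`;
`E₀ = L0 A N ⊂ L₀ = L0 A (N q)` (the inclusion `α`), of degree `q`.  Above the Gauss valuation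
of level `N` (`VE0 A N` = helper23's `VE e` of level `N`, uniformiser `q`, residue field
`FM A N = k(X₀(M))`) lie exactly two of the valuations of level `N q`:

* `a = e + 1` : the Gauss valuation at `∞` of level `N q` (`e = f = 1`),
* `a = e`     : the valuation at the cusp `1/(q^e M)` (ramification index `q - 1`, uniformiser
  `π_e = j (q^(e+1) τ) - j (q^(e-1) τ)`, helper73's RAM), `f = 1`.

Results:
* `cEmid_alpha` : the normalised expansion at the cusp `1/(q^e M)` of level `N q` of `α x` is the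
  `q`-expansion of `x` (restriction table N1 for `a = e`);
* `smid_mem` : the reductions at `a = e` of the inertia-fixed functions lie in the residue field of
  level `N` (fundamental inequality `1 + (q - 1) f ≤ q`);
* `nrD : NRData (L0 N) (L0 (N q)) (FM A N) (Fin 2) _`, `nrD_hdeg`;
* **`normDouble`** : for `h ∈ V_(e+1) ∩ V_e` inertia-fixed of level `N q`:
  `N_α h ∈ VE0 A N` and `red (N_α h) = red_(e+1) h * red_e h ^ (q - 1)` in `k((s))`;
  `normDouble_F` for the norm of `F_{N q} / F_N`, `normDouble_N` for `normAlongHom α`,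
  `normDouble_E` in helper23's names (`VE`, `sE` at both levels).
-/

set_option autoImplicit false
set_option synthInstance.maxHeartbeats 400000
set_option maxHeartbeats 1000000
set_option linter.style.haveILetI false
set_option linter.unusedSectionVars false
set_option linter.unusedVariables false

noncomputable section

open ModularCurve AlgebraicCurve
open Fermat.Agent.S24 Fermat.Agent.BAD.H88 Fermat.Agent.S28 Fermat.Agent.S28.H73
open Fermat.Agent.RED.H73 Fermat.Agent.RED.H17 Fermat.Agent.S36.NU.H88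
open Fermat.Agent.S36.NU.H23 Fermat.Agent.S36.NU.H87
open scoped MatrixGroups

namespace Fermat.Agent.S45.NUE.H5

open Fermat.Agent.S45.NUE.H23 (VE VF cE hE neZero_nE mem_VE_iff VE_eq_resV0 cE_top)
open Fermat.Agent.S45.NUE.H73 (gE)

section Double

variable (A : ValuationSubring Kbar)
variable (N q M e : ℕ) (B k B' k' : ℤ) (hN : N = M * q ^ e)
  (hB : B * M + k * (q : ℤ) ^ e = 1)
  (hN' : N * q = M * q ^ (e + 1)) (hB' : B' * M + k' * (q : ℤ) ^ (e + 1) = 1)
  (hq : q.Prime) [NeZero N] [NeZero q] [NeZero (N * q)]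

/-- `F_N ⊆ F_{N q}`. -/
theorem hleD : modularFunctionFieldBar N ≤ modularFunctionFieldBar (N * q) :=
  Fermat.Agent.S36.NU.H82.FM_le_of_dvd (N * q) N ⟨q, rfl⟩

/-- The inclusion is the degeneracy map `α`. -/
theorem inclusion_eq_alphaD (x : FN N) :
    IntermediateField.inclusion (hleD N q) x = heckeAlphaBar Kbar N q x := by
  apply Subtype.ext
  rw [IntermediateField.coe_inclusion, coe_heckeAlphaBar]

theorem coe_inclL0_alphaD (a : ↥(L0 A N)) :
    ((inclL0 A (hleD N q) a : ↥(L0 A (N * q))) : FN (N * q))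
      = heckeAlphaBar Kbar N q (a : FN N) := by
  rw [coe_inclL0, inclusion_eq_alphaD]

theorem coe_inclL0_seriesD (a : ↥(L0 A N)) :
    (((inclL0 A (hleD N q) a : ↥(L0 A (N * q))) : FN (N * q)) : LaurentSeries Kbar)
      = ((a : FN N) : LaurentSeries Kbar) := by
  rw [coe_inclL0, IntermediateField.coe_inclusion]

/-! ### The two valuations of the upper level -/

/-- The valuation at the cusp `1/(q^e M)` of level `N q` (helper23's `VE e`). -/
abbrev Vmid : ValuationSubring ↥(L0 A (N * q)) :=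
  VE A (N * q) q M (e + 1) B' k' hN' hB' hq e

/-- Its residue map, with values in `k((s))`. -/
abbrev smid : ↥(Vmid A N q M e B' k' hN' hB' hq) →+* LaurentSeries (kV A) :=
  Fermat.Agent.S45.NUE.H23.sE A (N * q) q M (e + 1) B' k' hN' hB' hq e

/-- The normalised expansion at the cusp `1/(q^e M)` of level `N q`. -/
abbrev cEmid : FN (N * q) →ₐ[Kbar] LaurentSeries Kbar :=
  cE (N * q) q M (e + 1) B' k' hN' hB' hq e

include hN hB in
/-- **N1 for `a = e`**: the normalised expansion at the cusp `1/(q^e M)` of level `N q` of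
`α x` is the `q`-expansion of `x`. -/
theorem cEmid_alpha (he : 1 ≤ e) (x : FN N) :
    cEmid N q M e B' k' hN' hB' hq (heckeAlphaBar Kbar N q x) = (x : LaurentSeries Kbar) := by
  haveI := neZero_nE (N * q) q M (e + 1) B' k' hN' hB' hq e
  haveI := neZero_nE N q M e B k hN hB hq e
  refine Fermat.Agent.S45.NUE.H23.cG_eq_of (hE (N * q) q M (e + 1) B' k' hN' hB' hq e) _ _ ?_
  rw [Fermat.Agent.S45.NUE.H31.cuspU_alpha N q (gE q M e) x,
    ← Fermat.Agent.S45.NUE.H23.qExpand_cG (hE N q M e B k hN hB hq e) x]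
  have e1 : Fermat.Agent.S45.NUE.H23.cG (hE N q M e B k hN hB hq e) x
      = (x : LaurentSeries Kbar) := cE_top N q M e B k hN hB hq x
  rw [e1, qExpand_qExpand]
  refine qExpand_congr ?_ _
  have h1 : min e (2 * e) = e := by omega
  have h2 : min (e + 1) (2 * e) = e + 1 := by omega
  rw [h1, h2, pow_succ]
  ring

/-! ### The maps `VE0 A N → V..` -/

theorem hVEtop (a : ↥(L0 A N)) (ha : a ∈ VE0 A N) :
    inclL0 A (hleD N q) a ∈ VE0 A (N * q) := by
  rw [mem_VE0_iff, coe_inclL0_seriesD]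
  exact ha

include hN hB in
theorem hVEmid (he : 1 ≤ e) (a : ↥(L0 A N)) (ha : a ∈ VE0 A N) :
    inclL0 A (hleD N q) a ∈ Vmid A N q M e B' k' hN' hB' hq := by
  rw [mem_VE_iff, coe_inclL0_alphaD]
  show cEmid N q M e B' k' hN' hB' hq (heckeAlphaBar Kbar N q (a : FN N)) ∈ gaussRingV A
  rw [cEmid_alpha N q M e B k B' k' hN hB hN' hB' hq he]
  exact ha

/-! ### Compatibilities, in `k((s))` -/

theorem stop_incl (a : ↥(VE0 A N))
    (h : inclL0 A (hleD N q) (a : ↥(L0 A N)) ∈ VE0 A (N * q)) :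
    sE A (N * q) ⟨_, h⟩ = sE A N a := by
  rw [sE_mk]
  show _ = gaussRedV A ⟨(((a : ↥(L0 A N)) : FN N) : LaurentSeries Kbar), a.2⟩
  congr 1

include hN hB in
theorem smid_incl (he : 1 ≤ e) (a : ↥(VE0 A N))
    (h : inclL0 A (hleD N q) (a : ↥(L0 A N)) ∈ Vmid A N q M e B' k' hN' hB' hq) :
    smid A N q M e B' k' hN' hB' hq ⟨_, h⟩ = sE A N a := by
  rw [Fermat.Agent.S45.NUE.H23.sE_mk]
  show _ = gaussRedV A ⟨(((a : ↥(L0 A N)) : FN N) : LaurentSeries Kbar), a.2⟩
  congr 1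
  apply Subtype.ext
  show cEmid N q M e B' k' hN' hB' hq
    ((inclL0 A (hleD N q) (a : ↥(L0 A N)) : ↥(L0 A (N * q))) : FN (N * q)) = _
  rw [coe_inclL0_alphaD, cEmid_alpha N q M e B k B' k' hN hB hN' hB' hq he]

/-! ### The residue fields of the two levels -/

include hN hq in
/-- (D) at level `N = M q^e`. -/
theorem FMlow_eq (hqM : ¬ q ∣ M) (hA : A.LiesOverPrime q) :
    redField A (modularFunctionFieldBar N) (hScM A N) = modularFunctionFieldFullC (kV A) M :=
  Fermat.Agent.S36.NU.H82.redField_level_pow q e M N hq hqM hN A hA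

include hN' hq in
/-- (D) at level `N q = M q^(e+1)`. -/
theorem FMup_eq (hqM : ¬ q ∣ M) (hA : A.LiesOverPrime q) :
    redField A (modularFunctionFieldBar (N * q)) (hScM A (N * q))
      = modularFunctionFieldFullC (kV A) M :=
  Fermat.Agent.S36.NU.H82.redField_level_pow q (e + 1) M (N * q) hq hqM hN' A hA

/-- helper23's residue map at `a = e` (the cusp `∞`) is the Gauss reduction of level `N`. -/
theorem sElow_eq (x : ↥(L0 A N)) (hx : x ∈ VE A N q M e B k hN hB hq e)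
    (hx0 : x ∈ VE0 A N) :
    Fermat.Agent.S45.NUE.H23.sE A N q M e B k hN hB hq e ⟨x, hx⟩ = sE A N ⟨x, hx0⟩ := by
  rw [Fermat.Agent.S45.NUE.H23.sE_mk, sE_mk]
  congr 1
  exact Subtype.ext (cE_top N q M e B k hN hB hq (x : FN N))

/-- helper23's `VE e` of level `N` is the Gauss valuation ring of `L0 A N`. -/
theorem VElow_eq : VE A N q M e B k hN hB hq e = VE0 A N := by
  ext x
  rw [Fermat.Agent.S45.NUE.H23.mem_VE_top_iff, mem_VE0_iff]

include hN hB hq in
/-- The residue map of `VE0 A N` is onto the residue field of level `N`. -/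
theorem rElow_surjective [NeZero M] (hqM : ¬ q ∣ M) (hA : A.LiesOverPrime q) :
    Function.Surjective (rE A N) := by
  intro y
  have hy : (y : LaurentSeries (kV A)) ∈ modularFunctionFieldFullC (kV A) M := by
    rw [← FMlow_eq A N q M e hN hq hqM hA]; exact y.2
  have hle : modularFunctionFieldBar M ≤ modularFunctionFieldBar N :=
    Fermat.Agent.S36.NU.H82.FM_le_of_dvd N M ⟨q ^ e, hN⟩
  obtain ⟨x, hx⟩ := Fermat.Agent.S45.NUE.H17.exists_sE_eq A N q M e B k hN hB hq hqM hA hle e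
    le_rfl (y : LaurentSeries (kV A)) hy
  have hx0 : (x : ↥(L0 A N)) ∈ VE0 A N := by
    rw [← VElow_eq A N q M e B k hN hB hq]; exact x.2
  refine ⟨⟨x, hx0⟩, Subtype.ext ?_⟩
  rw [coe_rE, ← hx]
  exact (sElow_eq A N q M e B k hN hB hq (x : ↥(L0 A N)) x.2 hx0).symm

/-! ### The residue map of the Gauss valuation of level `N q`, into `FM A N` -/

include hN hN' hq in
theorem stop_mem (hqM : ¬ q ∣ M) (hA : A.LiesOverPrime q) (x : ↥(VE0 A (N * q))) :
    sE A (N * q) x ∈ redField A (modularFunctionFieldBar N) (hScM A N) := by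
  rw [FMlow_eq A N q M e hN hq hqM hA, ← FMup_eq A N q M e hN' hq hqM hA]
  exact (rE A (N * q) x).2

/-- The residue map of `VE0 A (N q)`, into the residue field of level `N`. -/
def rtop (hqM : ¬ q ∣ M) (hA : A.LiesOverPrime q) : ↥(VE0 A (N * q)) →+* FM A N where
  toFun x := ⟨sE A (N * q) x, stop_mem A N q M e hN hN' hq hqM hA x⟩
  map_one' := Subtype.ext (map_one (sE A (N * q)))
  map_mul' x y := Subtype.ext (map_mul (sE A (N * q)) x y)
  map_zero' := Subtype.ext (map_zero (sE A (N * q)))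
  map_add' x y := Subtype.ext (map_add (sE A (N * q)) x y)

theorem coe_rtop (hqM : ¬ q ∣ M) (hA : A.LiesOverPrime q) (x : ↥(VE0 A (N * q))) :
    ((rtop A N q M e hN hN' hq hqM hA x : FM A N) : LaurentSeries (kV A))
      = sE A (N * q) x := rfl

theorem rtop_eq_zero_of_not_isUnit (hqM : ¬ q ∣ M) (hA : A.LiesOverPrime q)
    (x : ↥(VE0 A (N * q))) (hx : ¬ IsUnit x) : rtop A N q M e hN hN' hq hqM hA x = 0 := by
  apply Subtype.ext
  rw [coe_rtop, sE_eq_zero_of_not_isUnit A (N * q) x hx]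
  rfl

theorem rtop_incl (hqM : ¬ q ∣ M) (hA : A.LiesOverPrime q) (a : ↥(VE0 A N))
    (h : inclL0 A (hleD N q) (a : ↥(L0 A N)) ∈ VE0 A (N * q)) :
    rtop A N q M e hN hN' hq hqM hA ⟨_, h⟩ = rE A N a := by
  apply Subtype.ext
  rw [coe_rtop, coe_rE]
  exact stop_incl A N q a h

include hB in
theorem rtop_surjective [NeZero M] (hqM : ¬ q ∣ M) (hA : A.LiesOverPrime q) :
    Function.Surjective (rtop A N q M e hN hN' hq hqM hA) := by
  intro y
  obtain ⟨a, rfl⟩ := rElow_surjective A N q M e B k hN hB hq hqM hA y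
  exact ⟨⟨_, hVEtop A N q a a.2⟩, rtop_incl A N q M e hN hN' hq hqM hA a _⟩

/-! ### The residue field of `Vmid`, as a subfield of `k((s))` -/

/-- The image of the residue map of `Vmid`: the residue field of `V_e ∩ L₀`. -/
def Kmid : Subfield (LaurentSeries (kV A)) where
  carrier := Set.range (smid A N q M e B' k' hN' hB' hq)
  mul_mem' := by
    rintro _ _ ⟨x, rfl⟩ ⟨y, rfl⟩
    exact ⟨x * y, map_mul _ x y⟩
  one_mem' := ⟨1, map_one _⟩
  add_mem' := by
    rintro _ _ ⟨x, rfl⟩ ⟨y, rfl⟩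
    exact ⟨x + y, map_add _ x y⟩
  zero_mem' := ⟨0, map_zero _⟩
  neg_mem' := by
    rintro _ ⟨x, rfl⟩
    exact ⟨-x, map_neg _ x⟩
  inv_mem' := by
    rintro _ ⟨x, rfl⟩
    by_cases hx : IsUnit x
    · obtain ⟨u, rfl⟩ := hx
      refine ⟨((u⁻¹ : (↥(Vmid A N q M e B' k' hN' hB' hq))ˣ) :
        ↥(Vmid A N q M e B' k' hN' hB' hq)), ?_⟩
      have h1 : smid A N q M e B' k' hN' hB' hq (u : ↥(Vmid A N q M e B' k' hN' hB' hq))
          * smid A N q M e B' k' hN' hB' hq ((u⁻¹ : (↥(Vmid A N q M e B' k' hN' hB' hq))ˣ) :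
            ↥(Vmid A N q M e B' k' hN' hB' hq)) = 1 := by
        rw [← map_mul, Units.mul_inv, map_one]
      exact (inv_eq_of_mul_eq_one_right h1).symm
    · refine ⟨0, ?_⟩
      rw [Fermat.Agent.S45.NUE.H23.sE_eq_zero_of_not_isUnit A (N * q) q M (e + 1) B' k' hN' hB'
        hq e x hx, map_zero, inv_zero]

theorem mem_Kmid_iff (y : LaurentSeries (kV A)) :
    y ∈ Kmid A N q M e B' k' hN' hB' hq ↔ ∃ x, smid A N q M e B' k' hN' hB' hq x = y := Iff.rfl

/-- The residue map of `Vmid`, onto its residue field. -/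
def rmidK : ↥(Vmid A N q M e B' k' hN' hB' hq) →+* ↥(Kmid A N q M e B' k' hN' hB' hq) :=
  (smid A N q M e B' k' hN' hB' hq).codRestrict (Kmid A N q M e B' k' hN' hB' hq)
    (fun x => ⟨x, rfl⟩)

theorem coe_rmidK (x : ↥(Vmid A N q M e B' k' hN' hB' hq)) :
    ((rmidK A N q M e B' k' hN' hB' hq x : ↥(Kmid A N q M e B' k' hN' hB' hq)) :
      LaurentSeries (kV A)) = smid A N q M e B' k' hN' hB' hq x := rfl

theorem rmidK_surjective : Function.Surjective (rmidK A N q M e B' k' hN' hB' hq) := by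
  rintro ⟨_, x, rfl⟩
  exact ⟨x, rfl⟩

theorem rmidK_eq_zero_of_not_isUnit (x : ↥(Vmid A N q M e B' k' hN' hB' hq))
    (hx : ¬ IsUnit x) : rmidK A N q M e B' k' hN' hB' hq x = 0 := by
  apply Subtype.ext
  rw [coe_rmidK, Fermat.Agent.S45.NUE.H23.sE_eq_zero_of_not_isUnit A (N * q) q M (e + 1) B' k'
    hN' hB' hq e x hx]
  rfl

include hN hB in
/-- The residue field of level `N` is contained in the residue field of `Vmid`. -/
theorem FMlow_le_Kmid [NeZero M] (he : 1 ≤ e) (hqM : ¬ q ∣ M) (hA : A.LiesOverPrime q)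
    (c : FM A N) : (c : LaurentSeries (kV A)) ∈ Kmid A N q M e B' k' hN' hB' hq := by
  obtain ⟨a, rfl⟩ := rElow_surjective A N q M e B k hN hB hq hqM hA c
  exact ⟨⟨_, hVEmid A N q M e B k B' k' hN hB hN' hB' hq he a a.2⟩,
    smid_incl A N q M e B k B' k' hN hB hN' hB' hq he a _⟩

/-- The structure map `FM A N → K_mid`. -/
def incKmid [NeZero M] (he : 1 ≤ e) (hqM : ¬ q ∣ M) (hA : A.LiesOverPrime q) :
    FM A N →+* ↥(Kmid A N q M e B' k' hN' hB' hq) :=
  ((IntermediateField.val _).toRingHom).codRestrict (Kmid A N q M e B' k' hN' hB' hq)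
    (fun c => FMlow_le_Kmid A N q M e B k B' k' hN hB hN' hB' hq he hqM hA c)

theorem coe_incKmid [NeZero M] (he : 1 ≤ e) (hqM : ¬ q ∣ M) (hA : A.LiesOverPrime q)
    (c : FM A N) :
    ((incKmid A N q M e B k B' k' hN hB hN' hB' hq he hqM hA c :
      ↥(Kmid A N q M e B' k' hN' hB' hq)) : LaurentSeries (kV A))
      = (c : LaurentSeries (kV A)) := rfl

/-- `K_mid` as an algebra over the residue field of level `N`. -/
@[reducible] def algKmid [NeZero M] (he : 1 ≤ e) (hqM : ¬ q ∣ M) (hA : A.LiesOverPrime q) :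
    Algebra (FM A N) ↥(Kmid A N q M e B' k' hN' hB' hq) :=
  (incKmid A N q M e B k B' k' hN hB hN' hB' hq he hqM hA).toAlgebra

theorem rmidK_incl [NeZero M] (he : 1 ≤ e) (hqM : ¬ q ∣ M) (hA : A.LiesOverPrime q)
    (a : ↥(VE0 A N))
    (h : inclL0 A (hleD N q) (a : ↥(L0 A N)) ∈ Vmid A N q M e B' k' hN' hB' hq) :
    rmidK A N q M e B' k' hN' hB' hq ⟨_, h⟩
      = @algebraMap (FM A N) ↥(Kmid A N q M e B' k' hN' hB' hq) _ _
          (algKmid A N q M e B k B' k' hN hB hN' hB' hq he hqM hA) (rE A N a) := by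
  apply Subtype.ext
  rw [coe_rmidK]
  exact smid_incl A N q M e B k B' k' hN hB hN' hB' hq he a h

/-! ### Rank one -/

include hq in
theorem isArch_top (hA : A.LiesOverPrime q) :
    Fermat.Agent.BAD.H42.IsArch (VE0 A (N * q)) :=
  isArch_resV0 _ _ (Fermat.Agent.S36.NU.H82.isArch_V20 A hq hA (N * q))

theorem isArch_VFmid (hA : A.LiesOverPrime q) :
    Fermat.Agent.BAD.H42.IsArch (VF A (N * q) q M (e + 1) B' k' hN' hB' hq e) := by
  haveI := neZero_nE (N * q) q M (e + 1) B' k' hN' hB' hq e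
  refine Fermat.Agent.S36.NU.H82.isArch_of_const A hq hA _
    (Fermat.Agent.S45.NUE.H23.const_memG (hE (N * q) q M (e + 1) B' k' hN' hB' hq e) A) ?_
  intro f hf
  obtain ⟨c, hc0, h, hr⟩ := Fermat.Agent.S45.NUE.H23.exists_scaleG
    (hE (N * q) q M (e + 1) B' k' hN' hB' hq e) A f hf
  exact ⟨c, hc0, Fermat.Agent.S36.NU.H82.val_eq_one_of_red_ne_zero _
    (Fermat.Agent.S45.NUE.H23.redG (hE (N * q) q M (e + 1) B' k' hN' hB' hq e) A)
    (Fermat.Agent.S45.NUE.H23.redG_eq_zero_iff (hE (N * q) q M (e + 1) B' k' hN' hB' hq e) A)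
    ⟨_, h⟩ hr⟩

theorem isArch_mid (hA : A.LiesOverPrime q) :
    Fermat.Agent.BAD.H42.IsArch (Vmid A N q M e B' k' hN' hB' hq) :=
  isArch_resV0 _ _ (isArch_VFmid A N q M e B' k' hN' hB' hq hA)

/-! ### The uniformiser of `Vmid` (helper73's RAM, `a = e`, `m = 1`) -/

include hN' in
theorem hdvd1 (he : 1 ≤ e) : q ^ (e + min e (e + 1 - e)) ∣ N * q := by
  have h : e + min e (e + 1 - e) = e + 1 := by omega
  rw [h, hN']
  exact Dvd.intro_left M rfl

include hN' in
theorem hdvd2 : q ^ (e - min e (e + 1 - e)) ∣ N * q := by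
  rw [hN']
  exact Dvd.dvd.mul_left (pow_dvd_pow q (by omega)) M

/-- The uniformiser `π_e = j (q^(e+1) τ) - j (q^(e-1) τ)` of `Vmid`. -/
def piMid (he : 1 ≤ e) : ↥(L0 A (N * q)) :=
  Fermat.Agent.S45.NUE.H73.piEo A (N * q) q (e + 1) e (hdvd1 N q M e hN' he)
    (hdvd2 N q M e hN')

theorem val_piMid_lt_one (hA : A.LiesOverPrime q) (he : 1 ≤ e) :
    (Vmid A N q M e B' k' hN' hB' hq).valuation (piMid A N q M e hN' he) < 1 :=
  Fermat.Agent.S45.NUE.H73.val_piEo_lt_one A (N * q) q M (e + 1) B' k' hN' hB' hq hA e he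
    (Nat.lt_succ_self e) _ _

/-- **Ramification of `Vmid`** over level `N`: `v_e(q) = v_e(π_e) ^ (q - 1)`. -/
theorem hramMid (hA : A.LiesOverPrime q) (he : 1 ≤ e) :
    (Vmid A N q M e B' k' hN' hB' hq).valuation (inclL0 A (hleD N q) (piE A q N))
      = (Vmid A N q M e B' k' hN' hB' hq).valuation (piMid A N q M e hN' he) ^ (q - 1) := by
  have h := Fermat.Agent.S45.NUE.H73.hramE A (N * q) q M (e + 1) B' k' hN' hB' hq hA e he
    (Nat.lt_succ_self e) (hdvd1 N q M e hN' he) (hdvd2 N q M e hN')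
  have e1 : inclL0 A (hleD N q) (piE A q N) = ((q : ℕ) : ↥(L0 A (N * q))) := by
    show inclL0 A (hleD N q) ((q : ℕ) : ↥(L0 A N)) = _
    exact map_natCast (inclL0 A (hleD N q)) q
  have e2 : Nat.totient (q ^ min e (e + 1 - e)) = q - 1 := by
    have h1 : min e (e + 1 - e) = 1 := by omega
    rw [h1, pow_one, Nat.totient_prime hq]
  rw [e1, h, e2]
  rfl

/-! ### Degrees -/

include hN hq in
theorem q_dvd_N (he : 1 ≤ e) : q ∣ N := by
  rw [hN]
  exact Dvd.dvd.mul_left (dvd_pow_self q (by omega)) M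

theorem finite_L0_D :
    @Module.Finite ↥(L0 A N) ↥(L0 A (N * q)) _ _ (algL0 A (hleD N q)).toModule :=
  Fermat.Agent.S45.NUE.H41.finite_L0_of_le A N (N * q) (hleD N q)

include hN hq in
/-- **`[L0 (N q) : L0 N] = q`**. -/
theorem finrank_L0_D (he : 1 ≤ e) :
    @Module.finrank ↥(L0 A N) ↥(L0 A (N * q)) _ _ (algL0 A (hleD N q)).toModule = q :=
  Fermat.Agent.S45.NUE.H41.finrank_L0_step A q N hq (q_dvd_N N q M e hN hq he) (hleD N q)

/-! ### The two valuations are incomparable -/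

/-- The `q`-expansion of `π_e`. -/
theorem coe_piMid (he : 1 ≤ e) :
    (((piMid A N q M e hN' he : ↥(L0 A (N * q))) : FN (N * q)) : LaurentSeries Kbar)
      = qExpand Kbar (q ^ (e + min e (e + 1 - e))) jBar
        - qExpand Kbar (q ^ (e - min e (e + 1 - e))) jBar := by
  show ((Fermat.Agent.S45.NUE.H73.piE (N * q) q (e + 1) e (hdvd1 N q M e hN' he)
    (hdvd2 N q M e hN') : FN (N * q)) : LaurentSeries Kbar) = _
  rw [Fermat.Agent.S45.NUE.H73.piE, AddSubgroupClass.coe_sub, coe_jdF, coe_jdF]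

theorem piMid_mem_top (he : 1 ≤ e) : piMid A N q M e hN' he ∈ VE0 A (N * q) := by
  rw [mem_VE0_iff, coe_piMid]
  exact sub_mem (Fermat.Agent.S45.NUE.H17.qExpand_jBar_mem A _)
    (Fermat.Agent.S45.NUE.H17.qExpand_jBar_mem A _)

/-- The reduction of `π_e` at the cusp `∞`: `j~ (s^(q^(e+1))) - j~ (s^(q^(e-1)))`. -/
theorem stop_piMid (he : 1 ≤ e) :
    sE A (N * q) ⟨piMid A N q M e hN' he, piMid_mem_top A N q M e hN' he⟩
      = qExpand (kV A) (q ^ (e + min e (e + 1 - e))) (jqModC (kV A))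
        - qExpand (kV A) (q ^ (e - min e (e + 1 - e))) (jqModC (kV A)) := by
  rw [sE_mk]
  have h1 := Fermat.Agent.S45.NUE.H17.qExpand_jBar_mem A (q ^ (e + min e (e + 1 - e)))
  have h2 := Fermat.Agent.S45.NUE.H17.qExpand_jBar_mem A (q ^ (e - min e (e + 1 - e)))
  have e1 : (⟨(((piMid A N q M e hN' he : ↥(L0 A (N * q))) : FN (N * q)) :
      LaurentSeries Kbar), piMid_mem_top A N q M e hN' he⟩ : gaussRingV A)
      = ⟨_, h1⟩ - ⟨_, h2⟩ := Subtype.ext (coe_piMid A N q M e hN' he)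
  rw [e1, map_sub, Fermat.Agent.S45.NUE.H17.gaussRedV_qExpand_jBar,
    Fermat.Agent.S45.NUE.H17.gaussRedV_qExpand_jBar]

include hq in
theorem stop_piMid_ne_zero (he : 1 ≤ e) :
    sE A (N * q) ⟨piMid A N q M e hN' he, piMid_mem_top A N q M e hN' he⟩ ≠ 0 := by
  rw [stop_piMid]
  intro h0
  have h1 := congrArg HahnSeries.order (sub_eq_zero.mp h0)
  have o1 : (qExpand (kV A) (q ^ (e + min e (e + 1 - e))) (jqModC (kV A))).order
      = -((q ^ (e + min e (e + 1 - e)) : ℕ) : ℤ) :=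
    Fermat.Agent.RED.H73.JL_order (kV A) (q ^ (e + min e (e + 1 - e)))
  have o2 : (qExpand (kV A) (q ^ (e - min e (e + 1 - e))) (jqModC (kV A))).order
      = -((q ^ (e - min e (e + 1 - e)) : ℕ) : ℤ) :=
    Fermat.Agent.RED.H73.JL_order (kV A) (q ^ (e - min e (e + 1 - e)))
  rw [o1, o2] at h1
  have h2 : q ^ (e + min e (e + 1 - e)) = q ^ (e - min e (e + 1 - e)) := by
    exact_mod_cast neg_injective h1
  have h3 := Nat.pow_right_injective hq.two_le h2
  omega

include hq in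
/-- `π_e` is a unit at the cusp `∞`. -/
theorem val_top_piMid (he : 1 ≤ e) :
    (VE0 A (N * q)).valuation (piMid A N q M e hN' he) = 1 := by
  have hu : IsUnit (⟨piMid A N q M e hN' he, piMid_mem_top A N q M e hN' he⟩ :
      ↥(VE0 A (N * q))) := by
    by_contra hnu
    exact stop_piMid_ne_zero A N q M e hN' hq he (sE_eq_zero_of_not_isUnit A (N * q) _ hnu)
  exact (ValuationSubring.valuation_eq_one_iff (VE0 A (N * q)) _).1 hu

/-- `V_(e+1) ⊄ V_e` on the inertia-fixed functions of level `N q`. -/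
theorem not_le_top_mid (hA : A.LiesOverPrime q) (he : 1 ≤ e) :
    ¬ VE0 A (N * q) ≤ Vmid A N q M e B' k' hN' hB' hq := by
  intro hle
  have h1 : (piMid A N q M e hN' he)⁻¹ ∈ VE0 A (N * q) := by
    rw [← ValuationSubring.valuation_le_one_iff, map_inv₀, val_top_piMid A N q M e hN' hq he,
      inv_one]
  have h2 := hle h1
  rw [← ValuationSubring.valuation_le_one_iff, map_inv₀] at h2
  have h3 := val_piMid_lt_one A N q M e B' k' hN' hB' hq hA he
  have h0 : (Vmid A N q M e B' k' hN' hB' hq).valuation (piMid A N q M e hN' he) ≠ 0 := by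
    intro h0
    rw [h0, inv_zero] at h2
    have h4 := hramMid A N q M e B' k' hN' hB' hq hA he
    rw [h0, zero_pow (Nat.sub_pos_of_lt hq.one_lt).ne'] at h4
    have h5 : inclL0 A (hleD N q) (piE A q N) ≠ 0 := by
      rw [Ne, map_eq_zero]
      exact piE_ne_zero A q N hq
    exact (Valuation.ne_zero_iff _).2 h5 h4
  have h4 := (inv_le_one₀ (zero_lt_iff.2 h0)).1 h2
  exact absurd h3 (not_lt.2 h4)

/-- `V_e ⊄ V_(e+1)` on the inertia-fixed functions of level `N q`. -/
theorem not_le_mid_top (hA : A.LiesOverPrime q) (he : 1 ≤ e) :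
    ¬ Vmid A N q M e B' k' hN' hB' hq ≤ VE0 A (N * q) := by
  intro hle
  set π := piMid A N q M e hN' he with hπ
  set Q : ↥(L0 A (N * q)) := piE A q (N * q) with hQ
  have hQ0 : Q ≠ 0 := piE_ne_zero A q (N * q) hq
  have hram := hramMid A N q M e B' k' hN' hB' hq hA he
  have e1 : inclL0 A (hleD N q) (piE A q N) = Q := by
    show inclL0 A (hleD N q) ((q : ℕ) : ↥(L0 A N)) = ((q : ℕ) : ↥(L0 A (N * q)))
    exact map_natCast (inclL0 A (hleD N q)) q
  rw [e1] at hram
  have hvQ0 : (Vmid A N q M e B' k' hN' hB' hq).valuation Q ≠ 0 :=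
    (Valuation.ne_zero_iff _).2 hQ0
  -- `x = π ^ (q - 1) / Q` is a unit of `Vmid` and not in `VE0 A (N q)`
  have hx : π ^ (q - 1) * Q⁻¹ ∈ Vmid A N q M e B' k' hN' hB' hq := by
    rw [← ValuationSubring.valuation_le_one_iff, map_mul, map_pow, map_inv₀, ← hram,
      mul_inv_cancel₀ hvQ0]
  have h2 := hle hx
  rw [← ValuationSubring.valuation_le_one_iff, map_mul, map_pow, map_inv₀,
    val_top_piMid A N q M e hN' hq he, one_pow, one_mul] at h2
  have h3 : (VE0 A (N * q)).valuation Q < 1 := val_piE_lt_one A q (N * q) hA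
  have h0 : (VE0 A (N * q)).valuation Q ≠ 0 := (Valuation.ne_zero_iff _).2 hQ0
  have h4 := (inv_le_one₀ (zero_lt_iff.2 h0)).1 h2
  exact absurd h3 (not_lt.2 h4)

/-! ### The preliminary `NRData`, with the residue field `K_mid` of `Vmid` -/

/-- The `NRData` of `L0 (N q) / L0 N` above the Gauss valuation, with the residue field
`K_mid`. -/
def nrDpre [NeZero M] (he : 1 ≤ e) (hqM : ¬ q ∣ M) (hA : A.LiesOverPrime q)
    (h01 : ¬ VE0 A (N * q) ≤ Vmid A N q M e B' k' hN' hB' hq)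
    (h10 : ¬ Vmid A N q M e B' k' hN' hB' hq ≤ VE0 A (N * q)) :
    @Fermat.Agent.BAD.H42.NRData ↥(L0 A N) ↥(L0 A (N * q)) (FM A N) _ _ _
      (algL0 A (hleD N q)) (Fin 2) (kap2 (FM A N) ↥(Kmid A N q M e B' k' hN' hB' hq)) _
      (kap2Alg (FM A N) ↥(Kmid A N q M e B' k' hN' hB' hq)
        (algKmid A N q M e B k B' k' hN hB hN' hB' hq he hqM hA)) :=
  letI := algL0 A (hleD N q)
  nr2 (algKmid A N q M e B k B' k' hN hB hN' hB' hq he hqM hA) (VE0 A N) (rE A N)
    (VE0 A (N * q)) (Vmid A N q M e B' k' hN' hB' hq) (rtop A N q M e hN hN' hq hqM hA)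
    (rmidK A N q M e B' k' hN' hB' hq)
    (piE A q N) (piMid A N q M e hN' he) (q - 1)
    (piE_ne_zero A q N hq) (piE_mem A q N hA) (rE_piE A q N hA)
    (hE_mod A q N hq hA)
    (fun a ha => hVEtop A N q a ha)
    (fun a ha => hVEmid A N q M e B k B' k' hN hB hN' hB' hq he a ha)
    (rE_eq_zero_of_not_isUnit A N)
    (rtop_surjective A N q M e B k hN hB hN' hq hqM hA)
    (rmidK_surjective A N q M e B' k' hN' hB' hq)
    (rtop_eq_zero_of_not_isUnit A N q M e hN hN' hq hqM hA)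
    (rmidK_eq_zero_of_not_isUnit A N q M e B' k' hN' hB' hq)
    (fun a ha => rtop_incl A N q M e hN hN' hq hqM hA a ha)
    (fun a ha => rmidK_incl A N q M e B k B' k' hN hB hN' hB' hq he hqM hA a ha)
    h01 h10
    (isArch_top A N q hq hA) (isArch_mid A N q M e B' k' hN' hB' hq hA)
    (val_piMid_lt_one A N q M e B' k' hN' hB' hq hA he) (q_sub_one_pos q hq)
    (hramMid A N q M e B' k' hN' hB' hq hA he)

include hN hB in
/-- **RES_e over level `N`**: the reductions at `V_e` of the inertia-fixed functions of level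
`N q` lie in the residue field of level `N` (fundamental inequality: `1 + (q - 1) f ≤ q`). -/
theorem smid_mem [NeZero M] (he : 1 ≤ e) (hqM : ¬ q ∣ M) (hA : A.LiesOverPrime q)
    (h01 : ¬ VE0 A (N * q) ≤ Vmid A N q M e B' k' hN' hB' hq)
    (h10 : ¬ Vmid A N q M e B' k' hN' hB' hq ≤ VE0 A (N * q))
    (x : ↥(Vmid A N q M e B' k' hN' hB' hq)) :
    smid A N q M e B' k' hN' hB' hq x
      ∈ redField A (modularFunctionFieldBar N) (hScM A N) := by
  letI := algL0 A (hleD N q)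
  haveI : Module.Finite ↥(L0 A N) ↥(L0 A (N * q)) := finite_L0_D A N q
  have hs := surjective_K1_two (algKmid A N q M e B k B' k' hN hB hN' hB' hq he hqM hA)
    (nrDpre A N q M e B k B' k' hN hB hN' hB' hq he hqM hA h01 h10) q (q - 1)
    (finrank_L0_D A N q M e hN hq he) ⟨rfl, rfl⟩
    (q_sub_one_pos q hq) (by have := hq.one_lt; omega)
  obtain ⟨c, hc⟩ := hs (rmidK A N q M e B' k' hN' hB' hq x)
  have h1 : (c : LaurentSeries (kV A)) = smid A N q M e B' k' hN' hB' hq x :=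
    congrArg (fun z : ↥(Kmid A N q M e B' k' hN' hB' hq) => (z : LaurentSeries (kV A))) hc
  rw [← h1]
  exact c.2

/-- The residue map of `Vmid`, into the residue field of level `N`. -/
def rmid [NeZero M] (he : 1 ≤ e) (hqM : ¬ q ∣ M) (hA : A.LiesOverPrime q)
    (h01 : ¬ VE0 A (N * q) ≤ Vmid A N q M e B' k' hN' hB' hq)
    (h10 : ¬ Vmid A N q M e B' k' hN' hB' hq ≤ VE0 A (N * q)) :
    ↥(Vmid A N q M e B' k' hN' hB' hq) →+* FM A N where
  toFun x := ⟨smid A N q M e B' k' hN' hB' hq x,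
    smid_mem A N q M e B k B' k' hN hB hN' hB' hq he hqM hA h01 h10 x⟩
  map_one' := Subtype.ext (map_one (smid A N q M e B' k' hN' hB' hq))
  map_mul' x y := Subtype.ext (map_mul (smid A N q M e B' k' hN' hB' hq) x y)
  map_zero' := Subtype.ext (map_zero (smid A N q M e B' k' hN' hB' hq))
  map_add' x y := Subtype.ext (map_add (smid A N q M e B' k' hN' hB' hq) x y)

theorem coe_rmid [NeZero M] (he : 1 ≤ e) (hqM : ¬ q ∣ M) (hA : A.LiesOverPrime q)
    (h01 : ¬ VE0 A (N * q) ≤ Vmid A N q M e B' k' hN' hB' hq)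
    (h10 : ¬ Vmid A N q M e B' k' hN' hB' hq ≤ VE0 A (N * q))
    (x : ↥(Vmid A N q M e B' k' hN' hB' hq)) :
    ((rmid A N q M e B k B' k' hN hB hN' hB' hq he hqM hA h01 h10 x : FM A N) :
      LaurentSeries (kV A)) = smid A N q M e B' k' hN' hB' hq x := rfl

theorem rmid_eq_zero_of_not_isUnit [NeZero M] (he : 1 ≤ e) (hqM : ¬ q ∣ M)
    (hA : A.LiesOverPrime q)
    (h01 : ¬ VE0 A (N * q) ≤ Vmid A N q M e B' k' hN' hB' hq)
    (h10 : ¬ Vmid A N q M e B' k' hN' hB' hq ≤ VE0 A (N * q))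
    (x : ↥(Vmid A N q M e B' k' hN' hB' hq)) (hx : ¬ IsUnit x) :
    rmid A N q M e B k B' k' hN hB hN' hB' hq he hqM hA h01 h10 x = 0 := by
  apply Subtype.ext
  rw [coe_rmid, Fermat.Agent.S45.NUE.H23.sE_eq_zero_of_not_isUnit A (N * q) q M (e + 1) B' k'
    hN' hB' hq e x hx]
  rfl

theorem rmid_incl [NeZero M] (he : 1 ≤ e) (hqM : ¬ q ∣ M) (hA : A.LiesOverPrime q)
    (h01 : ¬ VE0 A (N * q) ≤ Vmid A N q M e B' k' hN' hB' hq)
    (h10 : ¬ Vmid A N q M e B' k' hN' hB' hq ≤ VE0 A (N * q))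
    (a : ↥(VE0 A N))
    (h : inclL0 A (hleD N q) (a : ↥(L0 A N)) ∈ Vmid A N q M e B' k' hN' hB' hq) :
    rmid A N q M e B k B' k' hN hB hN' hB' hq he hqM hA h01 h10 ⟨_, h⟩ = rE A N a := by
  apply Subtype.ext
  rw [coe_rmid, coe_rE]
  exact smid_incl A N q M e B k B' k' hN hB hN' hB' hq he a h

theorem rmid_surjective [NeZero M] (he : 1 ≤ e) (hqM : ¬ q ∣ M) (hA : A.LiesOverPrime q)
    (h01 : ¬ VE0 A (N * q) ≤ Vmid A N q M e B' k' hN' hB' hq)
    (h10 : ¬ Vmid A N q M e B' k' hN' hB' hq ≤ VE0 A (N * q)) :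
    Function.Surjective (rmid A N q M e B k B' k' hN hB hN' hB' hq he hqM hA h01 h10) := by
  intro y
  obtain ⟨a, rfl⟩ := rElow_surjective A N q M e B k hN hB hq hqM hA y
  exact ⟨⟨_, hVEmid A N q M e B k B' k' hN hB hN' hB' hq he a a.2⟩,
    rmid_incl A N q M e B k B' k' hN hB hN' hB' hq he hqM hA h01 h10 a _⟩

/-! ### The `NRData` of `L0 (N q) / L0 N` above the Gauss valuation -/

/-- The structure maps of the residue fields: the identity, twice. -/
@[reducible] def algD : ∀ i, Algebra (FM A N) (kap2 (FM A N) (FM A N) i) :=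
  kap2Alg (FM A N) (FM A N) (Algebra.id (FM A N))

/-- **N3**: the `NRData` of `L0 (N q) / L0 N` (along `α`) above the Gauss valuation of level
`N`: `VE = VE0 A N`, `ϖ = q`; `V = (VE0 A (N q), V_e)`, `red = (rtop, rmid)`, `e = (1, q - 1)`,
`π = (q, π_e)`; all residue fields are `FM A N`. -/
def nrD [NeZero M] (he : 1 ≤ e) (hqM : ¬ q ∣ M) (hA : A.LiesOverPrime q)
    (h01 : ¬ VE0 A (N * q) ≤ Vmid A N q M e B' k' hN' hB' hq)
    (h10 : ¬ Vmid A N q M e B' k' hN' hB' hq ≤ VE0 A (N * q)) :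
    @Fermat.Agent.BAD.H42.NRData ↥(L0 A N) ↥(L0 A (N * q)) (FM A N) _ _ _
      (algL0 A (hleD N q)) (Fin 2) (kap2 (FM A N) (FM A N)) _ (algD A N) :=
  letI := algL0 A (hleD N q)
  nr2 (Algebra.id (FM A N)) (VE0 A N) (rE A N)
    (VE0 A (N * q)) (Vmid A N q M e B' k' hN' hB' hq) (rtop A N q M e hN hN' hq hqM hA)
    (rmid A N q M e B k B' k' hN hB hN' hB' hq he hqM hA h01 h10)
    (piE A q N) (piMid A N q M e hN' he) (q - 1)
    (piE_ne_zero A q N hq) (piE_mem A q N hA) (rE_piE A q N hA)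
    (hE_mod A q N hq hA)
    (fun a ha => hVEtop A N q a ha)
    (fun a ha => hVEmid A N q M e B k B' k' hN hB hN' hB' hq he a ha)
    (rE_eq_zero_of_not_isUnit A N)
    (rtop_surjective A N q M e B k hN hB hN' hq hqM hA)
    (rmid_surjective A N q M e B k B' k' hN hB hN' hB' hq he hqM hA h01 h10)
    (rtop_eq_zero_of_not_isUnit A N q M e hN hN' hq hqM hA)
    (rmid_eq_zero_of_not_isUnit A N q M e B k B' k' hN hB hN' hB' hq he hqM hA h01 h10)
    (fun a ha => rtop_incl A N q M e hN hN' hq hqM hA a ha)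
    (fun a ha => rmid_incl A N q M e B k B' k' hN hB hN' hB' hq he hqM hA h01 h10 a ha)
    h01 h10
    (isArch_top A N q hq hA) (isArch_mid A N q M e B' k' hN' hB' hq hA)
    (val_piMid_lt_one A N q M e B' k' hN' hB' hq hA he) (q_sub_one_pos q hq)
    (hramMid A N q M e B' k' hN' hB' hq hA he)

/-- **`∑ e f = [L0 (N q) : L0 N] = q`**. -/
theorem nrD_hdeg [NeZero M] (he : 1 ≤ e) (hqM : ¬ q ∣ M) (hA : A.LiesOverPrime q)
    (h01 : ¬ VE0 A (N * q) ≤ Vmid A N q M e B' k' hN' hB' hq)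
    (h10 : ¬ Vmid A N q M e B' k' hN' hB' hq ≤ VE0 A (N * q)) :
    ∑ i, @Fermat.Agent.BAD.H42.NRData.e ↥(L0 A N) ↥(L0 A (N * q)) (FM A N) _ _ _
          (algL0 A (hleD N q)) (Fin 2) (kap2 (FM A N) (FM A N)) _ (algD A N)
          (nrD A N q M e B k B' k' hN hB hN' hB' hq he hqM hA h01 h10) i
        * @Module.finrank (FM A N) (kap2 (FM A N) (FM A N) i) _ _ (algD A N i).toModule
      = @Module.finrank ↥(L0 A N) ↥(L0 A (N * q)) _ _ (algL0 A (hleD N q)).toModule := by
  letI := algL0 A (hleD N q)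
  haveI : Module.Finite ↥(L0 A N) ↥(L0 A (N * q)) := finite_L0_D A N q
  exact hdeg_two (Algebra.id (FM A N))
    (nrD A N q M e B k B' k' hN hB hN' hB' hq he hqM hA h01 h10) q (q - 1)
    (finrank_L0_D A N q M e hN hq he) ⟨rfl, rfl⟩ (q_sub_one_pos q hq)
    (by have := hq.one_lt; omega)

/-! ### NORM-RED along `α` above the cusp `∞` -/

include hN hB in
/-- **NORM-RED along `α` above the Gauss valuation of level `N`**, in `k((s))`: for an
inertia-fixed function `h` of level `N q` in `V_(e+1) ∩ V_e`, the norm `N h` to `L0 N` is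
Gauss-integral and `red (N h) = red_(e+1) h * red_e h ^ (q - 1)`. -/
theorem normDouble [NeZero M] (he : 1 ≤ e) (hqM : ¬ q ∣ M) (hA : A.LiesOverPrime q)
    (h01 : ¬ VE0 A (N * q) ≤ Vmid A N q M e B' k' hN' hB' hq)
    (h10 : ¬ Vmid A N q M e B' k' hN' hB' hq ≤ VE0 A (N * q))
    (h : ↥(L0 A (N * q))) (htop : h ∈ VE0 A (N * q))
    (hmid : h ∈ Vmid A N q M e B' k' hN' hB' hq) :
    ∃ δ : ↥(VE0 A N),
      @Algebra.norm ↥(L0 A N) ↥(L0 A (N * q)) _ _ (algL0 A (hleD N q)) h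
        = (δ : ↥(L0 A N)) ∧
      sE A N δ = sE A (N * q) ⟨h, htop⟩
        * smid A N q M e B' k' hN' hB' hq ⟨h, hmid⟩ ^ (q - 1) := by
  letI := algL0 A (hleD N q)
  letI := algD A N
  haveI : Module.Finite ↥(L0 A N) ↥(L0 A (N * q)) := finite_L0_D A N q
  haveI : ∀ i, Module.Finite (FM A N) (kap2 (FM A N) (FM A N) i) :=
    fun i => (nrD A N q M e B k B' k' hN hB hN' hB' hq he hqM hA h01 h10).finite_res i
  have hh : ∀ i, h ∈ (nrD A N q M e B k B' k' hN hB hN' hB' hq he hqM hA h01 h10).V i := by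
    intro i
    fin_cases i
    · exact htop
    · exact hmid
  obtain ⟨δ, h1, h2⟩ := (nrD A N q M e B k B' k' hN hB hN' hB' hq he hqM hA h01 h10).normRed
    (nrD_hdeg A N q M e B k B' k' hN hB hN' hB' hq he hqM hA h01 h10) h hh
  refine ⟨δ, h1, ?_⟩
  rw [Fin.prod_univ_two] at h2
  have e0 : Algebra.norm (FM A N)
      ((nrD A N q M e B k B' k' hN hB hN' hB' hq he hqM hA h01 h10).red 0 ⟨h, hh 0⟩)
        = rtop A N q M e hN hN' hq hqM hA ⟨h, htop⟩ :=
    congrArg (fun f : FM A N →* FM A N => f (rtop A N q M e hN hN' hq hqM hA ⟨h, htop⟩))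
      (Algebra.norm_self (FM A N))
  have e1 : Algebra.norm (FM A N)
      ((nrD A N q M e B k B' k' hN hB hN' hB' hq he hqM hA h01 h10).red 1 ⟨h, hh 1⟩)
        = rmid A N q M e B k B' k' hN hB hN' hB' hq he hqM hA h01 h10 ⟨h, hmid⟩ :=
    congrArg (fun f : FM A N →* FM A N =>
      f (rmid A N q M e B k B' k' hN hB hN' hB' hq he hqM hA h01 h10 ⟨h, hmid⟩))
      (Algebra.norm_self (FM A N))
  rw [e0, e1] at h2
  have h3 : rE A N δ
      = rtop A N q M e hN hN' hq hqM hA ⟨h, htop⟩ ^ 1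
        * rmid A N q M e B k B' k' hN hB hN' hB' hq he hqM hA h01 h10 ⟨h, hmid⟩ ^ (q - 1) :=
    h2
  rw [pow_one] at h3
  have h4 := congrArg (fun z : FM A N => (z : LaurentSeries (kV A))) h3
  exact h4

/-! ### Final forms -/

include hN hB in
/-- **NORM-RED along `α` above the cusp `∞`** (N3), unconditional. -/
theorem normDouble_main [NeZero M] (he : 1 ≤ e) (hqM : ¬ q ∣ M) (hA : A.LiesOverPrime q)
    (h : ↥(L0 A (N * q))) (htop : h ∈ VE0 A (N * q))
    (hmid : h ∈ Vmid A N q M e B' k' hN' hB' hq) :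
    ∃ δ : ↥(VE0 A N),
      @Algebra.norm ↥(L0 A N) ↥(L0 A (N * q)) _ _ (algL0 A (hleD N q)) h
        = (δ : ↥(L0 A N)) ∧
      sE A N δ = sE A (N * q) ⟨h, htop⟩
        * smid A N q M e B' k' hN' hB' hq ⟨h, hmid⟩ ^ (q - 1) :=
  normDouble A N q M e B k B' k' hN hB hN' hB' hq he hqM hA
    (not_le_top_mid A N q M e B' k' hN' hB' hq hA he)
    (not_le_mid_top A N q M e B' k' hN' hB' hq hA he) h htop hmid

include hN hB in
/-- **RES_e**: the reductions at the cusp `1/(q^e M)` of the inertia-fixed functions of level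
`N q = M q^(e+1)` lie in `k(X₀(M))`. -/
theorem smid_mem_fullC [NeZero M] (he : 1 ≤ e) (hqM : ¬ q ∣ M) (hA : A.LiesOverPrime q)
    (x : ↥(Vmid A N q M e B' k' hN' hB' hq)) :
    smid A N q M e B' k' hN' hB' hq x ∈ modularFunctionFieldFullC (kV A) M := by
  rw [← FMlow_eq A N q M e hN hq hqM hA]
  exact smid_mem A N q M e B k B' k' hN hB hN' hB' hq he hqM hA
    (not_le_top_mid A N q M e B' k' hN' hB' hq hA he)
    (not_le_mid_top A N q M e B' k' hN' hB' hq hA he) x

/-- The inclusion `L0 N → L0 (N q)` is `α` (helper26's map). -/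
theorem inclL0_eq_mapL0D :
    inclL0 A (hleD N q) = Fermat.Agent.S36.NU.H26.mapL0 A (heckeAlphaBar Kbar N q)
      (Fermat.Agent.S36.NU.H26.arithEquivariant_alpha N q) :=
  RingHom.ext fun a => Subtype.ext (coe_inclL0_alphaD A N q a)

/-- helper23's structure (inclusion) is helper26's structure along `α`. -/
theorem algL0_eq_alongD :
    algL0 A (hleD N q) = Fermat.Agent.S36.NU.H26.algL0Along A (heckeAlphaBar Kbar N q)
      (Fermat.Agent.S36.NU.H26.arithEquivariant_alpha N q) :=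
  congrArg RingHom.toAlgebra (inclL0_eq_mapL0D A N q)

theorem norm_congr_algD (a b : Algebra ↥(L0 A N) ↥(L0 A (N * q))) (hab : a = b)
    (h : ↥(L0 A (N * q))) :
    @Algebra.norm ↥(L0 A N) ↥(L0 A (N * q)) _ _ a h
      = @Algebra.norm ↥(L0 A N) ↥(L0 A (N * q)) _ _ b h := by
  subst hab; rfl

/-- The norm along `α` of an inertia-fixed function, for helper23's structure. -/
theorem norm_algL0_D (g : ↥(L0 A (N * q))) :
    Fermat.Agent.Lib.HeckeComm.normAlongHom (heckeAlphaBar Kbar N q).toRingHom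
        (g : FN (N * q))
      = ((@Algebra.norm ↥(L0 A N) ↥(L0 A (N * q)) _ _ (algL0 A (hleD N q)) g :
          ↥(L0 A N)) : FN N) := by
  rw [norm_congr_algD A N q _ _ (algL0_eq_alongD A N q) g]
  exact Fermat.Agent.S36.NU.H26.norm_L0_along A (heckeAlphaBar Kbar N q)
    (Fermat.Agent.S36.NU.H26.arithEquivariant_alpha N q)
    (Fermat.Agent.S36.H44.alpha_finite N q) g

include hN hB in
/-- **NORM-RED along `α` above the cusp `∞`** (N3), for `normAlongHom α`. -/
theorem normDouble_N [NeZero M] (he : 1 ≤ e) (hqM : ¬ q ∣ M) (hA : A.LiesOverPrime q)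
    (h : ↥(L0 A (N * q))) (htop : h ∈ VE0 A (N * q))
    (hmid : h ∈ Vmid A N q M e B' k' hN' hB' hq) :
    ∃ δ : ↥(VE0 A N),
      Fermat.Agent.Lib.HeckeComm.normAlongHom (heckeAlphaBar Kbar N q).toRingHom
        (h : FN (N * q)) = ((δ : ↥(L0 A N)) : FN N) ∧
      sE A N δ = sE A (N * q) ⟨h, htop⟩
        * smid A N q M e B' k' hN' hB' hq ⟨h, hmid⟩ ^ (q - 1) := by
  obtain ⟨δ, h1, h2⟩ := normDouble_main A N q M e B k B' k' hN hB hN' hB' hq he hqM hA h htop hmid
  exact ⟨δ, by rw [norm_algL0_D A N q h, h1], h2⟩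

include hN hB in
/-- **NORM-RED along `α` above the cusp `∞`** (N3), in helper23's names: for `h` inertia-fixed of
level `N q = M q^(e+1)`, integral for `VE (e+1)` and `VE e`, the norm `N_α h` is integral for
`VE e` of level `N` and `sE e (N_α h) = sE (e+1) h * sE e h ^ (q - 1)`. -/
theorem normDouble_E [NeZero M] (he : 1 ≤ e) (hqM : ¬ q ∣ M) (hA : A.LiesOverPrime q)
    (h : ↥(L0 A (N * q)))
    (htop : h ∈ VE A (N * q) q M (e + 1) B' k' hN' hB' hq (e + 1))
    (hmid : h ∈ VE A (N * q) q M (e + 1) B' k' hN' hB' hq e) :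
    ∃ δ : ↥(VE A N q M e B k hN hB hq e),
      Fermat.Agent.Lib.HeckeComm.normAlongHom (heckeAlphaBar Kbar N q).toRingHom
        (h : FN (N * q)) = ((δ : ↥(L0 A N)) : FN N) ∧
      Fermat.Agent.S45.NUE.H23.sE A N q M e B k hN hB hq e δ
        = Fermat.Agent.S45.NUE.H23.sE A (N * q) q M (e + 1) B' k' hN' hB' hq (e + 1) ⟨h, htop⟩
          * Fermat.Agent.S45.NUE.H23.sE A (N * q) q M (e + 1) B' k' hN' hB' hq e ⟨h, hmid⟩
            ^ (q - 1) := by
  have htop0 : h ∈ VE0 A (N * q) := by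
    rw [← VElow_eq A (N * q) q M (e + 1) B' k' hN' hB' hq]; exact htop
  obtain ⟨δ, h1, h2⟩ := normDouble_N A N q M e B k B' k' hN hB hN' hB' hq he hqM hA h htop0 hmid
  have hδ : (δ : ↥(L0 A N)) ∈ VE A N q M e B k hN hB hq e := by
    rw [VElow_eq A N q M e B k hN hB hq]; exact δ.2
  refine ⟨⟨δ, hδ⟩, h1, ?_⟩
  rw [sElow_eq A N q M e B k hN hB hq (δ : ↥(L0 A N)) hδ δ.2,
    sElow_eq A (N * q) q M (e + 1) B' k' hN' hB' hq h htop htop0]
  exact h2

end Double

end Fermat.Agent.S45.NUE.H5
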