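/-
S45 (row 41), NU_e, leaf ND-BASE-MOD (helper60): at the level `M q²` (`e = 2`) helper23's
valuations `VE a` / residue maps `sE a` (`S45/NUE/H23_ValE.lean`) ARE the three valuations of S36
(`S36/NU/H23_Mod1..3`):

  `a = 2 ↔ V20o / r20`,   `a = 1 ↔ V11o / r11`,   `a = 0 ↔ V02o / r02`.

* `VE2_two`, `VE2_one'` (`VE2_one` with the hypothesis `VE2 1 ≠ VE2 2`), `VE2_zero`;
* `sE2_two`, `sE2_one`, `sE2_zero`.

Proof (helper79's cut): THREE for the S36 `nrM` (every valuation ring `≠ ⊤` above `VE0` is one of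
the three), WHICH-ONE by the residue maps on the functions of level `M` (`ne_of_frob`), UNIQ-RED
(`red_eq_of_frob`: the residue extensions are purely inseparable).
-/
import Fermat.Agent.S45.NUE.H57_IncompE
import Fermat.Agent.S36.NU.H23_Mod3
import Fermat.Agent.BAD.H42_Three

set_option autoImplicit false
set_option synthInstance.maxHeartbeats 400000
set_option maxHeartbeats 1000000
set_option linter.style.haveILetI false
set_option linter.unusedSectionVars false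
set_option linter.unusedVariables false

noncomputable section

open ModularCurve AlgebraicCurve
open Fermat.Agent.S24 Fermat.Agent.BAD.H88 Fermat.Agent.S28 Fermat.Agent.S28.H73
open Fermat.Agent.RED.H73 Fermat.Agent.RED.H17 Fermat.Agent.S36.NU.H88
open Fermat.Agent.S36.NU.H23 Fermat.Agent.BAD

namespace Fermat.Agent.S45.NUE.H60

/-! ## Two residue maps of one valuation ring -/

section Abs

variable {L C : Type*} [Field L] [Field C]

/-- **WHICH-ONE**: two valuation rings with residue maps `r`, `s` are different if `s f ^ p ^ n`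
(`n > 0`) is the value `s x` at an element `x` whose `r`-value is not a `p`-th power. -/
theorem ne_of_frob (p : ℕ) (V W : ValuationSubring L) (r : ↥V →+* C) (s : ↥W →+* C)
    (hr : ∀ x : ↥V, ¬ IsUnit x → r x = 0) (f x : L) (hfW : f ∈ W) (hxV : x ∈ V) (hxW : x ∈ W)
    (n : ℕ) (h1 : s ⟨f, hfW⟩ ^ p ^ (n + 1) = s ⟨x, hxW⟩)
    (hnot : ∀ u : C, u ^ p ≠ r ⟨x, hxV⟩) : V ≠ W := by
  intro h
  subst h
  have h3 : s ((⟨f, hfW⟩ : ↥V) ^ p ^ (n + 1) - ⟨x, hxW⟩) = 0 := by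
    rw [map_sub, map_pow, h1, sub_self]
  have h4 : r ((⟨f, hfW⟩ : ↥V) ^ p ^ (n + 1) - ⟨x, hxW⟩) = 0 :=
    hr _ (fun hu => (hu.map s).ne_zero h3)
  rw [map_sub, sub_eq_zero, map_pow] at h4
  refine hnot (r ⟨f, hfW⟩ ^ p ^ n) ?_
  rw [← pow_mul, ← pow_succ]
  exact h4

/-- **UNIQ-RED**: two residue maps `r`, `s` of one valuation ring with values in a field of
characteristic `p` agree at `f` if `s f ^ p ^ n = s x` for some `x` at which they agree. -/
theorem red_eq_of_frob (p : ℕ) [Fact p.Prime] [CharP C p] (V W : ValuationSubring L)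
    (hVW : V = W) (r : ↥V →+* C) (s : ↥W →+* C) (hr : ∀ x : ↥V, ¬ IsUnit x → r x = 0)
    (f x : L) (hfV : f ∈ V) (hfW : f ∈ W) (hxV : x ∈ V) (hxW : x ∈ W) (n : ℕ)
    (h1 : s ⟨f, hfW⟩ ^ p ^ n = s ⟨x, hxW⟩) (h2 : r ⟨x, hxV⟩ = s ⟨x, hxW⟩) :
    r ⟨f, hfV⟩ = s ⟨f, hfW⟩ := by
  subst hVW
  haveI : ExpChar C p := ExpChar.prime Fact.out
  have h3 : s ((⟨f, hfW⟩ : ↥V) ^ p ^ n - ⟨x, hxW⟩) = 0 := by
    rw [map_sub, map_pow, h1, sub_self]
  have h4 : r ((⟨f, hfW⟩ : ↥V) ^ p ^ n - ⟨x, hxW⟩) = 0 :=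
    hr _ (fun hu => (hu.map s).ne_zero h3)
  rw [map_sub, sub_eq_zero, map_pow] at h4
  apply iterateFrobenius_inj C p n
  rw [iterateFrobenius_def, iterateFrobenius_def]
  exact h4.trans (h2.trans h1.symm)

end Abs

/-! ## Series in characteristic `q` -/

section Ser

variable (k : Type*) [Field k] (q : ℕ) [NeZero q] [Fact q.Prime] [CharP k q]

/-- `j̃ ^ (q²) = j̃ (t^(q²))`. -/
theorem jq_pow_sq : jqModC k ^ q ^ (1 + 1) = qExpand k q (qExpand k q (jqModC k)) := by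
  rw [show q ^ (1 + 1) = q * q by ring, pow_mul, Fermat.Agent.BAD.H82.jqModC_pow_char k q,
    ← map_pow, Fermat.Agent.BAD.H82.jqModC_pow_char k q]

/-- `j̃` is not a `q`-th power. -/
theorem jq_ne_pow (u : LaurentSeries k) : u ^ q ≠ jqModC k := by
  intro h
  have h1 : (u ^ q).coeff (-1) = (jqModC k).coeff (-1) := by rw [h]
  rw [Fermat.Agent.RED.H10.pow_char_eq q u, coeff_jqModC_neg_one,
    qExpand_coeff_of_not_dvd] at h1
  · exact zero_ne_one h1
  · intro hd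
    have h2 : ((q : ℕ) : ℤ) ∣ 1 := (dvd_neg (a := (q : ℤ)) (b := 1)).mp hd
    have h3 : q ∣ 1 := by exact_mod_cast h2
    exact (Fact.out : q.Prime).one_lt.ne' (Nat.dvd_one.mp h3)

variable [PerfectRing k q]

/-- `c ^ (q²) = (φ² c)(t^(q²))`. -/
theorem pow_sq_eq_frobL (c : LaurentSeries k) :
    c ^ q ^ 2 = qExpand k q (qExpand k q (Fermat.Agent.BAD.H73.frobL k q
      (Fermat.Agent.BAD.H73.frobL k q c))) := by
  rw [show q ^ 2 = q * q by ring, pow_mul, Fermat.Agent.BAD.H73.pow_eq_qExpand_frobL q c,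
    Fermat.Agent.BAD.H73.pow_eq_qExpand_frobL q (qExpand k q _),
    Fermat.Agent.BAD.H73.frobL_qExpand]

end Ser

/-! ## The level `M q²` -/

section Base

variable (A : ValuationSubring Kbar) (q M : ℕ) (B k : ℤ) (hB : B * M + k * q = 1) (B' k' : ℤ)
  (hB' : B' * M + k' * (q : ℤ) ^ 2 = 1) (hN : M * q * q = M * q ^ 2) (hq : q.Prime)
  [NeZero M] [NeZero q] [NeZero (M * q * q)] (hqM : ¬ q ∣ M) (hA : A.LiesOverPrime q)

local notation "VE2" => Fermat.Agent.S45.NUE.H23.VE A (M * q * q) q M 2 B' k' hN hB' hq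
local notation "sE2" => Fermat.Agent.S45.NUE.H23.sE A (M * q * q) q M 2 B' k' hN hB' hq

/-- `a = 2`: the Gauss valuation at `∞`. -/
theorem VE2_two : VE2 2 = V20o A q M := by
  ext x
  rw [Fermat.Agent.S45.NUE.H23.mem_VE_top_iff, mem_V20o_iff]

theorem sE2_two (x : ↥(L0 A (M * q * q))) (h : x ∈ VE2 2) (h' : x ∈ V20o A q M) :
    sE2 2 ⟨x, h⟩ = ((r20 A q M hq hqM hA ⟨x, h'⟩ : FM A M) : LaurentSeries (kV A)) := by
  rw [coe_r20, s20_mk, Fermat.Agent.S45.NUE.H23.sE_mk]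
  congr 1
  exact Subtype.ext
    (Fermat.Agent.S45.NUE.H23.cE_top (M * q * q) q M 2 B' k' hN hB' hq (x : FN (M * q * q)))

/-- The functions of level `M` lie in all `VE2 a`. -/
theorem incl_mem_VE2 (a : ℕ) (x : ↥(L0 A M)) (hx : x ∈ VE0 A M) :
    inclL0 A (hleMN q M) x ∈ VE2 a :=
  Fermat.Agent.S45.NUE.H17.inclL0_mem_VE A (M * q * q) q M 2 B' k' hN hB' hq (hleMN q M) a x hx

include hA in
theorem VE2_ne_top (a : ℕ) (ha : a ≤ 2) : VE2 a ≠ ⊤ := by
  intro h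
  rcases Nat.eq_zero_or_pos a with h0 | h0
  · subst h0
    refine Fermat.Agent.S45.NUE.H57.not_le_VE A (M * q * q) q M 2 B' k' hN hB' hq hA 1 0
      (by omega) (by omega) (by omega) ?_
    rw [h]
    exact le_top
  · refine Fermat.Agent.S45.NUE.H57.not_le_VE A (M * q * q) q M 2 B' k' hN hB' hq hA 0 a
      (by omega) ha (by omega) ?_
    rw [h]
    exact le_top

include hqM hA in
/-- **THREE**: `VE2 a` is one of the three valuation rings of S36. -/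
theorem three_VE2 (a : ℕ) (ha : a ≤ 2) :
    VE2 a = V20o A q M ∨ VE2 a = V11o A q M B k hB hq ∨ VE2 a = V02o A q M B k hB := by
  letI := algL0 A (hleMN q M)
  letI := algM A q M hq hqM hA
  haveI : Module.Finite ↥(L0 A M) ↥(L0 A (M * q * q)) := finite_L0_NU A q M
  haveI : ∀ i, Module.Finite (FM A M) (kap3 (FM A M) (FM A M) i) :=
    fun i => (nrM A q M B k hB hq hqM hA).finite_res i
  have hW : ∀ x : ↥(L0 A M), x ∈ (nrM A q M B k hB hq hqM hA).VE →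
      algebraMap ↥(L0 A M) ↥(L0 A (M * q * q)) x ∈ VE2 a := by
    intro x hx
    show inclL0 A (hleMN q M) x ∈ VE2 a
    exact incl_mem_VE2 A q M B' k' hB' hN hq a x hx
  obtain ⟨i, hi⟩ := H42.NRData.eq_of_valuationSubring (nrM A q M B k hB hq hqM hA)
    (nrM_hdeg A q M B k hB hq hqM hA) (VE2 a) hW (VE2_ne_top A q M B' k' hB' hN hq hA a ha)
  fin_cases i
  · exact Or.inl hi
  · exact Or.inr (Or.inl hi)
  · exact Or.inr (Or.inr hi)

include hq hqM hA in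
/-- A function of level `M` with reduction `j̃`. -/
theorem exists_lift_jq :
    ∃ x0 : ↥(VE0 A M), sE A M x0 = jqModC (kV A) := by
  obtain ⟨x0, hx0⟩ := rE_surjective A q M hq hqM hA
    ⟨jqModC (kV A), jqModC_mem_FM A q M hq hqM hA⟩
  refine ⟨x0, ?_⟩
  rw [← coe_rE, hx0]

/-- The reduction at `VE2 a` of a function of level `M`. -/
theorem sE2_incl (a : ℕ) (x0 : ↥(VE0 A M))
    (h : inclL0 A (hleMN q M) (x0 : ↥(L0 A M)) ∈ VE2 a) :
    haveI : NeZero (q ^ (2 - 2 * a)) := ⟨pow_ne_zero _ (NeZero.ne q)⟩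
    sE2 a ⟨_, h⟩ = qExpand (kV A) (q ^ (2 - 2 * a)) (sE A M x0) :=
  Fermat.Agent.S45.NUE.H17.sE_inclL0 A (M * q * q) q M 2 B' k' hN hB' hq (hleMN q M) a x0 h

theorem sE2_incl_zero (x0 : ↥(VE0 A M))
    (h : inclL0 A (hleMN q M) (x0 : ↥(L0 A M)) ∈ VE2 0) :
    sE2 0 ⟨_, h⟩ = qExpand (kV A) q (qExpand (kV A) q (sE A M x0)) := by
  haveI : NeZero (q ^ (2 - 2 * 0)) := ⟨pow_ne_zero _ (NeZero.ne q)⟩
  haveI : NeZero (q * q) := ⟨Nat.mul_ne_zero (NeZero.ne q) (NeZero.ne q)⟩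
  rw [sE2_incl A q M B' k' hB' hN hq 0 x0 h, qExpand_qExpand]
  exact qExpand_congr (by ring) _

theorem sE2_incl_one (x0 : ↥(VE0 A M))
    (h : inclL0 A (hleMN q M) (x0 : ↥(L0 A M)) ∈ VE2 1) :
    sE2 1 ⟨_, h⟩ = sE A M x0 := by
  haveI : NeZero (q ^ (2 - 2 * 1)) := ⟨pow_ne_zero _ (NeZero.ne q)⟩
  rw [sE2_incl A q M B' k' hB' hN hq 1 x0 h,
    qExpand_congr (show q ^ (2 - 2 * 1) = 1 by simp), qExpand_one_apply]

include hqM hA in
/-- **`a = 0`: the cusp `0`.** -/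
theorem VE2_zero : VE2 0 = V02o A q M B k hB := by
  haveI : Fact q.Prime := ⟨hq⟩
  haveI : CharP (kV A) q := Fermat.Agent.BAD.H82.charP_kV A hq hA
  obtain ⟨x0, hx0⟩ := exists_lift_jq A q M hq hqM hA
  have hxW : inclL0 A (hleMN q M) (x0 : ↥(L0 A M)) ∈ VE2 0 :=
    incl_mem_VE2 A q M B' k' hB' hN hq 0 x0 x0.2
  obtain ⟨f, hf⟩ := Fermat.Agent.S45.NUE.H17.exists_sE_eq A (M * q * q) q M 2 B' k' hN hB' hq
    hqM hA (hleMN q M) 0 (by omega) (jqModC (kV A)) (jqModC_mem_full (kV A) M)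
  have h1 : sE2 0 ⟨(f : ↥(L0 A (M * q * q))), f.2⟩ ^ q ^ (1 + 1)
      = sE2 0 ⟨inclL0 A (hleMN q M) (x0 : ↥(L0 A M)), hxW⟩ := by
    rw [sE2_incl_zero A q M B' k' hB' hN hq x0 hxW, hx0, ← jq_pow_sq (kV A) q]
    congr 1
  rcases three_VE2 A q M B k hB B' k' hB' hN hq hqM hA 0 (by omega) with h | h | h
  · exfalso
    refine ne_of_frob q (V20o A q M) (VE2 0) (s20 A q M) (sE2 0)
      (s20_eq_zero_of_not_isUnit A q M) (f : ↥(L0 A (M * q * q)))
      (inclL0 A (hleMN q M) (x0 : ↥(L0 A M))) f.2 (hVE20 A q M x0 x0.2) hxW 1 h1 ?_ h.symm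
    intro u
    rw [s20_incl A q M x0 (hVE20 A q M x0 x0.2), hx0]
    exact jq_ne_pow (kV A) q u
  · exfalso
    refine ne_of_frob q (V11o A q M B k hB hq) (VE2 0) (s11 A q M B k hB hq) (sE2 0)
      (s11_eq_zero_of_not_isUnit A q M B k hB hq) (f : ↥(L0 A (M * q * q)))
      (inclL0 A (hleMN q M) (x0 : ↥(L0 A M))) f.2 (hVE11 A q M B k hB hq x0 x0.2) hxW 1 h1 ?_
      h.symm
    intro u
    rw [s11_incl A q M B k hB hq x0 (hVE11 A q M B k hB hq x0 x0.2), hx0]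
    exact jq_ne_pow (kV A) q u
  · exact h

include hqM hA in
/-- **`a = 1`: the middle cusp** (helper79's form, with the incomparability as a hypothesis). -/
theorem VE2_one (hne : VE2 1 ≠ VE2 2) : VE2 1 = V11o A q M B k hB hq := by
  haveI : Fact q.Prime := ⟨hq⟩
  haveI : CharP (kV A) q := Fermat.Agent.BAD.H82.charP_kV A hq hA
  obtain ⟨x0, hx0⟩ := exists_lift_jq A q M hq hqM hA
  have hxV : inclL0 A (hleMN q M) (x0 : ↥(L0 A M)) ∈ VE2 1 :=
    incl_mem_VE2 A q M B' k' hB' hN hq 1 x0 x0.2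
  obtain ⟨f, hf⟩ := r02_surjective A q M B k hB hq hqM hA
    ⟨jqModC (kV A), jqModC_mem_FM A q M hq hqM hA⟩
  have hf' : s02 A q M B k hB f = jqModC (kV A) := by
    rw [← coe_r02 A q M B k hB hq hqM hA, hf]
  have h1 : s02 A q M B k hB ⟨(f : ↥(L0 A (M * q * q))), f.2⟩ ^ q ^ (1 + 1)
      = s02 A q M B k hB ⟨inclL0 A (hleMN q M) (x0 : ↥(L0 A M)),
          hVE02 A q M B k hB hq x0 x0.2⟩ := by
    rw [s02_incl A q M B k hB hq x0 (hVE02 A q M B k hB hq x0 x0.2), hx0,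
      ← jq_pow_sq (kV A) q]
    congr 1
  rcases three_VE2 A q M B k hB B' k' hB' hN hq hqM hA 1 (by omega) with h | h | h
  · exfalso
    exact hne (h.trans (VE2_two A q M B' k' hB' hN hq).symm)
  · exact h
  · exfalso
    refine ne_of_frob q (VE2 1) (V02o A q M B k hB) (sE2 1) (s02 A q M B k hB)
      (Fermat.Agent.S45.NUE.H23.sE_eq_zero_of_not_isUnit A (M * q * q) q M 2 B' k' hN hB' hq 1)
      (f : ↥(L0 A (M * q * q))) (inclL0 A (hleMN q M) (x0 : ↥(L0 A M))) f.2 hxV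
      (hVE02 A q M B k hB hq x0 x0.2) 1 h1 ?_ h
    intro u
    rw [sE2_incl_one A q M B' k' hB' hN hq x0 hxV, hx0]
    exact jq_ne_pow (kV A) q u

include hqM hA in
/-- **`a = 1`: the middle cusp.** -/
theorem VE2_one' : VE2 1 = V11o A q M B k hB hq := by
  refine VE2_one A q M B k hB B' k' hB' hN hq hqM hA ?_
  intro h
  refine Fermat.Agent.S45.NUE.H57.not_le_VE A (M * q * q) q M 2 B' k' hN hB' hq hA 1 2
    (by omega) (by omega) (by omega) ?_
  rw [h]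

/-- **The residue map at `a = 1`.** -/
theorem sE2_one (x : ↥(L0 A (M * q * q))) (h : x ∈ VE2 1) (h' : x ∈ V11o A q M B k hB hq) :
    sE2 1 ⟨x, h⟩
      = ((r11 A q M B k hB hq hqM hA ⟨x, h'⟩ : FM A M) : LaurentSeries (kV A)) := by
  haveI : Fact q.Prime := ⟨hq⟩
  haveI : CharP (kV A) q := Fermat.Agent.BAD.H82.charP_kV A hq hA
  haveI : CharP (LaurentSeries (kV A)) q :=
    charP_of_injective_algebraMap (algebraMap (kV A) (LaurentSeries (kV A))).injective q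
  rw [coe_r11]
  obtain ⟨x0, hx0⟩ := rE_surjective A q M hq hqM hA (r11 A q M B k hB hq hqM hA ⟨x, h'⟩)
  have hx0' : sE A M x0 = s11 A q M B k hB hq ⟨x, h'⟩ := by
    rw [← coe_rE, hx0, coe_r11]
  have hxV : inclL0 A (hleMN q M) (x0 : ↥(L0 A M)) ∈ VE2 1 :=
    incl_mem_VE2 A q M B' k' hB' hN hq 1 x0 x0.2
  refine red_eq_of_frob q (VE2 1) (V11o A q M B k hB hq)
    (VE2_one' A q M B k hB B' k' hB' hN hq hqM hA) (sE2 1) (s11 A q M B k hB hq)
    (Fermat.Agent.S45.NUE.H23.sE_eq_zero_of_not_isUnit A (M * q * q) q M 2 B' k' hN hB' hq 1)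
    x (inclL0 A (hleMN q M) (x0 : ↥(L0 A M))) h h' hxV (hVE11 A q M B k hB hq x0 x0.2) 0 ?_ ?_
  · rw [pow_zero, pow_one, s11_incl A q M B k hB hq x0 (hVE11 A q M B k hB hq x0 x0.2), hx0']
  · rw [sE2_incl_one A q M B' k' hB' hN hq x0 hxV,
      s11_incl A q M B k hB hq x0 (hVE11 A q M B k hB hq x0 x0.2)]

/-- **The residue map at `a = 0`.** -/
theorem sE2_zero (x : ↥(L0 A (M * q * q))) (h : x ∈ VE2 0) (h' : x ∈ V02o A q M B k hB) :
    sE2 0 ⟨x, h⟩
      = ((r02 A q M B k hB hq hqM hA ⟨x, h'⟩ : FM A M) : LaurentSeries (kV A)) := by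
  haveI : Fact q.Prime := ⟨hq⟩
  haveI : CharP (kV A) q := Fermat.Agent.BAD.H82.charP_kV A hq hA
  haveI : PerfectRing (kV A) q := Fermat.Agent.BAD.H73.perfectRing_kV A q
  haveI : CharP (LaurentSeries (kV A)) q :=
    charP_of_injective_algebraMap (algebraMap (kV A) (LaurentSeries (kV A))).injective q
  rw [coe_r02]
  obtain ⟨x0, hx0⟩ := rE_surjective A q M hq hqM hA
    (phiM A q M hq hqM hA (phiM A q M hq hqM hA (r02 A q M B k hB hq hqM hA ⟨x, h'⟩)))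
  have hx0' : sE A M x0 = Fermat.Agent.BAD.H73.frobL (kV A) q
      (Fermat.Agent.BAD.H73.frobL (kV A) q (s02 A q M B k hB ⟨x, h'⟩)) := by
    rw [← coe_rE, hx0]
    rfl
  have hxV : inclL0 A (hleMN q M) (x0 : ↥(L0 A M)) ∈ VE2 0 :=
    incl_mem_VE2 A q M B' k' hB' hN hq 0 x0 x0.2
  refine red_eq_of_frob q (VE2 0) (V02o A q M B k hB)
    (VE2_zero A q M B k hB B' k' hB' hN hq hqM hA) (sE2 0) (s02 A q M B k hB)
    (Fermat.Agent.S45.NUE.H23.sE_eq_zero_of_not_isUnit A (M * q * q) q M 2 B' k' hN hB' hq 0)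
    x (inclL0 A (hleMN q M) (x0 : ↥(L0 A M))) h h' hxV (hVE02 A q M B k hB hq x0 x0.2) 2 ?_ ?_
  · rw [s02_incl A q M B k hB hq x0 (hVE02 A q M B k hB hq x0 x0.2), hx0',
      ← pow_sq_eq_frobL (kV A) q]
  · rw [sE2_incl_zero A q M B' k' hB' hN hq x0 hxV,
      s02_incl A q M B k hB hq x0 (hVE02 A q M B k hB hq x0 x0.2)]

end Base

end Fermat.Agent.S45.NUE.H60
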