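/-
S45 (row 41), NU_e, leaf ND-BASE-GLUE (helper60): the base of the GLUE tower.

At the level `N = M q²` the conservation datum `totEM` of helper23 (`e = 2`) is glued at the
supersingular points: transfer (`H79.glued_transfer`) of S36's GLUE3 (`nuMod.glue`, for the
conservation datum `totM`) along the identification `VE a = V20o / V11o / V02o`,
`sE a = r20 / r11 / r02` of `H60_BaseE.lean`.

* `glued_totEM_two`.
-/
import Fermat.Agent.S45.NUE.H60_BaseE
import Fermat.Agent.S45.NUE.H23_TotE4
import Fermat.Agent.S45.NUE.H79_Transfer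
import Fermat.Agent.S36.NU.H79_NmFibM

set_option autoImplicit false
set_option synthInstance.maxHeartbeats 400000
set_option maxHeartbeats 1000000
set_option linter.style.haveILetI false
set_option linter.unusedSectionVars false
set_option linter.unusedVariables false

noncomputable section

open ModularCurve AlgebraicCurve
open Fermat.Agent.S24 Fermat.Agent.BAD.H88 Fermat.Agent.S28 Fermat.Agent.S28.H73
open Fermat.Agent.RED.H73 Fermat.Agent.RED.H17 Fermat.Agent.S36.NU.H88
open Fermat.Agent.S36.NU.H23 Fermat.Agent.BAD Fermat.Agent.RED Fermat.Agent.S36.NU.H79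

namespace Fermat.Agent.S45.NUE.H60

section BaseGlue

variable (A : ValuationSubring Kbar) (q M : ℕ) (B k : ℤ) (hB : B * M + k * q = 1) (B' k' : ℤ)
  (hB' : B' * M + k' * (q : ℤ) ^ 2 = 1) (hN : M * q * q = M * q ^ 2) (hq : q.Prime)
  [NeZero M] [NeZero q] [NeZero (M * q)] [NeZero (M * q * q)] (hqM : ¬ q ∣ M)
  (hA : A.LiesOverPrime q) (ht : H91.TameAt M q)

/-- Values of equal functions at equal places of the curve of level `M`. -/
theorem hasValue_congr_FM (v v' : Place (kV A) (FM A M)) (f f' : FM A M) (hv : v = v')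
    (hf : f = f') (c : kV A) : HasValue v f c ↔ HasValue v' f' c := by
  rw [hv, hf]

include hB in
/-- The base of the GLUE tower, at the level `M q q`. -/
theorem glued_totEM_two_aux :
    letI := Fermat.Agent.S45.NUE.H23.algkE A M 2
    ∀ z ∈ Fermat.Agent.S36.NU.H74.ssM A q M,
      Fermat.Agent.S36.NU.H24.Glued
        (Fermat.Agent.S45.NUE.H23.totEM A (M * q * q) q M 2 B' k' hN hB' hq hqM hA ht
          (by norm_num)) z := by
  intro z hz
  letI := Fermat.Agent.S45.NUE.H23.algkE A M 2
  letI := algkM A M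
  have hG : Fermat.Agent.S36.NU.H24.Glued (totM A q M B k hB hq hqM hA ht) z :=
    fun f hf i j c => (nuMod A q M B k hB hq hqM hA ht).glue z hz f hf i j c
  refine Fermat.Agent.S45.NUE.H79.glued_transfer
    (Fermat.Agent.S45.NUE.H23.totEM A (M * q * q) q M 2 B' k' hN hB' hq hqM hA ht
      (by norm_num))
    (totM A q M B k hB hq hqM hA ht) Fin.rev Fin.rev_surjective ?_ z ?_ ?_ hG
  · intro i
    fin_cases i
    · exact VE2_zero A q M B k hB B' k' hB' hN hq hqM hA
    · exact VE2_one' A q M B k hB B' k' hB' hN hq hqM hA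
    · exact VE2_two A q M B' k' hB' hN hq
  · intro P hP
    exact hP
  · intro i f hf c
    fin_cases i
    · have hf0 : f ∈ Fermat.Agent.S45.NUE.H23.VE A (M * q * q) q M 2 B' k' hN hB' hq 0 := hf
      have hf' : f ∈ V02o A q M B k hB := by
        rw [← VE2_zero A q M B k hB B' k' hB' hN hq hqM hA]
        exact hf0
      have hrd : ((Fermat.Agent.S45.NUE.H23.totEM A (M * q * q) q M 2 B' k' hN hB' hq hqM hA ht
            (by norm_num)).rdN 0 f : FM A M)
          = ((totM A q M B k hB hq hqM hA ht).rdN 2 f : FM A M) := by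
        rw [TotN.rdN_of_mem _ hf0, TotN.rdN_of_mem _ hf']
        exact Subtype.ext (sE2_zero A q M B k hB B' k' hB' hN hq hqM hA f hf0 hf')
      have hpt : (Fermat.Agent.S45.NUE.H23.ptE A q M 2 hq hqM hA 0 z : Place (kV A) (FM A M))
          = (ptM A q M hq hqM hA 2 z : Place (kV A) (FM A M)) := rfl
      exact hasValue_congr_FM A M _ _ _ _ hpt hrd c
    · have hf0 : f ∈ Fermat.Agent.S45.NUE.H23.VE A (M * q * q) q M 2 B' k' hN hB' hq 1 := hf
      have hf' : f ∈ V11o A q M B k hB hq := by
        rw [← VE2_one' A q M B k hB B' k' hB' hN hq hqM hA]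
        exact hf0
      have hrd : ((Fermat.Agent.S45.NUE.H23.totEM A (M * q * q) q M 2 B' k' hN hB' hq hqM hA ht
            (by norm_num)).rdN 1 f : FM A M)
          = ((totM A q M B k hB hq hqM hA ht).rdN 1 f : FM A M) := by
        rw [TotN.rdN_of_mem _ hf0, TotN.rdN_of_mem _ hf']
        exact Subtype.ext (sE2_one A q M B k hB B' k' hB' hN hq hqM hA f hf0 hf')
      have hpt : (Fermat.Agent.S45.NUE.H23.ptE A q M 2 hq hqM hA 1 z : Place (kV A) (FM A M))
          = (ptM A q M hq hqM hA 1 z : Place (kV A) (FM A M)) := rfl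
      exact hasValue_congr_FM A M _ _ _ _ hpt hrd c
    · have hf0 : f ∈ Fermat.Agent.S45.NUE.H23.VE A (M * q * q) q M 2 B' k' hN hB' hq 2 := hf
      have hf' : f ∈ V20o A q M := by
        rw [← VE2_two A q M B' k' hB' hN hq]
        exact hf0
      have hrd : ((Fermat.Agent.S45.NUE.H23.totEM A (M * q * q) q M 2 B' k' hN hB' hq hqM hA ht
            (by norm_num)).rdN 2 f : FM A M)
          = ((totM A q M B k hB hq hqM hA ht).rdN 0 f : FM A M) := by
        rw [TotN.rdN_of_mem _ hf0, TotN.rdN_of_mem _ hf']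
        exact Subtype.ext (sE2_two A q M B' k' hB' hN hq hqM hA f hf0 hf')
      have hpt : (Fermat.Agent.S45.NUE.H23.ptE A q M 2 hq hqM hA 2 z : Place (kV A) (FM A M))
          = (ptM A q M hq hqM hA 0 z : Place (kV A) (FM A M)) := rfl
      exact hasValue_congr_FM A M _ _ _ _ hpt hrd c

end BaseGlue

/-- **ND-BASE-GLUE**: the conservation datum `totEM` of the level `N = M q²` is glued at the
supersingular points (the base of the GLUE tower). -/
theorem glued_totEM_two (A : ValuationSubring Kbar) (N q M : ℕ) (B' k' : ℤ)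
    (hN : N = M * q ^ 2) (hB' : B' * M + k' * (q : ℤ) ^ 2 = 1) (hq : q.Prime)
    [NeZero N] [NeZero q] [NeZero M] (hqM : ¬ q ∣ M) (hA : A.LiesOverPrime q)
    (ht : H91.TameAt M q) :
    letI := Fermat.Agent.S45.NUE.H23.algkE A M 2
    ∀ z ∈ Fermat.Agent.S36.NU.H74.ssM A q M,
      Fermat.Agent.S36.NU.H24.Glued
        (Fermat.Agent.S45.NUE.H23.totEM A N q M 2 B' k' hN hB' hq hqM hA ht (by norm_num)) z := by
  have hN' : N = M * q * q := by rw [hN]; ring
  subst hN'
  have hB : B' * (M : ℤ) + (k' * (q : ℤ)) * (q : ℤ) = 1 := by rw [← hB']; ring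
  exact glued_totEM_two_aux A q M B' (k' * (q : ℤ)) hB B' k' hB' hN hq hqM hA ht

end Fermat.Agent.S45.NUE.H60
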