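import Mathlib.Data.Nat.Totient
import Mathlib.Algebra.BigOperators.Fin
import Mathlib.Tactic.Ring
import Mathlib.Tactic.Linarith

/-!
# S45 / NU_e, package E-TOT, leaf T7 ARITH (helper62): the degree count

`∑_{a = 0}^{e} φ(q^min(a, e-a)) · q^(e - 2a) = q^e + q^(e-1)` for a prime `q` and `e ≥ 1`
(truncated subtraction): the sum of `e_a f_a` over the `e + 1` valuations of level `M' q^e`
equals the degree of `X₀(M' q^e) → X₀(M')`.
-/

set_option autoImplicit false

namespace Fermat.Agent.S45.NUE.H62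

/-- The term `e_a f_a` of the component `a` at level `q^e`. -/
def mE (q e a : ℕ) : ℕ := Nat.totient (q ^ min a (e - a)) * q ^ (e - 2 * a)

theorem mE_def (q e a : ℕ) :
    mE q e a = Nat.totient (q ^ min a (e - a)) * q ^ (e - 2 * a) := rfl

theorem mul_pred_add (q x y : ℕ) (hq : 1 ≤ q) : x * (q - 1) * y + x * y = x * y * q := by
  obtain ⟨r, rfl⟩ : ∃ r, q = r + 1 := ⟨q - 1, (Nat.sub_add_cancel hq).symm⟩
  rw [Nat.add_sub_cancel]
  ring

/-- `e_a f_a + q^(e-1-a) = q^(e-a)` for `1 ≤ a ≤ e - 1`. -/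
theorem mE_key (q e a : ℕ) (hq : q.Prime) (ha : 1 ≤ a) (hae : a + 1 ≤ e) :
    mE q e a + q ^ (e - 1 - a) = q ^ (e - a) := by
  rw [mE_def]
  rcases Nat.le_total (2 * a) e with h | h
  · have hmin : min a (e - a) = a := min_eq_left (by omega)
    have e1 : e - 1 - a = (a - 1) + (e - 2 * a) := by omega
    have e2 : e - a = (a - 1) + (e - 2 * a) + 1 := by omega
    rw [hmin, Nat.totient_prime_pow hq (by omega : 0 < a), e1, e2, pow_succ, pow_add]
    exact mul_pred_add q _ _ hq.one_le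
  · have hmin : min a (e - a) = e - a := min_eq_right (by omega)
    have e0 : e - 2 * a = 0 := by omega
    have e1 : e - 1 - a = e - a - 1 := by omega
    have e2 : q ^ (e - a) = q ^ (e - a - 1) * q := by
      rw [← pow_succ]
      congr 1
      omega
    rw [hmin, Nat.totient_prime_pow hq (by omega : 0 < e - a), e0, e1, e2, pow_zero]
    have := mul_pred_add q (q ^ (e - a - 1)) 1 hq.one_le
    simpa using this

theorem mE_zero (q e : ℕ) : mE q e 0 = q ^ e := by
  simp [mE_def]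

theorem mE_self (q e : ℕ) : mE q e e = 1 := by
  have h1 : e - 2 * e = 0 := by omega
  simp [mE_def, h1]

/-- The telescoping sum. -/
theorem sum_mE_tel (q e' : ℕ) (hq : q.Prime) (n : ℕ) (hn : n ≤ e') :
    (∑ a ∈ Finset.range n, mE q (e' + 1) (a + 1)) + q ^ (e' - n) = q ^ e' := by
  induction n with
  | zero => simp
  | succ n ih =>
    have hk := mE_key q (e' + 1) (n + 1) hq (by omega) (by omega)
    have e1 : e' + 1 - 1 - (n + 1) = e' - (n + 1) := by omega
    have e2 : e' + 1 - (n + 1) = e' - n := by omega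
    rw [e1, e2] at hk
    rw [Finset.sum_range_succ, add_assoc, hk]
    exact ih (by omega)

/-- **The degree count**: `∑_a φ(q^min(a,e-a)) q^(e-2a) = q^e + q^(e-1)`. -/
theorem sum_mE (q e : ℕ) (hq : q.Prime) (he : 0 < e) :
    ∑ a : Fin (e + 1), Nat.totient (q ^ min (a : ℕ) (e - a)) * q ^ (e - 2 * a)
      = q ^ e + q ^ (e - 1) := by
  obtain ⟨e', rfl⟩ : ∃ e', e = e' + 1 := ⟨e - 1, by omega⟩
  show ∑ a : Fin (e' + 1 + 1), mE q (e' + 1) (a : ℕ) = q ^ (e' + 1) + q ^ (e' + 1 - 1)
  rw [Fin.sum_univ_eq_sum_range (fun a => mE q (e' + 1) a) (e' + 1 + 1),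
    Finset.sum_range_succ, Finset.sum_range_succ', mE_zero, mE_self, Nat.add_sub_cancel]
  have ht := sum_mE_tel q e' hq e' le_rfl
  rw [Nat.sub_self, pow_zero] at ht
  omega

end Fermat.Agent.S45.NUE.H62
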