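import Fermat.Agent.S45.NUE.Defs
import Fermat.Agent.S36.NU.H26_NormPow0
import Fermat.Agent.S36.NU.H10_FinTop

/-!
# S45 / NU_e, E-TOP (helper68): `Stmt_NUCoreEK M q` from the two modular targets

Level `M * q` (any `M`), `A` a valuation ring of `ℚ̄` over `q`, `L0 A (M * q)` the inertia-fixed
functions, `U : L0 A (M * q) → Prop` ANY predicate ("`h` is a unit for the `e + 1` valuations").

* `lvlE M' q e` : the level `M' q ^ e`, with `lvlE M' q (e + 1) = lvlE M' q e * q` BY `rfl`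
  (so that `heckeAlphaBar ℚ̄ (lvlE M' q e) q : F_{lvlE e} → F_{lvlE (e + 1)}` typechecks);
* `IsNormPowE A φ n h` : the norm of `h` along `φ` is `c gⁿ`, `c`, `g` fixed by inertia;
* `FinModE A q M U` (target of E-FIN): a `U`-unit `h` with `n ∣ div h` and norms `c gⁿ` along
  `α`, `β` has `h ^ E = constant · n`-th power (`E ≠ 0` fixed, `n` prime to `6 q (q² - 1)`);
* `ValVecE A q M U` (target of E-VV): for `f ≠ 0` with norms `c gⁿ` there are `b`, `w` with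
  `f ^ K q ^ (-b) wⁿ` a `U`-unit (`K ≠ 0` fixed);
* `nuCoreEK_of : FinModE → ValVecE → Stmt_NUCoreEK M q` (needs `A.LiesOverPrime q`);
* `exists_lvlE` : every `M` with `q ^ 2 ∣ M` is `lvlE M' q e` with `q ∤ M'`, `2 ≤ e`.
-/

set_option autoImplicit false
set_option linter.style.haveILetI false
set_option linter.unusedSectionVars false
set_option maxHeartbeats 1000000
set_option synthInstance.maxHeartbeats 400000

noncomputable section

open ModularCurve AlgebraicCurve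
open Fermat.Agent.S24 Fermat.Agent.BAD Fermat.Agent.BAD.H88 Fermat.Agent.Lib.HeckeComm
open Fermat.Agent.S36.NU.H23 Fermat.Agent.S36.NU.H81 Fermat.Agent.S36.NU.H10
open Fermat.Agent.S36.H44

namespace Fermat.Agent.S45.NUE

/-- The level `M' q ^ e`, in the form `(… (M' * q) * q …) * q`. -/
def lvlE (M' q : ℕ) : ℕ → ℕ
  | 0 => M'
  | e + 1 => lvlE M' q e * q

@[simp] theorem lvlE_zero (M' q : ℕ) : lvlE M' q 0 = M' := rfl

theorem lvlE_succ (M' q e : ℕ) : lvlE M' q (e + 1) = lvlE M' q e * q := rfl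

theorem lvlE_eq (M' q e : ℕ) : lvlE M' q e = M' * q ^ e := by
  induction e with
  | zero => simp
  | succ e ih => rw [lvlE_succ, ih, pow_succ, mul_assoc]

theorem lvlE_ne_zero {M' q : ℕ} (hM : M' ≠ 0) (hq : q ≠ 0) (e : ℕ) : lvlE M' q e ≠ 0 := by
  rw [lvlE_eq]
  exact Nat.mul_ne_zero hM (pow_ne_zero e hq)

instance instNeZeroLvlE (M' q e : ℕ) [NeZero M'] [NeZero q] : NeZero (lvlE M' q e) :=
  ⟨lvlE_ne_zero (NeZero.ne M') (NeZero.ne q) e⟩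

/-- Every `M ≠ 0` with `q ^ 2 ∣ M` is `lvlE M' q e` with `q ∤ M'` and `2 ≤ e`. -/
theorem exists_lvlE {q : ℕ} (hq : q.Prime) {M : ℕ} (hM : M ≠ 0) (h2 : q ^ 2 ∣ M) :
    ∃ M' e : ℕ, M' ≠ 0 ∧ ¬ q ∣ M' ∧ 2 ≤ e ∧ M = lvlE M' q e := by
  obtain ⟨e, M', hM', hMe⟩ := Nat.exists_eq_pow_mul_and_not_dvd hM q hq.ne_one
  refine ⟨M', e, ?_, hM', ?_, ?_⟩
  · rintro rfl
    exact hM (by rw [hMe, mul_zero])
  · by_contra hlt
    push Not at hlt
    have hle : e ≤ 1 := by omega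
    have h3 : q ^ 2 ∣ q ^ e * M' := hMe ▸ h2
    have hco : Nat.Coprime (q ^ 2) M' :=
      Nat.Coprime.pow_left 2 ((Nat.Prime.coprime_iff_not_dvd hq).mpr hM')
    have h4 : q ^ 2 ∣ q ^ e := hco.dvd_of_dvd_mul_right h3
    have h5 := (Nat.pow_dvd_pow_iff_le_right hq.one_lt).mp h4
    omega
  · rw [lvlE_eq, hMe, mul_comm]

section Main

variable (A : ValuationSubring Kbar) (q M : ℕ) [NeZero M] [NeZero q]

/-- The norm of `h` along `φ` is `c gⁿ` with `c ∈ ℚ̄` and `g` fixed by the inertia group. -/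
def IsNormPowE {M N : ℕ} (φ : FN M →ₐ[Kbar] FN N) (n : ℕ) (h : FN N) : Prop :=
  ∃ (c : Kbar) (g : FN M), (∀ σ ∈ A.inertiaSubgroupIn ℚ, σ c = c) ∧ g ∈ L0 A M ∧
    normAlongHom φ.toRingHom h = algebraMap Kbar (FN M) c * g ^ n

/-- **Target of E-FIN**: a `U`-unit with `n ∣ div h` and norms `c gⁿ` is, up to the exponent
`E`, a constant times an `n`-th power. -/
def FinModE (U : ↥(L0 A (M * q)) → Prop) : Prop :=
  ∃ E : ℕ, E ≠ 0 ∧ ∀ n : ℕ, 0 < n → GoodExp q n →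
    ∀ h : ↥(L0 A (M * q)), U h →
      (∀ P : Place Kbar (FN (M * q)), (n : ℤ) ∣ P.ord (h : FN (M * q))) →
      IsNormPowE A (heckeAlphaBar Kbar M q) n (h : FN (M * q)) →
      IsNormPowE A (heckeBetaBar Kbar M q) n (h : FN (M * q)) →
      ∃ (s : FN (M * q)) (c : Kbar), s ≠ 0 ∧
        (h : FN (M * q)) ^ E * s ^ n = algebraMap Kbar (FN (M * q)) c

/-- **Target of E-VV**: `f ^ K q ^ (-b) wⁿ` is a `U`-unit for suitable `b`, `w`. -/
def ValVecE (U : ↥(L0 A (M * q)) → Prop) : Prop :=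
  ∃ K : ℕ, K ≠ 0 ∧ ∀ n : ℕ, 0 < n → GoodExp q n → ∀ f : ↥(L0 A (M * q)), f ≠ 0 →
    IsNormPowE A (heckeAlphaBar Kbar M q) n (f : FN (M * q)) →
    IsNormPowE A (heckeBetaBar Kbar M q) n (f : FN (M * q)) →
    ∃ (b : ℤ) (w : ↥(L0 A (M * q))), w ≠ 0 ∧
      U (f ^ K * ((q : ℕ) : ↥(L0 A (M * q))) ^ (-b) * w ^ n)

/-- The norm of a constant is a constant. -/
theorem normAlongHom_constE {M N : ℕ} (φ : FN M →ₐ[Kbar] FN N) (c : Kbar) :
    ∃ d : ℕ, normAlongHom φ.toRingHom (algebraMap Kbar (FN N) c)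
      = algebraMap Kbar (FN M) (c ^ d) := by
  refine ⟨(letI := φ.toRingHom.toAlgebra; Module.finrank (FN M) (FN N)), ?_⟩
  have h1 : algebraMap Kbar (FN N) c = φ.toRingHom (algebraMap Kbar (FN M) c) :=
    (φ.commutes c).symm
  rw [h1, normAlongHom_apply, map_pow]

/-- `IsNormPowE` is stable under `f ↦ f ^ E * const * wⁿ`. -/
theorem isNormPowE_mul {M N : ℕ} (φ : FN M →ₐ[Kbar] FN N) (n : ℕ) (E : ℕ)
    (f w : FN N) (c₀ : Kbar) (hc₀ : ∀ σ ∈ A.inertiaSubgroupIn ℚ, σ c₀ = c₀)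
    (hw : normAlongHom φ.toRingHom w ∈ L0 A M)
    (hf : IsNormPowE A φ n f) :
    IsNormPowE A φ n (f ^ E * algebraMap Kbar (FN N) c₀ * w ^ n) := by
  obtain ⟨c, g, hc, hg, hN⟩ := hf
  obtain ⟨d, hd⟩ := normAlongHom_constE φ c₀
  refine ⟨c ^ E * c₀ ^ d, g ^ E * normAlongHom φ.toRingHom w, ?_, ?_, ?_⟩
  · intro σ hσ
    rw [map_mul, map_pow, map_pow, hc σ hσ, hc₀ σ hσ]
  · exact mul_mem (pow_mem hg E) hw
  · rw [normAlongHom_mul, normAlongHom_mul, normAlongHom_pow, normAlongHom_pow, hN, hd,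
      map_mul, map_pow, map_pow]
    ring

/-- **E-TOP**: `Stmt_NUCoreEK M q` from the two modular targets. -/
theorem nuCoreEK_of [NeZero (M * q)] (hq : q.Prime) (hA : A.LiesOverPrime q)
    (U : ↥(L0 A (M * q)) → Prop) (hFin : FinModE A q M U) (hVV : ValVecE A q M U) :
    Stmt_NUCoreEK M q := by
  intro _ _
  obtain ⟨E, hE0, hE⟩ := hFin
  obtain ⟨K, hK0, hK⟩ := hVV
  refine ⟨A, hA, K * E, Nat.mul_ne_zero hK0 hE0, ?_⟩
  intro n hgood f hf0 hdiv hI _ hα hβ D hD hpα hpβ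
  have hqn : ¬ q ∣ n := by
    intro hd
    have h1 : q ∣ 6 * q * (q - 1) * (q + 1) :=
      Dvd.dvd.mul_right (Dvd.dvd.mul_right (Dvd.intro_left 6 rfl) _) _
    have h2 : q ∣ Nat.gcd n (6 * q * (q - 1) * (q + 1)) := Nat.dvd_gcd hd h1
    rw [show Nat.gcd n (6 * q * (q - 1) * (q + 1)) = 1 from hgood] at h2
    exact hq.one_lt.ne' (Nat.dvd_one.mp h2)
  have hn : 0 < n := Nat.pos_of_ne_zero (by rintro rfl; exact hqn (dvd_zero q))
  have hfL : f ∈ L0 A (M * q) := mem_L0_of_galF A f hI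
  -- DIV → NORM (helper26)
  obtain ⟨cα, gα, -, hcα, -, hgα, -, hNα'⟩ :=
    Fermat.Agent.S36.NU.H26.divNorm_L0_alpha A M q n hn.ne' f hf0 hI hα D hD hpα
  obtain ⟨cβ, gβ, -, hcβ, -, hgβ, -, hNβ'⟩ :=
    Fermat.Agent.S36.NU.H26.divNorm_L0_beta A M q n hn.ne' f hf0 hI hβ D hD hpβ
  have hNα : IsNormPowE A (heckeAlphaBar Kbar M q) n f := ⟨cα, gα, hcα, hgα, hNα'⟩
  have hNβ : IsNormPowE A (heckeBetaBar Kbar M q) n f := ⟨cβ, gβ, hcβ, hgβ, hNβ'⟩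
  have hf0' : (⟨f, hfL⟩ : ↥(L0 A (M * q))) ≠ 0 := fun h => hf0 (congrArg Subtype.val h)
  obtain ⟨b, w, hw0, hU⟩ := hK n hn hgood ⟨f, hfL⟩ hf0' hNα hNβ
  -- the constant `q ^ (-b)`
  set c₀ : Kbar := ((q : ℕ) : Kbar) ^ (-b) with hc₀
  have hq0 : ((q : ℕ) : Kbar) ≠ 0 := Nat.cast_ne_zero.mpr hq.ne_zero
  have hc₀0 : c₀ ≠ 0 := zpow_ne_zero _ hq0
  have hc₀I : ∀ σ ∈ A.inertiaSubgroupIn ℚ, σ c₀ = c₀ := fun σ _ => by
    rw [hc₀, map_zpow₀, map_natCast]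
  set h : ↥(L0 A (M * q)) :=
    (⟨f, hfL⟩ : ↥(L0 A (M * q))) ^ K * ((q : ℕ) : ↥(L0 A (M * q))) ^ (-b) * w ^ n
    with hh
  have hcoe : (h : FN (M * q))
      = f ^ K * algebraMap Kbar (FN (M * q)) c₀ * (w : FN (M * q)) ^ n := by
    rw [hh, hc₀, map_zpow₀, map_natCast]
    push_cast
    rfl
  have hw0' : (w : FN (M * q)) ≠ 0 := fun h0 => hw0 (Subtype.ext h0)
  have hC0 : algebraMap Kbar (FN (M * q)) c₀ ≠ 0 :=
    (map_ne_zero (algebraMap Kbar (FN (M * q)))).2 hc₀0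
  have hdivh : ∀ P : Place Kbar (FN (M * q)), (n : ℤ) ∣ P.ord (h : FN (M * q)) := by
    intro P
    rw [hcoe, Place.ord_mul P (mul_ne_zero (pow_ne_zero _ hf0) hC0) (pow_ne_zero _ hw0'),
      Place.ord_mul P (pow_ne_zero _ hf0) hC0, Fermat.Agent.RED.H17.ord_pow,
      Fermat.Agent.RED.H17.ord_pow, Fermat.Agent.RED.H17.ord_algebraMap, add_zero]
    exact dvd_add (Dvd.dvd.mul_left (hdiv P) _) (dvd_mul_right _ _)
  have hNFα := Fermat.Agent.S36.NU.H26.norm_mem_L0 A (heckeAlphaBar Kbar M q)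
    (Fermat.Agent.S36.NU.H26.arithEquivariant_alpha M q) (alpha_finite M q) w w.2
  have hNFβ := Fermat.Agent.S36.NU.H26.norm_mem_L0 A (heckeBetaBar Kbar M q)
    (Fermat.Agent.S36.NU.H26.arithEquivariant_beta M q) (beta_finite M q) w w.2
  have hNαh : IsNormPowE A (heckeAlphaBar Kbar M q) n (h : FN (M * q)) := by
    rw [hcoe]
    exact isNormPowE_mul A _ n K f w c₀ hc₀I hNFα hNα
  have hNβh : IsNormPowE A (heckeBetaBar Kbar M q) n (h : FN (M * q)) := by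
    rw [hcoe]
    exact isNormPowE_mul A _ n K f w c₀ hc₀I hNFβ hNβ
  obtain ⟨s, c, hs0, hsc⟩ := hE n hn hgood h hU hdivh hNαh hNβh
  obtain ⟨γ, hγ⟩ := IsAlgClosed.exists_pow_nat_eq (c * (c₀⁻¹) ^ E) hn
  refine ⟨algebraMap Kbar (FN (M * q)) γ * ((w : FN (M * q)) ^ E * s)⁻¹, ?_⟩
  have hWs : ((w : FN (M * q)) ^ E * s) ^ n ≠ 0 :=
    pow_ne_zero _ (mul_ne_zero (pow_ne_zero _ hw0') hs0)
  rw [mul_pow, inv_pow, ← map_pow, hγ, map_mul, map_pow, map_inv₀, ← hsc, hcoe,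
    mul_inv_eq_iff_eq_mul₀ hWs]
  have hCE : algebraMap Kbar (FN (M * q)) c₀ ^ E ≠ 0 := pow_ne_zero _ hC0
  rw [inv_pow]
  have key : (f ^ K * algebraMap Kbar (FN (M * q)) c₀ * (w : FN (M * q)) ^ n) ^ E
        * s ^ n * (algebraMap Kbar (FN (M * q)) c₀ ^ E)⁻¹
      = f ^ (K * E) * ((w : FN (M * q)) ^ E * s) ^ n
        * (algebraMap Kbar (FN (M * q)) c₀ ^ E * (algebraMap Kbar (FN (M * q)) c₀ ^ E)⁻¹) := by
    ring
  rw [key, mul_inv_cancel₀ hCE, mul_one]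

end Main

/-- **The two modular targets at the level `lvlE M' q (e + 1)`**, `q ∤ M'`, `2 ≤ e`, tame:
for SOME valuation ring `A` over `q` and SOME predicate `U`. -/
def Stmt_FinTopE (q M' e : ℕ) [NeZero M'] [NeZero q] : Prop :=
  q.Prime → ¬ q ∣ M' → 2 ≤ e → TameNU (lvlE M' q e) q →
    ∃ (A : ValuationSubring Kbar) (U : ↥(L0 A (lvlE M' q e * q)) → Prop), A.LiesOverPrime q ∧
      FinModE A q (lvlE M' q e) U ∧ ValVecE A q (lvlE M' q e) U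

/-- **THE TARGET `Stmt_NUCoreETame`** from the modular targets at all tame levels. -/
theorem nuCoreETame_of
    (h : ∀ (q M' e : ℕ) [NeZero M'] [NeZero q], Stmt_FinTopE q M' e) : Stmt_NUCoreETame := by
  intro M q _ _ ht hq hqM
  obtain ⟨M', e, hM'0, hqM', he, rfl⟩ := exists_lvlE hq (NeZero.ne M) hqM
  haveI : NeZero M' := ⟨hM'0⟩
  haveI : NeZero (lvlE M' q e * q) :=
    ⟨Nat.mul_ne_zero (NeZero.ne (lvlE M' q e)) hq.ne_zero⟩
  obtain ⟨A, U, hA, hFin, hVV⟩ := h q M' e hq hqM' he ht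
  exact nuCoreEK_of A q (lvlE M' q e) hq hA U hFin hVV hq hqM

end Fermat.Agent.S45.NUE
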