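import Fermat.Agent.S45.NUE.H96_TI3CoreMod
import Fermat.Agent.S45.NUE.H79_TrivE
import Fermat.Agent.S45.NUE.Top

/-!
# S45 / NU_e, package E-FIN (helper65): `FinModE` from the modular instances

Level `N = M * q` (`M = lvlE M' q e`), `A` over `q`, `R = Rur A`, `F = L0 A N`.

* `NUDataE.toGlueCore` : the gluing core (helper96) of helper79's datum of the two levels
  (GLUE at the upper level is `NUDataE.glued`);
* `trivRed_toGlueCore` : `TrivRedT D.T D.SS n H` is the `TrivRed` of the gluing core;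
* `IsConstT.pow'` : powers of constants;
* `finModE_of` : **the assembly**: `FinModE A q M U` for every predicate `U` implying "unit for
  all reductions of `D.T`", from `H96.ti3Core_point` (TI3 for a gluing core), helper79's
  `NUDataE.trivRed` (B2_e + B3_e) and helper74's `hor_inst`, with the modular leaves as
  hypotheses: the two charts with their local data (`PointData`, cusps), RADQ, `ChartHyp`,
  `LowRoot`, `RootClosed`, and the bridge `hNα`, `hNβ` from `IsNormPowE` to the norm maps of `D`.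
-/

set_option autoImplicit false
set_option synthInstance.maxHeartbeats 400000
set_option maxHeartbeats 1000000
set_option linter.style.haveILetI false
set_option linter.unusedSectionVars false

noncomputable section

open ModularCurve AlgebraicCurve IntermediateField

attribute [local instance] Classical.propDecidable

namespace Fermat.Agent.S45.NUE.H65

open Fermat.Agent.RED.H17 Fermat.Agent.RED Fermat.Agent.S36.NU.H16 Fermat.Agent.S36.NU.H79
  Fermat.Agent.S36.NU.H17 Fermat.Agent.S36.NU.H24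
  Fermat.Agent.S24 Fermat.Agent.BAD.H88 Fermat.Agent.S36.NU.H23 Fermat.Agent.S36.NU.H41
  Fermat.Agent.S36.NU.H88 Fermat.Agent.S36.NU.H74 Fermat.Agent.Lib.HeckeComm
  Fermat.Agent.S45.NUE.H79 Fermat.Agent.S45.NUE.H96 Fermat.Agent.S36.NU.H65

section Core

variable {K L₀ L k ι Z : Type*} {E : ι → Type*} [Field K] [Field L₀] [Field L]
  [Algebra K L] [Algebra L₀ L] [Field k] [Fintype ι] [∀ i, Field (E i)]
  [∀ i, Algebra k (E i)]
  {K' L₀' L' ι' Z' : Type*} {E' : ι' → Type*} [Field K'] [Field L₀'] [Field L']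
  [Algebra K' L'] [Algebra L₀' L'] [Fintype ι'] [∀ i, Field (E' i)]
  [∀ i, Algebra k (E' i)]

/-- The gluing core of the datum of the two levels. -/
def toGlueCore [Infinite k] (D : NUDataE K L₀ L k ι Z E K' L₀' L' ι' Z' E')
    (hP : HasPrincipalDivisors K L) : GlueCore K L₀ L k ι Z E where
  T := D.T
  SS := D.SS
  glue := fun _ hz => D.glued hP hz
  deg_one := D.deg_one

theorem toGlueCore_T [Infinite k] (D : NUDataE K L₀ L k ι Z E K' L₀' L' ι' Z' E')
    (hP : HasPrincipalDivisors K L) : (toGlueCore D hP).T = D.T := rfl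

theorem toGlueCore_SS [Infinite k] (D : NUDataE K L₀ L k ι Z E K' L₀' L' ι' Z' E')
    (hP : HasPrincipalDivisors K L) : (toGlueCore D hP).SS = D.SS := rfl

/-- `TrivRedT` is the `TrivRed` of the gluing core. -/
theorem trivRed_toGlueCore [Infinite k] (D : NUDataE K L₀ L k ι Z E K' L₀' L' ι' Z' E')
    (hP : HasPrincipalDivisors K L) (n : ℕ) (H : L₀) :
    (toGlueCore D hP).TrivRed n H ↔ TrivRedT D.T D.SS n H := Iff.rfl

/-- Powers of constants are constants. -/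
theorem isConstT_pow (T : TotN K L₀ L k ι Z E) {c : L₀} (hc : IsConstT T c) (m : ℕ) :
    IsConstT T (c ^ m) := by
  obtain ⟨c', hc'⟩ := hc
  exact ⟨c' ^ m, by rw [map_pow, hc', map_pow]⟩

end Core

section Assembly

variable (A : ValuationSubring Kbar) (q M : ℕ) [NeZero M] [NeZero q] [NeZero (M * q)]
  {kk ι Z K L : Type*} {κ : ι → Type*} [Field kk] [∀ i, Field (κ i)]
  [∀ i, Algebra kk (κ i)] [Fintype ι] [Field K] [Field L] [Algebra K L]
  [Algebra ↥(L0 A (M * q)) L]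
  {K' L₀' L' ι' Z' : Type*} {κ' : ι' → Type*} [Field K'] [Field L₀'] [Field L']
  [Algebra K' L'] [Algebra L₀' L'] [Fintype ι'] [∀ i, Field (κ' i)]
  [∀ i, Algebra kk (κ' i)]

/-- **E-FIN, the assembly**: `FinModE A q M U` from the modular leaves. -/
theorem finModE_of [IsAlgClosed kk] (hq : q.Prime) (hA : A.LiesOverPrime q)
    (D : NUDataE K ↥(L0 A (M * q)) L kk ι Z κ K' L₀' L' ι' Z' κ')
    (hP : HasPrincipalDivisors K L)
    (hDd : ∀ n : ℕ, Nat.Coprime n q → Nat.Coprime D.d n)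
    (C0 Coo : Chart ↥(Rur A) ↥(L0 A (M * q)) kk ι κ)
    (hc0 : Compat C0 D.T) (hcoo : Compat Coo D.T)
    (hB0 : C0.B = intSub ↥(Rur A) (j0 A (M * q)))
    (hBoo : Coo.B = intSub ↥(Rur A) (j0 A (M * q))⁻¹)
    (hchart0 : ∀ n : ℕ, 0 < n → Nat.Coprime n q → ChartHyp C0 q n)
    (hchartoo : ∀ n : ℕ, 0 < n → Nat.Coprime n q → ChartHyp Coo q n)
    -- the local data
    (hpt0 : haveI : Infinite kk := IsAlgClosed.instInfinite
      PointData C0 (toGlueCore D hP) ((q : ℕ) : ↥(Rur A)))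
    (hptoo : haveI : Infinite kk := IsAlgClosed.instInfinite
      ∀ 𝔪 : Ideal Coo.B, 𝔪.IsMaximal → (∃ i, Coo.Icomp i ≤ 𝔪) →
      (∀ β : Coo.B, (β : ↥(L0 A (M * q))) = (j0 A (M * q))⁻¹ → β ∈ 𝔪) →
      PointDataAt Coo (toGlueCore D hP) ((q : ℕ) : ↥(Rur A)) 𝔪)
    -- RADQ
    (hrad0 : ∀ β ∈ C0.B, (∀ i, C0.rd i β = 0) → IsRadQ C0.B ((q : ℕ) : ↥(Rur A)) β)
    (hradoo : ∀ β ∈ Coo.B, (∀ i, Coo.rd i β = 0) → IsRadQ Coo.B ((q : ℕ) : ↥(Rur A)) β)
    -- the lower level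
    (hL : ∀ n : ℕ, 0 < n → Nat.Coprime n q → LowRoot D.T' n)
    (hk : ∀ n : ℕ, 0 < n → Nat.Coprime n q → ∀ i', RootClosed kk (κ' i') n)
    -- the norms
    (hNα : ∀ (n : ℕ) (h : ↥(L0 A (M * q))),
      IsNormPowE A (heckeAlphaBar Kbar M q) n (h : FN (M * q)) →
      ∃ c g : L₀', IsConstT D.T' c ∧ D.sα.Nm h = c * g ^ n)
    (hNβ : ∀ (n : ℕ) (h : ↥(L0 A (M * q))),
      IsNormPowE A (heckeBetaBar Kbar M q) n (h : FN (M * q)) →
      ∃ c g : L₀', IsConstT D.T' c ∧ D.sβ.Nm h = c * g ^ n)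
    -- the units
    (U : ↥(L0 A (M * q)) → Prop) (hU : ∀ h, U h → ∀ i, D.T.rdN i h ≠ 0) (i₀ : ι) :
    FinModE A q M U := by
  haveI : Infinite kk := IsAlgClosed.instInfinite
  obtain ⟨E₀, hE₀, hHOR⟩ := hor_inst (M * q)
  refine ⟨E₀, hE₀, ?_⟩
  intro n hn hgood h hUh hdiv hα hβ
  have hcop : Nat.Coprime n q := by
    have h1 : q ∣ 6 * q * (q - 1) * (q + 1) :=
      Dvd.dvd.mul_right (Dvd.dvd.mul_right (Dvd.intro_left 6 rfl) _) _
    exact Nat.Coprime.coprime_dvd_right h1 hgood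
  have hu : ∀ i, D.T.rdN i h ≠ 0 := hU h hUh
  have hm : ∀ i, h ∈ D.T.V i := fun i => D.T.mem_of_rdN_ne_zero (hu i)
  have h0 : h ≠ 0 := by
    rintro rfl
    apply hu i₀
    rw [D.T.rdN_of_mem (D.T.V _).zero_mem]
    exact map_zero _
  have huH : ∀ i, D.T.rdN i (h ^ E₀) ≠ 0 := fun i => by
    rw [D.T.rdN_pow (hm i)]
    exact pow_ne_zero _ (hu i)
  -- the norms
  obtain ⟨cα, gα, hcα, hNα'⟩ := hNα n h hα
  obtain ⟨cβ, gβ, hcβ, hNβ'⟩ := hNβ n h hβ
  have hα' : D.sα.Nm (h ^ E₀) = cα ^ E₀ * (gα ^ E₀) ^ n := by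
    rw [map_pow, hNα', mul_pow, ← pow_mul, ← pow_mul, mul_comm n E₀]
  have hβ' : D.sβ.Nm (h ^ E₀) = cβ ^ E₀ * (gβ ^ E₀) ^ n := by
    rw [map_pow, hNβ', mul_pow, ← pow_mul, ← pow_mul, mul_comm n E₀]
  -- B2_e + B3_e
  have htriv : TrivRedT D.T D.SS n (h ^ E₀) :=
    D.trivRed hP hn.ne' (hDd n hcop) (hL n hn hcop) (hk n hn hcop) huH
      (isConstT_pow D.T' hcα E₀) (isConstT_pow D.T' hcβ E₀) hα' hβ'
  -- TI3
  obtain ⟨s, c, hs0, hsc⟩ := ti3Core_point A q (M * q) hq hA (toGlueCore D hP) C0 Coo hc0 hcoo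
    hP hB0 hBoo q n hcop (hchart0 n hn hcop) (hchartoo n hn hcop) hpt0 hptoo hrad0 hradoo
    (h ^ E₀) (pow_ne_zero _ h0) huH (hHOR A q hq hA n h h0 hdiv C0)
    (hHOR A q hq hA n h h0 hdiv Coo) ((trivRed_toGlueCore D hP n _).2 htriv)
  exact ⟨(s : FN (M * q)), c, fun h1 => hs0 (Subtype.ext h1), hsc⟩

end Assembly

end Fermat.Agent.S45.NUE.H65
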