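import Fermat.Agent.S45.NUE.H65_FinE
import Fermat.Agent.S45.NUE.H74_ChartDefs

/-!
# S45 / NU_e, package E-FIN (helper65): the call of `finModE_of` on the charts `chart0E`,
`chartInfE`

Level `N = M * q`, `A` over `q`.  Everything is generic in the datum of the two levels
`D : NUDataE` on `L0 A (M * q)` (modular: helper79's `nuDataE`, `D.T = totE`), with helper74's
charts `chart0E A N D.T h`, `chartInfE A N D.T h`.

* `finModE_of_ne` : `FinModE` for `U` from `FinModE` for `h ≠ 0 ∧ U h` (`h = 0` is trivial);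
* `finModE_charts` : **`FinModE A q M (IsUnitT A (M * q) D.T)`** from the leaves on the two charts:
  `SepPattern` (E-CHART), `PointData` of `chart0E` (E-PT), `PointDataAt` at the cusps of
  `chartInfE` (E-CUSP), RADQ, `LowRoot`, `RootClosed`, and the norms (E-INST-B);
* `finModE_charts_V` : the same for the units of a family `V i = D.T.V i` (the `U` of E-VV).
-/

set_option autoImplicit false
set_option synthInstance.maxHeartbeats 400000
set_option maxHeartbeats 1000000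
set_option linter.style.haveILetI false
set_option linter.unusedSectionVars false

noncomputable section

open ModularCurve AlgebraicCurve IntermediateField

attribute [local instance] Classical.propDecidable

namespace Fermat.Agent.S45.NUE.H65

open Fermat.Agent.RED.H17 Fermat.Agent.RED Fermat.Agent.S36.NU.H16 Fermat.Agent.S36.NU.H79
  Fermat.Agent.S36.NU.H17 Fermat.Agent.S36.NU.H24
  Fermat.Agent.S24 Fermat.Agent.BAD.H88 Fermat.Agent.S36.NU.H23 Fermat.Agent.S36.NU.H41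
  Fermat.Agent.S36.NU.H88 Fermat.Agent.S36.NU.H74 Fermat.Agent.Lib.HeckeComm
  Fermat.Agent.S45.NUE.H79 Fermat.Agent.S45.NUE.H96 Fermat.Agent.S36.NU.H65
  Fermat.Agent.S45.NUE.H74 Fermat.Agent.S28 Fermat.Agent.S28.H73 Fermat.Agent.RED.H73

section Units

variable (A : ValuationSubring Kbar) (q M : ℕ) [NeZero M] [NeZero q] [NeZero (M * q)]

/-- `FinModE` for `U` from `FinModE` for `h ≠ 0 ∧ U h` (the case `h = 0` is trivial). -/
theorem finModE_of_ne (U : ↥(L0 A (M * q)) → Prop)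
    (hFin : FinModE A q M (fun h => h ≠ 0 ∧ U h)) : FinModE A q M U := by
  obtain ⟨E, hE, h⟩ := hFin
  refine ⟨E, hE, fun n hn hg h' hU hdiv hα hβ => ?_⟩
  by_cases h0 : h' = 0
  · subst h0
    refine ⟨1, 0, one_ne_zero, ?_⟩
    rw [ZeroMemClass.coe_zero, zero_pow hE, zero_mul, map_zero]
  · exact h n hn hg h' ⟨h0, hU⟩ hdiv hα hβ

end Units

section Charts

variable (A : ValuationSubring Kbar) (q M : ℕ) [NeZero M] [NeZero q] [NeZero (M * q)]
  {ι Z : Type*} {κ : ι → Type*} [∀ i, Field (κ i)] [∀ i, Algebra (kV A) (κ i)] [Fintype ι]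
  {K' L₀' L' ι' Z' : Type*} {κ' : ι' → Type*} [Field K'] [Field L₀'] [Field L']
  [Algebra K' L'] [Algebra L₀' L'] [Fintype ι'] [∀ i, Field (κ' i)]
  [∀ i, Algebra (kV A) (κ' i)]

/-- **E-FIN on the two charts**: `FinModE` for the non-zero units of all valuations of `D.T`. -/
theorem finModE_charts_ne [IsAlgClosed (kV A)] (hq : q.Prime) (hA : A.LiesOverPrime q)
    (D : NUDataE Kbar ↥(L0 A (M * q)) (FN (M * q)) (kV A) ι Z κ K' L₀' L' ι' Z' κ')
    (h : ChartInE A (M * q) D.T)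
    (hP : HasPrincipalDivisors Kbar (FN (M * q)))
    (hDd : ∀ n : ℕ, Nat.Coprime n q → Nat.Coprime D.d n)
    -- E-CHART
    (hchar : ∀ i, CharP (κ i) q)
    (y : ↥(L0 A (M * q))) (m : ι → ℤ) (hS : SepPattern D.T q (j0 A (M * q)) y m)
    (hy : y ∈ intSub ↥(Rur A) (j0 A (M * q)))
    -- E-PT, E-CUSP
    (hpt0 : haveI : Infinite (kV A) := IsAlgClosed.instInfinite
      PointData (chart0E A (M * q) D.T h) (toGlueCore D hP) ((q : ℕ) : ↥(Rur A)))
    (hptoo : haveI : Infinite (kV A) := IsAlgClosed.instInfinite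
      ∀ 𝔪 : Ideal (chartInfE A (M * q) D.T h).B, 𝔪.IsMaximal →
      (∃ i, (chartInfE A (M * q) D.T h).Icomp i ≤ 𝔪) →
      (∀ β : (chartInfE A (M * q) D.T h).B,
        (β : ↥(L0 A (M * q))) = (j0 A (M * q))⁻¹ → β ∈ 𝔪) →
      PointDataAt (chartInfE A (M * q) D.T h) (toGlueCore D hP) ((q : ℕ) : ↥(Rur A)) 𝔪)
    -- RADQ
    (hrad0 : ∀ β ∈ (chart0E A (M * q) D.T h).B, (∀ i, (chart0E A (M * q) D.T h).rd i β = 0) →
      IsRadQ (chart0E A (M * q) D.T h).B ((q : ℕ) : ↥(Rur A)) β)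
    (hradoo : ∀ β ∈ (chartInfE A (M * q) D.T h).B,
      (∀ i, (chartInfE A (M * q) D.T h).rd i β = 0) →
      IsRadQ (chartInfE A (M * q) D.T h).B ((q : ℕ) : ↥(Rur A)) β)
    -- the lower level
    (hL : ∀ n : ℕ, 0 < n → Nat.Coprime n q → LowRoot D.T' n)
    (hk : ∀ n : ℕ, 0 < n → Nat.Coprime n q → ∀ i', RootClosed (kV A) (κ' i') n)
    -- the norms
    (hNα : ∀ (n : ℕ) (h : ↥(L0 A (M * q))),
      IsNormPowE A (heckeAlphaBar Kbar M q) n (h : FN (M * q)) →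
      ∃ c g : L₀', IsConstT D.T' c ∧ D.sα.Nm h = c * g ^ n)
    (hNβ : ∀ (n : ℕ) (h : ↥(L0 A (M * q))),
      IsNormPowE A (heckeBetaBar Kbar M q) n (h : FN (M * q)) →
      ∃ c g : L₀', IsConstT D.T' c ∧ D.sβ.Nm h = c * g ^ n)
    (i₀ : ι) :
    FinModE A q M (fun f => f ≠ 0 ∧ IsUnitT A (M * q) D.T f) :=
  finModE_of A q M hq hA D hP hDd (chart0E A (M * q) D.T h) (chartInfE A (M * q) D.T h)
    (compat_chart0E A (M * q) D.T h) (compat_chartInfE A (M * q) D.T h)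
    (chart0E_B A (M * q) D.T h) (chartInfE_B A (M * q) D.T h)
    (fun n hn hcop => chartHyp_chart0E_of_sep A (M * q) D.T h q n hq hchar hn hcop y m hS hy)
    (fun n hn hcop => chartHyp_chartInfE_of_sep A (M * q) D.T h q n hq hchar hn hcop y m hS hy)
    hpt0 hptoo hrad0 hradoo hL hk hNα hNβ _
    (fun f hf i => rdN_ne_zero_of_isUnitT A (M * q) D.T f hf.1 hf.2 i) i₀

/-- **E-FIN on the two charts**: `FinModE` for the units of all valuations of `D.T`. -/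
theorem finModE_charts [IsAlgClosed (kV A)] (hq : q.Prime) (hA : A.LiesOverPrime q)
    (D : NUDataE Kbar ↥(L0 A (M * q)) (FN (M * q)) (kV A) ι Z κ K' L₀' L' ι' Z' κ')
    (h : ChartInE A (M * q) D.T)
    (hP : HasPrincipalDivisors Kbar (FN (M * q)))
    (hDd : ∀ n : ℕ, Nat.Coprime n q → Nat.Coprime D.d n)
    (hchar : ∀ i, CharP (κ i) q)
    (y : ↥(L0 A (M * q))) (m : ι → ℤ) (hS : SepPattern D.T q (j0 A (M * q)) y m)
    (hy : y ∈ intSub ↥(Rur A) (j0 A (M * q)))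
    (hpt0 : haveI : Infinite (kV A) := IsAlgClosed.instInfinite
      PointData (chart0E A (M * q) D.T h) (toGlueCore D hP) ((q : ℕ) : ↥(Rur A)))
    (hptoo : haveI : Infinite (kV A) := IsAlgClosed.instInfinite
      ∀ 𝔪 : Ideal (chartInfE A (M * q) D.T h).B, 𝔪.IsMaximal →
      (∃ i, (chartInfE A (M * q) D.T h).Icomp i ≤ 𝔪) →
      (∀ β : (chartInfE A (M * q) D.T h).B,
        (β : ↥(L0 A (M * q))) = (j0 A (M * q))⁻¹ → β ∈ 𝔪) →
      PointDataAt (chartInfE A (M * q) D.T h) (toGlueCore D hP) ((q : ℕ) : ↥(Rur A)) 𝔪)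
    (hrad0 : ∀ β ∈ (chart0E A (M * q) D.T h).B, (∀ i, (chart0E A (M * q) D.T h).rd i β = 0) →
      IsRadQ (chart0E A (M * q) D.T h).B ((q : ℕ) : ↥(Rur A)) β)
    (hradoo : ∀ β ∈ (chartInfE A (M * q) D.T h).B,
      (∀ i, (chartInfE A (M * q) D.T h).rd i β = 0) →
      IsRadQ (chartInfE A (M * q) D.T h).B ((q : ℕ) : ↥(Rur A)) β)
    (hL : ∀ n : ℕ, 0 < n → Nat.Coprime n q → LowRoot D.T' n)
    (hk : ∀ n : ℕ, 0 < n → Nat.Coprime n q → ∀ i', RootClosed (kV A) (κ' i') n)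
    (hNα : ∀ (n : ℕ) (h : ↥(L0 A (M * q))),
      IsNormPowE A (heckeAlphaBar Kbar M q) n (h : FN (M * q)) →
      ∃ c g : L₀', IsConstT D.T' c ∧ D.sα.Nm h = c * g ^ n)
    (hNβ : ∀ (n : ℕ) (h : ↥(L0 A (M * q))),
      IsNormPowE A (heckeBetaBar Kbar M q) n (h : FN (M * q)) →
      ∃ c g : L₀', IsConstT D.T' c ∧ D.sβ.Nm h = c * g ^ n)
    (i₀ : ι) :
    FinModE A q M (IsUnitT A (M * q) D.T) :=
  finModE_of_ne A q M _
    (finModE_charts_ne A q M hq hA D h hP hDd hchar y m hS hy hpt0 hptoo hrad0 hradoo hL hk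
      hNα hNβ i₀)

/-- **E-FIN on the two charts**, for the units of a family `V i = D.T.V i` (the predicate `U` of
E-VV). -/
theorem finModE_charts_V [IsAlgClosed (kV A)] (hq : q.Prime) (hA : A.LiesOverPrime q)
    (D : NUDataE Kbar ↥(L0 A (M * q)) (FN (M * q)) (kV A) ι Z κ K' L₀' L' ι' Z' κ')
    (h : ChartInE A (M * q) D.T)
    (hP : HasPrincipalDivisors Kbar (FN (M * q)))
    (hDd : ∀ n : ℕ, Nat.Coprime n q → Nat.Coprime D.d n)
    (hchar : ∀ i, CharP (κ i) q)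
    (y : ↥(L0 A (M * q))) (m : ι → ℤ) (hS : SepPattern D.T q (j0 A (M * q)) y m)
    (hy : y ∈ intSub ↥(Rur A) (j0 A (M * q)))
    (hpt0 : haveI : Infinite (kV A) := IsAlgClosed.instInfinite
      PointData (chart0E A (M * q) D.T h) (toGlueCore D hP) ((q : ℕ) : ↥(Rur A)))
    (hptoo : haveI : Infinite (kV A) := IsAlgClosed.instInfinite
      ∀ 𝔪 : Ideal (chartInfE A (M * q) D.T h).B, 𝔪.IsMaximal →
      (∃ i, (chartInfE A (M * q) D.T h).Icomp i ≤ 𝔪) →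
      (∀ β : (chartInfE A (M * q) D.T h).B,
        (β : ↥(L0 A (M * q))) = (j0 A (M * q))⁻¹ → β ∈ 𝔪) →
      PointDataAt (chartInfE A (M * q) D.T h) (toGlueCore D hP) ((q : ℕ) : ↥(Rur A)) 𝔪)
    (hrad0 : ∀ β ∈ (chart0E A (M * q) D.T h).B, (∀ i, (chart0E A (M * q) D.T h).rd i β = 0) →
      IsRadQ (chart0E A (M * q) D.T h).B ((q : ℕ) : ↥(Rur A)) β)
    (hradoo : ∀ β ∈ (chartInfE A (M * q) D.T h).B,
      (∀ i, (chartInfE A (M * q) D.T h).rd i β = 0) →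
      IsRadQ (chartInfE A (M * q) D.T h).B ((q : ℕ) : ↥(Rur A)) β)
    (hL : ∀ n : ℕ, 0 < n → Nat.Coprime n q → LowRoot D.T' n)
    (hk : ∀ n : ℕ, 0 < n → Nat.Coprime n q → ∀ i', RootClosed (kV A) (κ' i') n)
    (hNα : ∀ (n : ℕ) (h : ↥(L0 A (M * q))),
      IsNormPowE A (heckeAlphaBar Kbar M q) n (h : FN (M * q)) →
      ∃ c g : L₀', IsConstT D.T' c ∧ D.sα.Nm h = c * g ^ n)
    (hNβ : ∀ (n : ℕ) (h : ↥(L0 A (M * q))),
      IsNormPowE A (heckeBetaBar Kbar M q) n (h : FN (M * q)) →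
      ∃ c g : L₀', IsConstT D.T' c ∧ D.sβ.Nm h = c * g ^ n)
    (i₀ : ι)
    {ι₁ : Type*} (V : ι₁ → ValuationSubring ↥(L0 A (M * q)))
    (hV : ∀ i, ∃ i₁, D.T.V i = V i₁) :
    FinModE A q M (fun f => ∀ i₁, f ∈ V i₁ ∧ f⁻¹ ∈ V i₁) := by
  obtain ⟨E, hE, hfin⟩ := finModE_charts A q M hq hA D h hP hDd hchar y m hS hy hpt0 hptoo
    hrad0 hradoo hL hk hNα hNβ i₀
  refine ⟨E, hE, fun n hn hg f hU hdiv hα hβ => hfin n hn hg f ?_ hdiv hα hβ⟩
  intro i
  obtain ⟨i₁, hi⟩ := hV i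
  rw [hi]
  exact hU i₁

end Charts

end Fermat.Agent.S45.NUE.H65
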