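import Fermat.Agent.S45.NUE.H33_SideE

/-!
# S45 / NU_e, ND_e (helper79): the single components along `β`

Levels `N = M q ^ e` (lower, `e > 0`) and `N q = M q ^ (e + 1)` (upper), `q ∤ M`, `A` over `q`;
the mirror image of helper33's `H33_SideE` (single components along `α`).

* `normBeta_wild_gen`, `normBeta_insep_gen` : the norm–reduction formulas of `H33_NormFinal`
  along `β` for a generic level `N` (`sE`-form);
* `singleBetaWild` (`2 ≤ a`, `2 a ≤ e + 1`), `singleBetaInsep` (`2 ≤ a`, `e + 2 ≤ 2 a`),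
  **`singleBeta`** (`2 ≤ a`) :
  `H79.SingleRel Tu Tl (nmBetaE A N q) (ssM A q M) (betaM A q M hq hqM hA).symm q i`.
-/

set_option autoImplicit false
set_option linter.style.haveILetI false
set_option linter.unusedSectionVars false
set_option linter.unusedVariables false
set_option synthInstance.maxHeartbeats 400000
set_option maxHeartbeats 1000000

noncomputable section

namespace Fermat.Agent.S45.NUE.H79

open AlgebraicCurve ModularCurve Fermat.Agent.S24 Fermat.Agent.Lib.HeckeComm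
  Fermat.Agent.S36.H44 Fermat.Agent.BAD Fermat.Agent.BAD.H88
  Fermat.Agent.S36.NU.H26 Fermat.Agent.S45.NUE.H51 Fermat.Agent.S45.NUE.H23
  Fermat.Agent.S28 Fermat.Agent.S28.H73 Fermat.Agent.RED.H73 Fermat.Agent.RED.H17
  Fermat.Agent.S36.NU.H79 Fermat.Agent.S36.NU.H88 Fermat.Agent.S36.NU.H23
  Fermat.Agent.S45.NUE.H33

attribute [local instance] Fermat.Agent.S45.NUE.H23.algkE

section SingleBeta

variable (A : ValuationSubring Kbar) (N q M e : ℕ) (B k B' k' : ℤ) (hN : N = M * q ^ e)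
  (hB : B * M + k * (q : ℤ) ^ e = 1)
  (hN' : N * q = M * q ^ (e + 1)) (hB' : B' * M + k' * (q : ℤ) ^ (e + 1) = 1) (hq : q.Prime)
  [NeZero N] [NeZero q] [NeZero (N * q)] [NeZero M] [NeZero (M * q)] [NeZero (M * q * q)]
  (he : 0 < e) (hqM : ¬ q ∣ M) (hA : A.LiesOverPrime q) (ht : H91.TameAt M q)

include hqM hA he in
/-- **NORM-RED along `β`, wild shape** (`2 ≤ a`, `2 a ≤ e + 1`), generic level. -/
theorem normBeta_wild_gen (a : ℕ) (ha2 : 2 ≤ a) (h2 : 2 * a ≤ e + 1)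
    (f : ↥(L0 A (N * q))) (hf : f ∈ VE A (N * q) q M (e + 1) B' k' hN' hB' hq a) :
    ∃ hm : Fermat.Agent.S45.NUE.H96.nmBetaE A N q f ∈ VE A N q M e B k hN hB hq (a - 1),
      sE A N q M e B k hN hB hq (a - 1) ⟨_, hm⟩
        = sE A (N * q) q M (e + 1) B' k' hN' hB' hq a ⟨f, hf⟩ ^ q := by
  obtain ⟨M₁, rfl⟩ := exists_level N q M e hN he
  haveI : NeZero M₁ := ⟨fun h0 => NeZero.ne (M₁ * q) (by rw [h0, zero_mul])⟩
  exact normBeta_wild (coverInputs A q M₁ M e hq hN hN' B k hB B' k' hB' hqM hA)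
    (redInputs A q M₁ M e hq hN hN' B k hB B' k' hB') hqM hA a ha2 h2
    (fun x => sE_mem A (M₁ * q * q) q M (e + 1) B' k' hN' hB' hq hqM hA (Nat.succ_pos e) a
      (by omega) x) f hf

include hqM hA he in
/-- **NORM-RED along `β`, inseparable shape** (`2 ≤ a ≤ e + 1`, `e + 2 ≤ 2 a`), generic
level. -/
theorem normBeta_insep_gen (a : ℕ) (ha2 : 2 ≤ a) (ha : a ≤ e + 1) (h2 : e + 2 ≤ 2 * a)
    (f : ↥(L0 A (N * q))) (hf : f ∈ VE A (N * q) q M (e + 1) B' k' hN' hB' hq a) :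
    ∃ hm : Fermat.Agent.S45.NUE.H96.nmBetaE A N q f ∈ VE A N q M e B k hN hB hq (a - 1),
      qExpand (kV A) q (sE A N q M e B k hN hB hq (a - 1) ⟨_, hm⟩)
        = sE A (N * q) q M (e + 1) B' k' hN' hB' hq a ⟨f, hf⟩ ^ q := by
  obtain ⟨M₁, rfl⟩ := exists_level N q M e hN he
  haveI : NeZero M₁ := ⟨fun h0 => NeZero.ne (M₁ * q) (by rw [h0, zero_mul])⟩
  exact normBeta_insep (coverInputs A q M₁ M e hq hN hN' B k hB B' k' hB' hqM hA)
    (redInputs A q M₁ M e hq hN hN' B k hB B' k' hB') hqM hA a ha2 ha h2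
    (fun x => sE_mem A (M₁ * q * q) q M (e + 1) B' k' hN' hB' hq hqM hA (Nat.succ_pos e) a
      (by omega) x) f hf

/-! ### The single components along `β` -/

/-- **The single components along `β`, wild shape** (`2 ≤ a`, `2 a ≤ e + 1`). -/
def singleBetaWild (i : Fin (e + 2)) (hi : 2 ≤ (i : ℕ)) (h2 : 2 * (i : ℕ) ≤ e + 1) :
    Fermat.Agent.S45.NUE.H79.SingleRel (TuE A N q M e B' k' hN' hB' hq hqM hA ht)
      (TlE A N q M e B k hN hB hq he hqM hA ht)
      (Fermat.Agent.S45.NUE.H96.nmBetaE A N q) (Fermat.Agent.S36.NU.H74.ssM A q M)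
      (betaM A q M hq hqM hA).symm q i where
  i' := ⟨(i : ℕ) - 1, by omega⟩
  R := Fermat.Agent.S45.NUE.H79.resIdE A M
  e := q
  deg := by
    show 1 * q = q
    rw [one_mul]
  norm := fun h hu => by
    have hf : h ∈ VE A (N * q) q M (e + 1) B' k' hN' hB' hq (i : ℕ) :=
      (TuE A N q M e B' k' hN' hB' hq hqM hA ht).mem_of_rdN_ne_zero (hu i)
    obtain ⟨hm, hs⟩ := normBeta_wild_gen A N q M e B k B' k' hN hB hN' hB' hq he hqM hA
      (i : ℕ) hi h2 h hf
    rw [(TuE A N q M e B' k' hN' hB' hq hqM hA ht).rdN_of_mem hf,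
      (TlE A N q M e B k hN hB hq he hqM hA ht).rdN_of_mem
        (i := (⟨(i : ℕ) - 1, by omega⟩ : Fin (e + 1))) hm]
    exact Fermat.Agent.S45.NUE.H79.wild_norm_eq A q M _ _ hs
  pt := fun z _ y c hv =>
    Fermat.Agent.S45.NUE.H79.ptE_beta_wild A q M hq hqM hA e i ⟨(i : ℕ) - 1, by omega⟩
      (by show (i : ℕ) - 1 + 1 = (i : ℕ); omega) h2 z y c hv

/-- **The single components along `β`, inseparable shape** (`2 ≤ a`, `e + 2 ≤ 2 a`). -/
def singleBetaInsep (i : Fin (e + 2)) (hi : 2 ≤ (i : ℕ)) (h2 : e + 2 ≤ 2 * (i : ℕ)) :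
    Fermat.Agent.S45.NUE.H79.SingleRel (TuE A N q M e B' k' hN' hB' hq hqM hA ht)
      (TlE A N q M e B k hN hB hq he hqM hA ht)
      (Fermat.Agent.S45.NUE.H96.nmBetaE A N q) (Fermat.Agent.S36.NU.H74.ssM A q M)
      (betaM A q M hq hqM hA).symm q i where
  i' := ⟨(i : ℕ) - 1, by omega⟩
  R := Fermat.Agent.S45.NUE.H79.resFrE A q M hq hqM hA
  e := 1
  deg := by
    show q * 1 = q
    rw [mul_one]
  norm := fun h hu => by
    have hf : h ∈ VE A (N * q) q M (e + 1) B' k' hN' hB' hq (i : ℕ) :=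
      (TuE A N q M e B' k' hN' hB' hq hqM hA ht).mem_of_rdN_ne_zero (hu i)
    obtain ⟨hm, hs⟩ := normBeta_insep_gen A N q M e B k B' k' hN hB hN' hB' hq he hqM hA
      (i : ℕ) hi (by omega) h2 h hf
    rw [(TuE A N q M e B' k' hN' hB' hq hqM hA ht).rdN_of_mem hf,
      (TlE A N q M e B k hN hB hq he hqM hA ht).rdN_of_mem
        (i := (⟨(i : ℕ) - 1, by omega⟩ : Fin (e + 1))) hm, pow_one]
    exact Fermat.Agent.S45.NUE.H79.insep_norm_eq A q M hq hqM hA _ _ hs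
  pt := fun z _ y c hv =>
    Fermat.Agent.S45.NUE.H79.ptE_beta_insep A q M hq hqM hA e i ⟨(i : ℕ) - 1, by omega⟩
      (by show (i : ℕ) - 1 + 1 = (i : ℕ); omega) h2 z y c hv

/-- **The single components along `β`** (`2 ≤ a`). -/
def singleBeta (i : Fin (e + 2)) (hi : 2 ≤ (i : ℕ)) :
    Fermat.Agent.S45.NUE.H79.SingleRel (TuE A N q M e B' k' hN' hB' hq hqM hA ht)
      (TlE A N q M e B k hN hB hq he hqM hA ht)
      (Fermat.Agent.S45.NUE.H96.nmBetaE A N q) (Fermat.Agent.S36.NU.H74.ssM A q M)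
      (betaM A q M hq hqM hA).symm q i :=
  if h2 : 2 * (i : ℕ) ≤ e + 1 then
    singleBetaWild A N q M e B k B' k' hN hB hN' hB' hq he hqM hA ht i hi h2
  else
    singleBetaInsep A N q M e B k B' k' hN hB hN' hB' hq he hqM hA ht i hi (by omega)

theorem singleBeta_i' (i : Fin (e + 2)) (hi : 2 ≤ (i : ℕ)) :
    ((singleBeta A N q M e B k B' k' hN hB hN' hB' hq he hqM hA ht i hi).i' : ℕ)
      = (i : ℕ) - 1 := by
  unfold singleBeta
  split_ifs <;> rfl

end SingleBeta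

end Fermat.Agent.S45.NUE.H79
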