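import Fermat.Agent.S45.NUE.H5_NormDouble
import Fermat.Agent.S45.NUE.H79_NuE

/-!
# S45 / NU_e, ND_e: the DOUBLE component along `α` (helper81)

The field `double` of `H79.AlphaInputs`: the two valuations `a = e + 1` (Gauss at `∞`) and
`a = e` (cusp `1/(q^e M)`) of the upper level `N q = M q^(e+1)` lie over the Gauss valuation
`a = e` of the lower level `N = M q^e`, with `R₁ = R₂ = resIdE` (residue degree `1`) and
ramification indices `1` and `q - 1`; the norm formula is helper5's `normDouble_E`.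

* `doubleAlpha : H79.DoubleRel (TuE ..) (TlE ..) (nmAlphaE A N q) (ssM A q M) id q ⟨e+1,_⟩ ⟨e,_⟩`.
-/

set_option autoImplicit false
set_option synthInstance.maxHeartbeats 400000
set_option maxHeartbeats 1000000
set_option linter.style.haveILetI false
set_option linter.unusedSectionVars false
set_option linter.unusedVariables false

noncomputable section

open ModularCurve AlgebraicCurve
open Fermat.Agent.S24 Fermat.Agent.BAD.H88 Fermat.Agent.S28 Fermat.Agent.S28.H73
open Fermat.Agent.RED.H73 Fermat.Agent.RED.H17 Fermat.Agent.S36.NU.H88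
open Fermat.Agent.S36.NU.H23 Fermat.Agent.S45.NUE.H23 Fermat.Agent.S36.NU.H74
open Fermat.Agent.S45.NUE.H96

namespace Fermat.Agent.S45.NUE.H81

open Fermat.Agent.BAD Fermat.Agent.RED Fermat.Agent.S36.NU.H79 Fermat.Agent.S36.NU.H24
open Fermat.Agent.S45.NUE.H79

attribute [local instance] algkE

section DoubleAlpha

variable (A : ValuationSubring Kbar) (N q M e : ℕ) (B k B' k' : ℤ)
  (hN : N = M * q ^ e) (hB : B * M + k * (q : ℤ) ^ e = 1)
  (hN' : N * q = M * q ^ (e + 1)) (hB' : B' * M + k' * (q : ℤ) ^ (e + 1) = 1)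
  (hq : q.Prime) [NeZero N] [NeZero q] [NeZero (N * q)] [NeZero M] [NeZero (M * q)]
  [NeZero (M * q * q)] (hqM : ¬ q ∣ M) (hA : A.LiesOverPrime q) (ht : H91.TameAt M q)
  (he : 0 < e)

/-- The two memberships of a unit. -/
theorem doubleAlpha_mem (h : ↥(L0 A (N * q)))
    (hu : ∀ j, (TuE A N q M e B' k' hN' hB' hq hqM hA ht).rdN j h ≠ 0) :
    h ∈ VE A (N * q) q M (e + 1) B' k' hN' hB' hq (e + 1) ∧
      h ∈ VE A (N * q) q M (e + 1) B' k' hN' hB' hq e := by
  have h1 : h ∈ (TuE A N q M e B' k' hN' hB' hq hqM hA ht).V (⟨e + 1, by omega⟩ : Fin (e + 2)) :=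
    (TuE A N q M e B' k' hN' hB' hq hqM hA ht).mem_of_rdN_ne_zero
      (i := (⟨e + 1, by omega⟩ : Fin (e + 2))) (hu _)
  have h2 : h ∈ (TuE A N q M e B' k' hN' hB' hq hqM hA ht).V (⟨e, by omega⟩ : Fin (e + 2)) :=
    (TuE A N q M e B' k' hN' hB' hq hqM hA ht).mem_of_rdN_ne_zero
      (i := (⟨e, by omega⟩ : Fin (e + 2))) (hu _)
  exact ⟨h1, h2⟩

/-- The norm formula of the double component, in `FM A M`. -/
theorem doubleAlpha_red (h : ↥(L0 A (N * q)))
    (htop : h ∈ VE A (N * q) q M (e + 1) B' k' hN' hB' hq (e + 1))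
    (hmid : h ∈ VE A (N * q) q M (e + 1) B' k' hN' hB' hq e) :
    ∃ hmem : nmAlphaE A N q h ∈ VE A N q M e B k hN hB hq e,
      rEM A N q M e B k hN hB hq hqM hA he e le_rfl ⟨nmAlphaE A N q h, hmem⟩
        = rEM A (N * q) q M (e + 1) B' k' hN' hB' hq hqM hA (Nat.succ_pos e) (e + 1) le_rfl
            ⟨h, htop⟩
          * rEM A (N * q) q M (e + 1) B' k' hN' hB' hq hqM hA (Nat.succ_pos e) e
            (Nat.le_succ e) ⟨h, hmid⟩ ^ (q - 1) := by
  obtain ⟨δ, h1, h2⟩ := Fermat.Agent.S45.NUE.H5.normDouble_E A N q M e B k B' k' hN hB hN' hB' hq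
    (Nat.succ_le_of_lt he) hqM hA h htop hmid
  have hδ : nmAlphaE A N q h = (δ : ↥(L0 A N)) := by
    apply Subtype.ext
    rw [coe_nmAlphaE]
    exact h1
  have hmem : nmAlphaE A N q h ∈ VE A N q M e B k hN hB hq e := by
    rw [hδ]; exact δ.2
  refine ⟨hmem, ?_⟩
  have e1 : (⟨nmAlphaE A N q h, hmem⟩ : ↥(VE A N q M e B k hN hB hq e)) = δ := Subtype.ext hδ
  rw [e1]
  apply Subtype.ext
  rw [coe_rEM, h2]
  rfl

/-- **The double component `(e + 1, e)` over `e` along `α`.** -/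
def doubleAlpha :
    DoubleRel (TuE A N q M e B' k' hN' hB' hq hqM hA ht)
      (TlE A N q M e B k hN hB hq hqM hA ht he) (nmAlphaE A N q) (ssM A q M) id q
      (⟨e + 1, by omega⟩ : Fin (e + 2)) (⟨e, by omega⟩ : Fin (e + 2)) where
  i' := ⟨e, by omega⟩
  R₁ := resIdE A M
  R₂ := resIdE A M
  e₁ := 1
  e₂ := q - 1
  deg := by
    have := hq.one_lt
    show 1 * 1 + 1 * (q - 1) = q
    omega
  pos₁ := by
    show 0 < 1 * 1
    omega
  pos₂ := by
    have := hq.one_lt
    show 0 < 1 * (q - 1)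
    omega
  norm := fun h hu => by
    obtain ⟨htop, hmid⟩ := doubleAlpha_mem A N q M e B' k' hN' hB' hq hqM hA ht h hu
    obtain ⟨hmem, hred⟩ := doubleAlpha_red A N q M e B k B' k' hN hB hN' hB' hq hqM hA he h
      htop hmid
    refine ((TlE A N q M e B k hN hB hq hqM hA ht he).rdN_of_mem
      (i := (⟨e, by omega⟩ : Fin (e + 1))) hmem).trans ?_
    have t1 := (TuE A N q M e B' k' hN' hB' hq hqM hA ht).rdN_of_mem
      (i := (⟨e + 1, by omega⟩ : Fin (e + 2))) htop
    have t2 := (TuE A N q M e B' k' hN' hB' hq hqM hA ht).rdN_of_mem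
      (i := (⟨e, by omega⟩ : Fin (e + 2))) hmid
    rw [t1, t2]
    exact hred.trans (by rw [pow_one]; rfl)
  pt₁ := fun z _ y c h => by
    have h' : HasValue (ptE A q M (e + 1) hq hqM hA (⟨e + 1, by omega⟩ : Fin (e + 2)) z) y c := h
    rw [ptE_eq_self A q M hq hqM hA (e + 1) _ (by show e + 1 ≤ 2 * (e + 1); omega) z] at h'
    show HasValue (ptE A q M e hq hqM hA (⟨e, by omega⟩ : Fin (e + 1)) z) y c
    rw [ptE_eq_self A q M hq hqM hA e _ (by show e ≤ 2 * e; omega) z]
    exact h'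
  pt₂ := fun z _ y c h => by
    have h' : HasValue (ptE A q M (e + 1) hq hqM hA (⟨e, by omega⟩ : Fin (e + 2)) z) y c := h
    rw [ptE_eq_self A q M hq hqM hA (e + 1) _ (by show e + 1 ≤ 2 * e; omega) z] at h'
    show HasValue (ptE A q M e hq hqM hA (⟨e, by omega⟩ : Fin (e + 1)) z) y c
    rw [ptE_eq_self A q M hq hqM hA e _ (by show e ≤ 2 * e; omega) z]
    exact h'

end DoubleAlpha

end Fermat.Agent.S45.NUE.H81
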