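import Fermat.Agent.S45.NUE.H96_InstB
import Fermat.Agent.S45.NUE.H41_SS0E
import Fermat.Agent.S36.NU.H23_NmP2
import Fermat.Agent.S36.NU.H42_NmFib

/-!
# S45 / NU_e, package ND_e, leaf ND-REG (helper96): the reduction maps and the degeneracy maps

`M` a tame level prime to `q`, `N` any level with `F_M ⊆ F_N` (modular: `N = M q ^ e`), upper
level `N q`; `ρ_N = H41P.rhoLvl : Place ℚ̄ F_N → Place k (F_M mod q)`, `P ↦ r_M (P | F_M)`;
`α, β = heckeAlphaBar / heckeBetaBar ℚ̄ N q : F_N → F_{N q}`.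

* `rhoLvl_alpha` : `ρ_N (P | α) = ρ_{N q} P`;
* `rhoM_of_beta` (level `M q`) : `r_M (Q | β_M) = β⁻¹ z → r_M (Q | F_M) = z` for the supersingular
  points `z` (the core of `S36.NU.H23.rho_beta`);
* `rhoLvl_beta` : for `M ∣ N` and `z` supersingular: `ρ_N (P | β) = β⁻¹ z → ρ_{N q} P = z`;
* `regE_alpha`, `regE_beta` : the norm along `α` (`β`) of a function regular on the fibre of `z`
  is regular on the fibre of `z` (`β⁻¹ z`); `fibE_alpha`, `fibE_beta` : the same for "neither zero
  nor pole";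
* `regE_alpha_T`, `regE_beta_T` : **the field `SideE.reg`** for `Nm = nmAlphaE A N q` /
  `nmBetaE A N q`, `zm = id` / `(betaM ..).symm`, for conservation data with `ρ = rhoLvl`.
-/

set_option autoImplicit false
set_option synthInstance.maxHeartbeats 400000
set_option maxHeartbeats 400000
set_option linter.style.haveILetI false
set_option linter.unusedSectionVars false

noncomputable section

open ModularCurve AlgebraicCurve

namespace Fermat.Agent.S45.NUE.H96

open Fermat.Agent.S24 Fermat.Agent.BAD Fermat.Agent.BAD.H88 Fermat.Agent.Lib.HeckeComm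
  Fermat.Agent.S28 Fermat.Agent.S28.H73 Fermat.Agent.RED.H73 Fermat.Agent.RED.H17
  Fermat.Agent.RED Fermat.Agent.S36.NU.H88 Fermat.Agent.S36.NU.H23 Fermat.Agent.S36.NU.H79
  Fermat.Agent.S36.NU.H74 Fermat.Agent.S45.NUE.H41P Fermat.Agent.S45.NUE.H79

/-! ### Restrictions of places along composites (abstract) -/

section Abs

variable {K F F' F'' G : Type*} [Field K] [Field F] [Field F'] [Field F''] [Field G]
  [Algebra K F] [Algebra K F'] [Algebra K F''] [Algebra K G]

/-- `(P | ψ) | F = P | F` when `ψ` is compatible with the structure maps. -/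
theorem restrict_restrictAlong_abs [Algebra F F'] [IsScalarTower K F F']
    [Algebra.IsIntegral F F'] [Algebra F F''] [IsScalarTower K F F'']
    [Algebra.IsIntegral F F'']
    (ψ : F' →ₐ[K] F'') (hψ : ψ.toRingHom.IsIntegral)
    (h : ∀ x : F, ψ (algebraMap F F' x) = algebraMap F F'' x) (P : Place K F'') :
    (P.restrictAlong ψ hψ).restrict F = P.restrict F := by
  apply Place.ext
  ext x
  rw [Place.mem_restrict_iff, Fermat.Agent.BAD.H91.mem_restrictAlong_iff,
    Place.mem_restrict_iff, h]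

/-- `(P | ψ) | F = (P | ψ₂) | φ₂` when the two composites agree. -/
theorem restrict_restrictAlong_congr_abs [Algebra F F'] [IsScalarTower K F F']
    [Algebra.IsIntegral F F']
    (ψ : F' →ₐ[K] F'') (hψ : ψ.toRingHom.IsIntegral)
    (φ₂ : F →ₐ[K] G) (hφ₂ : φ₂.toRingHom.IsIntegral)
    (ψ₂ : G →ₐ[K] F'') (hψ₂ : ψ₂.toRingHom.IsIntegral)
    (h : ∀ x : F, ψ (algebraMap F F' x) = ψ₂ (φ₂ x)) (P : Place K F'') :
    (P.restrictAlong ψ hψ).restrict F = (P.restrictAlong ψ₂ hψ₂).restrictAlong φ₂ hφ₂ := by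
  apply Place.ext
  ext x
  rw [Place.mem_restrict_iff, Fermat.Agent.BAD.H91.mem_restrictAlong_iff,
    Fermat.Agent.BAD.H91.mem_restrictAlong_iff, Fermat.Agent.BAD.H91.mem_restrictAlong_iff, h]

/-- `P | F = (P | ψ₂) | φ₂` when the composite is the structure map. -/
theorem restrict_eq_restrictAlong_abs [Algebra F F''] [IsScalarTower K F F'']
    [Algebra.IsIntegral F F'']
    (φ₂ : F →ₐ[K] G) (hφ₂ : φ₂.toRingHom.IsIntegral)
    (ψ₂ : G →ₐ[K] F'') (hψ₂ : ψ₂.toRingHom.IsIntegral)
    (h : ∀ x : F, algebraMap F F'' x = ψ₂ (φ₂ x)) (P : Place K F'') :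
    P.restrict F = (P.restrictAlong ψ₂ hψ₂).restrictAlong φ₂ hφ₂ := by
  apply Place.ext
  ext x
  rw [Place.mem_restrict_iff, Fermat.Agent.BAD.H91.mem_restrictAlong_iff,
    Fermat.Agent.BAD.H91.mem_restrictAlong_iff, h]

end Abs

/-! ### `α` -/

section Alpha

variable (A : ValuationSubring Kbar) (q M N : ℕ) (hq : q.Prime) [NeZero M] [NeZero N] [NeZero q]
  [NeZero (N * q)] (hqM : ¬ q ∣ M) (hA : A.LiesOverPrime q) (ht : H91.TameAt M q)
  (hle : modularFunctionFieldBar M ≤ modularFunctionFieldBar N)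
  (hle' : modularFunctionFieldBar M ≤ modularFunctionFieldBar (N * q))

omit [NeZero M] [NeZero N] in
/-- The structure map of `algF` is the inclusion. -/
theorem algebraMap_algF_lvl (x : FN M) :
    @algebraMap (FN M) (FN N) _ _ (algF hle) x = IntermediateField.inclusion hle x := rfl

/-- `α` is the inclusion on `F_M`. -/
theorem alpha_inclusion_lvl (x : FN M) :
    heckeAlphaBar Kbar N q (IntermediateField.inclusion hle x)
      = IntermediateField.inclusion hle' x := by
  apply Subtype.ext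
  rw [coe_heckeAlphaBar, IntermediateField.coe_inclusion, IntermediateField.coe_inclusion]

/-- The restriction to level `M` of `P | α` is the restriction of `P`. -/
theorem restrict_alpha_lvl (P : Place Kbar (FN (N * q))) :
    (letI := algF hle
     haveI := tower_FN_of_le M N hle
     haveI := finite_FN_of_le' M N hle
     (P.restrictAlong (heckeAlphaBar Kbar N q)
        (Fermat.Agent.S36.H44.alpha_integral N q)).restrict (FN M))
      = (letI := algF hle'
         haveI := tower_FN_of_le M (N * q) hle'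
         haveI := finite_FN_of_le' M (N * q) hle'
         P.restrict (FN M)) :=
  letI a1 := algF hle
  haveI t1 := tower_FN_of_le M N hle
  haveI f1 := finite_FN_of_le' M N hle
  letI a2 := algF hle'
  haveI t2 := tower_FN_of_le M (N * q) hle'
  haveI f2 := finite_FN_of_le' M (N * q) hle'
  restrict_restrictAlong_abs (heckeAlphaBar Kbar N q)
    (Fermat.Agent.S36.H44.alpha_integral N q)
    (fun x => by
      rw [algebraMap_algF_lvl M N hle x, algebraMap_algF_lvl M (N * q) hle' x]
      exact alpha_inclusion_lvl q M N hle hle' x) P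

/-- **`ρ_N (P | α) = ρ_{N q} P`.** -/
theorem rhoLvl_alpha (P : Place Kbar (FN (N * q))) :
    rhoLvl A q M N hq hqM hA ht hle
        (P.restrictAlong (heckeAlphaBar Kbar N q) (Fermat.Agent.S36.H44.alpha_integral N q))
      = rhoLvl A q M (N * q) hq hqM hA ht hle' P := by
  unfold rhoLvl
  rw [restrict_alpha_lvl q M N hle hle' P]

end Alpha

/-! ### `β` at the level `M q` -/

section BetaOne

variable (A : ValuationSubring Kbar) (q M : ℕ) (hq : q.Prime) [NeZero M] [NeZero q]
  [NeZero (M * q)] (hqM : ¬ q ∣ M) (hA : A.LiesOverPrime q) (ht : H91.TameAt M q)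

omit [NeZero M] [NeZero q] [NeZero (M * q)] in
include hq hqM in
/-- A Bézout relation for `M` and `q`. -/
theorem exists_bezout_lvl : ∃ B k : ℤ, B * M + k * q = 1 := by
  have hc : Nat.Coprime M q :=
    (Nat.Coprime.symm ((Nat.Prime.coprime_iff_not_dvd hq).2 hqM))
  have h := Nat.isCoprime_iff_coprime.2 hc
  obtain ⟨a, b, hab⟩ := h
  exact ⟨a, b, hab⟩

/-- **Level `M q`**: `r_M (Q | β) = β⁻¹ z → r_M (Q | F_M) = z` for the supersingular points. -/
theorem rhoM_of_beta [NeZero (M * q * q)] (z : Place (kV A) (FM A M)) (hz : z ∈ ssM A q M)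
    (Q : Place Kbar (FN (M * q)))
    (h : Fermat.Agent.BAD.H91.rM hq hqM ht hA
        (Q.restrictAlong (heckeBetaBar Kbar M q) (Fermat.Agent.BAD.H91.beta_isIntegral M q))
      = (betaM A q M hq hqM hA).symm z) :
    Fermat.Agent.BAD.H91.rhoM hq hqM ht hA Q = z := by
  obtain ⟨B, k, hB⟩ := exists_bezout_lvl q M hq hqM
  have e1 : Fermat.Agent.BAD.H91.rhoF1 k B (hab_kB q M B k hB) hq hA hqM ht
      ((Fermat.Agent.BAD.H91.wSemi k B (hab_kB q M B k hB) hq)⁻¹ • Q)
      = zB A q M B k hB hq hqM hA z := by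
    unfold Fermat.Agent.BAD.H91.rhoF1 Fermat.Agent.BAD.H91.rhoM
    rw [Fermat.Agent.BAD.H91.restrictAlong_wSemi, h]
    exact (zB_def A q M B k hB hq hqM hA z).symm
  have hnode : (Fermat.Agent.BAD.H91.modT k B (hab_kB q M B k hB) hq hA hqM ht
      (Fermat.Agent.S35.H89.betaMod A q M k B (hab_kB q M B k hB) hq hA)
      (Fermat.Agent.BAD.H23.tot_mod A q M k B (hab_kB q M B k hB) hq hA hqM ht
        (Fermat.Agent.BAD.H82.redField_eq_fullC q M k B (hab_kB q M B k hB) hq A hA))).IsNode
      (Fermat.Agent.BAD.H91.rhoF1 k B (hab_kB q M B k hB) hq hA hqM ht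
        ((Fermat.Agent.BAD.H91.wSemi k B (hab_kB q M B k hB) hq)⁻¹ • Q)) := by
    rw [e1]
    exact nodeB A q M B k hB hq hqM hA ht z hz
  have h3 := Fermat.Agent.BAD.H91.rhoW_eq_beta_mod k B (hab_kB q M B k hB) hq hA hqM ht
    (Fermat.Agent.S35.H89.betaMod A q M k B (hab_kB q M B k hB) hq hA)
    (Fermat.Agent.BAD.H23.tot_mod A q M k B (hab_kB q M B k hB) hq hA hqM ht
      (Fermat.Agent.BAD.H82.redField_eq_fullC q M k B (hab_kB q M B k hB) hq A hA))
    (betaL_ord_jRed A q M B k hB hq hA) hnode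
  rw [e1] at h3
  rw [Fermat.Agent.BAD.H91.wSemi_inv, ← mul_smul, Fermat.Agent.BAD.H91.wSemi_mul_self,
    one_smul] at h3
  have h4 : Fermat.Agent.BAD.H91.rhoF1 k B (hab_kB q M B k hB) hq hA hqM ht Q
      = zA A q M B k hB hq hA z := h3.trans (betaL_zB A q M B k hB hq hqM hA z)
  unfold Fermat.Agent.BAD.H91.rhoF1 at h4
  rw [zA_def] at h4
  exact (kapM A q M B k hB hq hA).symm.injective h4

end BetaOne

/-! ### `β` at any level -/

section Beta

variable (A : ValuationSubring Kbar) (q M N : ℕ) (hq : q.Prime) [NeZero M] [NeZero N] [NeZero q]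
  [NeZero (N * q)] [NeZero (M * q)] (hqM : ¬ q ∣ M) (hA : A.LiesOverPrime q)
  (ht : H91.TameAt M q)
  (hle : modularFunctionFieldBar M ≤ modularFunctionFieldBar N)
  (hle' : modularFunctionFieldBar M ≤ modularFunctionFieldBar (N * q))

/-- The inclusion of function fields is integral. -/
theorem inclusion_isIntegral_lvl (X Y : ℕ) [NeZero X] [NeZero Y]
    (h : modularFunctionFieldBar X ≤ modularFunctionFieldBar Y) :
    (IntermediateField.inclusion h : FN X →ₐ[Kbar] FN Y).toRingHom.IsIntegral :=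
  (Fermat.Agent.RED.H51.stmt_FFB_finite Kbar _ _ (Fermat.Agent.RED.H95.stmt_HKA_isFF X)
    (Fermat.Agent.RED.H95.stmt_HKA_isFF Y) (IntermediateField.inclusion h)).1

/-- `β_N` on `F_M` is `β_M` followed by the inclusion. -/
theorem beta_inclusion_lvl
    (hle'' : modularFunctionFieldBar (M * q) ≤ modularFunctionFieldBar (N * q)) (x : FN M) :
    heckeBetaBar Kbar N q (IntermediateField.inclusion hle x)
      = IntermediateField.inclusion hle'' (heckeBetaBar Kbar M q x) := by
  apply Subtype.ext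
  rw [coe_heckeBetaBar, IntermediateField.coe_inclusion, IntermediateField.coe_inclusion,
    coe_heckeBetaBar]

/-- The inclusions `F_M ⊆ F_{M q} ⊆ F_{N q}`. -/
theorem incl_inclusion_lvl
    (hle'' : modularFunctionFieldBar (M * q) ≤ modularFunctionFieldBar (N * q)) (x : FN M) :
    IntermediateField.inclusion hle' x
      = IntermediateField.inclusion hle'' (Fermat.Agent.BAD.H91.incl M q x) := by
  apply Subtype.ext
  rw [IntermediateField.coe_inclusion, IntermediateField.coe_inclusion,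
    Fermat.Agent.BAD.H91.coe_incl]

/-- `(P | β_N) | F_M = (P | F_{M q}) | β_M`. -/
theorem restrict_beta_lvl
    (hle'' : modularFunctionFieldBar (M * q) ≤ modularFunctionFieldBar (N * q))
    (P : Place Kbar (FN (N * q))) :
    (letI := algF hle
     haveI := tower_FN_of_le M N hle
     haveI := finite_FN_of_le' M N hle
     (P.restrictAlong (heckeBetaBar Kbar N q)
        (Fermat.Agent.S36.H44.beta_integral N q)).restrict (FN M))
      = (P.restrictAlong (IntermediateField.inclusion hle'')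
            (inclusion_isIntegral_lvl (M * q) (N * q) hle'')).restrictAlong
          (heckeBetaBar Kbar M q) (Fermat.Agent.BAD.H91.beta_isIntegral M q) :=
  letI a1 := algF hle
  haveI t1 := tower_FN_of_le M N hle
  haveI f1 := finite_FN_of_le' M N hle
  restrict_restrictAlong_congr_abs (heckeBetaBar Kbar N q)
    (Fermat.Agent.S36.H44.beta_integral N q) (heckeBetaBar Kbar M q)
    (Fermat.Agent.BAD.H91.beta_isIntegral M q) (IntermediateField.inclusion hle'')
    (inclusion_isIntegral_lvl (M * q) (N * q) hle'')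
    (fun x => by
      rw [algebraMap_algF_lvl M N hle x]
      exact beta_inclusion_lvl q M N hle hle'' x) P

/-- `P | F_M = (P | F_{M q}) | F_M`. -/
theorem restrict_incl_lvl
    (hle'' : modularFunctionFieldBar (M * q) ≤ modularFunctionFieldBar (N * q))
    (P : Place Kbar (FN (N * q))) :
    (letI := algF hle'
     haveI := tower_FN_of_le M (N * q) hle'
     haveI := finite_FN_of_le' M (N * q) hle'
     P.restrict (FN M))
      = (P.restrictAlong (IntermediateField.inclusion hle'')
            (inclusion_isIntegral_lvl (M * q) (N * q) hle'')).restrictAlong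
          (Fermat.Agent.BAD.H91.incl M q) (Fermat.Agent.BAD.H91.incl_isIntegral M q) :=
  letI a2 := algF hle'
  haveI t2 := tower_FN_of_le M (N * q) hle'
  haveI f2 := finite_FN_of_le' M (N * q) hle'
  restrict_eq_restrictAlong_abs (Fermat.Agent.BAD.H91.incl M q)
    (Fermat.Agent.BAD.H91.incl_isIntegral M q) (IntermediateField.inclusion hle'')
    (inclusion_isIntegral_lvl (M * q) (N * q) hle'')
    (fun x => by
      rw [algebraMap_algF_lvl M (N * q) hle' x]
      exact incl_inclusion_lvl q M N hle' hle'' x) P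

/-- **`ρ_N (P | β) = β⁻¹ z → ρ_{N q} P = z`** for the supersingular points, with the inclusion
`F_{M q} ⊆ F_{N q}` as a hypothesis. -/
theorem rhoLvl_beta' [NeZero (M * q * q)]
    (hle'' : modularFunctionFieldBar (M * q) ≤ modularFunctionFieldBar (N * q))
    (z : Place (kV A) (FM A M)) (hz : z ∈ ssM A q M)
    (P : Place Kbar (FN (N * q)))
    (h : rhoLvl A q M N hq hqM hA ht hle
        (P.restrictAlong (heckeBetaBar Kbar N q) (Fermat.Agent.S36.H44.beta_integral N q))
      = (betaM A q M hq hqM hA).symm z) :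
    rhoLvl A q M (N * q) hq hqM hA ht hle' P = z := by
  unfold rhoLvl at h ⊢
  rw [restrict_beta_lvl q M N hle hle'' P] at h
  rw [restrict_incl_lvl q M N hle' hle'' P]
  exact rhoM_of_beta A q M hq hqM hA ht z hz _ h

/-- **`ρ_N (P | β) = β⁻¹ z → ρ_{N q} P = z`** for the supersingular points, `M ∣ N`. -/
theorem rhoLvl_beta [NeZero (M * q * q)] (hMN : M ∣ N) (z : Place (kV A) (FM A M))
    (hz : z ∈ ssM A q M) (P : Place Kbar (FN (N * q)))
    (h : rhoLvl A q M N hq hqM hA ht hle
        (P.restrictAlong (heckeBetaBar Kbar N q) (Fermat.Agent.S36.H44.beta_integral N q))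
      = (betaM A q M hq hqM hA).symm z) :
    rhoLvl A q M (N * q) hq hqM hA ht hle' P = z :=
  rhoLvl_beta' A q M N hq hqM hA ht hle hle'
    (Fermat.Agent.S36.NU.H82.FM_le_of_dvd (N * q) (M * q) (Nat.mul_dvd_mul_right hMN q))
    z hz P h

end Beta

/-! ### Regularity of the norms -/

section Reg

variable (A : ValuationSubring Kbar) (q M N : ℕ) (hq : q.Prime) [NeZero M] [NeZero N] [NeZero q]
  [NeZero (N * q)] [NeZero (M * q)] (hqM : ¬ q ∣ M) (hA : A.LiesOverPrime q)
  (ht : H91.TameAt M q)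
  (hle : modularFunctionFieldBar M ≤ modularFunctionFieldBar N)
  (hle' : modularFunctionFieldBar M ≤ modularFunctionFieldBar (N * q))

/-- **`regα`**: the norm along `α` of a function regular on the fibre of `z` is regular on the
fibre of `z`. -/
theorem regE_alpha (z : Place (kV A) (FM A M)) (f : FN (N * q))
    (hf : ∀ P : Place Kbar (FN (N * q)),
      rhoLvl A q M (N * q) hq hqM hA ht hle' P = z → RegAt P f)
    (Q : Place Kbar (FN N)) (hQ : rhoLvl A q M N hq hqM hA ht hle Q = z) :
    RegAt Q (normAlongHom (heckeAlphaBar Kbar N q).toRingHom f) :=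
  haveI : HasPrincipalDivisors Kbar (FN (N * q)) :=
    Fermat.Agent.S36.NU.H74.hasPrincipalDivisors_FN (N * q)
  Fermat.Agent.S36.NU.H42.reg_of_rho (heckeAlphaBar Kbar N q)
    (Fermat.Agent.S36.H44.alpha_integral N q) (Fermat.Agent.S36.H44.alpha_finite N q)
    (Fermat.Agent.S36.H44.alpha_norm N q)
    (rhoLvl A q M (N * q) hq hqM hA ht hle') (rhoLvl A q M N hq hqM hA ht hle) z z
    (fun P hP => (rhoLvl_alpha A q M N hq hqM hA ht hle hle' P).symm.trans hP) f hf Q hQ

/-- **`fibα`**: the norm along `α` of a function without zero or pole on the fibre of `z` has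
neither zero nor pole on the fibre of `z`. -/
theorem fibE_alpha (z : Place (kV A) (FM A M)) (f : FN (N * q))
    (hf : ∀ P : Place Kbar (FN (N * q)),
      rhoLvl A q M (N * q) hq hqM hA ht hle' P = z → P.ord f = 0)
    (Q : Place Kbar (FN N)) (hQ : rhoLvl A q M N hq hqM hA ht hle Q = z) :
    Q.ord (normAlongHom (heckeAlphaBar Kbar N q).toRingHom f) = 0 :=
  haveI : HasPrincipalDivisors Kbar (FN (N * q)) :=
    Fermat.Agent.S36.NU.H74.hasPrincipalDivisors_FN (N * q)
  Fermat.Agent.S36.NU.H42.fib_of_rho (heckeAlphaBar Kbar N q)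
    (Fermat.Agent.S36.H44.alpha_integral N q) (Fermat.Agent.S36.H44.alpha_finite N q)
    (Fermat.Agent.S36.H44.alpha_norm N q)
    (rhoLvl A q M (N * q) hq hqM hA ht hle') (rhoLvl A q M N hq hqM hA ht hle) z z
    (fun P hP => (rhoLvl_alpha A q M N hq hqM hA ht hle hle' P).symm.trans hP) f hf Q hQ

/-- **`regβ`**: the norm along `β` of a function regular on the fibre of a supersingular point
`z` is regular on the fibre of `β⁻¹ z`. -/
theorem regE_beta [NeZero (M * q * q)] (hMN : M ∣ N) (z : Place (kV A) (FM A M))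
    (hz : z ∈ ssM A q M) (f : FN (N * q))
    (hf : ∀ P : Place Kbar (FN (N * q)),
      rhoLvl A q M (N * q) hq hqM hA ht hle' P = z → RegAt P f)
    (Q : Place Kbar (FN N))
    (hQ : rhoLvl A q M N hq hqM hA ht hle Q = (betaM A q M hq hqM hA).symm z) :
    RegAt Q (normAlongHom (heckeBetaBar Kbar N q).toRingHom f) :=
  haveI : HasPrincipalDivisors Kbar (FN (N * q)) :=
    Fermat.Agent.S36.NU.H74.hasPrincipalDivisors_FN (N * q)
  Fermat.Agent.S36.NU.H42.reg_of_rho (heckeBetaBar Kbar N q)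
    (Fermat.Agent.S36.H44.beta_integral N q) (Fermat.Agent.S36.H44.beta_finite N q)
    (Fermat.Agent.S36.H44.beta_norm N q)
    (rhoLvl A q M (N * q) hq hqM hA ht hle') (rhoLvl A q M N hq hqM hA ht hle) z
    ((betaM A q M hq hqM hA).symm z)
    (fun P hP => rhoLvl_beta A q M N hq hqM hA ht hle hle' hMN z hz P hP) f hf Q hQ

/-- **`fibβ`**: the same for "neither zero nor pole". -/
theorem fibE_beta [NeZero (M * q * q)] (hMN : M ∣ N) (z : Place (kV A) (FM A M))
    (hz : z ∈ ssM A q M) (f : FN (N * q))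
    (hf : ∀ P : Place Kbar (FN (N * q)),
      rhoLvl A q M (N * q) hq hqM hA ht hle' P = z → P.ord f = 0)
    (Q : Place Kbar (FN N))
    (hQ : rhoLvl A q M N hq hqM hA ht hle Q = (betaM A q M hq hqM hA).symm z) :
    Q.ord (normAlongHom (heckeBetaBar Kbar N q).toRingHom f) = 0 :=
  haveI : HasPrincipalDivisors Kbar (FN (N * q)) :=
    Fermat.Agent.S36.NU.H74.hasPrincipalDivisors_FN (N * q)
  Fermat.Agent.S36.NU.H42.fib_of_rho (heckeBetaBar Kbar N q)
    (Fermat.Agent.S36.H44.beta_integral N q) (Fermat.Agent.S36.H44.beta_finite N q)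
    (Fermat.Agent.S36.H44.beta_norm N q)
    (rhoLvl A q M (N * q) hq hqM hA ht hle') (rhoLvl A q M N hq hqM hA ht hle) z
    ((betaM A q M hq hqM hA).symm z)
    (fun P hP => rhoLvl_beta A q M N hq hqM hA ht hle hle' hMN z hz P hP) f hf Q hQ

/-! ### The field `SideE.reg` -/

variable {ι ι' : Type*} {κ : ι → Type*} {κ' : ι' → Type*} [Fintype ι] [Fintype ι']
  [∀ i, Field (κ i)] [∀ i, Algebra (kV A) (κ i)] [∀ i, Field (κ' i)]
  [∀ i, Algebra (kV A) (κ' i)]

/-- **`SideE.reg` for `α`**: `Nm = nmAlphaE A N q`, `zm = id`. -/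
theorem regE_alpha_T
    (T : TotN Kbar ↥(L0 A (N * q)) (FN (N * q)) (kV A) ι (Place (kV A) (FM A M)) κ)
    (T' : TotN Kbar ↥(L0 A N) (FN N) (kV A) ι' (Place (kV A) (FM A M)) κ')
    (hρ : ∀ P, T.ρ P = rhoLvl A q M (N * q) hq hqM hA ht hle' P)
    (hρ' : ∀ Q, T'.ρ Q = rhoLvl A q M N hq hqM hA ht hle Q)
    (SS : Set (Place (kV A) (FM A M))) :
    ∀ z ∈ SS, ∀ h : ↥(L0 A (N * q)),
      (∀ P, T.ρ P = z → RegAt P (algebraMap ↥(L0 A (N * q)) (FN (N * q)) h)) →
      ∀ Q, T'.ρ Q = id z → RegAt Q (algebraMap ↥(L0 A N) (FN N) (nmAlphaE A N q h)) := by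
  intro z _ h hf Q hQ
  rw [hρ'] at hQ
  exact regE_alpha A q M N hq hqM hA ht hle hle' z (h : FN (N * q))
    (fun P hP => hf P ((hρ P).trans hP)) Q hQ

/-- **`SideE.reg` for `β`**: `Nm = nmBetaE A N q`, `zm = (betaM ..).symm`, `SS` supersingular. -/
theorem regE_beta_T [NeZero (M * q * q)] (hMN : M ∣ N)
    (T : TotN Kbar ↥(L0 A (N * q)) (FN (N * q)) (kV A) ι (Place (kV A) (FM A M)) κ)
    (T' : TotN Kbar ↥(L0 A N) (FN N) (kV A) ι' (Place (kV A) (FM A M)) κ')
    (hρ : ∀ P, T.ρ P = rhoLvl A q M (N * q) hq hqM hA ht hle' P)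
    (hρ' : ∀ Q, T'.ρ Q = rhoLvl A q M N hq hqM hA ht hle Q)
    (SS : Set (Place (kV A) (FM A M))) (hSS : SS ⊆ ssM A q M) :
    ∀ z ∈ SS, ∀ h : ↥(L0 A (N * q)),
      (∀ P, T.ρ P = z → RegAt P (algebraMap ↥(L0 A (N * q)) (FN (N * q)) h)) →
      ∀ Q, T'.ρ Q = (betaM A q M hq hqM hA).symm z →
        RegAt Q (algebraMap ↥(L0 A N) (FN N) (nmBetaE A N q h)) := by
  intro z hz h hf Q hQ
  rw [hρ'] at hQ
  exact regE_beta A q M N hq hqM hA ht hle hle' hMN z (hSS hz) (h : FN (N * q))
    (fun P hP => hf P ((hρ P).trans hP)) Q hQ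

end Reg

end Fermat.Agent.S45.NUE.H96
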