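import Fermat.Agent.S45.NUE.H79_NuEAll
import Fermat.Agent.S45.NUE.H79_SingleBeta
import Fermat.Agent.S45.NUE.H96_RegE
import Fermat.Agent.S45.NUE.H81_DoubleRel

/-!
# S45 / NU_e, ND_e (helper79): the leaves of `H79_NuEAll` closed

* `stmt_RegAlphaAll`, `stmt_RegBetaAll` (helper96's `regE_alpha_T`, `regE_beta_T`);
* `stmt_SingleBetaAll` (`singleBeta`);
* `stmt_BetaAll : H65.Stmt_BetaAll`;
* `stmt_DoubleAlphaAll` (helper81's `doubleAlpha`, from helper5's norm formula);
* `stmt_AlphaAll : H65.Stmt_AlphaAll`;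
* `stmt_NuEAll_of_double : Stmt_DoubleAlphaAll → H65.Stmt_NuEAll`;
* **`stmt_NuEAll : H65.Stmt_NuEAll`** : ND_e at every tame setting, UNCONDITIONAL.
-/

set_option autoImplicit false
set_option synthInstance.maxHeartbeats 400000
set_option maxHeartbeats 1000000
set_option linter.style.haveILetI false
set_option linter.unusedSectionVars false

noncomputable section

open ModularCurve AlgebraicCurve
open Fermat.Agent.S24 Fermat.Agent.BAD.H88 Fermat.Agent.S28 Fermat.Agent.S28.H73
open Fermat.Agent.RED.H73 Fermat.Agent.RED.H17 Fermat.Agent.S36.NU.H88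
open Fermat.Agent.S36.NU.H23 Fermat.Agent.S45.NUE.H23 Fermat.Agent.S36.NU.H74
open Fermat.Agent.S45.NUE.H96

namespace Fermat.Agent.S45.NUE.H79

open Fermat.Agent.BAD Fermat.Agent.RED Fermat.Agent.S36.NU.H79 Fermat.Agent.S36.NU.H24

attribute [local instance] algkE

/-- **REG along `α`** at every tame setting (helper96). -/
theorem stmt_RegAlphaAll : Stmt_RegAlphaAll := by
  intro A q M hq _ _ _ _ hqM hA ht _ e he N B k B' k' hN hB hN' hB' _ _
  exact Fermat.Agent.S45.NUE.H96.regE_alpha_T A q M N hq hqM hA ht (hleE N q M e hN)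
    (hleE (N * q) q M (e + 1) hN')
    (TuE A N q M e B' k' hN' hB' hq hqM hA ht)
    (TlE A N q M e B k hN hB hq hqM hA ht (by omega))
    (fun _ => rfl) (fun _ => rfl) (ssM A q M)

/-- **REG along `β`** at every tame setting (helper96). -/
theorem stmt_RegBetaAll : Stmt_RegBetaAll := by
  intro A q M hq _ _ _ _ hqM hA ht _ e he N B k B' k' hN hB hN' hB' _ _
  exact Fermat.Agent.S45.NUE.H96.regE_beta_T A q M N hq hqM hA ht (hleE N q M e hN)
    (hleE (N * q) q M (e + 1) hN') ⟨q ^ e, hN⟩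
    (TuE A N q M e B' k' hN' hB' hq hqM hA ht)
    (TlE A N q M e B k hN hB hq hqM hA ht (by omega))
    (fun _ => rfl) (fun _ => rfl) (ssM A q M) subset_rfl

/-- **SINGLE along `β`** at every tame setting. -/
theorem stmt_SingleBetaAll : Stmt_SingleBetaAll :=
  fun A q M hq _ _ _ _ hqM hA ht _ e he N B k B' k' hN hB hN' hB' _ _ i hi =>
    ⟨singleBeta A N q M e B k B' k' hN hB hN' hB' hq (by omega) hqM hA ht i hi⟩

/-- **The inputs of the side `β`** at every tame setting. -/
theorem stmt_BetaAll : Fermat.Agent.S45.NUE.H65.Stmt_BetaAll :=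
  stmt_BetaAll_of stmt_SingleBetaAll stmt_RegBetaAll

/-- **`Stmt_NuEAll`** (ND_e at every tame setting) from DOUBLE along `α`. -/
theorem stmt_NuEAll_of_double (hdoubleα : Stmt_DoubleAlphaAll) :
    Fermat.Agent.S45.NUE.H65.Stmt_NuEAll :=
  stmt_NuEAll_of_leaves stmt_RegAlphaAll hdoubleα stmt_SingleBetaAll stmt_RegBetaAll

/-- **DOUBLE along `α`** at every tame setting (helper81, helper5). -/
theorem stmt_DoubleAlphaAll : Stmt_DoubleAlphaAll :=
  fun A q M hq _ _ _ _ hqM hA ht _ e he N B k B' k' hN hB hN' hB' _ _ =>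
    ⟨Fermat.Agent.S45.NUE.H81.doubleAlpha A N q M e B k B' k' hN hB hN' hB' hq hqM hA ht
      (by omega)⟩

/-- **The inputs of the side `α`** at every tame setting. -/
theorem stmt_AlphaAll : Fermat.Agent.S45.NUE.H65.Stmt_AlphaAll :=
  stmt_AlphaAll_of stmt_RegAlphaAll stmt_DoubleAlphaAll

/-- **ND_e**: a modular instance of `NUDataE` at every tame two-level setting. -/
theorem stmt_NuEAll : Fermat.Agent.S45.NUE.H65.Stmt_NuEAll :=
  stmt_NuEAll_of_double stmt_DoubleAlphaAll

end Fermat.Agent.S45.NUE.H79
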