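import Fermat.Agent.S45.NUE.H65_Pt0E
import Fermat.Agent.S45.NUE.H79_NuEClosed

/-!
# S45 / NU_e (helper65): **`Stmt_NUCoreETame`, unconditional**

The geometric side of S45: `Stmt_NUCoreETame` from

* ND_e : helper79's `stmt_NuEAll` (the modular instance of `NUDataE` at every tame two-level
  setting);
* E-FIN : `stmt_LeavesEAll` (`H65_Pt0E`): E-CHART, E-PT, E-CUSP, E-RADQ, `LowRoot`;
* E-VV : helper51's `valVecE_mod` (inside `stmt_FinTopE_of`).
-/

set_option autoImplicit false

namespace Fermat.Agent.S45.NUE.H65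

/-- **THE TARGET `Stmt_NUCoreETame`**, unconditional. -/
theorem stmt_NUCoreETame : Stmt_NUCoreETame :=
  nuCoreETame_of_nu Fermat.Agent.S45.NUE.H79.stmt_NuEAll

end Fermat.Agent.S45.NUE.H65
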