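import Fermat.Agent.S45.NUE.H65_FinTopAll
import Fermat.Agent.S45.NUE.H79_NuE

/-!
# S45 / NU_e, package E-FIN (helper65): `Stmt_NuEAll` from helper79's frame

* `exists_isNuE` : helper79's `nuDataE` is a modular instance (`IsNuE`) in the setting of
  `H65_FinTopE`;
* `Stmt_BaseGlueE`, `Stmt_AlphaAll`, `Stmt_BetaAll` : the inputs of helper79's frame at every
  tame setting (GLUE at the base level `e = 2`, the inputs of the two sides);
* `glued_all` : GLUE at every level `e ≥ 2` (helper79's tower);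
* `stmt_NuEAll_of` : `Stmt_NuEAll` from the three statements.
-/

set_option autoImplicit false
set_option synthInstance.maxHeartbeats 400000
set_option maxHeartbeats 1000000
set_option linter.style.haveILetI false
set_option linter.unusedSectionVars false

noncomputable section

open ModularCurve AlgebraicCurve IntermediateField

namespace Fermat.Agent.S45.NUE.H65

open Fermat.Agent.S24 Fermat.Agent.BAD.H88 Fermat.Agent.S36.NU.H23 Fermat.Agent.S36.NU.H81
  Fermat.Agent.S45.NUE.H79 Fermat.Agent.S45.NUE.H23 Fermat.Agent.BAD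
  Fermat.Agent.S36.NU.H74 Fermat.Agent.S45.NUE.H96 Fermat.Agent.S36.NU.H79
  Fermat.Agent.S36.NU.H24

attribute [local instance] algkE

/-- helper79's datum is a modular instance of `NUDataE` in the setting of `H65_FinTopE`. -/
theorem exists_isNuE (A : ValuationSubring Kbar) (q M₁ M' el : ℕ) [NeZero M₁] [NeZero q]
    [NeZero M'] [NeZero (M₁ * q)] [NeZero (M₁ * q * q)] [NeZero (M' * q)] [NeZero (M' * q * q)]
    (hq : q.Prime)
    (hNl : M₁ * q = M' * q ^ el) (hNu : M₁ * q * q = M' * q ^ (el + 1))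
    (Bl kl : ℤ) (hBl : Bl * M' + kl * (q : ℤ) ^ el = 1)
    (Bu ku : ℤ) (hBu : Bu * M' + ku * (q : ℤ) ^ (el + 1) = 1)
    (hqM : ¬ q ∣ M') (hA : A.LiesOverPrime q) (ht : H91.TameAt M' q) (hel : 0 < el)
    (hel2 : 2 ≤ el)
    (Iα : AlphaInputs A (M₁ * q) q M' el Bl kl Bu ku hNl hBl hNu hBu hq hqM hA ht hel)
    (Iβ : BetaInputs A (M₁ * q) q M' el Bl kl Bu ku hNl hBl hNu hBu hq hqM hA ht hel)
    (hg : ∀ z ∈ ssM A q M',
      Glued (Fermat.Agent.S45.NUE.H79.TlE A (M₁ * q) q M' el Bl kl hNl hBl hq hqM hA ht hel) z) :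
    ∃ D : NUDataEM A q M₁ M' el,
      IsNuE A q M₁ M' el hq hNl hNu Bl kl hBl Bu ku hBu hqM hA ht hel D :=
  ⟨nuDataE A (M₁ * q) q M' el Bl kl Bu ku hNl hBl hNu hBu hq hqM hA ht hel2 Iα Iβ hg,
    ⟨rfl, rfl, rfl, rfl, fun _ => rfl, fun _ => rfl⟩⟩

/-- GLUE at the base level `e = 2` (helper60 / S36). -/
def Stmt_BaseGlueE : Prop :=
  ∀ (A : ValuationSubring Kbar) (q M : ℕ) (hq : q.Prime) [NeZero q] [NeZero M]
    (hqM : ¬ q ∣ M) (hA : A.LiesOverPrime q) (ht : H91.TameAt M q), CasesE q M →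
    ∀ (N : ℕ) (B k : ℤ) (hN : N = M * q ^ 2) (hB : B * M + k * (q : ℤ) ^ 2 = 1)
      [NeZero N], ∀ z ∈ ssM A q M,
        Glued (totEM A N q M 2 B k hN hB hq hqM hA ht (by norm_num)) z

/-- The inputs of the side `α` at every tame setting. -/
def Stmt_AlphaAll : Prop :=
  ∀ (A : ValuationSubring Kbar) (q M : ℕ) (hq : q.Prime) [NeZero q] [NeZero M]
    [NeZero (M * q)] [NeZero (M * q * q)]
    (hqM : ¬ q ∣ M) (hA : A.LiesOverPrime q) (ht : H91.TameAt M q), CasesE q M →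
    ∀ (e : ℕ) (he : 2 ≤ e) (N : ℕ) (B k B' k' : ℤ) (hN : N = M * q ^ e)
      (hB : B * M + k * (q : ℤ) ^ e = 1) (hN' : N * q = M * q ^ (e + 1))
      (hB' : B' * M + k' * (q : ℤ) ^ (e + 1) = 1) [NeZero N] [NeZero (N * q)],
      Nonempty (AlphaInputs A N q M e B k B' k' hN hB hN' hB' hq hqM hA ht (by omega))

/-- The inputs of the side `β` at every tame setting. -/
def Stmt_BetaAll : Prop :=
  ∀ (A : ValuationSubring Kbar) (q M : ℕ) (hq : q.Prime) [NeZero q] [NeZero M]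
    [NeZero (M * q)] [NeZero (M * q * q)]
    (hqM : ¬ q ∣ M) (hA : A.LiesOverPrime q) (ht : H91.TameAt M q), CasesE q M →
    ∀ (e : ℕ) (he : 2 ≤ e) (N : ℕ) (B k B' k' : ℤ) (hN : N = M * q ^ e)
      (hB : B * M + k * (q : ℤ) ^ e = 1) (hN' : N * q = M * q ^ (e + 1))
      (hB' : B' * M + k' * (q : ℤ) ^ (e + 1) = 1) [NeZero N] [NeZero (N * q)],
      Nonempty (BetaInputs A N q M e B k B' k' hN hB hN' hB' hq hqM hA ht (by omega))

/-- **GLUE at every level** `M q^e`, `2 ≤ e` (helper79's tower). -/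
theorem glued_all (hbase : Stmt_BaseGlueE) (hα : Stmt_AlphaAll)
    (A : ValuationSubring Kbar) (q M : ℕ) (hq : q.Prime) [NeZero q] [NeZero M]
    (hqM : ¬ q ∣ M) (hA : A.LiesOverPrime q) (ht : H91.TameAt M q) (hc : CasesE q M)
    (e : ℕ) (he : 2 ≤ e) (N : ℕ) (B k : ℤ) (hN : N = M * q ^ e)
    (hB : B * M + k * (q : ℤ) ^ e = 1) [NeZero N] :
    ∀ z ∈ ssM A q M, Glued (totEM A N q M e B k hN hB hq hqM hA ht (by omega)) z := by
  haveI : NeZero (M * q) := ⟨Nat.mul_ne_zero (NeZero.ne M) (NeZero.ne q)⟩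
  haveI : NeZero (M * q * q) := ⟨Nat.mul_ne_zero (NeZero.ne (M * q)) (NeZero.ne q)⟩
  exact glued_totEM A q M hq hqM hA ht
    (fun N B k hN hB _ => hbase A q M hq hqM hA ht hc N B k hN hB)
    (fun e he N B k B' k' hN hB hN' hB' _ _ =>
      (hα A q M hq hqM hA ht hc e he N B k B' k' hN hB hN' hB').some) e he N B k hN hB

/-- **`Stmt_NuEAll`** from GLUE at the base level and the inputs of the two sides. -/
theorem stmt_NuEAll_of (hbase : Stmt_BaseGlueE) (hα : Stmt_AlphaAll) (hβ : Stmt_BetaAll) :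
    Stmt_NuEAll := by
  intro A q M₁ M' el _ _ _ _ _ hq hNl hNu Bl kl hBl Bu ku hBu hqM hA ht hel hel2 hc
  haveI : NeZero (M' * q) := ⟨Nat.mul_ne_zero (NeZero.ne M') (NeZero.ne q)⟩
  haveI : NeZero (M' * q * q) := ⟨Nat.mul_ne_zero (NeZero.ne (M' * q)) (NeZero.ne q)⟩
  obtain ⟨Iα⟩ := hα A q M' hq hqM hA ht hc el hel2 (M₁ * q) Bl kl Bu ku hNl hBl hNu hBu
  obtain ⟨Iβ⟩ := hβ A q M' hq hqM hA ht hc el hel2 (M₁ * q) Bl kl Bu ku hNl hBl hNu hBu
  exact exists_isNuE A q M₁ M' el hq hNl hNu Bl kl hBl Bu ku hBu hqM hA ht hel hel2 Iα Iβ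
    (glued_all hbase hα A q M' hq hqM hA ht hc el hel2 (M₁ * q) Bl kl hNl hBl)

end Fermat.Agent.S45.NUE.H65
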