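import Fermat.Agent.S45.NUE.H65_Close
import Fermat.Agent.S45.NUE.H88_PtAsmE
import Fermat.Agent.S45.NUE.H12_HssEAll
import Fermat.Agent.S45.NUE.H17_BranchInst
import Fermat.Agent.S45.NUE.H99_OrdAll
import Fermat.Agent.S45.NUE.H41_PtHypsE3

/-!
# S45 / NU_e, package E-FIN (helper65): E-PT closed (`hpt0` of `LeavesE`)

Level `N = M q^e`, `q ∤ M`, `e ≥ 1`, `T = totEM …`, `h : ChartInE A N T`, `C = chart0E A N T h`.

* `hpt0_totEM` : the local data at the closed points of the chart of `j`, from GLUE and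
  `deg = 1` at the supersingular points: one call of helper88's `pointDataE_of_dichotomy`, with
  `hss` (helper12/16), `hbr` (helper17), `hord` (helper99), `hnc`, `hsurj`, `hSSchar`, `hSS0`
  (helper41);
* `stmt_Pt0EAll` : **`Stmt_Pt0EAll`**;
* `stmt_LeavesEAll` : **`Stmt_LeavesEAll`**, unconditional;
* `nuCoreETame_of_nu` : **`Stmt_NUCoreETame`** from `Stmt_NuEAll` (ND_e).
-/

set_option autoImplicit false
set_option synthInstance.maxHeartbeats 400000
set_option maxHeartbeats 1000000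
set_option linter.style.haveILetI false
set_option linter.unusedSectionVars false
set_option linter.unusedVariables false

noncomputable section

open ModularCurve AlgebraicCurve IntermediateField

namespace Fermat.Agent.S45.NUE.H65

open Fermat.Agent.S24 Fermat.Agent.BAD.H88 Fermat.Agent.S36.NU.H23 Fermat.Agent.S36.NU.H81
  Fermat.Agent.S45.NUE.H79 Fermat.Agent.S45.NUE.H23 Fermat.Agent.BAD
  Fermat.Agent.S36.NU.H74 Fermat.Agent.S45.NUE.H96 Fermat.Agent.S36.NU.H79
  Fermat.Agent.S36.NU.H24 Fermat.Agent.S45.NUE.H74 Fermat.Agent.S36.NU.H16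
  Fermat.Agent.S36.NU.H41 Fermat.Agent.S36.NU.H88 Fermat.Agent.S36.NU.H17
  Fermat.Agent.RED.H17 Fermat.Agent.RED Fermat.Agent.S28 Fermat.Agent.S28.H73
  Fermat.Agent.RED.H73

attribute [local instance] algkE

section Pt0

variable (A : ValuationSubring Kbar)
variable (N q M e : ℕ) (B k : ℤ) (hN : N = M * q ^ e) (hB : B * M + k * (q : ℤ) ^ e = 1)
  (hq : q.Prime) [NeZero N] [NeZero q] [NeZero M] (hqM : ¬ q ∣ M) (hA : A.LiesOverPrime q)
  (ht : H91.TameAt M q) (he : 0 < e)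

/-- **E-PT, closed: `hpt0` of `LeavesE`** for the modular conservation datum. -/
theorem hpt0_totEM (hc : CasesE q M)
    (h : ChartInE A N (totEM A N q M e B k hN hB hq hqM hA ht he))
    (hglue : ∀ z ∈ ssM A q M, Glued (totEM A N q M e B k hN hB hq hqM hA ht he) z)
    (hdeg : ∀ z ∈ ssM A q M, ∀ i,
      ((totEM A N q M e B k hN hB hq hqM hA ht he).pt i z).deg = 1) :
    PointDataT (chart0E A N (totEM A N q M e B k hN hB hq hqM hA ht he) h)
      (totEM A N q M e B k hN hB hq hqM hA ht he) (ssM A q M) ((q : ℕ) : ↥(Rur A)) := by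
  haveI : IsAlgClosed (kV A) := isAlgClosed_kV A
  haveI : Infinite (kV A) := IsAlgClosed.instInfinite
  haveI : IsNoetherianRing ↥(chart0E A N (totEM A N q M e B k hN hB hq hqM hA ht he) h).B :=
    isNoetherianRing_chart0E A N _ h q hq hA
  have hP : HasPrincipalDivisors Kbar (FN N) :=
    Fermat.Agent.RED.H51.stmt_FFB_principal Kbar (FN N) (Fermat.Agent.RED.H95.stmt_HKA_isFF N)
  have S := Fermat.Agent.S45.NUE.H74.chartE_chart0E A N q M e B k hN hB hq hqM hA ht he h
  have hT : (q ≠ 2 ∧ 4 ∣ M) ∨ (q = 2 ∧ 9 ∣ M) := by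
    rcases hc with ⟨h5, h4⟩ | ⟨h3, h4⟩ | ⟨h2, h9⟩
    · exact Or.inl ⟨by omega, h4⟩
    · exact Or.inl ⟨by omega, h4⟩
    · exact Or.inr ⟨h2, h9⟩
  have hcase : q = 2 ∨ q = 3 ∨ (5 ≤ q ∧ 4 ∣ M) := by
    rcases hc with ⟨h5, h4⟩ | ⟨h3, h4⟩ | ⟨h2, h9⟩
    · exact Or.inr (Or.inr ⟨h5, h4⟩)
    · exact Or.inr (Or.inl h3)
    · exact Or.inl h2
  obtain ⟨hnc, hsurj, hSSchar⟩ :=
    Fermat.Agent.S45.NUE.H41P.ptHyps_chart0E A N q M e B k hN hB hq hqM hA ht he h
      (Fermat.Agent.S45.NUE.H99.witE0 A N q M e B k hN hB hq hqM hA ht he h) (fun _ => rfl)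
  have hqV : ∀ i, ((q : ℕ) : ↥(L0 A N))
      ∈ ((chart0E A N (totEM A N q M e B k hN hB hq hqM hA ht he) h).V i).nonunits := by
    intro i
    have := S.hqV i
    rwa [S.hqR] at this
  exact (pointData_iff_T _
    (⟨totEM A N q M e B k hN hB hq hqM hA ht he, ssM A q M, hglue, hdeg⟩ :
      GlueCore Kbar ↥(L0 A N) (FN N) (kV A) (Fin (e + 1)) (Place (kV A) (FM A M))
        (kapE A M e)) _).1
    (Fermat.Agent.S45.NUE.H88.pointDataE_of_dichotomy
      (chart0E A N (totEM A N q M e B k hN hB hq hqM hA ht he) h)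
      (⟨totEM A N q M e B k hN hB hq hqM hA ht he, ssM A q M, hglue, hdeg⟩ :
        GlueCore Kbar ↥(L0 A N) (FN N) (kV A) (Fin (e + 1)) (Place (kV A) (FM A M))
          (kapE A M e))
      ((q : ℕ) : ↥(Rur A))
      (compat_chart0E A N (totEM A N q M e B k hN hB hq hqM hA ht he) h) hP
      (Fermat.Agent.S45.NUE.H41P.hSS0_chart0E A N q M e B k hN hB hq hqM hA ht he h)
      (Fermat.Agent.S45.NUE.H99.witE0 A N q M e B k hN hB hq hqM hA ht he h)
      hnc hsurj hSSchar (Fin.last e)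
      (Fermat.Agent.S45.NUE.H12.hssE_all_chart0E A N q M e B k hN hB hq hqM hA ht hT he h
        S.hE hqV S.crit)
      (Fermat.Agent.S45.NUE.H17.branch_chart0E_totEM A N q M e B k hN hB hq hqM hA ht he h)
      (Fermat.Agent.S45.NUE.H99.hordE_totEM A N q M e B k hN hB hq hqM hA ht he hcase h))

end Pt0

/-- **E-PT at every tame level.** -/
theorem stmt_Pt0EAll : Stmt_Pt0EAll :=
  fun A N q M e B k hN hB hq _ _ _ hqM hA ht he hc h hglue hdeg =>
    hpt0_totEM A N q M e B k hN hB hq hqM hA ht he hc h hglue hdeg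

/-- **The modular leaves of E-FIN at every tame two-level setting**, unconditional. -/
theorem stmt_LeavesEAll : Stmt_LeavesEAll := stmt_LeavesEAll_of stmt_Pt0EAll

/-- **THE TARGET `Stmt_NUCoreETame`** from ND_e. -/
theorem nuCoreETame_of_nu (hNu : Stmt_NuEAll) : Stmt_NUCoreETame :=
  nuCoreETame_close hNu stmt_Pt0EAll

end Fermat.Agent.S45.NUE.H65
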