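import Fermat.Agent.S45.NUE.H68_LocEqSSE

/-!
# S45 / NU_e, package E-FIN, leaf E-PT-SS, abstract part 2 (helper68)

`locEq_ss_coordE` : **LOCEQ-SS from a coordinate, at level `M' q^E`** (generalises S36
`H16.locEq_ss_coord`).  The components `i : ι` are indexed by `a i = 0..E` (the number of
`F`-steps), with multiplicities `e i = φ(q^min(a i, E - a i))`; `u = f(τ)`, `u'' = f(q^E τ)`
in `B`; the local equations are `t i = tE q E (a i) u u''`; on the component `i₀` of the cusp `∞`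
(`a i₀ = E`): `u^(q^E) - u'' = q d`, `rd u - c` is a local coordinate at the place `z`,
`c ∈ 𝔽_{q²}`, and `ord_z (rd d) = - q^(E-1)` (POLE_E).  Then all components pass through the
point `𝔪_z` of the chart and there is a local equation datum at `𝔪_z`.

The count: `ord_z rd(t_n) = q^(n - min(n, E-n))` for `n < E`, and
`∑_{n < E} φ(q^min(n, E-n)) q^(n - min(n, E-n)) = q^(E-1)` (`sum_ordE`).
-/

set_option autoImplicit false

noncomputable section

namespace Fermat.Agent.S45.NUE.H68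

open Fermat.Agent.S36.NU Fermat.Agent.S36.NU.H16 AlgebraicCurve Fermat.Agent.RED.H17

/-! ## The count -/

/-- The contribution of the component `n`, `1 ≤ n < E`: `q^n - q^(n-1)`. -/
theorem term_ordE (q E n : ℕ) (hq : q.Prime) (hn1 : 1 ≤ n) (hnE : n < E) :
    Nat.totient (q ^ min n (E - n)) * q ^ (n - min n (E - n)) + q ^ (n - 1) = q ^ n := by
  set m := min n (E - n) with hm
  have hm1 : 1 ≤ m := by rw [hm]; exact le_min hn1 (by omega)
  have hmn : m ≤ n := by rw [hm]; exact min_le_left _ _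
  rw [Nat.totient_prime_pow hq (by omega)]
  have h1 : q ^ (m - 1) * (q - 1) * q ^ (n - m) = q ^ (n - 1) * (q - 1) := by
    have : q ^ (n - 1) = q ^ (m - 1) * q ^ (n - m) := by
      rw [← pow_add]
      congr 1
      omega
    rw [this]
    ring
  rw [h1]
  have hq1 : 1 ≤ q := hq.pos
  have h2 : q ^ (n - 1) * (q - 1) + q ^ (n - 1) = q ^ (n - 1) * q := by
    obtain ⟨r, rfl⟩ : ∃ r, q = r + 1 := ⟨q - 1, by omega⟩
    rw [Nat.add_sub_cancel]
    ring
  rw [h2, ← pow_succ]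
  congr 1
  omega

/-- The partial sums of the count. -/
theorem sum_ordE_aux (q E : ℕ) (hq : q.Prime) :
    ∀ K, K + 1 ≤ E →
      ∑ n ∈ Finset.range (K + 1), Nat.totient (q ^ min n (E - n)) * q ^ (n - min n (E - n))
        = q ^ K := by
  intro K
  induction K with
  | zero =>
    intro _
    simp
  | succ K ih =>
    intro hK
    rw [Finset.sum_range_succ, ih (by omega)]
    have h := term_ordE q E (K + 1) hq (by omega) (by omega)
    have e : K + 1 - 1 = K := by omega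
    rw [e] at h
    rw [add_comm]
    exact h

/-- **The count**: `∑_{n < E} φ(q^min(n, E-n)) q^(n - min(n, E-n)) = q^(E-1)`. -/
theorem sum_ordE (q E : ℕ) (hq : q.Prime) (hE : 1 ≤ E) :
    ∑ n ∈ Finset.range E, Nat.totient (q ^ min n (E - n)) * q ^ (n - min n (E - n))
      = q ^ (E - 1) := by
  obtain ⟨K, rfl⟩ : ∃ K, E = K + 1 := ⟨E - 1, by omega⟩
  have := sum_ordE_aux q (K + 1) hq K le_rfl
  simpa using this

/-! ## Orders of the local equations on the component of `∞` -/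

section Ord

variable {k κ : Type*} [Field k] [Field κ] [Algebra k κ]

theorem pow_fix_of_sq (q : ℕ) (c : k) (hc : c ^ q ^ 2 = c) (m : ℕ) : c ^ q ^ (2 * m) = c := by
  induction m with
  | zero => simp
  | succ m ih =>
    have : q ^ (2 * (m + 1)) = q ^ (2 * m) * q ^ 2 := by
      rw [← pow_add, mul_add, mul_one]
    rw [this, pow_mul, ih, hc]

/-- `ord_z (tE q E n ū (ū^(q^E))) = q^(n - min(n, E - n))` for `n < E`. -/
theorem ord_tE (q : ℕ) [hqp : Fact q.Prime] [CharP κ q] (z : Place k κ) (ū : κ) (c : k)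
    (hu : z.ord (ū - algebraMap k κ c) = 1) (hc : c ^ q ^ 2 = c) (E n : ℕ) (hn : n < E) :
    z.ord (tE q E n ū (ū ^ q ^ E)) = ((q ^ (n - min n (E - n)) : ℕ) : ℤ) := by
  have hfix : c ^ q ^ (2 * (E - n)) = c := pow_fix_of_sq q c hc (E - n)
  have h1 : z.ord (ū ^ q ^ (2 * (E - n)) - ū) = 1 :=
    H10.ord_frob_sub q z ū c hu (by omega) hfix
  by_cases h : E ≤ 2 * n
  · rw [tE_of_le q E n _ _ h]
    have hmin : min n (E - n) = E - n := min_eq_right (by omega)
    have hexp : n - min n (E - n) = 2 * n - E := by rw [hmin]; omega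
    have e1 : ū ^ q ^ (2 * n - E) - ū ^ q ^ E
        = -((ū ^ q ^ (2 * (E - n)) - ū) ^ q ^ (2 * n - E)) := by
      rw [sub_pow_char_pow, ← pow_mul, ← pow_add]
      have : 2 * (E - n) + (2 * n - E) = E := by omega
      rw [this]
      ring
    rw [e1, Fermat.Agent.RED.H51.ord_neg, ord_pow, h1, mul_one, hexp]
  · have h' : 2 * n < E := by omega
    rw [tE_of_lt q E n _ _ h']
    have hmin : min n (E - n) = n := min_eq_left (by omega)
    have hexp : n - min n (E - n) = 0 := by rw [hmin]; omega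
    have e1 : ū - (ū ^ q ^ E) ^ q ^ (E - 2 * n) = -(ū ^ q ^ (2 * (E - n)) - ū) := by
      rw [← pow_mul, ← pow_add]
      have : E + (E - 2 * n) = 2 * (E - n) := by omega
      rw [this]
      ring
    rw [e1, Fermat.Agent.RED.H51.ord_neg, h1, hexp]
    simp

end Ord

/-! ## The local equation datum -/

variable {R F k ι : Type*} {κ : ι → Type*} [CommRing R] [Field F] [Algebra R F]
  [Field k] [∀ i, Field (κ i)] [∀ i, Algebra k (κ i)]

/-- **LOCEQ-SS from a coordinate, level `M' q^E`.** -/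
theorem locEq_ss_coordE [Fintype ι] [DecidableEq ι] (C : Chart R F k ι κ) (qR : R) (q : ℕ)
    [hqp : Fact q.Prime] (hq0 : algebraMap R F qR ≠ 0)
    (hqV : ∀ i, algebraMap R F qR ∈ (C.V i).nonunits)
    (H : Subring F) (hBH : ∀ x ∈ C.B, x ∈ H) (hqH : (algebraMap R F qR)⁻¹ ∈ H)
    (crit : ∀ f ∈ H, (∀ i, f ∈ C.V i) → f ∈ C.B)
    (E : ℕ) (hE1 : 1 ≤ E) (a : ι → ℕ) (ha : Function.Injective a) (haE : ∀ i, a i ≤ E)
    (hsur : ∀ n, n ≤ E → ∃ i, a i = n)
    (e : ι → ℕ) (he : ∀ i, e i = Nat.totient (q ^ min (a i) (E - a i)))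
    (hVal : H99.ValE C qR e)
    (i₀ : ι) (hi₀ : a i₀ = E) [CharP (κ i₀) q] (u u'' : C.B)
    (d : F) (hdV : d ∈ C.V i₀)
    (hd : (u : F) ^ q ^ E - (u'' : F) = algebraMap R F qR * d)
    (hpow : ∀ i, i ≠ i₀ → ∃ f' ∈ C.V i,
      ((tE q E (a i) u u'' : C.B) : F) ^ e i = algebraMap R F qR * f')
    (z : Place k (κ i₀)) (c : k)
    (hu : z.ord (C.rdB i₀ u - algebraMap k (κ i₀) c) = 1) (hc : c ^ q ^ 2 = c)
    (hdord : z.ord (C.rd i₀ d) = -((q ^ (E - 1) : ℕ) : ℤ))
    (𝔪 : Ideal C.B) [h𝔪p : 𝔪.IsPrime] (h𝔪 : ∀ β : C.B, β ∈ 𝔪 ↔ VanAt z (C.rdB i₀ β)) :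
    (∀ i, C.Icomp i ≤ 𝔪) ∧ Nonempty (LocEq C qR 𝔪) := by
  classical
  set ū : κ i₀ := C.rdB i₀ u with hū
  set t : ι → C.B := fun i => tE q E (a i) u u'' with ht
  have hepos : ∀ i, 0 < e i := by
    intro i
    rw [he i]
    exact Nat.totient_pos.2 (pow_pos hqp.out.pos _)
  have he₀ : e i₀ = 1 := by
    rw [he i₀, hi₀]
    simp
  have ht₀ : (t i₀ : F) = algebraMap R F qR * d := by
    rw [ht]
    change ((tE q E (a i₀) u u'' : C.B) : F) = _
    rw [hi₀, tE_top, ← hd]
    rfl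
  -- the residue of `u''` on the component `i₀`
  have hrdT₀ : C.rdB i₀ (t i₀) = 0 := by
    rw [← C.mem_Icomp, H99.mem_Icomp_iff_nonunits, ht₀]
    exact H99.mem_nonunits_of_mul (C.V i₀) (hqV i₀) hdV
  have hu'' : C.rdB i₀ u'' = ū ^ q ^ E := by
    have h := hrdT₀
    rw [ht] at h
    change C.rdB i₀ (tE q E (a i₀) u u'') = 0 at h
    rw [hi₀, tE_top, map_sub, map_pow, sub_eq_zero] at h
    exact h.symm
  have hrdt : ∀ i, C.rdB i₀ (t i) = tE q E (a i) ū (ū ^ q ^ E) := by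
    intro i
    rw [ht]
    change C.rdB i₀ (tE q E (a i) u u'') = _
    rw [map_tE, hu'']
  have hlt : ∀ i, i ≠ i₀ → a i < E := by
    intro i hi
    refine lt_of_le_of_ne (haE i) fun h => hi (ha (h.trans hi₀.symm))
  have hord : ∀ i, i ≠ i₀ →
      z.ord (C.rdB i₀ (t i)) = ((q ^ (a i - min (a i) (E - a i)) : ℕ) : ℤ) := by
    intro i hi
    rw [hrdt i]
    exact ord_tE q z ū c hu hc E (a i) (hlt i hi)
  have hpos : ∀ i, i ≠ i₀ → 0 < z.ord (C.rdB i₀ (t i)) := by
    intro i hi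
    rw [hord i hi]
    exact_mod_cast pow_pos hqp.out.pos _
  have hd0 : C.rd i₀ d ≠ 0 := by
    intro h
    rw [h, Place.ord_zero] at hdord
    have : (0 : ℤ) < ((q ^ (E - 1) : ℕ) : ℤ) := by exact_mod_cast pow_pos hqp.out.pos _
    omega
  -- the count
  have hsumN : ∑ i ∈ Finset.univ.erase i₀,
      Nat.totient (q ^ min (a i) (E - a i)) * q ^ (a i - min (a i) (E - a i))
        = q ^ (E - 1) := by
    rw [← sum_ordE q E hqp.out hE1]
    refine Finset.sum_bij (fun i _ => a i) ?_ ?_ ?_ ?_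
    · intro i hi
      exact Finset.mem_range.2 (hlt i (Finset.ne_of_mem_erase hi))
    · intro i _ j _ hij
      exact ha hij
    · intro n hn
      obtain ⟨i, hi⟩ := hsur n (Finset.mem_range.1 hn).le
      refine ⟨i, Finset.mem_erase.2 ⟨?_, Finset.mem_univ i⟩, hi⟩
      intro h
      rw [h, hi₀] at hi
      have := Finset.mem_range.1 hn
      omega
    · intro i _
      rfl
  have hsum : z.ord (C.rd i₀ d)
      + ∑ i ∈ Finset.univ.erase i₀, (e i : ℤ) * z.ord (C.rdB i₀ (t i)) = 0 := by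
    have h1 : ∑ i ∈ Finset.univ.erase i₀, (e i : ℤ) * z.ord (C.rdB i₀ (t i))
        = ((∑ i ∈ Finset.univ.erase i₀,
            Nat.totient (q ^ min (a i) (E - a i)) * q ^ (a i - min (a i) (E - a i)) : ℕ) : ℤ) := by
      rw [Nat.cast_sum]
      refine Finset.sum_congr rfl fun i hi => ?_
      rw [hord i (Finset.ne_of_mem_erase hi), he i]
      push_cast
      rfl
    rw [h1, hsumN, hdord]
    ring
  exact locEq_ss_ordE C qR hq0 hqV H hBH hqH crit e hVal hepos i₀ he₀ t d hdV ht₀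
    (fun i hi => hpow i hi) z hpos hd0 hsum 𝔪 h𝔪

end Fermat.Agent.S45.NUE.H68
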