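import Fermat.Agent.S45.NUE.H73_RamVE
import Fermat.Agent.S45.NUE.H82_EwE
import Fermat.Agent.S36.NU.H88_ChartAlg

/-!
# S45 / NU_e, leaf E-CUSP (helper73): the elements of the chart at infinity

Level `N = M q^e`, `u = 1 / j`, `EwE a` helper82's witness of the component `a`,
`π_a = j (q^(a+m) τ) - j (q^(a-m) τ)`, `m = min a (e - a)`, `φ = φ(q^m)`.

* `uooE = 1 / j`;
* `KooE q e a` : `q - 1` (`a = 0`), `q^(e-1) (q-1)` (`a = e`), `2 q^(a-1) (q-1)` (`0 < a < e`);
* `EooE a` : `(EwE 0)^q · u^(q-1)` (`a = 0`), `EwE a · u^(KooE a)` (`a ≠ 0`);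
* `xooE a = π_a · u^(q^(a-m)) · (EooE a)^(q^m)`   (the local equation of the component `a`);
* `fooE a = (π_a · u^(q^(a-m)))^φ / q`;
* `xooE_pow : xooE a ^ φ = q · (fooE a · (EooE a)^(q^m φ))`.
-/

set_option autoImplicit false
set_option synthInstance.maxHeartbeats 400000
set_option maxHeartbeats 1000000
set_option linter.unusedSectionVars false
set_option linter.unusedVariables false
set_option linter.style.haveILetI false

noncomputable section

namespace Fermat.Agent.S45.NUE.H73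

open Fermat.Agent.S24 Fermat.Agent.BAD.H88 ModularCurve
open Fermat.Agent.S36.NU.H88 Fermat.Agent.S36.NU.H23
open Fermat.Agent.S45.NUE.H82 (EwE EwF coe_EwE)

section Defs

variable (A : ValuationSubring Kbar) (N q : ℕ) [NeZero N] [NeZero q]

/-- `u = 1 / j`, the coordinate of the chart at infinity. -/
def uooE : ↥(L0 A N) := (j0 A N)⁻¹

theorem coe_uooE : ((uooE A N : ↥(L0 A N)) : FN N) = (jF N)⁻¹ := rfl

theorem uooE_ne_zero : uooE A N ≠ 0 := inv_ne_zero (j0_ne_zero A N)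

/-- The exponent of `u` in `EooE a`. -/
def KooE (e a : ℕ) : ℕ :=
  if a = 0 then q - 1 else if a = e then q ^ (e - 1) * (q - 1) else 2 * q ^ (a - 1) * (q - 1)

theorem KooE_zero (e : ℕ) : KooE q e 0 = q - 1 := by
  rw [KooE, if_pos rfl]

theorem KooE_top (e : ℕ) (he : e ≠ 0) : KooE q e e = q ^ (e - 1) * (q - 1) := by
  rw [KooE, if_neg he, if_pos rfl]

theorem KooE_mid (e a : ℕ) (ha0 : a ≠ 0) (hae : a ≠ e) :
    KooE q e a = 2 * q ^ (a - 1) * (q - 1) := by
  rw [KooE, if_neg ha0, if_neg hae]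

/-- **The witness of the component `a` in the chart at infinity.** -/
def EooE (e a : ℕ) : ↥(L0 A N) :=
  if a = 0 then EwE A N q e 0 ^ q * uooE A N ^ (q - 1)
  else EwE A N q e a * uooE A N ^ KooE q e a

theorem EooE_zero (e : ℕ) : EooE A N q e 0 = EwE A N q e 0 ^ q * uooE A N ^ (q - 1) := by
  rw [EooE, if_pos rfl]

theorem EooE_of_ne (e a : ℕ) (ha0 : a ≠ 0) :
    EooE A N q e a = EwE A N q e a * uooE A N ^ KooE q e a := by
  rw [EooE, if_neg ha0]

theorem EooE_top (e : ℕ) (he : e ≠ 0) :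
    EooE A N q e e = EwE A N q e e * uooE A N ^ (q ^ (e - 1) * (q - 1)) := by
  rw [EooE_of_ne A N q e e he, KooE_top q e he]

theorem EooE_mid (e a : ℕ) (ha0 : a ≠ 0) (hae : a ≠ e) :
    EooE A N q e a = EwE A N q e a * uooE A N ^ (2 * q ^ (a - 1) * (q - 1)) := by
  rw [EooE_of_ne A N q e a ha0, KooE_mid q e a ha0 hae]

theorem EooE_ne_zero (e a : ℕ) : EooE A N q e a ≠ 0 := by
  have h1 := Fermat.Agent.S45.NUE.H82.EwE_ne_zero A N q e
  have h2 := uooE_ne_zero A N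
  rw [EooE]
  split_ifs
  · exact mul_ne_zero (pow_ne_zero _ (h1 0)) (pow_ne_zero _ h2)
  · exact mul_ne_zero (h1 a) (pow_ne_zero _ h2)

variable (e : ℕ)

/-- **The local equation of the component `a`** at its cusps:
`x_a = π_a · u^(q^(a-m)) · (EooE a)^(q^m)`. -/
def xooE (a : ℕ) (h1 : q ^ (a + min a (e - a)) ∣ N) (h2 : q ^ (a - min a (e - a)) ∣ N) :
    ↥(L0 A N) :=
  piEo A N q e a h1 h2 * uooE A N ^ (q ^ (a - min a (e - a)))
    * EooE A N q e a ^ (q ^ min a (e - a))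

/-- `f_a = (π_a · u^(q^(a-m)))^φ / q`. -/
def fooE (a : ℕ) (h1 : q ^ (a + min a (e - a)) ∣ N) (h2 : q ^ (a - min a (e - a)) ∣ N) :
    ↥(L0 A N) :=
  (piEo A N q e a h1 h2 * uooE A N ^ (q ^ (a - min a (e - a))))
      ^ Nat.totient (q ^ min a (e - a))
    * (((q : ℕ) : ↥(L0 A N)))⁻¹

/-- **RAM**: `x_a ^ φ = q · (f_a · (EooE a)^(q^m φ))`. -/
theorem xooE_pow (a : ℕ) (h1 : q ^ (a + min a (e - a)) ∣ N)
    (h2 : q ^ (a - min a (e - a)) ∣ N) :
    xooE A N q e a h1 h2 ^ Nat.totient (q ^ min a (e - a))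
      = ((q : ℕ) : ↥(L0 A N)) * (fooE A N q e a h1 h2
          * EooE A N q e a ^ (q ^ min a (e - a) * Nat.totient (q ^ min a (e - a)))) := by
  have hq0 : ((q : ℕ) : ↥(L0 A N)) ≠ 0 := by
    intro h
    have h3 := congrArg (fun x : ↥(L0 A N) => (x : FN N)) h
    simp only [ZeroMemClass.coe_zero] at h3
    have h4 : (((q : ℕ) : ↥(L0 A N)) : FN N) = ((q : ℕ) : FN N) :=
      map_natCast (L0 A N).subtype q
    rw [h4] at h3
    exact (NeZero.ne q) (by exact_mod_cast h3)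
  rw [xooE, fooE, mul_pow, pow_mul]
  field_simp

end Defs

end Fermat.Agent.S45.NUE.H73
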