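import Fermat.Agent.S45.NUE.H73_CuspExp
import Fermat.Agent.S36.NU.H88_MidExp

/-!
# S45 / NU_e, package E-CUSP, part 2 (helper73): the normalised expansion `cE a` at the cusp
`1/(q^a M)` of `X₀(M q^e)`

`N = M q^e`, `B M + k q^e = 1`.  The cusp `1/(q^a M)` has width `w_a = q^(e - 2 a)` (natural
subtraction), `n_a = N / w_a = M q^min(e, 2 a)` (`nE`), local parameter `s = q^(1/w_a)`.
With `z_a = ζ_{q^max(a, e - a)}^B` (`zE`):

* `cuspU_gE_mem_range` : every `cuspU N γ_a x` is a series in `u^(n_a)`;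
* `cE : F_N →ₐ[Q̄] Q̄((s))` with `(cE x)(u^(n_a)) = cuspU N γ_a x` (`qExpand_cE`);
* `cE_jdF_le` : `i ≤ a`:      `cE (j (q^(d q^i))) = j (s^(d q^(e - 2 a + i)))`;
* `cE_jdF_gt` : `a < i ≤ e`:  `cE (j (q^(d q^i))) = j ((z_a s)^(d q^(max(e, 2 a) - i)))`;
* `hasScale_fieldRange_cE` : the image of `cE` has the scaling property.
-/

set_option autoImplicit false
set_option synthInstance.maxHeartbeats 400000
set_option maxHeartbeats 1000000
set_option linter.unusedSectionVars false
set_option linter.unusedVariables false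
set_option linter.style.haveILetI false

noncomputable section

namespace Fermat.Agent.S45.NUE.H73

open Fermat.Agent.S24 Fermat.Agent.BAD.H88 ModularCurve UpperHalfPlane
open Fermat.Agent.S28 Fermat.Agent.S28.H73 Fermat.Agent.RED.H73
open Fermat.Agent.S36.NU.H88
open scoped MatrixGroups Manifold

/-- `n_a = M q^min(e, 2 a)`: the expansions at the cusp `1/(q^a M)` are series in `u^(n_a)`. -/
def nE (q M e a : ℕ) : ℕ := M * q ^ (min e (2 * a))

/-- The root of unity `z_a = ζ_{q^max(a, e - a)}^B`. -/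
def zE (q e a : ℕ) [NeZero q] (B : ℤ) : Kbar :=
  haveI : NeZero (q ^ max a (e - a)) := ⟨pow_ne_zero _ (NeZero.ne q)⟩
  zetaK (q ^ max a (e - a)) ^ B

theorem zE_pow (q e a : ℕ) [NeZero q] (B : ℤ) : zE q e a B ^ (q ^ max a (e - a)) = 1 := by
  haveI : NeZero (q ^ max a (e - a)) := ⟨pow_ne_zero _ (NeZero.ne q)⟩
  show (zetaK (q ^ max a (e - a)) ^ B) ^ (q ^ max a (e - a)) = 1
  rw [← zpow_natCast, ← zpow_mul, mul_comm, zpow_mul, zpow_natCast,
    (isPrimitiveRoot_zetaK _).pow_eq_one, one_zpow]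

section Level

variable (N q M e : ℕ) (B k : ℤ) (hN : N = M * q ^ e) (hB : B * M + k * (q : ℤ) ^ e = 1)
  (hq : q.Prime) [NeZero N] [NeZero q]

include hN hB hq

theorem nE_pos (a : ℕ) : 0 < nE q M e a :=
  Nat.mul_pos (posE N q M e B k hN hB hq) (pow_pos hq.pos _)

theorem nE_mul (a : ℕ) : nE q M e a * q ^ (e - 2 * a) = N := by
  rw [hN, nE, mul_assoc, ← pow_add]
  congr 2
  omega

/-- `i ≤ a`: the expansion at the cusp `1/(q^a M)` as a series in `u^(n_a)`. -/
theorem cuspU_gE_eq_le (d d' i a : ℕ) (hM : M = d * d') (hia : i ≤ a) [NeZero (d * q ^ i)]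
    [NeZero (nE q M e a)] [NeZero (d * q ^ (e - 2 * a + i))] (hD : d * q ^ i ∣ N) :
    cuspU N (gE q M a) (jdF N (d * q ^ i) hD)
      = qExpand Kbar (nE q M e a) (qExpand Kbar (d * q ^ (e - 2 * a + i)) jBar) := by
  rw [cuspU_gE_le N q M e B k hN hB hq d d' i a hM hia hD, qExpand_qExpand, qExpand_qExpand]
  refine qExpand_congr ?_ _
  rw [← nE_mul N q M e B k hN hB hq a, pow_add]
  ring

/-- `a < i ≤ e`: the expansion at the cusp `1/(q^a M)` as a series in `u^(n_a)`. -/
theorem cuspU_gE_eq_gt (d d' i a : ℕ) (hM : M = d * d') (hai : a < i) (hie : i ≤ e)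
    [NeZero (d * q ^ i)] [NeZero (nE q M e a)] [NeZero (d * q ^ (max e (2 * a) - i))]
    (hD : d * q ^ i ∣ N) :
    cuspU N (gE q M a) (jdF N (d * q ^ i) hD)
      = qExpand Kbar (nE q M e a)
          (twist (zE q e a B) (qExpand Kbar (d * q ^ (max e (2 * a) - i)) jBar)) := by
  have hq0 : 0 < q := hq.pos
  have hM0 := posE N q M e B k hN hB hq
  have hd0 : 0 < d := by
    rcases Nat.eq_zero_or_pos d with h | h
    · rw [h, zero_mul] at hM; omega
    · exact h
  haveI : NeZero (q ^ (i - a)) := ⟨(pow_pos hq0 _).ne'⟩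
  haveI : NeZero (q ^ max a (e - a)) := ⟨(pow_pos hq0 _).ne'⟩
  haveI : NeZero (q ^ (max e (2 * a) - i)) := ⟨(pow_pos hq0 _).ne'⟩
  haveI : NeZero (q ^ (max e (2 * a) - i) * q ^ (i - a)) :=
    ⟨(Nat.mul_pos (pow_pos hq0 _) (pow_pos hq0 _)).ne'⟩
  haveI : NeZero (M * d * q ^ (e - i + 2 * a)) :=
    ⟨(Nat.mul_pos (Nat.mul_pos hM0 hd0) (pow_pos hq0 _)).ne'⟩
  have hidx : nE q M e a * (d * q ^ (max e (2 * a) - i)) = M * d * q ^ (e - i + 2 * a) := by
    rw [nE]
    have : e - i + 2 * a = min e (2 * a) + (max e (2 * a) - i) := by omega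
    rw [this, pow_add]
    ring
  have hz : zetaK (q ^ max a (e - a)) ^ (q ^ (max e (2 * a) - i)) = zetaK (q ^ (i - a)) := by
    have h1 : q ^ max a (e - a) = q ^ (max e (2 * a) - i) * q ^ (i - a) := by
      rw [← pow_add]; congr 1; omega
    rw [zetaK_congr h1]
    exact zetaK_mul_pow _ _
  have hzz : (zE q e a B) ^ ((d * q ^ (max e (2 * a) - i) : ℕ) : ℤ)
      = zetaK (q ^ (i - a)) ^ (B * d) := by
    show (zetaK (q ^ max a (e - a)) ^ B) ^ ((d * q ^ (max e (2 * a) - i) : ℕ) : ℤ) = _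
    rw [← hz, ← zpow_natCast (zetaK (q ^ max a (e - a))) (q ^ (max e (2 * a) - i)), ← zpow_mul,
      ← zpow_mul]
    congr 1
    push_cast
    ring
  rw [cuspU_gE_gt N q M e B k hN hB hq d d' i a hM hai hie hD, twist_qExpand, qExpand_qExpand,
    hzz]
  exact qExpand_congr hidx.symm _

/-- The `u`-expansions at the cusp `1/(q^a M)` are series in `u^(n_a)`. -/
theorem cuspU_gE_mem_range (a : ℕ) [NeZero (nE q M e a)] (x : FN N) :
    cuspU N (gE q M a) x ∈ (qExpandAlgHomC Kbar (nE q M e a)).range := by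
  have hq0 : 0 < q := hq.pos
  have hx : x ∈ IntermediateField.adjoin Kbar
      {x : FN N | ∃ (d : ℕ) (_ : NeZero d) (hd : d ∣ N), x = jdF N d hd} := by
    rw [adjoin_jdF]; exact IntermediateField.mem_top
  induction hx using IntermediateField.adjoin_induction with
  | mem y hy =>
    obtain ⟨D, hD0, hD, rfl⟩ := hy
    obtain ⟨d, d', i, hM, hie, h⟩ := dvdE_cases N q M e B k hN hB hq D hD
    subst h
    have hM0 := posE N q M e B k hN hB hq
    have hd0 : 0 < d := by
      rcases Nat.eq_zero_or_pos d with h | h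
      · rw [h, zero_mul] at hM; omega
      · exact h
    rcases Nat.lt_or_ge a i with hai | hia
    · haveI : NeZero (d * q ^ (max e (2 * a) - i)) :=
        ⟨(Nat.mul_pos hd0 (pow_pos hq0 _)).ne'⟩
      exact ⟨_, (cuspU_gE_eq_gt N q M e B k hN hB hq d d' i a hM hai hie hD).symm⟩
    · haveI : NeZero (d * q ^ (e - 2 * a + i)) := ⟨(Nat.mul_pos hd0 (pow_pos hq0 _)).ne'⟩
      exact ⟨_, (cuspU_gE_eq_le N q M e B k hN hB hq d d' i a hM hia hD).symm⟩
  | algebraMap c =>
    rw [AlgHom.commutes]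
    exact Subalgebra.algebraMap_mem _ c
  | add y z _ _ hy hz =>
    rw [map_add]; exact add_mem hy hz
  | inv y _ hy =>
    rw [map_inv₀]
    obtain ⟨t, ht⟩ := hy
    exact ⟨t⁻¹, by rw [map_inv₀]; exact congrArg _ ht⟩
  | mul y z _ _ hy hz =>
    rw [map_mul]; exact mul_mem hy hz

/-- **The normalised expansion at the cusp `1/(q^a M)`** (in the local parameter
`s = q^(1/w_a)`, `w_a = q^(e - 2 a)`). -/
def cE (a : ℕ) [NeZero (nE q M e a)] : FN N →ₐ[Kbar] LaurentSeries Kbar :=
  ((AlgEquiv.ofInjective (qExpandAlgHomC Kbar (nE q M e a))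
      (qExpandAlgHomC_injective (nE q M e a))).symm.toAlgHom).comp
    ((cuspU N (gE q M a)).codRestrict (qExpandAlgHomC Kbar (nE q M e a)).range
      (cuspU_gE_mem_range N q M e B k hN hB hq a))

theorem qExpand_cE (a : ℕ) [NeZero (nE q M e a)] (x : FN N) :
    qExpand Kbar (nE q M e a) (cE N q M e B k hN hB hq a x) = cuspU N (gE q M a) x := by
  have h := (AlgEquiv.ofInjective (qExpandAlgHomC Kbar (nE q M e a))
    (qExpandAlgHomC_injective (nE q M e a))).apply_symm_apply
    (((cuspU N (gE q M a)).codRestrict (qExpandAlgHomC Kbar (nE q M e a)).range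
      (cuspU_gE_mem_range N q M e B k hN hB hq a)) x)
  exact congrArg Subtype.val h

theorem cE_injective (a : ℕ) [NeZero (nE q M e a)] :
    Function.Injective (cE N q M e B k hN hB hq a) :=
  (cE N q M e B k hN hB hq a).toRingHom.injective

/-- `i ≤ a`: `cE (j (q^(d q^i))) = j (s^(d q^(e - 2 a + i)))`. -/
theorem cE_jdF_le (d d' i a : ℕ) (hM : M = d * d') (hia : i ≤ a) [NeZero (d * q ^ i)]
    [NeZero (nE q M e a)] [NeZero (d * q ^ (e - 2 * a + i))] (hD : d * q ^ i ∣ N) :
    cE N q M e B k hN hB hq a (jdF N (d * q ^ i) hD)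
      = qExpand Kbar (d * q ^ (e - 2 * a + i)) jBar := by
  apply qExpand_injective (nE q M e a)
  rw [qExpand_cE, cuspU_gE_eq_le N q M e B k hN hB hq d d' i a hM hia hD]

/-- `a < i ≤ e`: `cE (j (q^(d q^i))) = j ((z_a s)^(d q^(max(e, 2 a) - i)))`. -/
theorem cE_jdF_gt (d d' i a : ℕ) (hM : M = d * d') (hai : a < i) (hie : i ≤ e)
    [NeZero (d * q ^ i)] [NeZero (nE q M e a)] [NeZero (d * q ^ (max e (2 * a) - i))]
    (hD : d * q ^ i ∣ N) :
    cE N q M e B k hN hB hq a (jdF N (d * q ^ i) hD)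
      = twist (zE q e a B) (qExpand Kbar (d * q ^ (max e (2 * a) - i)) jBar) := by
  apply qExpand_injective (nE q M e a)
  rw [qExpand_cE, cuspU_gE_eq_gt N q M e B k hN hB hq d d' i a hM hai hie hD]

/-- Two `Q̄`-algebra homomorphisms on `F_N` which agree on the `j (q^D)`, `D ∣ N`, are equal. -/
theorem algHom_eq_of_jdF (φ ψ : FN N →ₐ[Kbar] LaurentSeries Kbar)
    (h : ∀ (D : ℕ) (_ : NeZero D) (hD : D ∣ N), φ (jdF N D hD) = ψ (jdF N D hD)) (x : FN N) :
    φ x = ψ x := by
  have hx : x ∈ IntermediateField.adjoin Kbar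
      {x : FN N | ∃ (d : ℕ) (_ : NeZero d) (hd : d ∣ N), x = jdF N d hd} := by
    rw [adjoin_jdF]; exact IntermediateField.mem_top
  induction hx using IntermediateField.adjoin_induction with
  | mem y hy =>
    obtain ⟨D, hD0, hD, rfl⟩ := hy
    exact h D hD0 hD
  | algebraMap c => rw [AlgHom.commutes, AlgHom.commutes]
  | add y z _ _ hy hz => rw [map_add, map_add, hy, hz]
  | inv y _ hy => rw [map_inv₀, map_inv₀, hy]
  | mul y z _ _ hy hz => rw [map_mul, map_mul, hy, hz]

/-- **`a = e` is the cusp `∞`**: `cE e x` is the `q`-expansion of `x`. -/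
theorem cE_top [NeZero (nE q M e e)] (x : FN N) :
    cE N q M e B k hN hB hq e x = (x : LaurentSeries Kbar) := by
  have hq0 : 0 < q := hq.pos
  refine algHom_eq_of_jdF N q M e B k hN hB hq (cE N q M e B k hN hB hq e)
    (modularFunctionFieldBar N).val ?_ x
  intro D hD0 hD
  obtain ⟨d, d', i, hM, hie, h⟩ := dvdE_cases N q M e B k hN hB hq D hD
  subst h
  have hM0 := posE N q M e B k hN hB hq
  have hd0 : 0 < d := by
    rcases Nat.eq_zero_or_pos d with h | h
    · rw [h, zero_mul] at hM; omega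
    · exact h
  haveI : NeZero (d * q ^ (e - 2 * e + i)) := ⟨(Nat.mul_pos hd0 (pow_pos hq0 _)).ne'⟩
  rw [cE_jdF_le N q M e B k hN hB hq d d' i e hM hie hD]
  have h0 : e - 2 * e + i = i := by omega
  rw [qExpand_congr (by rw [h0] : d * q ^ (e - 2 * e + i) = d * q ^ i)]
  exact qExpand_jBar (d * q ^ i)

/-- The values of `cE` lie in the field generated by `IntSpan`. -/
theorem cE_mem_adjoin_intSpan (a : ℕ) [NeZero (nE q M e a)] (x : FN N) :
    cE N q M e B k hN hB hq a x ∈
      IntermediateField.adjoin Kbar (IntSpan Kbar : Set (LaurentSeries Kbar)) := by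
  have hq0 : 0 < q := hq.pos
  have hx : x ∈ IntermediateField.adjoin Kbar
      {x : FN N | ∃ (d : ℕ) (_ : NeZero d) (hd : d ∣ N), x = jdF N d hd} := by
    rw [adjoin_jdF]; exact IntermediateField.mem_top
  induction hx using IntermediateField.adjoin_induction with
  | mem y hy =>
    obtain ⟨D, hD0, hD, rfl⟩ := hy
    apply IntermediateField.subset_adjoin
    obtain ⟨d, d', i, hM, hie, h⟩ := dvdE_cases N q M e B k hN hB hq D hD
    subst h
    have hM0 := posE N q M e B k hN hB hq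
    have hd0 : 0 < d := by
      rcases Nat.eq_zero_or_pos d with h | h
      · rw [h, zero_mul] at hM; omega
      · exact h
    rcases Nat.lt_or_ge a i with hai | hia
    · haveI : NeZero (d * q ^ (max e (2 * a) - i)) :=
        ⟨(Nat.mul_pos hd0 (pow_pos hq0 _)).ne'⟩
      rw [cE_jdF_gt N q M e B k hN hB hq d d' i a hM hai hie hD]
      exact twist_mem_intSpan (pow_pos hq0 (max a (e - a))) (zE_pow q e a B)
        (qExpand_jBar_mem_intSeries _)
    · haveI : NeZero (d * q ^ (e - 2 * a + i)) := ⟨(Nat.mul_pos hd0 (pow_pos hq0 _)).ne'⟩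
      rw [cE_jdF_le N q M e B k hN hB hq d d' i a hM hia hD]
      exact intSeries_le_intSpan (qExpand_jBar_mem_intSeries _)
  | algebraMap c =>
    rw [AlgHom.commutes]
    exact IntermediateField.algebraMap_mem _ c
  | add y z _ _ hy hz =>
    rw [map_add]; exact add_mem hy hz
  | inv y _ hy =>
    rw [map_inv₀]; exact inv_mem hy
  | mul y z _ _ hy hz =>
    rw [map_mul]; exact mul_mem hy hz

/-- The image of `cE` has the scaling property. -/
theorem hasScale_fieldRange_cE (A : ValuationSubring Kbar) (a : ℕ) [NeZero (nE q M e a)] :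
    HasScale A (cE N q M e B k hN hB hq a).fieldRange := by
  refine HasScale.mono A (hasScale_adjoin A (le_refl _)) ?_
  rintro y ⟨x, rfl⟩
  exact cE_mem_adjoin_intSpan N q M e B k hN hB hq a x

end Level

end Fermat.Agent.S45.NUE.H73
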