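import Fermat.Agent.S45.NUE.H73_CuspExp2
import Fermat.Agent.S45.NUE.H23_Val

/-!
# S45 / NU_e, package E-CUSP, part 3 (helper73): the cusps `1/(q^a M)` have normalised expansions

`N = M q^e`, `B M + k q^e = 1`, `n_a = M q^min(e, 2 a)`.

* `isCuspExp_gE : H23.IsCuspExp N (gE q M a) (M * q ^ min e (2 * a))`;
* `cG_jdF_le`, `cG_jdF_gt`, `cG_jdF_gt'` : the values of helper23's `cG` on the generators
  (`i ≤ a`: `j (s^(d q^(e - 2 a + i)))`;  `a < i ≤ e`: `j ((z_a s)^(d q^(max(e, 2 a) - i)))`,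
  `z_a = ζ_{q^max(a, e - a)}^B`);
* `cG_eq_cE`, `cG_top` : `cG = cE`, and `a = e` is the expansion at `∞`.
-/

set_option autoImplicit false
set_option synthInstance.maxHeartbeats 400000
set_option maxHeartbeats 1000000
set_option linter.unusedSectionVars false
set_option linter.unusedVariables false
set_option linter.style.haveILetI false

noncomputable section

namespace Fermat.Agent.S45.NUE.H73

open Fermat.Agent.S24 Fermat.Agent.BAD.H88 ModularCurve UpperHalfPlane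
open Fermat.Agent.S28 Fermat.Agent.S28.H73 Fermat.Agent.RED.H73
open Fermat.Agent.S36.NU.H88
open Fermat.Agent.S45.NUE.H23 (IsCuspExp cG cG_eq_of qExpand_cG)
open scoped MatrixGroups Manifold

section Level

variable (N q M e : ℕ) (B k : ℤ) (hN : N = M * q ^ e) (hB : B * M + k * (q : ℤ) ^ e = 1)
  (hq : q.Prime) [NeZero N] [NeZero q]

include hN hB hq

/-- **The cusp `1/(q^a M)` of `X₀(M q^e)` has a normalised expansion** in `u^(n_a)`,
`n_a = M q^min(e, 2 a)`. -/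
theorem isCuspExp_gE (a : ℕ) [NeZero (M * q ^ min e (2 * a))] :
    IsCuspExp N (gE q M a) (M * q ^ min e (2 * a)) := by
  have hq0 : 0 < q := hq.pos
  intro D hD0 hD
  obtain ⟨d, d', i, hM, hie, h⟩ := dvdE_cases N q M e B k hN hB hq D hD
  subst h
  have hM0 := posE N q M e B k hN hB hq
  have hd0 : 0 < d := by
    rcases Nat.eq_zero_or_pos d with h | h
    · rw [h, zero_mul] at hM; omega
    · exact h
  haveI : NeZero (nE q M e a) := ⟨(nE_pos N q M e B k hN hB hq a).ne'⟩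
  rcases Nat.lt_or_ge a i with hai | hia
  · haveI : NeZero (d * q ^ (max e (2 * a) - i)) := ⟨(Nat.mul_pos hd0 (pow_pos hq0 _)).ne'⟩
    refine ⟨d * q ^ (max e (2 * a) - i), inferInstance, q ^ max a (e - a),
      zE q e a B ^ ((d * q ^ (max e (2 * a) - i) : ℕ) : ℤ), pow_pos hq0 _, ?_, ?_⟩
    · rw [zpow_natCast, ← pow_mul, mul_comm, pow_mul, zE_pow, one_pow]
    · rw [cuspU_gE_eq_gt N q M e B k hN hB hq d d' i a hM hai hie hD, twist_qExpand]
      rfl
  · haveI : NeZero (d * q ^ (e - 2 * a + i)) := ⟨(Nat.mul_pos hd0 (pow_pos hq0 _)).ne'⟩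
    refine ⟨d * q ^ (e - 2 * a + i), inferInstance, 1, 1, one_pos, one_pow 1, ?_⟩
    rw [cuspU_gE_eq_le N q M e B k hN hB hq d d' i a hM hia hD, twist_one']
    rfl

/-- `i ≤ a`: `cG (j (q^(d q^i))) = j (s^(d q^(e - 2 a + i)))`. -/
theorem cG_jdF_le (d d' i a : ℕ) (hM : M = d * d') (hia : i ≤ a) [NeZero (d * q ^ i)]
    [NeZero (M * q ^ min e (2 * a))] [NeZero (d * q ^ (e - 2 * a + i))] (hD : d * q ^ i ∣ N) :
    cG (isCuspExp_gE N q M e B k hN hB hq a) (jdF N (d * q ^ i) hD)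
      = qExpand Kbar (d * q ^ (e - 2 * a + i)) jBar := by
  haveI : NeZero (nE q M e a) := ⟨(nE_pos N q M e B k hN hB hq a).ne'⟩
  refine cG_eq_of _ _ _ ?_
  rw [cuspU_gE_eq_le N q M e B k hN hB hq d d' i a hM hia hD]
  rfl

/-- `a < i ≤ e`: `cG (j (q^(d q^i))) = j ((z_a s)^(d q^(max(e, 2 a) - i)))`,
`z_a = ζ_{q^max(a, e - a)}^B`. -/
theorem cG_jdF_gt (d d' i a : ℕ) (hM : M = d * d') (hai : a < i) (hie : i ≤ e)
    [NeZero (d * q ^ i)] [NeZero (M * q ^ min e (2 * a))]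
    [NeZero (d * q ^ (max e (2 * a) - i))] (hD : d * q ^ i ∣ N) :
    cG (isCuspExp_gE N q M e B k hN hB hq a) (jdF N (d * q ^ i) hD)
      = twist (zE q e a B) (qExpand Kbar (d * q ^ (max e (2 * a) - i)) jBar) := by
  haveI : NeZero (nE q M e a) := ⟨(nE_pos N q M e B k hN hB hq a).ne'⟩
  refine cG_eq_of _ _ _ ?_
  rw [cuspU_gE_eq_gt N q M e B k hN hB hq d d' i a hM hai hie hD]
  rfl

/-- `a < i ≤ e`, second form:
`cG (j (q^(d q^i))) = (twist (z_a^(d q^ν)) j)(s^(d q^ν))`, `ν = max(e, 2 a) - i`. -/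
theorem cG_jdF_gt' (d d' i a : ℕ) (hM : M = d * d') (hai : a < i) (hie : i ≤ e)
    [NeZero (d * q ^ i)] [NeZero (M * q ^ min e (2 * a))]
    [NeZero (d * q ^ (max e (2 * a) - i))] (hD : d * q ^ i ∣ N) :
    cG (isCuspExp_gE N q M e B k hN hB hq a) (jdF N (d * q ^ i) hD)
      = qExpand Kbar (d * q ^ (max e (2 * a) - i))
          (twist (zE q e a B ^ ((d * q ^ (max e (2 * a) - i) : ℕ) : ℤ)) jBar) := by
  rw [cG_jdF_gt N q M e B k hN hB hq d d' i a hM hai hie hD, twist_qExpand]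

/-- helper23's `cG` at the cusp `1/(q^a M)` is `cE`. -/
theorem cG_eq_cE (a : ℕ) [NeZero (M * q ^ min e (2 * a))] [NeZero (nE q M e a)] (x : FN N) :
    cG (isCuspExp_gE N q M e B k hN hB hq a) x = cE N q M e B k hN hB hq a x := by
  refine cG_eq_of _ _ _ ?_
  rw [← qExpand_cE N q M e B k hN hB hq a x]
  rfl

/-- **`a = e` is the cusp `∞`**: `cG x` is the `q`-expansion of `x`. -/
theorem cG_top [NeZero (M * q ^ min e (2 * e))] (x : FN N) :
    cG (isCuspExp_gE N q M e B k hN hB hq e) x = (x : LaurentSeries Kbar) := by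
  haveI : NeZero (nE q M e e) := ⟨(nE_pos N q M e B k hN hB hq e).ne'⟩
  rw [cG_eq_cE N q M e B k hN hB hq e x, cE_top N q M e B k hN hB hq x]

end Level

end Fermat.Agent.S45.NUE.H73
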