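import Fermat.Agent.S36.NU.H82_CuspIntA

/-!
# S45 / NU_e, leaf E-CUSP, slice CUSP-INT_e (helper73), part 1: families of conjugates, generic

Level `N` arbitrary.

* `GoodFam N k u o` : a family `u : Q N → ℍ → ℂ` of holomorphic functions, equivariant of
  weight `k`, bounded/periodic, whose `t`-expansions have coefficients in `ℤ[ζ_N, 1/N]`, unit
  leading coefficient and order `o γ` at the coset of `γ`
  (`GoodFam.delta`, `GoodFam.e12`, `GoodFam.mul`, `GoodFam.pow`);
* `isIntegral_of_goodFam` : if `x ∈ F_N · ℚ̄` has expansion `c₁ · (uN / uD) (q1)` with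
  `ord (uN / uD) ≥ - K₀ N` at all cosets, then `x · j⁻ᴷ⁰` is integral over `ℚ̄[1/j]`;
* `ordAt_pow` : for `N = M q^e`, the orders of `Δ(q^i τ)` at a cusp:
  `ordAt N (q^i) c = q^(2 min b i) · M q^(e - i)` for one `b ≤ e` (the type of the cusp).
-/

set_option autoImplicit false
set_option linter.unusedSectionVars false
set_option linter.unusedVariables false
set_option synthInstance.maxHeartbeats 400000
set_option maxHeartbeats 1000000
set_option linter.style.haveILetI false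

open UpperHalfPlane ModularForm ModularCurve Function
open scoped MatrixGroups ModularForm Manifold

noncomputable section

namespace Fermat.Agent.S45.NUE.H73

open Fermat.Agent.S23.H22 (G0 Q toSL piPerm q1 E12)
open Fermat.Agent.S28 Fermat.Agent.S28.H30
open Fermat.Agent.S28.H76 (Xfam Xfam_q1 pexp_fam_q1 sym_of_families)
open Fermat.Agent.S24 (Kbar FN jF iotaC)
open Fermat.Agent.S15.H30 (psi psi_apply psi_injective psi_jF)

/-! ### Good families -/

section Good

variable (N : ℕ) [NeZero N]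

/-- A family of holomorphic functions with unit-leading expansions of known orders. -/
structure GoodFam (k : ℤ) (u : Q N → ℍ → ℂ) (o : SL(2, ℤ) → ℤ) : Prop where
  equi : Equi N k u
  bph : ∀ c, BPH N (u c)
  uls : ∀ γ : SL(2, ℤ), ULS (coeffRing N) (pexp N (u (⟦toSL γ⟧ : Q N))) (o γ)

variable {N}

theorem GoodFam.delta {d : ℕ} (hd : d ∣ N) :
    GoodFam N 12 (fam N d DeltaMF)
      (fun γ => ((ordAt N d ((γ⁻¹ : SL(2, ℤ)) 1 0) : ℕ) : ℤ)) where
  equi := fam_equi d DeltaMF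
  bph := fam_BPH N hd DeltaMF
  uls := fun γ => uls_fam_Delta N hd γ

theorem GoodFam.e12 {d : ℕ} (hd : d ∣ N) :
    GoodFam N 12 (fam N d E12) (fun _ => 0) where
  equi := fam_equi d E12
  bph := fam_BPH N hd E12
  uls := fun γ => uls_fam_of_intQ N hd E12 intQ_E12 qExpansion_E12_coeff_zero _

theorem GoodFam.mul {k l : ℤ} {u v : Q N → ℍ → ℂ} {o p : SL(2, ℤ) → ℤ}
    (hu : GoodFam N k u o) (hv : GoodFam N l v p) :
    GoodFam N (k + l) (fun c => u c * v c) (fun γ => o γ + p γ) where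
  equi := hu.equi.mul hv.equi
  bph := fun c => (hu.bph c).mul (hv.bph c)
  uls := fun γ => by
    rw [pexp_mul (hu.bph _) (hv.bph _)]
    exact (hu.uls γ).mul (hv.uls γ)

theorem GoodFam.pow {k : ℤ} {u : Q N → ℍ → ℂ} {o : SL(2, ℤ) → ℤ}
    (hu : GoodFam N k u o) (n : ℕ) :
    GoodFam N (n * k) (fun c => u c ^ n) (fun γ => n * o γ) where
  equi := hu.equi.pow n
  bph := fun c => (hu.bph c).pow n
  uls := fun γ => by
    rw [pexp_pow (hu.bph _)]
    exact (hu.uls γ).pow n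

theorem GoodFam.congr_wt {k l : ℤ} {u : Q N → ℍ → ℂ} {o : SL(2, ℤ) → ℤ}
    (hu : GoodFam N k u o) (h : k = l) : GoodFam N l u o := h ▸ hu

/-- **Integrality over `ℚ̄[1/j]` from a quotient of two good families.** -/
theorem isIntegral_of_goodFam {k : ℤ} {uN uD : Q N → ℍ → ℂ} {oN oD : SL(2, ℤ) → ℤ}
    (hn : GoodFam N k uN oN) (hd : GoodFam N k uD oD) (hd0 : ∀ c z, uD c z ≠ 0)
    (K₀ : ℕ) (hord : ∀ γ, -((K₀ : ℤ) * (N : ℤ)) ≤ oN γ - oD γ)
    (x : FN N) (c₁ : Kbar)
    (hx : coeffMap iotaC (psi N x)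
      = HahnSeries.C (iotaC c₁) * (pexp N (uN (q1 : Q N)) / pexp N (uD (q1 : Q N)))) :
    IsIntegral ↥(Algebra.adjoin Kbar ({(jF N)⁻¹} : Set (FN N))) (x * (jF N)⁻¹ ^ K₀) := by
  refine Fermat.Agent.S36.NU.H82.isIntegral_of_family
    (fun c => pexp N (uN c) / pexp N (uD c)) ?_ ?_ K₀ ?_ x c₁ hx
  · intro c₀
    have h := sym_of_families N k uN uD hn.equi hd.equi hn.bph hd.bph hd0 1 (one_dvd _) c₀ 0
    convert h using 1
    refine Finset.prod_congr rfl fun c _ => ?_
    rw [map_zero, zero_mul, sub_zero]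
  · intro c n
    obtain ⟨γ, rfl⟩ := exists_rep N c
    exact ((hn.uls γ).div (hd.uls γ)).coeffs n
  · intro c n hlt
    obtain ⟨γ, rfl⟩ := exists_rep N c
    exact Fermat.Agent.S36.NU.H82.coeff_zero_of_uls ((hn.uls γ).div (hd.uls γ)) (hord γ) hlt

end Good

/-! ### The orders of `Δ(q^i τ)` at the cusps of `Γ₀(M q^e)` -/

section Ord

variable (q M e : ℕ)

/-- **The orders of `Δ(q^i τ)`**, `i ≤ e`, at a cusp of `Γ₀(M q^e)` of type `b`. -/
theorem ordAt_pow (hq : q.Prime) (c : ℤ) :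
    ∃ b, b ≤ e ∧ ∀ i, i ≤ e →
      ordAt (M * q ^ e) (q ^ i) c = q ^ (2 * min b i) * (M * q ^ (e - i)) := by
  have hq0 : 0 < q := hq.pos
  have hg : Int.gcd c ((q ^ e : ℕ) : ℤ) ∣ q ^ e := by
    rw [Int.gcd, Int.natAbs_natCast]
    exact Nat.gcd_dvd_right _ _
  obtain ⟨b, hb, hgb⟩ := (Nat.dvd_prime_pow hq).1 hg
  refine ⟨b, hb, fun i hi => ?_⟩
  have hdiv : M * q ^ e / q ^ i = M * q ^ (e - i) := by
    have : M * q ^ e = M * q ^ (e - i) * q ^ i := by
      rw [mul_assoc, ← pow_add, Nat.sub_add_cancel hi]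
    rw [this]
    exact Nat.mul_div_cancel _ (pow_pos hq0 i)
  have hgi : Int.gcd c ((q ^ i : ℕ) : ℤ) = q ^ min b i := by
    rw [Int.gcd, Int.natAbs_natCast] at hgb ⊢
    have h1 : Nat.gcd c.natAbs (q ^ i) = Nat.gcd (Nat.gcd c.natAbs (q ^ e)) (q ^ i) := by
      rw [Nat.gcd_assoc, Nat.gcd_eq_right (pow_dvd_pow q hi)]
    rw [h1, hgb]
    rcases le_total b i with h | h
    · rw [min_eq_left h]
      exact Nat.gcd_eq_left (pow_dvd_pow q h)
    · rw [min_eq_right h]
      exact Nat.gcd_eq_right (pow_dvd_pow q h)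
  rw [ordAt, hdiv]
  have hgi' : Int.gcd c ((q : ℤ) ^ i) = q ^ min b i := by
    have := hgi
    push_cast at this
    exact this
  push_cast at hgi ⊢
  rw [hgi', ← pow_mul, mul_comm (min b i) 2]

end Ord

end Fermat.Agent.S45.NUE.H73
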