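import Fermat.Agent.S45.NUE.H73_CuspIntE

/-!
# S45 / NU_e, leaf E-CUSP, slice CUSP-INT_e (helper73), part 2: the arithmetic of the orders

`wE q M e b i = q^(2 min b i) · M q^(e - i)` is the order of `Δ(q^i τ)` at a cusp of type `b`
of `Γ₀(M q^e)` (in the uniformiser `t = q^(1/N)`).

* `ord_Fe`  : `w(e-1) - w(e) ≥ - q^(e-1)(q-1) · N`                    (`eps_e`);
* `ord_F0`  : `q (w(1) - w(0)) ≥ - (q-1) · N`                          (`eps_1⁻q`);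
* `ord_Fa`  : `w(a-1) + w(a+1) - 2 w(a) ≥ - 2 q^(a-1)(q-1) · N`        (`eps_a / eps_(a+1)`);
* `ord_Fx`  : `r (w(a-1) + w(a+1) - 2 w(a)) - w(i) ≥ - (q^(a-m) + r · 2 q^(a-1)(q-1)) · N`,
  `r = q^m`, `i = a ± m`, `m = min a (e - a)`               (`j(q^i τ) (eps_a / eps_(a+1))^r`).
-/

set_option autoImplicit false
set_option linter.unusedSectionVars false
set_option linter.unusedVariables false
set_option maxHeartbeats 1000000

noncomputable section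

namespace Fermat.Agent.S45.NUE.H73

section Arith

variable (q M e : ℕ)

/-- The order of `Δ(q^i τ)` at a cusp of type `b`. -/
def wE (b i : ℕ) : ℕ := q ^ (2 * min b i) * (M * q ^ (e - i))

theorem wE_eq (b i k : ℕ) (h : 2 * min b i + (e - i) = k) : wE q M e b i = M * q ^ k := by
  rw [wE, ← h, pow_add]
  ring

theorem wE_le (hq : 0 < q) (b i k : ℕ) (h : 2 * min b i + (e - i) ≤ k) :
    wE q M e b i ≤ M * q ^ k := by
  rw [wE_eq q M e b i _ rfl]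
  exact Nat.mul_le_mul_left _ (Nat.pow_le_pow_right hq h)

variable (hq : q.Prime)

include hq

/-- `eps_e = Δ(q^(e-1) τ) / Δ(q^e τ)`. -/
theorem ord_Fe (he : 1 ≤ e) (b : ℕ) (hb : b ≤ e) :
    -(((q ^ (e - 1) * (q - 1) : ℕ) : ℤ) * ((M * q ^ e : ℕ) : ℤ))
      ≤ ((wE q M e b (e - 1) : ℕ) : ℤ) - ((wE q M e b e : ℕ) : ℤ) := by
  have hq1 : 1 ≤ q := hq.one_le
  have hc : ((q - 1 : ℕ) : ℤ) = (q : ℤ) - 1 := by
    rw [Nat.cast_sub hq1, Nat.cast_one]
  have hqz : (1 : ℤ) ≤ q := by exact_mod_cast hq1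
  rcases Nat.lt_or_ge b e with hlt | hge
  · -- `b ≤ e - 1`
    have h1 : wE q M e b (e - 1) = M * q ^ (2 * b) * q :=by
      rw [wE_eq q M e b (e - 1) (2 * b + 1) (by omega), pow_succ]
      ring
    have h2 : wE q M e b e = M * q ^ (2 * b) := wE_eq q M e b e (2 * b) (by omega)
    rw [h1, h2]
    push_cast
    rw [hc]
    have hP : (0 : ℤ) ≤ (M : ℤ) * (q : ℤ) ^ (2 * b) := by positivity
    have hR : (0 : ℤ) ≤ (q : ℤ) ^ (e - 1) * ((q : ℤ) - 1) * ((M : ℤ) * (q : ℤ) ^ e) := by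
      have : (0 : ℤ) ≤ (q : ℤ) - 1 := by linarith
      positivity
    nlinarith [mul_nonneg hP (sub_nonneg.2 hqz)]
  · have hbe : b = e := le_antisymm hb hge
    subst hbe
    have h1 : wE q M b b (b - 1) = M * q ^ (b - 1) * q ^ b := by
      rw [wE_eq q M b b (b - 1) (b - 1 + b) (by omega), pow_add]
      ring
    have h2 : wE q M b b b = M * q ^ (b - 1) * q ^ b * q := by
      rw [wE_eq q M b b b (b - 1 + b + 1) (by omega), pow_succ, pow_add]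
      ring
    rw [h1, h2]
    push_cast
    rw [hc]
    apply le_of_eq
    ring

/-- `eps_1⁻q = (Δ(q τ) / Δ(τ))^q`. -/
theorem ord_F0 (he : 1 ≤ e) (b : ℕ) (hb : b ≤ e) :
    -(((q - 1 : ℕ) : ℤ) * ((M * q ^ e : ℕ) : ℤ))
      ≤ (q : ℤ) * (((wE q M e b 1 : ℕ) : ℤ) - ((wE q M e b 0 : ℕ) : ℤ)) := by
  have hq1 : 1 ≤ q := hq.one_le
  have hc : ((q - 1 : ℕ) : ℤ) = (q : ℤ) - 1 := by
    rw [Nat.cast_sub hq1, Nat.cast_one]
  have hqz : (1 : ℤ) ≤ q := by exact_mod_cast hq1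
  have h0 : wE q M e b 0 = M * q ^ (e - 1) * q := by
    rw [wE_eq q M e b 0 (e - 1 + 1) (by omega), pow_succ]
    ring
  have hN : M * q ^ e = M * q ^ (e - 1) * q := by
    conv_lhs => rw [show e = e - 1 + 1 by omega, pow_succ]
    ring
  rcases Nat.eq_zero_or_pos b with hb0 | hb0
  · subst hb0
    have h1 : wE q M e 0 1 = M * q ^ (e - 1) := wE_eq q M e 0 1 (e - 1) (by omega)
    rw [h0, h1, hN]
    push_cast
    rw [hc]
    apply le_of_eq
    ring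
  · have h1 : wE q M e b 1 = M * q ^ (e - 1) * q * q := by
      rw [wE_eq q M e b 1 (e - 1 + 1 + 1) (by omega), pow_succ, pow_succ]
      ring
    rw [h0, h1, hN]
    push_cast
    rw [hc]
    have hP : (0 : ℤ) ≤ (M : ℤ) * (q : ℤ) ^ (e - 1) := by positivity
    nlinarith [mul_nonneg hP (sub_nonneg.2 hqz), mul_nonneg (mul_nonneg hP (sub_nonneg.2 hqz))
      (le_trans zero_le_one hqz), mul_nonneg (mul_nonneg (mul_nonneg hP (sub_nonneg.2 hqz))
      (le_trans zero_le_one hqz)) (le_trans zero_le_one hqz)]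

/-- The defect `Z = K_a N + w(a-1) + w(a+1) - 2 w(a)`, case `b ≥ a + 1`. -/
theorem ord_Fa_hi (a b : ℕ) (ha : 1 ≤ a) (hae : a + 1 ≤ e) (hab : a + 1 ≤ b) :
    ((wE q M e b (a - 1) : ℕ) : ℤ) + ((wE q M e b (a + 1) : ℕ) : ℤ)
        - 2 * ((wE q M e b a : ℕ) : ℤ)
      = (M : ℤ) * (q : ℤ) ^ (e + a - 1) * ((q : ℤ) - 1) ^ 2 := by
  have h1 : wE q M e b (a - 1) = M * q ^ (e + a - 1) :=
    wE_eq q M e b (a - 1) (e + a - 1) (by omega)
  have h2 : wE q M e b (a + 1) = M * q ^ (e + a - 1) * q * q := by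
    rw [wE_eq q M e b (a + 1) (e + a - 1 + 1 + 1) (by omega), pow_succ, pow_succ]
    ring
  have h3 : wE q M e b a = M * q ^ (e + a - 1) * q := by
    rw [wE_eq q M e b a (e + a - 1 + 1) (by omega), pow_succ]
    ring
  rw [h1, h2, h3]
  push_cast
  ring

/-- The constant `K_a N = 2 q^(a-1) (q-1) · M q^e`. -/
theorem KaN_eq (a : ℕ) (ha : 1 ≤ a) :
    (((2 * q ^ (a - 1) * (q - 1) : ℕ) : ℤ) * ((M * q ^ e : ℕ) : ℤ))
      = 2 * ((M : ℤ) * (q : ℤ) ^ (e + a - 1) * ((q : ℤ) - 1)) := by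
  have hq1 : 1 ≤ q := hq.one_le
  have hc : ((q - 1 : ℕ) : ℤ) = (q : ℤ) - 1 := by
    rw [Nat.cast_sub hq1, Nat.cast_one]
  have he : e + a - 1 = (a - 1) + e := by omega
  push_cast
  rw [hc, he, pow_add]
  ring

/-- `eps_a / eps_(a+1) = Δ(q^(a-1) τ) Δ(q^(a+1) τ) / Δ(q^a τ)²`. -/
theorem ord_Fa (a b : ℕ) (ha : 1 ≤ a) (hae : a + 1 ≤ e) (hb : b ≤ e) :
    -(((2 * q ^ (a - 1) * (q - 1) : ℕ) : ℤ) * ((M * q ^ e : ℕ) : ℤ))
      ≤ ((wE q M e b (a - 1) : ℕ) : ℤ) + ((wE q M e b (a + 1) : ℕ) : ℤ)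
        - 2 * ((wE q M e b a : ℕ) : ℤ) := by
  have hq1 : 1 ≤ q := hq.one_le
  have hqz : (1 : ℤ) ≤ q := by exact_mod_cast hq1
  have hq10 : (0 : ℤ) ≤ (q : ℤ) - 1 := sub_nonneg.2 hqz
  rw [KaN_eq q M e hq a ha]
  rcases lt_trichotomy b a with hlt | heq | hgt
  · -- `b ≤ a - 1`
    have h1 : wE q M e b (a - 1) = M * q ^ (2 * b + e - a - 1) * q * q := by
      rw [wE_eq q M e b (a - 1) (2 * b + e - a - 1 + 1 + 1) (by omega), pow_succ, pow_succ]
      ring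
    have h2 : wE q M e b (a + 1) = M * q ^ (2 * b + e - a - 1) :=
      wE_eq q M e b (a + 1) (2 * b + e - a - 1) (by omega)
    have h3 : wE q M e b a = M * q ^ (2 * b + e - a - 1) * q := by
      rw [wE_eq q M e b a (2 * b + e - a - 1 + 1) (by omega), pow_succ]
      ring
    rw [h1, h2, h3]
    push_cast
    have hP : (0 : ℤ) ≤ (M : ℤ) * (q : ℤ) ^ (2 * b + e - a - 1) := by positivity
    have hR : (0 : ℤ) ≤ (M : ℤ) * (q : ℤ) ^ (e + a - 1) * ((q : ℤ) - 1) := by positivity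
    nlinarith [mul_nonneg hP (mul_nonneg hq10 hq10)]
  · subst heq
    have h1 : wE q M e b (b - 1) = M * q ^ (e + b - 1) :=
      wE_eq q M e b (b - 1) (e + b - 1) (by omega)
    have h2 : wE q M e b (b + 1) = M * q ^ (e + b - 1) :=
      wE_eq q M e b (b + 1) (e + b - 1) (by omega)
    have h3 : wE q M e b b = M * q ^ (e + b - 1) * q := by
      rw [wE_eq q M e b b (e + b - 1 + 1) (by omega), pow_succ]
      ring
    rw [h1, h2, h3]
    push_cast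
    apply le_of_eq
    ring
  · rw [ord_Fa_hi q M e hq a b ha hae hgt]
    have hP : (0 : ℤ) ≤ (M : ℤ) * (q : ℤ) ^ (e + a - 1) := by positivity
    nlinarith [mul_nonneg hP (mul_nonneg hq10 hq10), mul_nonneg hP hq10]

/-- `j(q^i τ) (eps_a / eps_(a+1))^r`, `r = q^m`, `i = a - m` or `i = a + m`, `m ≤ a`,
`a + m ≤ e`: the pole orders are bounded by `q^(a-m) + r · 2 q^(a-1) (q-1)`. -/
theorem ord_Fx (a b m i : ℕ) (ha : 1 ≤ a) (hae : a + 1 ≤ e) (hb : b ≤ e) (hma : m ≤ a)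
    (hme : a + m ≤ e) (hi : i = a - m ∨ i = a + m) :
    -(((q ^ (a - m) + q ^ m * (2 * q ^ (a - 1) * (q - 1)) : ℕ) : ℤ) * ((M * q ^ e : ℕ) : ℤ))
      ≤ (0 + ((q ^ m : ℕ) : ℤ) * (((wE q M e b (a - 1) : ℕ) : ℤ)
            + ((wE q M e b (a + 1) : ℕ) : ℤ)))
        - (((wE q M e b i : ℕ) : ℤ) + ((q ^ m : ℕ) : ℤ) * (2 * ((wE q M e b a : ℕ) : ℤ))) := by
  have hq0 : 0 < q := hq.pos
  have hq1 : 1 ≤ q := hq.one_le
  have hq2 : 2 ≤ q := hq.two_le
  have hqz : (2 : ℤ) ≤ q := by exact_mod_cast hq2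
  have hq10 : (0 : ℤ) ≤ (q : ℤ) - 1 := by linarith
  have hFa := ord_Fa q M e hq a b ha hae hb
  have hK := KaN_eq q M e hq a ha
  have hr0 : (0 : ℤ) ≤ ((q ^ m : ℕ) : ℤ) := Nat.cast_nonneg _
  -- the shape of the left side
  have hL : (((q ^ (a - m) + q ^ m * (2 * q ^ (a - 1) * (q - 1)) : ℕ) : ℤ)
        * ((M * q ^ e : ℕ) : ℤ))
      = ((M * q ^ (e + a - m) : ℕ) : ℤ)
        + ((q ^ m : ℕ) : ℤ) * (((2 * q ^ (a - 1) * (q - 1) : ℕ) : ℤ)
            * ((M * q ^ e : ℕ) : ℤ)) := by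
    have he : e + a - m = (a - m) + e := by omega
    rw [he, pow_add]
    push_cast
    ring
  rw [hL]
  by_cases hba : b ≤ a
  · -- no pole beyond `κ`
    have hw : wE q M e b i ≤ M * q ^ (e + a - m) := by
      refine wE_le q M e hq0 b i _ ?_
      rcases hi with rfl | rfl <;> omega
    have hwz : ((wE q M e b i : ℕ) : ℤ) ≤ ((M * q ^ (e + a - m) : ℕ) : ℤ) := by
      exact_mod_cast hw
    nlinarith [mul_nonneg hr0 (sub_nonneg.2 hFa)]
  · have hab : a + 1 ≤ b := by omega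
    have hw : wE q M e b i ≤ M * q ^ (e + a + m) := by
      refine wE_le q M e hq0 b i _ ?_
      rcases hi with rfl | rfl <;> omega
    have hwz : ((wE q M e b i : ℕ) : ℤ) ≤ (M : ℤ) * (q : ℤ) ^ (e + a - 1) * q * (q : ℤ) ^ m := by
      have : M * q ^ (e + a + m) = M * q ^ (e + a - 1) * q * q ^ m := by
        rw [show e + a + m = (e + a - 1) + 1 + m by omega, pow_add, pow_succ]
        ring
      rw [this] at hw
      exact_mod_cast hw
    have hZ := ord_Fa_hi q M e hq a b ha hae hab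
    have hP : (0 : ℤ) ≤ (M : ℤ) * (q : ℤ) ^ (e + a - 1) := by positivity
    have hκ : (0 : ℤ) ≤ ((M * q ^ (e + a - m) : ℕ) : ℤ) := Nat.cast_nonneg _
    have hrq : ((q ^ m : ℕ) : ℤ) = (q : ℤ) ^ m := by push_cast; rfl
    rw [hK]
    rw [hrq] at hr0 ⊢
    have hkey : (q : ℤ) ^ m * ((M : ℤ) * (q : ℤ) ^ (e + a - 1) * q)
        ≤ (q : ℤ) ^ m * ((M : ℤ) * (q : ℤ) ^ (e + a - 1) * (((q : ℤ) - 1) ^ 2
            + 2 * ((q : ℤ) - 1))) := by
      refine mul_le_mul_of_nonneg_left ?_ hr0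
      refine mul_le_mul_of_nonneg_left ?_ hP
      nlinarith
    have hexp : ((wE q M e b (a - 1) : ℕ) : ℤ) + ((wE q M e b (a + 1) : ℕ) : ℤ)
        = (M : ℤ) * (q : ℤ) ^ (e + a - 1) * ((q : ℤ) - 1) ^ 2
          + 2 * ((wE q M e b a : ℕ) : ℤ) := by linarith
    rw [hexp]
    nlinarith

end Arith

end Fermat.Agent.S45.NUE.H73
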