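import Fermat.Agent.S45.NUE.H73_CuspIntE2
import Fermat.Agent.S45.NUE.H82_EwE

/-!
# S45 / NU_e, leaf E-CUSP, slice CUSP-INT_e (helper73), part 3: the witnesses are integral

Level `N = M q^e`.  With helper82's `epsN N q i = Δ(q^i τ)/Δ(q^(i+1) τ)`:

* `DcE_q1`, `cm_psi_epsN`, `cm_psi_jdF` : the expansions at the identity coset;
* `isIntegral_eps_top`  : `eps_e · j^(-q^(e-1)(q-1))` is integral over `ℚ̄[1/j]`;
* `isIntegral_eps_zero` : `(q¹² / eps_1)^q · j^(-(q-1))` is integral over `ℚ̄[1/j]`;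
* `isIntegral_eps_mid`  : `q¹² eps_a / eps_(a+1) · j^(-2 q^(a-1)(q-1))` is integral;
* `isIntegral_X`        : `j(q^i τ) (q¹² eps_a / eps_(a+1))^r · j^(-(q^(a-m) + r · 2 q^(a-1)(q-1)))`
  is integral, `r = q^m`, `i = a ± m`.
-/

set_option autoImplicit false
set_option linter.unusedSectionVars false
set_option linter.unusedVariables false
set_option synthInstance.maxHeartbeats 400000
set_option maxHeartbeats 1000000
set_option linter.style.haveILetI false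

open UpperHalfPlane ModularForm ModularCurve Function
open scoped MatrixGroups ModularForm Manifold

noncomputable section

namespace Fermat.Agent.S45.NUE.H73

open Fermat.Agent.S23.H22 (G0 Q toSL piPerm q1 E12)
open Fermat.Agent.S28 Fermat.Agent.S28.H30
open Fermat.Agent.S28.H76 (Xfam Xfam_q1 pexp_fam_q1 sym_of_families pexp_E12_q1_eq)
open Fermat.Agent.S24 (Kbar FN jF iotaC jdF)
open Fermat.Agent.S15.H30 (psi psi_apply psi_injective psi_jF)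
open Fermat.Agent.S36.NU.H82 (DeltaC DeltaC_ne_zero qExpand_DeltaC_ne_zero qExpand_hahnC UC UC_eq
  DeltaC_eq coeffMap_iotaC_coeffEmb coeffMap_qExp82)
open Fermat.Agent.S45.NUE.H82 (epsN coe_epsN UQ epsT epsT_eq cqN EwF EwF_zero EwF_top EwF_mid)

/-! ### The expansions at the identity coset -/

section Q1

variable (N : ℕ) [NeZero N]

/-- **`D_d` at the identity coset.** -/
theorem DcE_q1 (d : ℕ) [NeZero d] (hd : d ∣ N) :
    pexp N (fam N d DeltaMF (q1 : Q N))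
      = HahnSeries.C ((d : ℂ) ^ 11) * qExpand ℂ N (qExpand ℂ d DeltaC) := by
  rw [pexp_fam_q1 N hd DeltaMF, DeltaC_eq, map_mul, qExpand_hahnC]
  have e : ((12 : ℤ) - 1) = ((11 : ℕ) : ℤ) := by norm_num
  rw [e, zpow_natCast]
  rfl

theorem qqDelta_ne_zero (d : ℕ) [NeZero d] : qExpand ℂ N (qExpand ℂ d DeltaC) ≠ 0 := by
  intro h
  exact qExpand_DeltaC_ne_zero d (qExpand_injective N (by rw [h, map_zero]))

theorem hahnC_pow_ne_zero (d n : ℕ) [NeZero d] :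
    (HahnSeries.C ((d : ℂ) ^ n) : LaurentSeries ℂ) ≠ 0 := by
  rw [Ne, map_eq_zero]
  exact pow_ne_zero _ (Nat.cast_ne_zero.mpr (NeZero.ne d))

theorem DcE_q1_ne_zero (d : ℕ) [NeZero d] (hd : d ∣ N) :
    pexp N (fam N d DeltaMF (q1 : Q N)) ≠ 0 := by
  rw [DcE_q1 N d hd]
  exact mul_ne_zero (hahnC_pow_ne_zero d 11) (qqDelta_ne_zero N d)

variable (q : ℕ) [NeZero q]

/-- **The expansion of `eps_(i+1) = Δ(q^i τ)/Δ(q^(i+1) τ)`.** -/
theorem cm_psi_epsN (i : ℕ) (h : q ^ (i + 1) ∣ N) :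
    coeffMap iotaC (psi N (epsN N q i h))
      = HahnSeries.C ((q : ℂ) ^ 11)
        * (pexp N (fam N (q ^ i) DeltaMF (q1 : Q N))
          / pexp N (fam N (q ^ (i + 1)) DeltaMF (q1 : Q N))) := by
  have hi : q ^ i ∣ N := (pow_dvd_pow q (Nat.le_succ i)).trans h
  rw [DcE_q1 N (q ^ i) hi, DcE_q1 N (q ^ (i + 1)) h, psi_apply, coe_epsN, coeffMap_qExp82,
    coeffMap_qExp82]
  have e1 : coeffMap iotaC (UQ q) = UC q := coeffMap_iotaC_coeffEmb _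
  rw [e1, UC_eq, map_mul, map_mul, map_inv₀, map_inv₀]
  have e2 : qExpand ℂ (q ^ i) (qExpand ℂ q DeltaC) = qExpand ℂ (q ^ (i + 1)) DeltaC := by
    rw [qExpand_qExpand]
    exact Fermat.Agent.BAD.H73.qExpand_congr (by rw [pow_succ, mul_comm]) _
  rw [e2]
  have ha := qqDelta_ne_zero N (q ^ i)
  have hb := qqDelta_ne_zero N (q ^ (i + 1))
  have hc := hahnC_pow_ne_zero q 11
  have hci := hahnC_pow_ne_zero (q ^ i) 11
  have e3 : (HahnSeries.C (((q ^ (i + 1) : ℕ) : ℂ) ^ 11) : LaurentSeries ℂ)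
      = HahnSeries.C ((q : ℂ) ^ 11) * HahnSeries.C (((q ^ i : ℕ) : ℂ) ^ 11) := by
    rw [← map_mul]
    congr 1
    push_cast
    ring
  rw [e3]
  generalize qExpand ℂ N (qExpand ℂ (q ^ i) DeltaC) = a at ha ⊢
  generalize qExpand ℂ N (qExpand ℂ (q ^ (i + 1)) DeltaC) = b at hb ⊢
  generalize (HahnSeries.C ((q : ℂ) ^ 11) : LaurentSeries ℂ) = κ at hc ⊢
  generalize (HahnSeries.C (((q ^ i : ℕ) : ℂ) ^ 11) : LaurentSeries ℂ) = κ' at hci ⊢
  field_simp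

/-- **The expansion of `j(d τ)`.** -/
theorem cm_psi_jdF (d : ℕ) [NeZero d] (hd : d ∣ N) :
    coeffMap iotaC (psi N (jdF N d hd))
      = pexp N (fam N d E12 (q1 : Q N)) / pexp N (fam N d DeltaMF (q1 : Q N)) := by
  rw [pexp_E12_q1_eq N hd, mul_div_assoc, div_self (DcE_q1_ne_zero N d hd), mul_one, psi_apply]
  show coeffMap iotaC (qExpand Kbar N (coeffEmb Kbar (qExpand ℚ d jq))) = _
  rw [coeffMap_qExp82, coeffMap_iotaC_coeffEmb]
  rfl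

theorem cm_psi_cqN :
    coeffMap iotaC (psi N (cqN N q)) = HahnSeries.C ((q : ℂ)) := by
  rw [cqN, AlgHom.commutes, LaurentSeries.algebraMap_apply, Fermat.Agent.RED.H30.coeffMap_C,
    map_natCast]

end Q1

/-! ### Integrality -/

section Int

variable (N q M e : ℕ) (hN : N = M * q ^ e) (hq : q.Prime) [NeZero N] [NeZero q]

include hN in
theorem pow_dvd_lvl (i : ℕ) (hi : i ≤ e) : q ^ i ∣ N := by
  rw [hN]
  exact Dvd.dvd.mul_left (pow_dvd_pow q hi) M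

include hN hq in
/-- The orders of the conjugates of `Δ(q^i τ)` in terms of the type of the cusp. -/
theorem exists_type (γ : SL(2, ℤ)) :
    ∃ b, b ≤ e ∧ ∀ i, i ≤ e →
      ((ordAt N (q ^ i) ((γ⁻¹ : SL(2, ℤ)) 1 0) : ℕ) : ℤ) = ((wE q M e b i : ℕ) : ℤ) := by
  subst hN
  obtain ⟨b, hb, h⟩ := ordAt_pow q M e hq ((γ⁻¹ : SL(2, ℤ)) 1 0)
  exact ⟨b, hb, fun i hi => by rw [h i hi, wE]⟩

include hN hq in
/-- **`eps_e j^(-q^(e-1)(q-1))` is integral over `ℚ̄[1/j]`.** -/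
theorem isIntegral_eps_top (he : 1 ≤ e) (h : q ^ (e - 1 + 1) ∣ N) :
    IsIntegral ↥(Algebra.adjoin Kbar ({(jF N)⁻¹} : Set (FN N)))
      (epsN N q (e - 1) h * (jF N)⁻¹ ^ (q ^ (e - 1) * (q - 1))) := by
  have h1 : q ^ (e - 1) ∣ N := pow_dvd_lvl N q M e hN _ (by omega)
  refine isIntegral_of_goodFam (GoodFam.delta h1) (GoodFam.delta h)
    (fun c z => fam_Delta_ne_zero h c z) _ ?_ _ ((q : Kbar) ^ 11) ?_
  · intro γ
    obtain ⟨b, hb, hw⟩ := exists_type N q M e hN hq γ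
    show _ ≤ ((ordAt N (q ^ (e - 1)) ((γ⁻¹ : SL(2, ℤ)) 1 0) : ℕ) : ℤ)
      - ((ordAt N (q ^ (e - 1 + 1)) ((γ⁻¹ : SL(2, ℤ)) 1 0) : ℕ) : ℤ)
    rw [hw (e - 1) (by omega), hw (e - 1 + 1) (by omega), show e - 1 + 1 = e by omega, hN]
    exact ord_Fe q M e hq he b hb
  · have e1 : iotaC ((q : Kbar) ^ 11) = (q : ℂ) ^ 11 := by rw [map_pow, map_natCast]
    rw [e1, cm_psi_epsN]

include hN hq in
/-- **`(q¹² / eps_1)^q j^(-(q-1))` is integral over `ℚ̄[1/j]`.** -/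
theorem isIntegral_eps_zero (he : 1 ≤ e) (h : q ^ (0 + 1) ∣ N) :
    IsIntegral ↥(Algebra.adjoin Kbar ({(jF N)⁻¹} : Set (FN N)))
      ((cqN N q ^ 12 * (epsN N q 0 h)⁻¹) ^ q * (jF N)⁻¹ ^ (q - 1)) := by
  have h0 : q ^ 0 ∣ N := pow_dvd_lvl N q M e hN _ (by omega)
  refine isIntegral_of_goodFam ((GoodFam.delta h).pow q) ((GoodFam.delta h0).pow q)
    (fun c z => by
      show (fam N (q ^ 0) DeltaMF c ^ q) z ≠ 0
      rw [Pi.pow_apply]
      exact pow_ne_zero _ (fam_Delta_ne_zero h0 c z)) _ ?_ _ ((q : Kbar) ^ q) ?_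
  · intro γ
    obtain ⟨b, hb, hw⟩ := exists_type N q M e hN hq γ
    show _ ≤ (q : ℤ) * ((ordAt N (q ^ (0 + 1)) ((γ⁻¹ : SL(2, ℤ)) 1 0) : ℕ) : ℤ)
      - (q : ℤ) * ((ordAt N (q ^ 0) ((γ⁻¹ : SL(2, ℤ)) 1 0) : ℕ) : ℤ)
    rw [hw (0 + 1) (by omega), hw 0 (by omega), hN, ← mul_sub]
    exact ord_F0 q M e hq he b hb
  · have e1 : iotaC ((q : Kbar) ^ q) = (q : ℂ) ^ q := by rw [map_pow, map_natCast]
    have hB1 := fam_BPH N h DeltaMF (q1 : Q N)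
    have hB0 := fam_BPH N h0 DeltaMF (q1 : Q N)
    show _ = _ * (pexp N (fam N (q ^ (0 + 1)) DeltaMF (q1 : Q N) ^ q)
      / pexp N (fam N (q ^ 0) DeltaMF (q1 : Q N) ^ q))
    rw [e1, pexp_pow hB1, pexp_pow hB0, map_pow, map_pow, map_mul, map_mul, map_pow, map_pow,
      map_inv₀, map_inv₀, cm_psi_epsN, cm_psi_cqN, map_pow HahnSeries.C, map_pow HahnSeries.C]
    have ha := DcE_q1_ne_zero N (q ^ 0) h0
    have hb := DcE_q1_ne_zero N (q ^ (0 + 1)) h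
    have hc : (HahnSeries.C (q : ℂ) : LaurentSeries ℂ) ≠ 0 := by
      rw [Ne, map_eq_zero]
      exact Nat.cast_ne_zero.mpr (NeZero.ne q)
    generalize pexp N (fam N (q ^ 0) DeltaMF (q1 : Q N)) = a at ha ⊢
    generalize pexp N (fam N (q ^ (0 + 1)) DeltaMF (q1 : Q N)) = b at hb ⊢
    generalize (HahnSeries.C (q : ℂ) : LaurentSeries ℂ) = κ at hc ⊢
    have e2 : κ ^ 12 * (κ ^ 11 * (a / b))⁻¹ = κ * (b / a) := by
      field_simp
    rw [e2, mul_pow, div_pow]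

/-- The numerator family of `eps_a / eps_(a+1)`. -/
abbrev numE (a : ℕ) (c : Q N) : ℍ → ℂ :=
  fam N (q ^ (a - 1)) DeltaMF c * fam N (q ^ (a + 1)) DeltaMF c

/-- The denominator family of `eps_a / eps_(a+1)`. -/
abbrev denE (a : ℕ) (c : Q N) : ℍ → ℂ := fam N (q ^ a) DeltaMF c ^ 2

include hN in
theorem good_numE (a : ℕ) (ha : 1 ≤ a) (hae : a + 1 ≤ e) :
    GoodFam N (12 + 12) (numE N q a)
      (fun γ => ((ordAt N (q ^ (a - 1)) ((γ⁻¹ : SL(2, ℤ)) 1 0) : ℕ) : ℤ)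
        + ((ordAt N (q ^ (a + 1)) ((γ⁻¹ : SL(2, ℤ)) 1 0) : ℕ) : ℤ)) :=
  (GoodFam.delta (pow_dvd_lvl N q M e hN _ (by omega))).mul
    (GoodFam.delta (pow_dvd_lvl N q M e hN _ hae))

include hN in
theorem good_denE (a : ℕ) (hae : a + 1 ≤ e) :
    GoodFam N (12 + 12) (denE N q a)
      (fun γ => ((2 : ℕ) : ℤ) * ((ordAt N (q ^ a) ((γ⁻¹ : SL(2, ℤ)) 1 0) : ℕ) : ℤ)) :=
  ((GoodFam.delta (pow_dvd_lvl N q M e hN _ (by omega))).pow 2).congr_wt (by norm_num)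

include hN in
theorem denE_ne_zero (a : ℕ) (hae : a + 1 ≤ e) (c : Q N) (z : ℍ) : denE N q a c z ≠ 0 := by
  show (fam N (q ^ a) DeltaMF c ^ 2) z ≠ 0
  rw [Pi.pow_apply]
  exact pow_ne_zero _ (fam_Delta_ne_zero (pow_dvd_lvl N q M e hN _ (by omega)) c z)

include hN in
/-- The expansion of `q¹² eps_a / eps_(a+1)`. -/
theorem cm_psi_mid (a : ℕ) (ha : 1 ≤ a) (hae : a + 1 ≤ e) (h1 : q ^ (a - 1 + 1) ∣ N)
    (h2 : q ^ (a + 1) ∣ N) :
    coeffMap iotaC (psi N (cqN N q ^ 12 * epsN N q (a - 1) h1 * (epsN N q a h2)⁻¹))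
      = HahnSeries.C ((q : ℂ) ^ 12)
        * (pexp N (numE N q a (q1 : Q N)) / pexp N (denE N q a (q1 : Q N))) := by
  have hd0 : q ^ (a - 1) ∣ N := pow_dvd_lvl N q M e hN _ (by omega)
  have hd1 : q ^ a ∣ N := pow_dvd_lvl N q M e hN _ (by omega)
  have hB0 := fam_BPH N hd0 DeltaMF (q1 : Q N)
  have hB1 := fam_BPH N hd1 DeltaMF (q1 : Q N)
  have hB2 := fam_BPH N h2 DeltaMF (q1 : Q N)
  rw [numE, denE, pexp_mul hB0 hB2, pexp_pow hB1, map_mul, map_mul, map_mul, map_mul, map_pow,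
    map_pow, map_inv₀, map_inv₀, cm_psi_epsN, cm_psi_epsN, cm_psi_cqN,
    map_pow HahnSeries.C (q : ℂ) 11, map_pow HahnSeries.C (q : ℂ) 12]
  have e1 : fam N (q ^ (a - 1 + 1)) DeltaMF (q1 : Q N) = fam N (q ^ a) DeltaMF (q1 : Q N) := by
    rw [show a - 1 + 1 = a by omega]
  rw [e1]
  have ha0 := DcE_q1_ne_zero N (q ^ (a - 1)) hd0
  have ha1 := DcE_q1_ne_zero N (q ^ a) hd1
  have ha2 := DcE_q1_ne_zero N (q ^ (a + 1)) h2
  have hc : (HahnSeries.C (q : ℂ) : LaurentSeries ℂ) ≠ 0 := by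
    rw [Ne, map_eq_zero]
    exact Nat.cast_ne_zero.mpr (NeZero.ne q)
  generalize pexp N (fam N (q ^ (a - 1)) DeltaMF (q1 : Q N)) = x at ha0 ⊢
  generalize pexp N (fam N (q ^ a) DeltaMF (q1 : Q N)) = y at ha1 ⊢
  generalize pexp N (fam N (q ^ (a + 1)) DeltaMF (q1 : Q N)) = z at ha2 ⊢
  generalize (HahnSeries.C (q : ℂ) : LaurentSeries ℂ) = κ at hc ⊢
  field_simp

include hN hq in
/-- **`q¹² eps_a / eps_(a+1) · j^(-2 q^(a-1)(q-1))` is integral over `ℚ̄[1/j]`.** -/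
theorem isIntegral_eps_mid (a : ℕ) (ha : 1 ≤ a) (hae : a + 1 ≤ e) (h1 : q ^ (a - 1 + 1) ∣ N)
    (h2 : q ^ (a + 1) ∣ N) :
    IsIntegral ↥(Algebra.adjoin Kbar ({(jF N)⁻¹} : Set (FN N)))
      (cqN N q ^ 12 * epsN N q (a - 1) h1 * (epsN N q a h2)⁻¹
        * (jF N)⁻¹ ^ (2 * q ^ (a - 1) * (q - 1))) := by
  refine isIntegral_of_goodFam (good_numE N q M e hN a ha hae) (good_denE N q M e hN a hae)
    (denE_ne_zero N q M e hN a hae) _ ?_ _ ((q : Kbar) ^ 12) ?_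
  · intro γ
    obtain ⟨b, hb, hw⟩ := exists_type N q M e hN hq γ
    show _ ≤ ((ordAt N (q ^ (a - 1)) ((γ⁻¹ : SL(2, ℤ)) 1 0) : ℕ) : ℤ)
        + ((ordAt N (q ^ (a + 1)) ((γ⁻¹ : SL(2, ℤ)) 1 0) : ℕ) : ℤ)
      - ((2 : ℕ) : ℤ) * ((ordAt N (q ^ a) ((γ⁻¹ : SL(2, ℤ)) 1 0) : ℕ) : ℤ)
    rw [hw (a - 1) (by omega), hw (a + 1) (by omega), hw a (by omega), hN]
    exact ord_Fa q M e hq a b ha hae hb
  · have e1 : iotaC ((q : Kbar) ^ 12) = (q : ℂ) ^ 12 := by rw [map_pow, map_natCast]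
    rw [e1, cm_psi_mid N q M e hN a ha hae h1 h2]

include hN hq in
/-- **`j(q^i τ) (q¹² eps_a / eps_(a+1))^r · j^(-(q^(a-m) + r · 2 q^(a-1)(q-1)))` is integral
over `ℚ̄[1/j]`**, `r = q^m`, `i = a - m` or `i = a + m`. -/
theorem isIntegral_X (a m i : ℕ) (ha : 1 ≤ a) (hae : a + 1 ≤ e) (hma : m ≤ a) (hme : a + m ≤ e)
    (hi : i = a - m ∨ i = a + m) (h1 : q ^ (a - 1 + 1) ∣ N) (h2 : q ^ (a + 1) ∣ N)
    (hd : q ^ i ∣ N) :
    IsIntegral ↥(Algebra.adjoin Kbar ({(jF N)⁻¹} : Set (FN N)))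
      (jdF N (q ^ i) hd * (cqN N q ^ 12 * epsN N q (a - 1) h1 * (epsN N q a h2)⁻¹) ^ (q ^ m)
        * (jF N)⁻¹ ^ (q ^ (a - m) + q ^ m * (2 * q ^ (a - 1) * (q - 1)))) := by
  have hie : i ≤ e := by rcases hi with rfl | rfl <;> omega
  have gN := (GoodFam.e12 hd).mul ((good_numE N q M e hN a ha hae).pow (q ^ m))
  have gD := (GoodFam.delta hd).mul ((good_denE N q M e hN a hae).pow (q ^ m))
  refine isIntegral_of_goodFam gN gD (fun c z => ?_) _ ?_ _ ((q : Kbar) ^ (12 * q ^ m)) ?_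
  · show (fam N (q ^ i) DeltaMF c * denE N q a c ^ (q ^ m)) z ≠ 0
    rw [Pi.mul_apply, Pi.pow_apply]
    exact mul_ne_zero (fam_Delta_ne_zero hd c z) (pow_ne_zero _ (denE_ne_zero N q M e hN a hae c z))
  · intro γ
    obtain ⟨b, hb, hw⟩ := exists_type N q M e hN hq γ
    show _ ≤ (0 + ((q ^ m : ℕ) : ℤ)
          * (((ordAt N (q ^ (a - 1)) ((γ⁻¹ : SL(2, ℤ)) 1 0) : ℕ) : ℤ)
            + ((ordAt N (q ^ (a + 1)) ((γ⁻¹ : SL(2, ℤ)) 1 0) : ℕ) : ℤ)))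
      - (((ordAt N (q ^ i) ((γ⁻¹ : SL(2, ℤ)) 1 0) : ℕ) : ℤ) + ((q ^ m : ℕ) : ℤ)
          * (((2 : ℕ) : ℤ) * ((ordAt N (q ^ a) ((γ⁻¹ : SL(2, ℤ)) 1 0) : ℕ) : ℤ)))
    rw [hw (a - 1) (by omega), hw (a + 1) (by omega), hw a (by omega), hw i hie, hN]
    exact ord_Fx q M e hq a b m i ha hae hb hma hme hi
  · have e1 : iotaC ((q : Kbar) ^ (12 * q ^ m)) = ((q : ℂ) ^ 12) ^ (q ^ m) := by
      rw [map_pow, map_natCast, pow_mul]
    have hBn := (good_numE N q M e hN a ha hae).bph (q1 : Q N)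
    have hBd := (good_denE N q M e hN a hae).bph (q1 : Q N)
    have hBE := fam_BPH N hd E12 (q1 : Q N)
    have hBD := fam_BPH N hd DeltaMF (q1 : Q N)
    show _ = _ * (pexp N (fam N (q ^ i) E12 (q1 : Q N) * numE N q a (q1 : Q N) ^ (q ^ m))
      / pexp N (fam N (q ^ i) DeltaMF (q1 : Q N) * denE N q a (q1 : Q N) ^ (q ^ m)))
    rw [e1, pexp_mul hBE (hBn.pow _), pexp_mul hBD (hBd.pow _), pexp_pow hBn, pexp_pow hBd,
      map_mul, map_mul, map_pow, map_pow, cm_psi_mid N q M e hN a ha hae h1 h2, cm_psi_jdF,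
      map_pow HahnSeries.C ((q : ℂ) ^ 12) (q ^ m), map_pow HahnSeries.C (q : ℂ) 12]
    have hx := DcE_q1_ne_zero N (q ^ i) hd
    have hy : pexp N (denE N q a (q1 : Q N)) ≠ 0 := by
      rw [denE, pexp_pow (fam_BPH N (pow_dvd_lvl N q M e hN _ (by omega)) DeltaMF _)]
      exact pow_ne_zero _ (DcE_q1_ne_zero N (q ^ a) (pow_dvd_lvl N q M e hN _ (by omega)))
    generalize pexp N (fam N (q ^ i) DeltaMF (q1 : Q N)) = x at hx ⊢
    generalize pexp N (denE N q a (q1 : Q N)) = y at hy ⊢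
    generalize pexp N (numE N q a (q1 : Q N)) = z
    generalize pexp N (fam N (q ^ i) E12 (q1 : Q N)) = w
    generalize (HahnSeries.C (q : ℂ) : LaurentSeries ℂ) = κ
    rw [mul_pow, div_pow]
    field_simp

end Int

end Fermat.Agent.S45.NUE.H73
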