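import Fermat.Agent.S45.NUE.H73_CuspIntE3
import Fermat.Agent.S45.NUE.H73_CuspDefsE

/-!
# S45 / NU_e, leaf E-CUSP, slice CUSP-INT_e (helper73), part 4: `EooE a` and `xooE a` are integral

Level `N = M q^e`, `1 ≤ e`.

* `isIntegral_EooE` : `EooE a` is integral over `ℚ̄[1/j]`, for all `a ≤ e`;
* `isIntegral_xooE` : `xooE a` is integral over `ℚ̄[1/j]`, for `0 < a < e`.
-/

set_option autoImplicit false
set_option linter.unusedSectionVars false
set_option linter.unusedVariables false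
set_option synthInstance.maxHeartbeats 400000
set_option maxHeartbeats 1000000
set_option linter.style.haveILetI false

noncomputable section

namespace Fermat.Agent.S45.NUE.H73

open Fermat.Agent.S24 (Kbar FN jF iotaC jdF)
open Fermat.Agent.S36.NU.H88 Fermat.Agent.S36.NU.H23
open Fermat.Agent.S45.NUE.H82 (epsN coe_epsN UQ epsT epsT_eq cqN EwF EwF_zero EwF_top EwF_mid
  EwE coe_EwE)

section Int

variable (A : ValuationSubring Kbar)
variable (N q M e : ℕ) (hN : N = M * q ^ e) (hq : q.Prime) [NeZero N] [NeZero q]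

theorem coe_EooE_zero :
    ((EooE A N q e 0 : ↥(L0 A N)) : FN N) = EwF N q e 0 ^ q * (jF N)⁻¹ ^ (q - 1) := by
  rw [EooE_zero]
  rfl

theorem coe_EooE_of_ne (a : ℕ) (ha0 : a ≠ 0) :
    ((EooE A N q e a : ↥(L0 A N)) : FN N) = EwF N q e a * (jF N)⁻¹ ^ KooE q e a := by
  rw [EooE_of_ne A N q e a ha0]
  rfl

include hN hq in
/-- **`EooE a` is integral over `ℚ̄[1/j]`.** -/
theorem isIntegral_EooE (he : 1 ≤ e) (a : ℕ) (hae : a ≤ e) :
    IsIntegral ↥(Algebra.adjoin Kbar ({(jF N)⁻¹} : Set (FN N)))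
      ((EooE A N q e a : ↥(L0 A N)) : FN N) := by
  by_cases ha0 : a = 0
  · subst ha0
    have h : q ^ (0 + 1) ∣ N := pow_dvd_lvl N q M e hN _ (by omega)
    rw [coe_EooE_zero, EwF_zero, epsT_eq N q 0 h]
    exact isIntegral_eps_zero N q M e hN hq he h
  · rw [coe_EooE_of_ne A N q e a ha0]
    by_cases hae' : a = e
    · subst hae'
      have h : q ^ (a - 1 + 1) ∣ N := pow_dvd_lvl N q M a hN _ (by omega)
      rw [KooE_top q a ha0, EwF_top N q a ha0, epsT_eq N q (a - 1) h]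
      exact isIntegral_eps_top N q M a hN hq he h
    · have h1 : q ^ (a - 1 + 1) ∣ N := pow_dvd_lvl N q M e hN _ (by omega)
      have h2 : q ^ (a + 1) ∣ N := pow_dvd_lvl N q M e hN _ (by omega)
      rw [KooE_mid q e a ha0 hae', EwF_mid N q e a ha0 hae', epsT_eq N q (a - 1) h1,
        epsT_eq N q a h2]
      exact isIntegral_eps_mid N q M e hN hq a (by omega) (by omega) h1 h2

include hN hq in
/-- **`xooE a` is integral over `ℚ̄[1/j]`.** -/
theorem isIntegral_xooE (a : ℕ) (ha : 1 ≤ a) (hae : a + 1 ≤ e)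
    (h1 : q ^ (a + min a (e - a)) ∣ N) (h2 : q ^ (a - min a (e - a)) ∣ N) :
    IsIntegral ↥(Algebra.adjoin Kbar ({(jF N)⁻¹} : Set (FN N)))
      ((xooE A N q e a h1 h2 : ↥(L0 A N)) : FN N) := by
  have ha0 : a ≠ 0 := by omega
  have hae' : a ≠ e := by omega
  have hd1 : q ^ (a - 1 + 1) ∣ N := pow_dvd_lvl N q M e hN _ (by omega)
  have hd2 : q ^ (a + 1) ∣ N := pow_dvd_lvl N q M e hN _ (by omega)
  have hX1 := isIntegral_X N q M e hN hq a (min a (e - a)) (a + min a (e - a)) ha hae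
    (min_le_left _ _) (by omega) (Or.inr rfl) hd1 hd2 h1
  have hX2 := isIntegral_X N q M e hN hq a (min a (e - a)) (a - min a (e - a)) ha hae
    (min_le_left _ _) (by omega) (Or.inl rfl) hd1 hd2 h2
  have key : ((xooE A N q e a h1 h2 : ↥(L0 A N)) : FN N)
      = jdF N (q ^ (a + min a (e - a))) h1
          * (cqN N q ^ 12 * epsN N q (a - 1) hd1 * (epsN N q a hd2)⁻¹) ^ (q ^ min a (e - a))
          * (jF N)⁻¹ ^ (q ^ (a - min a (e - a))
              + q ^ min a (e - a) * (2 * q ^ (a - 1) * (q - 1)))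
        - jdF N (q ^ (a - min a (e - a))) h2
          * (cqN N q ^ 12 * epsN N q (a - 1) hd1 * (epsN N q a hd2)⁻¹) ^ (q ^ min a (e - a))
          * (jF N)⁻¹ ^ (q ^ (a - min a (e - a))
              + q ^ min a (e - a) * (2 * q ^ (a - 1) * (q - 1))) := by
    have e1 : ((xooE A N q e a h1 h2 : ↥(L0 A N)) : FN N)
        = piE N q e a h1 h2 * (jF N)⁻¹ ^ (q ^ (a - min a (e - a)))
          * ((EooE A N q e a : ↥(L0 A N)) : FN N) ^ (q ^ min a (e - a)) := rfl
    rw [e1, coe_EooE_of_ne A N q e a ha0, KooE_mid q e a ha0 hae', EwF_mid N q e a ha0 hae',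
      epsT_eq N q (a - 1) hd1, epsT_eq N q a hd2, piE]
    ring
  rw [key]
  exact hX1.sub hX2

end Int

end Fermat.Agent.S45.NUE.H73
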