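import Fermat.Agent.S45.NUE.H73_CuspDefsE
import Fermat.Agent.S45.NUE.H28_RadQEMod

/-!
# S45 / NU_e, leaf E-CUSP (helper73): the elements of the chart at infinity lie in all `V_b`

Level `N = M q^e`.

* `inv_mem_VE`, `sE_inv` : an element of `V_a` with non-zero reduction is a unit of `V_a`;
* `uooE_mem_VE`, `sE_uooE` : `u = 1 / j ∈ V_a`, `s_a(u) = (j~(s^(q^(e - 2a))))⁻¹`;
* `jq_mem_VE` : `j (q^i τ) ∈ V_b` for all `i, b ≤ e`;   `piEo_mem_VE` : `π_a ∈ V_b`;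
* `EooE_mem_VE`, `xooE_mem_VE` : from helper82's `Stmt_EwE_mem`.
-/

set_option autoImplicit false
set_option synthInstance.maxHeartbeats 400000
set_option maxHeartbeats 1000000
set_option linter.unusedSectionVars false
set_option linter.unusedVariables false
set_option linter.style.haveILetI false

noncomputable section

namespace Fermat.Agent.S45.NUE.H73

open Fermat.Agent.S24 Fermat.Agent.BAD.H88 ModularCurve
open Fermat.Agent.S28 Fermat.Agent.S28.H73 Fermat.Agent.RED.H73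
open Fermat.Agent.S36.NU.H88
open Fermat.Agent.S36.NU.H23 (L0 jdF_mem_L0)
open Fermat.Agent.S45.NUE.H23 (VF VE sE neZero_nE mem_VE_iff sE_mk sE_eq_zero_of_not_isUnit)
open Fermat.Agent.S45.NUE.H82 (EwE Stmt_EwE_mem)

section Mem

variable (A : ValuationSubring Kbar)
variable (N q M e : ℕ) (B k : ℤ) (hN : N = M * q ^ e) (hB : B * M + k * (q : ℤ) ^ e = 1)
  (hq : q.Prime) [NeZero N] [NeZero q]

include hN hB hq

/-- Inverses at `V_a`: an element with non-zero reduction is a unit. -/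
theorem sE_inv (a : ℕ) (x : ↥(L0 A N)) (h : x ∈ VE A N q M e B k hN hB hq a)
    (hne : sE A N q M e B k hN hB hq a ⟨x, h⟩ ≠ 0) :
    ∃ h' : x⁻¹ ∈ VE A N q M e B k hN hB hq a,
      sE A N q M e B k hN hB hq a ⟨x⁻¹, h'⟩ = (sE A N q M e B k hN hB hq a ⟨x, h⟩)⁻¹ := by
  have hu : IsUnit (⟨x, h⟩ : ↥(VE A N q M e B k hN hB hq a)) := by
    by_contra hnu
    exact hne (sE_eq_zero_of_not_isUnit A N q M e B k hN hB hq a _ hnu)
  obtain ⟨u, hu'⟩ := hu
  have h1 : ((u⁻¹ : (↥(VE A N q M e B k hN hB hq a))ˣ) : ↥(VE A N q M e B k hN hB hq a))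
      * ⟨x, h⟩ = 1 := by
    rw [← hu']
    exact u.inv_mul
  have h2 := congrArg (fun z : ↥(VE A N q M e B k hN hB hq a) => (z : ↥(L0 A N))) h1
  simp only [MulMemClass.coe_mul, OneMemClass.coe_one] at h2
  have h3 : x⁻¹ = (((u⁻¹ : (↥(VE A N q M e B k hN hB hq a))ˣ) :
      ↥(VE A N q M e B k hN hB hq a)) : ↥(L0 A N)) := (eq_inv_of_mul_eq_one_left h2).symm
  have hm : x⁻¹ ∈ VE A N q M e B k hN hB hq a := by
    rw [h3]
    exact Subtype.mem _
  refine ⟨hm, ?_⟩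
  have he' : (⟨x⁻¹, hm⟩ : ↥(VE A N q M e B k hN hB hq a))
      = ((u⁻¹ : (↥(VE A N q M e B k hN hB hq a))ˣ) : ↥(VE A N q M e B k hN hB hq a)) :=
    Subtype.ext h3
  rw [he']
  have h4 := congrArg (sE A N q M e B k hN hB hq a) h1
  rw [map_mul, map_one] at h4
  exact eq_inv_of_mul_eq_one_left h4

omit hN hB hq in
theorem jqModC_ne_zero_k : jqModC (kV A) ≠ 0 := by
  intro h
  have h1 := congrArg (fun s : LaurentSeries (kV A) => s.coeff (-1)) h
  simp only [HahnSeries.coeff_zero] at h1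
  have h2 : (jqModC (kV A)).coeff (-1) = 1 := by
    have e1 : coeffMap (Int.castRingHom (kV A)) jInt = jqModC (kV A) := by
      rw [jInt, qExpand_one_apply, coeffMap_jqModC]
    rw [← e1, coeffMap_coeff, jInt_coeff_neg_one, map_one]
  rw [h2] at h1
  exact one_ne_zero h1

/-- `s_a(j) = j~(s^(q^(e - 2a)))`. -/
theorem sE_j0' (a : ℕ) (hj : j0 A N ∈ VE A N q M e B k hN hB hq a) :
    sE A N q M e B k hN hB hq a ⟨j0 A N, hj⟩
      = qExpand (kV A) (q ^ (e - 2 * a)) (jqModC (kV A)) := by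
  haveI : NeZero M := ⟨(posE N q M e B k hN hB hq).ne'⟩
  haveI := Fermat.Agent.S45.NUE.H28.neZero_one_mul_pow q (e - 2 * a + 0)
  rw [Fermat.Agent.S45.NUE.H28.sE_j0 A N q M e B k hN hB hq a hj]
  exact qExpand_congr (by rw [one_mul, add_zero]) _

theorem j0_mem_VE' (a : ℕ) : j0 A N ∈ VE A N q M e B k hN hB hq a :=
  haveI : NeZero M := ⟨(posE N q M e B k hN hB hq).ne'⟩
  Fermat.Agent.S45.NUE.H28.j0_mem_VE A N q M e B k hN hB hq a

/-- `u = 1 / j ∈ V_a`. -/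
theorem uooE_mem_VE (a : ℕ) : uooE A N ∈ VE A N q M e B k hN hB hq a := by
  have hj := j0_mem_VE' A N q M e B k hN hB hq a
  have hne : sE A N q M e B k hN hB hq a ⟨j0 A N, hj⟩ ≠ 0 := by
    rw [sE_j0' A N q M e B k hN hB hq a hj]
    intro h0
    exact jqModC_ne_zero_k A
      (qExpand_injective (q ^ (e - 2 * a)) (by rw [h0, map_zero]))
  exact (sE_inv A N q M e B k hN hB hq a _ hj hne).1

/-- `s_a(u) = (j~(s^(q^(e - 2a))))⁻¹`. -/
theorem sE_uooE (a : ℕ) (hu : uooE A N ∈ VE A N q M e B k hN hB hq a) :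
    sE A N q M e B k hN hB hq a ⟨uooE A N, hu⟩
      = (qExpand (kV A) (q ^ (e - 2 * a)) (jqModC (kV A)))⁻¹ := by
  have hj := j0_mem_VE' A N q M e B k hN hB hq a
  have hne : sE A N q M e B k hN hB hq a ⟨j0 A N, hj⟩ ≠ 0 := by
    rw [sE_j0' A N q M e B k hN hB hq a hj]
    intro h0
    exact jqModC_ne_zero_k A
      (qExpand_injective (q ^ (e - 2 * a)) (by rw [h0, map_zero]))
  obtain ⟨h', hs⟩ := sE_inv A N q M e B k hN hB hq a _ hj hne
  rw [← sE_j0' A N q M e B k hN hB hq a hj, ← hs]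
  rfl

/-- `j (q^i τ) ∈ V_b`. -/
theorem jq_mem_VE (i b : ℕ) (hi : i ≤ e) (hD : q ^ i ∣ N) :
    (⟨jdF N (q ^ i) hD, jdF_mem_L0 A N _ hD⟩ : ↥(L0 A N)) ∈ VE A N q M e B k hN hB hq b := by
  haveI : NeZero M := ⟨(posE N q M e B k hN hB hq).ne'⟩
  have hD' : 1 * q ^ i ∣ N := by rw [one_mul]; exact hD
  haveI : NeZero (1 * q ^ i) := Fermat.Agent.S45.NUE.H28.neZero_one_mul_pow q i
  have e1 : (⟨jdF N (q ^ i) hD, jdF_mem_L0 A N _ hD⟩ : ↥(L0 A N))
      = ⟨jdF N (1 * q ^ i) hD', jdF_mem_L0 A N _ hD'⟩ :=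
    Subtype.ext (jdF_congr N (one_mul (q ^ i)).symm hD hD')
  rw [e1]
  rcases Nat.lt_or_ge b i with hlt | hge
  · haveI := Fermat.Agent.S45.NUE.H28.neZero_one_mul_pow q (max e (2 * b) - i)
    exact Fermat.Agent.S45.NUE.H17.jdF_mem_VE_gt A N q M e B k hN hB hq 1 M i b
      (one_mul M).symm hlt hi hD'
  · haveI := Fermat.Agent.S45.NUE.H28.neZero_one_mul_pow q (e - 2 * b + i)
    exact Fermat.Agent.S45.NUE.H17.jdF_mem_VE_le A N q M e B k hN hB hq 1 M i b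
      (one_mul M).symm hge hD'

/-- `π_a ∈ V_b` for all `b`. -/
theorem piEo_mem_VE (a b : ℕ) (ha : 1 ≤ a) (hae : a + 1 ≤ e)
    (h1 : q ^ (a + min a (e - a)) ∣ N) (h2 : q ^ (a - min a (e - a)) ∣ N) :
    piEo A N q e a h1 h2 ∈ VE A N q M e B k hN hB hq b := by
  have e1 : piEo A N q e a h1 h2
      = (⟨jdF N (q ^ (a + min a (e - a))) h1, jdF_mem_L0 A N _ h1⟩ : ↥(L0 A N))
        - ⟨jdF N (q ^ (a - min a (e - a))) h2, jdF_mem_L0 A N _ h2⟩ := rfl
  rw [e1]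
  exact sub_mem (jq_mem_VE A N q M e B k hN hB hq _ b (by omega) h1)
    (jq_mem_VE A N q M e B k hN hB hq _ b (by omega) h2)

/-- `EooE a ∈ V_b` for all `a, b ≤ e`. -/
theorem EooE_mem_VE (hmem : Stmt_EwE_mem A N q M e B k hN hB hq) (a b : ℕ) (ha : a ≤ e)
    (hb : b ≤ e) : EooE A N q e a ∈ VE A N q M e B k hN hB hq b := by
  have hu := uooE_mem_VE A N q M e B k hN hB hq b
  rw [EooE]
  split_ifs with h0
  · exact mul_mem (pow_mem (hmem 0 b (Nat.zero_le e) hb) _) (pow_mem hu _)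
  · exact mul_mem (hmem a b ha hb) (pow_mem hu _)

/-- `xooE a ∈ V_b` for all `b ≤ e`. -/
theorem xooE_mem_VE (hmem : Stmt_EwE_mem A N q M e B k hN hB hq) (a b : ℕ) (ha : 1 ≤ a)
    (hae : a + 1 ≤ e) (hb : b ≤ e)
    (h1 : q ^ (a + min a (e - a)) ∣ N) (h2 : q ^ (a - min a (e - a)) ∣ N) :
    xooE A N q e a h1 h2 ∈ VE A N q M e B k hN hB hq b := by
  rw [xooE]
  exact mul_mem (mul_mem (piEo_mem_VE A N q M e B k hN hB hq a b ha hae h1 h2)
    (pow_mem (uooE_mem_VE A N q M e B k hN hB hq b) _))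
    (pow_mem (EooE_mem_VE A N q M e B k hN hB hq hmem a b (by omega) hb) _)

end Mem

end Fermat.Agent.S45.NUE.H73
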