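import Fermat.Agent.S45.NUE.H88_CuspAsmE

/-!
# S45 / NU_e, package E-FIN, leaf E-CUSP: the cusp witnesses from `q`-expansion identities
(helper88)

Bridge between the witness side (helper82: `EooE a`, CUSP-RED_e; helper73: `x_a∞`, CUSP-INT_e,
CUSP-W_e) and `H88.CuspWit` (the input of `H88.cusp_pointDataAtE`).  Everything is stated for an
arbitrary reduction map `s : V i →+* S` of the valuation ring of the component `i` (`S` a
non-trivial `k`-algebra, e.g. `LaurentSeries (kV A)` and `s = sE a`).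

* `rd_eq_of_redE` : `s x = s y` ⟹ `rd i x = rd i y`;
* `UnitAtCusp.one_sub_mul_pow` : `1 - c u ^ n` (`0 < n`) is a unit at the cusps;
* `UnitAtCusp.of_red'` : the form of `of_red` with explicit membership proofs;
* `CuspWit.of_red_one` : a component of multiplicity one, from CUSP-RED + DIV;
* `algebraMap_eq_C_laurentE` : `algebraMap k (LaurentSeries k) c = HahnSeries.C c`;
* `CuspWit.of_series` : **a component of multiplicity `e i`**, from
  CUSP-RED (`s E = P (s u)`, `P(0) ≠ 0`), DIV (`E ∈ q V i'`, `i' ≠ i`),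
  RAM (`x ^ e i = q f E ^ r`, `f ∈ V i`) and
  CUSP-W (`s f ^ m * s E ^ a = c (1 - c' (s u) ^ n₁) ^ n₂ * s E ^ b`, `c ≠ 0`, `0 < m`, `0 < n₁`).
-/

set_option autoImplicit false
set_option linter.unusedSectionVars false
set_option linter.style.haveILetI false

noncomputable section

open Polynomial

namespace Fermat.Agent.S45.NUE.H88

open Fermat.Agent.S36.NU.H16 Fermat.Agent.S36.NU.H99

section Abs

variable {R F k ι : Type*} {κ : ι → Type*} [CommRing R] [Field F] [Algebra R F]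
  [Field k] [∀ i, Field (κ i)] [∀ i, Algebra k (κ i)]

variable (C : Chart R F k ι κ)

/-- Equality of the residues at `V i` from a reduction map `s` of `V i`. -/
theorem rd_eq_of_redE (i : ι) {S : Type*} [CommRing S] [Nontrivial S]
    (s : ↥(C.V i) →+* S) {x y : F} (hx : x ∈ C.V i) (hy : y ∈ C.V i)
    (h : s ⟨x, hx⟩ = s ⟨y, hy⟩) : C.rd i x = C.rd i y := by
  have hsub : x - y ∈ (C.V i).nonunits := by
    refine mem_nonunits_of_map_eq_zero (C.V i) s ⟨x - y, sub_mem hx hy⟩ ?_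
    have e : (⟨x - y, sub_mem hx hy⟩ : ↥(C.V i)) = ⟨x, hx⟩ - ⟨y, hy⟩ := rfl
    rw [e, map_sub, h, sub_self]
  have h0 := (C.rd_eq_zero_iff i (sub_mem hx hy)).2 hsub
  rw [C.rd_sub i hx hy] at h0
  exact sub_eq_zero.1 h0

variable {C}

/-- `1 - c u ^ n`, `0 < n`, is a unit at the cusps. -/
theorem UnitAtCusp.one_sub_mul_pow (i : ι) (u : C.B) (c : C.B) (r : k)
    (hc : C.rdB i c = algebraMap k (κ i) r) {n : ℕ} (hn : 0 < n) :
    UnitAtCusp C i u (1 - c * u ^ n) := by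
  refine ⟨1 - Polynomial.C r * Polynomial.X ^ n, ?_, ?_⟩
  · rw [Polynomial.coeff_sub, Polynomial.coeff_one_zero, Polynomial.coeff_C_mul,
      Polynomial.coeff_X_pow, if_neg (by omega), mul_zero, sub_zero]
    exact one_ne_zero
  · rw [map_sub, map_one, map_mul, map_pow, hc, map_sub, map_one, map_mul, aeval_C, map_pow,
      aeval_X]

/-- `UnitAtCusp.of_red` with explicit membership proofs. -/
theorem UnitAtCusp.of_red' (i : ι) {S : Type*} [CommRing S] [Nontrivial S] [Algebra k S]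
    (s : ↥(C.V i) →+* S)
    (hconst : ∀ (r : R) (h : algebraMap R F r ∈ C.V i),
      s ⟨algebraMap R F r, h⟩ = algebraMap k S (C.res r))
    (u β : C.B) (huV : (u : F) ∈ C.V i) (hβV : (β : F) ∈ C.V i) (P : k[X])
    (h0 : P.coeff 0 ≠ 0) (hs : s ⟨(β : F), hβV⟩ = aeval (s ⟨(u : F), huV⟩) P) :
    UnitAtCusp C i u β :=
  UnitAtCusp.of_red i s hconst u β P h0 hs

/-- **The cusp witnesses of a component of multiplicity one**, from CUSP-RED and DIV. -/
theorem CuspWit.of_red_one (q : R) (e : ι → ℕ) (u : C.B) (i : ι) (he : e i = 1)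
    {S : Type*} [CommRing S] [Nontrivial S] [Algebra k S] (s : ↥(C.V i) →+* S)
    (hconst : ∀ (r : R) (h : algebraMap R F r ∈ C.V i),
      s ⟨algebraMap R F r, h⟩ = algebraMap k S (C.res r))
    (E : C.B) (huV : (u : F) ∈ C.V i) (hEV : (E : F) ∈ C.V i) (P : k[X]) (h0 : P.coeff 0 ≠ 0)
    (hs : s ⟨(E : F), hEV⟩ = aeval (s ⟨(u : F), huV⟩) P)
    (hdiv : ∀ i', i' ≠ i → ∃ f' ∈ C.V i', (E : F) = algebraMap R F q * f') :
    CuspWit C q e u i :=
  CuspWit.of_one C q e u i he E (UnitAtCusp.of_red' i s hconst u E huV hEV P h0 hs) hdiv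

/-- **The cusp witnesses of a component of multiplicity `e i`**, from CUSP-RED, DIV, RAM and
CUSP-W (all in terms of a reduction map `s` of `V i`). -/
theorem CuspWit.of_series (q : R) (e : ι → ℕ) (u : C.B) (i : ι) (he : 0 < e i)
    {S : Type*} [CommRing S] [Nontrivial S] [Algebra k S] (s : ↥(C.V i) →+* S)
    (hconst : ∀ (r : R) (h : algebraMap R F r ∈ C.V i),
      s ⟨algebraMap R F r, h⟩ = algebraMap k S (C.res r))
    -- CUSP-RED
    (E : C.B) (huV : (u : F) ∈ C.V i) (hEV : (E : F) ∈ C.V i) (P : k[X]) (h0 : P.coeff 0 ≠ 0)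
    (hs : s ⟨(E : F), hEV⟩ = aeval (s ⟨(u : F), huV⟩) P)
    -- DIV
    (hdiv : ∀ i', i' ≠ i → ∃ f' ∈ C.V i', (E : F) = algebraMap R F q * f')
    -- RAM
    (x : C.B) (f : F) (hfV : f ∈ C.V i) (r : ℕ)
    (hxf : (x : F) ^ e i = algebraMap R F q * (f * (E : F) ^ r))
    -- CUSP-W
    (m a b n₁ n₂ : ℕ) (hm : 0 < m) (hn₁ : 0 < n₁) (c c' : k) (hc : c ≠ 0)
    (hW : s ⟨f, hfV⟩ ^ m * s ⟨(E : F), hEV⟩ ^ a
      = algebraMap k S c * (1 - algebraMap k S c' * s ⟨(u : F), huV⟩ ^ n₁) ^ n₂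
        * s ⟨(E : F), hEV⟩ ^ b) :
    CuspWit C q e u i := by
  have hE : UnitAtCusp C i u E := UnitAtCusp.of_red' i s hconst u E huV hEV P h0 hs
  obtain ⟨ct, hct⟩ := C.res_surj c
  obtain ⟨ct', hct'⟩ := C.res_surj c'
  have hctV : algebraMap R F ct ∈ C.V i := C.B_le i _ (C.B.algebraMap_mem ct)
  have hct'V : algebraMap R F ct' ∈ C.V i := C.B_le i _ (C.B.algebraMap_mem ct')
  -- the unit `Y`
  set Y : C.B := algebraMap R C.B ct * (1 - algebraMap R C.B ct' * u ^ n₁) ^ n₂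
    * E ^ (b + (r + 1) * m) with hY
  have hYu : UnitAtCusp C i u Y := by
    refine ((UnitAtCusp.const i u ct (by rw [hct]; exact hc)).mul
      ((UnitAtCusp.one_sub_mul_pow i u (algebraMap R C.B ct') c' ?_ hn₁).pow n₂)).mul
      (hE.pow _)
    rw [Fermat.Agent.S36.NU.H82.rdB_algebraMap, hct']
  -- the element `A`
  set A : C.B := E ^ a with hA
  refine ⟨he, E, hE, hdiv, x, f * (E : F) ^ r, mul_mem hfV (pow_mem hEV r), hxf, m, A, Y, hm,
    hYu, ?_⟩
  -- the congruence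
  have hXV : ((E : F) * (f * (E : F) ^ r)) ^ m * (A : F) ∈ C.V i :=
    mul_mem (pow_mem (mul_mem hEV (mul_mem hfV (pow_mem hEV r))) m) (C.B_le i _ A.2)
  have hYV : (Y : F) ∈ C.V i := C.B_le i _ Y.2
  rw [← C.rd_coe]
  refine rd_eq_of_redE C i s hXV hYV ?_
  have eX : (⟨((E : F) * (f * (E : F) ^ r)) ^ m * (A : F), hXV⟩ : ↥(C.V i))
      = (⟨(E : F), hEV⟩ * (⟨f, hfV⟩ * ⟨(E : F), hEV⟩ ^ r)) ^ m * ⟨(E : F), hEV⟩ ^ a := by
    apply Subtype.ext
    rfl
  have eY : (⟨(Y : F), hYV⟩ : ↥(C.V i))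
      = ⟨algebraMap R F ct, hctV⟩
        * (1 - ⟨algebraMap R F ct', hct'V⟩ * ⟨(u : F), huV⟩ ^ n₁) ^ n₂
        * ⟨(E : F), hEV⟩ ^ (b + (r + 1) * m) := by
    apply Subtype.ext
    rfl
  rw [eX, eY]
  simp only [map_mul, map_pow, map_sub, map_one]
  rw [hconst, hconst, hct, hct']
  have key : (s ⟨(E : F), hEV⟩ * (s ⟨f, hfV⟩ * s ⟨(E : F), hEV⟩ ^ r)) ^ m
        * s ⟨(E : F), hEV⟩ ^ a
      = s ⟨(E : F), hEV⟩ ^ ((r + 1) * m) * (s ⟨f, hfV⟩ ^ m * s ⟨(E : F), hEV⟩ ^ a) := by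
    ring
  rw [key, hW]
  ring

end Abs

/-- The constants of the Laurent series: `algebraMap = HahnSeries.C`. -/
theorem algebraMap_eq_C_laurentE {k₀ : Type*} [Field k₀] (c : k₀) :
    algebraMap k₀ (LaurentSeries k₀) c = HahnSeries.C c := by
  have h1 : algebraMap k₀ (PowerSeries k₀) c = PowerSeries.C c := by simp
  rw [HahnSeries.algebraMap_apply', h1, HahnSeries.ofPowerSeries_C]

end Fermat.Agent.S45.NUE.H88
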