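import Fermat.Agent.S45.NUE.H88_ChartOoE
import Fermat.Agent.S45.NUE.H88_CuspWitE
import Fermat.Agent.S45.NUE.H88_CuspRedE
import Fermat.Agent.S45.NUE.H73_CuspMemE
import Fermat.Agent.S45.NUE.H73_CuspIntE4
import Fermat.Agent.S45.NUE.H82_EwEVal
import Fermat.Agent.S45.NUE.H54_ChartPack

/-!
# S45 / NU_e, package E-FIN, leaf E-CUSP: the final plug (helper88)

Level `N = M q^e`, `q ∤ M`, `M` tame at `q`, `1 ≤ e`, `T = totEM` (helper23),
`C = chartInfE A N T h` (helper74), `u = 1 / j`, `E_a = H73.EooE a`, `x_a = H73.xooE a`,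
`f_a = H73.fooE a`.

* `Stmt_EooE_div` : (DIV_e) `E_a ∈ q · V_b` for `b ≠ a` (helper82);
* `Stmt_CuspW` : (CUSP-W_e) `f_a ∈ V_a` and
  `s_a(f_a)^m · s_a(E_a)^a' = c (1 - c' s_a(u)^n₁)^n₂ · s_a(E_a)^b` for `0 < a < e` (helper73);
* `EooE_mem_chartInfE`, `xooE_mem_chartInfE` : `E_a`, `x_a` lie in the chart at infinity;
* `cuspWit_totEM` : **the cusp witnesses** `H88.CuspWit` of all the components;
* `hptooE_totEM` : **the hypothesis `hptoo` of `H65.finModE_of` / `finModE_charts`** for the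
  modular conservation datum, from DIV_e, CUSP-W_e and the branches at the cusps.
-/

set_option autoImplicit false
set_option synthInstance.maxHeartbeats 400000
set_option maxHeartbeats 1000000
set_option linter.style.haveILetI false
set_option linter.unusedSectionVars false
set_option linter.unusedVariables false

noncomputable section

open ModularCurve AlgebraicCurve Polynomial IntermediateField
open Fermat.Agent.S24 Fermat.Agent.BAD.H88 Fermat.Agent.S28 Fermat.Agent.S28.H73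
open Fermat.Agent.RED.H73 Fermat.Agent.RED.H17 Fermat.Agent.S36.NU.H88
open Fermat.Agent.S36.NU.H23 Fermat.Agent.S36.NU.H41 Fermat.Agent.S36.NU.H17
open Fermat.Agent.S36.NU.H16 Fermat.Agent.S36.NU.H65 Fermat.Agent.BAD
open Fermat.Agent.S45.NUE.H23 Fermat.Agent.S45.NUE.H74
open Fermat.Agent.S45.NUE.H73 (uooE KooE EooE xooE fooE)

namespace Fermat.Agent.S45.NUE.H88

section Targets

variable (A : ValuationSubring Kbar)
variable (N q M e : ℕ) (B k : ℤ) (hN : N = M * q ^ e) (hB : B * M + k * (q : ℤ) ^ e = 1)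
  (hq : q.Prime) [NeZero N] [NeZero q]

/-- **(DIV_e)** the witness of the component `a` is divisible by `q` at the other components. -/
def Stmt_EooE_div : Prop :=
  ∀ a b : ℕ, a ≤ e → b ≤ e → a ≠ b →
    ∃ f' ∈ VE A N q M e B k hN hB hq b, EooE A N q e a = ((q : ℕ) : ↥(L0 A N)) * f'

/-- **(CUSP-W_e)** on a component `0 < a < e`: `f_a ∈ V_a` and
`s_a(f_a)^m · s_a(E_a)^a' = c (1 - c' s_a(u)^n₁)^n₂ · s_a(E_a)^b`, `c ≠ 0`, `0 < m`, `0 < n₁`. -/
def Stmt_CuspW : Prop :=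
  ∀ (a : ℕ) (_ : 1 ≤ a) (_ : a + 1 ≤ e)
    (h1 : q ^ (a + min a (e - a)) ∣ N) (h2 : q ^ (a - min a (e - a)) ∣ N)
    (hu : uooE A N ∈ VE A N q M e B k hN hB hq a)
    (hE : EooE A N q e a ∈ VE A N q M e B k hN hB hq a),
    ∃ (hf : fooE A N q e a h1 h2 ∈ VE A N q M e B k hN hB hq a)
      (m a' b n₁ n₂ : ℕ) (c c' : kV A), 0 < m ∧ 0 < n₁ ∧ c ≠ 0 ∧
      sE A N q M e B k hN hB hq a ⟨fooE A N q e a h1 h2, hf⟩ ^ m
          * sE A N q M e B k hN hB hq a ⟨EooE A N q e a, hE⟩ ^ a'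
        = algebraMap (kV A) (LaurentSeries (kV A)) c
          * (1 - algebraMap (kV A) (LaurentSeries (kV A)) c'
              * sE A N q M e B k hN hB hq a ⟨uooE A N, hu⟩ ^ n₁) ^ n₂
          * sE A N q M e B k hN hB hq a ⟨EooE A N q e a, hE⟩ ^ b

end Targets

section Final

variable (A : ValuationSubring Kbar)
variable (N q M e : ℕ) (B k : ℤ) (hN : N = M * q ^ e) (hB : B * M + k * (q : ℤ) ^ e = 1)
  (hq : q.Prime) [NeZero N] [NeZero q] [NeZero M] (hqM : ¬ q ∣ M) (hA : A.LiesOverPrime q)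
  (ht : H91.TameAt M q)

attribute [local instance] algkE

/-- Membership in the chart at infinity of the modular conservation datum: integral over
`ℚ̄[1 / j]` (as a function of `F_N · ℚ̄`) and in all the `V_b`. -/
theorem mem_chartInfE_totEM (he : 0 < e)
    (h : ChartInE A N (totEM A N q M e B k hN hB hq hqM hA ht he)) (f : ↥(L0 A N))
    (hf₁ : IsIntegral ↥(Algebra.adjoin Kbar ({(jF N)⁻¹} : Set (FN N))) (f : FN N))
    (hf₂ : ∀ b : ℕ, b ≤ e → f ∈ VE A N q M e B k hN hB hq b) :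
    f ∈ (chartInfE A N (totEM A N q M e B k hN hB hq hqM hA ht he) h).B :=
  mem_chart_of_isIntegral A q M N hq hqM hA (hleE N q M e hN)
    (algE A q M e hq hqM hA) (nrEM A N q M e B k hN hB hq hqM hA he) rfl
    (nrE_hdeg A N q M e B k hN hB hq hqM hA (inE_mod A N q M e B k hN hB hq hqM hA) he)
    (chartInfE A N (totEM A N q M e B k hN hB hq hqM hA ht he) h) (fun _ => rfl) 0
    (h.j_mem 0)
    (Fermat.Agent.S45.NUE.H54.transcendental_red_j0 A N q M e B k hN hB hq hqM hA ht he 0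
      (h.j_mem 0)) rfl
    (isIntegral_adjoin_L0 A N (j0 A N)⁻¹ f hf₁)
    (fun i => hf₂ (i : ℕ) (Nat.lt_succ_iff.mp i.2))

/-- `E_a` lies in the chart at infinity. -/
theorem EooE_mem_chartInfE (he : 0 < e)
    (h : ChartInE A N (totEM A N q M e B k hN hB hq hqM hA ht he)) (a : ℕ) (ha : a ≤ e) :
    EooE A N q e a ∈ (chartInfE A N (totEM A N q M e B k hN hB hq hqM hA ht he) h).B :=
  mem_chartInfE_totEM A N q M e B k hN hB hq hqM hA ht he h _
    (Fermat.Agent.S45.NUE.H73.isIntegral_EooE A N q M e hN hq he a ha)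
    (fun b hb => Fermat.Agent.S45.NUE.H73.EooE_mem_VE A N q M e B k hN hB hq
      (Fermat.Agent.S45.NUE.H82.stmt_EwE_mem A N q M e B k hN hB hq he) a b ha hb)

/-- `x_a` lies in the chart at infinity. -/
theorem xooE_mem_chartInfE (he : 0 < e)
    (h : ChartInE A N (totEM A N q M e B k hN hB hq hqM hA ht he)) (a : ℕ) (ha : 1 ≤ a)
    (hae : a + 1 ≤ e) (h1 : q ^ (a + min a (e - a)) ∣ N) (h2 : q ^ (a - min a (e - a)) ∣ N) :
    xooE A N q e a h1 h2
      ∈ (chartInfE A N (totEM A N q M e B k hN hB hq hqM hA ht he) h).B :=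
  mem_chartInfE_totEM A N q M e B k hN hB hq hqM hA ht he h _
    (Fermat.Agent.S45.NUE.H73.isIntegral_xooE A N q M e hN hq a ha hae h1 h2)
    (fun b hb => Fermat.Agent.S45.NUE.H73.xooE_mem_VE A N q M e B k hN hB hq
      (Fermat.Agent.S45.NUE.H82.stmt_EwE_mem A N q M e B k hN hB hq he) a b ha hae hb h1 h2)

/-- **The cusp witnesses of all the components** of the modular conservation datum. -/
theorem cuspWit_totEM (he : 0 < e)
    (h : ChartInE A N (totEM A N q M e B k hN hB hq hqM hA ht he))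
    (hdiv : Stmt_EooE_div A N q M e B k hN hB hq)
    (hW : Stmt_CuspW A N q M e B k hN hB hq) (i : Fin (e + 1)) :
    CuspWit (chartInfE A N (totEM A N q M e B k hN hB hq hqM hA ht he) h)
      ((q : ℕ) : ↥(Rur A)) (fun i : Fin (e + 1) => mE q e (i : ℕ))
      ⟨(j0 A N)⁻¹, inv_j0_mem_chartInfE A N _ h⟩ i := by
  have hmem := Fermat.Agent.S45.NUE.H82.stmt_EwE_mem A N q M e B k hN hB hq he
  have hred := Fermat.Agent.S45.NUE.H82.stmt_EwE_red A N q M e B k hN hB hq he hA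
  obtain ⟨a, hai⟩ := i
  have hae : a ≤ e := Nat.lt_succ_iff.mp hai
  obtain ⟨hu, hE, P, hP0, hs⟩ := cuspRedE A N q M e B k hN hB hq hA he.ne' hmem hred a hae
  have hP0' : P.coeff 0 ≠ 0 := by rw [hP0]; exact one_ne_zero
  have hEB := EooE_mem_chartInfE A N q M e B k hN hB hq hqM hA ht he h a hae
  have hconst : ∀ (r : ↥(Rur A))
      (hr : algebraMap ↥(Rur A) ↥(L0 A N) r ∈ VE A N q M e B k hN hB hq a),
      sE A N q M e B k hN hB hq a ⟨algebraMap ↥(Rur A) ↥(L0 A N) r, hr⟩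
        = algebraMap (kV A) (LaurentSeries (kV A)) (resRur A r) :=
    fun r hr => Fermat.Agent.S45.NUE.H54.sE_const A N q M e B k hN hB hq a r hr
  have hdiv' : ∀ i' : Fin (e + 1), i' ≠ ⟨a, hai⟩ →
      ∃ f' ∈ VE A N q M e B k hN hB hq (i' : ℕ),
        EooE A N q e a = algebraMap ↥(Rur A) ↥(L0 A N) ((q : ℕ) : ↥(Rur A)) * f' := by
    intro i' hi'
    obtain ⟨f', hf', hf⟩ := hdiv a (i' : ℕ) hae (Nat.lt_succ_iff.mp i'.2)
      (fun h0 => hi' (Fin.ext h0.symm))
    exact ⟨f', hf', by rw [hqR_ooE]; exact hf⟩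
  by_cases hm : min a (e - a) = 0
  · -- a component of multiplicity one
    have he1 : mE q e a = 1 := by
      unfold mE
      rw [hm, pow_zero, Nat.totient_one]
    exact CuspWit.of_red_one
      (C := chartInfE A N (totEM A N q M e B k hN hB hq hqM hA ht he) h)
      ((q : ℕ) : ↥(Rur A)) (fun i : Fin (e + 1) => mE q e (i : ℕ))
      ⟨(j0 A N)⁻¹, inv_j0_mem_chartInfE A N _ h⟩ ⟨a, hai⟩ he1
      (sE A N q M e B k hN hB hq a) hconst ⟨EooE A N q e a, hEB⟩ hu hE P hP0' hs hdiv'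
  · -- a component `0 < a < e`
    have ha1 : 1 ≤ a := by
      rcases Nat.eq_zero_or_pos a with h0 | h0
      · exact absurd (by rw [h0]; exact Nat.zero_min _) hm
      · exact h0
    have hae1 : a + 1 ≤ e := by
      rcases Nat.eq_or_lt_of_le hae with h0 | h0
      · exact absurd (by rw [h0, Nat.sub_self]; exact Nat.min_zero _) hm
      · exact h0
    have hmle : min a (e - a) ≤ e - a := min_le_right _ _
    have h1 : q ^ (a + min a (e - a)) ∣ N := by
      rw [hN]
      exact Dvd.dvd.mul_left (pow_dvd_pow q (by omega)) M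
    have h2 : q ^ (a - min a (e - a)) ∣ N := by
      rw [hN]
      exact Dvd.dvd.mul_left (pow_dvd_pow q (by omega)) M
    obtain ⟨hf, m, a', b, n₁, n₂, c, c', hm0, hn₁, hc, hWeq⟩ := hW a ha1 hae1 h1 h2 hu hE
    have hxB := xooE_mem_chartInfE A N q M e B k hN hB hq hqM hA ht he h a ha1 hae1 h1 h2
    have hxf : xooE A N q e a h1 h2 ^ mE q e a
        = algebraMap ↥(Rur A) ↥(L0 A N) ((q : ℕ) : ↥(Rur A))
          * (fooE A N q e a h1 h2
            * EooE A N q e a ^ (q ^ min a (e - a) * Nat.totient (q ^ min a (e - a)))) := by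
      rw [hqR_ooE]
      exact Fermat.Agent.S45.NUE.H73.xooE_pow A N q e a h1 h2
    exact CuspWit.of_series
      (C := chartInfE A N (totEM A N q M e B k hN hB hq hqM hA ht he) h)
      ((q : ℕ) : ↥(Rur A)) (fun i : Fin (e + 1) => mE q e (i : ℕ))
      ⟨(j0 A N)⁻¹, inv_j0_mem_chartInfE A N _ h⟩ ⟨a, hai⟩ (mE_pos q e a hq)
      (sE A N q M e B k hN hB hq a) hconst ⟨EooE A N q e a, hEB⟩ hu hE P hP0' hs hdiv'
      ⟨xooE A N q e a h1 h2, hxB⟩ (fooE A N q e a h1 h2) hf
      (q ^ min a (e - a) * Nat.totient (q ^ min a (e - a))) hxf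
      m a' b n₁ n₂ hm0 hn₁ c c' hc hWeq

variable {Z K L : Type*} [Field K] [Field L] [Algebra K L] [Algebra ↥(L0 A N) L]

/-- **E-CUSP: the hypothesis `hptoo` of `H65.finModE_of`** for the modular conservation datum,
from (DIV_e), (CUSP-W_e) and the branches at the cusps. -/
theorem hptooE_totEM (he : 0 < e)
    (h : ChartInE A N (totEM A N q M e B k hN hB hq hqM hA ht he))
    (G : H96.GlueCore K ↥(L0 A N) L (kV A) (Fin (e + 1)) Z (kapE A M e))
    (hdiv : Stmt_EooE_div A N q M e B k hN hB hq)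
    (hW : Stmt_CuspW A N q M e B k hN hB hq)
    (hbr : ∀ 𝔪 : Ideal (chartInfE A N (totEM A N q M e B k hN hB hq hqM hA ht he) h).B,
      𝔪.IsMaximal →
      (∀ β : (chartInfE A N (totEM A N q M e B k hN hB hq hqM hA ht he) h).B,
        (β : ↥(L0 A N)) = (j0 A N)⁻¹ → β ∈ 𝔪) →
      ∀ i, (chartInfE A N (totEM A N q M e B k hN hB hq hqM hA ht he) h).Icomp i ≤ 𝔪 →
        Nonempty (Branch (chartInfE A N (totEM A N q M e B k hN hB hq hqM hA ht he) h) 𝔪 i)) :
    ∀ 𝔪 : Ideal (chartInfE A N (totEM A N q M e B k hN hB hq hqM hA ht he) h).B,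
      𝔪.IsMaximal →
      (∃ i, (chartInfE A N (totEM A N q M e B k hN hB hq hqM hA ht he) h).Icomp i ≤ 𝔪) →
      (∀ β : (chartInfE A N (totEM A N q M e B k hN hB hq hqM hA ht he) h).B,
        (β : ↥(L0 A N)) = (j0 A N)⁻¹ → β ∈ 𝔪) →
      H96.PointDataAt (chartInfE A N (totEM A N q M e B k hN hB hq hqM hA ht he) h) G
        ((q : ℕ) : ↥(Rur A)) 𝔪 :=
  hptooE_of_wit A q M N hq hqM hA (hleE N q M e hN)
    (algE A q M e hq hqM hA) (nrEM A N q M e B k hN hB hq hqM hA he) rfl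
    (nrE_hdeg A N q M e B k hN hB hq hqM hA (inE_mod A N q M e B k hN hB hq hqM hA) he)
    (chartInfE A N (totEM A N q M e B k hN hB hq hqM hA ht he) h) (fun _ => rfl) 0
    (h.j_mem 0)
    (Fermat.Agent.S45.NUE.H54.transcendental_red_j0 A N q M e B k hN hB hq hqM hA ht he 0
      (h.j_mem 0)) rfl
    ((hqR_ooE A N q).trans (algebraMap_piE A N q M e hN).symm) G
    (fun i => cuspWit_totEM A N q M e B k hN hB hq hqM hA ht he h hdiv hW i) hbr

end Final

end Fermat.Agent.S45.NUE.H88
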