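import Fermat.Agent.S45.NUE.H73_CuspWE
import Fermat.Agent.S45.NUE.H88_CuspFinalE

/-!
# S45 / NU_e, leaf E-CUSP, slice CUSP-W_e (helper73): helper88's target `Stmt_CuspW`

`stmt_CuspW : H88.Stmt_CuspW A N q M e B k hN hB hq` for `A` over `q`, unconditional
(`m = 12`, `a' = 1`, `b = 0`, `n₁ = q^(a-1)`, `n₂ = 6 (q - 1)`, `c' = 1728`).
-/

set_option autoImplicit false
set_option synthInstance.maxHeartbeats 400000
set_option maxHeartbeats 1000000
set_option linter.unusedSectionVars false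
set_option linter.unusedVariables false
set_option linter.style.haveILetI false

noncomputable section

namespace Fermat.Agent.S45.NUE.H73

open Fermat.Agent.S24 Fermat.Agent.BAD.H88 ModularCurve
open Fermat.Agent.S28 Fermat.Agent.S28.H73 Fermat.Agent.RED.H73
open Fermat.Agent.S36.NU.H23 (L0)
open Fermat.Agent.S45.NUE.H23 (VE sE)

variable (A : ValuationSubring Kbar)
variable (N q M e : ℕ) (B k : ℤ) (hN : N = M * q ^ e) (hB : B * M + k * (q : ℤ) ^ e = 1)
  (hq : q.Prime) [NeZero N] [NeZero q]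

/-- **(CUSP-W_e)** in helper88's form. -/
theorem stmt_CuspW (hA : A.LiesOverPrime q) :
    Fermat.Agent.S45.NUE.H88.Stmt_CuspW A N q M e B k hN hB hq := by
  intro a ha hae h1 h2 hu hE
  obtain ⟨hu', hE', hf, c, hc, h⟩ := cuspWE A N q M e B k hN hB hq hA a ha hae h1 h2
  refine ⟨hf, 12, 1, 0, q ^ (a - 1), 6 * (q - 1), c, 1728, by norm_num,
    pow_pos hq.pos _, hc, ?_⟩
  rw [pow_one, pow_zero, mul_one, Fermat.Agent.S45.NUE.H88.algebraMap_eq_C_laurentE,
    Fermat.Agent.S45.NUE.H88.algebraMap_eq_C_laurentE]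
  exact h

end Fermat.Agent.S45.NUE.H73
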