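import Fermat.Agent.S45.NUE.H73_Unif
import Fermat.Agent.S45.NUE.H23_ValE
import Fermat.Agent.S36.NU.H23_Mod2

/-!
# S45 / NU_e, package E-VAL §5 (helper73): RAM_a in helper23's names

`N = M q^e`, `0 < a < e`, `m = min(a, e - a)`, `π_a = j (q^(a+m) τ) - j (q^(a-m) τ) ∈ L0 A N`:

* `hramE` : `v_a(q) = v_a(π_a)^φ(q^m)` for `v_a = VE a` (ramification index `φ(q^m)`);
* `val_piEo_lt_one` : `v_a(π_a) < 1`;
* `thE_mem_VF`, `redF_thE_ne_zero`-type statements are `H73.thE_mem_VG`, `H73.redG_thE`.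
-/

set_option autoImplicit false
set_option synthInstance.maxHeartbeats 400000
set_option maxHeartbeats 1000000
set_option linter.unusedSectionVars false
set_option linter.unusedVariables false
set_option linter.style.haveILetI false

noncomputable section

namespace Fermat.Agent.S45.NUE.H73

open Fermat.Agent.S24 Fermat.Agent.BAD.H88 ModularCurve
open Fermat.Agent.S28 Fermat.Agent.S28.H73 Fermat.Agent.RED.H73
open Fermat.Agent.S36.NU.H88 Fermat.Agent.S36.NU.H23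
open Fermat.Agent.S45.NUE.H23 (VF VE sE neZero_nE)

section Ram

variable (A : ValuationSubring Kbar)
variable (N q M e : ℕ) (B k : ℤ) (hN : N = M * q ^ e) (hB : B * M + k * (q : ℤ) ^ e = 1)
  (hq : q.Prime) [NeZero N] [NeZero q]

/-- The uniformiser `π_a` as an inertia-fixed function. -/
def piEo (a : ℕ) (h1 : q ^ (a + min a (e - a)) ∣ N) (h2 : q ^ (a - min a (e - a)) ∣ N) :
    ↥(L0 A N) :=
  ⟨piE N q e a h1 h2, sub_mem (jdF_mem_L0 A N _ h1) (jdF_mem_L0 A N _ h2)⟩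

theorem coe_piEo (a : ℕ) (h1 : q ^ (a + min a (e - a)) ∣ N)
    (h2 : q ^ (a - min a (e - a)) ∣ N) :
    ((piEo A N q e a h1 h2 : ↥(L0 A N)) : FN N) = piE N q e a h1 h2 := rfl

include hN hB hq

/-- **RAM_a**: `v_a(π_a)^φ(q^m) = v_a(q)` on `F_N · ℚ̄`. -/
theorem ramF (hA : (q : Kbar) ∈ A.nonunits) (a : ℕ) (ha1 : 1 ≤ a) (hae : a < e)
    (h1 : q ^ (a + min a (e - a)) ∣ N) (h2 : q ^ (a - min a (e - a)) ∣ N) :
    (VF A N q M e B k hN hB hq a).valuation (piE N q e a h1 h2)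
        ^ Nat.totient (q ^ min a (e - a))
      = (VF A N q M e B k hN hB hq a).valuation ((q : ℕ) : FN N) := by
  haveI := neZero_nE N q M e B k hN hB hq a
  have h := ramE A N q M e B k hN hB hq hA a ha1 hae h1 h2
  rw [map_natCast] at h
  exact h

/-- **RAM_a**: `v_a(q) = v_a(π_a)^φ(q^m)` on the inertia-fixed functions. -/
theorem hramE (hA : (q : Kbar) ∈ A.nonunits) (a : ℕ) (ha1 : 1 ≤ a) (hae : a < e)
    (h1 : q ^ (a + min a (e - a)) ∣ N) (h2 : q ^ (a - min a (e - a)) ∣ N) :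
    (VE A N q M e B k hN hB hq a).valuation ((q : ℕ) : ↥(L0 A N))
      = (VE A N q M e B k hN hB hq a).valuation (piEo A N q e a h1 h2)
          ^ Nat.totient (q ^ min a (e - a)) := by
  rw [← map_pow, Fermat.Agent.S45.NUE.H23.VE_eq_resV0, valuation_resV0_eq_iff]
  have h := ramF A N q M e B k hN hB hq hA a ha1 hae h1 h2
  rw [← map_pow] at h
  have e1 : (((q : ℕ) : ↥(L0 A N)) : FN N) = ((q : ℕ) : FN N) :=
    map_natCast (L0 A N).subtype q
  rw [e1]
  exact h.symm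

/-- `v_a(q) < 1`. -/
theorem valE_q_lt_one (hA : (q : Kbar) ∈ A.nonunits) (a : ℕ) :
    (VE A N q M e B k hN hB hq a).valuation ((q : ℕ) : ↥(L0 A N)) < 1 := by
  haveI := neZero_nE N q M e B k hN hB hq a
  rw [Fermat.Agent.S45.NUE.H23.VE_eq_resV0, valuation_resV0_lt_one_iff]
  have e1 : (((q : ℕ) : ↥(L0 A N)) : FN N) = algebraMap Kbar (FN N) (q : Kbar) := by
    rw [map_natCast]
    exact map_natCast (L0 A N).subtype q
  rw [e1]
  exact val_const_lt_one A _
    (Fermat.Agent.S45.NUE.H23.const_memG (Fermat.Agent.S45.NUE.H23.hE N q M e B k hN hB hq a) A)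
    _ hA

/-- `v_a(π_a) < 1`. -/
theorem val_piEo_lt_one (hA : (q : Kbar) ∈ A.nonunits) (a : ℕ) (ha1 : 1 ≤ a) (hae : a < e)
    (h1 : q ^ (a + min a (e - a)) ∣ N) (h2 : q ^ (a - min a (e - a)) ∣ N) :
    (VE A N q M e B k hN hB hq a).valuation (piEo A N q e a h1 h2) < 1 := by
  by_contra hge
  rw [not_lt] at hge
  have h3 : 1 ≤ (VE A N q M e B k hN hB hq a).valuation (piEo A N q e a h1 h2)
      ^ Nat.totient (q ^ min a (e - a)) := one_le_pow₀ hge
  rw [← hramE A N q M e B k hN hB hq hA a ha1 hae h1 h2] at h3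
  exact absurd (valE_q_lt_one A N q M e B k hN hB hq hA a) (not_lt.2 h3)

end Ram

end Fermat.Agent.S45.NUE.H73
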