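import Fermat.Agent.S36.NU.H65_Inst

/-!
# S45 / NU_e, package E-FIN: the abstract core of TI3 for ANY number of components (helper96)

The second half of helper24's `H24.fin_local` / helper65's `H65.fin_local'` (S36 / NU-B) uses the
datum `H79.NUData` (three components `i₂₀`, `i₁₁`, `i₀₂`, norms along `α`, `β`) only through

* the conservation datum `T : H79.TotN K F L k ι Z κ`,
* the set `SS` of multiple points,
* GLUE at the points of `SS` (`H24.Glued`) and `deg = 1` of the points of the components.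

Here this part is isolated as `GlueCore` (ANY `Fintype ι`: for the level `M' q ^ e` take
`ι = Fin (e + 1)`) and the whole local side of TI3 is proved for it:

* `GlueCore`, `GlueCore.IsGen`, `GlueCore.TrivRed`, `GlueCore.ofNUData` (the core of a `NUData`;
  `IsGen`, `TrivRed` agree by `Iff.rfl`);
* `exists_g_of_trivRed` : the residues `g i` and (EQV) from `TrivRed`;
* `PointData`, `PointDataAt`, `eqv_of_bridge`, `chart_of_bridge`, `point_of_bridge`;
* `exists_isGen` : REG (local generators at the points of `SS`);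
* `ti3_of_trivRed` (local data of both charts at all closed points) and `ti3_of_trivRed'`
  (chart at infinity only at the closed points where `1 / j` vanishes):
  `TrivRed n H` + (HOR) in both charts ⟹ `∃ s ≠ 0, H * s ^ n` integral over `R`.
-/

set_option autoImplicit false
set_option linter.style.haveILetI false

noncomputable section

open AlgebraicCurve

attribute [local instance] Classical.propDecidable

namespace Fermat.Agent.S45.NUE.H96

open Fermat.Agent.RED.H17 Fermat.Agent.RED Fermat.Agent.S36.NU.H16 Fermat.Agent.S36.NU.H79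
  Fermat.Agent.S36.NU.H24 Fermat.Agent.S36.NU.H17 Fermat.Agent.S36.NU.H65

/-- **The gluing core** of a datum of type NU: a conservation datum with `ι` components, a set
`SS` of multiple points, GLUE and `deg = 1` at the points of `SS`. -/
structure GlueCore (K F L k ι Z : Type*) (κ : ι → Type*) [Field K] [Field F] [Field L]
    [Algebra K L] [Algebra F L] [Field k] [Fintype ι] [∀ i, Field (κ i)]
    [∀ i, Algebra k (κ i)] where
  /-- the conservation datum -/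
  T : TotN K F L k ι Z κ
  /-- the multiple points -/
  SS : Set Z
  /-- GLUE at the multiple points -/
  glue : ∀ z ∈ SS, ∀ f : F, T.InR z f → ∀ (i j : ι) (c : k),
    HasValue (T.pt i z) (T.rdN i f) c ↔ HasValue (T.pt j z) (T.rdN j f) c
  deg_one : ∀ z ∈ SS, ∀ i, (T.pt i z).deg = 1

section Core

variable {R F k ι Z K L : Type*} {κ : ι → Type*} [CommRing R] [Field F] [Algebra R F]
  [Field k] [∀ i, Field (κ i)] [∀ i, Algebra k (κ i)] [Fintype ι]
  [Field K] [Field L] [Algebra K L] [Algebra F L]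

namespace GlueCore

variable (G : GlueCore K F L k ι Z κ)

/-- `s` is a **local generator** of `h` at `z` (for the exponent `n`). -/
def IsGen (n : ℕ) (z : Z) (h s : F) : Prop :=
  (∀ i, G.T.rdN i s ≠ 0) ∧ ∀ P, G.T.ρ P = z → P.ord (algebraMap F L (h * s ^ n)) = 0

/-- **Trivial reduction data**: the reductions of `H` are `c Gf i ^ n` with a common constant
`c`, and at every multiple point `z` the functions `Gf i · red i s`, for a local generator `s` of
`H` at `z`, take the same non-zero value. -/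
def TrivRed (n : ℕ) (H : F) : Prop :=
  ∃ (c : k) (Gf : ∀ i, κ i), c ≠ 0 ∧ (∀ i, G.T.rdN i H = algebraMap k (κ i) c * Gf i ^ n) ∧
    ∀ z ∈ G.SS, ∀ s : F, G.IsGen n z H s →
      ∃ a : k, a ≠ 0 ∧ ∀ i, HasValue (G.T.pt i z) (Gf i * G.T.rdN i s) a

theorem glued {z : Z} (hz : z ∈ G.SS) : Glued G.T z := G.glue z hz

section OfNU

variable {K' L' L₁ L₂ : Type*} [Field K'] [Field L'] [Algebra K' L'] [Field L₁] [Algebra k L₁]
  [Field L₂] [Algebra k L₂]

/-- The gluing core of a `NUData` (three components). -/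
def ofNUData (D : NUData K F L k ι Z κ K' L' L₁ L₂) : GlueCore K F L k ι Z κ where
  T := D.T
  SS := D.SS
  glue := D.glue
  deg_one := D.deg_one

theorem isGen_ofNUData (D : NUData K F L k ι Z κ K' L' L₁ L₂) (n : ℕ) (z : Z) (h s : F) :
    (ofNUData D).IsGen n z h s ↔ D.IsGen n z h s := Iff.rfl

theorem trivRed_ofNUData (D : NUData K F L k ι Z κ K' L' L₁ L₂) (n : ℕ) (H : F) :
    (ofNUData D).TrivRed n H ↔ D.TrivRed n H := Iff.rfl

end OfNU

end GlueCore

variable (G : GlueCore K F L k ι Z κ)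

/-! ## From `TrivRed` to the residues `g i` and (EQV) -/

/-- `g i ^ n * rd i H = 1` when `rd i H = γⁿ Gf i ^ n ≠ 0`. -/
theorem root_g_of_red {n : ℕ} {H : F} {γ : k} {Gf : ∀ i, κ i} (i : ι)
    (hu : G.T.rdN i H ≠ 0)
    (hred : G.T.rdN i H = algebraMap k (κ i) (γ ^ n) * Gf i ^ n) :
    gOf γ Gf i ^ n * G.T.rdN i H = 1 := by
  have h1 : algebraMap k (κ i) (γ ^ n) * Gf i ^ n = (algebraMap k (κ i) γ * Gf i) ^ n := by
    rw [map_pow, mul_pow]
  rw [h1] at hred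
  have h2 : (algebraMap k (κ i) γ * Gf i) ^ n ≠ 0 := by
    rw [← hred]
    exact hu
  unfold gOf
  rw [hred, inv_pow, inv_mul_cancel₀ h2]

/-- (EQV) at a multiple point, in the language of values. -/
theorem eqv_of_val {z : Z} (hdeg : ∀ i, (G.T.pt i z).deg = 1) {γ : k} (hγ : γ ≠ 0)
    {Gf : ∀ i, κ i} {s : F} {a : k} (ha : a ≠ 0)
    (hval : ∀ i, HasValue (G.T.pt i z) (Gf i * G.T.rdN i s) a) (i : ι) :
    HasValue (G.T.pt i z) (gOf γ Gf i * (G.T.rdN i s)⁻¹) (γ * a)⁻¹ := by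
  have h1 : HasValue (G.T.pt i z) (algebraMap k (κ i) γ * (Gf i * G.T.rdN i s)) (γ * a) :=
    (hval i).const_mul γ
  have h2 := h1.inv (hdeg i) (mul_ne_zero hγ ha)
  have h3 : gOf γ Gf i * (G.T.rdN i s)⁻¹
      = (algebraMap k (κ i) γ * (Gf i * G.T.rdN i s))⁻¹ := by
    unfold gOf
    rw [← mul_inv, mul_assoc]
  rw [h3]
  exact h2

/-- From the trivial reduction data of `H` to the residues `g` with `g i ^ n * rd i H = 1` and
(EQV) at all multiple points. -/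
theorem exists_g_of_trivRed {n : ℕ} (hn : n ≠ 0) (hroot : ∀ c : k, ∃ γ : k, γ ^ n = c) {H : F}
    (hu : ∀ i, G.T.rdN i H ≠ 0) (ht : G.TrivRed n H) :
    ∃ g : ∀ i, κ i, (∀ i, g i ^ n * G.T.rdN i H = 1) ∧
      ∀ z ∈ G.SS, ∀ s : F, G.IsGen n z H s →
        ∃ c : k, ∀ i, HasValue (G.T.pt i z) (g i * (G.T.rdN i s)⁻¹) c := by
  obtain ⟨c, Gf, hc0, hred, hval⟩ := ht
  obtain ⟨γ, hγ⟩ := hroot c
  have hγ0 : γ ≠ 0 := by
    rintro rfl
    rw [zero_pow hn] at hγ
    exact hc0 hγ.symm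
  subst hγ
  refine ⟨gOf γ Gf, fun i => root_g_of_red G i (hu i) (hred i), fun z hz s hs => ?_⟩
  obtain ⟨a, ha, hv⟩ := hval z hz s hs
  exact ⟨(γ * a)⁻¹, fun i => eqv_of_val G (G.deg_one z hz) hγ0 ha hv i⟩

/-! ## The local data and the charts -/

/-- The local data at ONE closed point of the special fibre of the chart. -/
def PointDataAt (C : Chart R F k ι κ) (G : GlueCore K F L k ι Z κ) (q : R)
    (𝔪 : Ideal C.B) : Prop :=
  (∀ i, C.Icomp i ≤ 𝔪 → Nonempty (Branch C 𝔪 i)) ∧ Nonempty (LocEq C q 𝔪) ∧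
    ((∃ i₀, ∀ i, C.Icomp i ≤ 𝔪 → i = i₀) ∨
      ∃ z ∈ G.SS, InChart C G.T z ∧
        ∃ i₀, ∀ β : C.B, β ∈ 𝔪 ↔ VanAt (G.T.pt i₀ z) (C.rdB i₀ β))

/-- **The local data at the closed points of the special fibre of the chart**: branches,
a local equation datum, and: a closed point with several branches is a multiple point
`z ∈ SS` of the chart. -/
def PointData (C : Chart R F k ι κ) (G : GlueCore K F L k ι Z κ) (q : R) : Prop :=
  ∀ 𝔪 : Ideal C.B, 𝔪.IsMaximal → (∃ i, C.Icomp i ≤ 𝔪) → PointDataAt C G q 𝔪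

variable {C : Chart R F k ι κ}

/-- **(EQV) at a multiple point**, from the values of `g i / rd i s`. -/
theorem eqv_of_bridge [Infinite k] (hc : Compat C G.T) (hP : HasPrincipalDivisors K L) {z : Z}
    (hzSS : z ∈ G.SS) (hz : InChart C G.T z) {𝔪 : Ideal C.B} (i₀ : ι)
    (h𝔪 : ∀ β : C.B, β ∈ 𝔪 ↔ VanAt (G.T.pt i₀ z) (C.rdB i₀ β)) {n : ℕ} (hn : 0 < n) {H : F}
    (hu : ∀ i, G.T.rdN i H ≠ 0) (g : ∀ i, κ i)
    (heqv : ∀ s : F, G.IsGen n z H s →
      ∃ c : k, ∀ i, HasValue (G.T.pt i z) (g i * (G.T.rdN i s)⁻¹) c)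
    (s : F) (hs : H * s ^ n ∈ C.B) (hsm : (⟨H * s ^ n, hs⟩ : C.B) ∉ 𝔪)
    (br : ∀ i, C.Icomp i ≤ 𝔪 → Branch C 𝔪 i) :
    ∃ c : k, ∀ (i : ι) (hi : C.Icomp i ≤ 𝔪),
      g i * (C.rd i s)⁻¹ - algebraMap k (κ i) c ∈ (br i hi).O.nonunits := by
  have hglue : Glued G.T z := G.glue z hzSS
  have hgen : G.IsGen n z H s :=
    isGen_of_reg hc hP hz hglue hn hu hs i₀ (fun hv => hsm ((h𝔪 _).2 hv))
  obtain ⟨c, hc'⟩ := heqv s hgen
  refine ⟨c, fun i hi => ?_⟩
  rw [hc.hrd]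
  exact branch_nonunits_of_hasValue (br i hi) (G.T.pt i z)
    (branch_O_eq_pt hc hP hz hglue i₀ h𝔪 i (br i hi)) (hc' i)

/-- **One closed point of one chart**. -/
theorem point_of_bridge [Infinite k] [IsNoetherianRing C.B] [IsFractionRing C.B F]
    (hc : Compat C G.T) (hP : HasPrincipalDivisors K L) (qn : ℕ) (q : R) (n : ℕ) (H : F)
    (g : ∀ i, κ i) (S : Setup C qn n H g) (H0 : H ≠ 0) (hHOR : HOR C q n H)
    (𝔪 : Ideal C.B) (hmax : 𝔪.IsMaximal) (hex : ∃ i, C.Icomp i ≤ 𝔪)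
    (hpt : PointDataAt C G q 𝔪) (hu : ∀ i, G.T.rdN i H ≠ 0)
    (heqv : ∀ z ∈ G.SS, ∀ s : F, G.IsGen n z H s →
      ∃ c : k, ∀ i, HasValue (G.T.pt i z) (g i * (G.T.rdN i s)⁻¹) c) :
    ∃ β : C.B, β ∉ 𝔪 ∧ C.Good H n g β := by
  refine point_main C qn q n H g S H0 hHOR 𝔪 hmax hex ?_
  obtain ⟨hbr, hL, hcase⟩ := hpt
  refine ⟨hbr, hL, ?_⟩
  rcases hcase with h1 | ⟨z, hzSS, hz, i₀, h𝔪⟩
  · exact Or.inl h1
  · exact Or.inr fun s hs hsm br =>
      eqv_of_bridge G hc hP hzSS hz i₀ h𝔪 S.n_pos hu g (heqv z hzSS) s hs hsm br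

/-- **One chart**: the section `a` with `H aⁿ ∈ B` and residues `g i`. -/
theorem chart_of_bridge [Infinite k] [IsNoetherianRing C.B] [IsFractionRing C.B F]
    (hc : Compat C G.T) (hP : HasPrincipalDivisors K L) (qn : ℕ) (q : R) (n : ℕ) (H : F)
    (g : ∀ i, κ i) (S : Setup C qn n H g) (H0 : H ≠ 0) (hHOR : HOR C q n H)
    (hpt : PointData C G q) (hu : ∀ i, G.T.rdN i H ≠ 0)
    (heqv : ∀ z ∈ G.SS, ∀ s : F, G.IsGen n z H s →
      ∃ c : k, ∀ i, HasValue (G.T.pt i z) (g i * (G.T.rdN i s)⁻¹) c) :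
    ∃ a : F, H * a ^ n ∈ C.B ∧ ∀ i, C.rd i a = g i :=
  patch C qn n H g S (fun 𝔪 hmax hex =>
    point_of_bridge G hc hP qn q n H g S H0 hHOR 𝔪 hmax hex (hpt 𝔪 hmax hex) hu heqv)

/-- **REG at the multiple points**: local generators of `h` at every `z ∈ SS`, from CA1
(`reg_abs`) in the chart `C`.  (`i₀` : any component.) -/
theorem exists_isGen [Infinite k] [IsNoetherianRing C.B] [IsFractionRing C.B F]
    (hc : Compat C G.T) (hP : HasPrincipalDivisors K L) (q : R) {n : ℕ} (hn : 0 < n) {h : F}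
    (hHOR : HOR C q n h) (hpt : PointData C G q) (hu : ∀ i, G.T.rdN i h ≠ 0) (i₀ : ι)
    {z : Z} (hzSS : z ∈ G.SS) (hz : InChart C G.T z) : ∃ s, G.IsGen n z h s := by
  have hglue : Glued G.T z := G.glue z hzSS
  have hmax := ptMax_isMaximal hc hP hz i₀ (G.deg_one z hzSS i₀)
  have hle : C.Icomp i₀ ≤ ptMax hc hP hz i₀ := Icomp_le_ptMax hc hP hz hglue _ _
  obtain ⟨hbr, ⟨Lq⟩, -⟩ := hpt _ hmax ⟨i₀, hle⟩
  obtain ⟨b⟩ := hbr i₀ hle
  have hh : ∀ i, h ∈ C.V i ∧ h⁻¹ ∈ C.V i := fun i => by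
    rw [hc.hV]
    exact ⟨G.T.mem_of_rdN_ne_zero (hu i), G.T.inv_mem_of_rdN_ne_zero (hu i)⟩
  have h0 : h ≠ 0 := by
    rintro rfl
    apply hu i₀
    rw [G.T.rdN_of_mem (G.T.V _).zero_mem]
    exact map_zero _
  obtain ⟨s, hs, hsm⟩ := reg_abs C q n hn h hh h0 _ hmax i₀ b Lq hHOR
  exact ⟨s, isGen_of_reg hc hP hz hglue hn hu hs i₀
    (fun hv => hsm ((mem_ptMax hc hP hz i₀ _).2 hv))⟩

/-! ## TI3 -/

/-- **TI3 for a gluing core, cusp-only form**: a unit `H` for all the valuations with (HOR)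
in both charts and trivial reduction data is an integral constant times an `n`-th power.
The local data of the chart at infinity are asked only at the closed points where `1 / j`
vanishes. -/
theorem ti3_of_trivRed' [IsAlgClosed k] [IsNoetherianRing R] [IsDomain R]
    [IsIntegrallyClosed R]
    (Kf : Type*) [Field Kf] [Algebra R Kf] [IsFractionRing R Kf] [Algebra Kf F]
    [IsScalarTower R Kf F]
    (C0 Coo : Chart R F k ι κ) [IsNoetherianRing C0.B] [IsFractionRing C0.B F]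
    [IsNoetherianRing Coo.B] [IsFractionRing Coo.B F]
    (hc0 : Compat C0 G.T) (hcoo : Compat Coo G.T) (hP : HasPrincipalDivisors K L)
    (qn n : ℕ) (hC0 : ChartHyp C0 qn n) (hCoo : ChartHyp Coo qn n)
    (j : F) (hjt : Transcendental Kf j) (hB0 : C0.B = intSub R j) (hBoo : Coo.B = intSub R j⁻¹)
    (q : R) (hq0 : q ≠ 0) (hqu : ¬ IsUnit q) (n' : R) (hnn : (n : R) * n' = 1)
    (hpt0 : PointData C0 G q)
    (hptoo : ∀ 𝔪 : Ideal Coo.B, 𝔪.IsMaximal → (∃ i, Coo.Icomp i ≤ 𝔪) →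
      (∀ β : Coo.B, (β : F) = j⁻¹ → β ∈ 𝔪) → PointDataAt Coo G q 𝔪)
    (hrad0 : ∀ β ∈ C0.B, (∀ i, C0.rd i β = 0) → IsRadQ C0.B q β)
    (hradoo : ∀ β ∈ Coo.B, (∀ i, Coo.rd i β = 0) → IsRadQ Coo.B q β)
    (H : F) (H0 : H ≠ 0) (huH : ∀ i, G.T.rdN i H ≠ 0)
    (hHOR0 : HOR C0 q n H) (hHORoo : HOR Coo q n H)
    (hfg : (MInt R j⁻¹ H n hC0.n_pos).FG)
    (htriv : G.TrivRed n H) :
    ∃ s : F, s ≠ 0 ∧ IsIntegral R (H * s ^ n) := by
  have hn : 0 < n := hC0.n_pos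
  haveI : Infinite k := IsAlgClosed.instInfinite
  -- the residues `g`
  obtain ⟨g, hg, heqv⟩ := exists_g_of_trivRed G hn.ne'
    (fun c => IsAlgClosed.exists_pow_nat_eq c hn) huH htriv
  have S0 : Setup C0 qn n H g := hC0.setup (fun i => by rw [hc0.hrd]; exact hg i)
  have Soo : Setup Coo qn n H g := hCoo.setup (fun i => by rw [hcoo.hrd]; exact hg i)
  have hVV : ∀ i, C0.V i = Coo.V i := fun i => by rw [hc0.hV, hcoo.hV]
  have hrr : ∀ i x, C0.rd i x = Coo.rd i x := fun i x => by rw [hc0.hrd, hcoo.hrd]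
  have hj : j ≠ 0 := by
    rintro rfl
    exact hjt ⟨Polynomial.X, Polynomial.X_ne_zero, by simp⟩
  have Gl : Glue C0 Coo j := glue_of_intSub C0 Coo j hj hB0 hBoo hVV hrr
  have hint : ∀ y ∈ Coo.B, IsIntegral (Algebra.adjoin R {j⁻¹}) y := by
    intro y hy
    rw [hBoo] at hy
    exact hy
  -- the chart `C0`
  obtain ⟨a, ha, hra⟩ := chart_of_bridge G hc0 hP qn q n H g S0 H0 hHOR0 hpt0 huH heqv
  -- the chart at infinity
  obtain ⟨b, hb, hrb⟩ := patch Coo qn n H g Soo (fun 𝔪 hmax hex => by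
    by_cases hcusp : (⟨j⁻¹, Gl.inv_mem⟩ : Coo.B) ∈ 𝔪
    · refine point_of_bridge G hcoo hP qn q n H g Soo H0 hHORoo 𝔪 hmax hex
        (hptoo 𝔪 hmax hex (fun β hβ => ?_)) huH heqv
      have : β = ⟨j⁻¹, Gl.inv_mem⟩ := Subtype.ext hβ
      rw [this]
      exact hcusp
    · haveI := hmax.isPrime
      haveI := hmax
      have Lk : Linked C0 Coo j (pull Gl 𝔪) 𝔪 := linked_pull Gl 𝔪 hcusp
      obtain ⟨i₀, hi₀⟩ := hex
      have hmax0 : (pull Gl 𝔪).IsMaximal := Lk.isMaximal Gl hint i₀ hi₀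
      have hex0 : ∃ i, C0.Icomp i ≤ pull Gl 𝔪 :=
        ⟨i₀, (Lk.symm Gl.u_ne).icomp_le Gl.symm hi₀⟩
      exact good_transfer Gl Lk qn n H g S0
        (point_of_bridge G hc0 hP qn q n H g S0 H0 hHOR0 _ hmax0 hex0
          (hpt0 _ hmax0 hex0) huH heqv))
  -- TI3
  exact ti3_const Kf C0 Coo qn n H g S0 Soo j hjt hB0 hBoo hVV hrr q hq0 hqu n' hnn
    hfg hrad0 hradoo a b ha hra hb hrb

/-- **TI3 for a gluing core** (local data of both charts at all closed points). -/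
theorem ti3_of_trivRed [IsAlgClosed k] [IsNoetherianRing R] [IsDomain R]
    [IsIntegrallyClosed R]
    (Kf : Type*) [Field Kf] [Algebra R Kf] [IsFractionRing R Kf] [Algebra Kf F]
    [IsScalarTower R Kf F]
    (C0 Coo : Chart R F k ι κ) [IsNoetherianRing C0.B] [IsFractionRing C0.B F]
    [IsNoetherianRing Coo.B] [IsFractionRing Coo.B F]
    (hc0 : Compat C0 G.T) (hcoo : Compat Coo G.T) (hP : HasPrincipalDivisors K L)
    (qn n : ℕ) (hC0 : ChartHyp C0 qn n) (hCoo : ChartHyp Coo qn n)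
    (j : F) (hjt : Transcendental Kf j) (hB0 : C0.B = intSub R j) (hBoo : Coo.B = intSub R j⁻¹)
    (q : R) (hq0 : q ≠ 0) (hqu : ¬ IsUnit q) (n' : R) (hnn : (n : R) * n' = 1)
    (hpt0 : PointData C0 G q) (hptoo : PointData Coo G q)
    (hrad0 : ∀ β ∈ C0.B, (∀ i, C0.rd i β = 0) → IsRadQ C0.B q β)
    (hradoo : ∀ β ∈ Coo.B, (∀ i, Coo.rd i β = 0) → IsRadQ Coo.B q β)
    (H : F) (H0 : H ≠ 0) (huH : ∀ i, G.T.rdN i H ≠ 0)
    (hHOR0 : HOR C0 q n H) (hHORoo : HOR Coo q n H)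
    (hfg : (MInt R j⁻¹ H n hC0.n_pos).FG)
    (htriv : G.TrivRed n H) :
    ∃ s : F, s ≠ 0 ∧ IsIntegral R (H * s ^ n) :=
  ti3_of_trivRed' G Kf C0 Coo hc0 hcoo hP qn n hC0 hCoo j hjt hB0 hBoo q hq0 hqu n' hnn hpt0
    (fun 𝔪 hmax hex _ => hptoo 𝔪 hmax hex) hrad0 hradoo H H0 huH hHOR0 hHORoo hfg htriv

end Core

end Fermat.Agent.S45.NUE.H96
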