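import Fermat.Agent.S45.NUE.H79_TrivE
import Fermat.Agent.S45.NUE.H96_TI3Core

/-!
# S45 / NU_e, package E-ABS (helper79): `NUDataE` and helper96's `GlueCore`

* `NUDataE.toGlueCore` : the gluing core of a `NUDataE` (GLUE_e = `NUDataE.glued`);
* `trivRedT_iff`, `isGenT_iff` : helper96's `GlueCore.TrivRed` / `GlueCore.IsGen` are
  `H79.TrivRedT` / `H79.IsGenT`;
* `NUDataE.trivRed_core` : **B2_e + B3_e in the form consumed by `H96.ti3_of_trivRed`**:
  norms of the unit `h` along `α`, `β` are constants times `n`-th powers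
  ⟹ `(D.toGlueCore hP).TrivRed n h`.
-/

set_option autoImplicit false
set_option linter.style.haveILetI false

noncomputable section

open AlgebraicCurve

attribute [local instance] Classical.propDecidable

namespace Fermat.Agent.S45.NUE.H79

open Fermat.Agent.RED.H17 Fermat.Agent.RED Fermat.Agent.BAD.H79 Fermat.Agent.BAD
open Fermat.Agent.S36.NU.H79 Fermat.Agent.S36.NU.H24 Fermat.Agent.S45.NUE.H96

variable {K L₀ L k ι Z : Type*} {E : ι → Type*} [Field K] [Field L₀] [Field L]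
  [Algebra K L] [Algebra L₀ L] [Field k] [Fintype ι] [∀ i, Field (E i)]
  [∀ i, Algebra k (E i)]
  {K' L₀' L' ι' Z' : Type*} {E' : ι' → Type*} [Field K'] [Field L₀'] [Field L']
  [Algebra K' L'] [Algebra L₀' L'] [Fintype ι'] [∀ i, Field (E' i)]
  [∀ i, Algebra k (E' i)]

theorem isGenT_iff (G : GlueCore K L₀ L k ι Z E) (n : ℕ) (z : Z) (h s : L₀) :
    G.IsGen n z h s ↔ IsGenT G.T n z h s := Iff.rfl

theorem trivRedT_iff (G : GlueCore K L₀ L k ι Z E) (n : ℕ) (H : L₀) :
    G.TrivRed n H ↔ TrivRedT G.T G.SS n H := Iff.rfl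

namespace NUDataE

variable (D : NUDataE K L₀ L k ι Z E K' L₀' L' ι' Z' E')

/-- **The gluing core of a `NUDataE`.** -/
def toGlueCore [Infinite k] (hP : HasPrincipalDivisors K L) : GlueCore K L₀ L k ι Z E where
  T := D.T
  SS := D.SS
  glue := fun _ hz => D.glued hP hz
  deg_one := D.deg_one

@[simp] theorem toGlueCore_T [Infinite k] (hP : HasPrincipalDivisors K L) :
    (D.toGlueCore hP).T = D.T := rfl

@[simp] theorem toGlueCore_SS [Infinite k] (hP : HasPrincipalDivisors K L) :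
    (D.toGlueCore hP).SS = D.SS := rfl

/-- **B2_e + B3_e**, in the form consumed by helper96's `ti3_of_trivRed`. -/
theorem trivRed_core [IsAlgClosed k] [Infinite k] (hP : HasPrincipalDivisors K L) {n : ℕ}
    (hn : n ≠ 0) (hcop : Nat.Coprime D.d n) (hL : LowRoot D.T' n)
    (hk : ∀ i', RootClosed k (E' i') n) {h : L₀} (hu : ∀ i, D.T.rdN i h ≠ 0)
    {cα gα cβ gβ : L₀'} (hcα : IsConstT D.T' cα) (hcβ : IsConstT D.T' cβ)
    (hα : D.sα.Nm h = cα * gα ^ n) (hβ : D.sβ.Nm h = cβ * gβ ^ n) :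
    (D.toGlueCore hP).TrivRed n h :=
  D.trivRed hP hn hcop hL hk hu hcα hcβ hα hβ

end NUDataE

end Fermat.Agent.S45.NUE.H79
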