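import Fermat.Agent.S45.NUE.H79_Defs

/-!
# S45 / NU_e, package E-ABS (helper79): GLUE at the level `e` from GLUE at the level `e - 1`

`D : NUDataE ..`.  If the lower level is glued at the images `zα z`, `zβ z` of the multiple points
(`SideE.glue'`), then the upper level is glued at every `z ∈ SS`:

* `SingleRel.hasValue`, `DoubleRel.hasValue` : the values of the reductions of the norm of a unit;
* `SideE.inR` : the norm of a unit of `R_z` is in `R'_{zm z}`;
* `SideE.value_eq` : two single components of one side take the same value at `z`;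
* `NUDataE.glued` : **GLUE_e**, `H24.Glued D.T z` for `z ∈ D.SS`.
-/

set_option autoImplicit false
set_option linter.style.haveILetI false

noncomputable section

open AlgebraicCurve

attribute [local instance] Classical.propDecidable

namespace Fermat.Agent.S45.NUE.H79

open Fermat.Agent.RED.H17 Fermat.Agent.RED Fermat.Agent.BAD.H79 Fermat.Agent.BAD
open Fermat.Agent.S36.NU.H79 Fermat.Agent.S36.NU.H24

variable {K L₀ L k ι Z : Type*} {E : ι → Type*} [Field K] [Field L₀] [Field L]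
  [Algebra K L] [Algebra L₀ L] [Field k] [Fintype ι] [∀ i, Field (E i)]
  [∀ i, Algebra k (E i)]
  {K' L₀' L' ι' Z' : Type*} {E' : ι' → Type*} [Field K'] [Field L₀'] [Field L']
  [Algebra K' L'] [Algebra L₀' L'] [Fintype ι'] [∀ i, Field (E' i)]
  [∀ i, Algebra k (E' i)]

/-! ## Shifts by generic constants -/

/-- The set of constants which are a reduction of `f`. -/
theorem finite_constE (T : TotN K L₀ L k ι Z E) (f : L₀) :
    {c : k | ∃ i, T.rdN i f = algebraMap k (E i) c}.Finite := by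
  have : {c : k | ∃ i, T.rdN i f = algebraMap k (E i) c}
      = ⋃ i : ι, {c : k | T.rdN i f = algebraMap k (E i) c} := by
    ext c
    simp only [Set.mem_ofPred_eq, Set.mem_iUnion]
  rw [this]
  refine Set.finite_iUnion fun i => Set.Subsingleton.finite ?_
  intro a ha b hb
  rw [Set.mem_ofPred_eq] at ha hb
  exact (algebraMap k (E i)).injective (ha.symm.trans hb)

/-- For `f ∈ R_z` with values `a i` and a generic constant `c`: a unit `h ∈ R_z` for all
valuations with values `a i - c`. -/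
theorem exists_shift (T : TotN K L₀ L k ι Z E) {z : Z} {f : L₀} (hf : T.InR z f) {a : ι → k}
    (ha : ∀ i, HasValue (T.pt i z) (T.rdN i f) (a i)) (c : k)
    (hc : c ∉ {c : k | ∃ i, T.rdN i f = algebraMap k (E i) c}) :
    ∃ h : L₀, T.InR z h ∧ (∀ i, T.rdN i h ≠ 0) ∧
      ∀ i, HasValue (T.pt i z) (T.rdN i h) (a i - c) := by
  obtain ⟨c₀, ⟨c', hc'⟩, hc₀⟩ := T.const_lift c
  have hcm : ∀ i, c₀ ∈ T.V i := fun i => (hc₀ i).choose
  have hcr : ∀ i, T.rdN i c₀ = algebraMap k (E i) c := fun i => by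
    rw [T.rdN_of_mem (hcm i)]; exact (hc₀ i).choose_spec
  have hcR : T.InR z c₀ := ⟨hcm, fun P _ => by rw [hc']; exact regAt_algebraMap P c'⟩
  have hgr : ∀ i, T.rdN i (f - c₀) = T.rdN i f - algebraMap k (E i) c := fun i => by
    rw [T.rdN_sub (hf.1 i) (hcm i), hcr]
  refine ⟨f - c₀, hf.sub hcR, fun i h0 => ?_, fun i => ?_⟩
  · rw [hgr, sub_eq_zero] at h0
    exact hc ⟨i, h0⟩
  · rw [hgr]
    exact (ha i).sub (hasValue_const _ c)

/-! ## Values of the reductions of norms -/

section Values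

variable {T : TotN K L₀ L k ι Z E} {T' : TotN K' L₀' L' k ι' Z' E'} {Nm : L₀ →* L₀'}
  {SS : Set Z} {zm : Z → Z'} {d : ℕ}

/-- The value of the reduction of the norm of a unit, for a single component. -/
theorem SingleRel.hasValue {i : ι} (R : SingleRel T T' Nm SS zm d i) {z : Z} (hz : z ∈ SS)
    {h : L₀} (hu : ∀ j, T.rdN j h ≠ 0) {a : k} (ha : HasValue (T.pt i z) (T.rdN i h) a) :
    HasValue (T'.pt R.i' (zm z)) (T'.rdN R.i' (Nm h)) (a ^ d) := by
  have hd : a ^ d = (a ^ R.R.f) ^ R.e := by rw [← pow_mul, R.deg]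
  rw [R.norm h hu, hd]
  exact (R.R.hasValue_N (R.pt z hz) ha).pow R.e

/-- The value of the reduction of the norm of a unit, for a double component. -/
theorem DoubleRel.hasValue {i₁ i₂ : ι} (R : DoubleRel T T' Nm SS zm d i₁ i₂) {z : Z}
    (hz : z ∈ SS) {h : L₀} (hu : ∀ j, T.rdN j h ≠ 0) {a₁ a₂ : k}
    (ha₁ : HasValue (T.pt i₁ z) (T.rdN i₁ h) a₁) (ha₂ : HasValue (T.pt i₂ z) (T.rdN i₂ h) a₂) :
    HasValue (T'.pt R.i' (zm z)) (T'.rdN R.i' (Nm h))
      (a₁ ^ (R.R₁.f * R.e₁) * a₂ ^ (R.R₂.f * R.e₂)) := by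
  rw [R.norm h hu, pow_mul, pow_mul]
  exact ((R.R₁.hasValue_N (R.pt₁ z hz) ha₁).pow R.e₁).mul
    ((R.R₂.hasValue_N (R.pt₂ z hz) ha₂).pow R.e₂)

/-- The norm of a unit of `R_z` is in `R'_{zm z}`. -/
theorem SideE.inR (S : SideE T T' SS d) {z : Z} (hz : z ∈ SS) {h : L₀} (hR : T.InR z h)
    (hu : ∀ i, T.rdN i h ≠ 0) : T'.InR (S.zm z) (S.Nm h) :=
  ⟨fun i' => T'.mem_of_rdN_ne_zero (S.unit h hu i'), S.reg z hz h hR.2⟩

/-- Units of `R_z`: the `d`-th powers of the values on two single components of one side are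
equal. -/
theorem SideE.pow_eq (S : SideE T T' SS d) {z : Z} (hz : z ∈ SS) {h : L₀} (hR : T.InR z h)
    (hu : ∀ i, T.rdN i h ≠ 0) {i j : ι} (hi : S.S i) (hj : S.S j) {a b : k}
    (ha : HasValue (T.pt i z) (T.rdN i h) a) (hb : HasValue (T.pt j z) (T.rdN j h) b) :
    a ^ d = b ^ d := by
  have h1 := (S.single i hi).hasValue hz hu ha
  have h2 := (S.single j hj).hasValue hz hu hb
  have h3 := (S.glue' z hz _ (S.inR hz hR hu) (S.single i hi).i' (S.single j hj).i' _).mp h1
  exact h3.unique h2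

/-- Units of `R_z`: the relation of a double component with a single component. -/
theorem SideE.double_eq (S : SideE T T' SS d) {i₁ i₂ : ι}
    (R : DoubleRel T T' S.Nm SS S.zm d i₁ i₂) {z : Z} (hz : z ∈ SS) {h : L₀}
    (hR : T.InR z h) (hu : ∀ i, T.rdN i h ≠ 0) {j : ι} (hj : S.S j) {a₁ a₂ b : k}
    (ha₁ : HasValue (T.pt i₁ z) (T.rdN i₁ h) a₁) (ha₂ : HasValue (T.pt i₂ z) (T.rdN i₂ h) a₂)
    (hb : HasValue (T.pt j z) (T.rdN j h) b) :
    a₁ ^ (R.R₁.f * R.e₁) * a₂ ^ (R.R₂.f * R.e₂) = b ^ d := by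
  have h1 := R.hasValue hz hu ha₁ ha₂
  have h2 := (S.single j hj).hasValue hz hu hb
  have h3 := (S.glue' z hz _ (S.inR hz hR hu) R.i' (S.single j hj).i' _).mp h1
  exact h3.unique h2

/-- **Two single components of one side take the same value** at `z ∈ SS`, for `f ∈ R_z`. -/
theorem SideE.value_eq [Infinite k] (S : SideE T T' SS d) (hd : 0 < d) {z : Z} (hz : z ∈ SS)
    {f : L₀} (hf : T.InR z f) {a : ι → k}
    (ha : ∀ i, HasValue (T.pt i z) (T.rdN i f) (a i)) {i j : ι} (hi : S.S i) (hj : S.S j) :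
    a i = a j := by
  refine glue_alg ({i} : Finset ι) (fun _ => d) a (a j) d _ (finite_constE T f)
    (fun c hc => ?_) (Finset.mem_singleton_self i) hd
  rw [Finset.prod_singleton]
  obtain ⟨h, hR, hu, hv⟩ := exists_shift T hf ha c hc
  exact S.pow_eq hz hR hu hi hj (hv i) (hv j)

/-- **The two components of a double relation take the value of a single component** at
`z ∈ SS`, for `f ∈ R_z`. -/
theorem SideE.value_eq_double [Infinite k] (S : SideE T T' SS d) {i₁ i₂ : ι}
    (R : DoubleRel T T' S.Nm SS S.zm d i₁ i₂) {z : Z} (hz : z ∈ SS)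
    {f : L₀} (hf : T.InR z f) {a : ι → k}
    (ha : ∀ i, HasValue (T.pt i z) (T.rdN i f) (a i)) {j : ι} (hj : S.S j) :
    a i₁ = a j ∧ a i₂ = a j := by
  have key : ∀ c, c ∉ {c : k | ∃ i, T.rdN i f = algebraMap k (E i) c} →
      ∏ l : Fin 2, ((![a i₁, a i₂] : Fin 2 → k) l - c)
          ^ (![R.R₁.f * R.e₁, R.R₂.f * R.e₂] : Fin 2 → ℕ) l = (a j - c) ^ d := by
    intro c hc
    obtain ⟨h, hR, hu, hv⟩ := exists_shift T hf ha c hc
    rw [Fin.prod_univ_two]
    exact S.double_eq R hz hR hu hj (hv i₁) (hv i₂) (hv j)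
  constructor
  · exact glue_alg (Finset.univ : Finset (Fin 2)) _ (![a i₁, a i₂] : Fin 2 → k) (a j) d _
      (finite_constE T f) key (i := 0) (Finset.mem_univ _) R.pos₁
  · exact glue_alg (Finset.univ : Finset (Fin 2)) _ (![a i₁, a i₂] : Fin 2 → k) (a j) d _
      (finite_constE T f) key (i := 1) (Finset.mem_univ _) R.pos₂

end Values

/-! ## GLUE_e -/

namespace NUDataE

variable (D : NUDataE K L₀ L k ι Z E K' L₀' L' ι' Z' E')

/-- The values of the reductions of `f ∈ R_z` at `z ∈ SS` are equal. -/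
theorem value_eq [Infinite k] {z : Z} (hz : z ∈ D.SS) {f : L₀} (hf : D.T.InR z f)
    {a : ι → k} (ha : ∀ i, HasValue (D.T.pt i z) (D.T.rdN i f) (a i)) (i : ι) :
    a i = a D.jα := by
  have h1 : a D.i₁ = a D.jα := (D.sα.value_eq_double D.double hz hf ha D.hjα).1
  rcases D.cover i with hi | hi
  · exact D.sα.value_eq D.d_pos hz hf ha hi D.hjα
  · rw [← h1]
    exact D.sβ.value_eq D.d_pos hz hf ha hi D.hi₁

/-- **GLUE_e**: the upper level is glued at the multiple points. -/
theorem glued [Infinite k] (hP : HasPrincipalDivisors K L) {z : Z} (hz : z ∈ D.SS) :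
    Glued D.T z := by
  intro f hf i j c
  have hex : ∀ l, ∃ a : k, HasValue (D.T.pt l z) (D.T.rdN l f) a := fun l =>
    exists_value (D.T.pt l z) (D.deg_one z hz l) (hf.regAt hP l)
  choose a ha using hex
  have heq : ∀ l, a l = a D.jα := D.value_eq hz hf ha
  constructor
  · intro h
    have : c = a j := by rw [heq j, ← heq i]; exact h.unique (ha i)
    rw [this]; exact ha j
  · intro h
    have : c = a i := by rw [heq i, ← heq j]; exact h.unique (ha j)
    rw [this]; exact ha i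

end NUDataE

end Fermat.Agent.S45.NUE.H79
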