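import Fermat.Agent.S45.NUE.H79_Defs

/-!
# S45 / NU_e, package E-ABS (helper79): `LowRoot` from valuations

`lowRoot_of_val` : the hypothesis `LowRoot T' n` of `NUDataE.trivRed` (roots of units of the form
`constant · gⁿ` at the lower level) from

* a component `i₀` of multiplicity one: the valuation `V i₀` is discrete with uniformiser the
  constant `q₀` (modular: `q`, and `V i₀` = the Gauss valuation at the cusp `∞`) — `hex`;
* the valuations of a non-zero constant are the `m`-th powers of the valuations of `q₀`, with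
  ONE `m ∈ ℤ` for all components (modular: the constants are in `K^ur`) — `hconst`;
* the reductions of a constant which is a unit for all valuations are the same constant of `k`
  in all components — `hred`.

Also: `rdN_ne_zero_iff_val` (`T.rdN i x ≠ 0 ↔ v_i x = 1`).
-/

set_option autoImplicit false
set_option linter.style.haveILetI false

noncomputable section

open AlgebraicCurve

attribute [local instance] Classical.propDecidable

namespace Fermat.Agent.S45.NUE.H79

open Fermat.Agent.RED.H17 Fermat.Agent.RED Fermat.Agent.BAD.H79 Fermat.Agent.BAD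
open Fermat.Agent.S36.NU.H79 Fermat.Agent.S36.NU.H24

variable {K L₀ L k ι Z : Type*} {E : ι → Type*} [Field K] [Field L₀] [Field L]
  [Algebra K L] [Algebra L₀ L] [Field k] [Fintype ι] [∀ i, Field (E i)]
  [∀ i, Algebra k (E i)] (T : TotN K L₀ L k ι Z E)

/-- A unit for the valuation `i`: the reduction is non-zero iff the valuation is `1`. -/
theorem rdN_ne_zero_iff_val (i : ι) (x : L₀) :
    T.rdN i x ≠ 0 ↔ (T.V i).valuation x = 1 := by
  constructor
  · intro hx
    have h1 := T.mem_of_rdN_ne_zero hx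
    have h2 := T.inv_mem_of_rdN_ne_zero hx
    have e1 : (T.V i).valuation x ≤ 1 := ((T.V i).valuation_le_one_iff x).2 h1
    have e2 : (T.V i).valuation x⁻¹ ≤ 1 := ((T.V i).valuation_le_one_iff x⁻¹).2 h2
    have hx0 : x ≠ 0 := by
      rintro rfl
      apply hx
      rw [T.rdN_of_mem (T.V i).zero_mem]
      exact map_zero _
    have hv0 : (T.V i).valuation x ≠ 0 := (Valuation.ne_zero_iff _).2 hx0
    rw [map_inv₀] at e2
    have e3 : 1 ≤ (T.V i).valuation x := (inv_le_one₀ (zero_lt_iff.2 hv0)).1 e2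
    exact le_antisymm e1 e3
  · intro hv hx
    have hm : x ∈ T.V i := ((T.V i).valuation_le_one_iff x).1 hv.le
    rw [T.rdN_of_mem hm, T.red_eq_zero_iff] at hx
    have := ((T.V i).valuation_lt_one_iff ⟨x, hm⟩).1 hx
    rw [hv] at this
    exact lt_irrefl _ this

theorem isConstT_mul {c d : L₀} (hc : IsConstT T c) (hd : IsConstT T d) : IsConstT T (c * d) := by
  obtain ⟨c', hc'⟩ := hc
  obtain ⟨d', hd'⟩ := hd
  exact ⟨c' * d', by rw [map_mul, map_mul, hc', hd']⟩

theorem isConstT_inv {c : L₀} (hc : IsConstT T c) : IsConstT T c⁻¹ := by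
  obtain ⟨c', hc'⟩ := hc
  exact ⟨c'⁻¹, by rw [map_inv₀, map_inv₀, hc']⟩

theorem isConstT_one : IsConstT T (1 : L₀) := ⟨1, by rw [map_one, map_one]⟩

theorem isConstT_pow {c : L₀} (hc : IsConstT T c) (m : ℕ) : IsConstT T (c ^ m) := by
  induction m with
  | zero => rw [pow_zero]; exact isConstT_one T
  | succ m ih => rw [pow_succ]; exact isConstT_mul T ih hc

theorem isConstT_zpow {c : L₀} (hc : IsConstT T c) (m : ℤ) : IsConstT T (c ^ m) := by
  cases m with
  | ofNat m => rw [Int.ofNat_eq_natCast, zpow_natCast]; exact isConstT_pow T hc m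
  | negSucc m => rw [zpow_negSucc]; exact isConstT_inv T (isConstT_pow T hc (m + 1))

/-- In the value group: `x ^ n = 1`, `n ≠ 0` ⟹ `x = 1`. -/
theorem val_eq_one_of_pow {Γ : Type*} [LinearOrderedCommGroupWithZero Γ] {x : Γ} {n : ℕ}
    (hn : n ≠ 0) (h : x ^ n = 1) : x = 1 := by
  rcases lt_trichotomy x 1 with h1 | h1 | h1
  · exact absurd h (ne_of_lt (pow_lt_one₀ zero_le h1 hn))
  · exact h1
  · exact absurd h (ne_of_gt (one_lt_pow₀ h1 hn))

/-- **`LowRoot` from valuations.** -/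
theorem lowRoot_of_val (n : ℕ) (hn : n ≠ 0) (i₀ : ι) (q₀ : L₀) (hq₀ : IsConstT T q₀)
    (hq₀0 : q₀ ≠ 0) (hlt : (T.V i₀).valuation q₀ < 1)
    (hex : ∀ x : L₀, x ≠ 0 → ∃ r : ℤ, (T.V i₀).valuation x = (T.V i₀).valuation q₀ ^ r)
    (hconst : ∀ c : L₀, IsConstT T c → c ≠ 0 →
      ∃ m : ℤ, ∀ i, (T.V i).valuation c = (T.V i).valuation q₀ ^ m)
    (hred : ∀ c : L₀, IsConstT T c → (∀ i, T.rdN i c ≠ 0) →
      ∃ a : k, ∀ i, T.rdN i c = algebraMap k (E i) a) : LowRoot T n := by
  intro f c g hc hf hu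
  have hf0 : f ≠ 0 := by
    rintro rfl
    apply hu i₀
    rw [T.rdN_of_mem (T.V i₀).zero_mem]
    exact map_zero _
  have hc0 : c ≠ 0 := by
    rintro rfl
    rw [zero_mul] at hf
    exact hf0 hf
  have hg0 : g ≠ 0 := by
    rintro rfl
    rw [zero_pow hn, mul_zero] at hf
    exact hf0 hf
  obtain ⟨m, hm⟩ := hconst c hc hc0
  obtain ⟨r, hr⟩ := hex g hg0
  have hvq0 : ∀ i, (T.V i).valuation q₀ ≠ 0 := fun i => (Valuation.ne_zero_iff _).2 hq₀0
  have hvf : ∀ i, (T.V i).valuation c * (T.V i).valuation g ^ n = 1 := by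
    intro i
    rw [← map_pow, ← map_mul, ← hf]
    exact (rdN_ne_zero_iff_val T i f).1 (hu i)
  -- `m + r n = 0`
  have hmr : m + r * n = 0 := by
    have h1 := hvf i₀
    rw [hm i₀, hr, ← zpow_natCast, ← zpow_mul, ← zpow_add₀ (hvq0 i₀)] at h1
    have hinj : Function.Injective fun z : ℤ => (T.V i₀).valuation q₀ ^ z :=
      zpow_right_injective₀ (zero_lt_iff.2 (hvq0 i₀)) hlt.ne
    exact hinj (by simpa using h1)
  set d : L₀ := q₀ ^ (-r) with hd
  have hd0 : d ≠ 0 := zpow_ne_zero _ hq₀0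
  have hdc : IsConstT T d := isConstT_zpow T hq₀ _
  -- `d g` is a unit for all valuations
  have hvg : ∀ i, (T.V i).valuation (d * g) = 1 := by
    intro i
    refine val_eq_one_of_pow hn ?_
    have h1 := hvf i
    rw [hm i] at h1
    have h2 : (T.V i).valuation g ^ n = (T.V i).valuation q₀ ^ (-m) := by
      rw [zpow_neg]
      exact eq_inv_of_mul_eq_one_right h1
    rw [map_mul, mul_pow, h2, hd, map_zpow₀, ← zpow_natCast, ← zpow_mul, ← zpow_add₀ (hvq0 i)]
    have : -r * (n : ℤ) + -m = 0 := by linarith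
    rw [this, zpow_zero]
  have hug : ∀ i, T.rdN i (d * g) ≠ 0 := fun i => (rdN_ne_zero_iff_val T i _).2 (hvg i)
  have hfe : f = c / d ^ n * (d * g) ^ n := by
    have hdn : d ^ n ≠ 0 := pow_ne_zero n hd0
    rw [hf, mul_pow]
    field_simp
  have hCc : IsConstT T (c / d ^ n) := by
    rw [div_eq_mul_inv]
    exact isConstT_mul T hc (isConstT_inv T (isConstT_pow T hdc n))
  have hC0 : c / d ^ n ≠ 0 := div_ne_zero hc0 (pow_ne_zero n hd0)
  have hvC : ∀ i, (T.V i).valuation (c / d ^ n) = 1 := by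
    intro i
    have h1 := (rdN_ne_zero_iff_val T i f).1 (hu i)
    rw [hfe, map_mul, map_pow, hvg i, one_pow, mul_one] at h1
    exact h1
  have huC : ∀ i, T.rdN i (c / d ^ n) ≠ 0 := fun i => (rdN_ne_zero_iff_val T i _).2 (hvC i)
  obtain ⟨a, ha⟩ := hred _ hCc huC
  have ha0 : a ≠ 0 := by
    rintro rfl
    apply huC i₀
    rw [ha i₀, map_zero]
  refine ⟨d * g, c / d ^ n, a, hCc, hC0, ha0, hug, hfe, fun i => ?_⟩
  conv_lhs => rw [hfe]
  rw [T.rdN_mul (T.mem_of_rdN_ne_zero (huC i))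
    ((T.V i).pow_mem (T.mem_of_rdN_ne_zero (hug i)) n),
    T.rdN_pow (T.mem_of_rdN_ne_zero (hug i)), ha i]

end Fermat.Agent.S45.NUE.H79
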