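import Fermat.Agent.S45.NUE.H79_LowRootMod
import Fermat.Agent.S45.NUE.H23_TotE4

/-!
# S45 / NU_e, leaf `hL` (helper79): `LowRoot` for helper23's conservation datum `totEM`

`lowRoot_totEM : LowRoot (totEM A N q M e ..) n` for every `n ≠ 0`, every level `N = M q^e`
(`0 < e`): the instance of `lowRoot_mod` for the valuations `VE a = VF a ∩ L0 A N`,
`VF e` = the Gauss valuation at the cusp `∞`.

`lowRoot_totEM'` : the form `∀ n, 0 < n → n.Coprime q → LowRoot ..` of `H65.finModE_of`.
-/

set_option autoImplicit false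
set_option synthInstance.maxHeartbeats 400000
set_option maxHeartbeats 1000000
set_option linter.style.haveILetI false
set_option linter.unusedSectionVars false

noncomputable section

open ModularCurve AlgebraicCurve
open Fermat.Agent.S24 Fermat.Agent.BAD.H88 Fermat.Agent.S28 Fermat.Agent.S28.H73
open Fermat.Agent.RED.H73 Fermat.Agent.RED.H17 Fermat.Agent.S36.NU.H88
open Fermat.Agent.S36.NU.H23 Fermat.Agent.S45.NUE.H23

namespace Fermat.Agent.S45.NUE.H79

open Fermat.Agent.BAD Fermat.Agent.RED Fermat.Agent.BAD.H79 Fermat.Agent.S36.NU.H79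

attribute [local instance] algkE

section LowRootE

variable (A : ValuationSubring Kbar) (N q M e : ℕ) (B k : ℤ) (hN : N = M * q ^ e)
  (hB : B * M + k * (q : ℤ) ^ e = 1) (hq : q.Prime) [NeZero N] [NeZero q] [NeZero M]
  (hqM : ¬ q ∣ M) (hA : A.LiesOverPrime q) (ht : H91.TameAt M q) (he : 0 < e)

/-- The valuation `VF e` of the cusp `∞` is the Gauss valuation `V20`. -/
theorem VF_top_eq : VF A N q M e B k hN hB hq e = V20 A N := by
  ext x
  rw [mem_VF_iff, cE_top]
  rfl

/-- **`hL`**: the lower level `totEM` has roots of units of the form `constant · gⁿ`. -/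
theorem lowRoot_totEM (n : ℕ) (hn : n ≠ 0) :
    LowRoot (totEM A N q M e B k hN hB hq hqM hA ht he) n := by
  refine lowRoot_mod A N q hq hA (totEM A N q M e B k hN hB hq hqM hA ht he)
    (fun i => VF A N q M e B k hN hB hq (i : ℕ)) (fun i => rfl) ?_ (Fin.last e) ?_ ?_ n hn
  · intro i c
    haveI := neZero_nE N q M e B k hN hB hq (i : ℕ)
    exact const_memG (hE N q M e B k hN hB hq (i : ℕ)) A c
  · show VF A N q M e B k hN hB hq ((Fin.last e : Fin (e + 1)) : ℕ) = V20 A N
    rw [Fin.val_last]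
    exact VF_top_eq A N q M e B k hN hB hq
  · intro i c hcA hcL hm
    haveI := neZero_nE N q M e B k hN hB hq (i : ℕ)
    have h : algebraMap Kbar (FN N) c ∈ VG (hE N q M e B k hN hB hq (i : ℕ)) A :=
      (const_memG (hE N q M e B k hN hB hq (i : ℕ)) A c).mpr hcA
    apply Subtype.ext
    show ((redG (hE N q M e B k hN hB hq (i : ℕ)) A ⟨_, h⟩ :
      RG (hE N q M e B k hN hB hq (i : ℕ)) A) : LaurentSeries (kV A)) = _
    rw [redG_const (hE N q M e B k hN hB hq (i : ℕ)) A ⟨c, hcA⟩ h]
    rfl

/-- **`hL`** in the form of `H65.finModE_of`. -/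
theorem lowRoot_totEM' :
    ∀ n : ℕ, 0 < n → Nat.Coprime n q →
      LowRoot (totEM A N q M e B k hN hB hq hqM hA ht he) n :=
  fun n hn _ => lowRoot_totEM A N q M e B k hN hB hq hqM hA ht he n hn.ne'

end LowRootE

end Fermat.Agent.S45.NUE.H79
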