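import Fermat.Agent.S45.NUE.H79_LowRoot
import Fermat.Agent.S36.NU.H51_ValVecLow

/-!
# S45 / NU_e, package E-INST-B (helper79): the modular `LowRoot`

`lowRoot_mod` : `LowRoot T n` for EVERY conservation datum `T` on the inertia-fixed functions
`L0 A N` of a level `N` (any `N`, any index type) such that

* every valuation ring `T.V i` is the restriction to `L0 A N` of a valuation ring `W i` of `F_N`
  which induces `A` on the constants (`hW`, `hconst`; modular: `W i = VG h A`, the Gauss valuation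
  at a cusp, `H23.const_memG`);
* one of them (`i₀`) is the Gauss valuation at the cusp `∞` (`hi₀ : W i₀ = V20 A N`);
* the reductions of the integral constants are their residue classes (`hredc`; modular:
  `H23.redG_const`).

So the lower level `T' = T_e` of helper23 (valuations `VE a`, `a = 0..e`, `VE e` = Gauss at `∞`)
satisfies `LowRoot T' n` for all `n ≠ 0`.
-/

set_option autoImplicit false
set_option synthInstance.maxHeartbeats 400000
set_option maxHeartbeats 1000000
set_option linter.style.haveILetI false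
set_option linter.unusedSectionVars false

noncomputable section

open ModularCurve AlgebraicCurve
open Fermat.Agent.S24 Fermat.Agent.BAD.H88 Fermat.Agent.S28 Fermat.Agent.S28.H73
open Fermat.Agent.RED.H73 Fermat.Agent.RED.H17 Fermat.Agent.S36.NU.H88
open Fermat.Agent.S36.NU.H23 Fermat.Agent.Lib.HeckeComm
open Fermat.Agent.S36.NU.H82 Fermat.Agent.S36.NU.H51

namespace Fermat.Agent.S45.NUE.H79

open Fermat.Agent.BAD Fermat.Agent.RED Fermat.Agent.BAD.H79 Fermat.Agent.S36.NU.H79

section LowRootMod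

variable (A : ValuationSubring Kbar) (N : ℕ) [NeZero N] (q : ℕ) (hq : q.Prime)
  (hA : A.LiesOverPrime q)
  {ι Z : Type} [Fintype ι] {E : ι → Type} [∀ i, Field (E i)] [∀ i, Algebra (kV A) (E i)]
  (T : TotN Kbar ↥(L0 A N) (FN N) (kV A) ι Z E)

include hq hA in
/-- **The modular `LowRoot`.** -/
theorem lowRoot_mod (W : ι → ValuationSubring (FN N))
    (hW : ∀ i, T.V i = resV0 (L0 A N) (W i))
    (hconst : ∀ (i : ι) (c : Kbar), algebraMap Kbar (FN N) c ∈ W i ↔ c ∈ A)
    (i₀ : ι) (hi₀ : W i₀ = V20 A N)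
    (hredc : ∀ (i : ι) (c : Kbar) (hcA : c ∈ A) (hcL : algebraMap Kbar (FN N) c ∈ L0 A N)
      (hm : (⟨algebraMap Kbar (FN N) c, hcL⟩ : ↥(L0 A N)) ∈ T.V i),
      T.red i ⟨⟨algebraMap Kbar (FN N) c, hcL⟩, hm⟩
        = algebraMap (kV A) (E i) (resV A ⟨c, hcA⟩))
    (n : ℕ) (hn : n ≠ 0) : LowRoot T n := by
  have hlow : IsLowVal A N q (V20 A N) := isLowVal_V20 A N q hq hA
  have hq0 : ((q : ℕ) : ↥(L0 A N)) ≠ 0 := Nat.cast_ne_zero.mpr hq.ne_zero
  refine lowRoot_of_val T n hn i₀ ((q : ℕ) : ↥(L0 A N)) ⟨(q : Kbar), ?_⟩ hq0 ?_ ?_ ?_ ?_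
  · rw [map_natCast, map_natCast]
  · rw [hW i₀, hi₀]
    exact hlow.res_val_q_lt_one hA
  · intro x hx
    rw [hW i₀, hi₀]
    exact hlow.res_exact x hx
  · rintro c ⟨c', hc'⟩ hc0
    have hcc : (c : FN N) = algebraMap Kbar (FN N) c' := hc'
    have hcL : algebraMap Kbar (FN N) c' ∈ L0 A N := by rw [← hcc]; exact c.2
    have hc'0 : c' ≠ 0 := by
      rintro rfl
      rw [map_zero] at hcc
      exact hc0 (Subtype.ext hcc)
    obtain ⟨m, hm⟩ := valuation_Kur A hq hA c' ((const_mem_L0_iff A c').1 hcL) hc'0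
    refine ⟨m, fun i => ?_⟩
    rw [hW i, ← map_zpow₀, valuation_resV0_eq_iff, coe_natCast_zpow_L0, hcc]
    have h1 : A.valuation c' = A.valuation ((q : Kbar) ^ m) := by rw [map_zpow₀]; exact hm
    have h2 := val_algebraMap_congr A (W i) (hconst i) h1
    rw [h2, map_zpow₀, map_natCast]
  · rintro c ⟨c', hc'⟩ hu
    have hcc : (c : FN N) = algebraMap Kbar (FN N) c' := hc'
    have hcL : algebraMap Kbar (FN N) c' ∈ L0 A N := by rw [← hcc]; exact c.2
    have hce : c = ⟨algebraMap Kbar (FN N) c', hcL⟩ := Subtype.ext hcc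
    have hmem : ∀ i, c ∈ T.V i := fun i => T.mem_of_rdN_ne_zero (hu i)
    have hcA : c' ∈ A := by
      have h1 := hmem i₀
      rw [hW i₀, mem_resV0_iff, hcc] at h1
      exact (hconst i₀ c').1 h1
    refine ⟨resV A ⟨c', hcA⟩, fun i => ?_⟩
    have hm' : (⟨algebraMap Kbar (FN N) c', hcL⟩ : ↥(L0 A N)) ∈ T.V i := by
      rw [← hce]; exact hmem i
    rw [T.rdN_of_mem (hmem i), ← hredc i c' hcA hcL hm']
    congr 1
    exact Subtype.ext hce

end LowRootMod

end Fermat.Agent.S45.NUE.H79
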