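import Fermat.Agent.S45.NUE.H79_NuE
import Fermat.Agent.S45.NUE.H65_FinTopE
import Fermat.Agent.S45.NUE.H60_BaseGlue
import Fermat.Agent.S45.NUE.H33_SideE

/-!
# S45 / NU_e, ND_e (helper79): the modular instance of `NUDataE` in helper65's interface

`exists_isNuE_of` : `∃ D, H65.IsNuE D` at the levels `M₁ q = M' q^el ⊂ M₁ q q = M' q^(el+1)`,
`2 ≤ el`, from

* `hbase` : GLUE at the level `M' q²` (helper60, ND-BASE-GLUE);
* `hα` : the inputs of the side `α` at all levels `e ≥ 2`;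
* `hβ` : the inputs of the side `β` at the level `el`.

`alphaInputs_of`, `betaInputs_of` : the inputs of the two sides with the fields of helper33
(`single` along `α`, `unit` along `α` and `β`) filled in;
`exists_isNuE_of_rem` : `∃ D, H65.IsNuE D` from the remaining leaves (`reg` along `α`, `β`,
`double` along `α`, `single` along `β`), with the base of the GLUE tower (helper60) filled in.
-/

set_option autoImplicit false
set_option synthInstance.maxHeartbeats 400000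
set_option maxHeartbeats 1000000
set_option linter.style.haveILetI false
set_option linter.unusedSectionVars false

noncomputable section

open ModularCurve AlgebraicCurve
open Fermat.Agent.S24 Fermat.Agent.BAD.H88 Fermat.Agent.S28 Fermat.Agent.S28.H73
open Fermat.Agent.RED.H73 Fermat.Agent.RED.H17 Fermat.Agent.S36.NU.H88
open Fermat.Agent.S36.NU.H23 Fermat.Agent.S45.NUE.H23 Fermat.Agent.S36.NU.H74
open Fermat.Agent.S45.NUE.H96

namespace Fermat.Agent.S45.NUE.H79

open Fermat.Agent.BAD Fermat.Agent.RED Fermat.Agent.S36.NU.H79 Fermat.Agent.S36.NU.H24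

attribute [local instance] algkE

section Inputs

variable (A : ValuationSubring Kbar) (N q M e : ℕ) (B k B' k' : ℤ)
  (hN : N = M * q ^ e) (hB : B * M + k * (q : ℤ) ^ e = 1)
  (hN' : N * q = M * q ^ (e + 1)) (hB' : B' * M + k' * (q : ℤ) ^ (e + 1) = 1)
  (hq : q.Prime) [NeZero N] [NeZero q] [NeZero (N * q)] [NeZero M] [NeZero (M * q)]
  [NeZero (M * q * q)] (hqM : ¬ q ∣ M) (hA : A.LiesOverPrime q) (ht : H91.TameAt M q)
  (he : 0 < e)

/-- The inputs of the side `α` from `reg` and `double` (`single`, `unit`: helper33). -/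
def alphaInputs_of
    (hreg : ∀ z ∈ ssM A q M, ∀ h : ↥(L0 A (N * q)),
      (∀ P, (TuE A N q M e B' k' hN' hB' hq hqM hA ht).ρ P = z →
        RegAt P (algebraMap ↥(L0 A (N * q)) (FN (N * q)) h)) →
      ∀ Q, (TlE A N q M e B k hN hB hq hqM hA ht he).ρ Q = z →
        RegAt Q (algebraMap ↥(L0 A N) (FN N) (nmAlphaE A N q h)))
    (hdouble : DoubleRel (TuE A N q M e B' k' hN' hB' hq hqM hA ht)
      (TlE A N q M e B k hN hB hq hqM hA ht he) (nmAlphaE A N q) (ssM A q M) id q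
      (⟨e + 1, by omega⟩ : Fin (e + 2)) (⟨e, by omega⟩ : Fin (e + 2))) :
    AlphaInputs A N q M e B k B' k' hN hB hN' hB' hq hqM hA ht he where
  single := fun i hi =>
    Fermat.Agent.S45.NUE.H33.singleAlpha A N q M e B k B' k' hN hB hN' hB' hq he hqM hA ht i hi
  unit := fun h hu i' =>
    Fermat.Agent.S45.NUE.H33.unitAlphaT A N q M e B k B' k' hN hB hN' hB' hq he hqM hA ht h hu i'
  reg := hreg
  double := hdouble

/-- The inputs of the side `β` from `single` and `reg` (`unit`: helper33). -/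
def betaInputs_of
    (hsingle : ∀ i : Fin (e + 2), 2 ≤ (i : ℕ) →
      SingleRel (TuE A N q M e B' k' hN' hB' hq hqM hA ht)
        (TlE A N q M e B k hN hB hq hqM hA ht he) (nmBetaE A N q) (ssM A q M)
        (betaM A q M hq hqM hA).symm q i)
    (hreg : ∀ z ∈ ssM A q M, ∀ h : ↥(L0 A (N * q)),
      (∀ P, (TuE A N q M e B' k' hN' hB' hq hqM hA ht).ρ P = z →
        RegAt P (algebraMap ↥(L0 A (N * q)) (FN (N * q)) h)) →
      ∀ Q, (TlE A N q M e B k hN hB hq hqM hA ht he).ρ Q = (betaM A q M hq hqM hA).symm z →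
        RegAt Q (algebraMap ↥(L0 A N) (FN N) (nmBetaE A N q h))) :
    BetaInputs A N q M e B k B' k' hN hB hN' hB' hq hqM hA ht he where
  single := hsingle
  unit := fun h hu i' =>
    Fermat.Agent.S45.NUE.H33.unitBetaT A N q M e B k B' k' hN hB hN' hB' hq he hqM hA ht h hu i'
  reg := hreg

end Inputs

section Final

variable (A : ValuationSubring Kbar) (q M₁ M' el : ℕ) [NeZero M₁] [NeZero q] [NeZero M']
  [NeZero (M₁ * q)] [NeZero (M₁ * q * q)] (hq : q.Prime)
  (hNl : M₁ * q = M' * q ^ el) (hNu : M₁ * q * q = M' * q ^ (el + 1))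
  (Bl kl : ℤ) (hBl : Bl * M' + kl * (q : ℤ) ^ el = 1)
  (Bu ku : ℤ) (hBu : Bu * M' + ku * (q : ℤ) ^ (el + 1) = 1)
  (hqM : ¬ q ∣ M') (hA : A.LiesOverPrime q) (ht : H91.TameAt M' q)

/-- **ND_e**: the modular instance of `NUDataE`, from the base of the GLUE tower and the inputs
of the two sides. -/
theorem exists_isNuE_of (hel : 2 ≤ el)
    (hbase : ∀ (N : ℕ) (B k : ℤ) (hN : N = M' * q ^ 2) (hB : B * M' + k * (q : ℤ) ^ 2 = 1)
      [NeZero N], ∀ z ∈ ssM A q M',
        Glued (totEM A N q M' 2 B k hN hB hq hqM hA ht (by norm_num)) z)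
    (hα : ∀ (e : ℕ) (he : 2 ≤ e) (N : ℕ) (B k B' k' : ℤ) (hN : N = M' * q ^ e)
      (hB : B * M' + k * (q : ℤ) ^ e = 1) (hN' : N * q = M' * q ^ (e + 1))
      (hB' : B' * M' + k' * (q : ℤ) ^ (e + 1) = 1) [NeZero N] [NeZero (N * q)],
      AlphaInputs A N q M' e B k B' k' hN hB hN' hB' hq hqM hA ht (by omega))
    (Iβ : BetaInputs A (M₁ * q) q M' el Bl kl Bu ku hNl hBl hNu hBu hq hqM hA ht (by omega)) :
    ∃ D : Fermat.Agent.S45.NUE.H65.NUDataEM A q M₁ M' el,
      Fermat.Agent.S45.NUE.H65.IsNuE A q M₁ M' el hq hNl hNu Bl kl hBl Bu ku hBu hqM hA ht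
        (by omega) D :=
  ⟨nuDataE A (M₁ * q) q M' el Bl kl Bu ku hNl hBl hNu hBu hq hqM hA ht hel
      (hα el hel (M₁ * q) Bl kl Bu ku hNl hBl hNu hBu) Iβ
      (glued_totEM A q M' hq hqM hA ht hbase hα el hel (M₁ * q) Bl kl hNl hBl),
    ⟨rfl, rfl, rfl, rfl, fun _ => rfl, fun _ => rfl⟩⟩

/-- **ND_e** from the remaining leaves: `reg` and `double` along `α` at all levels `e ≥ 2`,
`single` and `reg` along `β` at the level `el`. -/
theorem exists_isNuE_of_rem (hel : 2 ≤ el)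
    (hregα : ∀ (e : ℕ) (he : 2 ≤ e) (N : ℕ) (B k B' k' : ℤ) (hN : N = M' * q ^ e)
      (hB : B * M' + k * (q : ℤ) ^ e = 1) (hN' : N * q = M' * q ^ (e + 1))
      (hB' : B' * M' + k' * (q : ℤ) ^ (e + 1) = 1) [NeZero N] [NeZero (N * q)],
      ∀ z ∈ ssM A q M', ∀ h : ↥(L0 A (N * q)),
        (∀ P, (TuE A N q M' e B' k' hN' hB' hq hqM hA ht).ρ P = z →
          RegAt P (algebraMap ↥(L0 A (N * q)) (FN (N * q)) h)) →
        ∀ Q, (TlE A N q M' e B k hN hB hq hqM hA ht (by omega)).ρ Q = z →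
          RegAt Q (algebraMap ↥(L0 A N) (FN N) (nmAlphaE A N q h)))
    (hdoubleα : ∀ (e : ℕ) (he : 2 ≤ e) (N : ℕ) (B k B' k' : ℤ) (hN : N = M' * q ^ e)
      (hB : B * M' + k * (q : ℤ) ^ e = 1) (hN' : N * q = M' * q ^ (e + 1))
      (hB' : B' * M' + k' * (q : ℤ) ^ (e + 1) = 1) [NeZero N] [NeZero (N * q)],
      DoubleRel (TuE A N q M' e B' k' hN' hB' hq hqM hA ht)
        (TlE A N q M' e B k hN hB hq hqM hA ht (by omega)) (nmAlphaE A N q) (ssM A q M') id q
        (⟨e + 1, by omega⟩ : Fin (e + 2)) (⟨e, by omega⟩ : Fin (e + 2)))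
    (hsingleβ : ∀ i : Fin (el + 2), 2 ≤ (i : ℕ) →
      SingleRel (TuE A (M₁ * q) q M' el Bu ku hNu hBu hq hqM hA ht)
        (TlE A (M₁ * q) q M' el Bl kl hNl hBl hq hqM hA ht (by omega)) (nmBetaE A (M₁ * q) q)
        (ssM A q M') (betaM A q M' hq hqM hA).symm q i)
    (hregβ : ∀ z ∈ ssM A q M', ∀ h : ↥(L0 A (M₁ * q * q)),
      (∀ P, (TuE A (M₁ * q) q M' el Bu ku hNu hBu hq hqM hA ht).ρ P = z →
        RegAt P (algebraMap ↥(L0 A (M₁ * q * q)) (FN (M₁ * q * q)) h)) →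
      ∀ Q, (TlE A (M₁ * q) q M' el Bl kl hNl hBl hq hqM hA ht (by omega)).ρ Q
          = (betaM A q M' hq hqM hA).symm z →
        RegAt Q (algebraMap ↥(L0 A (M₁ * q)) (FN (M₁ * q)) (nmBetaE A (M₁ * q) q h))) :
    ∃ D : Fermat.Agent.S45.NUE.H65.NUDataEM A q M₁ M' el,
      Fermat.Agent.S45.NUE.H65.IsNuE A q M₁ M' el hq hNl hNu Bl kl hBl Bu ku hBu hqM hA ht
        (by omega) D := by
  haveI : NeZero (M' * q) := ⟨Nat.mul_ne_zero (NeZero.ne M') (NeZero.ne q)⟩
  haveI : NeZero (M' * q * q) := ⟨Nat.mul_ne_zero (NeZero.ne (M' * q)) (NeZero.ne q)⟩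
  refine exists_isNuE_of A q M₁ M' el hq hNl hNu Bl kl hBl Bu ku hBu hqM hA ht hel
    (fun N B k hN hB _ z hz =>
      Fermat.Agent.S45.NUE.H60.glued_totEM_two A N q M' B k hN hB hq hqM hA ht z hz)
    (fun e he N B k B' k' hN hB hN' hB' _ _ =>
      alphaInputs_of A N q M' e B k B' k' hN hB hN' hB' hq hqM hA ht (by omega)
        (hregα e he N B k B' k' hN hB hN' hB') (hdoubleα e he N B k B' k' hN hB hN' hB'))
    (betaInputs_of A (M₁ * q) q M' el Bl kl Bu ku hNl hBl hNu hBu hq hqM hA ht (by omega)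
      hsingleβ hregβ)

end Final

end Fermat.Agent.S45.NUE.H79
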