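import Fermat.Agent.S45.NUE.H65_NuEAll
import Fermat.Agent.S45.NUE.H79_NuEFinal

/-!
# S45 / NU_e, ND_e (helper79): the statements of helper65's frame (`H65_NuEAll`)

* `stmt_BaseGlueE : H65.Stmt_BaseGlueE` (helper60's base of the GLUE tower);
* `Stmt_RegAlphaAll`, `Stmt_DoubleAlphaAll`, `Stmt_SingleBetaAll`, `Stmt_RegBetaAll` : the
  remaining leaves at every tame setting;
* `stmt_AlphaAll_of`, `stmt_BetaAll_of` : `H65.Stmt_AlphaAll`, `H65.Stmt_BetaAll` from the leaves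
  (`single` along `α`, `unit` along `α`, `β` : helper33);
* `stmt_NuEAll_of_leaves` : `H65.Stmt_NuEAll` from the four leaves.
-/

set_option autoImplicit false
set_option synthInstance.maxHeartbeats 400000
set_option maxHeartbeats 1000000
set_option linter.style.haveILetI false
set_option linter.unusedSectionVars false

noncomputable section

open ModularCurve AlgebraicCurve
open Fermat.Agent.S24 Fermat.Agent.BAD.H88 Fermat.Agent.S28 Fermat.Agent.S28.H73
open Fermat.Agent.RED.H73 Fermat.Agent.RED.H17 Fermat.Agent.S36.NU.H88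
open Fermat.Agent.S36.NU.H23 Fermat.Agent.S45.NUE.H23 Fermat.Agent.S36.NU.H74
open Fermat.Agent.S45.NUE.H96

namespace Fermat.Agent.S45.NUE.H79

open Fermat.Agent.BAD Fermat.Agent.RED Fermat.Agent.S36.NU.H79 Fermat.Agent.S36.NU.H24

attribute [local instance] algkE

/-- **GLUE at the base level** `e = 2` (helper60). -/
theorem stmt_BaseGlueE : Fermat.Agent.S45.NUE.H65.Stmt_BaseGlueE :=
  fun A q M hq _ _ hqM hA ht _ N B k hN hB _ z hz =>
    Fermat.Agent.S45.NUE.H60.glued_totEM_two A N q M B k hN hB hq hqM hA ht z hz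

/-- REG along `α` at every tame setting. -/
def Stmt_RegAlphaAll : Prop :=
  ∀ (A : ValuationSubring Kbar) (q M : ℕ) (hq : q.Prime) [NeZero q] [NeZero M]
    [NeZero (M * q)] [NeZero (M * q * q)]
    (hqM : ¬ q ∣ M) (hA : A.LiesOverPrime q) (ht : H91.TameAt M q),
    Fermat.Agent.S45.NUE.H65.CasesE q M →
    ∀ (e : ℕ) (he : 2 ≤ e) (N : ℕ) (B k B' k' : ℤ) (hN : N = M * q ^ e)
      (hB : B * M + k * (q : ℤ) ^ e = 1) (hN' : N * q = M * q ^ (e + 1))
      (hB' : B' * M + k' * (q : ℤ) ^ (e + 1) = 1) [NeZero N] [NeZero (N * q)],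
      ∀ z ∈ ssM A q M, ∀ h : ↥(L0 A (N * q)),
        (∀ P, (TuE A N q M e B' k' hN' hB' hq hqM hA ht).ρ P = z →
          RegAt P (algebraMap ↥(L0 A (N * q)) (FN (N * q)) h)) →
        ∀ Q, (TlE A N q M e B k hN hB hq hqM hA ht (by omega)).ρ Q = z →
          RegAt Q (algebraMap ↥(L0 A N) (FN N) (nmAlphaE A N q h))

/-- DOUBLE along `α` at every tame setting. -/
def Stmt_DoubleAlphaAll : Prop :=
  ∀ (A : ValuationSubring Kbar) (q M : ℕ) (hq : q.Prime) [NeZero q] [NeZero M]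
    [NeZero (M * q)] [NeZero (M * q * q)]
    (hqM : ¬ q ∣ M) (hA : A.LiesOverPrime q) (ht : H91.TameAt M q),
    Fermat.Agent.S45.NUE.H65.CasesE q M →
    ∀ (e : ℕ) (he : 2 ≤ e) (N : ℕ) (B k B' k' : ℤ) (hN : N = M * q ^ e)
      (hB : B * M + k * (q : ℤ) ^ e = 1) (hN' : N * q = M * q ^ (e + 1))
      (hB' : B' * M + k' * (q : ℤ) ^ (e + 1) = 1) [NeZero N] [NeZero (N * q)],
      Nonempty (DoubleRel (TuE A N q M e B' k' hN' hB' hq hqM hA ht)
        (TlE A N q M e B k hN hB hq hqM hA ht (by omega)) (nmAlphaE A N q) (ssM A q M) id q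
        (⟨e + 1, by omega⟩ : Fin (e + 2)) (⟨e, by omega⟩ : Fin (e + 2)))

/-- SINGLE along `β` at every tame setting. -/
def Stmt_SingleBetaAll : Prop :=
  ∀ (A : ValuationSubring Kbar) (q M : ℕ) (hq : q.Prime) [NeZero q] [NeZero M]
    [NeZero (M * q)] [NeZero (M * q * q)]
    (hqM : ¬ q ∣ M) (hA : A.LiesOverPrime q) (ht : H91.TameAt M q),
    Fermat.Agent.S45.NUE.H65.CasesE q M →
    ∀ (e : ℕ) (he : 2 ≤ e) (N : ℕ) (B k B' k' : ℤ) (hN : N = M * q ^ e)
      (hB : B * M + k * (q : ℤ) ^ e = 1) (hN' : N * q = M * q ^ (e + 1))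
      (hB' : B' * M + k' * (q : ℤ) ^ (e + 1) = 1) [NeZero N] [NeZero (N * q)],
      ∀ i : Fin (e + 2), 2 ≤ (i : ℕ) →
        Nonempty (SingleRel (TuE A N q M e B' k' hN' hB' hq hqM hA ht)
          (TlE A N q M e B k hN hB hq hqM hA ht (by omega)) (nmBetaE A N q) (ssM A q M)
          (betaM A q M hq hqM hA).symm q i)

/-- REG along `β` at every tame setting. -/
def Stmt_RegBetaAll : Prop :=
  ∀ (A : ValuationSubring Kbar) (q M : ℕ) (hq : q.Prime) [NeZero q] [NeZero M]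
    [NeZero (M * q)] [NeZero (M * q * q)]
    (hqM : ¬ q ∣ M) (hA : A.LiesOverPrime q) (ht : H91.TameAt M q),
    Fermat.Agent.S45.NUE.H65.CasesE q M →
    ∀ (e : ℕ) (he : 2 ≤ e) (N : ℕ) (B k B' k' : ℤ) (hN : N = M * q ^ e)
      (hB : B * M + k * (q : ℤ) ^ e = 1) (hN' : N * q = M * q ^ (e + 1))
      (hB' : B' * M + k' * (q : ℤ) ^ (e + 1) = 1) [NeZero N] [NeZero (N * q)],
      ∀ z ∈ ssM A q M, ∀ h : ↥(L0 A (N * q)),
        (∀ P, (TuE A N q M e B' k' hN' hB' hq hqM hA ht).ρ P = z →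
          RegAt P (algebraMap ↥(L0 A (N * q)) (FN (N * q)) h)) →
        ∀ Q, (TlE A N q M e B k hN hB hq hqM hA ht (by omega)).ρ Q
            = (betaM A q M hq hqM hA).symm z →
          RegAt Q (algebraMap ↥(L0 A N) (FN N) (nmBetaE A N q h))

/-- The inputs of the side `α` at every tame setting, from REG and DOUBLE. -/
theorem stmt_AlphaAll_of (hreg : Stmt_RegAlphaAll) (hdouble : Stmt_DoubleAlphaAll) :
    Fermat.Agent.S45.NUE.H65.Stmt_AlphaAll :=
  fun A q M hq _ _ _ _ hqM hA ht hc e he N B k B' k' hN hB hN' hB' _ _ =>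
    ⟨alphaInputs_of A N q M e B k B' k' hN hB hN' hB' hq hqM hA ht (by omega)
      (hreg A q M hq hqM hA ht hc e he N B k B' k' hN hB hN' hB')
      (hdouble A q M hq hqM hA ht hc e he N B k B' k' hN hB hN' hB').some⟩

/-- The inputs of the side `β` at every tame setting, from SINGLE and REG. -/
theorem stmt_BetaAll_of (hsingle : Stmt_SingleBetaAll) (hreg : Stmt_RegBetaAll) :
    Fermat.Agent.S45.NUE.H65.Stmt_BetaAll :=
  fun A q M hq _ _ _ _ hqM hA ht hc e he N B k B' k' hN hB hN' hB' _ _ =>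
    ⟨betaInputs_of A N q M e B k B' k' hN hB hN' hB' hq hqM hA ht (by omega)
      (fun i hi => (hsingle A q M hq hqM hA ht hc e he N B k B' k' hN hB hN' hB' i hi).some)
      (hreg A q M hq hqM hA ht hc e he N B k B' k' hN hB hN' hB')⟩

/-- **`Stmt_NuEAll`** (ND_e at every tame setting) from the four remaining leaves. -/
theorem stmt_NuEAll_of_leaves (hregα : Stmt_RegAlphaAll) (hdoubleα : Stmt_DoubleAlphaAll)
    (hsingleβ : Stmt_SingleBetaAll) (hregβ : Stmt_RegBetaAll) :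
    Fermat.Agent.S45.NUE.H65.Stmt_NuEAll :=
  Fermat.Agent.S45.NUE.H65.stmt_NuEAll_of stmt_BaseGlueE (stmt_AlphaAll_of hregα hdoubleα)
    (stmt_BetaAll_of hsingleβ hregβ)

end Fermat.Agent.S45.NUE.H79
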