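import Fermat.Agent.S45.NUE.H79_GlueTower
import Mathlib.Algebra.CharP.Reduced

/-!
# S45 / NU_e, ND-BASE (helper79): transfer of GLUE between two presentations of a level

The GLUE tower (`SideE.glued_of_double`) starts at the level `M q²`, where GLUE is known for the
conservation datum `totM` of S36 (`NUData.glue`).  helper23's conservation datum `totE` of the
level `M q^e` is a different presentation of the same valuations for `e = 2`.

* `glued_transfer` : GLUE passes from a conservation datum `T₂` to a conservation datum `T` on the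
  same fields if the valuation rings of `T` are those of `T₂` (`σ : ι → ι₂` onto), the fibres of
  the reduction maps agree, and the values of the reductions agree;
* `red_eq_of_pow` : **UNIQ-RED**: two residue maps `r`, `r'` of a valuation ring with values in a
  field of characteristic `p` agree at `f` if they agree at some `x` with
  `r' (f ^ p ^ n) = r' x` (modular: `x` a function of the lower level, the residue extension is
  purely inseparable);
* `hasValue_congr_of_red_eq` : values of equal reductions.
-/

set_option autoImplicit false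
set_option linter.style.haveILetI false

noncomputable section

open AlgebraicCurve

attribute [local instance] Classical.propDecidable

namespace Fermat.Agent.S45.NUE.H79

open Fermat.Agent.RED.H17 Fermat.Agent.RED Fermat.Agent.BAD.H79 Fermat.Agent.BAD
open Fermat.Agent.S36.NU.H79 Fermat.Agent.S36.NU.H24

section Transfer

variable {K L₀ L k Z : Type*} [Field K] [Field L₀] [Field L] [Algebra K L] [Algebra L₀ L]
  [Field k] {ι : Type*} {E : ι → Type*} [Fintype ι] [∀ i, Field (E i)] [∀ i, Algebra k (E i)]
  {ι₂ : Type*} {E₂ : ι₂ → Type*} [Fintype ι₂] [∀ i, Field (E₂ i)] [∀ i, Algebra k (E₂ i)]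

/-- **Transfer of GLUE** between two conservation data on the same fields. -/
theorem glued_transfer (T : TotN K L₀ L k ι Z E) (T₂ : TotN K L₀ L k ι₂ Z E₂) (σ : ι → ι₂)
    (hσ : Function.Surjective σ) (hV : ∀ i, T.V i = T₂.V (σ i)) (z : Z)
    (hρ : ∀ P, T₂.ρ P = z → T.ρ P = z)
    (hval : ∀ (i : ι) (f : L₀), f ∈ T.V i → ∀ c : k,
      (HasValue (T.pt i z) (T.rdN i f) c ↔ HasValue (T₂.pt (σ i) z) (T₂.rdN (σ i) f) c))
    (h : Glued T₂ z) : Glued T z := by
  intro f hf i j c
  have hf₂ : T₂.InR z f := by
    refine ⟨fun i₂ => ?_, fun P hP => hf.2 P (hρ P hP)⟩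
    obtain ⟨i, rfl⟩ := hσ i₂
    rw [← hV]
    exact hf.1 i
  rw [hval i f (hf.1 i) c, hval j f (hf.1 j) c]
  exact h f hf₂ (σ i) (σ j) c

end Transfer

section UniqRed

variable {L₀ C : Type*} [Field L₀] [Field C]

/-- **UNIQ-RED**: two residue maps of a valuation ring with values in a field of characteristic
`p` agree at `f` if `f ^ p ^ n` is congruent to some `x` at which they agree. -/
theorem red_eq_of_pow (p : ℕ) [ExpChar C p] (V : ValuationSubring L₀) (r r' : ↥V →+* C)
    (hker : ∀ x : ↥V, r' x = 0 → r x = 0) (f : ↥V) (n : ℕ) (x : ↥V)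
    (h1 : r' (f ^ p ^ n) = r' x) (h2 : r x = r' x) : r f = r' f := by
  have h3 : r (f ^ p ^ n - x) = 0 := hker _ (by rw [map_sub, h1, sub_self])
  rw [map_sub, sub_eq_zero] at h3
  apply iterateFrobenius_inj C p n
  rw [iterateFrobenius_def, iterateFrobenius_def, ← map_pow, h3, h2, ← h1, map_pow]

/-- Two residue maps with the same kernel which agree on a set `X` of representatives of the
residue field up to `p ^ n`-th powers agree. -/
theorem red_eq_of_forall_pow (p : ℕ) [ExpChar C p] (V : ValuationSubring L₀) (r r' : ↥V →+* C)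
    (hker : ∀ x : ↥V, r' x = 0 → r x = 0)
    (hX : ∀ f : ↥V, ∃ (n : ℕ) (x : ↥V), r' (f ^ p ^ n) = r' x ∧ r x = r' x) : r = r' := by
  ext f
  obtain ⟨n, x, h1, h2⟩ := hX f
  exact red_eq_of_pow p V r r' hker f n x h1 h2

/-- **WHICH-ONE**: two residue maps `r`, `r'` of the same valuation ring, with the same kernel,
cannot differ by a non-trivial power of Frobenius on a set of elements whose `r'`-values contain
a `p ^ n`-th power `y ^ p ^ n` (`n > 0`) whose `r`-value `t` is not a `p`-th power. -/
theorem false_of_pow (p : ℕ) [ExpChar C p] (V : ValuationSubring L₀) (r r' : ↥V →+* C)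
    (hker : ∀ x : ↥V, r' x = 0 → r x = 0) (f x : ↥V) (n : ℕ) (hn : 0 < n)
    (h1 : r' (f ^ p ^ n) = r' x) (t : C) (ht : r x = t) (hnot : ∀ u : C, u ^ p ≠ t) : False := by
  have h3 : r (f ^ p ^ n - x) = 0 := hker _ (by rw [map_sub, h1, sub_self])
  rw [map_sub, sub_eq_zero, map_pow, ht] at h3
  obtain ⟨m, rfl⟩ : ∃ m, n = m + 1 := ⟨n - 1, by omega⟩
  refine hnot (r f ^ p ^ m) ?_
  rw [← pow_mul, ← pow_succ, h3]

end UniqRed

section Value

variable {k E : Type*} [Field k] [Field E] [Algebra k E]

/-- Values of equal functions at equal places. -/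
theorem hasValue_congr {v v' : Place k E} {f f' : E} (hv : v = v') (hf : f = f') (c : k) :
    HasValue v f c ↔ HasValue v' f' c := by
  rw [hv, hf]

end Value

end Fermat.Agent.S45.NUE.H79
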