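import Fermat.Agent.S45.NUE.H88_CuspFinalE
import Fermat.Agent.S45.NUE.H82_CuspDivE

/-!
# S45 / NU_e, E-CUSP / DIV_e in the shape of helper88's final plug (helper82)

* `stmt_EooE_div (he : 1 ≤ e) : H88.Stmt_EooE_div A N q M e B k hN hB hq`.
-/

set_option autoImplicit false
set_option linter.unusedSectionVars false
set_option linter.unusedVariables false

noncomputable section

open Fermat.Agent.S24

namespace Fermat.Agent.S45.NUE.H82

variable (A : ValuationSubring Kbar)
variable (N q M e : ℕ) (B k : ℤ) (hN : N = M * q ^ e) (hB : B * M + k * (q : ℤ) ^ e = 1)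
  (hq : q.Prime) [NeZero N] [NeZero q]

/-- **(DIV_e)**, closed. -/
theorem stmt_EooE_div (he : 1 ≤ e) :
    Fermat.Agent.S45.NUE.H88.Stmt_EooE_div A N q M e B k hN hB hq :=
  fun a b ha hb hab => EooE_div A N q M e B k hN hB hq he a b ha hb hab

end Fermat.Agent.S45.NUE.H82
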