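import Fermat.Agent.S45.NUE.H82_EpsDefs
import Fermat.Agent.S45.NUE.H73_CuspExp

/-!
# S45 / NU_e, package E-CUSP / E-EPS (helper82): the base case, level `M q`

Level `M q`, `q ∤ M` (`B M + k q = 1`), `w = w_q` the Atkin–Lehner involution (`wL`).

* `cuspU_gE_zero` : the expansion at the cusp `0` (`= 1 / M`):
  `cuspU (M q) (gE q M 0) x = (twist (ζ_q^B) (w x))(u^M)`;
* `cuspU_gE_zero_eps` : `cuspU (M q) (gE q M 0) (eps_1) = q¹² / (twist (ζ_q^B) U)(u^M)`.
-/

set_option autoImplicit false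
set_option synthInstance.maxHeartbeats 400000
set_option maxHeartbeats 1000000
set_option linter.unusedSectionVars false
set_option linter.unusedVariables false
set_option linter.style.haveILetI false

noncomputable section

open ModularCurve
open Fermat.Agent.S24 Fermat.Agent.BAD.H88 Fermat.Agent.BAD.H30 Fermat.Agent.BAD.H21
open Fermat.Agent.S28 Fermat.Agent.S28.H73 Fermat.Agent.RED.H73 Fermat.Agent.RED.H17
open Fermat.Agent.S36.NU.H88 Fermat.Agent.S36.NU.H23 Fermat.Agent.S36.NU.H82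
open Fermat.Agent.S45.NUE.H73
open scoped MatrixGroups

namespace Fermat.Agent.S45.NUE.H82

theorem jdF_congr82 (N : ℕ) [NeZero N] {D D' : ℕ} [NeZero D] [NeZero D'] (h : D = D')
    (hD : D ∣ N) (hD' : D' ∣ N) : jdF N D hD = jdF N D' hD' := by
  subst h
  rfl

section Base

variable (q M : ℕ) (B k : ℤ) (hB : B * M + k * q = 1) (hq : q.Prime) [NeZero M] [NeZero q]
  [NeZero (M * q)]

include hB hq

theorem hB_pow_one : B * M + k * (q : ℤ) ^ 1 = 1 := by rw [pow_one]; exact hB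

/-- **The expansion at the cusp `0` of level `M q`**, through `w_q`. -/
theorem cuspU_gE_zero_comp :
    cuspU (M * q) (gE q M 0)
      = (qExpandAlgHomC Kbar M).comp
          ((twistAlg (zetaK q ^ B) (zMid_ne_zero q B)).comp
            ((modularFunctionFieldBar (M * q)).val.comp
              (wL q M B k hB hq : FN (M * q) →ₐ[Kbar] FN (M * q)))) := by
  have hN : M * q = M * q ^ 1 := by rw [pow_one]
  have hB1 : B * (M : ℤ) + k * (q : ℤ) ^ 1 = 1 := hB_pow_one q M B k hB hq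
  have hq0 : 0 < q := hq.pos
  apply algHom_ext_of_adjoin _ (adjoin_jdF (M * q))
  rintro x ⟨D, hD0, hD, rfl⟩
  have hDpos : 0 < D := Nat.pos_of_ne_zero (NeZero.ne D)
  have hval : ∀ y : FN (M * q), (modularFunctionFieldBar (M * q)).val y
      = (y : LaurentSeries Kbar) := fun _ => rfl
  have hco : ∀ y : FN (M * q), ((wL q M B k hB hq : FN (M * q) →ₐ[Kbar] FN (M * q))) y
      = wL q M B k hB hq y := fun _ => rfl
  simp only [AlgHom.comp_apply, qExpandAlgHomC_apply, twistAlg_apply, hval, hco]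
  rcases dvd_cases q M k B (hab_of_hB q M B k hB) hq D hD with ⟨e', he'⟩ | ⟨d, e', rfl, he'⟩
  · -- `D ∣ M`
    haveI : NeZero (D * q) := ⟨(Nat.mul_pos hDpos hq0).ne'⟩
    haveI : NeZero (D * q ^ 0) := ⟨by rw [pow_zero, mul_one]; exact hDpos.ne'⟩
    have hD1 : D * q ^ 0 ∣ M * q := by rw [pow_zero, mul_one]; exact hD
    have e1 : jdF (M * q) D hD = jdF (M * q) (D * q ^ 0) hD1 :=
      jdF_congr82 (M * q) (by rw [pow_zero, mul_one]) hD hD1
    have e2 : (wL q M B k hB hq) (jdF (M * q) D hD)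
        = jdF (M * q) (D * q) (Nat.mul_dvd_mul_right ⟨e', he'⟩ q) :=
      wqHom_jdF q M k B (hab_of_hB q M B k hB) hq D ⟨e', he'⟩
    have hz : (zetaK q ^ B) ^ ((D * q : ℕ) : ℤ) = 1 := by
      rw [zpow_natCast, mul_comm, pow_mul, zMid_pow, one_pow]
    rw [e2, Fermat.Agent.S36.NU.H88.coe_jdF, twist_qExpand, hz, twist_one', e1,
      cuspU_gE_le (M * q) q M 1 B k hN hB1 hq D e' 0 0 he' le_rfl hD1, qExpand_qExpand,
      qExpand_qExpand]
    exact Fermat.Agent.BAD.H73.qExpand_congr (by rw [pow_zero]; ring) _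
  · -- `D = d q`, `d ∣ M`
    have hdpos : 0 < d := by
      rcases Nat.eq_zero_or_pos d with h | h
      · exfalso; apply NeZero.ne (d * q); rw [h, zero_mul]
      · exact h
    haveI : NeZero d := ⟨hdpos.ne'⟩
    haveI : NeZero (d * q ^ 1) := ⟨by rw [pow_one]; exact NeZero.ne _⟩
    haveI : NeZero (q ^ (1 - 0)) := ⟨pow_ne_zero _ hq.ne_zero⟩
    have hM0 : 0 < M := M_pos q M k B (hab_of_hB q M B k hB) hq
    haveI : NeZero (M * d * q ^ (1 - 1 + 2 * 0)) :=
      ⟨(Nat.mul_pos (Nat.mul_pos hM0 hdpos) (pow_pos hq0 _)).ne'⟩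
    haveI : NeZero (M * d) := ⟨(Nat.mul_pos hM0 hdpos).ne'⟩
    have hD1 : d * q ^ 1 ∣ M * q := by rw [pow_one]; exact hD
    have e1 : jdF (M * q) (d * q) hD = jdF (M * q) (d * q ^ 1) hD1 :=
      jdF_congr82 (M * q) (by rw [pow_one]) hD hD1
    have e2 : (wL q M B k hB hq) (jdF (M * q) (d * q) hD)
        = jdF (M * q) d (Dvd.dvd.mul_right ⟨e', he'⟩ q) :=
      wqHom_jdF_mul q M k B (hab_of_hB q M B k hB) hq d ⟨e', he'⟩
    have hz : zetaK (q ^ (1 - 0)) ^ (B * d) = (zetaK q ^ B) ^ ((d : ℕ) : ℤ) := by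
      rw [zetaK_congr (show q ^ (1 - 0) = q by rw [Nat.sub_zero, pow_one]), zpow_mul]
    rw [e2, Fermat.Agent.S36.NU.H88.coe_jdF, twist_qExpand, e1,
      cuspU_gE_gt (M * q) q M 1 B k hN hB1 hq d e' 1 0 he' Nat.zero_lt_one le_rfl hD1, hz,
      qExpand_qExpand]
    exact Fermat.Agent.BAD.H73.qExpand_congr (by simp) _

theorem cuspU_gE_zero (x : FN (M * q)) :
    cuspU (M * q) (gE q M 0) x
      = qExpand Kbar M (twist (zetaK q ^ B)
          ((wL q M B k hB hq x : FN (M * q)) : LaurentSeries Kbar)) :=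
  congrArg (fun f : FN (M * q) →ₐ[Kbar] LaurentSeries Kbar => f x)
    (cuspU_gE_zero_comp q M B k hB hq)

/-- The expansion of `eps_1 = Δ(τ)/Δ(qτ)` at the cusp `0` of level `M q`. -/
theorem cuspU_gE_zero_eps (h : q ^ (0 + 1) ∣ M * q) :
    cuspU (M * q) (gE q M 0) (epsN (M * q) q 0 h)
      = HahnSeries.C ((q : Kbar) ^ 12)
        * (qExpand Kbar M (twist (zetaK q ^ B) (UQ q)))⁻¹ := by
  rw [cuspU_gE_zero q M B k hB hq, epsN_zero, Fermat.Agent.S36.NU.H99.wL_U3 q M B k hB hq]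
  have e1 : (((Fermat.Agent.S36.NU.H99.cq q M ^ 12 * (Fermat.Agent.S36.NU.H99.U3 q M)⁻¹
      : FN (M * q)) : FN (M * q)) : LaurentSeries Kbar)
      = HahnSeries.C ((q : Kbar) ^ 12) * (UQ q)⁻¹ := by
    show ((Fermat.Agent.S36.NU.H99.cq q M : FN (M * q)) : LaurentSeries Kbar) ^ 12
      * ((Fermat.Agent.S36.NU.H99.U3 q M : FN (M * q)) : LaurentSeries Kbar)⁻¹ = _
    have e2 : ((Fermat.Agent.S36.NU.H99.cq q M : FN (M * q)) : LaurentSeries Kbar)
        = HahnSeries.C (q : Kbar) := by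
      show algebraMap Kbar (LaurentSeries Kbar) (q : Kbar) = _
      rw [algebraMap_laurentSeries_eq_single]
      rfl
    rw [e2, ← map_pow]
    rfl
  rw [e1, ← twistAlg_apply (zetaK q ^ B) (zMid_ne_zero q B), map_mul, map_inv₀,
    ← qExpandAlgHomC_apply, map_mul, map_inv₀]
  congr 1
  rw [twistAlg_apply, qExpandAlgHomC_apply, Fermat.Agent.RED.H95.twist_C, qExpand_C]

end Base

end Fermat.Agent.S45.NUE.H82
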