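import Fermat.Agent.S36.NU.H99_Units3L

/-!
# S45 / NU_e, package E-CUSP / E-EPS (helper82): the modular units `eps_i` of level `N`

`UQ q = Δ(t)/Δ(t^q)` (a series with rational coefficients), and for `q^(i+1) ∣ N`

  `epsN N q i = Δ(q^i τ)/Δ(q^(i+1) τ) ∈ F_N`      (`= eps_(i+1)` of helper62's E-VAL spec §6),

with `q`-expansion `UQ(t^(q^i))`.

* `coe_epsN`, `epsN_ne_zero`, `epsN_mem_L0`;
* `alpha_epsN : α (epsN N q i) = epsN (N q) q i`, `beta_epsN : β (epsN N q i) = epsN (N q) q (i+1)`;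
* `epsN_zero : epsN (M q) q 0 = U3 q M` (helper99's unit of level `M q`).
-/

set_option autoImplicit false
set_option synthInstance.maxHeartbeats 400000
set_option maxHeartbeats 1000000
set_option linter.unusedSectionVars false
set_option linter.style.haveILetI false

noncomputable section

open ModularCurve
open Fermat.Agent.S24 Fermat.Agent.BAD.H88 Fermat.Agent.BAD.H30 Fermat.Agent.BAD.H21
open Fermat.Agent.S28 Fermat.Agent.S28.H73 Fermat.Agent.RED.H73 Fermat.Agent.RED.H17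
open Fermat.Agent.S36.NU.H88 Fermat.Agent.S36.NU.H23 Fermat.Agent.S36.NU.H82

namespace Fermat.Agent.S45.NUE.H82

/-- The series `Δ(t)/Δ(t^q)`. -/
def UQ (q : ℕ) [NeZero q] : LaurentSeries Kbar := coeffEmb Kbar (modularUnitSeries q)

theorem coeffEmb_unit_ne_zero (d : ℕ) [NeZero d] :
    coeffEmb Kbar (modularUnitSeries d) ≠ 0 := fun h =>
  unitF_ne_zero d d (dvd_refl d) (Subtype.ext h)

theorem UQ_ne_zero (q : ℕ) [NeZero q] : UQ q ≠ 0 := coeffEmb_unit_ne_zero q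

theorem pow_dvd_of_succ {N q i : ℕ} (h : q ^ (i + 1) ∣ N) : q ^ i ∣ N :=
  (pow_dvd_pow q (Nat.le_succ i)).trans h

section Eps

variable (N q : ℕ) [NeZero N] [NeZero q]

/-- `eps_(i+1) = Δ(q^i τ)/Δ(q^(i+1) τ)`, of level `N`, `q^(i+1) ∣ N`. -/
def epsN (i : ℕ) (h : q ^ (i + 1) ∣ N) : FN N :=
  unitF N (q ^ (i + 1)) h * (unitF N (q ^ i) (pow_dvd_of_succ h))⁻¹

theorem coeffEmb_unit_pow_succ (i : ℕ) :
    coeffEmb Kbar (modularUnitSeries (q ^ (i + 1)))
      = coeffEmb Kbar (modularUnitSeries (q ^ i)) * qExpand Kbar (q ^ i) (UQ q) := by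
  haveI : NeZero (q ^ i * q) := ⟨mul_ne_zero (NeZero.ne _) (NeZero.ne q)⟩
  have h1 : modularUnitSeries (q ^ (i + 1)) = modularUnitSeries (q ^ i * q) := by
    congr 1
  rw [h1, modularUnitSeries_mul, map_mul, UQ, coeffEmb, coeffMap_qExpand]

theorem coe_epsN (i : ℕ) (h : q ^ (i + 1) ∣ N) :
    ((epsN N q i h : FN N) : LaurentSeries Kbar) = qExpand Kbar (q ^ i) (UQ q) := by
  have h0 : coeffEmb Kbar (modularUnitSeries (q ^ i)) ≠ 0 := coeffEmb_unit_ne_zero (q ^ i)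
  show ((unitF N (q ^ (i + 1)) h : FN N) : LaurentSeries Kbar)
      * ((unitF N (q ^ i) (pow_dvd_of_succ h) : FN N) : LaurentSeries Kbar)⁻¹ = _
  rw [unitF_coe, unitF_coe, coeffEmb_unit_pow_succ, mul_comm, ← mul_assoc,
    inv_mul_cancel₀ h0, one_mul]

theorem epsN_ne_zero (i : ℕ) (h : q ^ (i + 1) ∣ N) : epsN N q i h ≠ 0 :=
  mul_ne_zero (unitF_ne_zero N _ _) (inv_ne_zero (unitF_ne_zero N _ _))

theorem epsN_mem_L0 (A : ValuationSubring Kbar) (i : ℕ) (h : q ^ (i + 1) ∣ N) :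
    epsN N q i h ∈ L0 A N := by
  have hU : ∀ (d : ℕ) [NeZero d] (hd : d ∣ N), unitF N d hd ∈ L0 A N := by
    intro d _ hd
    rw [mem_L0_iff_coeffMap]
    intro σ _
    rw [unitF_coe]
    exact coeffMap_coeffEmb σ _
  exact mul_mem (hU _ _) (inv_mem (hU _ _))

/-- `α (eps_i) = eps_i`. -/
theorem alpha_epsN (i : ℕ) (h : q ^ (i + 1) ∣ N) :
    heckeAlphaBar Kbar N q (epsN N q i h) = epsN (N * q) q i (Dvd.dvd.mul_right h q) := by
  apply Subtype.ext
  rw [coe_heckeAlphaBar, coe_epsN, coe_epsN]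

/-- `β (eps_i) = eps_(i+1)`. -/
theorem beta_epsN (i : ℕ) (h : q ^ (i + 1) ∣ N) :
    heckeBetaBar Kbar N q (epsN N q i h)
      = epsN (N * q) q (i + 1) (by rw [pow_succ]; exact Nat.mul_dvd_mul_right h q) := by
  apply Subtype.ext
  rw [coe_heckeBetaBar, coe_epsN, coe_epsN, qExpand_qExpand]
  exact Fermat.Agent.BAD.H73.qExpand_congr (by rw [pow_succ, mul_comm]) _

end Eps

/-- `eps_1` of level `M q` is helper99's unit `U3`. -/
theorem epsN_zero (q M : ℕ) [NeZero M] [NeZero q] [NeZero (M * q)]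
    (h : q ^ (0 + 1) ∣ M * q) : epsN (M * q) q 0 h = Fermat.Agent.S36.NU.H99.U3 q M := by
  apply Subtype.ext
  rw [coe_epsN]
  show qExpand Kbar (q ^ 0) (UQ q) = coeffEmb Kbar (modularUnitSeries q)
  rw [Fermat.Agent.BAD.H73.qExpand_congr (pow_zero q), qExpand_one_apply]
  rfl

end Fermat.Agent.S45.NUE.H82
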