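import Fermat.Agent.S45.NUE.H82_EpsExp
import Fermat.Agent.S45.NUE.H82_EwE
import Fermat.Agent.BAD.H82_FrGauss
import Fermat.Agent.S36.NU.H88_Twist

/-!
# S45 / NU_e, package E-CUSP / E-EPS (helper82): the units `eps_i` at the `e + 1` valuations

Level `N = M q^e`, `1 ≤ e`, `cE b` the normalised expansion at the cusp `1/(q^b M)` (helper23),
`WU q z m = (twist z U)(s^(q^m))`, `U = Δ(t)/Δ(t^q)`, `z` a `q^e`-th root of unity.

* `gaussUnit_WU`, `gaussRedV_WU` : `WU q z m` is a unit of the Gauss ring, with reduction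
  `HU (s^(q^m))` over `q`;
* `uexp_le` : `i < b ≤ e`: `cE b (eps_(i+1)) = WU q 1 (e - 2 b + i)`;
* `uexp_gt` : `b ≤ i < e`: `cE b (q¹² / eps_(i+1)) = WU q z (max e (2 b) - i - 1)`;
* `cE_EwF_self` : `cE a (EwF a)` is `WU q z₁ m` (`a = 0, e`) or `WU q z₁ m * WU q z₂ m`
  (`0 < a < e`), `m = max a (e - a) - 1`;
* `cE_EwF_off` : `a ≠ b`: `cE b (EwF a) = q¹² u`, `u` a unit of the Gauss ring.
-/

set_option autoImplicit false
set_option synthInstance.maxHeartbeats 400000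
set_option maxHeartbeats 1000000
set_option linter.unusedSectionVars false
set_option linter.unusedVariables false
set_option linter.style.haveILetI false

noncomputable section

open ModularCurve
open Fermat.Agent.S24 Fermat.Agent.BAD.H88 Fermat.Agent.BAD.H30
open Fermat.Agent.S28 Fermat.Agent.S28.H73
open Fermat.Agent.S36.NU.H88 Fermat.Agent.S36.NU.H23
open Fermat.Agent.S45.NUE.H73
open Fermat.Agent.RED.H73 (GaussUnit)
open scoped MatrixGroups

namespace Fermat.Agent.S45.NUE.H82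

/-! ## Series -/

section Series

variable (A : ValuationSubring Kbar) (q : ℕ) [NeZero q]

/-- `(twist z U)(s^(q^m))`. -/
def WU (z : Kbar) (m : ℕ) : LaurentSeries Kbar := qExpand Kbar (q ^ m) (twist z (UQ q))

theorem gaussUnit_UQ : GaussUnit A (UQ q) :=
  ⟨qExpand ↥A q (deltaR ↥A), deltaR ↥A, redV_qExpand_deltaR_ne_zero A q, by
    rw [redV_deltaR]; exact deltaR_ne_zero _, unit_gauss_eq A q⟩

theorem ne_zero_of_pow_eq_one82 {z : Kbar} {n : ℕ} (hn : n ≠ 0) (hz : z ^ n = 1) : z ≠ 0 := by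
  rintro rfl
  rw [zero_pow hn] at hz
  exact zero_ne_one hz

/-- A root of unity, as a unit of `A`. -/
def rootUnit (z : Kbar) (n : ℕ) (hn : n ≠ 0) (hz : z ^ n = 1) : (↥A)ˣ where
  val := ⟨z, Fermat.Agent.S28.H48.mem_of_pow_eq_one A hn hz⟩
  inv := ⟨z⁻¹, Fermat.Agent.S28.H48.mem_of_pow_eq_one A hn (by rw [inv_pow, hz, inv_one])⟩
  val_inv := Subtype.ext (mul_inv_cancel₀ (ne_zero_of_pow_eq_one82 hn hz))
  inv_val := Subtype.ext (inv_mul_cancel₀ (ne_zero_of_pow_eq_one82 hn hz))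

theorem coe_rootUnit (z : Kbar) (n : ℕ) (hn : n ≠ 0) (hz : z ^ n = 1) :
    (((rootUnit A z n hn hz : (↥A)ˣ) : ↥A) : Kbar) = z := rfl

/-- Over `q` the residue of a `q^e`-th root of unity is `1`. -/
theorem resV_rootUnit (hq : q.Prime) (hA : A.LiesOverPrime q) (z : Kbar) (e : ℕ)
    (hz : z ^ (q ^ e) = 1) :
    resV A ((rootUnit A z (q ^ e) (pow_ne_zero _ hq.ne_zero) hz : (↥A)ˣ) : ↥A) = 1 := by
  haveI : CharP (kV A) q := Fermat.Agent.BAD.H82.charP_kV A hq hA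
  haveI : Fact q.Prime := ⟨hq⟩
  have h1 : ((rootUnit A z (q ^ e) (pow_ne_zero _ hq.ne_zero) hz : (↥A)ˣ) : ↥A) ^ (q ^ e) = 1 :=
    Subtype.ext hz
  have h2 : (resV A ((rootUnit A z (q ^ e) (pow_ne_zero _ hq.ne_zero) hz : (↥A)ˣ) : ↥A) - 1)
      ^ (q ^ e) = 0 := by
    rw [sub_pow_char_pow, ← map_pow, h1, map_one, one_pow, sub_self]
  exact sub_eq_zero.mp (pow_eq_zero_iff (pow_ne_zero _ hq.ne_zero) |>.mp h2)

theorem GaussUnit.twist82 (u : (↥A)ˣ) {x : LaurentSeries Kbar} (hx : GaussUnit A x) :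
    GaussUnit A (twist ((u : ↥A) : Kbar) x) := by
  obtain ⟨g, h, hg, hh, e⟩ := hx
  have hu0 : ((u : ↥A) : Kbar) ≠ 0 := by
    intro h0
    have : (u : ↥A) = 0 := Subtype.ext h0
    exact u.ne_zero this
  refine ⟨Fermat.Agent.RED.H10.rot u g, Fermat.Agent.RED.H10.rot u h, ?_, ?_, ?_⟩
  · rw [redV_rot]
    exact rot_ne_zero _ hg
  · rw [redV_rot]
    exact rot_ne_zero _ hh
  · rw [iotaV_rot, iotaV_rot, ← Fermat.Agent.RED.H95.twist_mul _ hu0, e]

theorem gaussUnit_twist_UQ (z : Kbar) (n : ℕ) (hn : n ≠ 0) (hz : z ^ n = 1) :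
    GaussUnit A (twist z (UQ q)) :=
  GaussUnit.twist82 A (rootUnit A z n hn hz) (gaussUnit_UQ A q)

theorem gaussUnit_WU (z : Kbar) (n : ℕ) (hn : n ≠ 0) (hz : z ^ n = 1) (m : ℕ) :
    GaussUnit A (WU q z m) :=
  Fermat.Agent.BAD.H82.GaussUnit.Fr A (q ^ m) (gaussUnit_twist_UQ A q z n hn hz)

/-- `HU = (Δ~ ^ (q - 1))⁻¹` is the reduction of `U`. -/
theorem gaussRedV_UQ (hq : q.Prime) (hA : A.LiesOverPrime q) (h : UQ q ∈ gaussRingV A) :
    gaussRedV A ⟨UQ q, h⟩ = HUk A q := by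
  haveI : Fact q.Prime := ⟨hq⟩
  exact gaussRedV_unit_char A q hA h

/-- **The reduction of `WU q z m`** over `q`: `HU (s^(q^m))`. -/
theorem gaussRedV_WU (hq : q.Prime) (hA : A.LiesOverPrime q) (z : Kbar) (e : ℕ)
    (hz : z ^ (q ^ e) = 1) (m : ℕ) (h : WU q z m ∈ gaussRingV A) :
    gaussRedV A ⟨WU q z m, h⟩ = qExpand (kV A) (q ^ m) (HUk A q) := by
  have hn : q ^ e ≠ 0 := pow_ne_zero _ hq.ne_zero
  have h1 : UQ q ∈ gaussRingV A := (gaussUnit_UQ A q).mem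
  have h2 : twist z (UQ q) ∈ gaussRingV A := (gaussUnit_twist_UQ A q z _ hn hz).mem
  have e1 : gaussRedV A ⟨WU q z m, h⟩
      = qExpand (kV A) (q ^ m) (gaussRedV A ⟨twist z (UQ q), h2⟩) :=
    Fermat.Agent.BAD.H73.gaussRedV_qExpand A (q ^ m) h2 h
  have e2 : gaussRedV A ⟨twist z (UQ q), h2⟩ = gaussRedV A ⟨UQ q, h1⟩ :=
    gaussRedV_twist_of_res_eq_one A (rootUnit A z (q ^ e) hn hz)
      (resV_rootUnit A q hq hA z e hz) ⟨UQ q, h1⟩ h2
  rw [e1, e2, gaussRedV_UQ A q hq hA h1]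

theorem const_mem82 (c : Kbar) (hc : c ∈ A) :
    (HahnSeries.C c : LaurentSeries Kbar) ∈ gaussRingV A := by
  have h3 : iotaV A (HahnSeries.C (⟨c, hc⟩ : ↥A)) = (HahnSeries.C c : LaurentSeries Kbar) :=
    coeffMap_single A.subtype 0 _
  rw [← h3]
  exact iotaV_mem_gaussRingV A _

end Series

/-! ## The normalised expansions of the `eps_i` -/

section Exp

variable (N q M e : ℕ) (B k : ℤ) (hN : N = M * q ^ e) (hB : B * M + k * (q : ℤ) ^ e = 1)
  (hq : q.Prime) [NeZero N] [NeZero q]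

open Fermat.Agent.S45.NUE.H23 (cE VE sE neZero_nE)

include hN in
theorem pow_succ_dvd_lvl (i : ℕ) (hi : i < e) : q ^ (i + 1) ∣ N := by
  rw [hN]
  exact Dvd.dvd.mul_left (pow_dvd_pow q (by omega)) M

include hN hB hq in
theorem neZero_M82 : NeZero M := ⟨(posE N q M e B k hN hB hq).ne'⟩

/-- **`i < b ≤ e`**: `cE b (eps_(i+1)) = U (s^(q^(e - 2 b + i)))`. -/
theorem uexp_le (i b : ℕ) (hib : i < b) (hbe : b ≤ e) (h : q ^ (i + 1) ∣ N) :
    cE N q M e B k hN hB hq b (epsN N q i h) = WU q 1 (e - 2 * b + i) := by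
  haveI := neZero_M82 N q M e B k hN hB hq
  haveI := neZero_nE N q M e B k hN hB hq b
  obtain ⟨e', rfl⟩ : ∃ e', e = e' + 1 := ⟨e - 1, by omega⟩
  apply qExpand_injective (R := Kbar) (N := M * q ^ min (e' + 1) (2 * b))
  rw [Fermat.Agent.S45.NUE.H31.qExpand_cE' N q M (e' + 1) B k hN hB hq b,
    le_exp q M hq e' N B k hN hB i b hib h, WU, twist_one', qExpand_qExpand]
  refine Fermat.Agent.BAD.H73.qExpand_congr ?_ _
  rw [hN, mul_assoc, ← pow_add, mul_assoc, ← pow_add]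
  congr 2
  omega

/-- **`b ≤ i < e`**: `cE b (q¹² / eps_(i+1)) = (twist z U)(s^(q^(max e (2 b) - i - 1)))`. -/
theorem uexp_gt (i b : ℕ) (hbi : b ≤ i) (hie : i < e) (h : q ^ (i + 1) ∣ N) :
    ∃ z : Kbar, z ^ (q ^ e) = 1 ∧
      cE N q M e B k hN hB hq b (cqN N q ^ 12 * (epsN N q i h)⁻¹)
        = WU q z (max e (2 * b) - i - 1) := by
  haveI := neZero_M82 N q M e B k hN hB hq
  haveI := neZero_nE N q M e B k hN hB hq b
  obtain ⟨e', rfl⟩ : ∃ e', e = e' + 1 := ⟨e - 1, by omega⟩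
  obtain ⟨z, hz, hexp⟩ := gt_exp' q M hq e' N B k hN hB i b hbi (by omega) h
  refine ⟨z, hz, ?_⟩
  have hW0 : qExpand Kbar (M * q ^ (e' - i + 2 * b)) (twist z (UQ q)) ≠ 0 := by
    intro h0
    have h1 : twist z (UQ q) = 0 :=
      qExpand_injective (R := Kbar) (N := M * q ^ (e' - i + 2 * b)) (by rw [h0, map_zero])
    have hz0 : z ≠ 0 := by
      rintro rfl
      rw [zero_pow (pow_ne_zero _ hq.ne_zero)] at hz
      exact zero_ne_one hz
    exact UQ_ne_zero q (Fermat.Agent.RED.H95.twist_injective z hz0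
      (by rw [h1, ← twistAlg_apply z hz0, map_zero]))
  have hC0 : (HahnSeries.C ((q : Kbar) ^ 12) : LaurentSeries Kbar) ≠ 0 := by
    rw [Ne, map_eq_zero]
    exact pow_ne_zero _ (Nat.cast_ne_zero.mpr hq.ne_zero)
  apply qExpand_injective (R := Kbar) (N := M * q ^ min (e' + 1) (2 * b))
  rw [Fermat.Agent.S45.NUE.H31.qExpand_cE' N q M (e' + 1) B k hN hB hq b, map_mul, map_inv₀,
    map_pow, AlgHom.commutes, hexp, WU, qExpand_qExpand]
  have hidx : M * q ^ min (e' + 1) (2 * b) * q ^ (max (e' + 1) (2 * b) - i - 1)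
      = M * q ^ (e' - i + 2 * b) := by
    rw [mul_assoc, ← pow_add]
    congr 2
    omega
  rw [Fermat.Agent.BAD.H73.qExpand_congr hidx]
  have hCq : (algebraMap Kbar (LaurentSeries Kbar) (q : Kbar)) ^ 12
      = HahnSeries.C ((q : Kbar) ^ 12) := by
    rw [← map_pow, algebraMap_laurentSeries_eq_single]
    rfl
  rw [hCq, mul_inv, inv_inv, ← mul_assoc, mul_inv_cancel₀ hC0, one_mul]

end Exp

end Fermat.Agent.S45.NUE.H82
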