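import Fermat.Agent.S45.NUE.H96_TI3Core
import Fermat.Agent.S36.NU.H99_OrdAbs
import Fermat.Agent.S36.NU.H82_CuspAbs
import Fermat.Agent.S36.NU.H99_Units3L

/-!
# S45 / NU_e, package E-FIN, leaf E-CUSP: abstract assembly at the cusps (helper88)

`C` a chart (`H16.Chart`, ANY `Fintype ι`) cut out of a subring `H` (the integral closure of
`K^ur[u]`, `u = 1 / j`) by its valuation rings, `u ∈ B`, ramification indices `e i` (`ValE`).

* `UnitAtCusp C i u β` : `rd i β = P (rd i u)` with `P ∈ k[X]`, `P(0) ≠ 0` (`β` is a unit at all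
  the cusps of the component `i`); calculus `const`, `one`, `mul`, `pow`, `one_sub_mul`, `congr`,
  `of_red` (from ANY reduction map `s` of `V i`, e.g. a `q`-expansion), `not_mem`;
* `CuspWit C q e u i` : **the cusp witnesses of the component `i`**:
  `E ∈ B` a unit at the cusps of `i`, divisible by `q` in `V i'` for `i' ≠ i`;
  `x ∈ B` with `x ^ e i = q f'`, `f' ∈ V i`; and the unit identity
  `rd i ((E f') ^ m A) = rd i Y`, `Y` a unit at the cusps of `i`, `0 < m`;
  `CuspWit.of_one` : for `e i = 1` only `E` is needed;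
* `cusp_locEqE` : **local equation datum and only one branch** at every prime `𝔪 ∋ u` on the
  component `i`;
* `cusp_pointDataAtE` : **the hypothesis `hptoo` of `H96.ti3_of_trivRed'`** from the witnesses of
  all components and the branches.
-/

set_option autoImplicit false
set_option linter.unusedSectionVars false
set_option linter.style.haveILetI false

noncomputable section

open Polynomial

namespace Fermat.Agent.S45.NUE.H88

open Fermat.Agent.S36.NU.H16 Fermat.Agent.S36.NU.H99 Fermat.Agent.S36.NU.H79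

section Abs

variable {R F k ι : Type*} {κ : ι → Type*} [CommRing R] [Field F] [Algebra R F]
  [Field k] [∀ i, Field (κ i)] [∀ i, Algebra k (κ i)]

variable (C : Chart R F k ι κ)

/-- **`β` is a unit at the cusps of the component `i`**: its residue on the component is a
polynomial in the residue of `u` with non-zero constant coefficient. -/
def UnitAtCusp (i : ι) (u β : C.B) : Prop :=
  ∃ P : k[X], P.coeff 0 ≠ 0 ∧ C.rdB i β = aeval (C.rdB i u) P

namespace UnitAtCusp

variable {C} {i : ι} {u β β' : C.B}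

/-- A unit at the cusps is not in a prime `𝔪 ∋ u` on the component. -/
theorem not_mem (h : UnitAtCusp C i u β) (𝔪 : Ideal C.B) [h𝔪 : 𝔪.IsPrime] (hu : u ∈ 𝔪)
    (hi : C.Icomp i ≤ 𝔪) : β ∉ 𝔪 := by
  obtain ⟨P, hP0, hP⟩ := h
  exact Fermat.Agent.S36.NU.H82.not_mem_of_rd_eq_aeval C 𝔪 u hu i hi β P hP0 hP

theorem congr (h : UnitAtCusp C i u β) (hβ : C.rdB i β' = C.rdB i β) : UnitAtCusp C i u β' := by
  obtain ⟨P, hP0, hP⟩ := h
  exact ⟨P, hP0, hβ.trans hP⟩

theorem const (i : ι) (u : C.B) (r : R) (hr : C.res r ≠ 0) :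
    UnitAtCusp C i u (algebraMap R C.B r) := by
  refine ⟨Polynomial.C (C.res r), ?_, ?_⟩
  · rw [Polynomial.coeff_C_zero]
    exact hr
  · rw [Fermat.Agent.S36.NU.H82.rdB_algebraMap, aeval_C]

theorem one (i : ι) (u : C.B) : UnitAtCusp C i u 1 :=
  ⟨1, by rw [Polynomial.coeff_one_zero]; exact one_ne_zero, by rw [map_one, map_one]⟩

theorem mul (h : UnitAtCusp C i u β) (h' : UnitAtCusp C i u β') : UnitAtCusp C i u (β * β') := by
  obtain ⟨P, hP0, hP⟩ := h
  obtain ⟨P', hP'0, hP'⟩ := h'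
  refine ⟨P * P', ?_, ?_⟩
  · rw [Polynomial.mul_coeff_zero]
    exact mul_ne_zero hP0 hP'0
  · rw [map_mul, map_mul, hP, hP']

theorem pow (h : UnitAtCusp C i u β) (n : ℕ) : UnitAtCusp C i u (β ^ n) := by
  induction n with
  | zero => rw [pow_zero]; exact one i u
  | succ n ih => rw [pow_succ]; exact ih.mul h

/-- `1 - c u` is a unit at the cusps. -/
theorem one_sub_mul (i : ι) (u : C.B) (c : C.B) (r : k)
    (hc : C.rdB i c = algebraMap k (κ i) r) : UnitAtCusp C i u (1 - c * u) := by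
  refine ⟨1 - Polynomial.C r * Polynomial.X, ?_, ?_⟩
  · rw [Polynomial.coeff_sub, Polynomial.coeff_one_zero, Polynomial.coeff_C_mul,
      Polynomial.coeff_X_zero, mul_zero, sub_zero]
    exact one_ne_zero
  · rw [map_sub, map_one, map_mul, hc, map_sub, map_one, map_mul, aeval_C, aeval_X]

/-- **From a reduction map `s` of `V i`** (for instance a `q`-expansion):
`s β = P (s u)`, `P(0) ≠ 0`. -/
theorem of_red (i : ι) {S : Type*} [CommRing S] [Nontrivial S] [Algebra k S]
    (s : ↥(C.V i) →+* S)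
    (hconst : ∀ (r : R) (h : algebraMap R F r ∈ C.V i),
      s ⟨algebraMap R F r, h⟩ = algebraMap k S (C.res r))
    (u β : C.B) (P : k[X]) (h0 : P.coeff 0 ≠ 0)
    (hs : s ⟨(β : F), C.B_le i _ β.2⟩ = aeval (s ⟨(u : F), C.B_le i _ u.2⟩) P) :
    UnitAtCusp C i u β := by
  refine ⟨P, h0, ?_⟩
  obtain ⟨Pt, hPt⟩ := Polynomial.map_surjective C.res C.res_surj P
  -- `s (aeval u Pt) = aeval (s u) P`
  have haev : ∀ Q : R[X], s ⟨((aeval u Q : C.B) : F), C.B_le i _ (aeval u Q).2⟩
      = aeval (s ⟨(u : F), C.B_le i _ u.2⟩) (Q.map C.res) := by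
    intro Q
    induction Q using Polynomial.induction_on' with
    | add p₁ p₂ h₁ h₂ =>
      have e : (⟨((aeval u (p₁ + p₂) : C.B) : F), C.B_le i _ (aeval u (p₁ + p₂)).2⟩ : ↥(C.V i))
          = ⟨((aeval u p₁ : C.B) : F), C.B_le i _ (aeval u p₁).2⟩
            + ⟨((aeval u p₂ : C.B) : F), C.B_le i _ (aeval u p₂).2⟩ := by
        apply Subtype.ext
        change ((aeval u (p₁ + p₂) : C.B) : F) = ((aeval u p₁ : C.B) : F) + ((aeval u p₂ : C.B) : F)
        rw [map_add, Subalgebra.coe_add]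
      rw [e, map_add, h₁, h₂, Polynomial.map_add, map_add]
    | monomial n a =>
      have e : (⟨((aeval u (monomial n a) : C.B) : F), C.B_le i _ (aeval u (monomial n a)).2⟩ :
            ↥(C.V i))
          = ⟨algebraMap R F a, C.B_le i _ (C.B.algebraMap_mem a)⟩
            * ⟨(u : F), C.B_le i _ u.2⟩ ^ n := by
        apply Subtype.ext
        change ((aeval u (monomial n a) : C.B) : F) = algebraMap R F a * (u : F) ^ n
        rw [aeval_monomial, Subalgebra.coe_mul, Subalgebra.coe_pow]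
        rfl
      rw [e, map_mul, map_pow, hconst, Polynomial.map_monomial, aeval_monomial]
  have hsub : ((β - aeval u Pt : C.B) : F) ∈ (C.V i).nonunits := by
    have hm : ((β - aeval u Pt : C.B) : F) ∈ C.V i := C.B_le i _ (β - aeval u Pt).2
    refine mem_nonunits_of_map_eq_zero (C.V i) s ⟨_, hm⟩ ?_
    have e : (⟨((β - aeval u Pt : C.B) : F), hm⟩ : ↥(C.V i))
        = ⟨(β : F), C.B_le i _ β.2⟩
          - ⟨((aeval u Pt : C.B) : F), C.B_le i _ (aeval u Pt).2⟩ := by
      apply Subtype.ext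
      change ((β - aeval u Pt : C.B) : F) = (β : F) - ((aeval u Pt : C.B) : F)
      rw [Subalgebra.coe_sub]
    rw [e, map_sub, hs, haev, hPt, sub_self]
  have h1 : β - aeval u Pt ∈ C.Icomp i := (mem_Icomp_iff_nonunits C i _).2 hsub
  rw [C.mem_Icomp, map_sub, Fermat.Agent.S36.NU.H82.rdB_aeval, hPt, sub_eq_zero] at h1
  exact h1

end UnitAtCusp

/-- **The cusp witnesses of the component `i`** of a chart at infinity. -/
structure CuspWit (q : R) (e : ι → ℕ) (u : C.B) (i : ι) : Prop where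
  he : 0 < e i
  wit : ∃ E : C.B, UnitAtCusp C i u E ∧
    (∀ i', i' ≠ i → ∃ f' ∈ C.V i', (E : F) = algebraMap R F q * f') ∧
    ∃ (x : C.B) (f' : F), f' ∈ C.V i ∧ (x : F) ^ e i = algebraMap R F q * f' ∧
      ∃ (m : ℕ) (A Y : C.B), 0 < m ∧ UnitAtCusp C i u Y ∧
        C.rd i (((E : F) * f') ^ m * (A : F)) = C.rdB i Y

/-- The cusp witnesses of a component of multiplicity one: a unit `E` at its cusps which is
divisible by `q` on the other components. -/
theorem CuspWit.of_one (q : R) (e : ι → ℕ) (u : C.B) (i : ι) (he : e i = 1) (E : C.B)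
    (hE : UnitAtCusp C i u E)
    (hdiv : ∀ i', i' ≠ i → ∃ f' ∈ C.V i', (E : F) = algebraMap R F q * f') :
    CuspWit C q e u i := by
  refine ⟨by omega, E, hE, hdiv, algebraMap R C.B q, 1, (C.V i).one_mem, ?_, 1, 1, E,
    Nat.one_pos, hE, ?_⟩
  · rw [he, pow_one, mul_one]
    rfl
  · rw [mul_one, pow_one, Subalgebra.coe_one, mul_one, C.rd_coe]

/-- The hypotheses on a chart at infinity shared by all its cusps. -/
structure ChartOoE (q : R) (e : ι → ℕ) (H : Subring F) : Prop where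
  hq0 : algebraMap R F q ≠ 0
  hqV : ∀ i, algebraMap R F q ∈ (C.V i).nonunits
  hBH : ∀ x ∈ C.B, x ∈ H
  hqH : (algebraMap R F q)⁻¹ ∈ H
  crit : ∀ f ∈ H, (∀ i, f ∈ C.V i) → f ∈ C.B
  hE : ValE C q e

variable {C}

/-- **E-CUSP, one point**: at a prime `𝔪 ∋ u` of the chart on the component `i` there is a local
equation datum, and `i` is the only component through `𝔪`. -/
theorem cusp_locEqE [Fintype ι] [DecidableEq ι] {q : R} {e : ι → ℕ} {H : Subring F}
    (S : ChartOoE C q e H) {u : C.B} {i : ι} (hw : CuspWit C q e u i)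
    (𝔪 : Ideal C.B) [h𝔪 : 𝔪.IsPrime] (hu : u ∈ 𝔪) (hi : C.Icomp i ≤ 𝔪) :
    Nonempty (LocEq C q 𝔪) ∧ ∀ i', C.Icomp i' ≤ 𝔪 → i' = i := by
  obtain ⟨he, E, hE, hdiv, x, f', hf', hxf, m, A, Y, hm, hY, hrd⟩ := hw
  exact locEq_ord_crit_mid C q S.hq0 S.hqV H S.hBH S.hqH S.crit e S.hE 𝔪 i hi he x E
    (hE.not_mem 𝔪 hu hi) hdiv f' hf' hxf m hm A Y (hY.not_mem 𝔪 hu hi) hrd

variable {Z K L : Type*} [Field K] [Field L] [Algebra K L] [Algebra F L]

/-- **E-CUSP**: the local data (`H96.PointDataAt`) at every closed point `𝔪 ∋ u` of the special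
fibre of the chart at infinity, from the cusp witnesses of all components and the branches;
with `u = 1 / j` this is the hypothesis `hptoo` of `H96.ti3_of_trivRed'`. -/
theorem cusp_pointDataAtE [Fintype ι] [DecidableEq ι] {q : R} {e : ι → ℕ} {H : Subring F}
    (S : ChartOoE C q e H) (G : H96.GlueCore K F L k ι Z κ) (u : F) (huB : u ∈ C.B)
    (hw : ∀ i, CuspWit C q e ⟨u, huB⟩ i)
    (hbr : ∀ 𝔪 : Ideal C.B, 𝔪.IsMaximal → (∀ β : C.B, (β : F) = u → β ∈ 𝔪) →
      ∀ i, C.Icomp i ≤ 𝔪 → Nonempty (Branch C 𝔪 i)) :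
    ∀ 𝔪 : Ideal C.B, 𝔪.IsMaximal → (∃ i, C.Icomp i ≤ 𝔪) →
      (∀ β : C.B, (β : F) = u → β ∈ 𝔪) → H96.PointDataAt C G q 𝔪 := by
  intro 𝔪 hmax hex hu
  haveI : 𝔪.IsPrime := hmax.isPrime
  obtain ⟨i, hi⟩ := hex
  obtain ⟨hL, h1⟩ := cusp_locEqE S (hw i) 𝔪 (hu _ rfl) hi
  exact ⟨hbr 𝔪 hmax hu, hL, Or.inl ⟨i, h1⟩⟩

end Abs

end Fermat.Agent.S45.NUE.H88
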