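import Fermat.Agent.S45.NUE.H88_CuspFinalE
import Fermat.Agent.S45.NUE.H82_CuspDivE
import Fermat.Agent.S45.NUE.H73_CuspWE
import Fermat.Agent.S45.NUE.H17_BranchE2
import Fermat.Agent.S45.NUE.H74_ChartEInst
import Fermat.Agent.S45.NUE.H96_FinLocalE

/-!
# S45 / NU_e, package E-FIN, leaf E-CUSP: the UNCONDITIONAL local data at the cusps (helper88)

Level `N = M q^e`, `q ∤ M`, `M` tame at `q`, `1 ≤ e`, `T = totEM` (helper23),
`C = chartInfE A N T h` (helper74).

* `stmt_EooE_div` : (DIV_e), from helper82's `H82.EooE_div`;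
* `stmt_CuspW` : (CUSP-W_e), from helper73's `H73.cuspWE`;
* `hbrooE_totEM` : the branches at the cusps, from helper17's `H17.branch_chartInfE`;
* `hptooE_totEM_G` : **`hptoo` of `H65.finModE_of`** (`H96.PointDataAt`, any gluing core);
* `hptooE_totEM_T` : **`hptoo` of `H65.LeavesE` / `finModE_charts_T`** (`H96.PointDataAtT`, any
  set `SS` of multiple points).
-/

set_option autoImplicit false
set_option synthInstance.maxHeartbeats 400000
set_option maxHeartbeats 1000000
set_option linter.style.haveILetI false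
set_option linter.unusedSectionVars false
set_option linter.unusedVariables false

noncomputable section

open ModularCurve AlgebraicCurve Polynomial IntermediateField
open Fermat.Agent.S24 Fermat.Agent.BAD.H88 Fermat.Agent.S28 Fermat.Agent.S28.H73
open Fermat.Agent.RED.H73 Fermat.Agent.RED.H17 Fermat.Agent.S36.NU.H88
open Fermat.Agent.S36.NU.H23 Fermat.Agent.S36.NU.H41 Fermat.Agent.S36.NU.H17
open Fermat.Agent.S36.NU.H16 Fermat.Agent.S36.NU.H65 Fermat.Agent.BAD
open Fermat.Agent.S45.NUE.H23 Fermat.Agent.S45.NUE.H74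
open Fermat.Agent.S45.NUE.H73 (uooE KooE EooE xooE fooE)

namespace Fermat.Agent.S45.NUE.H88

section Closed

variable (A : ValuationSubring Kbar)
variable (N q M e : ℕ) (B k : ℤ) (hN : N = M * q ^ e) (hB : B * M + k * (q : ℤ) ^ e = 1)
  (hq : q.Prime) [NeZero N] [NeZero q]

/-- **(DIV_e)** holds. -/
theorem stmt_EooE_div (he : 1 ≤ e) : Stmt_EooE_div A N q M e B k hN hB hq :=
  fun a b ha hb hab => Fermat.Agent.S45.NUE.H82.EooE_div A N q M e B k hN hB hq he a b ha hb hab

/-- **(CUSP-W_e)** holds. -/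
theorem stmt_CuspW (hA : A.LiesOverPrime q) : Stmt_CuspW A N q M e B k hN hB hq := by
  intro a ha hae h1 h2 hu hE
  obtain ⟨hu', hE', hf, c, hc, hW⟩ :=
    Fermat.Agent.S45.NUE.H73.cuspWE A N q M e B k hN hB hq hA a ha hae h1 h2
  refine ⟨hf, 12, 1, 0, q ^ (a - 1), 6 * (q - 1), c, 1728, by norm_num, pow_pos hq.pos _, hc, ?_⟩
  rw [pow_one, pow_zero, mul_one, algebraMap_eq_C_laurentE, algebraMap_eq_C_laurentE]
  exact hW

end Closed

section Final

variable (A : ValuationSubring Kbar)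
variable (N q M e : ℕ) (B k : ℤ) (hN : N = M * q ^ e) (hB : B * M + k * (q : ℤ) ^ e = 1)
  (hq : q.Prime) [NeZero N] [NeZero q] [NeZero M] (hqM : ¬ q ∣ M) (hA : A.LiesOverPrime q)
  (ht : H91.TameAt M q)

attribute [local instance] algkE

/-- **The branches at the cusps** of the chart at infinity of the modular conservation datum. -/
theorem hbrooE_totEM (he : 0 < e)
    (h : ChartInE A N (totEM A N q M e B k hN hB hq hqM hA ht he)) :
    ∀ 𝔪 : Ideal (chartInfE A N (totEM A N q M e B k hN hB hq hqM hA ht he) h).B,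
      𝔪.IsMaximal →
      (∀ β : (chartInfE A N (totEM A N q M e B k hN hB hq hqM hA ht he) h).B,
        (β : ↥(L0 A N)) = (j0 A N)⁻¹ → β ∈ 𝔪) →
      ∀ i, (chartInfE A N (totEM A N q M e B k hN hB hq hqM hA ht he) h).Icomp i ≤ 𝔪 →
        Nonempty (Branch (chartInfE A N (totEM A N q M e B k hN hB hq hqM hA ht he) h) 𝔪 i) := by
  refine Fermat.Agent.S45.NUE.H17.branch_chartInfE A N q M e B k hN hB hq
    (chartInfE A N (totEM A N q M e B k hN hB hq hqM hA ht he) h)
    (fun i : Fin (e + 1) => (i : ℕ)) (fun _ => AlgHom.id (kV A) (FM A M))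
    (fun i => Nat.lt_succ_iff.mp i.2) (fun _ => rfl) (fun _ _ _ _ => rfl) hqM hA
    (inv_j0_mem_chartInfE A N _ h) (fun β => β.2) ?_ ?_
  · intro f hf₁ hf₂
    exact (Fermat.Agent.S45.NUE.H74.chartOoE_chartInfE A N q M e B k hN hB hq hqM hA ht he
      h).crit f hf₁ hf₂
  · refine Fermat.Agent.S45.NUE.H17.isIntegral_jE_Rur A N q M e B k hN hB hq ?_
    intro f hf₁ hf₂
    exact Fermat.Agent.S45.NUE.H74.critE_totEM A N q M e B k hN hB hq hqM hA ht he h f hf₁
      (fun i => hf₂ (i : ℕ) (Nat.lt_succ_iff.mp i.2))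

variable {Z K L : Type*} [Field K] [Field L] [Algebra K L] [Algebra ↥(L0 A N) L]

/-- **E-CUSP, unconditional**: the hypothesis `hptoo` of `H65.finModE_of` for the modular
conservation datum and any gluing core. -/
theorem hptooE_totEM_G (he : 0 < e)
    (h : ChartInE A N (totEM A N q M e B k hN hB hq hqM hA ht he))
    (G : H96.GlueCore K ↥(L0 A N) L (kV A) (Fin (e + 1)) Z (kapE A M e)) :
    ∀ 𝔪 : Ideal (chartInfE A N (totEM A N q M e B k hN hB hq hqM hA ht he) h).B,
      𝔪.IsMaximal →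
      (∃ i, (chartInfE A N (totEM A N q M e B k hN hB hq hqM hA ht he) h).Icomp i ≤ 𝔪) →
      (∀ β : (chartInfE A N (totEM A N q M e B k hN hB hq hqM hA ht he) h).B,
        (β : ↥(L0 A N)) = (j0 A N)⁻¹ → β ∈ 𝔪) →
      H96.PointDataAt (chartInfE A N (totEM A N q M e B k hN hB hq hqM hA ht he) h) G
        ((q : ℕ) : ↥(Rur A)) 𝔪 :=
  hptooE_totEM A N q M e B k hN hB hq hqM hA ht he h G
    (stmt_EooE_div A N q M e B k hN hB hq he) (stmt_CuspW A N q M e B k hN hB hq hA)
    (hbrooE_totEM A N q M e B k hN hB hq hqM hA ht he h)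

/-- **E-CUSP, unconditional**: the hypothesis `hptoo` of `H65.LeavesE` /
`H65.finModE_charts_T` for the modular conservation datum and any set `SS` of multiple
points. -/
theorem hptooE_totEM_T (he : 0 < e)
    (h : ChartInE A N (totEM A N q M e B k hN hB hq hqM hA ht he))
    (SS : Set (Place (kV A) (FM A M))) :
    ∀ 𝔪 : Ideal (chartInfE A N (totEM A N q M e B k hN hB hq hqM hA ht he) h).B,
      𝔪.IsMaximal →
      (∃ i, (chartInfE A N (totEM A N q M e B k hN hB hq hqM hA ht he) h).Icomp i ≤ 𝔪) →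
      (∀ β : (chartInfE A N (totEM A N q M e B k hN hB hq hqM hA ht he) h).B,
        (β : ↥(L0 A N)) = (j0 A N)⁻¹ → β ∈ 𝔪) →
      Fermat.Agent.S45.NUE.H96.PointDataAtT
        (chartInfE A N (totEM A N q M e B k hN hB hq hqM hA ht he) h)
        (totEM A N q M e B k hN hB hq hqM hA ht he) SS ((q : ℕ) : ↥(Rur A)) 𝔪 := by
  intro 𝔪 hmax hex hu
  -- the gluing core without multiple points
  let G₀ : H96.GlueCore Kbar ↥(L0 A N) (FN N) (kV A) (Fin (e + 1)) (Place (kV A) (FM A M))
      (kapE A M e) :=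
    { T := totEM A N q M e B k hN hB hq hqM hA ht he
      SS := ∅
      glue := fun z hz => absurd hz (Set.notMem_empty z)
      deg_one := fun z hz => absurd hz (Set.notMem_empty z) }
  obtain ⟨hbr, hL, hcase⟩ :=
    hptooE_totEM_G A N q M e B k hN hB hq hqM hA ht he h G₀ 𝔪 hmax hex hu
  refine ⟨hbr, hL, ?_⟩
  rcases hcase with h1 | ⟨z, hz, _⟩
  · exact Or.inl h1
  · exact absurd hz (Set.notMem_empty z)

end Final

end Fermat.Agent.S45.NUE.H88
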