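import Fermat.Agent.S45.NUE.H79_NuEAll
import Fermat.Agent.S45.NUE.H96_RegE

/-!
# S45 / NU_e, package ND_e, leaf ND-REG (helper96): `Stmt_RegAlphaAll`, `Stmt_RegBetaAll`

The two REG leaves of helper79's `stmt_NuEAll_of_leaves` (`H79_NuEAll.lean`), from
`regE_alpha_T`, `regE_beta_T` (`H96_RegE.lean`): the reduction map `rhoE` of helper23's
`totEM` is helper41's `rhoLvl` (`rhoE_eq_rhoLvl`, by `rfl`).

* `rhoE_eq_rhoLvl`;
* `regAlpha_totEM`, `regBeta_totEM` : the field `SideE.reg` for `TuE` over `TlE`;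
* **`stmt_RegAlphaAll`**, **`stmt_RegBetaAll`**.
-/

set_option autoImplicit false
set_option synthInstance.maxHeartbeats 400000
set_option maxHeartbeats 400000
set_option linter.style.haveILetI false
set_option linter.unusedSectionVars false

noncomputable section

open ModularCurve AlgebraicCurve

namespace Fermat.Agent.S45.NUE.H96

open Fermat.Agent.S24 Fermat.Agent.BAD Fermat.Agent.BAD.H88 Fermat.Agent.Lib.HeckeComm
  Fermat.Agent.S28 Fermat.Agent.S28.H73 Fermat.Agent.RED.H73 Fermat.Agent.RED.H17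
  Fermat.Agent.RED Fermat.Agent.S36.NU.H88 Fermat.Agent.S36.NU.H23 Fermat.Agent.S36.NU.H79
  Fermat.Agent.S36.NU.H74 Fermat.Agent.S45.NUE.H41P Fermat.Agent.S45.NUE.H79
  Fermat.Agent.S45.NUE.H23

attribute [local instance] algkE

section RegAll

variable (A : ValuationSubring Kbar) (N q M e : ℕ) (B k B' k' : ℤ)
  (hN : N = M * q ^ e) (hB : B * M + k * (q : ℤ) ^ e = 1)
  (hN' : N * q = M * q ^ (e + 1)) (hB' : B' * M + k' * (q : ℤ) ^ (e + 1) = 1)
  (hq : q.Prime) [NeZero N] [NeZero q] [NeZero (N * q)] [NeZero M] [NeZero (M * q)]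
  [NeZero (M * q * q)] (hqM : ¬ q ∣ M) (hA : A.LiesOverPrime q) (ht : H91.TameAt M q)
  (he : 0 < e)

/-- The reduction map of `totEM` is `rhoLvl`. -/
theorem rhoE_eq_rhoLvl (P : Place Kbar (FN N)) :
    rhoE A N q M e hN hq hqM hA ht P
      = rhoLvl A q M N hq hqM hA ht (Fermat.Agent.S45.NUE.H23.hleE N q M e hN) P := rfl

/-- **REG along `α`** for `TuE` over `TlE`. -/
theorem regAlpha_totEM :
    ∀ z ∈ ssM A q M, ∀ h : ↥(L0 A (N * q)),
      (∀ P, (TuE A N q M e B' k' hN' hB' hq hqM hA ht).ρ P = z →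
        RegAt P (algebraMap ↥(L0 A (N * q)) (FN (N * q)) h)) →
      ∀ Q, (TlE A N q M e B k hN hB hq hqM hA ht he).ρ Q = z →
        RegAt Q (algebraMap ↥(L0 A N) (FN N) (nmAlphaE A N q h)) :=
  regE_alpha_T A q M N hq hqM hA ht (Fermat.Agent.S45.NUE.H23.hleE N q M e hN)
    (Fermat.Agent.S45.NUE.H23.hleE (N * q) q M (e + 1) hN')
    (TuE A N q M e B' k' hN' hB' hq hqM hA ht) (TlE A N q M e B k hN hB hq hqM hA ht he)
    (fun P => rhoE_eq_rhoLvl A (N * q) q M (e + 1) hN' hq hqM hA ht P)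
    (fun Q => rhoE_eq_rhoLvl A N q M e hN hq hqM hA ht Q) (ssM A q M)

/-- **REG along `β`** for `TuE` over `TlE`. -/
theorem regBeta_totEM :
    ∀ z ∈ ssM A q M, ∀ h : ↥(L0 A (N * q)),
      (∀ P, (TuE A N q M e B' k' hN' hB' hq hqM hA ht).ρ P = z →
        RegAt P (algebraMap ↥(L0 A (N * q)) (FN (N * q)) h)) →
      ∀ Q, (TlE A N q M e B k hN hB hq hqM hA ht he).ρ Q = (betaM A q M hq hqM hA).symm z →
        RegAt Q (algebraMap ↥(L0 A N) (FN N) (nmBetaE A N q h)) :=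
  regE_beta_T A q M N hq hqM hA ht (Fermat.Agent.S45.NUE.H23.hleE N q M e hN)
    (Fermat.Agent.S45.NUE.H23.hleE (N * q) q M (e + 1) hN') ⟨q ^ e, hN⟩
    (TuE A N q M e B' k' hN' hB' hq hqM hA ht) (TlE A N q M e B k hN hB hq hqM hA ht he)
    (fun P => rhoE_eq_rhoLvl A (N * q) q M (e + 1) hN' hq hqM hA ht P)
    (fun Q => rhoE_eq_rhoLvl A N q M e hN hq hqM hA ht Q) (ssM A q M) (fun _ h => h)

end RegAll

/-- **`Stmt_RegAlphaAll`**: REG along `α` at every tame setting. -/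
theorem stmt_RegAlphaAll : Fermat.Agent.S45.NUE.H79.Stmt_RegAlphaAll :=
  fun A q M hq _ _ _ _ hqM hA ht _ e he N B k B' k' hN hB hN' hB' _ _ =>
    regAlpha_totEM A N q M e B k B' k' hN hB hN' hB' hq hqM hA ht (by omega)

/-- **`Stmt_RegBetaAll`**: REG along `β` at every tame setting. -/
theorem stmt_RegBetaAll : Fermat.Agent.S45.NUE.H79.Stmt_RegBetaAll :=
  fun A q M hq _ _ _ _ hqM hA ht _ e he N B k B' k' hN hB hN' hB' _ _ =>
    regBeta_totEM A N q M e B k B' k' hN hB hN' hB' hq hqM hA ht (by omega)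

end Fermat.Agent.S45.NUE.H96
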