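import Fermat.Agent.S45.NUE.H96_TI3Core
import Fermat.Agent.S36.NU.H65_Inst2
import Fermat.Agent.S36.NU.H74_InstA
import Fermat.Agent.S36.NU.H15_InstB

/-!
# S45 / NU_e, package E-FIN: TI3 for a gluing core over the inertia-fixed functions (helper96)

The modular wrapper of `H96.ti3_of_trivRed'` at an ARBITRARY level `N` (`A` over `q`,
`R = Rur A`, `F = L0 A N`, `j = j0 A N`), for a gluing core `G` with ANY number of components:
the instances (noetherian, fraction ring), `hfg`, `n` invertible, `q ≠ 0` not a unit and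
"integral over `Rur A` ⟹ constant" are discharged by the landed S36 providers (helper74 INST-A,
helper15 INST-B, helper65), which are generic in the level.

* `hor_core` : (HOR) in every chart, with the exponent `E₀` of helper44's `stmt_HOR`;
* `ti3Core_point` : ONE exponent `n` prime to `q`, ONE function `H` with (HOR) in both charts and
  trivial reduction data ⟹ `H * s ^ n` is a constant for some `s ≠ 0` fixed by inertia.
-/

set_option autoImplicit false
set_option synthInstance.maxHeartbeats 400000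
set_option maxHeartbeats 1000000
set_option linter.style.haveILetI false
set_option linter.unusedSectionVars false

noncomputable section

open ModularCurve AlgebraicCurve IntermediateField

attribute [local instance] Classical.propDecidable

namespace Fermat.Agent.S45.NUE.H96

open Fermat.Agent.RED.H17 Fermat.Agent.RED Fermat.Agent.S36.NU.H16 Fermat.Agent.S36.NU.H79
  Fermat.Agent.S36.NU.H65 Fermat.Agent.S36.NU.H17 Fermat.Agent.S36.NU.H24
  Fermat.Agent.S24 Fermat.Agent.BAD.H88 Fermat.Agent.S36.NU.H23 Fermat.Agent.S36.NU.H41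
  Fermat.Agent.S36.NU.H88 Fermat.Agent.S36.NU.H74

section Modular

variable (A : ValuationSubring Kbar) (q N : ℕ) (hq : q.Prime) [NeZero N]
  {kk ι Z K L : Type*} {κ : ι → Type*} [Field kk] [∀ i, Field (κ i)]
  [∀ i, Algebra kk (κ i)] [Fintype ι] [Field K] [Field L] [Algebra K L]
  [Algebra ↥(L0 A N) L]

include hq in
/-- **TI3 for a gluing core, modular wrapper, pointwise form**: at the level `N`, for ONE
exponent `n` prime to `q` and ONE function `H ≠ 0` (a unit for the reductions of `G`, with (HOR)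
in both charts and trivial reduction data), `H` is a constant times an `n`-th power of an
`I`-fixed function. -/
theorem ti3Core_point [IsAlgClosed kk] (hA : A.LiesOverPrime q)
    (G : GlueCore K ↥(L0 A N) L kk ι Z κ)
    (C0 Coo : Chart ↥(Rur A) ↥(L0 A N) kk ι κ)
    (hc0 : Compat C0 G.T) (hcoo : Compat Coo G.T) (hP : HasPrincipalDivisors K L)
    (hB0 : C0.B = intSub ↥(Rur A) (j0 A N))
    (hBoo : Coo.B = intSub ↥(Rur A) (j0 A N)⁻¹)
    (qn n : ℕ) (hcop : Nat.Coprime n q)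
    (hchart0 : ChartHyp C0 qn n) (hchartoo : ChartHyp Coo qn n)
    (hpt0 : PointData C0 G ((q : ℕ) : ↥(Rur A)))
    (hptoo : ∀ 𝔪 : Ideal Coo.B, 𝔪.IsMaximal → (∃ i, Coo.Icomp i ≤ 𝔪) →
      (∀ β : Coo.B, (β : ↥(L0 A N)) = (j0 A N)⁻¹ → β ∈ 𝔪) →
      PointDataAt Coo G ((q : ℕ) : ↥(Rur A)) 𝔪)
    (hrad0 : ∀ β ∈ C0.B, (∀ i, C0.rd i β = 0) → IsRadQ C0.B ((q : ℕ) : ↥(Rur A)) β)
    (hradoo : ∀ β ∈ Coo.B, (∀ i, Coo.rd i β = 0) → IsRadQ Coo.B ((q : ℕ) : ↥(Rur A)) β)
    (H : ↥(L0 A N)) (H0 : H ≠ 0) (hu : ∀ i, G.T.rdN i H ≠ 0)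
    (hHOR0 : HOR C0 ((q : ℕ) : ↥(Rur A)) n H) (hHORoo : HOR Coo ((q : ℕ) : ↥(Rur A)) n H)
    (htriv : G.TrivRed n H) :
    ∃ (s : ↥(L0 A N)) (c : Kbar), s ≠ 0 ∧
      (H : FN N) * (s : FN N) ^ n = algebraMap Kbar (FN N) c := by
  haveI := isDiscreteValuationRing_Rur A q hq hA
  haveI : IsNoetherianRing ↥C0.B := isNoetherianRing_chart A q hq hA N C0 (Or.inl hB0)
  haveI : IsFractionRing ↥C0.B ↥(L0 A N) := isFractionRing_chart A N C0 (Or.inl hB0)
  haveI : IsNoetherianRing ↥Coo.B := isNoetherianRing_chart A q hq hA N Coo (Or.inr hBoo)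
  haveI : IsFractionRing ↥Coo.B ↥(L0 A N) := isFractionRing_chart A N Coo (Or.inr hBoo)
  -- `n` is invertible in `R`
  obtain ⟨n', hnn⟩ := (isUnit_natCast_Rur A q hq hA n hcop).exists_right_inv
  have hq0 : ((q : ℕ) : ↥(Rur A)) ≠ 0 := by exact_mod_cast hq.ne_zero
  have hqu : ¬ IsUnit ((q : ℕ) : ↥(Rur A)) := (irreducible_natCast A q hq hA).not_isUnit
  obtain ⟨s, hs0, hsint⟩ := ti3_of_trivRed' G ↥(Kur A) C0 Coo hc0 hcoo hP qn n hchart0 hchartoo
    (j0 A N) (transcendental_j0 A N) hB0 hBoo ((q : ℕ) : ↥(Rur A)) hq0 hqu n'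
    hnn hpt0 hptoo hrad0 hradoo H H0 hu hHOR0 hHORoo
    (hfg_inv A q hq hA N H H0 n hchart0.n_pos) htriv
  obtain ⟨c, hc⟩ := Fermat.Agent.S36.NU.H15.hconst_L0 A N _ hsint
  exact ⟨s, c, hs0, by rw [← hc]; rfl⟩

end Modular

end Fermat.Agent.S45.NUE.H96
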