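import Fermat.Agent.S45.NUE.H17_RedGen

/-!
# S45 / NU_e, leaf E-PT-ORD / SS-FUN (helper99): the functions `x (q^i τ)` of level `M q^e`

`N = M q^e`, `B M + k q^e = 1`, `cE a`, `VE a`, `sE a` the normalised expansion, the valuation and
the residue map at the cusp `1/(q^a M)` (helper23, helper73).  For a function `x` of the good
level `M` and `0 ≤ i ≤ e`:

* `incQ i : F_M →ₐ F_N`, `x ↦ x (q^i τ)` (`coe_incQ` is `rfl`; helper17's `inclusion` is `i = 0`,
  `betaE` is `i = e`), `incQ_jdF`, `incQ_mem_L0`, `incL0 i` on the inertia-fixed functions;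
* `cE_incQ_le` : `i ≤ a`     ⟹ `cE a (x (q^i τ)) = x (s^(q^(e - 2 a + i)))`;
* `cE_incQ_gt` : `a < i ≤ e` ⟹ `cE a (x (q^i τ)) = (twist z_a) (x (s^(q^(max(e, 2 a) - i))))`;
* `incL0_mem_VE` : `x ∈ VE₀ ⟹ x (q^i τ) ∈ VE a` for every `a`;
* `sE_incL0_le`, `sE_incL0_gt`, `sE_incL0` : `sE a (x (q^i τ)) = (sE₀ x)(s^(q^(ν_a i)))`,
  `ν_a i = nuE e a i`.
-/

set_option autoImplicit false
set_option synthInstance.maxHeartbeats 400000
set_option maxHeartbeats 1000000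
set_option linter.unusedSectionVars false
set_option linter.unusedVariables false
set_option linter.style.haveILetI false

noncomputable section

namespace Fermat.Agent.S45.NUE.H99

open Fermat.Agent.S24 Fermat.Agent.BAD.H88 ModularCurve AlgebraicCurve
open Fermat.Agent.S28 Fermat.Agent.S28.H73 Fermat.Agent.RED.H73 Fermat.Agent.RED.H17
open Fermat.Agent.S36.NU.H88
open Fermat.Agent.S45.NUE.H23 Fermat.Agent.S45.NUE.H17
open Fermat.Agent.S45.NUE.H73 (zE zE_pow rootUnit coe_rootUnit resV_rootUnit jdF_congr posE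
  dvdE_cases)
open scoped MatrixGroups

local notation "L0" => Fermat.Agent.S36.NU.H23.L0
local notation "VE0" => Fermat.Agent.S36.NU.H23.VE0
local notation "sE0" => Fermat.Agent.S36.NU.H23.sE

section Level

variable (A : ValuationSubring Kbar)
variable (N q M e : ℕ) (B k : ℤ) (hN : N = M * q ^ e) (hB : B * M + k * (q : ℤ) ^ e = 1)
  (hq : q.Prime) [NeZero N] [NeZero q] [NeZero M]

include hN in
theorem dvd_incQ (i : ℕ) (hi : i ≤ e) : M * q ^ i ∣ N := by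
  rw [hN]
  exact Nat.mul_dvd_mul_left M (pow_dvd_pow q hi)

/-- `x ↦ x (q^i τ)` : `F_M → F_N`, `i ≤ e`. -/
def incQ (i : ℕ) (hi : i ≤ e) : FN M →ₐ[Kbar] FN N where
  toFun x := ⟨qExpand Kbar (q ^ i) (x : LaurentSeries Kbar), by
    haveI : NeZero (q ^ i) := ⟨pow_ne_zero _ (NeZero.ne q)⟩
    exact Fermat.Agent.S36.NU.H82.FM_le_of_dvd N (M * q ^ i) (dvd_incQ N q M e hN i hi)
      (heckeBetaBar Kbar M (q ^ i) x).2⟩
  map_one' := Subtype.ext (map_one (qExpand Kbar (q ^ i)))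
  map_mul' _ _ := Subtype.ext (map_mul (qExpand Kbar (q ^ i)) _ _)
  map_zero' := Subtype.ext (map_zero (qExpand Kbar (q ^ i)))
  map_add' _ _ := Subtype.ext (map_add (qExpand Kbar (q ^ i)) _ _)
  commutes' c := Subtype.ext (by
    haveI : NeZero (q ^ i) := ⟨pow_ne_zero _ (NeZero.ne q)⟩
    show qExpand Kbar (q ^ i) (algebraMap Kbar (LaurentSeries Kbar) c)
      = algebraMap Kbar (LaurentSeries Kbar) c
    rw [algebraMap_laurentSeries_eq_single, qExpand_single, mul_zero])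

theorem coe_incQ (i : ℕ) (hi : i ≤ e) (x : FN M) :
    ((incQ N q M e hN i hi x : FN N) : LaurentSeries Kbar)
      = qExpand Kbar (q ^ i) (x : LaurentSeries Kbar) := rfl

theorem incQ_jdF (i : ℕ) (hi : i ≤ e) (d : ℕ) [NeZero d] (hd : d ∣ M) [NeZero (d * q ^ i)]
    (hD : d * q ^ i ∣ N) :
    incQ N q M e hN i hi (jdF M d hd) = jdF N (d * q ^ i) hD := by
  haveI : NeZero (q ^ i) := ⟨pow_ne_zero _ (NeZero.ne q)⟩
  apply Subtype.ext
  rw [coe_incQ, coe_jdF, coe_jdF, qExpand_qExpand]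
  exact qExpand_congr (mul_comm _ _) _

/-- `i = e` is helper17's `betaE`. -/
theorem incQ_top (x : FN M) : incQ N q M e hN e le_rfl x = betaE N q M e hN x := rfl

/-- `i = 0` is the inclusion. -/
theorem incQ_zero (hle : modularFunctionFieldBar M ≤ modularFunctionFieldBar N) (x : FN M) :
    incQ N q M e hN 0 (Nat.zero_le e) x = IntermediateField.inclusion hle x := by
  apply Subtype.ext
  rw [coe_incQ, IntermediateField.coe_inclusion]
  haveI : NeZero (q ^ 0) := ⟨pow_ne_zero _ (NeZero.ne q)⟩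
  rw [qExpand_congr (pow_zero q), qExpand_one_apply]

theorem incQ_mem_L0 (i : ℕ) (hi : i ≤ e) (x : FN M) (hx : x ∈ L0 A M) :
    incQ N q M e hN i hi x ∈ L0 A N := by
  haveI : NeZero (q ^ i) := ⟨pow_ne_zero _ (NeZero.ne q)⟩
  rw [Fermat.Agent.S36.NU.H23.mem_L0_iff_coeffMap] at hx ⊢
  intro σ hσ
  rw [coe_incQ, Fermat.Agent.S36.NU.H82.coeffMap_qExp82, hx σ hσ]

/-- `x ↦ x (q^i τ)` on the inertia-fixed functions. -/
def incL0 (i : ℕ) (hi : i ≤ e) : ↥(L0 A M) →+* ↥(L0 A N) :=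
  ((incQ N q M e hN i hi).toRingHom.comp (L0 A M).subtype).codRestrict (L0 A N)
    (fun x => incQ_mem_L0 A N q M e hN i hi x.1 x.2)

theorem coe_incL0 (i : ℕ) (hi : i ≤ e) (x : ↥(L0 A M)) :
    ((incL0 A N q M e hN i hi x : ↥(L0 A N)) : FN N) = incQ N q M e hN i hi (x : FN M) := rfl

theorem coe_coe_incL0 (i : ℕ) (hi : i ≤ e) (x : ↥(L0 A M)) :
    (((incL0 A N q M e hN i hi x : ↥(L0 A N)) : FN N) : LaurentSeries Kbar)
      = qExpand Kbar (q ^ i) (((x : ↥(L0 A M)) : FN M) : LaurentSeries Kbar) := rfl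

theorem incL0_injective (i : ℕ) (hi : i ≤ e) : Function.Injective (incL0 A N q M e hN i hi) :=
  (incL0 A N q M e hN i hi).injective

/-! ## The expansions at the cusps -/

include hB hq in
/-- `i ≤ a`: `cE a (x (q^i τ)) = x (s^(q^(e - 2 a + i)))`. -/
theorem cE_incQ_le (i : ℕ) (hi : i ≤ e) (a : ℕ) (hia : i ≤ a) (x : FN M) :
    cE N q M e B k hN hB hq a (incQ N q M e hN i hi x)
      = qExpand Kbar (q ^ (e - 2 * a + i)) (x : LaurentSeries Kbar) := by
  have hq0 : 0 < q := hq.pos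
  haveI : NeZero (q ^ (e - 2 * a + i)) := ⟨(pow_pos hq0 _).ne'⟩
  have key : (cE N q M e B k hN hB hq a).comp (incQ N q M e hN i hi)
      = (qExpandAlgHomC Kbar (q ^ (e - 2 * a + i))).comp (modularFunctionFieldBar M).val := by
    apply algHom_ext_of_adjoin _ (adjoin_jdF M)
    rintro y ⟨D, hD0, hD, rfl⟩
    obtain ⟨d', hM⟩ := hD
    have hD' : D ∣ M := ⟨d', hM⟩
    have hD0' : 0 < D := Nat.pos_of_ne_zero (NeZero.ne D)
    haveI : NeZero (D * q ^ i) := ⟨(Nat.mul_pos hD0' (pow_pos hq0 _)).ne'⟩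
    haveI : NeZero (D * q ^ (e - 2 * a + i)) := ⟨(Nat.mul_pos hD0' (pow_pos hq0 _)).ne'⟩
    have hDN : D * q ^ i ∣ N := by
      rw [hN]
      exact Nat.mul_dvd_mul hD' (pow_dvd_pow q hi)
    show cE N q M e B k hN hB hq a (incQ N q M e hN i hi (jdF M D hD'))
      = qExpand Kbar (q ^ (e - 2 * a + i)) ((jdF M D hD' : FN M) : LaurentSeries Kbar)
    rw [incQ_jdF N q M e hN i hi D hD' hDN,
      cE_jdF_le N q M e B k hN hB hq D d' i a hM hia hDN, coe_jdF, qExpand_qExpand]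
    exact qExpand_congr (mul_comm _ _) _
  exact DFunLike.congr_fun key x

include hB hq in
/-- `a < i ≤ e`: `cE a (x (q^i τ)) = (twist z_a) (x (s^(q^(max(e, 2 a) - i))))`. -/
theorem cE_incQ_gt (i : ℕ) (hi : i ≤ e) (a : ℕ) (hai : a < i) (x : FN M) :
    cE N q M e B k hN hB hq a (incQ N q M e hN i hi x)
      = twist (zE q e a B) (qExpand Kbar (q ^ (max e (2 * a) - i)) (x : LaurentSeries Kbar)) := by
  have hq0 : 0 < q := hq.pos
  haveI : NeZero (q ^ (max e (2 * a) - i)) := ⟨(pow_pos hq0 _).ne'⟩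
  have key : (cE N q M e B k hN hB hq a).comp (incQ N q M e hN i hi)
      = ((twA (zE q e a B) (zE_ne_zero q e a B)).comp
          (qExpandAlgHomC Kbar (q ^ (max e (2 * a) - i)))).comp
          (modularFunctionFieldBar M).val := by
    apply algHom_ext_of_adjoin _ (adjoin_jdF M)
    rintro y ⟨D, hD0, hD, rfl⟩
    obtain ⟨d', hM⟩ := hD
    have hD' : D ∣ M := ⟨d', hM⟩
    have hD0' : 0 < D := Nat.pos_of_ne_zero (NeZero.ne D)
    haveI : NeZero (D * q ^ i) := ⟨(Nat.mul_pos hD0' (pow_pos hq0 _)).ne'⟩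
    haveI : NeZero (D * q ^ (max e (2 * a) - i)) := ⟨(Nat.mul_pos hD0' (pow_pos hq0 _)).ne'⟩
    have hDN : D * q ^ i ∣ N := by
      rw [hN]
      exact Nat.mul_dvd_mul hD' (pow_dvd_pow q hi)
    show cE N q M e B k hN hB hq a (incQ N q M e hN i hi (jdF M D hD'))
      = twist (zE q e a B)
          (qExpand Kbar (q ^ (max e (2 * a) - i)) ((jdF M D hD' : FN M) : LaurentSeries Kbar))
    rw [incQ_jdF N q M e hN i hi D hD' hDN,
      cE_jdF_gt N q M e B k hN hB hq D d' i a hM hai hi hDN, coe_jdF, qExpand_qExpand]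
    congr 1
    exact qExpand_congr (mul_comm _ _) _
  exact DFunLike.congr_fun key x

/-! ## Membership and reductions -/

include hB hq in
/-- **`x (q^i τ) ∈ V_a`** for `x` in the Gauss ring of the good level (every `a`). -/
theorem incL0_mem_VE (i : ℕ) (hi : i ≤ e) (a : ℕ) (x : ↥(L0 A M)) (hx : x ∈ VE0 A M) :
    incL0 A N q M e hN i hi x ∈ VE A N q M e B k hN hB hq a := by
  haveI : NeZero (q ^ (e - 2 * a + i)) := ⟨pow_ne_zero _ (NeZero.ne q)⟩
  haveI : NeZero (q ^ (max e (2 * a) - i)) := ⟨pow_ne_zero _ (NeZero.ne q)⟩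
  rw [mem_VE_iff, coe_incL0]
  rcases Nat.lt_or_ge a i with h | h
  · rw [cE_incQ_gt N q M e B k hN hB hq i hi a h]
    exact twist_zE_mem A q e a B (Fermat.Agent.BAD.H73.qExpand_mem_gaussRingV A _ hx)
  · rw [cE_incQ_le N q M e B k hN hB hq i hi a h]
    exact Fermat.Agent.BAD.H73.qExpand_mem_gaussRingV A _ hx

include hB hq in
/-- **`i ≤ a`: `sE a (x (q^i τ)) = (sE₀ x)(s^(q^(e - 2 a + i)))`.** -/
theorem sE_incL0_le (i : ℕ) (hi : i ≤ e) (a : ℕ) (hia : i ≤ a) (x : ↥(VE0 A M))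
    (h : incL0 A N q M e hN i hi (x : ↥(L0 A M)) ∈ VE A N q M e B k hN hB hq a) :
    haveI : NeZero (q ^ (e - 2 * a + i)) := ⟨pow_ne_zero _ (NeZero.ne q)⟩
    sE A N q M e B k hN hB hq a ⟨_, h⟩ = qExpand (kV A) (q ^ (e - 2 * a + i)) (sE0 A M x) := by
  haveI : NeZero (q ^ (e - 2 * a + i)) := ⟨pow_ne_zero _ (NeZero.ne q)⟩
  rw [sE_mk]
  have hx : (((x : ↥(L0 A M)) : FN M) : LaurentSeries Kbar) ∈ gaussRingV A := x.2
  have h1 : qExpand Kbar (q ^ (e - 2 * a + i)) (((x : ↥(L0 A M)) : FN M) : LaurentSeries Kbar)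
      ∈ gaussRingV A := Fermat.Agent.BAD.H73.qExpand_mem_gaussRingV A _ hx
  have e2 : (⟨cE N q M e B k hN hB hq a
      ((incL0 A N q M e hN i hi (x : ↥(L0 A M)) : ↥(L0 A N)) : FN N), h⟩ : gaussRingV A)
      = ⟨qExpand Kbar (q ^ (e - 2 * a + i)) (((x : ↥(L0 A M)) : FN M) : LaurentSeries Kbar),
          h1⟩ :=
    Subtype.ext (by
      show cE N q M e B k hN hB hq a
          ((incL0 A N q M e hN i hi (x : ↥(L0 A M)) : ↥(L0 A N)) : FN N)
        = qExpand Kbar (q ^ (e - 2 * a + i)) (((x : ↥(L0 A M)) : FN M) : LaurentSeries Kbar)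
      rw [coe_incL0, cE_incQ_le N q M e B k hN hB hq i hi a hia])
  rw [e2, Fermat.Agent.BAD.H73.gaussRedV_qExpand A _ hx h1]
  rfl

include hB hq in
/-- **`a < i ≤ e`: `sE a (x (q^i τ)) = (sE₀ x)(s^(q^(max(e, 2 a) - i)))`.** -/
theorem sE_incL0_gt (hA : (q : Kbar) ∈ A.nonunits) (i : ℕ) (hi : i ≤ e) (a : ℕ) (hai : a < i)
    (x : ↥(VE0 A M))
    (h : incL0 A N q M e hN i hi (x : ↥(L0 A M)) ∈ VE A N q M e B k hN hB hq a) :
    haveI : NeZero (q ^ (max e (2 * a) - i)) := ⟨pow_ne_zero _ (NeZero.ne q)⟩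
    sE A N q M e B k hN hB hq a ⟨_, h⟩
      = qExpand (kV A) (q ^ (max e (2 * a) - i)) (sE0 A M x) := by
  haveI : NeZero (q ^ (max e (2 * a) - i)) := ⟨pow_ne_zero _ (NeZero.ne q)⟩
  rw [sE_mk]
  have hx : (((x : ↥(L0 A M)) : FN M) : LaurentSeries Kbar) ∈ gaussRingV A := x.2
  have h1 : qExpand Kbar (q ^ (max e (2 * a) - i))
      (((x : ↥(L0 A M)) : FN M) : LaurentSeries Kbar) ∈ gaussRingV A :=
    Fermat.Agent.BAD.H73.qExpand_mem_gaussRingV A _ hx
  have e2 : (⟨cE N q M e B k hN hB hq a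
      ((incL0 A N q M e hN i hi (x : ↥(L0 A M)) : ↥(L0 A N)) : FN N), h⟩ : gaussRingV A)
      = ⟨twist (zE q e a B) (qExpand Kbar (q ^ (max e (2 * a) - i))
          (((x : ↥(L0 A M)) : FN M) : LaurentSeries Kbar)), twist_zE_mem A q e a B h1⟩ :=
    Subtype.ext (by
      show cE N q M e B k hN hB hq a
          ((incL0 A N q M e hN i hi (x : ↥(L0 A M)) : ↥(L0 A N)) : FN N)
        = twist (zE q e a B) (qExpand Kbar (q ^ (max e (2 * a) - i))
          (((x : ↥(L0 A M)) : FN M) : LaurentSeries Kbar))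
      rw [coe_incL0, cE_incQ_gt N q M e B k hN hB hq i hi a hai])
  rw [e2, gaussRedV_twist_zE A q e a B hq hA ⟨_, h1⟩,
    Fermat.Agent.BAD.H73.gaussRedV_qExpand A _ hx h1]
  rfl

/-- The exponent `ν_a(i)`: `sE a (x (q^i τ)) = (sE₀ x)(s^(q^(ν_a i)))`. -/
def nuE (e a i : ℕ) : ℕ := if i ≤ a then e - 2 * a + i else max e (2 * a) - i

theorem nuE_of_le (e a i : ℕ) (h : i ≤ a) : nuE e a i = e - 2 * a + i := if_pos h

theorem nuE_of_gt (e a i : ℕ) (h : a < i) : nuE e a i = max e (2 * a) - i :=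
  if_neg (by omega)

include hB hq in
/-- **`sE a (x (q^i τ)) = (sE₀ x)(s^(q^(ν_a i)))`**, both cases. -/
theorem sE_incL0 (hA : (q : Kbar) ∈ A.nonunits) (i : ℕ) (hi : i ≤ e) (a : ℕ) (x : ↥(VE0 A M))
    (h : incL0 A N q M e hN i hi (x : ↥(L0 A M)) ∈ VE A N q M e B k hN hB hq a) :
    haveI : NeZero (q ^ nuE e a i) := ⟨pow_ne_zero _ (NeZero.ne q)⟩
    sE A N q M e B k hN hB hq a ⟨_, h⟩ = qExpand (kV A) (q ^ nuE e a i) (sE0 A M x) := by
  haveI : NeZero (q ^ nuE e a i) := ⟨pow_ne_zero _ (NeZero.ne q)⟩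
  haveI : NeZero (q ^ (e - 2 * a + i)) := ⟨pow_ne_zero _ (NeZero.ne q)⟩
  haveI : NeZero (q ^ (max e (2 * a) - i)) := ⟨pow_ne_zero _ (NeZero.ne q)⟩
  rcases Nat.lt_or_ge a i with hlt | hge
  · rw [sE_incL0_gt A N q M e B k hN hB hq hA i hi a hlt x h]
    exact qExpand_congr (by rw [nuE_of_gt e a i hlt]) _
  · rw [sE_incL0_le A N q M e B k hN hB hq i hi a hge x h]
    exact qExpand_congr (by rw [nuE_of_le e a i hge]) _

end Level

end Fermat.Agent.S45.NUE.H99
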