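import Fermat.Agent.S45.NUE.H99_OrdE
import Fermat.Agent.S45.NUE.H12_SSInt
import Fermat.Agent.S36.NU.H73_GuUnit
import Fermat.Agent.S36.NU.H99_OrdMod1
import Fermat.Agent.S45.NUE.H26_OrdSer

/-!
# S45 / NU_e, leaf E-PT-ORD (helper99): the certificate of the components `0 < a < e` for
`q ≥ 5`, `4 ∣ M`

The coordinate is the modular unit `u = Δ(t)/Δ(t⁴)` of level `M` (as in S36, `H99.ord11_u4`):
`(θ ū)¹² = 3¹² v̄⁶ v̄₂¹⁶ Δ̄²` (helper73).

* `wU4`, `wU4i` : the unit `v⁶ v₂¹⁶` of level `M` and its inverse, `sE0_wU4`;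
* `isUnitOff_incQ_unitF`, `isIntegral_incL0_unitF` : horizontal integrality of
  `(Δ(t)/Δ(t^d))(q^i τ)`;
* `isIntegral_piUo_u4` : horizontal integrality of the local equation;
* `midCertE_u4` : **`MidCertE a`**, by helper26's series identity `H26.serJ3`.
-/

set_option autoImplicit false
set_option synthInstance.maxHeartbeats 400000
set_option maxHeartbeats 1000000
set_option linter.unusedSectionVars false
set_option linter.unusedVariables false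
set_option linter.style.haveILetI false

noncomputable section

open ModularCurve AlgebraicCurve IntermediateField
open Fermat.Agent.S24 Fermat.Agent.BAD.H88 Fermat.Agent.BAD.H30 Fermat.Agent.BAD.H21
open Fermat.Agent.S28 Fermat.Agent.S28.H73 Fermat.Agent.RED.H73 Fermat.Agent.RED.H17
open Fermat.Agent.S36.NU Fermat.Agent.S36.NU.H88 Fermat.Agent.S36.NU.H23
open Fermat.Agent.S36.NU.H41 Fermat.Agent.RED

namespace Fermat.Agent.S45.NUE.H99

open Fermat.Agent.S36.NU.H99 (isIntegral_Kur_of_bar isIntegral_bar_of_unitOff IsUnitOff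
  isUnitOff_const isUnitOff_unitF uE uEi uE_mul_uEi sE_uE)
open Fermat.Agent.S45.NUE.H23 (VE sE)
open Fermat.Agent.S45.NUE.H73 (dE)
open Fermat.Agent.S45.NUE.H82 (HUk)

section LevelM

variable (A : ValuationSubring Kbar) (M : ℕ) [NeZero M] (h4 : 4 ∣ M)

include h4 in
theorem two_dvd_of_four : 2 ∣ M := Dvd.dvd.trans (by norm_num) h4

/-- The unit `v⁶ v₂¹⁶` of level `M`, `v = Δ(t)/Δ(t²)`, `v₂ = Δ(t²)/Δ(t⁴)`. -/
def wU4 : ↥(Fermat.Agent.S36.NU.H23.VE0 A M) :=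
  uE A M 2 (two_dvd_of_four M h4) ^ 6
    * (uE A M 4 h4 * uEi A M 2 (two_dvd_of_four M h4)) ^ 16

/-- Its inverse. -/
def wU4i : ↥(Fermat.Agent.S36.NU.H23.VE0 A M) :=
  uEi A M 2 (two_dvd_of_four M h4) ^ 6
    * (uEi A M 4 h4 * uE A M 2 (two_dvd_of_four M h4)) ^ 16

theorem wU4_mul_wU4i : wU4 A M h4 * wU4i A M h4 = 1 := by
  have h2 := uE_mul_uEi A M 2 (two_dvd_of_four M h4)
  have h4' := uE_mul_uEi A M 4 h4
  have e : wU4 A M h4 * wU4i A M h4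
      = (uE A M 2 (two_dvd_of_four M h4) * uEi A M 2 (two_dvd_of_four M h4)) ^ 6
        * ((uE A M 4 h4 * uEi A M 4 h4)
          * (uE A M 2 (two_dvd_of_four M h4) * uEi A M 2 (two_dvd_of_four M h4))) ^ 16 := by
    rw [wU4, wU4i]
    ring
  rw [e, h2, h4']
  simp

theorem sE0_uEi (d : ℕ) [NeZero d] (hd : d ∣ M) :
    Fermat.Agent.S36.NU.H23.sE A M (uEi A M d hd)
      = (deltaR (kV A) * (qExpand (kV A) d (deltaR (kV A)))⁻¹)⁻¹ := by
  rw [← sE_uE A M d hd]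
  apply eq_inv_of_mul_eq_one_right
  rw [← map_mul, uE_mul_uEi, map_one]

/-- The reduction of `v⁶ v₂¹⁶`. -/
theorem sE0_wU4 :
    Fermat.Agent.S36.NU.H23.sE A M (wU4 A M h4)
      = H73.vbar (kV A) ^ 6 * H73.vbar2 (kV A) ^ 16 := by
  rw [wU4, map_mul, map_pow, map_pow, map_mul, sE_uE, sE_uE, sE0_uEi, ← H73.vbar_eq,
    ← H73.ubar4_eq, ← H73.vbar2_eq]

theorem coe_wU4 :
    (((wU4 A M h4 : ↥(Fermat.Agent.S36.NU.H23.VE0 A M)) : ↥(L0 A M)) : FN M)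
      = unitF M 2 (two_dvd_of_four M h4) ^ 6
        * (unitF M 4 h4 * (unitF M 2 (two_dvd_of_four M h4))⁻¹) ^ 16 := by
  rw [wU4]
  simp only [MulMemClass.coe_mul, SubmonoidClass.coe_pow]
  rfl

theorem coe_wU4i :
    (((wU4i A M h4 : ↥(Fermat.Agent.S36.NU.H23.VE0 A M)) : ↥(L0 A M)) : FN M)
      = ((unitF M 2 (two_dvd_of_four M h4))⁻¹) ^ 6
        * ((unitF M 4 h4)⁻¹ * unitF M 2 (two_dvd_of_four M h4)) ^ 16 := by
  rw [wU4i]
  simp only [MulMemClass.coe_mul, SubmonoidClass.coe_pow]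
  rfl

end LevelM

section Level

variable (A : ValuationSubring Kbar)
variable (N q M e : ℕ) (B k : ℤ) (hN : N = M * q ^ e) (hB : B * M + k * (q : ℤ) ^ e = 1)
  (hq : q.Prime) [NeZero N] [NeZero q] [NeZero M]

/-- `(Δ(t)/Δ(t^d))(q^i τ)` has neither zero nor pole off the cusps. -/
theorem isUnitOff_incQ_unitF (i : ℕ) (hi : i ≤ e) (d : ℕ) [NeZero d] (hd : d ∣ M) :
    IsUnitOff N (incQ N q M e hN i hi (unitF M d hd)) := by
  haveI : NeZero (q ^ i) := ⟨pow_ne_zero _ (NeZero.ne q)⟩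
  have hcN : d * q ^ i ∣ N := by
    rw [hN]
    exact Nat.mul_dvd_mul hd (pow_dvd_pow q hi)
  exact H12.isUnitOff_y_of_pow d hd (q ^ i) hcN (unitF M d hd) 1 one_ne_zero (pow_one _) _
    (coe_incQ N q M e hN i hi _)

/-- Horizontal integrality of `f(q^i τ)` when `f(q^i τ)` is a unit off the cusps. -/
theorem isIntegral_incL0_of_unitOff (i : ℕ) (hi : i ≤ e) (x : ↥(L0 A M))
    (hx : IsUnitOff N (incQ N q M e hN i hi (x : FN M))) :
    IsIntegral ↥(Algebra.adjoin ↥(Kur A) ({j0 A N} : Set ↥(L0 A N)))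
      (incL0 A N q M e hN i hi x) :=
  isIntegral_Kur_of_bar A _ _ (isIntegral_bar_of_unitOff hx)

/-- **Horizontal integrality of the local equation** for `f = Δ(t)/Δ(t⁴)`. -/
theorem isIntegral_piUo_u4 (h4 : 4 ∣ M) (a : ℕ) (hae : a ≤ e) :
    IsIntegral ↥(Algebra.adjoin ↥(Kur A) ({j0 A N} : Set ↥(L0 A N)))
      (piUo A N q M e hN (unitF M 4 h4) H73.uZ4 (H73.coeffMap_uZ4_Kbar M h4) a hae) := by
  rw [piUo]
  exact (isIntegral_incL0_of_unitOff A N q M e hN _ _ _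
      (isUnitOff_incQ_unitF N q M e hN _ _ 4 h4)).sub
    (isIntegral_incL0_of_unitOff A N q M e hN _ _ _
      (isUnitOff_incQ_unitF N q M e hN _ _ 4 h4))

theorem isUnitOff_incQ_wU4 (h4 : 4 ∣ M) (i : ℕ) (hi : i ≤ e) :
    IsUnitOff N (incQ N q M e hN i hi
      (((wU4 A M h4 : ↥(Fermat.Agent.S36.NU.H23.VE0 A M)) : ↥(L0 A M)) : FN M)) := by
  have hu2 := isUnitOff_incQ_unitF N q M e hN i hi 2 (two_dvd_of_four M h4)
  have hu4 := isUnitOff_incQ_unitF N q M e hN i hi 4 h4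
  rw [coe_wU4, map_mul, map_pow, map_pow, map_mul, map_inv₀]
  exact (hu2.pow 6).mul ((hu4.mul hu2.inv).pow 16)

theorem isUnitOff_incQ_wU4i (h4 : 4 ∣ M) (i : ℕ) (hi : i ≤ e) :
    IsUnitOff N (incQ N q M e hN i hi
      (((wU4i A M h4 : ↥(Fermat.Agent.S36.NU.H23.VE0 A M)) : ↥(L0 A M)) : FN M)) := by
  have hu2 := isUnitOff_incQ_unitF N q M e hN i hi 2 (two_dvd_of_four M h4)
  have hu4 := isUnitOff_incQ_unitF N q M e hN i hi 4 h4
  rw [coe_wU4i, map_mul, map_pow, map_pow, map_mul, map_inv₀, map_inv₀]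
  exact (hu2.inv.pow 6).mul ((hu4.inv.mul hu2).pow 16)

/-- The unit `(v⁶ v₂¹⁶)(q^i τ)` of level `N`. -/
def WoU4 (h4 : 4 ∣ M) (i : ℕ) (hi : i ≤ e) : ↥(L0 A N) :=
  incL0 A N q M e hN i hi ((wU4 A M h4 : ↥(Fermat.Agent.S36.NU.H23.VE0 A M)) : ↥(L0 A M))

/-- Its inverse. -/
def WoU4i (h4 : 4 ∣ M) (i : ℕ) (hi : i ≤ e) : ↥(L0 A N) :=
  incL0 A N q M e hN i hi ((wU4i A M h4 : ↥(Fermat.Agent.S36.NU.H23.VE0 A M)) : ↥(L0 A M))

theorem WoU4_mul_WoU4i (h4 : 4 ∣ M) (i : ℕ) (hi : i ≤ e) :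
    WoU4 A N q M e hN h4 i hi * WoU4i A N q M e hN h4 i hi = 1 := by
  rw [WoU4, WoU4i, ← map_mul]
  have h1 : ((wU4 A M h4 : ↥(Fermat.Agent.S36.NU.H23.VE0 A M)) : ↥(L0 A M))
      * ((wU4i A M h4 : ↥(Fermat.Agent.S36.NU.H23.VE0 A M)) : ↥(L0 A M)) = 1 :=
    congrArg Subtype.val (wU4_mul_wU4i A M h4)
  rw [h1, map_one]

theorem isIntegral_WoU4 (h4 : 4 ∣ M) (i : ℕ) (hi : i ≤ e) :
    IsIntegral ↥(Algebra.adjoin ↥(Kur A) ({j0 A N} : Set ↥(L0 A N)))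
      (WoU4 A N q M e hN h4 i hi) :=
  isIntegral_incL0_of_unitOff A N q M e hN _ _ _ (isUnitOff_incQ_wU4 A N q M e hN h4 i hi)

theorem isIntegral_WoU4i (h4 : 4 ∣ M) (i : ℕ) (hi : i ≤ e) :
    IsIntegral ↥(Algebra.adjoin ↥(Kur A) ({j0 A N} : Set ↥(L0 A N)))
      (WoU4i A N q M e hN h4 i hi) :=
  isIntegral_incL0_of_unitOff A N q M e hN _ _ _ (isUnitOff_incQ_wU4i A N q M e hN h4 i hi)

theorem WoU4_mem_VE (h4 : 4 ∣ M) (i : ℕ) (hi : i ≤ e) (b : ℕ) :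
    WoU4 A N q M e hN h4 i hi ∈ VE A N q M e B k hN hB hq b :=
  incL0_mem_VE A N q M e B k hN hB hq _ _ b _ (wU4 A M h4).2

theorem WoU4i_mem_VE (h4 : 4 ∣ M) (i : ℕ) (hi : i ≤ e) (b : ℕ) :
    WoU4i A N q M e hN h4 i hi ∈ VE A N q M e B k hN hB hq b :=
  incL0_mem_VE A N q M e B k hN hB hq _ _ b _ (wU4i A M h4).2

/-- The reduction of `(v⁶ v₂¹⁶)(q^i τ)`, `i = a - min a (e - a)`, on the component `a`. -/
theorem sE_WoU4 (h4 : 4 ∣ M) (a : ℕ) (hae : a ≤ e)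
    (h : WoU4 A N q M e hN h4 (a - min a (e - a)) (sub_min_le e a hae)
      ∈ VE A N q M e B k hN hB hq a) :
    haveI : NeZero (q ^ dE e a) := ⟨pow_ne_zero _ (NeZero.ne q)⟩
    sE A N q M e B k hN hB hq a ⟨WoU4 A N q M e hN h4 (a - min a (e - a)) (sub_min_le e a hae), h⟩
      = qExpand (kV A) (q ^ dE e a) (H73.vbar (kV A) ^ 6 * H73.vbar2 (kV A) ^ 16) := by
  haveI : NeZero (q ^ dE e a) := ⟨pow_ne_zero _ (NeZero.ne q)⟩
  haveI : NeZero (q ^ (e - 2 * a + (a - min a (e - a)))) := ⟨pow_ne_zero _ (NeZero.ne q)⟩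
  have e2 : e - 2 * a + (a - min a (e - a)) = dE e a := by rw [dE]; omega
  rw [← sE0_wU4 A M h4, ← Fermat.Agent.BAD.H73.qExpand_congr (congrArg (q ^ ·) e2)]
  exact sE_incL0_le A N q M e B k hN hB hq _ (sub_min_le e a hae) a (Nat.sub_le _ _)
    (wU4 A M h4) h

include hq in
/-- **The certificate of the component `0 < a < e`** for `q ≥ 5`, `4 ∣ M`. -/
theorem midCertE_u4 (hA : (q : Kbar) ∈ A.nonunits) (h5 : 5 ≤ q) (h4 : 4 ∣ M)
    (a : ℕ) (ha1 : 1 ≤ a) (hae : a < e) :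
    MidCertE A N q M e B k hN hB hq a ha1 hae := by
  haveI : Fact q.Prime := ⟨hq⟩
  haveI : CharP (kV A) q := Fermat.Agent.BAD.H82.charP_kV A hq hA
  have h3 : (3 : kV A) ≠ 0 := by
    intro h
    have h' : ((3 : ℕ) : kV A) = 0 := by exact_mod_cast h
    have hdvd := (CharP.cast_eq_zero_iff (kV A) q 3).1 h'
    have := Nat.le_of_dvd (by norm_num) hdvd
    omega
  have hε := resV_epsU_ne_zero A q M e B k hB hq a ha1 hae
  refine ⟨unitF M 4 h4, H73.uZ4, H73.coeffMap_uZ4_Kbar M h4, 12, 11,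
    resV A ⟨epsU q e a B, epsU_mem A q M e B k hB hq a ha1 hae⟩ ^ 12
      * 3 ^ (12 * Nat.totient (q ^ min a (e - a))),
    WoU4 A N q M e hN h4 (a - min a (e - a)) (sub_min_le e a hae.le)
      ^ Nat.totient (q ^ min a (e - a)),
    WoU4i A N q M e hN h4 (a - min a (e - a)) (sub_min_le e a hae.le)
      ^ Nat.totient (q ^ min a (e - a)),
    isIntegral_piUo_u4 A N q M e hN h4 a hae.le, by norm_num,
    mul_ne_zero (pow_ne_zero _ hε) (pow_ne_zero _ h3), ?_, ?_, ?_, ?_, ?_⟩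
  · rw [← mul_pow, WoU4_mul_WoU4i, one_pow]
  · exact (isIntegral_WoU4 A N q M e hN h4 _ _).pow _
  · exact (isIntegral_WoU4i A N q M e hN h4 _ _).pow _
  · exact fun b _ => ⟨pow_mem (WoU4_mem_VE A N q M e B k hN hB hq h4 _ _ b) _,
      pow_mem (WoU4i_mem_VE A N q M e B k hN hB hq h4 _ _ b) _⟩
  · intro hU
    have e1 := SubmonoidClass.mk_pow
      (WoU4 A N q M e hN h4 (a - min a (e - a)) (sub_min_le e a hae.le))
      (WoU4_mem_VE A N q M e B k hN hB hq h4 _ _ a) (Nat.totient (q ^ min a (e - a)))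
    have e1' : (⟨WoU4 A N q M e hN h4 (a - min a (e - a)) (sub_min_le e a hae.le)
        ^ Nat.totient (q ^ min a (e - a)), hU⟩ : ↥(VE A N q M e B k hN hB hq a))
        = ⟨WoU4 A N q M e hN h4 (a - min a (e - a)) (sub_min_le e a hae.le),
            WoU4_mem_VE A N q M e B k hN hB hq h4 _ _ a⟩ ^ Nat.totient (q ^ min a (e - a)) :=
      e1.symm
    rw [e1', map_pow, sE_WoU4 A N q M e B k hN hB hq h4 a hae.le, H73.coeffMap_uZ4]
    exact Fermat.Agent.S45.NUE.H26.serJ3 A q hq hA e a ha1 hae _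

end Level

end Fermat.Agent.S45.NUE.H99
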