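import Fermat.Agent.S45.NUE.H99_OrdCertU4
import Fermat.Agent.S45.NUE.H74_ChartEInst
import Fermat.Agent.S45.NUE.H82_EwEVal

/-!
# S45 / NU_e, leaf E-PT-ORD (helper99): the hypothesis `hord` on the chart of `j` of `totEM`

Level `N = M q^e`, `q ∤ M`, `e ≥ 1`, `T = totEM …` (helper23), `h : ChartInE A N T` (helper81),
chart `chart0E A N T h` with helper74's `ChartE` instance, helper82's statements on the
witnesses `EwE`.

* `witE0` : the ordinary witnesses of the chart of `j` (`coe_witE0 : witE0 i = EwE i`);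
* `hordE_totEM_of_cert` : **`hord`** of `H88.pointDataE_of_dichotomy` from the certificates
  `MidCertE a`, `0 < a < e`;
* `hordE_totEM_five` : **`hord`**, unconditional, for `q ≥ 5`, `4 ∣ M`.
-/

set_option autoImplicit false
set_option synthInstance.maxHeartbeats 400000
set_option maxHeartbeats 1000000
set_option linter.unusedSectionVars false
set_option linter.unusedVariables false
set_option linter.style.haveILetI false

noncomputable section

open ModularCurve AlgebraicCurve IntermediateField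
open Fermat.Agent.S24 Fermat.Agent.BAD.H88 Fermat.Agent.S28 Fermat.Agent.S28.H73
  Fermat.Agent.S36.NU.H88 Fermat.Agent.S36.NU.H23
  Fermat.Agent.S36.NU.H16 Fermat.Agent.S36.NU.H24 Fermat.Agent.S36.NU.H65
  Fermat.Agent.S36.NU.H41 Fermat.Agent.S36.NU.H17 Fermat.Agent.S36.NU.H79
  Fermat.Agent.RED.H73 Fermat.Agent.RED.H17 Fermat.Agent.BAD
open Fermat.Agent.S45.NUE.H23 Fermat.Agent.S45.NUE.H74

namespace Fermat.Agent.S45.NUE.H99

section Inst

variable (A : ValuationSubring Kbar)
variable (N q M e : ℕ) (B k : ℤ) (hN : N = M * q ^ e) (hB : B * M + k * (q : ℤ) ^ e = 1)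
  (hq : q.Prime) [NeZero N] [NeZero q] [NeZero M] (hqM : ¬ q ∣ M) (hA : A.LiesOverPrime q)
  (ht : H91.TameAt M q) (he : 0 < e)

attribute [local instance] algkE

/-- **The ordinary witnesses** of the chart of `j` over `totEM`. -/
def witE0 (h : ChartInE A N (totEM A N q M e B k hN hB hq hqM hA ht he)) (i : Fin (e + 1)) :
    (chart0E A N (totEM A N q M e B k hN hB hq hqM hA ht he) h).B :=
  (H74.chartE_chart0E A N q M e B k hN hB hq hqM hA ht he h).witE
    (H82.stmt_EwE_mem A N q M e B k hN hB hq he) i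

theorem coe_witE0 (h : ChartInE A N (totEM A N q M e B k hN hB hq hqM hA ht he))
    (i : Fin (e + 1)) :
    ((witE0 A N q M e B k hN hB hq hqM hA ht he h i :
        (chart0E A N (totEM A N q M e B k hN hB hq hqM hA ht he) h).B) : ↥(L0 A N))
      = H82.EwE A N q e (i : ℕ) := rfl

/-- **`hord` on the chart of `j`**, from the certificates of the components `0 < a < e`. -/
theorem hordE_totEM_of_cert (h : ChartInE A N (totEM A N q M e B k hN hB hq hqM hA ht he))
    (hcert : ∀ (a : ℕ) (ha1 : 1 ≤ a) (hae : a < e), MidCertE A N q M e B k hN hB hq a ha1 hae) :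
    ∀ 𝔪 : Ideal (chart0E A N (totEM A N q M e B k hN hB hq hqM hA ht he) h).B, 𝔪.IsMaximal →
      ∀ i, (chart0E A N (totEM A N q M e B k hN hB hq hqM hA ht he) h).Icomp i ≤ 𝔪 →
        witE0 A N q M e B k hN hB hq hqM hA ht he h i ∉ 𝔪 →
        Nonempty (LocEq (chart0E A N (totEM A N q M e B k hN hB hq hqM hA ht he) h)
            ((q : ℕ) : ↥(Rur A)) 𝔪)
          ∧ ∀ i', (chart0E A N (totEM A N q M e B k hN hB hq hqM hA ht he) h).Icomp i' ≤ 𝔪 →
            i' = i :=
  hordE (hq := hq) (H74.chartE_chart0E A N q M e B k hN hB hq hqM hA ht he h) hA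
    (H82.stmt_EwE_mem A N q M e B k hN hB hq he)
    (H82.stmt_EwE_div A N q M e B k hN hB hq he)
    (H82.stmt_EwE_red A N q M e B k hN hB hq he hA) hcert

/-- **`hord` on the chart of `j`**, unconditional, for `q ≥ 5`, `4 ∣ M`. -/
theorem hordE_totEM_five (h5 : 5 ≤ q) (h4 : 4 ∣ M)
    (h : ChartInE A N (totEM A N q M e B k hN hB hq hqM hA ht he)) :
    ∀ 𝔪 : Ideal (chart0E A N (totEM A N q M e B k hN hB hq hqM hA ht he) h).B, 𝔪.IsMaximal →
      ∀ i, (chart0E A N (totEM A N q M e B k hN hB hq hqM hA ht he) h).Icomp i ≤ 𝔪 →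
        witE0 A N q M e B k hN hB hq hqM hA ht he h i ∉ 𝔪 →
        Nonempty (LocEq (chart0E A N (totEM A N q M e B k hN hB hq hqM hA ht he) h)
            ((q : ℕ) : ↥(Rur A)) 𝔪)
          ∧ ∀ i', (chart0E A N (totEM A N q M e B k hN hB hq hqM hA ht he) h).Icomp i' ≤ 𝔪 →
            i' = i :=
  hordE_totEM_of_cert A N q M e B k hN hB hq hqM hA ht he h fun a ha1 hae =>
    midCertE_u4 A N q M e B k hN hB hq hA h5 h4 a ha1 hae

end Inst

end Fermat.Agent.S45.NUE.H99
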